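import Mathlib.RingTheory.Valuation.ValuationSubring
import Mathlib.RingTheory.IntegralClosure.Algebra.Basic
import Mathlib.RingTheory.Polynomial.Content
import Mathlib.Data.Nat.Prime.Int
import Mathlib.Tactic

set_option autoImplicit false

namespace Fermat.Agent.Lib.ValFrac

open Polynomial

variable {L : Type*} [Field L]

/-- The tail `y = ∑_{j ≤ n - r} a (j + r) x ^ j` of a polynomial relation satisfies
`x ^ r * y = - ∑_{i < r} a i x ^ i`. -/
theorem pow_mul_tail (x : L) (a : ℕ → ℤ) (n r : ℕ) (hr : r ≤ n)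
    (hsum : ∑ i ∈ Finset.range (n + 1), (a i : L) * x ^ i = 0) :
    x ^ r * ∑ j ∈ Finset.range (n + 1 - r), (a (j + r) : L) * x ^ j =
      - ∑ i ∈ Finset.range r, (a i : L) * x ^ i := by
  have h1 : n + 1 = r + (n + 1 - r) := by omega
  rw [h1, Finset.sum_range_add] at hsum
  rw [eq_neg_iff_add_eq_zero, add_comm, ← hsum, Finset.mul_sum]
  congr 1
  apply Finset.sum_congr rfl
  intro j _
  rw [add_comm j r, pow_add]
  ring

theorem tail_mul_pow_mem (x : L) (a : ℕ → ℤ) (n r : ℕ) (hr : r ≤ n)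
    (hsum : ∑ i ∈ Finset.range (n + 1), (a i : L) * x ^ i = 0) (k : ℕ) (hk : k ≤ n) :
    (∑ j ∈ Finset.range (n + 1 - r), (a (j + r) : L) * x ^ j) * x ^ k ∈
      Submodule.span ℤ ((fun i : ℕ => x ^ i) '' (Finset.range n : Set ℕ)) := by
  have hgen : ∀ (c : ℤ) (i : ℕ), i < n → (c : L) * x ^ i ∈
      Submodule.span ℤ ((fun i : ℕ => x ^ i) '' (Finset.range n : Set ℕ)) := by
    intro c i hi
    rw [← zsmul_eq_mul]
    exact Submodule.smul_mem _ _ (Submodule.subset_span ⟨i, by simpa using hi, rfl⟩)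
  by_cases hkr : k < r
  · rw [Finset.sum_mul]
    refine Submodule.sum_mem _ fun j hj => ?_
    rw [Finset.mem_range] at hj
    rw [mul_assoc, ← pow_add]
    exact hgen _ _ (by omega)
  · have hk' : k = r + (k - r) := by omega
    rw [hk', pow_add, ← mul_assoc, mul_comm _ (x ^ r), pow_mul_tail x a n r hr hsum, neg_mul,
      Finset.sum_mul]
    refine Submodule.neg_mem _ (Submodule.sum_mem _ fun i hi => ?_)
    rw [Finset.mem_range] at hi
    rw [mul_assoc, ← pow_add]
    exact hgen _ _ (by omega)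

/-- Dedekind's lemma: the tails of an integral polynomial relation are integral. -/
theorem isIntegral_tail (x : L) (a : ℕ → ℤ) (n r : ℕ) (hn : 0 < n) (hr : r ≤ n)
    (hsum : ∑ i ∈ Finset.range (n + 1), (a i : L) * x ^ i = 0) :
    IsIntegral ℤ (∑ j ∈ Finset.range (n + 1 - r), (a (j + r) : L) * x ^ j) ∧
    IsIntegral ℤ (x * ∑ j ∈ Finset.range (n + 1 - r), (a (j + r) : L) * x ^ j) := by
  set y := ∑ j ∈ Finset.range (n + 1 - r), (a (j + r) : L) * x ^ j with hy
  set M := Submodule.span ℤ ((fun i : ℕ => x ^ i) '' (Finset.range n : Set ℕ)) with hM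
  have hMfg : M.FG := Submodule.fg_span ((Finset.finite_toSet _).image _)
  have hMne : M ≠ ⊥ := by
    intro h
    have h1 : (1 : L) ∈ M := Submodule.subset_span ⟨0, by simpa using hn, by simp⟩
    rw [h, Submodule.mem_bot] at h1
    exact one_ne_zero h1
  have key : ∀ k, k ≤ n → y * x ^ k ∈ M := fun k hk => tail_mul_pow_mem x a n r hr hsum k hk
  constructor
  · refine isIntegral_of_smul_mem_submodule M hMne hMfg y fun m hm => ?_
    induction hm using Submodule.span_induction with
    | mem m hm =>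
      obtain ⟨k, hk, rfl⟩ := hm
      have hk' : k < n := by simpa using hk
      exact key k hk'.le
    | zero => simp
    | add u v _ _ hu hv => rw [smul_add]; exact Submodule.add_mem _ hu hv
    | smul c u _ hu => rw [smul_comm]; exact Submodule.smul_mem _ _ hu
  · refine isIntegral_of_smul_mem_submodule M hMne hMfg (x * y) fun m hm => ?_
    induction hm using Submodule.span_induction with
    | mem m hm =>
      obtain ⟨k, hk, rfl⟩ := hm
      have hk' : k < n := by simpa using hk
      have : (x * y) • x ^ k = y * x ^ (k + 1) := by rw [smul_eq_mul, pow_succ]; ring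
      rw [this]
      exact key (k + 1) hk'
    | zero => simp
    | add u v _ _ hu hv => rw [smul_add]; exact Submodule.add_mem _ hu hv
    | smul c u _ hu => rw [smul_comm]; exact Submodule.smul_mem _ _ hu

/-- In a valuation subring in which the prime `ℓ` is a non-unit, integers prime to `ℓ` are units. -/
theorem valuation_intCast_eq_one (A : ValuationSubring L) (ℓ : ℕ) (hℓ : ℓ.Prime)
    (hA : (ℓ : L) ∈ A.nonunits) (c : ℤ) (hc : ¬ (ℓ : ℤ) ∣ c) : A.valuation (c : L) = 1 := by
  have hle : ∀ d : ℤ, A.valuation (d : L) ≤ 1 := fun d =>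
    (A.valuation_le_one_iff _).mpr (intCast_mem A d)
  refine le_antisymm (hle c) (not_lt.mp fun hlt => ?_)
  have hcop : IsCoprime c (ℓ : ℤ) :=
    ((Nat.prime_iff_prime_int.mp hℓ).coprime_iff_not_dvd.mpr hc).symm
  obtain ⟨u, w, huw⟩ := hcop
  have h1 : A.valuation ((u : L) * c + (w : L) * ℓ) < 1 := by
    refine A.valuation.map_add_lt ?_ ?_
    · rw [map_mul]
      calc A.valuation (u : L) * A.valuation (c : L) ≤ 1 * A.valuation (c : L) := by
            gcongr; exact hle u
        _ < 1 := by rw [one_mul]; exact hlt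
    · rw [map_mul]
      calc A.valuation (w : L) * A.valuation (ℓ : L) ≤ 1 * A.valuation (ℓ : L) := by
            gcongr; exact hle w
        _ < 1 := by rw [one_mul]; exact A.mem_nonunits_iff.mp hA
  have h2 : ((u : L) * c + (w : L) * ℓ) = 1 := by exact_mod_cast congrArg (Int.cast : ℤ → L) huw
  rw [h2, map_one] at h1
  exact lt_irrefl _ h1

theorem valuation_tail_eq_one (A : ValuationSubring L) (ℓ : ℕ) (hℓ : ℓ.Prime)
    (hA : (ℓ : L) ∈ A.nonunits) (x : L) (hx : x ∈ A) (a : ℕ → ℤ) (n r : ℕ) (hr : r ≤ n)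
    (har : ¬ (ℓ : ℤ) ∣ a r) (hgt : ∀ i, r < i → (ℓ : ℤ) ∣ a i) :
    A.valuation (∑ j ∈ Finset.range (n + 1 - r), (a (j + r) : L) * x ^ j) = 1 := by
  have hle : ∀ d : ℤ, A.valuation (d : L) ≤ 1 := fun d =>
    (A.valuation_le_one_iff _).mpr (intCast_mem A d)
  have hx1 : A.valuation x ≤ 1 := (A.valuation_le_one_iff _).mpr hx
  have h1 : n + 1 - r = (n - r) + 1 := by omega
  rw [h1, Finset.sum_range_succ', zero_add, pow_zero, mul_one, add_comm]
  have h0 : A.valuation (a r : L) = 1 := valuation_intCast_eq_one A ℓ hℓ hA _ har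
  have hrest : A.valuation (∑ j ∈ Finset.range (n - r), (a (j + 1 + r) : L) * x ^ (j + 1)) < 1 := by
    refine A.valuation.map_sum_lt one_ne_zero fun j _ => ?_
    obtain ⟨c, hc⟩ := hgt (j + 1 + r) (by omega)
    rw [hc, map_mul, Int.cast_mul, map_mul, map_pow]
    have h3 : A.valuation ((ℓ : ℤ) : L) < 1 := by
      rw [Int.cast_natCast]; exact A.mem_nonunits_iff.mp hA
    have h4 : A.valuation x ^ (j + 1) ≤ 1 := pow_le_one' hx1 _
    calc A.valuation ((ℓ : ℤ) : L) * A.valuation (c : L) * A.valuation x ^ (j + 1)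
        ≤ A.valuation ((ℓ : ℤ) : L) * 1 * 1 := by gcongr; exact hle c
      _ < 1 := by rw [mul_one, mul_one]; exact h3
  rw [A.valuation.map_add_eq_of_lt_left (by rw [h0]; exact hrest), h0]

/-- Fraction lemma: in a valuation subring `A` of a field of characteristic zero in which a prime
number is a non-unit, every algebraic element `x ∈ A` is a quotient `a / s` of two algebraic
integers with `s` a unit of `A`. -/
theorem exists_integral_fraction [CharZero L] (A : ValuationSubring L) (ℓ : ℕ) (hℓ : ℓ.Prime)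
    (hA : (ℓ : L) ∈ A.nonunits) (x : L) (hx : x ∈ A) (hxalg : IsAlgebraic ℤ x) :
    ∃ s : L, IsIntegral ℤ s ∧ IsIntegral ℤ (x * s) ∧ A.valuation s = 1 := by
  obtain ⟨p, hp0, hp⟩ := hxalg
  have hf0 : p.primPart ≠ 0 := primPart_ne_zero p
  have hf : aeval x p.primPart = 0 := aeval_primPart_eq_zero hp0 hp
  have hprim : p.primPart.IsPrimitive := isPrimitive_primPart p
  set f := p.primPart with hfdef
  -- the degree is positive
  have hn : 0 < f.natDegree := by
    rw [Nat.pos_iff_ne_zero]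
    intro h0
    rw [natDegree_eq_zero] at h0
    obtain ⟨c, hc⟩ := h0
    rw [← hc, aeval_C] at hf
    have : c = 0 := by simpa using hf
    rw [this, map_zero] at hc
    exact hf0 hc.symm
  -- some coefficient is prime to ℓ
  have hex : ∃ i, i ≤ f.natDegree ∧ ¬ (ℓ : ℤ) ∣ f.coeff i := by
    by_contra hcon
    push Not at hcon
    have hall : ∀ i, (ℓ : ℤ) ∣ f.coeff i := by
      intro i
      by_cases hi : i ≤ f.natDegree
      · exact hcon i hi
      · rw [coeff_eq_zero_of_natDegree_lt (not_le.mp hi)]; exact dvd_zero _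
    have hunit : IsUnit (ℓ : ℤ) := hprim _ ((C_dvd_iff_dvd_coeff _ _).mpr hall)
    exact (Nat.prime_iff_prime_int.mp hℓ).not_isUnit hunit
  obtain ⟨i₀, hi₀, hi₀'⟩ := hex
  classical
  set r := Nat.findGreatest (fun i => ¬ (ℓ : ℤ) ∣ f.coeff i) f.natDegree with hrdef
  have hr : r ≤ f.natDegree := Nat.findGreatest_le _
  have har : ¬ (ℓ : ℤ) ∣ f.coeff r := Nat.findGreatest_spec (P := fun i => ¬ (ℓ : ℤ) ∣ f.coeff i) hi₀ hi₀'
  have hgt : ∀ i, r < i → (ℓ : ℤ) ∣ f.coeff i := by
    intro i hi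
    by_cases hin : i ≤ f.natDegree
    · exact not_not.mp (Nat.findGreatest_is_greatest (P := fun i => ¬ (ℓ : ℤ) ∣ f.coeff i) hi hin)
    · rw [coeff_eq_zero_of_natDegree_lt (not_le.mp hin)]; exact dvd_zero _
  have hsum : ∑ i ∈ Finset.range (f.natDegree + 1), ((f.coeff i : ℤ) : L) * x ^ i = 0 := by
    rw [← hf, aeval_eq_sum_range]
    exact Finset.sum_congr rfl fun i _ => (zsmul_eq_mul _ _).symm
  obtain ⟨h1, h2⟩ := isIntegral_tail x (fun i => f.coeff i) f.natDegree r hn hr hsum
  exact ⟨_, h1, h2, valuation_tail_eq_one A ℓ hℓ hA x hx (fun i => f.coeff i) f.natDegree r hr har hgt⟩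

end Fermat.Agent.Lib.ValFrac
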