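import Mathlib
import Fermat.Prelude.Def_EllipticCurve_FrobeniusTrace

set_option autoImplicit false
open scoped Pointwise

namespace Fermat.Agent.Lib.FrobProfinite

local notation "Qb" => AlgebraicClosure ℚ
local notation "Gq" => (AlgebraicClosure ℚ ≃ₐ[ℚ] AlgebraicClosure ℚ)
local notation "Bq" => integralClosure ℤ (AlgebraicClosure ℚ)

theorem isAlgebraic_Qb : Algebra.IsAlgebraic ℚ Qb := AlgebraicClosure.isAlgebraic ℚ

theorem isAlgClosure_Qb : IsAlgClosure ℚ Qb := AlgebraicClosure.instIsAlgClosure ℚ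

attribute [local instance] isAlgebraic_Qb isAlgClosure_Qb

theorem isGalois_Qb : IsGalois ℚ Qb := inferInstance

theorem compactSpace_Gq : CompactSpace Gq := inferInstance

theorem totallyDisconnectedSpace_Gq : TotallyDisconnectedSpace Gq := inferInstance

/-- The Galois action on the ring of algebraic integers. -/
@[reducible] noncomputable def galAction : MulSemiringAction Gq Bq where
  smul g x := ⟨g x.1, map_isIntegral_int g x.2⟩
  one_smul _ := Subtype.ext rfl
  mul_smul _ _ _ := Subtype.ext rfl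
  smul_zero g := Subtype.ext (map_zero g)
  smul_add g x y := Subtype.ext (map_add g x.1 y.1)
  smul_one g := Subtype.ext (map_one g)
  smul_mul g x y := Subtype.ext (map_mul g x.1 y.1)

attribute [local instance] galAction

theorem galAction_coe (g : Gq) (x : Bq) : ((g • x : Bq) : Qb) = g (x : Qb) := rfl

theorem smulCommClass_galAction : SMulCommClass Gq ℤ Bq where
  smul_comm g n x := Subtype.ext (map_zsmul g n (x : Qb))

attribute [local instance] smulCommClass_galAction

/-- The discrete topology on the ring of algebraic integers. -/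
@[reducible] def discTop : TopologicalSpace Bq := ⊥

attribute [local instance] discTop

theorem discTop_discrete : DiscreteTopology Bq := ⟨rfl⟩

attribute [local instance] discTop_discrete

theorem continuousSMul_galAction : ContinuousSMul Gq Bq := by
  rw [continuousSMul_iff_stabilizer_isOpen]
  intro x
  have h := stabilizer_isOpen_of_isIntegral (K := ℚ) (L := Qb) (x : Qb)
  convert h using 1
  ext g
  simp only [SetLike.mem_coe, MulAction.mem_stabilizer_iff]
  constructor
  · intro hg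
    exact congrArg Subtype.val hg
  · intro hg
    exact Subtype.ext hg

attribute [local instance] continuousSMul_galAction

theorem isInvariant_galAction : Algebra.IsInvariant ℤ Bq Gq := by
  refine ⟨fun b hb => ?_⟩
  have hfix : ∀ f : Gq, f (b : Qb) = (b : Qb) := fun f => congrArg Subtype.val (hb f)
  obtain ⟨q, hq⟩ :=
    (InfiniteGalois.mem_range_algebraMap_iff_fixed (k := ℚ) (K := Qb) (b : Qb)).mpr hfix
  have hint : IsIntegral ℤ q := by
    have h1 : IsIntegral ℤ (algebraMap ℚ Qb q) := hq ▸ b.2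
    exact (isIntegral_algebraMap_iff (FaithfulSMul.algebraMap_injective ℚ Qb)).mp h1
  obtain ⟨n, hn⟩ := IsIntegrallyClosed.algebraMap_eq_of_integral hint
  refine ⟨n, Subtype.ext ?_⟩
  rw [← hq, ← hn]
  simp

attribute [local instance] isInvariant_galAction

/-- Every residue class of algebraic integers modulo an ideal is an `ℓ`-th power. -/
theorem frob_surj (ℓ : ℕ) (hℓ : ℓ.Prime) (Q : Ideal Bq) :
    ∀ y : Bq ⧸ Q, ∃ z : Bq ⧸ Q, z ^ ℓ = y := by
  intro y
  obtain ⟨b, rfl⟩ := Ideal.Quotient.mk_surjective y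
  obtain ⟨c, hc⟩ := IsAlgClosed.exists_pow_nat_eq (b : Qb) hℓ.pos
  have hcint : IsIntegral ℤ c := by
    have : IsIntegral ℤ (c ^ ℓ) := hc ▸ b.2
    exact IsIntegral.of_pow hℓ.pos this
  refine ⟨Ideal.Quotient.mk Q ⟨c, hcint⟩, ?_⟩
  rw [← map_pow]
  congr 1
  exact Subtype.ext hc

/-- Frobenius elements modulo a prime of the ring of all algebraic integers: for a prime ideal
`Q` of `integralClosure ℤ (AlgebraicClosure ℚ)` containing the prime number `ℓ`, some element of
the absolute Galois group of `ℚ` is congruent to the `ℓ`-th power map modulo `Q`. -/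
theorem exists_frob_integral (ℓ : ℕ) (hℓ : ℓ.Prime) (Q : Ideal Bq) [Q.IsPrime]
    (hQ : (ℓ : Bq) ∈ Q) :
    ∃ σ : Gq, ∀ x : Bq, σ • x - x ^ ℓ ∈ Q := by
  have : Fact ℓ.Prime := ⟨hℓ⟩
  have hchar : CharP (Bq ⧸ Q) ℓ := by
    rw [CharP.charP_iff_prime_eq_zero hℓ]
    have : ((ℓ : Bq ⧸ Q)) = Ideal.Quotient.mk Q (ℓ : Bq) := by simp
    rw [this, Ideal.Quotient.eq_zero_iff_mem]
    exact hQ
  let P : Ideal ℤ := Q.under ℤ
  have : Q.LiesOver P := ⟨rfl⟩
  have hbij : Function.Bijective (frobenius (Bq ⧸ Q) ℓ) :=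
    ⟨frobenius_inj (Bq ⧸ Q) ℓ, fun y => frob_surj ℓ hℓ Q y⟩
  let φ : (Bq ⧸ Q) →ₐ[ℤ ⧸ P] (Bq ⧸ Q) :=
    { (frobenius (Bq ⧸ Q) ℓ) with
      commutes' := by
        intro r
        obtain ⟨n, rfl⟩ := Ideal.Quotient.mk_surjective r
        show frobenius (Bq ⧸ Q) ℓ (algebraMap (ℤ ⧸ P) (Bq ⧸ Q) (Ideal.Quotient.mk P n)) = _
        have : algebraMap (ℤ ⧸ P) (Bq ⧸ Q) (Ideal.Quotient.mk P n) = ((n : ℤ) : Bq ⧸ Q) := by
          simp
        rw [this, map_intCast] }
  let e : (Bq ⧸ Q) ≃ₐ[ℤ ⧸ P] (Bq ⧸ Q) := AlgEquiv.ofBijective φ hbij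
  obtain ⟨g, hg⟩ := Ideal.Quotient.stabilizerHom_surjective_of_profinite (G := Gq) P Q e
  refine ⟨g.1, fun x => ?_⟩
  have h1 := congrArg (fun f => f (Ideal.Quotient.mk Q x)) hg
  simp only [Ideal.Quotient.stabilizerHom_apply] at h1
  have h2 : e (Ideal.Quotient.mk Q x) = Ideal.Quotient.mk Q (x ^ ℓ) := by
    show frobenius (Bq ⧸ Q) ℓ (Ideal.Quotient.mk Q x) = _
    rw [frobenius_def, map_pow]
  rw [h2] at h1
  exact Ideal.Quotient.eq.mp h1

theorem mem_valuationSubring_of_isIntegral (A : ValuationSubring Qb) {x : Qb}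
    (hx : IsIntegral ℤ x) : x ∈ A := by
  have h1 : IsIntegral A x := hx.tower_top
  obtain ⟨y, hy⟩ := IsIntegrallyClosed.algebraMap_eq_of_integral h1
  rw [← hy]
  exact y.2

/-- **Profinite step of Frobenius existence.** For a valuation subring `A` of `AlgebraicClosure ℚ`
whose maximal ideal contains the prime number `ℓ`, some `σ` in the absolute Galois group of `ℚ`
satisfies `σ x ≡ x ^ ℓ` modulo the maximal ideal of `A` for every algebraic integer `x`. -/
theorem exists_frob_on_integers (ℓ : ℕ) (hℓ : ℓ.Prime) (A : ValuationSubring Qb)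
    (hA : (ℓ : Qb) ∈ A.nonunits) :
    ∃ σ : Gq, ∀ x : Qb, IsIntegral ℤ x → σ x - x ^ ℓ ∈ A.nonunits := by
  let ι : Bq →+* A :=
    ((algebraMap Bq Qb)).codRestrict A.toSubring
      (fun x => mem_valuationSubring_of_isIntegral A x.2)
  let Q : Ideal Bq := (IsLocalRing.maximalIdeal A).comap ι
  have hQprime : Q.IsPrime := Ideal.comap_isPrime ι _
  have hQ : (ℓ : Bq) ∈ Q := by
    show ι (ℓ : Bq) ∈ IsLocalRing.maximalIdeal A
    rw [← ValuationSubring.coe_mem_nonunits_iff]
    have : ((ι (ℓ : Bq) : A) : Qb) = (ℓ : Qb) := by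
      show algebraMap Bq Qb (ℓ : Bq) = (ℓ : Qb)
      simp
    rw [this]
    exact hA
  obtain ⟨σ, hσ⟩ := exists_frob_integral ℓ hℓ Q hQ
  refine ⟨σ, fun x hx => ?_⟩
  have h := hσ ⟨x, hx⟩
  have h' : ι (σ • (⟨x, hx⟩ : Bq) - (⟨x, hx⟩ : Bq) ^ ℓ) ∈ IsLocalRing.maximalIdeal A := h
  rw [← ValuationSubring.coe_mem_nonunits_iff] at h'
  exact h'

end Fermat.Agent.Lib.FrobProfinite
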