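import Mathlib
import Fermat.Prelude.Def_FLTPrelim_Ramification
import Fermat.Agent.Lib.ValFrac
import Fermat.Agent.Lib.FrobProfinite

/-!
# The Minkowski bridge

Inertia subgroups of valuation subrings of `AlgebraicClosure ℚ` (the notion used by the frozen
statements, `ValuationSubring.inertiaSubgroupIn`) versus ramification in number fields.

Main results (namespace `Fermat.Agent.Lib.InertiaBridge`):

* `mem_inertiaSubgroupIn_iff`, `mem_inertiaSubgroupIn_of_integral`: packing / unpacking of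
  membership in the inertia subgroup.
* `exists_prime_forall_exists_inertia`: finite-level Minkowski with inertia groups.
* `exists_lift_inertia`: lifting of finite-level inertia to the absolute Galois group.
* `eq_top_of_inertia_le`: a normal open subgroup of the absolute Galois group of `ℚ` containing
  one inertia subgroup above every prime number is everything.
* `monoidHom_eq_one_of_inertia`, `smul_eq_of_inertia`, `smul_sub_mem_of_inertia`: the same in
  the language of homomorphisms and of actions.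
-/

set_option autoImplicit false

namespace Fermat.Agent.Lib.InertiaBridge

open scoped Pointwise NumberField

/-- Finite-level Minkowski with inertia: a nontrivial finite Galois extension `K` of `ℚ` has a
prime `p` such that for every prime `P` of `𝓞 K` above `p` there is a nontrivial automorphism
acting trivially modulo `P`. -/
theorem exists_prime_forall_exists_inertia (K : Type*) [Field K] [NumberField K] [IsGalois ℚ K]
    (H : 1 < Module.finrank ℚ K) :
    ∃ p : ℕ, p.Prime ∧ ∀ (P : Ideal (𝓞 K)), P.IsPrime → (p : 𝓞 K) ∈ P →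
      ∃ σ : Gal(K/ℚ), σ ≠ 1 ∧ ∀ x : 𝓞 K, galRestrict ℤ ℚ K (𝓞 K) σ x - x ∈ P := by
  obtain ⟨p, hp, hram⟩ := NumberField.exists_not_isUnramifiedAt_int_of_isGalois (K := K)
    (𝒪 := 𝓞 K) H
  refine ⟨p, hp, fun P hP hpP => ?_⟩
  have hnr := hram P hP hpP
  let : MulSemiringAction Gal(K/ℚ) (𝓞 K) := IsIntegralClosure.MulSemiringAction ℤ ℚ K (𝓞 K)
  have hG : IsGaloisGroup Gal(K/ℚ) ℤ (𝓞 K) := IsGaloisGroup.of_isFractionRing Gal(K/ℚ) ℤ (𝓞 K) ℚ K
  have hcard := Ideal.card_inertia_eq_ramificationIdxIn (G := Gal(K/ℚ)) (P.under ℤ) P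
  rw [Ideal.ramificationIdxIn_eq_ramificationIdx (P.under ℤ) P Gal(K/ℚ)] at hcard
  have hne : Nat.card (P.inertia Gal(K/ℚ)) ≠ 1 := by
    rw [hcard]
    intro h1
    exact hnr (Ideal.ramificationIdx_eq_one_iff.mp h1)
  have hbot : P.inertia Gal(K/ℚ) ≠ ⊥ := fun h => hne (Subgroup.card_eq_one.mpr h)
  obtain ⟨σ, hσ1⟩ := (Subgroup.ne_bot_iff_exists_ne_one).mp hbot
  refine ⟨σ.1, fun h => hσ1 (Subtype.ext h), fun x => ?_⟩
  exact σ.2 x

section Packing

variable {L : Type*} [Field L] {K : Type*} [Field K] [Algebra K L]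

theorem mem_iff_map_mem_of_sub_mem (A : ValuationSubring L) (σ : L →+* L)
    (hσ : ∀ x ∈ A, σ x - x ∈ A.nonunits) (u : L) : u ∈ A ↔ σ u ∈ A := by
  constructor
  · intro hu
    have h := A.nonunits_le (hσ u hu)
    have : σ u = u + (σ u - u) := by ring
    rw [this]
    exact A.add_mem _ _ hu h
  · intro hu
    by_contra hcon
    have hu0 : u ≠ 0 := fun h => hcon (h ▸ A.zero_mem)
    have h1 : A.valuation u⁻¹ < 1 := by
      rw [← A.mem_nonunits_iff, A.mem_nonunits_iff_or]
      right; rwa [inv_inv]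
    have h1' : u⁻¹ ∈ A := (A.valuation_le_one_iff _).mp h1.le
    have h2 : A.valuation (σ u⁻¹ - u⁻¹) < 1 := A.mem_nonunits_iff.mp (hσ _ h1')
    have h3 : A.valuation (σ u⁻¹) < 1 := by
      have : σ u⁻¹ = u⁻¹ + (σ u⁻¹ - u⁻¹) := by ring
      rw [this]
      exact A.valuation.map_add_lt h1 h2
    rw [map_inv₀, map_inv₀] at h3
    have h4 : A.valuation (σ u) ≤ 1 := (A.valuation_le_one_iff _).mpr hu
    have h5 : A.valuation (σ u) ≠ 0 := by
      rw [Ne, map_eq_zero, map_eq_zero]; exact hu0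
    have h6 : (1 : A.ValueGroup) ≤ (A.valuation (σ u))⁻¹ :=
      (one_le_inv₀ (zero_lt_iff.mpr h5)).mpr h4
    exact absurd h3 (not_lt.mpr h6)

theorem mem_decompositionSubgroup_of_sub_mem (A : ValuationSubring L) (σ : L ≃ₐ[K] L)
    (hσ : ∀ x ∈ A, σ x - x ∈ A.nonunits) : σ ∈ A.decompositionSubgroup K := by
  have hmem : ∀ u : L, u ∈ A ↔ σ u ∈ A :=
    mem_iff_map_mem_of_sub_mem A (σ : L →+* L) hσ
  rw [MulAction.mem_stabilizer_iff]
  ext x
  rw [ValuationSubring.mem_pointwise_smul_iff_inv_smul_mem, hmem]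
  have : σ (σ⁻¹ • x) = x := by
    change σ (σ⁻¹ x) = x
    exact AlgEquiv.apply_symm_apply σ x
  rw [this]

/-- **Packing lemma.** An automorphism moving every element of the valuation subring `A` by a
non-unit lies in the inertia subgroup of `A`. -/
theorem mem_inertiaSubgroupIn_of_sub_mem (A : ValuationSubring L) (σ : L ≃ₐ[K] L)
    (hσ : ∀ x ∈ A, σ x - x ∈ A.nonunits) : σ ∈ A.inertiaSubgroupIn K := by
  have hstab := mem_decompositionSubgroup_of_sub_mem A σ hσ
  refine ⟨⟨σ, hstab⟩, ?_, rfl⟩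
  change MulSemiringAction.toRingAut (A.decompositionSubgroup K) (IsLocalRing.ResidueField A)
    ⟨σ, hstab⟩ = 1
  ext x
  obtain ⟨x, rfl⟩ := IsLocalRing.residue_surjective x
  change (⟨σ, hstab⟩ : A.decompositionSubgroup K) • IsLocalRing.residue A x
    = IsLocalRing.residue A x
  rw [← IsLocalRing.ResidueField.residue_smul, ← sub_eq_zero, ← map_sub,
    IsLocalRing.residue_eq_zero_iff, ValuationSubring.valuation_lt_one_iff]
  exact A.mem_nonunits_iff.mp (hσ x x.2)

/-- Unpacking: elements of the inertia subgroup move every element of `A` by a non-unit. -/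
theorem sub_mem_of_mem_inertiaSubgroupIn (A : ValuationSubring L) (σ : L ≃ₐ[K] L)
    (hσ : σ ∈ A.inertiaSubgroupIn K) (x : L) (hx : x ∈ A) : σ x - x ∈ A.nonunits := by
  obtain ⟨τ, hτ, rfl⟩ := hσ
  have hτx : (τ : L ≃ₐ[K] L) x ∈ A := by
    have h1 : (τ : L ≃ₐ[K] L) • x ∈ (τ : L ≃ₐ[K] L) • A :=
      ValuationSubring.smul_mem_pointwise_smul _ x A hx
    have h2 : (τ : L ≃ₐ[K] L) • A = A := τ.2
    rw [h2] at h1
    exact h1
  have h1 : MulSemiringAction.toRingAut (A.decompositionSubgroup K) (IsLocalRing.ResidueField A) τ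
      = 1 := hτ
  have h2 : τ • (IsLocalRing.residue A ⟨x, hx⟩) = IsLocalRing.residue A ⟨x, hx⟩ := by
    have := congrArg (fun f => f (IsLocalRing.residue A ⟨x, hx⟩)) h1
    simpa using this
  rw [← IsLocalRing.ResidueField.residue_smul] at h2
  have h3 : (τ • (⟨x, hx⟩ : A)) - ⟨x, hx⟩ ∈ IsLocalRing.maximalIdeal A := by
    rw [← Ideal.Quotient.eq]
    exact h2
  have h4 : ((τ • (⟨x, hx⟩ : A)) - ⟨x, hx⟩ : A) = ⟨(τ : L ≃ₐ[K] L) x - x, A.sub_mem hτx hx⟩ := by
    rfl
  rw [h4] at h3
  exact A.mem_nonunits_iff.mpr ((A.valuation_lt_one_iff _).mp h3)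

theorem mem_inertiaSubgroupIn_iff (A : ValuationSubring L) (σ : L ≃ₐ[K] L) :
    σ ∈ A.inertiaSubgroupIn K ↔ ∀ x ∈ A, σ x - x ∈ A.nonunits :=
  ⟨fun h x hx => sub_mem_of_mem_inertiaSubgroupIn A σ h x hx,
    mem_inertiaSubgroupIn_of_sub_mem A σ⟩

/-- If a ring endomorphism moves every algebraic integer by a non-unit of `A`, it does so for
every element of `A` (for `A` over a prime number `ℓ`, in an algebraic extension of `ℚ`). -/
theorem sub_mem_nonunits_of_integral [CharZero L] (A : ValuationSubring L) (ℓ : ℕ) (hℓ : ℓ.Prime)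
    (hA : (ℓ : L) ∈ A.nonunits) (halg : ∀ x : L, IsAlgebraic ℤ x) (σ : L →+* L)
    (hσ : ∀ x : L, IsIntegral ℤ x → σ x - x ∈ A.nonunits) (x : L) (hx : x ∈ A) :
    σ x - x ∈ A.nonunits := by
  obtain ⟨s, hs, hxs, hvs⟩ := ValFrac.exists_integral_fraction A ℓ hℓ hA x hx (halg x)
  have h1 : A.valuation (σ (x * s) - x * s) < 1 := A.mem_nonunits_iff.mp (hσ _ hxs)
  have h2 : A.valuation (σ s - s) < 1 := A.mem_nonunits_iff.mp (hσ _ hs)
  have hvx : A.valuation x ≤ 1 := (A.valuation_le_one_iff _).mpr hx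
  have hvσs : A.valuation (σ s) = 1 := by
    have : σ s = s + (σ s - s) := by ring
    rw [this, A.valuation.map_add_eq_of_lt_left (by rw [hvs]; exact h2), hvs]
  have key : (σ x - x) * σ s = (σ (x * s) - x * s) - x * (σ s - s) := by
    rw [map_mul]; ring
  have h3 : A.valuation ((σ x - x) * σ s) < 1 := by
    rw [key]
    refine A.valuation.map_sub_lt h1 ?_
    rw [map_mul]
    calc A.valuation x * A.valuation (σ s - s) ≤ 1 * A.valuation (σ s - s) := by
          gcongr
      _ < 1 := by rw [one_mul]; exact h2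
  rw [map_mul, hvσs, mul_one] at h3
  exact A.mem_nonunits_iff.mpr h3

/-- **Packing lemma, integral form.** In an algebraic extension `L` of `ℚ`, an automorphism that
moves every algebraic integer by a non-unit of the valuation subring `A` (lying over the prime
number `ℓ`) lies in the inertia subgroup of `A`. -/
theorem mem_inertiaSubgroupIn_of_integral [CharZero L] (A : ValuationSubring L) (ℓ : ℕ)
    (hℓ : ℓ.Prime) (hA : (ℓ : L) ∈ A.nonunits) (halg : ∀ x : L, IsAlgebraic ℤ x)
    (σ : L ≃ₐ[K] L) (hσ : ∀ x : L, IsIntegral ℤ x → σ x - x ∈ A.nonunits) :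
    σ ∈ A.inertiaSubgroupIn K :=
  mem_inertiaSubgroupIn_of_sub_mem A σ
    (sub_mem_nonunits_of_integral A ℓ hℓ hA halg (σ : L →+* L) hσ)

end Packing

section Lifting

local notation "Qb" => AlgebraicClosure ℚ
local notation "Gq" => (AlgebraicClosure ℚ ≃ₐ[ℚ] AlgebraicClosure ℚ)
local notation "Bq" => integralClosure ℤ (AlgebraicClosure ℚ)

open Fermat.Agent.Lib.FrobProfinite

attribute [local instance] isAlgebraic_Qb isAlgClosure_Qb galAction smulCommClass_galAction
  discTop discTop_discrete continuousSMul_galAction isInvariant_galAction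

/-- Abstract lifting step on the ring of all algebraic integers: if `σ` acts trivially modulo the
prime `Q` on the invariants of a closed normal subgroup `N`, then some element of the coset `N σ`
acts trivially modulo `Q` on everything. -/
theorem exists_mul_smul_sub_mem (N : Subgroup Gq) [N.Normal] (hN : IsClosed (N : Set Gq))
    (Q : Ideal Bq) [Q.IsPrime] (σ : Gq)
    (hσ : ∀ x : Bq, (∀ n ∈ N, n • x = x) → σ • x - x ∈ Q) :
    ∃ n ∈ N, ∀ x : Bq, (n * σ) • x - x ∈ Q := by
  have hcomp : CompactSpace N := isCompact_iff_compactSpace.mp hN.isCompact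
  let A' := FixedPoints.subalgebra ℤ Bq N
  have hcomm : SMulCommClass N A' Bq := ⟨fun n a b => by
    change n • ((a : Bq) * b) = (a : Bq) * n • b
    rw [smul_mul', a.2 n]⟩
  have hinv : Algebra.IsInvariant A' Bq N := ⟨fun b hb => ⟨⟨b, hb⟩, rfl⟩⟩
  -- fixed points are stable under `σ⁻¹`
  have hfix : ∀ (τ : Gq) (x : Bq), (∀ n ∈ N, n • x = x) → ∀ n ∈ N, n • (τ • x) = τ • x := by
    intro τ x hx n hn
    have h1 : (τ⁻¹ * n * τ) • x = x := hx _ (by
      have := ‹N.Normal›.conj_mem n hn τ⁻¹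
      simpa using this)
    calc n • (τ • x) = τ • ((τ⁻¹ * n * τ) • x) := by
          simp only [← mul_smul]; congr 1; group
      _ = τ • x := by rw [h1]
  -- Step 1: `σ • Q` and `Q` have the same contraction to the invariants
  have hPQ : (σ • Q).under A' = Q.under A' := by
    ext x
    simp only [Ideal.mem_comap]
    have hx : ∀ n ∈ N, n • (x : Bq) = x := fun n hn => x.2 ⟨n, hn⟩
    change (x : Bq) ∈ σ • Q ↔ (x : Bq) ∈ Q
    rw [Ideal.mem_pointwise_smul_iff_inv_smul_mem]
    have h1 := hσ (σ⁻¹ • (x : Bq)) (hfix σ⁻¹ x hx)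
    rw [smul_inv_smul] at h1
    constructor
    · intro h
      have := Q.add_mem h1 h
      simpa using this
    · intro h
      have := Q.sub_mem h h1
      simpa using this
  obtain ⟨g, hg⟩ := Algebra.IsInvariant.exists_smul_of_under_eq_of_profinite (A := A') (G := N)
    (σ • Q) Q hPQ
  -- `σ₂ = g σ` stabilises `Q`
  set σ₂ : Gq := (g : Gq) * σ with hσ₂
  have hQ₂ : σ₂ • Q = Q := by
    rw [hσ₂, mul_smul]; exact hg.symm
  have hσ₂fix : ∀ x : Bq, (∀ n ∈ N, n • x = x) → σ₂ • x - x ∈ Q := by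
    intro x hx
    have h1 : σ₂ • x = σ • x := by
      rw [hσ₂, mul_smul]
      exact hfix σ x hx g g.2
    rw [h1]
    exact hσ x hx
  -- Step 2: the automorphism of `Bq ⧸ Q` induced by `σ₂`
  let P' : Ideal A' := Q.under A'
  have hlies : Q.LiesOver P' := ⟨rfl⟩
  let φr : (Bq ⧸ Q) ≃+* (Bq ⧸ Q) :=
    Ideal.quotientEquiv Q Q (MulSemiringAction.toRingEquiv Gq Bq σ₂) hQ₂.symm
  have hφr : ∀ b : Bq, φr (Ideal.Quotient.mk Q b) = Ideal.Quotient.mk Q (σ₂ • b) := fun b => rfl
  let φ : (Bq ⧸ Q) ≃ₐ[A' ⧸ P'] (Bq ⧸ Q) := AlgEquiv.ofRingEquiv (f := φr) (by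
    intro r
    obtain ⟨x, rfl⟩ := Ideal.Quotient.mk_surjective r
    rw [Ideal.Quotient.algebraMap_mk_of_liesOver, hφr, Ideal.Quotient.eq]
    exact hσ₂fix _ (fun n hn => x.2 ⟨n, hn⟩))
  obtain ⟨ρ, hρ⟩ := Ideal.Quotient.stabilizerHom_surjective_of_profinite (G := N) P' Q φ
  have hρσ : ∀ c : Bq, σ₂ • c - (ρ : N) • c ∈ Q := by
    intro c
    have h1 := congrArg (fun f => f (Ideal.Quotient.mk Q c)) hρ
    simp only [Ideal.Quotient.stabilizerHom_apply] at h1
    have h2 : φ (Ideal.Quotient.mk Q c) = Ideal.Quotient.mk Q (σ₂ • c) := hφr c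
    rw [h2] at h1
    exact Ideal.Quotient.eq.mp h1.symm
  have hρQ : ((ρ : N) : Gq)⁻¹ • Q = Q := by
    have h1 : (ρ : N) • Q = Q := ρ.2
    have h2 : ((ρ : N) : Gq) • Q = Q := h1
    rw [inv_smul_eq_iff, h2]
  refine ⟨((ρ : N) : Gq)⁻¹ * g, N.mul_mem (N.inv_mem (ρ : N).2) g.2, fun x => ?_⟩
  have h1 := hρσ x
  have h2 : ((ρ : N) : Gq)⁻¹ • (σ₂ • x - (ρ : N) • x) ∈ ((ρ : N) : Gq)⁻¹ • Q :=
    Ideal.smul_mem_pointwise_smul _ _ _ h1
  rw [hρQ] at h2
  have h3 : ((ρ : N) : Gq)⁻¹ • (σ₂ • x - (ρ : N) • x) = (((ρ : N) : Gq)⁻¹ * g * σ) • x - x := by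
    rw [smul_sub, hσ₂, ← mul_smul, ← mul_assoc]
    congr 1
    exact inv_smul_smul ((ρ : N) : Gq) x
  rwa [h3] at h2

/-- **Lifting of inertia.** Let `K` be a normal intermediate field of `AlgebraicClosure ℚ / ℚ`
and `A` a valuation subring of `AlgebraicClosure ℚ` over the prime number `q`. If `σ` moves every
algebraic integer of `K` by a non-unit of `A` (i.e. `σ|_K` lies in the inertia group of the prime
of `K` below `A`), then some element of the inertia subgroup of `A` agrees with `σ` on `K`. -/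
theorem exists_lift_inertia (K : IntermediateField ℚ Qb) [Normal ℚ K] (A : ValuationSubring Qb)
    (q : ℕ) (hq : q.Prime) (hA : A.LiesOverPrime q) (σ : Gq)
    (hσ : ∀ x : Qb, x ∈ K → IsIntegral ℤ x → σ x - x ∈ A.nonunits) :
    ∃ τ : Gq, τ ∈ A.inertiaSubgroupIn ℚ ∧ ∀ x ∈ K, τ x = σ x := by
  have hgal : IsGalois ℚ K := ⟨⟩
  have hnormal : K.fixingSubgroup.Normal := (InfiniteGalois.normal_iff_isGalois K).mpr hgal
  have hclosed : IsClosed (K.fixingSubgroup : Set Gq) := InfiniteGalois.fixingSubgroup_isClosed K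
  let ι : Bq →+* A :=
    ((algebraMap Bq Qb)).codRestrict A.toSubring
      (fun x => mem_valuationSubring_of_isIntegral A x.2)
  let Q : Ideal Bq := (IsLocalRing.maximalIdeal A).comap ι
  have hQprime : Q.IsPrime := Ideal.comap_isPrime ι _
  have hQmem : ∀ b : Bq, b ∈ Q ↔ (b : Qb) ∈ A.nonunits := by
    intro b
    change ι b ∈ IsLocalRing.maximalIdeal A ↔ _
    rw [← ValuationSubring.coe_mem_nonunits_iff]
    rfl
  have hfixK : ∀ x : Bq, (∀ n ∈ K.fixingSubgroup, n • x = x) → (x : Qb) ∈ K := by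
    intro x hx
    rw [← InfiniteGalois.fixedField_fixingSubgroup K, IntermediateField.mem_fixedField_iff]
    intro n hn
    exact congrArg Subtype.val (hx n hn)
  obtain ⟨n, hn, hτ⟩ := exists_mul_smul_sub_mem K.fixingSubgroup hclosed Q σ (by
    intro x hx
    rw [hQmem]
    exact hσ (x : Qb) (hfixK x hx) x.2)
  refine ⟨n * σ, ?_, fun x hx => ?_⟩
  · refine mem_inertiaSubgroupIn_of_integral A q hq hA (fun x => ?_) (n * σ) (fun x hx => ?_)
    · exact (IsFractionRing.isAlgebraic_iff ℤ ℚ Qb).mpr (Algebra.IsAlgebraic.isAlgebraic x)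
    · exact (hQmem _).mp (hτ ⟨x, hx⟩)
  · have h1 : σ x ∈ K := by
      have h := AlgEquiv.restrictNormal_commutes σ K ⟨x, hx⟩
      have h2 : σ x = ((σ.restrictNormal K ⟨x, hx⟩ : K) : Qb) := h.symm
      rw [h2]
      exact (σ.restrictNormal K ⟨x, hx⟩).2
    change n (σ x) = σ x
    exact (IntermediateField.mem_fixingSubgroup_iff K n).mp hn _ h1

end Lifting

section Main

local notation "Qb" => AlgebraicClosure ℚ
local notation "Gq" => (AlgebraicClosure ℚ ≃ₐ[ℚ] AlgebraicClosure ℚ)

open Fermat.Agent.Lib.FrobProfinite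

attribute [local instance] isAlgebraic_Qb isAlgClosure_Qb

/-- **Minkowski bridge.** A normal subgroup `H` of the absolute Galois group of `ℚ` which is open
(it contains the fixing subgroup of a finite extension `L`) and which contains, for every prime
number `q`, the inertia subgroup of at least one valuation subring of `AlgebraicClosure ℚ` lying
over `q`, is the whole group. -/
theorem eq_top_of_inertia_le (H : Subgroup Gq) [H.Normal] (L : IntermediateField ℚ Qb)
    [FiniteDimensional ℚ L] (hL : L.fixingSubgroup ≤ H)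
    (hI : ∀ q : ℕ, q.Prime → ∃ A : ValuationSubring Qb, A.LiesOverPrime q ∧
      A.inertiaSubgroupIn ℚ ≤ H) : H = ⊤ := by
  have hopen : IsOpen (H : Set Gq) :=
    Subgroup.isOpen_mono hL (IntermediateField.fixingSubgroup_isOpen L)
  have hclosed : IsClosed (H : Set Gq) := Subgroup.isClosed_of_isOpen H hopen
  let Hc : ClosedSubgroup Gq := ⟨H, hclosed⟩
  set K : IntermediateField ℚ Qb := IntermediateField.fixedField H with hK
  have hfix : K.fixingSubgroup = H := InfiniteGalois.fixingSubgroup_fixedField Hc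
  have hKL : K ≤ L := by
    rw [← InfiniteGalois.fixedField_fixingSubgroup L, IntermediateField.le_iff_le, hfix]
    exact hL
  have hfin : FiniteDimensional ℚ K :=
    Module.Finite.of_injective (IntermediateField.inclusion hKL).toLinearMap
      (IntermediateField.inclusion hKL).injective
  have hgal : IsGalois ℚ K :=
    (InfiniteGalois.normal_iff_isGalois K).mp (by rw [hfix]; infer_instance)
  by_contra hne
  have hKbot : K ≠ ⊥ := by
    intro h
    apply hne
    rw [← hfix, h, IntermediateField.fixingSubgroup_bot]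
  have hrank : 1 < Module.finrank ℚ K := by
    have h1 : Module.finrank ℚ K ≠ 1 := fun h => hKbot (IntermediateField.finrank_eq_one_iff.mp h)
    have h2 : 0 < Module.finrank ℚ K := Module.finrank_pos
    omega
  have hnf : NumberField K := ⟨⟩
  obtain ⟨q, hq, hram⟩ := exists_prime_forall_exists_inertia K hrank
  obtain ⟨A, hA, hIA⟩ := hI q hq
  -- the prime of `𝓞 K` below `A`
  let j : 𝓞 K →+* A :=
    ((algebraMap K Qb).comp (algebraMap (𝓞 K) K)).codRestrict A.toSubring
      (fun x => mem_valuationSubring_of_isIntegral A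
        ((NumberField.RingOfIntegers.isIntegral_coe x).map (IsScalarTower.toAlgHom ℤ K Qb)))
  let P : Ideal (𝓞 K) := (IsLocalRing.maximalIdeal A).comap j
  have hP : P.IsPrime := Ideal.comap_isPrime j _
  have hPmem : ∀ b : 𝓞 K, b ∈ P ↔ (((b : K) : Qb)) ∈ A.nonunits := by
    intro b
    change j b ∈ IsLocalRing.maximalIdeal A ↔ _
    rw [← ValuationSubring.coe_mem_nonunits_iff]
    rfl
  have hqP : (q : 𝓞 K) ∈ P := by
    rw [hPmem]
    have : ((((q : 𝓞 K) : K)) : Qb) = (q : Qb) := by simp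
    rw [this]
    exact hA
  obtain ⟨σ, hσ1, hσ⟩ := hram P hP hqP
  let σ₁ : Gq := σ.liftNormal Qb
  have hσ₁ : ∀ x : K, σ₁ (x : Qb) = ((σ x : K) : Qb) := fun x =>
    AlgEquiv.liftNormal_commutes σ Qb x
  obtain ⟨τ, hτI, hτ⟩ := exists_lift_inertia K A q hq hA σ₁ (by
    intro x hx hxint
    have hxint' : IsIntegral ℤ (⟨x, hx⟩ : K) :=
      (isIntegral_algebraMap_iff (algebraMap K Qb).injective).mp hxint
    obtain ⟨y, hy⟩ := (IsIntegralClosure.isIntegral_iff (A := 𝓞 K) (R := ℤ) (B := K)).mp hxint'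
    have h1 := (hPmem _).mp (hσ y)
    have h2 : algebraMap (𝓞 K) K (galRestrict ℤ ℚ K (𝓞 K) σ y) = σ (algebraMap (𝓞 K) K y) :=
      algebraMap_galRestrict_apply ℤ σ y
    have h3 : ((((galRestrict ℤ ℚ K (𝓞 K) σ y - y : 𝓞 K) : K)) : Qb) = σ₁ x - x := by
      have h4 : (((galRestrict ℤ ℚ K (𝓞 K) σ y - y : 𝓞 K) : K)) =
          σ (⟨x, hx⟩ : K) - (⟨x, hx⟩ : K) := by
        rw [← hy, ← h2]
        simp
      rw [h4]
      have h5 := hσ₁ ⟨x, hx⟩
      simp only at h5
      rw [h5]
      rfl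
    rw [← h3]
    exact h1)
  have hτH : τ ∈ K.fixingSubgroup := by rw [hfix]; exact hIA hτI
  apply hσ1
  ext x
  have h1 : τ (x : Qb) = (x : Qb) := (IntermediateField.mem_fixingSubgroup_iff K τ).mp hτH x x.2
  have h2 := hτ x x.2
  rw [hσ₁, h1] at h2
  exact h2.symm

end Main

section Corollaries

local notation "Qb" => AlgebraicClosure ℚ
local notation "Gq" => (AlgebraicClosure ℚ ≃ₐ[ℚ] AlgebraicClosure ℚ)

/-- **Minkowski bridge for homomorphisms.** A homomorphism from the absolute Galois group of `ℚ`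
which is trivial on the fixing subgroup of a finite extension and on one inertia subgroup above
every prime number is trivial. -/
theorem monoidHom_eq_one_of_inertia {M : Type*} [Group M] (φ : Gq →* M)
    (L : IntermediateField ℚ Qb) [FiniteDimensional ℚ L]
    (hL : ∀ σ : Gq, (∀ a ∈ L, σ a = a) → φ σ = 1)
    (hI : ∀ q : ℕ, q.Prime → ∃ A : ValuationSubring Qb, A.LiesOverPrime q ∧
      ∀ σ ∈ A.inertiaSubgroupIn ℚ, φ σ = 1) (σ : Gq) : φ σ = 1 := by
  have h := eq_top_of_inertia_le φ.ker L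
    (fun τ hτ => MonoidHom.mem_ker.mpr
      (hL τ ((IntermediateField.mem_fixingSubgroup_iff L τ).mp hτ)))
    (fun q hq => by
      obtain ⟨A, hA, hAI⟩ := hI q hq
      exact ⟨A, hA, fun τ hτ => MonoidHom.mem_ker.mpr (hAI τ hτ)⟩)
  have hσ : σ ∈ φ.ker := by rw [h]; exact Subgroup.mem_top σ
  exact MonoidHom.mem_ker.mp hσ

/-- **Minkowski bridge for pointwise-fixed stable subsets.** Let the absolute Galois group of `ℚ`
act on `V`, and let `W` be a stable subset. If `W` is fixed pointwise by the fixing subgroup of a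
finite extension and by one inertia subgroup above every prime number, then it is fixed pointwise
by the whole Galois group. -/
theorem smul_eq_of_inertia {V : Type*} [MulAction Gq V] (W : Set V)
    (hW : ∀ σ : Gq, ∀ x ∈ W, σ • x ∈ W)
    (L : IntermediateField ℚ Qb) [FiniteDimensional ℚ L]
    (hL : ∀ σ : Gq, (∀ a ∈ L, σ a = a) → ∀ x ∈ W, σ • x = x)
    (hI : ∀ q : ℕ, q.Prime → ∃ A : ValuationSubring Qb, A.LiesOverPrime q ∧
      ∀ σ ∈ A.inertiaSubgroupIn ℚ, ∀ x ∈ W, σ • x = x) :
    ∀ σ : Gq, ∀ x ∈ W, σ • x = x := by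
  let H : Subgroup Gq :=
    { carrier := {σ | ∀ x ∈ W, σ • x = x}
      mul_mem' := fun {a b} ha hb x hx => by rw [mul_smul, hb x hx, ha x hx]
      one_mem' := fun x _ => one_smul _ x
      inv_mem' := fun {a} ha x hx => by rw [inv_smul_eq_iff, ha x hx] }
  have hnormal : H.Normal := ⟨fun n hn g x hx => by
    have h1 : g⁻¹ • x ∈ W := hW _ x hx
    rw [mul_smul, mul_smul, hn _ h1, smul_inv_smul]⟩
  have h := eq_top_of_inertia_le H L
    (fun τ hτ => hL τ ((IntermediateField.mem_fixingSubgroup_iff L τ).mp hτ))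
    (fun q hq => by
      obtain ⟨A, hA, hAI⟩ := hI q hq
      exact ⟨A, hA, fun τ hτ => hAI τ hτ⟩)
  intro σ
  have hσ : σ ∈ H := by rw [h]; exact Subgroup.mem_top σ
  exact hσ

/-- **Minkowski bridge for trivial quotients.** Let the absolute Galois group of `ℚ` act
additively on `V`, and let `W` be a stable subgroup. If the fixing subgroup of a finite extension
and one inertia subgroup above every prime number act trivially on `V ⧸ W` (in the form
`σ • x - x ∈ W`), then so does the whole Galois group. -/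
theorem smul_sub_mem_of_inertia {V : Type*} [AddCommGroup V] [DistribMulAction Gq V]
    (W : AddSubgroup V) (hW : ∀ σ : Gq, ∀ x ∈ W, σ • x ∈ W)
    (L : IntermediateField ℚ Qb) [FiniteDimensional ℚ L]
    (hL : ∀ σ : Gq, (∀ a ∈ L, σ a = a) → ∀ x : V, σ • x - x ∈ W)
    (hI : ∀ q : ℕ, q.Prime → ∃ A : ValuationSubring Qb, A.LiesOverPrime q ∧
      ∀ σ ∈ A.inertiaSubgroupIn ℚ, ∀ x : V, σ • x - x ∈ W) :
    ∀ (σ : Gq) (x : V), σ • x - x ∈ W := by
  let H : Subgroup Gq :=
    { carrier := {σ | ∀ x : V, σ • x - x ∈ W}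
      mul_mem' := fun {a b} ha hb x => by
        have h1 : a • (b • x - x) ∈ W := hW a _ (hb x)
        have h2 : (a * b) • x - x = a • (b • x - x) + (a • x - x) := by
          rw [mul_smul, smul_sub]; abel
        rw [h2]
        exact W.add_mem h1 (ha x)
      one_mem' := fun x => by rw [one_smul, sub_self]; exact W.zero_mem
      inv_mem' := fun {a} ha x => by
        have h1 : a⁻¹ • (a • x - x) ∈ W := hW a⁻¹ _ (ha x)
        have h2 : a⁻¹ • x - x = -(a⁻¹ • (a • x - x)) := by
          rw [smul_sub, inv_smul_smul]; abel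
        rw [h2]
        exact W.neg_mem h1 }
  have hnormal : H.Normal := ⟨fun n hn g x => by
    have h1 : g • (n • (g⁻¹ • x) - g⁻¹ • x) ∈ W := hW g _ (hn (g⁻¹ • x))
    have h2 : (g * n * g⁻¹) • x - x = g • (n • (g⁻¹ • x) - g⁻¹ • x) := by
      rw [mul_smul, mul_smul, smul_sub, smul_inv_smul]
    rw [h2]
    exact h1⟩
  have h := eq_top_of_inertia_le H L
    (fun τ hτ => hL τ ((IntermediateField.mem_fixingSubgroup_iff L τ).mp hτ))
    (fun q hq => by
      obtain ⟨A, hA, hAI⟩ := hI q hq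
      exact ⟨A, hA, fun τ hτ => hAI τ hτ⟩)
  intro σ
  have hσ : σ ∈ H := by rw [h]; exact Subgroup.mem_top σ
  exact hσ

end Corollaries

end Fermat.Agent.Lib.InertiaBridge
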