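import Mathlib
import Fermat.Prelude.Def_FLTPrelim_Ramification

/-!
# Automorphisms preserving a valuation subring preserve the valuation

If `K / k` is algebraic, `A` is a valuation subring of `K` and `σ : K ≃ₐ[k] K` satisfies
`σ A = A` (e.g. `σ` lies in the decomposition or the inertia group of `A`), then
`A.valuation (σ x) = A.valuation x` for EVERY `x : K` (not only for units).
-/

set_option autoImplicit false

namespace Fermat.Agent.Lib.ValAut

open scoped Pointwise

section General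

variable {K : Type*} [Field K] {Γ₀ : Type*} [LinearOrderedCommGroupWithZero Γ₀]

/-- Ultrametric principle: if a finite sum vanishes and some term is nonzero, then two distinct
terms have the same valuation, one of them being nonzero. -/
theorem exists_ne_val_eq_of_sum_eq_zero (v : Valuation K Γ₀) {ι : Type*} (s : Finset ι)
    (t : ι → K) (hsum : ∑ i ∈ s, t i = 0) {i₀ : ι} (hi₀ : i₀ ∈ s) (h0 : t i₀ ≠ 0) :
    ∃ i ∈ s, ∃ j ∈ s, i ≠ j ∧ t i ≠ 0 ∧ v (t i) = v (t j) := by
  classical
  obtain ⟨i, hi, hmax⟩ := s.exists_max_image (fun i => v (t i)) ⟨i₀, hi₀⟩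
  have hti : t i ≠ 0 := by
    intro h
    have h1 := hmax i₀ hi₀
    rw [h, map_zero] at h1
    exact h0 ((v.zero_iff).mp (le_antisymm h1 zero_le))
  by_contra hcon
  push Not at hcon
  have hlt : ∀ j ∈ s.erase i, v (t j) < v (t i) := by
    intro j hj
    have hj' := Finset.mem_erase.mp hj
    refine lt_of_le_of_ne (hmax j hj'.2) ?_
    intro h
    exact hcon i hi j hj'.2 (Ne.symm hj'.1) hti h.symm
  have h1 : v (∑ j ∈ s.erase i, t j) < v (t i) :=
    v.map_sum_lt ((v.ne_zero_iff).mpr hti) hlt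
  have h2 : t i + ∑ j ∈ s.erase i, t j = 0 := by
    rw [Finset.add_sum_erase s t hi]; exact hsum
  have h3 : v (t i) = v (∑ j ∈ s.erase i, t j) := by
    rw [eq_neg_of_add_eq_zero_left h2, v.map_neg]
  rw [h3] at h1
  exact lt_irrefl _ h1

theorem eq_of_pow_rel {a b α β : Γ₀} (hβ : β ≠ 0) (ha : a ≠ 0) (hb : b ≠ 0) {i j : ℕ}
    (hij : i < j) (h1 : α * a ^ i = β * a ^ j) (h2 : α * b ^ i = β * b ^ j) : a = b := by
  obtain ⟨d, rfl⟩ := Nat.exists_eq_add_of_lt hij
  have hd : i + d + 1 = i + (d + 1) := by ring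
  rw [hd, pow_add, ← mul_assoc, mul_comm β, mul_assoc] at h1 h2
  have e1 : α = β * a ^ (d + 1) := mul_left_cancel₀ (pow_ne_zero i ha) (by
    rw [mul_comm (a ^ i) α]; exact h1)
  have e2 : α = β * b ^ (d + 1) := mul_left_cancel₀ (pow_ne_zero i hb) (by
    rw [mul_comm (b ^ i) α]; exact h2)
  have e3 : a ^ (d + 1) = b ^ (d + 1) := mul_left_cancel₀ hβ (e1.symm.trans e2)
  exact (pow_left_inj₀ zero_le zero_le (Nat.succ_ne_zero d)).mp e3

/-- A field automorphism mapping the valuation subring `A` onto itself preserves units. -/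
theorem valuation_map_eq_one (A : ValuationSubring K) (σ : K ≃+* K)
    (hσ : ∀ x, x ∈ A ↔ σ x ∈ A) {u : K} (hu : A.valuation u = 1) : A.valuation (σ u) = 1 := by
  have hu0 : u ≠ 0 := by
    rintro rfl
    rw [map_zero] at hu
    exact zero_ne_one hu
  have hσu0 : σ u ≠ 0 := (map_ne_zero σ).mpr hu0
  have h1 : u ∈ A := (A.valuation_le_one_iff u).mp hu.le
  have h2 : u⁻¹ ∈ A := (A.valuation_le_one_iff _).mp (by rw [map_inv₀, hu, inv_one])
  have a1 : A.valuation (σ u) ≤ 1 := (A.valuation_le_one_iff _).mpr ((hσ u).mp h1)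
  have a2 : A.valuation (σ u)⁻¹ ≤ 1 := by
    have := (A.valuation_le_one_iff _).mpr ((hσ u⁻¹).mp h2)
    rwa [map_inv₀] at this
  have hpos : 0 < A.valuation (σ u) := by
    rw [pos_iff_ne_zero]; exact (A.valuation.ne_zero_iff).mpr hσu0
  rw [map_inv₀] at a2
  exact le_antisymm a1 ((inv_le_one₀ hpos).mp a2)

/-- **Main lemma.**  `K / k` algebraic, `σ ∈ Aut(K / k)` with `σ A = A`: then `σ` preserves the
valuation of `A`. -/
theorem valuation_map_eq {k : Type*} [Field k] [Algebra k K] [Algebra.IsAlgebraic k K]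
    (A : ValuationSubring K) (σ : K ≃ₐ[k] K) (hσ : ∀ x, x ∈ A ↔ σ x ∈ A) (x : K) :
    A.valuation (σ x) = A.valuation x := by
  by_cases hx : x = 0
  · rw [hx, map_zero]
  have hσx : σ x ≠ 0 := (map_ne_zero σ).mpr hx
  have hvx : A.valuation x ≠ 0 := (A.valuation.ne_zero_iff).mpr hx
  have hvσx : A.valuation (σ x) ≠ 0 := (A.valuation.ne_zero_iff).mpr hσx
  obtain ⟨f, hf0, hfx⟩ := Algebra.IsAlgebraic.isAlgebraic (R := k) x
  have hsum : ∑ i ∈ f.support, algebraMap k K (f.coeff i) * x ^ i = 0 := by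
    rw [← hfx, Polynomial.aeval_def, Polynomial.eval₂_eq_sum, Polynomial.sum_def]
  obtain ⟨i₀, hi₀⟩ : f.support.Nonempty := Polynomial.support_nonempty.mpr hf0
  have hterm : ∀ i ∈ f.support, algebraMap k K (f.coeff i) * x ^ i ≠ 0 := by
    intro i hi
    refine mul_ne_zero ?_ (pow_ne_zero i hx)
    rw [Ne, map_eq_zero_iff _ (algebraMap k K).injective]
    exact Polynomial.mem_support_iff.mp hi
  obtain ⟨i, hi, j, hj, hij, -, hv⟩ := exists_ne_val_eq_of_sum_eq_zero A.valuation f.support
    (fun i => algebraMap k K (f.coeff i) * x ^ i) hsum hi₀ (hterm i₀ hi₀)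
  have hci : algebraMap k K (f.coeff i) ≠ 0 := left_ne_zero_of_mul (hterm i hi)
  have hcj : algebraMap k K (f.coeff j) ≠ 0 := left_ne_zero_of_mul (hterm j hj)
  have hvci : A.valuation (algebraMap k K (f.coeff i)) ≠ 0 := (A.valuation.ne_zero_iff).mpr hci
  have hvcj : A.valuation (algebraMap k K (f.coeff j)) ≠ 0 := (A.valuation.ne_zero_iff).mpr hcj
  -- the unit `u`
  have hu : A.valuation ((algebraMap k K (f.coeff i) * x ^ i) /
      (algebraMap k K (f.coeff j) * x ^ j)) = 1 := by
    rw [map_div₀, hv]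
    exact div_self ((A.valuation.ne_zero_iff).mpr (hterm j hj))
  have hσu := valuation_map_eq_one A σ.toRingEquiv hσ hu
  have hσu' : A.valuation (algebraMap k K (f.coeff i)) * A.valuation (σ x) ^ i =
      A.valuation (algebraMap k K (f.coeff j)) * A.valuation (σ x) ^ j := by
    have e : σ.toRingEquiv ((algebraMap k K (f.coeff i) * x ^ i) /
        (algebraMap k K (f.coeff j) * x ^ j)) =
        (algebraMap k K (f.coeff i) * σ x ^ i) / (algebraMap k K (f.coeff j) * σ x ^ j) := by
      change σ _ = _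
      rw [map_div₀, map_mul, map_mul, map_pow, map_pow, σ.commutes, σ.commutes]
    rw [e, map_div₀, map_mul, map_mul, map_pow, map_pow] at hσu
    exact (div_eq_one_iff_eq (mul_ne_zero hvcj (pow_ne_zero j hvσx))).mp hσu
  have hv' : A.valuation (algebraMap k K (f.coeff i)) * A.valuation x ^ i =
      A.valuation (algebraMap k K (f.coeff j)) * A.valuation x ^ j := by
    rw [map_mul, map_mul, map_pow, map_pow] at hv
    exact hv
  rcases lt_or_gt_of_ne hij with h | h
  · exact eq_of_pow_rel hvcj hvσx hvx h hσu' hv'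
  · exact eq_of_pow_rel hvci hvσx hvx h hσu'.symm hv'.symm

end General

section Inertia

variable {K : Type*} [Field K] (S : Type*) [Field S] [Algebra S K]

theorem mem_of_mem_decomposition (A : ValuationSubring K) (σ : K ≃ₐ[S] K)
    (hσ : σ ∈ A.decompositionSubgroup S) (x : K) (hx : x ∈ A) : σ x ∈ A := by
  have h1 : σ • x ∈ σ • A := ValuationSubring.smul_mem_pointwise_smul σ x A hx
  have h2 : σ • A = A := hσ
  rw [h2] at h1
  exact h1

theorem mem_iff_of_mem_decomposition (A : ValuationSubring K) (σ : K ≃ₐ[S] K)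
    (hσ : σ ∈ A.decompositionSubgroup S) (x : K) : x ∈ A ↔ σ x ∈ A := by
  refine ⟨mem_of_mem_decomposition S A σ hσ x, fun h => ?_⟩
  have h1 := mem_of_mem_decomposition S A σ⁻¹ (inv_mem hσ) (σ x) h
  have h2 : σ⁻¹ (σ x) = x := σ.symm_apply_apply x
  rwa [h2] at h1

theorem mem_decomposition_of_mem_inertia (A : ValuationSubring K) (σ : K ≃ₐ[S] K)
    (hσ : σ ∈ A.inertiaSubgroupIn S) : σ ∈ A.decompositionSubgroup S := by
  obtain ⟨τ, -, rfl⟩ := hσ
  exact τ.2

/-- Elements of the decomposition group preserve the valuation (algebraic extensions). -/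
theorem valuation_map_eq_of_mem_decomposition [Algebra.IsAlgebraic S K] (A : ValuationSubring K)
    (σ : K ≃ₐ[S] K) (hσ : σ ∈ A.decompositionSubgroup S) (x : K) :
    A.valuation (σ x) = A.valuation x :=
  valuation_map_eq A σ (mem_iff_of_mem_decomposition S A σ hσ) x

/-- Elements of the inertia group preserve the valuation (algebraic extensions). -/
theorem valuation_map_eq_of_mem_inertia' [Algebra.IsAlgebraic S K] (A : ValuationSubring K)
    (σ : K ≃ₐ[S] K) (hσ : σ ∈ A.inertiaSubgroupIn S) (x : K) :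
    A.valuation (σ x) = A.valuation x :=
  valuation_map_eq_of_mem_decomposition S A σ (mem_decomposition_of_mem_inertia S A σ hσ) x

end Inertia

/-- The form used for the Frey curve: inertia at a valuation subring of `ℚ̄` preserves the
valuation of every element. -/
theorem valuation_map_eq_of_mem_inertia (A : ValuationSubring (AlgebraicClosure ℚ))
    (σ : AlgebraicClosure ℚ ≃ₐ[ℚ] AlgebraicClosure ℚ) (hσ : σ ∈ A.inertiaSubgroupIn ℚ)
    (x : AlgebraicClosure ℚ) : A.valuation (σ x) = A.valuation x :=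
  haveI : Algebra.IsAlgebraic ℚ (AlgebraicClosure ℚ) := AlgebraicClosure.isAlgebraic ℚ
  valuation_map_eq_of_mem_inertia' ℚ A σ hσ x

/-- Consequence: `σ x / x` is a unit of `A` for `x ≠ 0`. -/
theorem valuation_map_div_self (A : ValuationSubring (AlgebraicClosure ℚ))
    (σ : AlgebraicClosure ℚ ≃ₐ[ℚ] AlgebraicClosure ℚ) (hσ : σ ∈ A.inertiaSubgroupIn ℚ)
    {x : AlgebraicClosure ℚ} (hx : x ≠ 0) : A.valuation (σ x / x) = 1 := by
  rw [map_div₀, valuation_map_eq_of_mem_inertia A σ hσ x]
  exact div_self ((A.valuation.ne_zero_iff).mpr hx)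

end Fermat.Agent.Lib.ValAut
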