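import Mathlib
import Fermat.Prelude.Def_FLTPrelim_Ramification
import Fermat.Agent.Lib.FrobProfinite
import Fermat.Agent.Lib.ValFrac

set_option autoImplicit false
open scoped Pointwise

namespace Fermat.Agent.Lib.DecompLift

local notation "Qb" => AlgebraicClosure ℚ
local notation "Gq" => (AlgebraicClosure ℚ ≃ₐ[ℚ] AlgebraicClosure ℚ)
local notation "Bq" => integralClosure ℤ (AlgebraicClosure ℚ)

attribute [local instance] Fermat.Agent.Lib.FrobProfinite.isAlgebraic_Qb
  Fermat.Agent.Lib.FrobProfinite.isAlgClosure_Qb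
  Fermat.Agent.Lib.FrobProfinite.galAction
  Fermat.Agent.Lib.FrobProfinite.smulCommClass_galAction
  Fermat.Agent.Lib.FrobProfinite.discTop
  Fermat.Agent.Lib.FrobProfinite.discTop_discrete

theorem isAlgebraic_int (x : Qb) : IsAlgebraic ℤ x :=
  (IsFractionRing.isAlgebraic_iff ℤ ℚ Qb).mpr (Algebra.IsAlgebraic.isAlgebraic x)

theorem mem_of_isIntegral (A : ValuationSubring Qb) {x : Qb} (hx : IsIntegral ℤ x) : x ∈ A :=
  Fermat.Agent.Lib.FrobProfinite.mem_valuationSubring_of_isIntegral A hx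

theorem val_le_one_of_isIntegral (A : ValuationSubring Qb) {x : Qb} (hx : IsIntegral ℤ x) :
    A.valuation x ≤ 1 :=
  (A.valuation_le_one_iff _).mpr (mem_of_isIntegral A hx)

/-- An automorphism preserving the nonunits among the algebraic integers preserves `A`. -/
theorem map_mem_of_preserves (A : ValuationSubring Qb) {ℓ : ℕ} (hℓ : ℓ.Prime)
    (hA : (ℓ : Qb) ∈ A.nonunits) (σ : Gq)
    (hσ : ∀ c : Qb, IsIntegral ℤ c → (c ∈ A.nonunits ↔ σ c ∈ A.nonunits))
    (x : Qb) (hx : x ∈ A) : σ x ∈ A := by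
  obtain ⟨s, hs, hxs, hvs⟩ :=
    Fermat.Agent.Lib.ValFrac.exists_integral_fraction A ℓ hℓ hA x hx (isAlgebraic_int x)
  have hσs : IsIntegral ℤ (σ s) := map_isIntegral_int σ hs
  have hσxs : IsIntegral ℤ (σ (x * s)) := map_isIntegral_int σ hxs
  have h1 : A.valuation (σ s) = 1 := by
    refine le_antisymm (val_le_one_of_isIntegral A hσs) (not_lt.mp fun hlt => ?_)
    have h2 : σ s ∈ A.nonunits := A.mem_nonunits_iff.mpr hlt
    have h3 : s ∈ A.nonunits := (hσ s hs).mpr h2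
    have h4 := A.mem_nonunits_iff.mp h3
    rw [hvs] at h4
    exact lt_irrefl _ h4
  have h5 : A.valuation (σ (x * s)) ≤ 1 := val_le_one_of_isIntegral A hσxs
  rw [map_mul, map_mul, h1, mul_one] at h5
  exact (A.valuation_le_one_iff _).mp h5

theorem preserves_symm (A : ValuationSubring Qb) (σ : Gq)
    (hσ : ∀ c : Qb, IsIntegral ℤ c → (c ∈ A.nonunits ↔ σ c ∈ A.nonunits)) :
    ∀ c : Qb, IsIntegral ℤ c → (c ∈ A.nonunits ↔ σ.symm c ∈ A.nonunits) := by
  intro c hc
  have h := hσ (σ.symm c) (map_isIntegral_int σ.symm hc)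
  rw [AlgEquiv.apply_symm_apply] at h
  exact h.symm

/-- An automorphism preserving the nonunits among the algebraic integers lies in the
decomposition group. -/
theorem mem_decomp_of_preserves (A : ValuationSubring Qb) {ℓ : ℕ} (hℓ : ℓ.Prime)
    (hA : (ℓ : Qb) ∈ A.nonunits) (σ : Gq)
    (hσ : ∀ c : Qb, IsIntegral ℤ c → (c ∈ A.nonunits ↔ σ c ∈ A.nonunits)) :
    σ ∈ A.decompositionSubgroup ℚ := by
  rw [MulAction.mem_stabilizer_iff]
  ext x
  rw [ValuationSubring.mem_pointwise_smul_iff_inv_smul_mem]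
  have hinv : σ⁻¹ • x = σ.symm x := rfl
  rw [hinv]
  constructor
  · intro h
    have := map_mem_of_preserves A hℓ hA σ hσ _ h
    rwa [AlgEquiv.apply_symm_apply] at this
  · intro h
    exact map_mem_of_preserves A hℓ hA σ.symm (preserves_symm A σ hσ) _ h

/-- An automorphism congruent to the identity on algebraic integers modulo the maximal ideal of
`A` is congruent to the identity on all of `A`. -/
theorem val_sub_lt_one_of_integral (A : ValuationSubring Qb) {ℓ : ℕ} (hℓ : ℓ.Prime)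
    (hA : (ℓ : Qb) ∈ A.nonunits) (σ : Gq)
    (hσ : ∀ c : Qb, IsIntegral ℤ c → σ c - c ∈ A.nonunits) (x : Qb) (hx : x ∈ A) :
    A.valuation (σ x - x) < 1 := by
  obtain ⟨s, hs, hxs, hvs⟩ :=
    Fermat.Agent.Lib.ValFrac.exists_integral_fraction A ℓ hℓ hA x hx (isAlgebraic_int x)
  have h1 : A.valuation (σ (x * s) - x * s) < 1 := A.mem_nonunits_iff.mp (hσ _ hxs)
  have h2 : A.valuation (σ s - s) < 1 := A.mem_nonunits_iff.mp (hσ _ hs)
  have hvx : A.valuation x ≤ 1 := (A.valuation_le_one_iff _).mpr hx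
  have hvσs : A.valuation (σ s) = 1 := by
    have : σ s = s + (σ s - s) := by ring
    rw [this, A.valuation.map_add_eq_of_lt_left (by rw [hvs]; exact h2), hvs]
  have key : (σ x - x) * σ s = (σ (x * s) - x * s) - x * (σ s - s) := by
    rw [map_mul]; ring
  have h3 : A.valuation ((σ x - x) * σ s) < 1 := by
    rw [key]
    refine A.valuation.map_sub_lt h1 ?_
    rw [map_mul]
    calc A.valuation x * A.valuation (σ s - s) ≤ 1 * A.valuation (σ s - s) := by
          gcongr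
      _ < 1 := by rw [one_mul]; exact h2
  rwa [map_mul, hvσs, mul_one] at h3

theorem preserves_of_sub_mem (A : ValuationSubring Qb) (σ : Gq)
    (hσ : ∀ c : Qb, IsIntegral ℤ c → σ c - c ∈ A.nonunits) :
    ∀ c : Qb, IsIntegral ℤ c → (c ∈ A.nonunits ↔ σ c ∈ A.nonunits) := by
  intro c hc
  have h := A.mem_nonunits_iff.mp (hσ c hc)
  rw [A.mem_nonunits_iff, A.mem_nonunits_iff]
  constructor
  · intro h1
    have : σ c = c + (σ c - c) := by ring
    rw [this]
    exact A.valuation.map_add_lt h1 h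
  · intro h1
    have : c = σ c - (σ c - c) := by ring
    rw [this]
    exact A.valuation.map_sub_lt h1 h

/-- An automorphism congruent to the identity on algebraic integers modulo the maximal ideal of
`A` lies in the inertia group of `A`. -/
theorem mem_inertia_of_integral (A : ValuationSubring Qb) {ℓ : ℕ} (hℓ : ℓ.Prime)
    (hA : (ℓ : Qb) ∈ A.nonunits) (σ : Gq)
    (hσ : ∀ c : Qb, IsIntegral ℤ c → σ c - c ∈ A.nonunits) :
    σ ∈ A.inertiaSubgroupIn ℚ := by
  have hstab : σ ∈ A.decompositionSubgroup ℚ :=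
    mem_decomp_of_preserves A hℓ hA σ (preserves_of_sub_mem A σ hσ)
  refine ⟨⟨σ, hstab⟩, ?_, rfl⟩
  show (⟨σ, hstab⟩ : A.decompositionSubgroup ℚ) ∈ A.inertiaSubgroup ℚ
  rw [ValuationSubring.inertiaSubgroup, MonoidHom.mem_ker]
  ext x
  obtain ⟨x, rfl⟩ := IsLocalRing.residue_surjective x
  rw [MulSemiringAction.toRingAut_apply, RingAut.one_apply]
  show (⟨σ, hstab⟩ : A.decompositionSubgroup ℚ) • (IsLocalRing.residue A x) = _
  rw [← IsLocalRing.ResidueField.residue_smul, ← sub_eq_zero, ← map_sub,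
    IsLocalRing.residue_eq_zero_iff, ValuationSubring.valuation_lt_one_iff]
  exact val_sub_lt_one_of_integral A hℓ hA σ hσ x x.2

section Relative

variable (M : IntermediateField ℚ Qb)

/-- The action of `Gal(Qb/M)` on the ring of algebraic integers. -/
@[reducible] noncomputable def galActionM : MulSemiringAction (Qb ≃ₐ[M] Qb) Bq where
  smul g x := ⟨g x.1, map_isIntegral_int g x.2⟩
  one_smul _ := Subtype.ext rfl
  mul_smul _ _ _ := Subtype.ext rfl
  smul_zero g := Subtype.ext (map_zero g)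
  smul_add g x y := Subtype.ext (map_add g x.1 y.1)
  smul_one g := Subtype.ext (map_one g)
  smul_mul g x y := Subtype.ext (map_mul g x.1 y.1)

attribute [local instance] galActionM

theorem galActionM_coe (g : Qb ≃ₐ[M] Qb) (x : Bq) : ((g • x : Bq) : Qb) = g (x : Qb) := rfl

theorem smulCommClassM : SMulCommClass (Qb ≃ₐ[M] Qb) ℤ Bq where
  smul_comm g n x := Subtype.ext (map_zsmul g n (x : Qb))

attribute [local instance] smulCommClassM

theorem continuousSMulM : ContinuousSMul (Qb ≃ₐ[M] Qb) Bq := by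
  rw [continuousSMul_iff_stabilizer_isOpen]
  intro x
  have h := stabilizer_isOpen_of_isIntegral (K := M) (L := Qb) (x : Qb)
  convert h using 1
  ext g
  simp only [SetLike.mem_coe, MulAction.mem_stabilizer_iff]
  constructor
  · intro hg
    exact congrArg Subtype.val hg
  · intro hg
    exact Subtype.ext hg

attribute [local instance] continuousSMulM

theorem isInvariantM :
    Algebra.IsInvariant (FixedPoints.subalgebra ℤ Bq (Qb ≃ₐ[M] Qb)) Bq (Qb ≃ₐ[M] Qb) :=
  ⟨fun b hb => ⟨⟨b, hb⟩, rfl⟩⟩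

attribute [local instance] isInvariantM

/-- Fixed points of `Gal(Qb/M)` among the algebraic integers lie in `M`. -/
theorem coe_mem_of_fixed (a : FixedPoints.subalgebra ℤ Bq (Qb ≃ₐ[M] Qb)) :
    ((a : Bq) : Qb) ∈ M := by
  have hfix : ∀ f : Qb ≃ₐ[M] Qb, f ((a : Bq) : Qb) = ((a : Bq) : Qb) :=
    fun f => congrArg Subtype.val (a.2 f)
  obtain ⟨m, hm⟩ :=
    (InfiniteGalois.mem_range_algebraMap_iff_fixed (k := M) (K := Qb) ((a : Bq) : Qb)).mpr hfix
  rw [← hm]
  exact m.2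

/-- The prime of the ring of algebraic integers cut out by a valuation subring. -/
def primeOf (A : ValuationSubring Qb) : Ideal Bq where
  carrier := {b | (b : Qb) ∈ A.nonunits}
  add_mem' := fun {a b} ha hb => by
    have ha' : A.valuation (a : Qb) < 1 := A.mem_nonunits_iff.mp ha
    have hb' : A.valuation (b : Qb) < 1 := A.mem_nonunits_iff.mp hb
    show ((a + b : Bq) : Qb) ∈ A.nonunits
    rw [A.mem_nonunits_iff]
    exact A.valuation.map_add_lt ha' hb'
  zero_mem' := by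
    show ((0 : Bq) : Qb) ∈ A.nonunits
    rw [A.mem_nonunits_iff]; simp
  smul_mem' := fun c {b} hb => by
    have hb' : A.valuation (b : Qb) < 1 := A.mem_nonunits_iff.mp hb
    show ((c * b : Bq) : Qb) ∈ A.nonunits
    rw [A.mem_nonunits_iff]
    show A.valuation ((c : Qb) * (b : Qb)) < 1
    rw [map_mul]
    exact lt_of_le_of_lt (mul_le_of_le_one_left' (val_le_one_of_isIntegral A c.2)) hb'

theorem mem_primeOf (A : ValuationSubring Qb) (b : Bq) :
    b ∈ primeOf A ↔ (b : Qb) ∈ A.nonunits := Iff.rfl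

theorem primeOf_isPrime (A : ValuationSubring Qb) : (primeOf A).IsPrime := by
  refine ⟨?_, ?_⟩
  · intro h
    have h1 : (1 : Bq) ∈ primeOf A := h ▸ Submodule.mem_top
    rw [mem_primeOf, A.mem_nonunits_iff] at h1
    simp at h1
  · intro a b hab
    rw [mem_primeOf, A.mem_nonunits_iff] at hab
    by_contra hcon
    push Not at hcon
    rw [mem_primeOf, mem_primeOf, A.mem_nonunits_iff, A.mem_nonunits_iff, not_lt, not_lt] at hcon
    have h1 : (1 : A.ValueGroup) ≤ A.valuation ((a * b : Bq) : Qb) := by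
      show 1 ≤ A.valuation ((a : Qb) * (b : Qb))
      rw [map_mul]
      exact one_le_mul_of_one_le_of_one_le hcon.1 hcon.2
    exact absurd hab (not_lt.mpr h1)

/-- Core of the lifting lemmas: transitivity of `Gal(Qb/M)` on the primes of the ring of all
algebraic integers above a prime of the integers of `M`. -/
theorem exists_preserving_lift (A : ValuationSubring Qb) (τ : Gq)
    (hτ : ∀ x ∈ M, IsIntegral ℤ x → (x ∈ A.nonunits ↔ τ x ∈ A.nonunits)) :
    ∃ σ : Gq, (∀ c : Qb, IsIntegral ℤ c → (c ∈ A.nonunits ↔ σ c ∈ A.nonunits)) ∧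
      ∀ x ∈ M, σ x = τ x := by
  have := primeOf_isPrime A
  let P : Ideal Bq := primeOf A
  let P' : Ideal Bq := P.comap (MulSemiringAction.toRingHom Gq Bq τ)
  have : P'.IsPrime := Ideal.comap_isPrime _ _
  have hmemP' : ∀ b : Bq, b ∈ P' ↔ τ (b : Qb) ∈ A.nonunits := fun b => Iff.rfl
  have hunder : P.under (FixedPoints.subalgebra ℤ Bq (Qb ≃ₐ[M] Qb)) =
      P'.under (FixedPoints.subalgebra ℤ Bq (Qb ≃ₐ[M] Qb)) := by
    ext a
    rw [Ideal.mem_comap, Ideal.mem_comap]
    show (a : Bq) ∈ P ↔ (a : Bq) ∈ P'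
    rw [hmemP']
    exact hτ _ (coe_mem_of_fixed M a) (a : Bq).2
  obtain ⟨g, hg⟩ := Algebra.IsInvariant.exists_smul_of_under_eq_of_profinite
    (A := FixedPoints.subalgebra ℤ Bq (Qb ≃ₐ[M] Qb)) (G := (Qb ≃ₐ[M] Qb)) P P' hunder
  refine ⟨τ * (g.restrictScalars ℚ), ?_, ?_⟩
  · intro c hc
    have h1 : (⟨c, hc⟩ : Bq) ∈ P ↔ g • (⟨c, hc⟩ : Bq) ∈ g • P :=
      (Ideal.smul_mem_pointwise_smul_iff).symm
    rw [← hg, hmemP'] at h1
    exact h1
  · intro x hx
    show τ (g x) = τ x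
    have : g x = x := g.commutes ⟨x, hx⟩
    rw [this]

/-- **Decomposition lifting.** If `τ` stabilises the prime of the integers of `M` cut out by
the valuation subring `A` of `AlgebraicClosure ℚ`, then `τ` agrees on `M` with an element of the
decomposition group of `A`. -/
theorem exists_decomp_lift (A : ValuationSubring Qb) {ℓ : ℕ} (hℓ : ℓ.Prime)
    (hA : A.LiesOverPrime ℓ) (τ : Gq)
    (hτ : ∀ x ∈ M, IsIntegral ℤ x → (x ∈ A.nonunits ↔ τ x ∈ A.nonunits)) :
    ∃ σ ∈ A.decompositionSubgroup ℚ, ∀ x ∈ M, σ x = τ x := by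
  obtain ⟨σ, h1, h2⟩ := exists_preserving_lift M A τ hτ
  exact ⟨σ, mem_decomp_of_preserves A hℓ hA σ h1, h2⟩

/-- **Inertia lifting.** If `τ` is congruent to the identity on the integers of `M` modulo the
prime cut out by the valuation subring `A` of `AlgebraicClosure ℚ`, then `τ` agrees on `M` with
an element of the inertia group of `A`. -/
theorem exists_inertia_lift (A : ValuationSubring Qb) {ℓ : ℕ} (hℓ : ℓ.Prime)
    (hA : A.LiesOverPrime ℓ) (τ : Gq)
    (hτ : ∀ x ∈ M, IsIntegral ℤ x → τ x - x ∈ A.nonunits) :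
    ∃ σ ∈ A.inertiaSubgroupIn ℚ, ∀ x ∈ M, σ x = τ x := by
  have hτ' : ∀ x ∈ M, IsIntegral ℤ x → (x ∈ A.nonunits ↔ τ x ∈ A.nonunits) := by
    intro x hx hxi
    have h := A.mem_nonunits_iff.mp (hτ x hx hxi)
    rw [A.mem_nonunits_iff, A.mem_nonunits_iff]
    constructor
    · intro h1
      have : τ x = x + (τ x - x) := by ring
      rw [this]
      exact A.valuation.map_add_lt h1 h
    · intro h1
      have : x = τ x - (τ x - x) := by ring
      rw [this]
      exact A.valuation.map_sub_lt h1 h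
  obtain ⟨σ₁, h1, h2⟩ := exists_preserving_lift M A τ hτ'
  have := primeOf_isPrime A
  let P : Ideal Bq := primeOf A
  let 𝔭 : Ideal (FixedPoints.subalgebra ℤ Bq (Qb ≃ₐ[M] Qb)) :=
    P.under (FixedPoints.subalgebra ℤ Bq (Qb ≃ₐ[M] Qb))
  have hlo : P.LiesOver 𝔭 := ⟨rfl⟩
  have hlo' : P.LiesOver (P.under ℤ) := ⟨rfl⟩
  have hstab : σ₁ ∈ MulAction.stabilizer Gq P := by
    rw [MulAction.mem_stabilizer_iff]
    ext b
    rw [Ideal.mem_pointwise_smul_iff_inv_smul_mem]
    show (σ₁.symm (b : Qb)) ∈ A.nonunits ↔ (b : Qb) ∈ A.nonunits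
    exact (preserves_symm A σ₁ h1 _ b.2).symm
  let e₀ : (Bq ⧸ P) ≃ₐ[ℤ ⧸ P.under ℤ] (Bq ⧸ P) :=
    Ideal.Quotient.stabilizerHom P (P.under ℤ) Gq ⟨σ₁, hstab⟩
  have he₀ : ∀ b : Bq, e₀ (Ideal.Quotient.mk P b) = Ideal.Quotient.mk P (σ₁ • b) := fun b => rfl
  let e : (Bq ⧸ P) ≃ₐ[(FixedPoints.subalgebra ℤ Bq (Qb ≃ₐ[M] Qb)) ⧸ 𝔭] (Bq ⧸ P) :=
    AlgEquiv.ofRingEquiv (f := e₀.toRingEquiv) (by
      intro x
      obtain ⟨a, rfl⟩ := Ideal.Quotient.mk_surjective x
      rw [Ideal.Quotient.algebraMap_mk_of_liesOver]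
      show e₀ (Ideal.Quotient.mk P (a : Bq)) = Ideal.Quotient.mk P (a : Bq)
      rw [he₀, Ideal.Quotient.eq]
      show (σ₁ ((a : Bq) : Qb) - ((a : Bq) : Qb)) ∈ A.nonunits
      rw [h2 _ (coe_mem_of_fixed M a)]
      exact hτ _ (coe_mem_of_fixed M a) (a : Bq).2)
  have he : ∀ b : Bq, e (Ideal.Quotient.mk P b) = Ideal.Quotient.mk P (σ₁ • b) := fun b => rfl
  obtain ⟨h, hh⟩ := Ideal.Quotient.stabilizerHom_surjective_of_profinite
    (G := (Qb ≃ₐ[M] Qb)) 𝔭 P e
  have hcong : ∀ b : Bq, σ₁ • b - (h : Qb ≃ₐ[M] Qb) • b ∈ P := by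
    intro b
    have h3 := congrArg (fun f => f (Ideal.Quotient.mk P b)) hh
    simp only [Ideal.Quotient.stabilizerHom_apply] at h3
    rw [he] at h3
    exact Ideal.Quotient.eq.mp h3.symm
  refine ⟨σ₁ * (((h : Qb ≃ₐ[M] Qb)⁻¹).restrictScalars ℚ), ?_, ?_⟩
  · refine mem_inertia_of_integral A hℓ hA _ fun c hc => ?_
    have h4 := hcong ((h : Qb ≃ₐ[M] Qb)⁻¹ • (⟨c, hc⟩ : Bq))
    rw [smul_inv_smul] at h4
    exact h4
  · intro x hx
    show σ₁ (((h : Qb ≃ₐ[M] Qb)⁻¹) x) = τ x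
    have : ((h : Qb ≃ₐ[M] Qb)⁻¹) x = x := ((h : Qb ≃ₐ[M] Qb)⁻¹).commutes ⟨x, hx⟩
    rw [this, h2 x hx]

end Relative

end Fermat.Agent.Lib.DecompLift
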