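import Mathlib

/-!
# Weak approximation for Dedekind domains (finite places)

`R` a Dedekind domain with fraction field `K`, `T` a finite set of height-one primes.

* `exists_forall_valuation_sub_le` : additive form with prescribed precision at each `v ∈ T`,
  and the approximating element is integral outside `T` (strong-approximation flavour).
* `exists_forall_valuation_div_sub_one_le` : multiplicative form
  `v (y / x v - 1) ≤ exp (-n v)`, together with `v y = v (x v)`.
* `exists_units_forall_div_mem` : if `H v ≤ Kˣ` contains a `v`-adic neighbourhood of `1`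
  for every `v ∈ T`, then `Kˣ → ∏_{v ∈ T} Kˣ / H v` is onto.
* `index_iInf_eq_prod` : under the same hypothesis `[Kˣ : ⨅_{v ∈ T} H v] = ∏_{v ∈ T} [Kˣ : H v]`.
-/

set_option autoImplicit false

open IsDedekindDomain WithZero

namespace Fermat.Agent.Lib.WeakApprox

variable {R : Type*} [CommRing R] [IsDedekindDomain R] {K : Type*} [Field K] [Algebra R K]
  [IsFractionRing R K]

/-- Chinese remainder theorem in valuation form (integral elements). -/
theorem exists_int_forall_intValuation_sub_le (U : Finset (HeightOneSpectrum R))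
    (a : HeightOneSpectrum R → R) (e : HeightOneSpectrum R → ℕ) :
    ∃ z : R, ∀ v ∈ U, v.intValuation (z - a v) ≤ exp (-(e v : ℤ)) := by
  obtain ⟨z, hz⟩ := IsDedekindDomain.exists_forall_sub_mem_ideal (s := U)
    (fun v : HeightOneSpectrum R => v.asIdeal) e (fun v _ => v.prime)
    (fun v _ w _ hvw h => hvw (HeightOneSpectrum.ext h)) (fun v => a v.1)
  exact ⟨z, fun v hv => (v.intValuation_le_pow_iff_mem _ _).2 (hz v hv)⟩

/-- **Weak approximation, additive form**: prescribed `v`-adic approximations at the finitely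
many `v ∈ T`, by an element which is integral at every `v ∉ T`. -/
theorem exists_forall_valuation_sub_le (T : Finset (HeightOneSpectrum R))
    (x : HeightOneSpectrum R → K) (n : HeightOneSpectrum R → ℕ) :
    ∃ y : K, (∀ v ∈ T, v.valuation K (y - x v) ≤ exp (-(n v : ℤ))) ∧
      ∀ v, v ∉ T → v.valuation K y ≤ 1 := by
  classical
  obtain ⟨d, hd⟩ := IsLocalization.exist_integer_multiples (nonZeroDivisors R) T x
  have hd0 : (d : R) ≠ 0 := nonZeroDivisors.coe_ne_zero d
  have hdK : algebraMap R K (d : R) ≠ 0 := by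
    simp
  choose! a ha using hd
  have hfin : {v : HeightOneSpectrum R | v.asIdeal ∣ Ideal.span {(d : R)}}.Finite :=
    Ideal.finite_factors (by simp)
  have hk : ∀ v : HeightOneSpectrum R, ∃ k : ℕ, v.intValuation (d : R) = exp (-(k : ℤ)) :=
    fun v => ⟨_, v.intValuation_if_neg hd0⟩
  choose k hk using hk
  obtain ⟨z, hz⟩ := exists_int_forall_intValuation_sub_le (T ∪ hfin.toFinset)
    (fun v => if v ∈ T then a v else 0) (fun v => n v + k v)
  have hexp : ∀ v : HeightOneSpectrum R,
      exp (-((n v + k v : ℕ) : ℤ)) = exp (-(n v : ℤ)) * exp (-(k v : ℤ)) := by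
    intro v
    rw [← exp_add]
    congr 1
    push_cast
    ring
  refine ⟨algebraMap R K z / algebraMap R K (d : R), ?_, ?_⟩
  · intro v hv
    have h1 : algebraMap R K z / algebraMap R K (d : R) - x v
        = algebraMap R K (z - a v) / algebraMap R K (d : R) := by
      have h2 := ha v hv
      rw [Algebra.smul_def] at h2
      rw [map_sub, h2]
      field_simp
    rw [h1, map_div₀, HeightOneSpectrum.valuation_of_algebraMap,
      HeightOneSpectrum.valuation_of_algebraMap, hk v]
    have h3 := hz v (Finset.mem_union_left _ hv)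
    simp only [if_pos hv] at h3
    rw [div_le_iff₀ (exp_pos)]
    exact h3.trans (hexp v).le
  · intro v hv
    rw [map_div₀, HeightOneSpectrum.valuation_of_algebraMap,
      HeightOneSpectrum.valuation_of_algebraMap]
    by_cases hvd : v.asIdeal ∣ Ideal.span {(d : R)}
    · have h3 := hz v (Finset.mem_union_right _ (hfin.mem_toFinset.2 hvd))
      simp only [if_neg hv, sub_zero] at h3
      rw [hk v, div_le_iff₀ (exp_pos), one_mul]
      refine h3.trans ?_
      rw [exp_le_exp]
      push_cast
      omega
    · have h4 : v.intValuation (d : R) = 1 := by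
        rw [HeightOneSpectrum.intValuation_eq_one_iff]
        intro hmem
        exact hvd (by rwa [Ideal.dvd_span_singleton])
      rw [h4, div_one]
      exact v.intValuation_le_one z

/-- **Weak approximation, multiplicative form**: for nonzero targets `x v` (`v ∈ T`) there is
`y ≠ 0` with `y / x v` as close to `1` as we like at each `v ∈ T`; moreover `v y = v (x v)`. -/
theorem exists_forall_valuation_div_sub_one_le (T : Finset (HeightOneSpectrum R))
    (x : HeightOneSpectrum R → K) (hx : ∀ v ∈ T, x v ≠ 0) (n : HeightOneSpectrum R → ℕ) :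
    ∃ y : K, y ≠ 0 ∧ ∀ v ∈ T, v.valuation K (y / x v - 1) ≤ exp (-(n v : ℤ)) ∧
      v.valuation K y = v.valuation K (x v) := by
  classical
  rcases T.eq_empty_or_nonempty with rfl | hT
  · exact ⟨1, one_ne_zero, by simp⟩
  -- precision needed at `v`: `exp (-N v) ≤ exp (-(n v + 1)) * v (x v)`
  have hN : ∀ v : HeightOneSpectrum R, ∃ N : ℕ, v ∈ T →
      exp (-(N : ℤ)) ≤ exp (-((n v : ℤ) + 1)) * v.valuation K (x v) := by
    intro v
    by_cases hv : v ∈ T
    · have h0 : v.valuation K (x v) ≠ 0 := (Valuation.ne_zero_iff _).2 (hx v hv)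
      obtain ⟨j, hj⟩ : ∃ j : ℤ, v.valuation K (x v) = exp j := ⟨_, (exp_log h0).symm⟩
      refine ⟨((n v : ℤ) + 1 - j).toNat, fun _ => ?_⟩
      rw [hj, ← exp_add, exp_le_exp]
      have := Int.self_le_toNat ((n v : ℤ) + 1 - j)
      omega
    · exact ⟨0, fun h => absurd h hv⟩
  choose N hN using hN
  obtain ⟨y, hy, -⟩ := exists_forall_valuation_sub_le T x N
  have hlt : ∀ v ∈ T, v.valuation K (y - x v) < v.valuation K (x v) := by
    intro v hv
    have h0 : v.valuation K (x v) ≠ 0 := (Valuation.ne_zero_iff _).2 (hx v hv)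
    refine ((hy v hv).trans (hN v hv)).trans_lt ?_
    have h1 : exp (-((n v : ℤ) + 1)) < (1 : ℤᵐ⁰) := by
      rw [← exp_zero, exp_lt_exp]
      omega
    calc exp (-((n v : ℤ) + 1)) * v.valuation K (x v)
        < 1 * v.valuation K (x v) := by
          exact mul_lt_mul_of_pos_right h1 (zero_lt_iff.2 h0)
      _ = v.valuation K (x v) := one_mul _
  have hval : ∀ v ∈ T, v.valuation K y = v.valuation K (x v) :=
    fun v hv => Valuation.map_eq_of_sub_lt _ (hlt v hv)
  have hy0 : y ≠ 0 := by
    obtain ⟨v, hv⟩ := hT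
    rintro rfl
    have := hval v hv
    rw [Valuation.map_zero] at this
    exact (Valuation.ne_zero_iff _).2 (hx v hv) this.symm
  refine ⟨y, hy0, fun v hv => ⟨?_, hval v hv⟩⟩
  have hxv := hx v hv
  have h0 : v.valuation K (x v) ≠ 0 := (Valuation.ne_zero_iff _).2 hxv
  have h1 : y / x v - 1 = (y - x v) / x v := by
    field_simp
  rw [h1, map_div₀, div_le_iff₀ (zero_lt_iff.2 h0)]
  refine ((hy v hv).trans (hN v hv)).trans ?_
  refine mul_le_mul_of_nonneg_right ?_ zero_le
  rw [exp_le_exp]
  omega

/-- Weak approximation for subgroups of `Kˣ` which are open at `v`: the diagonal map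
`Kˣ → ∏_{v ∈ T} Kˣ / H v` is onto. -/
theorem exists_units_forall_div_mem (T : Finset (HeightOneSpectrum R))
    (H : HeightOneSpectrum R → Subgroup Kˣ)
    (hH : ∀ v ∈ T, ∃ k : ℕ, ∀ a : Kˣ, v.valuation K ((a : K) - 1) ≤ exp (-(k : ℤ)) → a ∈ H v)
    (b : HeightOneSpectrum R → Kˣ) : ∃ y : Kˣ, ∀ v ∈ T, y / b v ∈ H v := by
  classical
  have hk : ∀ v : HeightOneSpectrum R, ∃ k : ℕ, v ∈ T →
      ∀ a : Kˣ, v.valuation K ((a : K) - 1) ≤ exp (-(k : ℤ)) → a ∈ H v := by
    intro v
    by_cases hv : v ∈ T
    · obtain ⟨k, hk⟩ := hH v hv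
      exact ⟨k, fun _ => hk⟩
    · exact ⟨0, fun h => absurd h hv⟩
  choose k hk using hk
  obtain ⟨y, hy0, hy⟩ := exists_forall_valuation_div_sub_one_le T (fun v => ((b v : Kˣ) : K))
    (fun v _ => (b v).ne_zero) k
  refine ⟨Units.mk0 y hy0, fun v hv => hk v hv _ ?_⟩
  have := (hy v hv).1
  simpa [Units.val_div_eq_div_val] using this

/-- Independence of finitely many local conditions:
`[Kˣ : ⨅_{v ∈ T} H v] = ∏_{v ∈ T} [Kˣ : H v]` when each `H v` is open at `v`. -/
theorem index_iInf_eq_prod (T : Finset (HeightOneSpectrum R))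
    (H : HeightOneSpectrum R → Subgroup Kˣ)
    (hH : ∀ v ∈ T, ∃ k : ℕ, ∀ a : Kˣ, v.valuation K ((a : K) - 1) ≤ exp (-(k : ℤ)) → a ∈ H v) :
    (⨅ v ∈ T, H v).index = ∏ v ∈ T, (H v).index := by
  classical
  induction T using Finset.induction_on with
  | empty => simp
  | insert w T hw ih =>
    rw [Finset.iInf_insert, Finset.prod_insert hw,
      ← ih (fun v hv => hH v (Finset.mem_insert_of_mem hv))]
    set B := ⨅ v ∈ T, H v with hB
    have hsup : B ⊔ H w = ⊤ := by
      rw [eq_top_iff]
      intro g _
      obtain ⟨y, hy⟩ := exists_units_forall_div_mem (insert w T) H hH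
        (fun v => if v = w then g else 1)
      have h1 : y / g ∈ H w := by
        have := hy w (Finset.mem_insert_self w T)
        simpa using this
      have h2 : y ∈ B := by
        rw [hB]
        simp only [Subgroup.mem_iInf]
        intro v hv
        have hvw : v ≠ w := fun h => hw (h ▸ hv)
        have := hy v (Finset.mem_insert_of_mem hv)
        simpa [hvw] using this
      have h3 : g = y * (y / g)⁻¹ := by
        rw [inv_div, mul_div_cancel]
      rw [h3]
      exact Subgroup.mul_mem_sup h2 (inv_mem h1)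
    have h4 : (H w ⊓ B).index = (H w ⊓ B).relIndex B * B.index :=
      (Subgroup.relIndex_mul_index inf_le_right).symm
    rw [h4, Subgroup.inf_relIndex_right, ← Subgroup.relIndex_sup_right (H := B) (K := H w),
      hsup, Subgroup.relIndex_top_right]

end Fermat.Agent.Lib.WeakApprox
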