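import Mathlib

/-!
# Herbrand quotients (elementary index calculus)

For an additive commutative group `B` with two endomorphisms `f g : B →+ B` such that
`f ∘ g = 0 = g ∘ f` we put `hq f g := [ker f : range g]` (a natural number, `0` meaning
"infinite") and `herbrand f g := hq f g / hq g f : ℚ`.

Main results:
* `hq_factor`: for an `f, g`-stable subgroup `A ≤ B` the six indices attached to `A`, `B`, `B ⧸ A`
  are the pairwise products of six natural numbers arranged on a hexagon;
* `herbrand_eq_mul`, `Defined.quot`, `Defined.res`, `Defined.of_res_quot`: multiplicativity and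
  the two-out-of-three property;
* `hq_exact`, `herbrand_exact`: the same for a short exact sequence;
* `hq_eq_of_finite`, `herbrand_eq_one_of_finite`: finite groups have Herbrand quotient `1`.
-/

set_option autoImplicit false

namespace Fermat.Agent.Lib.Herbrand

section Abstract

variable {B : Type*} [AddCommGroup B]

/-- `hq f g = [ker f : range g]`, as a natural number (`0` if the index is infinite). -/
noncomputable def hq (f g : B →+ B) : ℕ := g.range.relIndex f.ker

/-- The Herbrand quotient `[ker f : range g] / [ker g : range f]`. -/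
noncomputable def herbrand (f g : B →+ B) : ℚ := (hq f g : ℚ) / (hq g f : ℚ)

/-- Both indices are finite. -/
def Defined (f g : B →+ B) : Prop := hq f g ≠ 0 ∧ hq g f ≠ 0

lemma Defined.symm {f g : B →+ B} (h : Defined f g) : Defined g f := ⟨h.2, h.1⟩

lemma herbrand_symm (f g : B →+ B) : herbrand g f = (herbrand f g)⁻¹ := by
  simp [herbrand, inv_div]

lemma range_le_ker {f g : B →+ B} (hfg : f.comp g = 0) : g.range ≤ f.ker := by
  rintro _ ⟨x, rfl⟩
  exact DFunLike.congr_fun hfg x

/-- Restriction of an endomorphism to a stable subgroup. -/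
def resHom (f : B →+ B) (A : AddSubgroup B) (hA : ∀ a ∈ A, f a ∈ A) : A →+ A :=
  (f.comp A.subtype).codRestrict A (fun a => hA a a.2)

@[simp] lemma coe_resHom (f : B →+ B) (A : AddSubgroup B) (hA : ∀ a ∈ A, f a ∈ A) (a : A) :
    (resHom f A hA a : B) = f a := rfl

/-- The endomorphism induced on the quotient by a stable subgroup. -/
def quotHom (f : B →+ B) (A : AddSubgroup B) (hA : ∀ a ∈ A, f a ∈ A) : B ⧸ A →+ B ⧸ A :=
  QuotientAddGroup.map A A f (fun a ha => hA a ha)

@[simp] lemma quotHom_mk (f : B →+ B) (A : AddSubgroup B) (hA : ∀ a ∈ A, f a ∈ A) (b : B) :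
    quotHom f A hA (QuotientAddGroup.mk b) = QuotientAddGroup.mk (f b) := rfl

lemma map_subtype_range_resHom (g : B →+ B) (A : AddSubgroup B) (hA : ∀ a ∈ A, g a ∈ A) :
    (resHom g A hA).range.map A.subtype = A.map g := by
  ext x
  constructor
  · rintro ⟨_, ⟨a, rfl⟩, rfl⟩
    exact ⟨a, a.2, rfl⟩
  · rintro ⟨a, ha, rfl⟩
    exact ⟨resHom g A hA ⟨a, ha⟩, ⟨⟨a, ha⟩, rfl⟩, rfl⟩

lemma map_subtype_ker_resHom (f : B →+ B) (A : AddSubgroup B) (hA : ∀ a ∈ A, f a ∈ A) :
    (resHom f A hA).ker.map A.subtype = f.ker ⊓ A := by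
  ext x
  constructor
  · rintro ⟨a, ha, rfl⟩
    refine ⟨?_, a.2⟩
    have : resHom f A hA a = 0 := ha
    have h2 : ((resHom f A hA a : A) : B) = 0 := by rw [this]; rfl
    simpa using h2
  · rintro ⟨hx, hxA⟩
    refine ⟨⟨x, hxA⟩, ?_, rfl⟩
    have : f x = 0 := hx
    apply Subtype.ext
    simpa using this

/-- The index attached to the subgroup `A`, computed inside `B`. -/
lemma hq_res (f g : B →+ B) (A : AddSubgroup B) (hfA : ∀ a ∈ A, f a ∈ A)
    (hgA : ∀ a ∈ A, g a ∈ A) :
    hq (resHom f A hfA) (resHom g A hgA) = (A.map g).relIndex (f.ker ⊓ A) := by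
  unfold hq
  rw [← map_subtype_range_resHom g A hgA, ← map_subtype_ker_resHom f A hfA,
    AddSubgroup.relIndex_map_map_of_injective _ _ A.subtype_injective]

lemma comap_mk_range_quotHom (g : B →+ B) (A : AddSubgroup B) (hA : ∀ a ∈ A, g a ∈ A) :
    (quotHom g A hA).range.comap (QuotientAddGroup.mk' A) = g.range ⊔ A := by
  ext x
  simp only [AddSubgroup.mem_comap, QuotientAddGroup.mk'_apply]
  constructor
  · rintro ⟨y, hy⟩
    induction y using QuotientAddGroup.induction_on with
    | H y =>
      rw [quotHom_mk, QuotientAddGroup.eq] at hy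
      have hx : x = g y + (-(g y) + x) := by abel
      rw [hx]
      exact AddSubgroup.add_mem_sup ⟨y, rfl⟩ hy
  · intro hx
    obtain ⟨_, ⟨y, rfl⟩, a, ha, rfl⟩ := AddSubgroup.mem_sup.1 hx
    refine ⟨QuotientAddGroup.mk y, ?_⟩
    rw [quotHom_mk, QuotientAddGroup.eq]
    simpa using ha

lemma comap_mk_ker_quotHom (f : B →+ B) (A : AddSubgroup B) (hA : ∀ a ∈ A, f a ∈ A) :
    (quotHom f A hA).ker.comap (QuotientAddGroup.mk' A) = A.comap f := by
  ext x
  simp only [AddSubgroup.mem_comap, QuotientAddGroup.mk'_apply, AddMonoidHom.mem_ker, quotHom_mk,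
    QuotientAddGroup.eq_zero_iff]

/-- The index attached to the quotient `B ⧸ A`, computed inside `B`. -/
lemma hq_quot (f g : B →+ B) (A : AddSubgroup B) (hfA : ∀ a ∈ A, f a ∈ A)
    (hgA : ∀ a ∈ A, g a ∈ A) :
    hq (quotHom f A hfA) (quotHom g A hgA) = (g.range ⊔ A).relIndex (A.comap f) := by
  unfold hq
  rw [← comap_mk_range_quotHom g A hgA, ← comap_mk_ker_quotHom f A hfA,
    AddSubgroup.relIndex_comap,
    AddSubgroup.map_comap_eq_self_of_surjective (QuotientAddGroup.mk'_surjective A)]

/-- The three "half" identities: the indices attached to `A`, `B`, `B ⧸ A` for the pair `(f, g)`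
are `b * a`, `a * c`, `c * b'`, where `b'` is the `b` of the swapped pair `(g, f)`. -/
lemma hq_half (f g : B →+ B) (hfg : f.comp g = 0) (A : AddSubgroup B)
    (hfA : ∀ a ∈ A, f a ∈ A) (hgA : ∀ a ∈ A, g a ∈ A) :
    hq (resHom f A hfA) (resHom g A hgA)
        = (A.map g).relIndex (g.range ⊓ A) * (g.range ⊓ A).relIndex (f.ker ⊓ A) ∧
      hq f g = (g.range ⊓ A).relIndex (f.ker ⊓ A) * (g.range ⊔ f.ker ⊓ A).relIndex f.ker ∧
      hq (quotHom f A hfA) (quotHom g A hgA)
        = (g.range ⊔ f.ker ⊓ A).relIndex f.ker * (A.map f).relIndex (f.range ⊓ A) := by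
  have hIK : g.range ≤ f.ker := range_le_ker hfg
  refine ⟨?_, ?_, ?_⟩
  · rw [hq_res]
    refine (AddSubgroup.relIndex_mul_relIndex _ _ _ ?_ ?_).symm
    · rintro _ ⟨a, ha, rfl⟩
      exact ⟨⟨a, rfl⟩, hgA a ha⟩
    · exact inf_le_inf_right _ hIK
  · unfold hq
    rw [← AddSubgroup.relIndex_mul_relIndex g.range (g.range ⊔ f.ker ⊓ A) f.ker le_sup_left
      (sup_le hIK inf_le_left)]
    congr 1
    rw [AddSubgroup.relIndex_sup_left, ← AddSubgroup.inf_relIndex_right g.range (f.ker ⊓ A)]
    congr 1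
    rw [← inf_assoc, inf_eq_left.2 hIK]
  · rw [hq_quot]
    have h1 : g.range ⊔ A ≤ f.ker ⊔ A := sup_le_sup_right hIK _
    have h2 : f.ker ⊔ A ≤ A.comap f := by
      refine sup_le ?_ ?_
      · intro x hx
        have : f x = 0 := hx
        simp [AddSubgroup.mem_comap, this]
      · intro x hx
        exact hfA x hx
    rw [← AddSubgroup.relIndex_mul_relIndex _ _ _ h1 h2]
    congr 1
    · have e1 : f.ker ⊔ A = (g.range ⊔ A) ⊔ f.ker := by
        rw [sup_comm (g.range ⊔ A), ← sup_assoc, sup_eq_left.2 hIK]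
      rw [e1, AddSubgroup.relIndex_sup_left, ← AddSubgroup.inf_relIndex_right]
      congr 1
      -- modular law
      apply le_antisymm
      · rintro x ⟨hx, hxK⟩
        obtain ⟨y, hy, a, ha, rfl⟩ := AddSubgroup.mem_sup.1 hx
        refine AddSubgroup.add_mem_sup hy ⟨?_, ha⟩
        have : a = (y + a) - y := by abel
        rw [this]
        exact f.ker.sub_mem hxK (hIK hy)
      · exact le_inf (sup_le_sup_left inf_le_right _) (sup_le hIK inf_le_left)
    · have e2 : f.ker ⊔ A = (A.map f).comap f := by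
        rw [AddSubgroup.comap_map_eq, sup_comm]
      rw [e2, AddSubgroup.relIndex_comap, AddSubgroup.map_comap_eq]

/-- **Hexagon factorisation.** For an `f, g`-stable subgroup `A` of `B` (with `f ∘ g = 0 = g ∘ f`)
the six indices attached to `A`, `B`, `B ⧸ A` and the pairs `(f, g)`, `(g, f)` are the products of
neighbouring members of a cyclically ordered family of six natural numbers. -/
theorem hq_factor (f g : B →+ B) (hfg : f.comp g = 0) (hgf : g.comp f = 0) (A : AddSubgroup B)
    (hfA : ∀ a ∈ A, f a ∈ A) (hgA : ∀ a ∈ A, g a ∈ A) :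
    ∃ a b c a' b' c' : ℕ,
      hq (resHom f A hfA) (resHom g A hgA) = b * a ∧ hq f g = a * c ∧
      hq (quotHom f A hfA) (quotHom g A hgA) = c * b' ∧
      hq (resHom g A hgA) (resHom f A hfA) = b' * a' ∧ hq g f = a' * c' ∧
      hq (quotHom g A hgA) (quotHom f A hfA) = c' * b := by
  obtain ⟨h1, h2, h3⟩ := hq_half f g hfg A hfA hgA
  obtain ⟨h4, h5, h6⟩ := hq_half g f hgf A hgA hfA
  exact ⟨_, _, _, _, _, _, h1, h2, h3, h4, h5, h6⟩

section TwoOfThree

variable {f g : B →+ B} {A : AddSubgroup B} {hfA : ∀ a ∈ A, f a ∈ A} {hgA : ∀ a ∈ A, g a ∈ A}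

theorem Defined.quot (hfg : f.comp g = 0) (hgf : g.comp f = 0)
    (hA : Defined (resHom f A hfA) (resHom g A hgA)) (hB : Defined f g) :
    Defined (quotHom f A hfA) (quotHom g A hgA) := by
  obtain ⟨a, b, c, a', b', c', h1, h2, h3, h4, h5, h6⟩ := hq_factor f g hfg hgf A hfA hgA
  unfold Defined at *
  rw [h1, h4] at hA
  rw [h2, h5] at hB
  rw [h3, h6]
  simp only [ne_eq, mul_eq_zero, not_or] at *
  tauto

theorem Defined.res (hfg : f.comp g = 0) (hgf : g.comp f = 0)
    (hB : Defined f g) (hC : Defined (quotHom f A hfA) (quotHom g A hgA)) :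
    Defined (resHom f A hfA) (resHom g A hgA) := by
  obtain ⟨a, b, c, a', b', c', h1, h2, h3, h4, h5, h6⟩ := hq_factor f g hfg hgf A hfA hgA
  unfold Defined at *
  rw [h3, h6] at hC
  rw [h2, h5] at hB
  rw [h1, h4]
  simp only [ne_eq, mul_eq_zero, not_or] at *
  tauto

theorem Defined.of_res_quot (hfg : f.comp g = 0) (hgf : g.comp f = 0)
    (hA : Defined (resHom f A hfA) (resHom g A hgA))
    (hC : Defined (quotHom f A hfA) (quotHom g A hgA)) : Defined f g := by
  obtain ⟨a, b, c, a', b', c', h1, h2, h3, h4, h5, h6⟩ := hq_factor f g hfg hgf A hfA hgA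
  unfold Defined at *
  rw [h3, h6] at hC
  rw [h1, h4] at hA
  rw [h2, h5]
  simp only [ne_eq, mul_eq_zero, not_or] at *
  tauto

/-- **Multiplicativity of the Herbrand quotient** (valid as soon as the Herbrand quotient of the
subgroup is defined; by the two-out-of-three lemmas this covers all cases). -/
theorem herbrand_eq_mul (hfg : f.comp g = 0) (hgf : g.comp f = 0)
    (hA : Defined (resHom f A hfA) (resHom g A hgA)) :
    herbrand f g = herbrand (resHom f A hfA) (resHom g A hgA) *
      herbrand (quotHom f A hfA) (quotHom g A hgA) := by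
  obtain ⟨a, b, c, a', b', c', h1, h2, h3, h4, h5, h6⟩ := hq_factor f g hfg hgf A hfA hgA
  unfold Defined at hA
  rw [h1, h4] at hA
  simp only [ne_eq, mul_eq_zero, not_or] at hA
  obtain ⟨⟨hb, ha⟩, hb', ha'⟩ := hA
  unfold herbrand
  rw [h1, h2, h3, h4, h5, h6]
  push_cast
  have hb0 : (b : ℚ) ≠ 0 := by exact_mod_cast hb
  have hb0' : (b' : ℚ) ≠ 0 := by exact_mod_cast hb'
  have ha0' : (a' : ℚ) ≠ 0 := by exact_mod_cast ha'
  by_cases hc' : (c' : ℚ) = 0
  · simp [hc']
  · field_simp

end TwoOfThree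

/-! ### Short exact sequences -/

section Exact

variable {A C : Type*} [AddCommGroup A] [AddCommGroup C]

lemma hq_of_injective (i : A →+ B) (hi : Function.Injective i) {fA gA : A →+ A} {fB gB : B →+ B}
    (hf : ∀ a, i (fA a) = fB (i a)) (hg : ∀ a, i (gA a) = gB (i a)) :
    hq fA gA = (i.range.map gB).relIndex (fB.ker ⊓ i.range) := by
  unfold hq
  rw [← AddSubgroup.relIndex_map_map_of_injective _ _ hi]
  congr 1
  · ext x
    constructor
    · rintro ⟨_, ⟨a, rfl⟩, rfl⟩
      exact ⟨i a, ⟨a, rfl⟩, (hg a).symm⟩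
    · rintro ⟨_, ⟨a, rfl⟩, rfl⟩
      exact ⟨gA a, ⟨a, rfl⟩, hg a⟩
  · ext x
    constructor
    · rintro ⟨a, ha, rfl⟩
      refine ⟨?_, ⟨a, rfl⟩⟩
      have : fA a = 0 := ha
      show fB (i a) = 0
      rw [← hf, this, map_zero]
    · rintro ⟨hx, ⟨a, rfl⟩⟩
      refine ⟨a, ?_, rfl⟩
      have : fB (i a) = 0 := hx
      show fA a = 0
      apply hi
      rw [hf, this, map_zero]

lemma hq_of_surjective (π : B →+ C) (hπ : Function.Surjective π) {fB gB : B →+ B}
    {fC gC : C →+ C} (hf : ∀ b, π (fB b) = fC (π b)) (hg : ∀ b, π (gB b) = gC (π b)) :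
    hq fC gC = (gB.range ⊔ π.ker).relIndex (π.ker.comap fB) := by
  unfold hq
  have e1 : gB.range ⊔ π.ker = gC.range.comap π := by
    ext x
    constructor
    · intro hx
      obtain ⟨_, ⟨y, rfl⟩, k, hk, rfl⟩ := AddSubgroup.mem_sup.1 hx
      have hk' : π k = 0 := hk
      refine ⟨π y, ?_⟩
      rw [map_add, hk', add_zero, hg]
    · rintro ⟨c, hc⟩
      obtain ⟨y, rfl⟩ := hπ c
      have hx : x = gB y + (x - gB y) := by abel
      rw [hx]
      refine AddSubgroup.add_mem_sup ⟨y, rfl⟩ ?_
      show π (x - gB y) = 0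
      rw [map_sub, hg, hc, sub_self]
  have e2 : π.ker.comap fB = fC.ker.comap π := by
    ext x
    simp only [AddSubgroup.mem_comap, AddMonoidHom.mem_ker, hf]
  rw [e1, e2, AddSubgroup.relIndex_comap, AddSubgroup.map_comap_eq_self_of_surjective hπ]

variable (i : A →+ B) (π : B →+ C) (hi : Function.Injective i) (hπ : Function.Surjective π)
  (hex : i.range = π.ker) {fA gA : A →+ A} {fB gB : B →+ B} {fC gC : C →+ C}
  (hfg : fB.comp gB = 0) (hgf : gB.comp fB = 0)
  (hfi : ∀ a, i (fA a) = fB (i a)) (hgi : ∀ a, i (gA a) = gB (i a))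
  (hfπ : ∀ b, π (fB b) = fC (π b)) (hgπ : ∀ b, π (gB b) = gC (π b))

include hi hπ hex hfg hgf hfi hgi hfπ hgπ

/-- **Hexagon factorisation for a short exact sequence** `0 → A → B → C → 0` of groups with
compatible pairs of endomorphisms. -/
theorem hq_exact :
    ∃ a b c a' b' c' : ℕ,
      hq fA gA = b * a ∧ hq fB gB = a * c ∧ hq fC gC = c * b' ∧
      hq gA fA = b' * a' ∧ hq gB fB = a' * c' ∧ hq gC fC = c' * b := by
  have hfA : ∀ x ∈ i.range, fB x ∈ i.range := by
    rintro _ ⟨a, rfl⟩; exact ⟨fA a, hfi a⟩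
  have hgA : ∀ x ∈ i.range, gB x ∈ i.range := by
    rintro _ ⟨a, rfl⟩; exact ⟨gA a, hgi a⟩
  obtain ⟨a, b, c, a', b', c', h1, h2, h3, h4, h5, h6⟩ :=
    hq_factor fB gB hfg hgf i.range hfA hgA
  refine ⟨a, b, c, a', b', c', ?_, h2, ?_, ?_, h5, ?_⟩
  · rw [← h1, hq_res, hq_of_injective i hi hfi hgi]
  · rw [← h3, hq_quot, hq_of_surjective π hπ hfπ hgπ, hex]
  · rw [← h4, hq_res, hq_of_injective i hi hgi hfi]
  · rw [← h6, hq_quot, hq_of_surjective π hπ hgπ hfπ, hex]

theorem Defined.exact_right (hA : Defined fA gA) (hB : Defined fB gB) : Defined fC gC := by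
  obtain ⟨a, b, c, a', b', c', h1, h2, h3, h4, h5, h6⟩ :=
    hq_exact i π hi hπ hex hfg hgf hfi hgi hfπ hgπ
  unfold Defined at *
  rw [h1, h4] at hA
  rw [h2, h5] at hB
  rw [h3, h6]
  simp only [ne_eq, mul_eq_zero, not_or] at *
  tauto

theorem Defined.exact_left (hB : Defined fB gB) (hC : Defined fC gC) : Defined fA gA := by
  obtain ⟨a, b, c, a', b', c', h1, h2, h3, h4, h5, h6⟩ :=
    hq_exact i π hi hπ hex hfg hgf hfi hgi hfπ hgπ
  unfold Defined at *
  rw [h3, h6] at hC
  rw [h2, h5] at hB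
  rw [h1, h4]
  simp only [ne_eq, mul_eq_zero, not_or] at *
  tauto

theorem Defined.exact_mid (hA : Defined fA gA) (hC : Defined fC gC) : Defined fB gB := by
  obtain ⟨a, b, c, a', b', c', h1, h2, h3, h4, h5, h6⟩ :=
    hq_exact i π hi hπ hex hfg hgf hfi hgi hfπ hgπ
  unfold Defined at *
  rw [h3, h6] at hC
  rw [h1, h4] at hA
  rw [h2, h5]
  simp only [ne_eq, mul_eq_zero, not_or] at *
  tauto

/-- **Multiplicativity of the Herbrand quotient in short exact sequences.** -/
theorem herbrand_exact (hA : Defined fA gA) :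
    herbrand fB gB = herbrand fA gA * herbrand fC gC := by
  obtain ⟨a, b, c, a', b', c', h1, h2, h3, h4, h5, h6⟩ :=
    hq_exact i π hi hπ hex hfg hgf hfi hgi hfπ hgπ
  unfold Defined at hA
  rw [h1, h4] at hA
  simp only [ne_eq, mul_eq_zero, not_or] at hA
  obtain ⟨⟨hb, ha⟩, hb', ha'⟩ := hA
  unfold herbrand
  rw [h1, h2, h3, h4, h5, h6]
  push_cast
  have hb0 : (b : ℚ) ≠ 0 := by exact_mod_cast hb
  have hb0' : (b' : ℚ) ≠ 0 := by exact_mod_cast hb'
  have ha0' : (a' : ℚ) ≠ 0 := by exact_mod_cast ha'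
  by_cases hc' : (c' : ℚ) = 0
  · simp [hc']
  · field_simp

end Exact

/-! ### Finite groups -/

section Finite

lemma defined_of_finite [Finite B] (f g : B →+ B) : Defined f g := by
  constructor <;> exact AddSubgroup.index_ne_zero_of_finite

/-- In a finite group the two indices agree. -/
theorem hq_eq_of_finite [Finite B] {f g : B →+ B} (hfg : f.comp g = 0) (hgf : g.comp f = 0) :
    hq f g = hq g f := by
  have key : ∀ {f g : B →+ B}, f.comp g = 0 →
      Nat.card g.range * hq f g * Nat.card f.range = Nat.card B := by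
    intro f g hfg
    have h1 : Nat.card g.range * hq f g = Nat.card f.ker := by
      have := AddSubgroup.relIndex_mul_relIndex ⊥ g.range f.ker bot_le (range_le_ker hfg)
      rwa [AddSubgroup.relIndex_bot_left, AddSubgroup.relIndex_bot_left] at this
    rw [h1, ← AddSubgroup.index_ker, AddSubgroup.card_mul_index]
  have h1 := key hfg
  have h2 := key hgf
  have hf0 : 0 < Nat.card f.range := Nat.card_pos
  have hg0 : 0 < Nat.card g.range := Nat.card_pos
  have : Nat.card g.range * Nat.card f.range * hq f g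
      = Nat.card g.range * Nat.card f.range * hq g f := by
    calc Nat.card g.range * Nat.card f.range * hq f g
        = Nat.card g.range * hq f g * Nat.card f.range := by ring
      _ = Nat.card B := h1
      _ = Nat.card f.range * hq g f * Nat.card g.range := h2.symm
      _ = Nat.card g.range * Nat.card f.range * hq g f := by ring
  exact Nat.eq_of_mul_eq_mul_left (Nat.mul_pos hg0 hf0) this

/-- The Herbrand quotient of a finite group is `1`. -/
theorem herbrand_eq_one_of_finite [Finite B] {f g : B →+ B} (hfg : f.comp g = 0)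
    (hgf : g.comp f = 0) : herbrand f g = 1 := by
  unfold herbrand
  rw [hq_eq_of_finite hfg hgf]
  exact div_self (by exact_mod_cast (defined_of_finite f g).2)

end Finite

/-! ### Junk value, and invariance under maps with finite kernel and cokernel -/

section Invariance

lemma herbrand_eq_zero_iff (f g : B →+ B) : herbrand f g = 0 ↔ ¬ Defined f g := by
  unfold herbrand Defined
  rw [div_eq_zero_iff]
  simp only [Nat.cast_eq_zero]
  tauto

lemma Defined.herbrand_pos {f g : B →+ B} (h : Defined f g) : 0 < herbrand f g := by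
  unfold herbrand
  exact div_pos (by exact_mod_cast Nat.pos_of_ne_zero h.1) (by exact_mod_cast Nat.pos_of_ne_zero h.2)

lemma Defined.herbrand_ne_zero {f g : B →+ B} (h : Defined f g) : herbrand f g ≠ 0 :=
  h.herbrand_pos.ne'

/-- A stable subgroup of finite index has the same Herbrand quotient. -/
theorem herbrand_res_of_finiteIndex {f g : B →+ B} (hfg : f.comp g = 0) (hgf : g.comp f = 0)
    (A : AddSubgroup B) [A.FiniteIndex] (hfA : ∀ a ∈ A, f a ∈ A) (hgA : ∀ a ∈ A, g a ∈ A) :
    (Defined (resHom f A hfA) (resHom g A hgA) ↔ Defined f g) ∧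
      herbrand (resHom f A hfA) (resHom g A hgA) = herbrand f g := by
  have hfin : Finite (B ⧸ A) := A.finite_quotient_of_finiteIndex
  have hC : Defined (quotHom f A hfA) (quotHom g A hgA) := defined_of_finite _ _
  have hfgC : (quotHom f A hfA).comp (quotHom g A hgA) = 0 := by
    ext x
    simp only [AddMonoidHom.coe_comp, QuotientAddGroup.coe_mk', Function.comp_apply, quotHom_mk,
      AddMonoidHom.zero_apply]
    have : f (g x) = 0 := DFunLike.congr_fun hfg x
    rw [this]; rfl
  have hgfC : (quotHom g A hgA).comp (quotHom f A hfA) = 0 := by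
    ext x
    simp only [AddMonoidHom.coe_comp, QuotientAddGroup.coe_mk', Function.comp_apply, quotHom_mk,
      AddMonoidHom.zero_apply]
    have : g (f x) = 0 := DFunLike.congr_fun hgf x
    rw [this]; rfl
  have hiff : Defined (resHom f A hfA) (resHom g A hgA) ↔ Defined f g :=
    ⟨fun h => Defined.of_res_quot hfg hgf h hC, fun h => Defined.res hfg hgf h hC⟩
  refine ⟨hiff, ?_⟩
  by_cases hA : Defined (resHom f A hfA) (resHom g A hgA)
  · rw [herbrand_eq_mul hfg hgf hA, herbrand_eq_one_of_finite hfgC hgfC, mul_one]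
  · rw [(herbrand_eq_zero_iff _ _).2 hA, (herbrand_eq_zero_iff _ _).2 (fun h => hA (hiff.2 h))]

/-- Dividing by a finite stable subgroup does not change the Herbrand quotient. -/
theorem herbrand_quot_of_finite {f g : B →+ B} (hfg : f.comp g = 0) (hgf : g.comp f = 0)
    (A : AddSubgroup B) [Finite A] (hfA : ∀ a ∈ A, f a ∈ A) (hgA : ∀ a ∈ A, g a ∈ A) :
    (Defined (quotHom f A hfA) (quotHom g A hgA) ↔ Defined f g) ∧
      herbrand (quotHom f A hfA) (quotHom g A hgA) = herbrand f g := by
  have hA : Defined (resHom f A hfA) (resHom g A hgA) := defined_of_finite _ _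
  have hfgA : (resHom f A hfA).comp (resHom g A hgA) = 0 := by
    ext x
    have : f (g (x : B)) = 0 := DFunLike.congr_fun hfg (x : B)
    simpa using this
  have hgfA : (resHom g A hgA).comp (resHom f A hfA) = 0 := by
    ext x
    have : g (f (x : B)) = 0 := DFunLike.congr_fun hgf (x : B)
    simpa using this
  have hiff : Defined (quotHom f A hfA) (quotHom g A hgA) ↔ Defined f g :=
    ⟨fun h => Defined.of_res_quot hfg hgf hA h, fun h => Defined.quot hfg hgf hA h⟩
  refine ⟨hiff, ?_⟩
  rw [herbrand_eq_mul hfg hgf hA, herbrand_eq_one_of_finite hfgA hgfA, one_mul]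

/-- **Invariance of the Herbrand quotient** under a compatible homomorphism with finite kernel
and finite cokernel. -/
theorem herbrand_eq_of_finite_ker_coker {B' : Type*} [AddCommGroup B'] (φ : B →+ B')
    {f g : B →+ B} {f' g' : B' →+ B'}
    (hfg : f.comp g = 0) (hgf : g.comp f = 0) (hfg' : f'.comp g' = 0) (hgf' : g'.comp f' = 0)
    (hf : ∀ x, φ (f x) = f' (φ x)) (hg : ∀ x, φ (g x) = g' (φ x))
    [Finite φ.ker] [φ.range.FiniteIndex] :
    (Defined f g ↔ Defined f' g') ∧ herbrand f g = herbrand f' g' := by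
  have hfR : ∀ y ∈ φ.range, f' y ∈ φ.range := by
    rintro _ ⟨x, rfl⟩; exact ⟨f x, hf x⟩
  have hgR : ∀ y ∈ φ.range, g' y ∈ φ.range := by
    rintro _ ⟨x, rfl⟩; exact ⟨g x, hg x⟩
  have hfK : ∀ x ∈ φ.ker, f x ∈ φ.ker := by
    intro x hx
    have : φ x = 0 := hx
    show φ (f x) = 0
    rw [hf, this, map_zero]
  have hgK : ∀ x ∈ φ.ker, g x ∈ φ.ker := by
    intro x hx
    have : φ x = 0 := hx
    show φ (g x) = 0
    rw [hg, this, map_zero]
  obtain ⟨h1, h2⟩ := herbrand_res_of_finiteIndex hfg' hgf' φ.range hfR hgR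
  -- the sequence `0 → ker φ → B → range φ → 0`
  have hK : Defined (resHom f φ.ker hfK) (resHom g φ.ker hgK) := defined_of_finite _ _
  have hfgK : (resHom f φ.ker hfK).comp (resHom g φ.ker hgK) = 0 := by
    ext x
    have : f (g (x : B)) = 0 := DFunLike.congr_fun hfg (x : B)
    simpa using this
  have hgfK : (resHom g φ.ker hgK).comp (resHom f φ.ker hfK) = 0 := by
    ext x
    have : g (f (x : B)) = 0 := DFunLike.congr_fun hgf (x : B)
    simpa using this
  have hex : φ.ker.subtype.range = φ.rangeRestrict.ker := by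
    rw [AddSubgroup.range_subtype, AddMonoidHom.ker_rangeRestrict]
  have hfπ : ∀ b, φ.rangeRestrict (f b) = resHom f' φ.range hfR (φ.rangeRestrict b) := by
    intro b; apply Subtype.ext; exact hf b
  have hgπ : ∀ b, φ.rangeRestrict (g b) = resHom g' φ.range hgR (φ.rangeRestrict b) := by
    intro b; apply Subtype.ext; exact hg b
  have hiff : Defined f g ↔ Defined (resHom f' φ.range hfR) (resHom g' φ.range hgR) :=
    ⟨fun h => Defined.exact_right φ.ker.subtype φ.rangeRestrict φ.ker.subtype_injective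
        φ.rangeRestrict_surjective hex hfg hgf (fun _ => rfl) (fun _ => rfl) hfπ hgπ hK h,
      fun h => Defined.exact_mid φ.ker.subtype φ.rangeRestrict φ.ker.subtype_injective
        φ.rangeRestrict_surjective hex hfg hgf (fun _ => rfl) (fun _ => rfl) hfπ hgπ hK h⟩
  have heq : herbrand f g = herbrand (resHom f' φ.range hfR) (resHom g' φ.range hgR) := by
    rw [herbrand_exact φ.ker.subtype φ.rangeRestrict φ.ker.subtype_injective
        φ.rangeRestrict_surjective hex hfg hgf (fun _ => rfl) (fun _ => rfl) hfπ hgπ hK,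
      herbrand_eq_one_of_finite hfgK hgfK, one_mul]
  exact ⟨hiff.trans h1, heq.trans h2⟩

end Invariance

end Abstract

/-! ### Finite cyclic groups -/

section Cyclic

variable {G : Type*} [Group G] [Fintype G] (A : Type*) [AddCommGroup A] [DistribMulAction G A]

/-- The endomorphism `a ↦ σ • a - a`. -/
def subOneHom (σ : G) : A →+ A := DistribSMul.toAddMonoidHom A σ - AddMonoidHom.id A

variable (G) in
/-- The norm endomorphism `a ↦ ∑ τ, τ • a`. -/
def normHom : A →+ A := ∑ τ : G, DistribSMul.toAddMonoidHom A τ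

variable {A}

omit [Fintype G] in
@[simp] lemma subOneHom_apply (σ : G) (a : A) : subOneHom A σ a = σ • a - a := rfl

@[simp] lemma normHom_apply (a : A) : normHom G A a = ∑ τ : G, τ • a := by
  simp [normHom]

lemma smul_normHom (σ : G) (a : A) : σ • normHom G A a = normHom G A a := by
  simp only [normHom_apply, Finset.smul_sum, smul_smul]
  exact Fintype.sum_equiv (Equiv.mulLeft σ) _ _ (fun _ => rfl)

lemma normHom_smul (σ : G) (a : A) : normHom G A (σ • a) = normHom G A a := by
  simp only [normHom_apply, smul_smul]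
  exact Fintype.sum_equiv (Equiv.mulRight σ) _ _ (fun _ => rfl)

lemma subOneHom_comp_normHom (σ : G) : (subOneHom A σ).comp (normHom G A) = 0 := by
  ext a
  simp only [AddMonoidHom.coe_comp, Function.comp_apply, subOneHom_apply, AddMonoidHom.zero_apply]
  rw [smul_normHom, sub_self]

lemma normHom_comp_subOneHom (σ : G) : (normHom G A).comp (subOneHom A σ) = 0 := by
  ext a
  simp only [AddMonoidHom.coe_comp, Function.comp_apply, subOneHom_apply, AddMonoidHom.zero_apply]
  rw [map_sub, normHom_smul, sub_self]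

variable (A) in
/-- The Herbrand quotient `h(A) = |Ĥ⁰(G, A)| / |H¹(G, A)|` of a module over a finite cyclic group
with chosen generator `σ`: `[A^G : N A] / [ker N : (σ - 1) A]`. -/
noncomputable def herbrandCyc (σ : G) : ℚ := herbrand (subOneHom A σ) (normHom G A)

variable (A) in
/-- Both `Ĥ⁰` and `Ĥ⁻¹` are finite. -/
def DefinedCyc (σ : G) : Prop := Defined (subOneHom A σ) (normHom G A)

section Equivariant

variable {A' : Type*} [AddCommGroup A'] [DistribMulAction G A']

omit [Fintype G] in
lemma map_subOneHom (φ : A →+ A') (hφ : ∀ (τ : G) (a : A), φ (τ • a) = τ • φ a) (σ : G) (a : A) :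
    φ (subOneHom A σ a) = subOneHom A' σ (φ a) := by
  simp [hφ]

lemma map_normHom (φ : A →+ A') (hφ : ∀ (τ : G) (a : A), φ (τ • a) = τ • φ a) (a : A) :
    φ (normHom G A a) = normHom G A' (φ a) := by
  simp [hφ]

variable {A'' : Type*} [AddCommGroup A''] [DistribMulAction G A'']

/-- Multiplicativity of the Herbrand quotient in a short exact sequence of `G`-modules. -/
theorem herbrandCyc_exact (σ : G) (i : A →+ A') (π : A' →+ A'') (hi : Function.Injective i)
    (hπ : Function.Surjective π) (hex : i.range = π.ker)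
    (hiG : ∀ (τ : G) (a : A), i (τ • a) = τ • i a) (hπG : ∀ (τ : G) (a : A'), π (τ • a) = τ • π a)
    (hA : DefinedCyc A σ) :
    herbrandCyc A' σ = herbrandCyc A σ * herbrandCyc A'' σ :=
  herbrand_exact i π hi hπ hex (subOneHom_comp_normHom σ) (normHom_comp_subOneHom σ)
    (map_subOneHom i hiG σ) (map_normHom i hiG) (map_subOneHom π hπG σ) (map_normHom π hπG) hA

theorem DefinedCyc.exact_right (σ : G) (i : A →+ A') (π : A' →+ A'') (hi : Function.Injective i)
    (hπ : Function.Surjective π) (hex : i.range = π.ker)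
    (hiG : ∀ (τ : G) (a : A), i (τ • a) = τ • i a) (hπG : ∀ (τ : G) (a : A'), π (τ • a) = τ • π a)
    (hA : DefinedCyc A σ) (hB : DefinedCyc A' σ) : DefinedCyc A'' σ :=
  Defined.exact_right i π hi hπ hex (subOneHom_comp_normHom σ) (normHom_comp_subOneHom σ)
    (map_subOneHom i hiG σ) (map_normHom i hiG) (map_subOneHom π hπG σ) (map_normHom π hπG) hA hB

theorem DefinedCyc.exact_left (σ : G) (i : A →+ A') (π : A' →+ A'') (hi : Function.Injective i)
    (hπ : Function.Surjective π) (hex : i.range = π.ker)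
    (hiG : ∀ (τ : G) (a : A), i (τ • a) = τ • i a) (hπG : ∀ (τ : G) (a : A'), π (τ • a) = τ • π a)
    (hB : DefinedCyc A' σ) (hC : DefinedCyc A'' σ) : DefinedCyc A σ :=
  Defined.exact_left i π hi hπ hex (subOneHom_comp_normHom σ) (normHom_comp_subOneHom σ)
    (map_subOneHom i hiG σ) (map_normHom i hiG) (map_subOneHom π hπG σ) (map_normHom π hπG) hB hC

theorem DefinedCyc.exact_mid (σ : G) (i : A →+ A') (π : A' →+ A'') (hi : Function.Injective i)
    (hπ : Function.Surjective π) (hex : i.range = π.ker)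
    (hiG : ∀ (τ : G) (a : A), i (τ • a) = τ • i a) (hπG : ∀ (τ : G) (a : A'), π (τ • a) = τ • π a)
    (hA : DefinedCyc A σ) (hC : DefinedCyc A'' σ) : DefinedCyc A' σ :=
  Defined.exact_mid i π hi hπ hex (subOneHom_comp_normHom σ) (normHom_comp_subOneHom σ)
    (map_subOneHom i hiG σ) (map_normHom i hiG) (map_subOneHom π hπG σ) (map_normHom π hπG) hA hC

/-- An equivariant map with finite kernel and cokernel preserves the Herbrand quotient. -/
theorem herbrandCyc_eq_of_finite_ker_coker (σ : G) (φ : A →+ A')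
    (hφ : ∀ (τ : G) (a : A), φ (τ • a) = τ • φ a) [Finite φ.ker] [φ.range.FiniteIndex] :
    (DefinedCyc A σ ↔ DefinedCyc A' σ) ∧ herbrandCyc A σ = herbrandCyc A' σ :=
  herbrand_eq_of_finite_ker_coker φ (subOneHom_comp_normHom σ) (normHom_comp_subOneHom σ)
    (subOneHom_comp_normHom σ) (normHom_comp_subOneHom σ) (map_subOneHom φ hφ σ) (map_normHom φ hφ)

end Equivariant

/-- A finite module has Herbrand quotient `1`. -/
theorem herbrandCyc_eq_one_of_finite [Finite A] (σ : G) : herbrandCyc A σ = 1 :=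
  herbrand_eq_one_of_finite (subOneHom_comp_normHom σ) (normHom_comp_subOneHom σ)

theorem definedCyc_of_finite [Finite A] (σ : G) : DefinedCyc A σ := defined_of_finite _ _

/-- The Herbrand quotient of `ℤ` with trivial action is the order of the group. -/
theorem herbrandCyc_int (σ : G) [DistribMulAction G ℤ] (htriv : ∀ (τ : G) (a : ℤ), τ • a = a) :
    DefinedCyc ℤ σ ∧ herbrandCyc ℤ σ = Fintype.card G := by
  have hn : (Fintype.card G : ℤ) ≠ 0 := by exact_mod_cast Fintype.card_ne_zero
  have hsub : subOneHom ℤ σ = 0 := by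
    ext; simp [htriv]
  have hnorm : normHom G ℤ = (Fintype.card G : ℤ) • AddMonoidHom.id ℤ := by
    ext; simp [htriv]
  have hker : (normHom G ℤ).ker = ⊥ := by
    rw [hnorm, eq_bot_iff]
    intro x hx
    have : (Fintype.card G : ℤ) • x = 0 := by simpa using hx
    rcases smul_eq_zero.1 this with h | h
    · exact absurd h hn
    · simpa using h
  have hrange : (normHom G ℤ).range = AddSubgroup.zmultiples (Fintype.card G : ℤ) := by
    rw [hnorm]
    ext x
    simp only [AddMonoidHom.mem_range, AddMonoidHom.smul_apply, AddMonoidHom.id_apply, smul_eq_mul,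
      Int.mem_zmultiples_iff]
    constructor
    · rintro ⟨y, rfl⟩; exact ⟨y, by ring⟩
    · rintro ⟨y, rfl⟩; exact ⟨y, by ring⟩
  have h1 : hq (subOneHom ℤ σ) (normHom G ℤ) = Fintype.card G := by
    unfold hq
    rw [hsub, AddMonoidHom.ker_zero, AddSubgroup.relIndex_top_right, hrange,
      Int.index_zmultiples, Int.natAbs_natCast]
  have h2 : hq (normHom G ℤ) (subOneHom ℤ σ) = 1 := by
    unfold hq
    rw [hker, AddSubgroup.relIndex_bot_right]
  refine ⟨⟨?_, ?_⟩, ?_⟩
  · rw [h1]; exact Fintype.card_ne_zero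
  · rw [h2]; exact one_ne_zero
  · unfold herbrandCyc herbrand
    rw [h1, h2]; simp

end Cyclic

end Fermat.Agent.Lib.Herbrand
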