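import Fermat.Agent.Lib.Herbrand

/-!
# Herbrand quotients: generators, induced modules, products (helper176, PROGRAM CFT)

On top of `Fermat.Agent.Lib.Herbrand` (`hq f g = [ker f : range g]`, `subOneHom`, `normHom`):

* `mem_ker_subOneHom_iff`, `smul_sub_mem_range_subOneHom`: if `s` generates `G`, then
  `ker (s - 1)` is the group of invariants and `range (s - 1)` contains all `τ • x - x`;
* `hq_of_induced`: a module which is the direct sum of the translates `τ • B₀` of a subgroup
  `B₀` has both Herbrand indices equal to `1`;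
* `hq_piHom_eq_one`: componentwise endomorphisms of an arbitrary product with trivial factors;
* `herbrand_prodMap`: the Herbrand quotient of a binary product.
-/

set_option autoImplicit false

namespace Fermat.Agent.Lib.Herbrand

section Generator

variable {G : Type*} [Group G] {A : Type*} [AddCommGroup A] [DistribMulAction G A]

/-- If `s` generates `G`, the kernel of `s - 1` is the group of invariants. -/
theorem mem_ker_subOneHom_iff {s : G} (hs : ∀ τ : G, τ ∈ Subgroup.zpowers s) (a : A) :
    a ∈ (subOneHom A s).ker ↔ ∀ τ : G, τ • a = a := by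
  rw [AddMonoidHom.mem_ker, subOneHom_apply, sub_eq_zero]
  constructor
  · intro h τ
    have h1 : s ∈ MulAction.stabilizer G a := h
    have h2 : Subgroup.zpowers s ≤ MulAction.stabilizer G a := (Subgroup.zpowers_le).2 h1
    exact h2 (hs τ)
  · intro h
    exact h s

/-- If `s` generates `G`, the image of `s - 1` contains all `τ • x - x`. -/
theorem smul_sub_mem_range_subOneHom {s : G} (hs : ∀ τ : G, τ ∈ Subgroup.zpowers s) (τ : G)
    (x : A) : τ • x - x ∈ (subOneHom A s).range := by
  let H : Subgroup G :=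
    { carrier := {ρ | ∀ x : A, ρ • x - x ∈ (subOneHom A s).range}
      one_mem' := fun x => by simp
      mul_mem' := by
        intro ρ ρ' h h' x
        have e : (ρ * ρ') • x - x = (ρ • (ρ' • x) - ρ' • x) + (ρ' • x - x) := by
          rw [mul_smul]; abel
        rw [e]
        exact add_mem (h _) (h' _)
      inv_mem' := by
        intro ρ h x
        have e : ρ⁻¹ • x - x = -(ρ • (ρ⁻¹ • x) - ρ⁻¹ • x) := by
          rw [smul_inv_smul]; abel
        rw [e]
        exact neg_mem (h _) }
  have h1 : s ∈ H := fun x => ⟨x, rfl⟩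
  have h2 : Subgroup.zpowers s ≤ H := (Subgroup.zpowers_le).2 h1
  exact h2 (hs τ) x

end Generator

section Induced

variable {G : Type*} [Group G] [Fintype G] {A : Type*} [AddCommGroup A] [DistribMulAction G A]

/-- **Induced modules have trivial Herbrand groups.** Here "induced" means: there is a subgroup
`B₀` with `A = ⨁_{τ ∈ G} τ • B₀`, i.e. `φ ↦ ∑ τ, τ • φ τ` is a bijection `(G → B₀) → A`.
Then `A^G = N A` and `ker N = (s - 1) A`. -/
theorem hq_of_induced {s : G} (hs : ∀ τ : G, τ ∈ Subgroup.zpowers s) (B₀ : AddSubgroup A)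
    (hB : Function.Bijective (fun φ : G → B₀ => ∑ τ : G, τ • (φ τ : A))) :
    hq (subOneHom A s) (normHom G A) = 1 ∧ hq (normHom G A) (subOneHom A s) = 1 := by
  refine ⟨?_, ?_⟩
  · rw [hq, AddSubgroup.relIndex_eq_one]
    intro a ha
    rw [mem_ker_subOneHom_iff hs] at ha
    obtain ⟨φ, hφ⟩ := hB.2 a
    simp only at hφ
    have key : ∀ ρ : G, φ ρ = φ 1 := by
      intro ρ
      have h1 : (fun ψ : G → B₀ => ∑ τ : G, τ • (ψ τ : A)) (fun τ => φ (ρ⁻¹ * τ)) = a := by
        simp only
        have h2 : ∑ τ : G, τ • (φ (ρ⁻¹ * τ) : A) = ∑ τ : G, ρ • (τ • (φ τ : A)) := by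
          refine Fintype.sum_equiv (Equiv.mulLeft ρ⁻¹) _ _ (fun τ => ?_)
          simp [← mul_smul]
        rw [h2, ← Finset.smul_sum, hφ, ha]
      have h3 : (fun τ => φ (ρ⁻¹ * τ)) = φ := hB.1 (h1.trans hφ.symm)
      have h4 := congrFun h3 ρ
      simpa using h4.symm
    refine ⟨(φ 1 : A), ?_⟩
    rw [normHom_apply, ← hφ]
    exact Finset.sum_congr rfl (fun τ _ => by rw [key τ])
  · rw [hq, AddSubgroup.relIndex_eq_one]
    intro a ha
    rw [AddMonoidHom.mem_ker, normHom_apply] at ha
    obtain ⟨φ, hφ⟩ := hB.2 a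
    simp only at hφ
    have hc : (∑ τ : G, φ τ) = 0 := by
      have h1 : (fun ψ : G → B₀ => ∑ ρ : G, ρ • (ψ ρ : A)) (fun _ => ∑ τ : G, φ τ) = 0 := by
        simp only
        have hco : ((∑ τ : G, φ τ : B₀) : A) = ∑ τ : G, (φ τ : A) := by simp
        have e1 : ∑ ρ : G, ρ • ((∑ τ : G, φ τ : B₀) : A) = ∑ τ : G, ∑ ρ : G, ρ • (φ τ : A) := by
          rw [hco]
          simp only [Finset.smul_sum]
          exact Finset.sum_comm
        have e2 : ∑ ρ : G, ρ • a = ∑ τ : G, ∑ ρ : G, ρ • (φ τ : A) := by
          rw [← hφ]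
          simp only [Finset.smul_sum]
          rw [Finset.sum_comm]
          refine Finset.sum_congr rfl (fun τ _ => ?_)
          exact Fintype.sum_equiv (Equiv.mulRight τ) _ _ (fun ρ => by simp [mul_smul])
        rw [e1, ← e2, ha]
      have h0 : (fun ψ : G → B₀ => ∑ ρ : G, ρ • (ψ ρ : A)) (fun _ => 0) = 0 := by simp
      have h2 := hB.1 (h1.trans h0.symm)
      exact congrFun h2 1
    have e : a = ∑ τ : G, (τ • (φ τ : A) - (φ τ : A)) := by
      rw [Finset.sum_sub_distrib, hφ]
      have : (∑ τ : G, (φ τ : A)) = ((∑ τ : G, φ τ : B₀) : A) := by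
        simp
      rw [this, hc]
      simp
    rw [e]
    exact sum_mem (fun τ _ => smul_sub_mem_range_subOneHom hs τ _)

/-- Induced modules: the cyclic Herbrand quotient is defined and equal to `1`. -/
theorem herbrandCyc_of_induced {s : G} (hs : ∀ τ : G, τ ∈ Subgroup.zpowers s) (B₀ : AddSubgroup A)
    (hB : Function.Bijective (fun φ : G → B₀ => ∑ τ : G, τ • (φ τ : A))) :
    DefinedCyc A s ∧ herbrandCyc A s = 1 := by
  obtain ⟨h1, h2⟩ := hq_of_induced hs B₀ hB
  refine ⟨⟨by rw [h1]; exact one_ne_zero, by rw [h2]; exact one_ne_zero⟩, ?_⟩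
  rw [herbrandCyc, herbrand, h1, h2]
  simp

end Induced

section Products

variable {ι : Type*} {B : ι → Type*} [∀ i, AddCommGroup (B i)]

/-- The componentwise endomorphism of a product. -/
def piHom (f : ∀ i, B i →+ B i) : (∀ i, B i) →+ (∀ i, B i) where
  toFun b i := f i (b i)
  map_zero' := by ext i; simp
  map_add' x y := by ext i; simp

@[simp] theorem piHom_apply (f : ∀ i, B i →+ B i) (b : ∀ i, B i) (i : ι) :
    piHom f b i = f i (b i) := rfl

/-- If `ker (f i) ≤ range (g i)` for all `i` (index `1`), the same holds on the product,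
for an arbitrary index set. -/
theorem hq_piHom_eq_one (f g : ∀ i, B i →+ B i) (h : ∀ i, hq (f i) (g i) = 1) :
    hq (piHom f) (piHom g) = 1 := by
  rw [hq, AddSubgroup.relIndex_eq_one]
  intro b hb
  have hb' : ∀ i, b i ∈ (g i).range := by
    intro i
    have hi := h i
    rw [hq, AddSubgroup.relIndex_eq_one] at hi
    apply hi
    rw [AddMonoidHom.mem_ker] at hb ⊢
    exact congrFun hb i
  choose c hc using hb'
  exact ⟨c, funext hc⟩

end Products

section BinaryProduct

variable {A B : Type*} [AddCommGroup A] [AddCommGroup B]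
variable {f g : A →+ A} {f' g' : B →+ B}

/-- The Herbrand quotient of a binary product. -/
theorem herbrand_prodMap (hfg : f.comp g = 0) (hgf : g.comp f = 0)
    (hfg' : f'.comp g' = 0) (hgf' : g'.comp f' = 0) (h : Defined f g) (h' : Defined f' g') :
    Defined (f.prodMap f') (g.prodMap g') ∧
      herbrand (f.prodMap f') (g.prodMap g') = herbrand f g * herbrand f' g' := by
  have hi : Function.Injective (AddMonoidHom.inl A B) := fun a b hab => by simpa using hab
  have hπ : Function.Surjective (AddMonoidHom.snd A B) := Prod.snd_surjective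
  have hex : (AddMonoidHom.inl A B).range = (AddMonoidHom.snd A B).ker := by
    ext ⟨a, b⟩
    simp only [AddMonoidHom.mem_range, AddMonoidHom.inl_apply, Prod.mk.injEq, AddMonoidHom.mem_ker,
      AddMonoidHom.coe_snd]
    constructor
    · rintro ⟨x, -, hx⟩
      exact hx.symm
    · intro hb
      exact ⟨a, rfl, hb.symm⟩
  have e1 : (f.prodMap f').comp (g.prodMap g') = 0 := by
    ext ⟨a, b⟩
    · simpa using DFunLike.congr_fun hfg a
    · simpa using DFunLike.congr_fun hfg' b
  have e2 : (g.prodMap g').comp (f.prodMap f') = 0 := by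
    ext ⟨a, b⟩
    · simpa using DFunLike.congr_fun hgf a
    · simpa using DFunLike.congr_fun hgf' b
  exact ⟨Defined.exact_mid (AddMonoidHom.inl A B) (AddMonoidHom.snd A B) hi hπ hex e1 e2
      (fun a => by simp) (fun a => by simp) (fun _ => rfl) (fun _ => rfl) h h',
    herbrand_exact (AddMonoidHom.inl A B) (AddMonoidHom.snd A B) hi hπ hex e1 e2
      (fun a => by simp) (fun a => by simp) (fun _ => rfl) (fun _ => rfl) h⟩

end BinaryProduct

end Fermat.Agent.Lib.Herbrand
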