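/-
# The `p`-adic cyclotomic character of `G_ℚ` (helper100)

`Qb := AlgebraicClosure ℚ`, `GQ := Qb ≃ₐ[ℚ] Qb`.

* `cyclo p : GQ →* ℤ_[p]ˣ` (Mathlib's `cyclotomicCharacter Qb p`), with
  `cyclo_spec`, `toZModPow_cyclo_of_pow`, `cyclo_sub_mem_of_pow`,
  `cyclo_frobenius` (value `ℓ` at a Frobenius element at `ℓ ≠ p`),
  `cyclo_inertia` (trivial on inertia at `q ≠ p`),
  `cyclo_complexConjugation` (value `-1` at complex conjugation),
  `cyclo_cont` (modulo `p ^ n` it factors through a finite extension).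
* `padicHom p I hp : ℤ_[p] →+* O` for an `I`-adically complete ring `O` with `p ∈ I`.
* `cycloTo p φ : GQ →* Oˣ` for any ring hom `φ : ℤ_[p] →+* O`, with the same facts transported,
  and `cycloO p I hp := cycloTo p (padicHom p I hp)`.

Also: `frob_root` / `inertia_root` (action of Frobenius / inertia on roots of unity of order
prime to the residue characteristic) and the unpacking lemmas
`sub_pow_mem_nonunits_of_isFrobeniusAt`, `sub_mem_nonunits_of_mem_inertia`.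
-/
import Mathlib
import Fermat.Prelude.Def_FLTPrelim_Ramification
import Fermat.Prelude.Def_EllipticCurve_FrobeniusTrace
import Fermat.Prelude.Def_GaloisRep_ComplexConjugation

set_option autoImplicit false

namespace Fermat.Agent.Lib.CycloChar


open scoped Pointwise

section Val

variable {L : Type*} [Field L]

/-- A root of unity lies in every valuation subring. -/
theorem mem_of_pow_eq_one (A : ValuationSubring L) {z : L} {m : ℕ} (hm : m ≠ 0) (hz : z ^ m = 1) :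
    z ∈ A := by
  rcases A.mem_or_inv_mem z with h | h
  · exact h
  · have : z = (z⁻¹) ^ (m - 1) := by
      have hz0 : z ≠ 0 := by
        rintro rfl
        rw [zero_pow hm] at hz
        exact zero_ne_one hz
      have h1 : z ^ (m - 1) * z = 1 := by
        rw [← pow_succ, Nat.sub_add_cancel (Nat.one_le_iff_ne_zero.mpr hm), hz]
      rw [inv_pow]
      exact eq_inv_of_mul_eq_one_right h1
    rw [this]
    exact pow_mem h _

theorem nonunits_add (A : ValuationSubring L) {x y : L} (hx : x ∈ A.nonunits) (hy : y ∈ A.nonunits) :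
    x + y ∈ A.nonunits := by
  rw [A.mem_nonunits_iff] at *
  exact A.valuation.map_add_lt hx hy

theorem nonunits_mul (A : ValuationSubring L) {x y : L} (hx : x ∈ A) (hy : y ∈ A.nonunits) :
    x * y ∈ A.nonunits := by
  rw [A.mem_nonunits_iff] at *
  rw [map_mul]
  have hx' : A.valuation x ≤ 1 := (A.valuation_le_one_iff x).mpr hx
  calc A.valuation x * A.valuation y ≤ 1 * A.valuation y := by gcongr
    _ = A.valuation y := one_mul _
    _ < 1 := hy

theorem nonunits_zero (A : ValuationSubring L) : (0 : L) ∈ A.nonunits := by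
  rw [A.mem_nonunits_iff, map_zero]
  exact zero_lt_one

/-- Roots of unity of order prime to the residue characteristic are distinct modulo the
maximal ideal. -/
theorem eq_one_of_pow_eq_one_of_sub_mem (A : ValuationSubring L) {z : L} {m : ℕ}
    (hz : z ^ m = 1) (hm : (m : L) ∉ A.nonunits) (h : z - 1 ∈ A.nonunits) : z = 1 := by
  by_contra hne
  have hm0 : m ≠ 0 := by
    rintro rfl
    apply hm
    rw [Nat.cast_zero]
    exact nonunits_zero A
  have hzA : z ∈ A := mem_of_pow_eq_one A hm0 hz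
  have hgeom : ∑ i ∈ Finset.range m, z ^ i = 0 := by
    have h1 : (∑ i ∈ Finset.range m, z ^ i) * (z - 1) = 0 := by
      rw [geom_sum_mul, hz, sub_self]
    rcases mul_eq_zero.mp h1 with h2 | h2
    · exact h2
    · exact absurd (sub_eq_zero.mp h2) hne
  have hstep : ∀ i : ℕ, z ^ i - 1 ∈ A.nonunits := by
    intro i
    induction i with
    | zero => rw [pow_zero, sub_self]; exact nonunits_zero A
    | succ i ih =>
      have : z ^ (i + 1) - 1 = z ^ i * (z - 1) + (z ^ i - 1) := by ring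
      rw [this]
      exact nonunits_add A (nonunits_mul A (pow_mem hzA i) h) ih
  have hsum : ∀ k : ℕ, (∑ i ∈ Finset.range k, (z ^ i - 1)) ∈ A.nonunits := by
    intro k
    induction k with
    | zero => rw [Finset.sum_range_zero]; exact nonunits_zero A
    | succ k ih =>
      rw [Finset.sum_range_succ]
      exact nonunits_add A ih (hstep k)
  have hmm : (m : L) = -(∑ i ∈ Finset.range m, (z ^ i - 1)) := by
    rw [Finset.sum_sub_distrib, hgeom]
    simp
  apply hm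
  rw [hmm]
  have := nonunits_mul A (neg_mem (one_mem A)) (hsum m)
  simpa using this

end Val




section Unpack

variable {K L : Type*} [Field K] [Field L] [Algebra K L]

theorem map_mem_of_mem_decomposition (A : ValuationSubring L) (σ : L ≃ₐ[K] L)
    (hσ : σ ∈ A.decompositionSubgroup K) {x : L} (hx : x ∈ A) : σ x ∈ A := by
  have h1 : σ • x ∈ σ • A := ValuationSubring.smul_mem_pointwise_smul _ x A hx
  have h2 : σ • A = A := hσ
  rw [h2] at h1
  exact h1

/-- Unpacking of `IsFrobeniusAt`. -/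
theorem sub_pow_mem_nonunits_of_isFrobeniusAt (A : ValuationSubring L) (σ : L ≃ₐ[K] L) (ℓ : ℕ)
    (hσ : A.IsFrobeniusAt σ ℓ) {x : L} (hx : x ∈ A) : σ x - x ^ ℓ ∈ A.nonunits := by
  obtain ⟨hσ', h⟩ := hσ
  have h2 := h (IsLocalRing.residue A ⟨x, hx⟩)
  rw [← IsLocalRing.ResidueField.residue_smul, ← map_pow] at h2
  have h3 : ((⟨σ, hσ'⟩ : A.decompositionSubgroup K) • (⟨x, hx⟩ : A)) - (⟨x, hx⟩ : A) ^ ℓ
      ∈ IsLocalRing.maximalIdeal A := by
    rw [← Ideal.Quotient.eq]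
    exact h2
  have h4 : (((⟨σ, hσ'⟩ : A.decompositionSubgroup K) • (⟨x, hx⟩ : A)) - (⟨x, hx⟩ : A) ^ ℓ : A)
      = ⟨σ x - x ^ ℓ, A.sub_mem (map_mem_of_mem_decomposition A σ hσ' hx) (pow_mem hx ℓ)⟩ := by
    rfl
  rw [h4] at h3
  exact A.mem_nonunits_iff.mpr ((A.valuation_lt_one_iff _).mp h3)

/-- Unpacking of the inertia subgroup. -/
theorem sub_mem_nonunits_of_mem_inertia (A : ValuationSubring L) (σ : L ≃ₐ[K] L)
    (hσ : σ ∈ A.inertiaSubgroupIn K) {x : L} (hx : x ∈ A) : σ x - x ∈ A.nonunits := by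
  obtain ⟨τ, hτ, rfl⟩ := hσ
  have hτx : (τ : L ≃ₐ[K] L) x ∈ A := map_mem_of_mem_decomposition A _ τ.2 hx
  have h1 : MulSemiringAction.toRingAut (A.decompositionSubgroup K) (IsLocalRing.ResidueField A) τ
      = 1 := hτ
  have h2 : τ • (IsLocalRing.residue A ⟨x, hx⟩) = IsLocalRing.residue A ⟨x, hx⟩ := by
    have := congrArg (fun f => f (IsLocalRing.residue A ⟨x, hx⟩)) h1
    simpa using this
  rw [← IsLocalRing.ResidueField.residue_smul] at h2
  have h3 : (τ • (⟨x, hx⟩ : A)) - ⟨x, hx⟩ ∈ IsLocalRing.maximalIdeal A := by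
    rw [← Ideal.Quotient.eq]
    exact h2
  have h4 : ((τ • (⟨x, hx⟩ : A)) - ⟨x, hx⟩ : A) = ⟨(τ : L ≃ₐ[K] L) x - x, A.sub_mem hτx hx⟩ := by
    rfl
  rw [h4] at h3
  exact A.mem_nonunits_iff.mpr ((A.valuation_lt_one_iff _).mp h3)

/-- If `ℓ ∈ 𝔪_A` and `m` is prime to `ℓ`, then `m ∉ 𝔪_A`. -/
theorem natCast_not_mem_nonunits_of_coprime (A : ValuationSubring L) {ℓ m : ℕ}
    (hA : A.LiesOverPrime ℓ) (hm : Nat.Coprime m ℓ) : (m : L) ∉ A.nonunits := by
  intro hmA
  have hℓ : (ℓ : L) ∈ A.nonunits := hA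
  have h1 : (1 : L) ∈ A.nonunits := by
    have hb : (Nat.gcd m ℓ : ℤ) = m * Nat.gcdA m ℓ + ℓ * Nat.gcdB m ℓ := Nat.gcd_eq_gcd_ab m ℓ
    rw [hm] at hb
    have hb' : (1 : L) = (Nat.gcdA m ℓ : L) * (m : L) + (Nat.gcdB m ℓ : L) * (ℓ : L) := by
      have := congrArg (Int.cast : ℤ → L) hb
      push_cast at this
      rw [this]; ring
    rw [hb']
    exact nonunits_add A (nonunits_mul A (intCast_mem A _) hmA)
      (nonunits_mul A (intCast_mem A _) hℓ)
  rw [A.mem_nonunits_iff, map_one] at h1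
  exact lt_irrefl _ h1

/-- A Frobenius element at `ℓ` raises roots of unity of order prime to `ℓ` to the `ℓ`-th
power. -/
theorem frob_root (A : ValuationSubring L) {ℓ : ℕ} (hA : A.LiesOverPrime ℓ) (σ : L ≃ₐ[K] L)
    (hσ : A.IsFrobeniusAt σ ℓ) {m : ℕ} (hm : Nat.Coprime m ℓ) {μ : L} (hμ : μ ^ m = 1) :
    σ μ = μ ^ ℓ := by
  have hmA := natCast_not_mem_nonunits_of_coprime A hA hm
  have hm0 : m ≠ 0 := by
    rintro rfl
    apply hmA
    rw [Nat.cast_zero]
    exact nonunits_zero A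
  have hμA : μ ∈ A := mem_of_pow_eq_one A hm0 hμ
  have hμ0 : μ ≠ 0 := by
    rintro rfl
    rw [zero_pow hm0] at hμ
    exact zero_ne_one hμ
  have h1 := sub_pow_mem_nonunits_of_isFrobeniusAt A σ ℓ hσ hμA
  have hpow : (μ ^ ℓ) ^ m = 1 := by
    rw [← pow_mul, mul_comm, pow_mul, hμ, one_pow]
  have hinv : (μ ^ ℓ)⁻¹ ∈ A := by
    have : ((μ ^ ℓ)⁻¹) ^ m = 1 := by
      rw [inv_pow, hpow, inv_one]
    exact mem_of_pow_eq_one A hm0 this
  have hz : (σ μ * (μ ^ ℓ)⁻¹) ^ m = 1 := by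
    rw [mul_pow, ← map_pow, hμ, map_one, inv_pow, hpow, inv_one, one_mul]
  have hz1 : σ μ * (μ ^ ℓ)⁻¹ - 1 ∈ A.nonunits := by
    have : σ μ * (μ ^ ℓ)⁻¹ - 1 = (μ ^ ℓ)⁻¹ * (σ μ - μ ^ ℓ) := by
      field_simp
    rw [this]
    exact nonunits_mul A hinv h1
  have := eq_one_of_pow_eq_one_of_sub_mem A hz hmA hz1
  field_simp at this
  exact this

/-- Inertia at `q` fixes roots of unity of order prime to `q`. -/
theorem inertia_root (A : ValuationSubring L) {q : ℕ} (hA : A.LiesOverPrime q) (σ : L ≃ₐ[K] L)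
    (hσ : σ ∈ A.inertiaSubgroupIn K) {m : ℕ} (hm : Nat.Coprime m q) {μ : L} (hμ : μ ^ m = 1) :
    σ μ = μ := by
  have hmA := natCast_not_mem_nonunits_of_coprime A hA hm
  have hm0 : m ≠ 0 := by
    rintro rfl
    apply hmA
    rw [Nat.cast_zero]
    exact nonunits_zero A
  have hμA : μ ∈ A := mem_of_pow_eq_one A hm0 hμ
  have hμ0 : μ ≠ 0 := by
    rintro rfl
    rw [zero_pow hm0] at hμ
    exact zero_ne_one hμ
  have h1 := sub_mem_nonunits_of_mem_inertia A σ hσ hμA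
  have hinv : μ⁻¹ ∈ A := by
    have : (μ⁻¹) ^ m = 1 := by rw [inv_pow, hμ, inv_one]
    exact mem_of_pow_eq_one A hm0 this
  have hz : (σ μ * μ⁻¹) ^ m = 1 := by
    rw [mul_pow, ← map_pow, hμ, map_one, inv_pow, hμ, inv_one, one_mul]
  have hz1 : σ μ * μ⁻¹ - 1 ∈ A.nonunits := by
    have : σ μ * μ⁻¹ - 1 = μ⁻¹ * (σ μ - μ) := by
      field_simp
    rw [this]
    exact nonunits_mul A hinv h1
  have := eq_one_of_pow_eq_one_of_sub_mem A hz hmA hz1
  field_simp at this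
  exact this

end Unpack


local notation "Qb" => AlgebraicClosure ℚ
local notation "GQ" => (AlgebraicClosure ℚ ≃ₐ[ℚ] AlgebraicClosure ℚ)

variable (p : ℕ) [Fact p.Prime]





theorem hasEnough (i : ℕ) : HasEnoughRootsOfUnity Qb (p ^ i) := by
  have : NeZero ((p ^ i : ℕ) : Qb) :=
    ⟨by exact_mod_cast (pow_pos (Fact.out : p.Prime).pos i).ne'⟩
  infer_instance

/-- The `p`-adic cyclotomic character of the absolute Galois group of `ℚ`. -/
noncomputable def cyclo : GQ →* ℤ_[p]ˣ :=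
  (cyclotomicCharacter Qb p).comp (MulSemiringAction.toRingAut GQ Qb)

theorem cyclo_spec (σ : GQ) (n : ℕ) (ζ : Qb) (hζ : ζ ^ p ^ n = 1) :
    σ ζ = ζ ^ ((cyclo p σ : ℤ_[p]).toZModPow n).val := by
  have : ∀ i, HasEnoughRootsOfUnity Qb (p ^ i) := hasEnough p
  exact cyclotomicCharacter.spec p (MulSemiringAction.toRingAut GQ Qb σ) ζ hζ

theorem exists_primitiveRoot (n : ℕ) : ∃ ζ : Qb, IsPrimitiveRoot ζ (p ^ n) := by
  have := hasEnough p n
  exact HasEnoughRootsOfUnity.exists_primitiveRoot Qb (p ^ n)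

/-- Characterisation of the cyclotomic character modulo `p ^ n`. -/
theorem toZModPow_cyclo_of_pow (σ : GQ) (n a : ℕ)
    (h : ∀ μ : Qb, μ ^ p ^ n = 1 → σ μ = μ ^ a) :
    (cyclo p σ : ℤ_[p]).toZModPow n = (a : ZMod (p ^ n)) := by
  obtain ⟨ζ, hζ⟩ := exists_primitiveRoot p n
  have h1 := cyclo_spec p σ n ζ hζ.pow_eq_one
  rw [h ζ hζ.pow_eq_one] at h1
  have hpos : 0 < p ^ n := pow_pos (Fact.out : p.Prime).pos n
  have hfin : IsOfFinOrder ζ := isOfFinOrder_iff_pow_eq_one.mpr ⟨p ^ n, hpos, hζ.pow_eq_one⟩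
  have h2 : a ≡ ((cyclo p σ : ℤ_[p]).toZModPow n).val [MOD p ^ n] := by
    have := hfin.pow_eq_pow_iff_modEq.mp h1
    rwa [← hζ.eq_orderOf] at this
  have h3 := (ZMod.natCast_eq_natCast_iff _ _ _).mpr h2
  have : NeZero (p ^ n) := ⟨hpos.ne'⟩
  rw [h3, ZMod.natCast_zmod_val]

theorem cyclo_sub_mem_of_pow (σ : GQ) (n a : ℕ)
    (h : ∀ μ : Qb, μ ^ p ^ n = 1 → σ μ = μ ^ a) :
    (cyclo p σ : ℤ_[p]) - (a : ℤ_[p]) ∈ Ideal.span {(p : ℤ_[p]) ^ n} := by
  rw [← PadicInt.ker_toZModPow, RingHom.mem_ker, map_sub, map_natCast,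
    toZModPow_cyclo_of_pow p σ n a h, sub_self]

theorem cyclo_eq_of_pow (σ : GQ) (a : ℤ_[p]) (b : ℕ → ℕ)
    (hb : ∀ n, a.toZModPow n = (b n : ZMod (p ^ n)))
    (h : ∀ n, ∀ μ : Qb, μ ^ p ^ n = 1 → σ μ = μ ^ b n) :
    (cyclo p σ : ℤ_[p]) = a := by
  rw [← PadicInt.ext_of_toZModPow]
  intro n
  rw [toZModPow_cyclo_of_pow p σ n (b n) (h n), hb n]

theorem coprime_pow_of_ne {ℓ : ℕ} (hℓ : ℓ.Prime) (hℓp : ℓ ≠ p) (n : ℕ) :
    Nat.Coprime (p ^ n) ℓ :=
  Nat.Coprime.pow_left n ((Nat.coprime_primes (Fact.out : p.Prime) hℓ).mpr (Ne.symm hℓp))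

/-- The cyclotomic character of a Frobenius element at `ℓ ≠ p` is `ℓ`. -/
theorem cyclo_frobenius {ℓ : ℕ} (hℓ : ℓ.Prime) (hℓp : ℓ ≠ p) (A : ValuationSubring Qb)
    (hA : A.LiesOverPrime ℓ) (σ : GQ) (hσ : A.IsFrobeniusAt σ ℓ) :
    (cyclo p σ : ℤ_[p]) = (ℓ : ℤ_[p]) := by
  refine cyclo_eq_of_pow p σ _ (fun _ => ℓ) (fun n => map_natCast _ _) ?_
  intro n μ hμ
  exact frob_root A hA σ hσ (coprime_pow_of_ne p hℓ hℓp n) hμ

/-- The cyclotomic character is trivial on inertia at `q ≠ p`. -/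
theorem cyclo_inertia {q : ℕ} (hq : q.Prime) (hqp : q ≠ p) (P : ValuationSubring Qb)
    (hP : P.LiesOverPrime q) (σ : GQ) (hσ : σ ∈ P.inertiaSubgroupIn ℚ) :
    cyclo p σ = 1 := by
  apply Units.ext
  rw [Units.val_one]
  refine cyclo_eq_of_pow p σ _ (fun _ => 1) (fun n => by simp) ?_
  intro n μ hμ
  rw [pow_one]
  exact inertia_root P hP σ hσ (coprime_pow_of_ne p hq hqp n) hμ






/-- Complex conjugation inverts roots of unity. -/
theorem complexConjugation_root {m : ℕ} (hm : m ≠ 0) {μ : Qb} (hμ : μ ^ m = 1) :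
    complexConjugation μ = μ⁻¹ := by
  have hinj : Function.Injective (complexEmbedding : Qb → ℂ) :=
    (complexEmbedding : Qb →+* ℂ).injective
  apply hinj
  rw [complexEmbedding_complexConjugation, map_inv₀]
  have hw : (complexEmbedding μ) ^ m = 1 := by rw [← map_pow, hμ, map_one]
  have hnorm : ‖complexEmbedding μ‖ = 1 := Complex.norm_eq_one_of_pow_eq_one hw hm
  exact (Complex.inv_eq_conj hnorm).symm

/-- The cyclotomic character of complex conjugation is `-1`. -/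
theorem cyclo_complexConjugation_val : (cyclo p complexConjugation : ℤ_[p]) = -1 := by
  refine cyclo_eq_of_pow p complexConjugation _ (fun n => p ^ n - 1) (fun n => ?_) ?_
  · have hpos : 1 ≤ p ^ n := pow_pos (Fact.out : p.Prime).pos n
    rw [map_neg, map_one, Nat.cast_sub hpos, ZMod.natCast_self, Nat.cast_one, zero_sub]
  · intro n μ hμ
    have hpos : 0 < p ^ n := pow_pos (Fact.out : p.Prime).pos n
    rw [complexConjugation_root hpos.ne' hμ]
    have h1 : μ ^ (p ^ n - 1) * μ = 1 := by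
      rw [← pow_succ, Nat.sub_add_cancel hpos, hμ]
    exact (eq_inv_of_mul_eq_one_left h1).symm

theorem cyclo_complexConjugation : cyclo p complexConjugation = -1 := by
  apply Units.ext
  rw [cyclo_complexConjugation_val, Units.val_neg, Units.val_one]

/-- Continuity of the cyclotomic character: modulo `p ^ n` it factors through a finite
extension of `ℚ`. -/
theorem cyclo_cont (n : ℕ) : ∃ L : IntermediateField ℚ Qb, FiniteDimensional ℚ L ∧
    ∀ σ τ : GQ, (∀ x ∈ L, σ x = τ x) →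
      (cyclo p σ : ℤ_[p]) - (cyclo p τ : ℤ_[p]) ∈ Ideal.span {(p : ℤ_[p]) ^ n} := by
  obtain ⟨ζ, hζ⟩ := exists_primitiveRoot p n
  have hpos : 0 < p ^ n := pow_pos (Fact.out : p.Prime).pos n
  have : NeZero (p ^ n) := ⟨hpos.ne'⟩
  refine ⟨IntermediateField.adjoin ℚ {ζ},
    IntermediateField.adjoin.finiteDimensional (hζ.isIntegral hpos).tower_top, ?_⟩
  intro σ τ hστ
  have key : ∀ μ : Qb, μ ^ p ^ n = 1 →
      σ μ = μ ^ ((cyclo p τ : ℤ_[p]).toZModPow n).val := by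
    intro μ hμ
    obtain ⟨i, -, rfl⟩ := hζ.eq_pow_of_pow_eq_one hμ
    rw [hστ _ (pow_mem (IntermediateField.mem_adjoin_simple_self ℚ ζ) i)]
    exact cyclo_spec p τ n _ hμ
  have h1 := toZModPow_cyclo_of_pow p σ n _ key
  rw [ZMod.natCast_zmod_val] at h1
  rw [← PadicInt.ker_toZModPow, RingHom.mem_ker, map_sub, h1, sub_self]






section PadicHom

variable {O : Type*} [CommRing O] (I : Ideal O)

/-- The ring homomorphism `ZMod (p ^ n) → O ⧸ I ^ n` when `p ∈ I`. -/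
noncomputable def zmodToQuot (hp : (p : O) ∈ I) (n : ℕ) : ZMod (p ^ n) →+* O ⧸ I ^ n :=
  (Ideal.Quotient.lift (Ideal.span {((p ^ n : ℕ) : ℤ)}) (Int.castRingHom (O ⧸ I ^ n)) (by
    intro a ha
    obtain ⟨b, rfl⟩ := Ideal.mem_span_singleton.mp ha
    rw [map_mul, map_natCast]
    have : ((p ^ n : ℕ) : O ⧸ I ^ n) = 0 := by
      rw [← map_natCast (Ideal.Quotient.mk (I ^ n)), Ideal.Quotient.eq_zero_iff_mem, Nat.cast_pow]
      exact Ideal.pow_mem_pow hp n
    rw [this, zero_mul])).comp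
    (Int.quotientSpanNatEquivZMod (p ^ n)).symm.toRingHom

/-- The level-`n` map `ℤ_[p] → O ⧸ I ^ n`. -/
noncomputable def padicToQuot (hp : (p : O) ∈ I) (n : ℕ) : ℤ_[p] →+* O ⧸ I ^ n :=
  (zmodToQuot p I hp n).comp (PadicInt.toZModPow n)

theorem padicToQuot_compat (hp : (p : O) ∈ I) {m n : ℕ} (hle : m ≤ n) :
    (Ideal.Quotient.factorPow I hle).comp (padicToQuot p I hp n) = padicToQuot p I hp m := by
  have h1 : (Ideal.Quotient.factorPow I hle).comp (zmodToQuot p I hp n) =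
      (zmodToQuot p I hp m).comp (ZMod.castHom (pow_dvd_pow p hle) (ZMod (p ^ m))) :=
    RingHom.ext_zmod _ _
  unfold padicToQuot
  rw [← RingHom.comp_assoc, h1, RingHom.comp_assoc, PadicInt.zmod_cast_comp_toZModPow _ _ hle]

/-- The canonical ring homomorphism from `ℤ_[p]` to an `I`-adically complete ring with
`p ∈ I`. -/
noncomputable def padicHom [IsAdicComplete I O] (hp : (p : O) ∈ I) : ℤ_[p] →+* O :=
  ((AdicCompletion.ofAlgEquiv I).symm : AdicCompletion I O →+* O).comp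
    (AdicCompletion.liftRingHom I (padicToQuot p I hp)
      (fun hle => padicToQuot_compat p I hp hle))

end PadicHom

section Transport

variable {O : Type*} [CommRing O] (φ : ℤ_[p] →+* O)

/-- The cyclotomic character with values in a ring receiving `ℤ_[p]`. -/
noncomputable def cycloTo : GQ →* Oˣ := (Units.map (φ : ℤ_[p] →* O)).comp (cyclo p)

theorem cycloTo_val (σ : GQ) : (cycloTo p φ σ : O) = φ (cyclo p σ : ℤ_[p]) := rfl

theorem cycloTo_frobenius {ℓ : ℕ} (hℓ : ℓ.Prime) (hℓp : ℓ ≠ p) (A : ValuationSubring Qb)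
    (hA : A.LiesOverPrime ℓ) (σ : GQ) (hσ : A.IsFrobeniusAt σ ℓ) :
    (cycloTo p φ σ : O) = (ℓ : O) := by
  rw [cycloTo_val, cyclo_frobenius p hℓ hℓp A hA σ hσ, map_natCast]

theorem cycloTo_inertia {q : ℕ} (hq : q.Prime) (hqp : q ≠ p) (P : ValuationSubring Qb)
    (hP : P.LiesOverPrime q) (σ : GQ) (hσ : σ ∈ P.inertiaSubgroupIn ℚ) :
    cycloTo p φ σ = 1 := by
  unfold cycloTo
  rw [MonoidHom.comp_apply, cyclo_inertia p hq hqp P hP σ hσ, map_one]

theorem cycloTo_complexConjugation : cycloTo p φ complexConjugation = -1 := by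
  apply Units.ext
  rw [cycloTo_val, cyclo_complexConjugation_val, map_neg, map_one, Units.val_neg, Units.val_one]

theorem map_sub_mem_span (x y : ℤ_[p]) (n : ℕ) (h : x - y ∈ Ideal.span {(p : ℤ_[p]) ^ n}) :
    φ x - φ y ∈ Ideal.span {(p : O) ^ n} := by
  obtain ⟨z, hz⟩ := Ideal.mem_span_singleton.mp h
  rw [Ideal.mem_span_singleton]
  refine ⟨φ z, ?_⟩
  rw [← map_sub, hz, map_mul, map_pow, map_natCast]

theorem cycloTo_cont (n : ℕ) : ∃ L : IntermediateField ℚ Qb, FiniteDimensional ℚ L ∧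
    ∀ σ τ : GQ, (∀ x ∈ L, σ x = τ x) →
      (cycloTo p φ σ : O) - (cycloTo p φ τ : O) ∈ Ideal.span {(p : O) ^ n} := by
  obtain ⟨L, hL, h⟩ := cyclo_cont p n
  exact ⟨L, hL, fun σ τ hστ => map_sub_mem_span p φ _ _ n (h σ τ hστ)⟩

theorem cycloTo_sub_mem_of_pow (σ : GQ) (n a : ℕ)
    (h : ∀ μ : Qb, μ ^ p ^ n = 1 → σ μ = μ ^ a) :
    (cycloTo p φ σ : O) - (a : O) ∈ Ideal.span {(p : O) ^ n} := by
  have := map_sub_mem_span p φ _ _ n (cyclo_sub_mem_of_pow p σ n a h)
  rwa [map_natCast] at this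

end Transport


omit [Fact p.Prime] in
theorem span_pow_le {O : Type*} [CommRing O] (I : Ideal O) (hp : (p : O) ∈ I) (n : ℕ) :
    Ideal.span {(p : O) ^ n} ≤ I ^ n := by
  rw [Ideal.span_singleton_le_iff_mem]
  exact Ideal.pow_mem_pow hp n

section Complete

variable {O : Type*} [CommRing O] (I : Ideal O) [IsAdicComplete I O] (hp : (p : O) ∈ I)

/-- The `p`-adic cyclotomic character with values in an `I`-adically complete ring with
`p ∈ I`. -/
noncomputable def cycloO : GQ →* Oˣ := cycloTo p (padicHom p I hp)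

theorem cycloO_frobenius {ℓ : ℕ} (hℓ : ℓ.Prime) (hℓp : ℓ ≠ p) (A : ValuationSubring Qb)
    (hA : A.LiesOverPrime ℓ) (σ : GQ) (hσ : A.IsFrobeniusAt σ ℓ) :
    (cycloO p I hp σ : O) = (ℓ : O) :=
  cycloTo_frobenius p _ hℓ hℓp A hA σ hσ

theorem cycloO_inertia {q : ℕ} (hq : q.Prime) (hqp : q ≠ p) (P : ValuationSubring Qb)
    (hP : P.LiesOverPrime q) (σ : GQ) (hσ : σ ∈ P.inertiaSubgroupIn ℚ) :
    cycloO p I hp σ = 1 :=
  cycloTo_inertia p _ hq hqp P hP σ hσ

theorem cycloO_complexConjugation : cycloO p I hp complexConjugation = -1 :=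
  cycloTo_complexConjugation p _

theorem cycloO_cont (n : ℕ) : ∃ L : IntermediateField ℚ Qb, FiniteDimensional ℚ L ∧
    ∀ σ τ : GQ, (∀ x ∈ L, σ x = τ x) →
      (cycloO p I hp σ : O) - (cycloO p I hp τ : O) ∈ Ideal.span {(p : O) ^ n} :=
  cycloTo_cont p _ n

theorem cycloO_cont' (n : ℕ) : ∃ L : IntermediateField ℚ Qb, FiniteDimensional ℚ L ∧
    ∀ σ τ : GQ, (∀ x ∈ L, σ x = τ x) →
      (cycloO p I hp σ : O) - (cycloO p I hp τ : O) ∈ I ^ n := by
  obtain ⟨L, hL, h⟩ := cycloO_cont p I hp n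
  exact ⟨L, hL, fun σ τ hστ => span_pow_le p I hp n (h σ τ hστ)⟩

theorem cycloO_sub_mem_of_pow (σ : GQ) (n a : ℕ)
    (h : ∀ μ : Qb, μ ^ p ^ n = 1 → σ μ = μ ^ a) :
    (cycloO p I hp σ : O) - (a : O) ∈ Ideal.span {(p : O) ^ n} :=
  cycloTo_sub_mem_of_pow p _ σ n a h

end Complete

end Fermat.Agent.Lib.CycloChar
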