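import Fermat.Prelude.Def_EllipticCurve_FrobeniusTrace
import Fermat.Agent.Lib.ValFrac

set_option autoImplicit false

namespace Fermat.Agent.Lib.FrobAssemble

open scoped Pointwise

variable {L : Type*} [Field L]

theorem mem_of_isIntegral_int (A : ValuationSubring L) {a : L} (ha : IsIntegral ℤ a) : a ∈ A := by
  have h : IsIntegral A a := ha.tower_top
  obtain ⟨y, rfl⟩ := IsIntegrallyClosedIn.isIntegral_iff.mp h
  exact y.2

/-- If `σ` is congruent to the `ℓ`-th power map on algebraic integers modulo the maximal ideal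
of `A`, it is so on all of `A`. -/
theorem valuation_map_sub_pow_lt_one [CharZero L] (A : ValuationSubring L) (ℓ : ℕ) (hℓ : ℓ.Prime)
    (hA : (ℓ : L) ∈ A.nonunits) (halg : ∀ x : L, IsAlgebraic ℤ x) (σ : L →+* L)
    (hσ : ∀ x : L, IsIntegral ℤ x → σ x - x ^ ℓ ∈ A.nonunits) (x : L) (hx : x ∈ A) :
    A.valuation (σ x - x ^ ℓ) < 1 := by
  obtain ⟨s, hs, hxs, hvs⟩ := ValFrac.exists_integral_fraction A ℓ hℓ hA x hx (halg x)
  have h1 : A.valuation (σ (x * s) - (x * s) ^ ℓ) < 1 := A.mem_nonunits_iff.mp (hσ _ hxs)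
  have h2 : A.valuation (σ s - s ^ ℓ) < 1 := A.mem_nonunits_iff.mp (hσ _ hs)
  have hvx : A.valuation x ≤ 1 := (A.valuation_le_one_iff _).mpr hx
  have hvσs : A.valuation (σ s) = 1 := by
    have : σ s = s ^ ℓ + (σ s - s ^ ℓ) := by ring
    rw [this, A.valuation.map_add_eq_of_lt_left (by rw [map_pow, hvs, one_pow]; exact h2),
      map_pow, hvs, one_pow]
  have key : (σ x - x ^ ℓ) * σ s = (σ (x * s) - (x * s) ^ ℓ) - x ^ ℓ * (σ s - s ^ ℓ) := by
    rw [map_mul]; ring
  have h3 : A.valuation ((σ x - x ^ ℓ) * σ s) < 1 := by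
    rw [key]
    refine A.valuation.map_sub_lt h1 ?_
    rw [map_mul, map_pow]
    calc A.valuation x ^ ℓ * A.valuation (σ s - s ^ ℓ) ≤ 1 * A.valuation (σ s - s ^ ℓ) := by
          gcongr; exact pow_le_one' hvx _
      _ < 1 := by rw [one_mul]; exact h2
  rwa [map_mul, hvσs, mul_one] at h3

variable {K : Type*} [Field K] [Algebra K L]

theorem mem_iff_map_mem [CharZero L] (A : ValuationSubring L) (ℓ : ℕ) (hℓ : ℓ.Prime)
    (hA : (ℓ : L) ∈ A.nonunits) (halg : ∀ x : L, IsAlgebraic ℤ x) (σ : L →+* L)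
    (hσ : ∀ x : L, IsIntegral ℤ x → σ x - x ^ ℓ ∈ A.nonunits) (u : L) :
    u ∈ A ↔ σ u ∈ A := by
  have hle : ∀ x : L, A.valuation x ≤ 1 → A.valuation (σ x) ≤ 1 := by
    intro x hx
    have h := valuation_map_sub_pow_lt_one A ℓ hℓ hA halg σ hσ x ((A.valuation_le_one_iff _).mp hx)
    have : σ x = x ^ ℓ + (σ x - x ^ ℓ) := by ring
    rw [this]
    refine A.valuation.map_add_le ?_ h.le
    rw [map_pow]; exact pow_le_one' hx _
  have hlt : ∀ x : L, A.valuation x < 1 → A.valuation (σ x) < 1 := by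
    intro x hx
    have h := valuation_map_sub_pow_lt_one A ℓ hℓ hA halg σ hσ x
      ((A.valuation_le_one_iff _).mp hx.le)
    have : σ x = x ^ ℓ + (σ x - x ^ ℓ) := by ring
    rw [this]
    refine A.valuation.map_add_lt ?_ h
    rw [map_pow]
    calc A.valuation x ^ ℓ ≤ A.valuation x ^ 1 :=
          pow_le_pow_right_of_le_one' hx.le hℓ.one_le
      _ < 1 := by rw [pow_one]; exact hx
  constructor
  · intro hu
    exact (A.valuation_le_one_iff _).mp (hle u ((A.valuation_le_one_iff _).mpr hu))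
  · intro hu
    by_contra hcon
    have hu0 : u ≠ 0 := fun h => hcon (h ▸ A.zero_mem)
    have h1 : A.valuation u⁻¹ < 1 := by
      rw [← A.mem_nonunits_iff, A.mem_nonunits_iff_or]
      right; rwa [inv_inv]
    have h2 := hlt _ h1
    rw [map_inv₀, map_inv₀] at h2
    have h3 : A.valuation (σ u) ≤ 1 := (A.valuation_le_one_iff _).mpr hu
    have h4 : A.valuation (σ u) ≠ 0 := by
      rw [Ne, map_eq_zero, map_eq_zero]; exact hu0
    have h5 : (1 : A.ValueGroup) ≤ (A.valuation (σ u))⁻¹ := (one_le_inv₀ (zero_lt_iff.mpr h4)).mpr h3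
    exact absurd h2 (not_lt.mpr h5)

/-- Assembly: an automorphism congruent to the `ℓ`-th power map on algebraic integers modulo the
maximal ideal of the valuation subring `A` is a Frobenius element at `ℓ` for `A`. -/
theorem isFrobeniusAt_of_integral [CharZero L] (A : ValuationSubring L) (ℓ : ℕ) (hℓ : ℓ.Prime)
    (hA : (ℓ : L) ∈ A.nonunits) (halg : ∀ x : L, IsAlgebraic ℤ x) (σ : L ≃ₐ[K] L)
    (hσ : ∀ x : L, IsIntegral ℤ x → σ x - x ^ ℓ ∈ A.nonunits) : A.IsFrobeniusAt σ ℓ := by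
  have hmem : ∀ u : L, u ∈ A ↔ σ u ∈ A :=
    mem_iff_map_mem A ℓ hℓ hA halg (σ : L →+* L) hσ
  have hstab : σ ∈ A.decompositionSubgroup K := by
    rw [MulAction.mem_stabilizer_iff]
    ext x
    rw [ValuationSubring.mem_pointwise_smul_iff_inv_smul_mem, hmem]
    have : σ (σ⁻¹ • x) = x := by
      change σ (σ⁻¹ x) = x
      exact AlgEquiv.apply_symm_apply σ x
    rw [this]
  refine ⟨hstab, fun x => ?_⟩
  obtain ⟨x, rfl⟩ := IsLocalRing.residue_surjective x
  rw [← IsLocalRing.ResidueField.residue_smul, ← map_pow, ← sub_eq_zero, ← map_sub,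
    IsLocalRing.residue_eq_zero_iff, ValuationSubring.valuation_lt_one_iff]
  exact valuation_map_sub_pow_lt_one A ℓ hℓ hA halg (σ : L →+* L) hσ x x.2

end Fermat.Agent.Lib.FrobAssemble
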