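import Fermat.Agent.S54.Frobenius

set_option autoImplicit false

namespace Fermat.Agent.Lib.Frobenius

/-- Every prime has a place of `AlgebraicClosure ℚ` above it. -/
theorem exists_liesOverPrime {ℓ : ℕ} (hℓ : ℓ.Prime) :
    ∃ A : ValuationSubring (AlgebraicClosure ℚ), A.LiesOverPrime ℓ :=
  Fermat.Agent.S54.Frobenius.exists_liesOverPrime hℓ

/-- Every place above a prime `ℓ` has a Frobenius element. -/
theorem exists_isFrobeniusAt (A : ValuationSubring (AlgebraicClosure ℚ)) {ℓ : ℕ} (hℓ : ℓ.Prime)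
    (hA : A.LiesOverPrime ℓ) :
    ∃ σ : AlgebraicClosure ℚ ≃ₐ[ℚ] AlgebraicClosure ℚ, A.IsFrobeniusAt σ ℓ :=
  Fermat.Agent.S54.Frobenius.exists_isFrobeniusAt A hℓ hA

/-- Frobenius elements exist at every prime. -/
theorem exists_frobenius {ℓ : ℕ} (hℓ : ℓ.Prime) :
    ∃ (A : ValuationSubring (AlgebraicClosure ℚ))
      (σ : AlgebraicClosure ℚ ≃ₐ[ℚ] AlgebraicClosure ℚ),
      A.LiesOverPrime ℓ ∧ A.IsFrobeniusAt σ ℓ :=
  Fermat.Agent.S54.Frobenius.exists_frobenius hℓ

/-- `AlgebraicClosure ℚ` is an algebraic closure of `ℚ` for the `DivisionRing.toRatAlgebra`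
algebra structure used by the frozen statements. -/
theorem isAlgClosure_rat : IsAlgClosure ℚ (AlgebraicClosure ℚ) :=
  Fermat.Agent.S54.Frobenius.isAlgClosure_rat

end Fermat.Agent.Lib.Frobenius
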