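import Mathlib
import Fermat.Agent.S14.Analytic.PrimeSums
import Fermat.Agent.S52.Irr.QuadSplit

/-!
# Primes modulo which a non-`p`-th power stays a non-`p`-th power

For a number field `F ∋ ζ_p` and `β ∈ 𝓞 F` which is not a `p`-th power in `F`, outside every
finite set of primes there is a prime of prime norm modulo which `β` is not a `p`-th power.
Equivalently: an element that is a `p`-th power modulo almost all primes (of degree one) is a
`p`-th power; a Kummer extension of degree `p` in which almost all primes split completely is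
trivial.  Proof: comparison of the prime sums of `F` and `F(β^(1/p))` near `s = 1`
(`S14.Analytic.PrimeSums`), with the Kummer splitting of `S52.Irr.QuadSplit`.
-/

set_option autoImplicit false

universe u

open scoped NumberField nonZeroDivisors
open Polynomial NumberField IsDedekindDomain

namespace Fermat.Agent.Lib.NonPowerPrime

open Fermat.Agent.S14.Analytic Fermat.Agent.S52.Irr

/-- Each prime term is at most `1`. -/
theorem term_le_one {F : Type*} [Field F] [NumberField F] (v : HeightOneSpectrum (𝓞 F)) {s : ℝ}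
    (hs : 0 ≤ s) : ((Ideal.absNorm v.asIdeal : ℕ) : ℝ) ^ (-s) ≤ 1 := by
  have h1 : (1 : ℝ) ≤ ((Ideal.absNorm v.asIdeal : ℕ) : ℝ) := by
    have h0 : Ideal.absNorm v.asIdeal ≠ 0 := by
      rw [Ne, Ideal.absNorm_eq_zero_iff]
      exact v.ne_bot
    exact_mod_cast Nat.one_le_iff_ne_zero.mpr h0
  exact Real.rpow_le_one_of_one_le_of_nonpos h1 (by linarith)

/-- **Non-`p`-th-power primes.** Let `F` be a number field containing a primitive `p`-th root of
unity and let `β ∈ 𝓞 F` be not a `p`-th power in `F`.  Outside every finite set of primes there is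
a prime of `𝓞 F` of prime absolute norm modulo which `β` is not a `p`-th power. -/
theorem exists_nonpower_prime {p : ℕ} [Fact p.Prime] {F : Type u} [Field F] [NumberField F]
    {ζ : F} (hζ : IsPrimitiveRoot ζ p) (β : 𝓞 F)
    (hβ : ¬ ∃ t : F, (β : F) = t ^ p) (T₀ : Finset (HeightOneSpectrum (𝓞 F))) :
    ∃ v : HeightOneSpectrum (𝓞 F), v ∉ T₀ ∧ (Ideal.absNorm v.asIdeal).Prime ∧
      ¬ ∃ t : 𝓞 F, β - t ^ p ∈ v.asIdeal := by
  classical
  by_contra hcon
  push Not at hcon
  have hp : p.Prime := Fact.out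
  have hp2 : (2 : ℝ) ≤ (p : ℝ) := by exact_mod_cast hp.two_le
  obtain ⟨M, iF, iN, iA, -, hM⟩ := QuadSplit.exists_field_sum hζ β hβ
  obtain ⟨CK, hCK⟩ := PrimeSums.prime_sum_bound F
  obtain ⟨CM, hCM⟩ := PrimeSums.prime_sum_bound M
  obtain ⟨Cnp, hCnp⟩ := PrimeSums.nonprime_norm_bound F
  have hβ0 : β ≠ 0 := by
    rintro rfl
    exact hβ ⟨0, by simp [hp.ne_zero]⟩
  have h2β : Ideal.span {((p : ℕ) : 𝓞 F) * β} ≠ 0 := by
    rw [Ne, Ideal.zero_eq_bot, Ideal.span_singleton_eq_bot]
    exact mul_ne_zero (by exact_mod_cast hp.ne_zero) hβ0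
  have hfin : {v : HeightOneSpectrum (𝓞 F) |
      v.asIdeal ∣ Ideal.span {((p : ℕ) : 𝓞 F) * β}}.Finite :=
    Ideal.finite_factors h2β
  set Tb : Finset (HeightOneSpectrum (𝓞 F)) := T₀ ∪ hfin.toFinset with hTb
  set nb : ℝ := (Tb.card : ℝ) with hnb
  have hnb0 : 0 ≤ nb := by rw [hnb]; positivity
  have hCnp0 : 0 ≤ Cnp := by
    have := hCnp 2 (by norm_num) ∅ (by simp)
    simpa using this
  set R : ℝ := (p : ℝ) * CK + CM + (p : ℝ) * (Cnp + nb) with hR
  have main : ∀ s : ℝ, 1 < s → s ≤ 2 → ((p : ℝ) - 1) * Real.log (1 / (s - 1)) ≤ R := by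
    intro s hs1 hs2
    set a : HeightOneSpectrum (𝓞 F) → ℝ := fun v => ((Ideal.absNorm v.asIdeal : ℕ) : ℝ) ^ (-s)
      with ha
    set aM : HeightOneSpectrum (𝓞 M) → ℝ := fun w => ((Ideal.absNorm w.asIdeal : ℕ) : ℝ) ^ (-s)
      with haM
    have ha0 : ∀ v, 0 ≤ a v := fun v => Real.rpow_nonneg (Nat.cast_nonneg _) _
    have haM0 : ∀ w, 0 ≤ aM w := fun w => Real.rpow_nonneg (Nat.cast_nonneg _) _
    have hsa : Summable a := PrimeSums.summable_primes F hs1
    have hsaM : Summable aM := PrimeSums.summable_primes M hs1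
    set PK : ℝ := ∑' v, a v with hPK
    set PM : ℝ := ∑' w, aM w with hPM
    have hPKle : PK ≤ PM / p + Cnp + nb := by
      rw [hPK]
      refine Real.tsum_le_of_sum_le ha0 fun T => ?_
      set T1 : Finset (HeightOneSpectrum (𝓞 F)) := T.filter fun v =>
        (Ideal.absNorm v.asIdeal).Prime ∧ v ∉ Tb with hT1
      set T2 : Finset (HeightOneSpectrum (𝓞 F)) := T.filter fun v =>
        ¬ (Ideal.absNorm v.asIdeal).Prime with hT2
      set T3 : Finset (HeightOneSpectrum (𝓞 F)) := T.filter fun v => v ∈ Tb with hT3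
      have hpt : ∀ v ∈ T, a v ≤
          (if (Ideal.absNorm v.asIdeal).Prime ∧ v ∉ Tb then a v else 0) +
          (if ¬ (Ideal.absNorm v.asIdeal).Prime then a v else 0) +
          (if v ∈ Tb then a v else 0) := by
        intro v _
        have := ha0 v
        by_cases h2 : (Ideal.absNorm v.asIdeal).Prime <;> by_cases h3 : v ∈ Tb <;>
          simp [h2, h3, this]
      have hsum := Finset.sum_le_sum hpt
      rw [Finset.sum_add_distrib, Finset.sum_add_distrib, ← Finset.sum_filter, ← Finset.sum_filter,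
        ← Finset.sum_filter] at hsum
      have h1 : ∑ v ∈ T1, a v ≤ PM / p := by
        obtain ⟨T', -, hT'⟩ := hM T1 (fun v hv => by
          rw [hT1, Finset.mem_filter] at hv
          obtain ⟨-, hprime, hnot⟩ := hv
          have hv0 : v ∉ T₀ := fun h => hnot (Finset.mem_union_left _ h)
          have hvb : ¬ v.asIdeal ∣ Ideal.span {((p : ℕ) : 𝓞 F) * β} := fun h =>
            hnot (Finset.mem_union_right _ ((Set.Finite.mem_toFinset hfin).mpr h))
          rw [Ideal.dvd_span_singleton] at hvb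
          refine ⟨?_, ?_, hcon v hv0 hprime⟩
          · intro h2
            exact hvb (v.asIdeal.mul_mem_right _ h2)
          · intro hb
            exact hvb (v.asIdeal.mul_mem_left _ hb))
        have h := hT' (fun n => ((n : ℕ) : ℝ) ^ (-s))
        have h' : ∑ w ∈ T', aM w ≤ PM := hsaM.sum_le_tsum T' (fun w _ => haM0 w)
        rw [le_div_iff₀ (by linarith : (0 : ℝ) < p), mul_comm]
        calc (p : ℝ) * ∑ v ∈ T1, a v = ∑ w ∈ T', aM w := h.symm
          _ ≤ PM := h'
      have h2 : ∑ v ∈ T2, a v ≤ Cnp := hCnp s hs1 T2 (fun w hw => by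
        rw [hT2, Finset.mem_filter] at hw
        exact hw.2)
      have h3 : ∑ v ∈ T3, a v ≤ nb := by
        calc ∑ v ∈ T3, a v ≤ ∑ v ∈ T3, (1 : ℝ) :=
              Finset.sum_le_sum fun v _ => term_le_one v (by linarith)
          _ = (T3.card : ℝ) := by simp
          _ ≤ nb := by
              rw [hnb]
              exact_mod_cast Finset.card_le_card (fun v hv => (Finset.mem_filter.mp hv).2)
      linarith
    have hK := abs_le.mp (hCK s hs1 hs2)
    have hMb := abs_le.mp (hCM s hs1 hs2)
    have hppos : (0 : ℝ) < p := by linarith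
    have e1 : (p : ℝ) * PK ≤ PM + (p : ℝ) * (Cnp + nb) := by
      have := mul_le_mul_of_nonneg_left hPKle hppos.le
      have e : (p : ℝ) * (PM / p + Cnp + nb) = PM + (p : ℝ) * (Cnp + nb) := by
        field_simp
        ring
      linarith
    have e2 : (p : ℝ) * (Real.log (1 / (s - 1)) - CK) ≤ (p : ℝ) * PK :=
      mul_le_mul_of_nonneg_left (by linarith [hK.1]) hppos.le
    rw [hR]
    nlinarith [hK.1, hMb.2]
  -- contradiction at `s = 1 + exp (-(R' + 1))`
  set R' : ℝ := max R 0 with hR'
  have hR'0 : 0 ≤ R' := le_max_right _ _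
  have hRR' : R ≤ R' := le_max_left _ _
  have hs1 : 1 < 1 + Real.exp (-(R' + 1)) := by linarith [Real.exp_pos (-(R' + 1))]
  have hs2 : 1 + Real.exp (-(R' + 1)) ≤ 2 := by
    have : Real.exp (-(R' + 1)) ≤ 1 := Real.exp_le_one_iff.mpr (by linarith)
    linarith
  have hlog : Real.log (1 / (1 + Real.exp (-(R' + 1)) - 1)) = R' + 1 := by
    rw [add_sub_cancel_left, one_div, Real.log_inv, Real.log_exp, neg_neg]
  have h := main _ hs1 hs2
  rw [hlog] at h
  nlinarith

end Fermat.Agent.Lib.NonPowerPrime
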