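import Mathlib
import Fermat.Agent.S54.Frobenius
import Fermat.Prelude.Def_FLTPrelim_Ramification
import Fermat.Prelude.Def_GaloisRep_Residual

set_option autoImplicit false

open scoped Pointwise NumberField

namespace Fermat.Agent.Lib.MinkowskiBridge

open Fermat.Agent.S54.Frobenius

section general

variable {K L : Type*} [Field K] [Field L] [Algebra K L]

/-- Valuation-theoretic description of the inertia subgroup of a valuation subring. -/
theorem mem_inertiaSubgroupIn_iff (A : ValuationSubring L) (σ : L ≃ₐ[K] L) :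
    σ ∈ A.inertiaSubgroupIn K ↔
      σ ∈ A.decompositionSubgroup K ∧ ∀ x ∈ A, A.valuation (σ x - x) < 1 := by
  unfold ValuationSubring.inertiaSubgroupIn
  rw [Subgroup.mem_map]
  constructor
  · rintro ⟨d, hd, rfl⟩
    refine ⟨d.2, fun x hx => ?_⟩
    have h1 : MulSemiringAction.toRingAut (A.decompositionSubgroup K)
        (IsLocalRing.ResidueField A) d = 1 := hd
    have h2 := congrArg (fun f => f (IsLocalRing.residue A ⟨x, hx⟩)) h1
    simp only [MulSemiringAction.toRingAut_apply, RingAut.one_apply] at h2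
    change d • (IsLocalRing.residue A ⟨x, hx⟩) = IsLocalRing.residue A ⟨x, hx⟩ at h2
    rw [← IsLocalRing.ResidueField.residue_smul, ← sub_eq_zero, ← map_sub,
      IsLocalRing.residue_eq_zero_iff, ValuationSubring.valuation_lt_one_iff] at h2
    exact h2
  · rintro ⟨hd, h⟩
    refine ⟨⟨σ, hd⟩, ?_, rfl⟩
    show MulSemiringAction.toRingAut (A.decompositionSubgroup K)
        (IsLocalRing.ResidueField A) ⟨σ, hd⟩ = 1
    ext y
    obtain ⟨a, rfl⟩ := IsLocalRing.residue_surjective y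
    simp only [MulSemiringAction.toRingAut_apply, RingAut.one_apply]
    change (⟨σ, hd⟩ : A.decompositionSubgroup K) • (IsLocalRing.residue A a) =
      IsLocalRing.residue A a
    rw [← IsLocalRing.ResidueField.residue_smul, ← sub_eq_zero, ← map_sub,
      IsLocalRing.residue_eq_zero_iff, ValuationSubring.valuation_lt_one_iff]
    exact h a a.2

end general

/-- Minkowski, Galois form: a Galois number field `K ≠ ℚ` has a prime `p` such that the
inertia group of every prime of `𝓞 K` over `p` is non-trivial. -/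
theorem exists_ne_one_mem_inertia {K : Type*} [Field K] [NumberField K] [IsGalois ℚ K]
    (H : 1 < Module.finrank ℚ K) :
    ∃ p : ℕ, p.Prime ∧ ∀ (P : Ideal (𝓞 K)), P.IsPrime → (p : 𝓞 K) ∈ P →
      ∃ τ : K ≃ₐ[ℚ] K, τ ≠ 1 ∧ ∀ x : 𝓞 K, ∃ y ∈ P, (y : K) = τ (x : K) - (x : K) := by
  let _ : MulSemiringAction Gal(K/ℚ) (𝓞 K) := IsIntegralClosure.MulSemiringAction ℤ ℚ K (𝓞 K)
  have := IsGaloisGroup.of_isFractionRing Gal(K/ℚ) ℤ (𝓞 K) ℚ K
  obtain ⟨p, hp, h⟩ := NumberField.exists_not_isUnramifiedAt_int_of_isGalois (K := K) (𝒪 := 𝓞 K) H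
  refine ⟨p, hp, fun P hP hpP => ?_⟩
  have hunr := h P hP hpP
  rw [← Ideal.ramificationIdx_eq_one_iff,
    ← Ideal.ramificationIdxIn_eq_ramificationIdx (P.under ℤ) P Gal(K/ℚ),
    ← Ideal.card_inertia_eq_ramificationIdxIn (G := Gal(K/ℚ)) (P.under ℤ) P] at hunr
  have hex : ∃ τ : Gal(K/ℚ), τ ∈ Ideal.inertia Gal(K/ℚ) P ∧ τ ≠ 1 := by
    by_contra hcon
    push Not at hcon
    apply hunr
    have : Subsingleton ↥(Ideal.inertia Gal(K/ℚ) P) :=
      ⟨fun a b => Subtype.ext ((hcon a.1 a.2).trans (hcon b.1 b.2).symm)⟩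
    exact Nat.card_unique
  obtain ⟨τ, hτ, hτ1⟩ := hex
  refine ⟨τ, hτ1, fun x => ⟨τ • x - x, ?_, ?_⟩⟩
  · exact (AddSubgroup.mem_inertia.mp hτ) x
  · have h1 : ((τ • x : 𝓞 K) : K) = τ (x : K) :=
      algebraMap_galRestrict_apply ℤ τ x
    rw [← h1]
    rfl

section rat

local notation "Qb" => AlgebraicClosure ℚ
local notation "Γ" => (AlgebraicClosure ℚ ≃ₐ[ℚ] AlgebraicClosure ℚ)
local notation "Bint" => integralClosure ℤ (AlgebraicClosure ℚ)

attribute [local instance] isAlgClosure_rat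

theorem valuation_int_le_one (A : ValuationSubring Qb) (b : Bint) : A.valuation (b : Qb) ≤ 1 :=
  (A.valuation_le_one_iff _).mpr (mem_of_isIntegral_int A b.2)

theorem smul_int_coe (g : Γ) (b : Bint) : ((g • b : Bint) : Qb) = g (b : Qb) := rfl

/-- An automorphism stabilising the prime of the ring of all algebraic integers cut out by `A`
lies in the decomposition group of `A`. -/
theorem mem_decompositionSubgroup_of_smul_primeOf (A : ValuationSubring Qb) {ℓ : ℕ}
    (hℓ : ℓ.Prime) (hA : A.LiesOverPrime ℓ) (g : Γ) (hg : g • primeOf A = primeOf A) :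
    g ∈ A.decompositionSubgroup ℚ := by
  have hv : A.valuation ((ℓ : ℕ) : Qb) < 1 := A.mem_nonunits_iff.mp hA
  have hstab : ∀ g : Γ, g • primeOf A = primeOf A → ∀ b : Bint,
      A.valuation (b : Qb) = 1 → A.valuation (g (b : Qb)) = 1 := by
    intro g hg b hb
    have h1 : g • b ∉ primeOf A := by
      intro h
      have h2 : g • b ∈ g • primeOf A := by rw [hg]; exact h
      have h3 : b ∈ primeOf A := (Ideal.smul_mem_pointwise_smul_iff).mp h2
      have h4 : A.valuation (b : Qb) < 1 := h3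
      rw [hb] at h4
      exact lt_irrefl _ h4
    have h4 := valuation_int_le_one A (g • b)
    exact le_antisymm h4 (not_lt.mp h1)
  have hmem : ∀ g : Γ, g • primeOf A = primeOf A → ∀ x ∈ A, g x ∈ A := by
    intro g hg x hx
    obtain ⟨s, t, hs, ht, hs1, hxs⟩ := exists_integral_fraction A hℓ hv hx (isAlgebraic_int x)
    have h1 : g x * g s = g t := by rw [← map_mul, hxs]
    have h2 : A.valuation (g s) = 1 := hstab g hg ⟨s, hs⟩ hs1
    have h3 : A.valuation (g t) ≤ 1 := valuation_int_le_one A (g • ⟨t, ht⟩)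
    rw [← A.valuation_le_one_iff]
    have h4 := congrArg A.valuation h1
    rw [map_mul, h2, mul_one] at h4
    rw [h4]; exact h3
  have hginv : g⁻¹ • primeOf A = primeOf A := by
    conv_lhs => rw [← hg]
    rw [inv_smul_smul]
  rw [MulAction.mem_stabilizer_iff]
  refine le_antisymm ?_ ?_
  · intro y hy
    obtain ⟨x, hx, rfl⟩ := (ValuationSubring.mem_smul_pointwise_iff_exists _ _ _).mp hy
    exact hmem g hg x hx
  · intro x hx
    rw [ValuationSubring.mem_pointwise_smul_iff_inv_smul_mem]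
    exact hmem g⁻¹ hginv x hx

/-- Packing lemma: an automorphism moving every algebraic integer by a non-unit of `A`
lies in the inertia group of `A`. -/
theorem mem_inertiaSubgroupIn_of_int (A : ValuationSubring Qb) {ℓ : ℕ}
    (hℓ : ℓ.Prime) (hA : A.LiesOverPrime ℓ) (g : Γ)
    (hg : ∀ b : Bint, A.valuation (g (b : Qb) - (b : Qb)) < 1) :
    g ∈ A.inertiaSubgroupIn ℚ := by
  have hv : A.valuation ((ℓ : ℕ) : Qb) < 1 := A.mem_nonunits_iff.mp hA
  have hle : ∀ g : Γ, (∀ b : Bint, A.valuation (g (b : Qb) - (b : Qb)) < 1) →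
      ∀ b ∈ primeOf A, g • b ∈ primeOf A := by
    intro g hg b hb
    rw [mem_primeOf, smul_int_coe]
    have h1 : g (b : Qb) = (g (b : Qb) - (b : Qb)) + (b : Qb) := by ring
    rw [h1]
    exact lt_of_le_of_lt (Valuation.map_add A.valuation _ _) (max_lt (hg b) hb)
  have hginv : ∀ b : Bint, A.valuation (g⁻¹ (b : Qb) - (b : Qb)) < 1 := by
    intro b
    have h1 := hg (g⁻¹ • b)
    rw [smul_int_coe] at h1
    have h2 : g (g⁻¹ (b : Qb)) = (b : Qb) := by
      show (g * g⁻¹) (b : Qb) = (b : Qb)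
      rw [mul_inv_cancel]; rfl
    rw [h2, ← Valuation.map_neg, neg_sub] at h1
    exact h1
  have hstab : g • primeOf A = primeOf A := by
    refine le_antisymm ?_ ?_
    · intro y hy
      have h1 : g⁻¹ • y ∈ primeOf A := Ideal.mem_pointwise_smul_iff_inv_smul_mem.mp hy
      have h2 := hle g hg _ h1
      rwa [smul_inv_smul] at h2
    · intro x hx
      exact Ideal.mem_pointwise_smul_iff_inv_smul_mem.mpr (hle g⁻¹ hginv x hx)
  have hdec := mem_decompositionSubgroup_of_smul_primeOf A hℓ hA g hstab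
  rw [mem_inertiaSubgroupIn_iff]
  refine ⟨hdec, fun x hx => ?_⟩
  obtain ⟨s, t, hs, ht, hs1, hxs⟩ := exists_integral_fraction A hℓ hv hx (isAlgebraic_int x)
  have hds := hg ⟨s, hs⟩
  have hdt := hg ⟨t, ht⟩
  have hgx : A.valuation (g x) ≤ 1 := by
    rw [A.valuation_le_one_iff]
    have h1 : g • A = A := MulAction.mem_stabilizer_iff.mp hdec
    rw [← h1]
    exact (ValuationSubring.mem_smul_pointwise_iff_exists _ _ _).mpr ⟨x, hx, rfl⟩
  have key : (g x - x) * s = (g t - t) - g x * (g s - s) := by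
    have h1 : g x * g s = g t := by rw [← map_mul, hxs]
    linear_combination h1 - hxs
  have h5 := congrArg A.valuation key
  rw [map_mul, hs1, mul_one] at h5
  rw [h5]
  refine lt_of_le_of_lt (Valuation.map_sub A.valuation _ _) (max_lt hdt ?_)
  rw [map_mul]
  exact lt_of_le_of_lt (mul_le_of_le_one_left' hgx) hds

/-- Packing lemma, `IsIntegral` form. -/
theorem mem_inertiaSubgroupIn_of_isIntegral (A : ValuationSubring Qb) {ℓ : ℕ}
    (hℓ : ℓ.Prime) (hA : A.LiesOverPrime ℓ) (g : Γ)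
    (hg : ∀ x : Qb, IsIntegral ℤ x → g x - x ∈ A.nonunits) :
    g ∈ A.inertiaSubgroupIn ℚ :=
  mem_inertiaSubgroupIn_of_int A hℓ hA g fun b => A.mem_nonunits_iff.mp (hg b b.2)

/-- Elements of the inertia group move elements of `A` by non-units. -/
theorem sub_mem_nonunits_of_mem_inertia {K L : Type*} [Field K] [Field L] [Algebra K L]
    (A : ValuationSubring L) {σ : L ≃ₐ[K] L} (hσ : σ ∈ A.inertiaSubgroupIn K) {x : L}
    (hx : x ∈ A) : σ x - x ∈ A.nonunits :=
  A.mem_nonunits_iff.mpr (((mem_inertiaSubgroupIn_iff A σ).mp hσ).2 x hx)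

theorem smulCommClass_fix (F : IntermediateField ℚ Qb) :
    SMulCommClass ↥F.fixingSubgroup (FixedPoints.subalgebra ℤ Bint ↥F.fixingSubgroup) Bint :=
  ⟨fun g a b => by
    show g • ((a : Bint) * b) = (a : Bint) * g • b
    rw [smul_mul', a.2 g]⟩

theorem isInvariant_fix (F : IntermediateField ℚ Qb) :
    Algebra.IsInvariant (FixedPoints.subalgebra ℤ Bint ↥F.fixingSubgroup) Bint
      ↥F.fixingSubgroup :=
  ⟨fun b hb => ⟨⟨b, hb⟩, rfl⟩⟩

theorem valuation_lt_one_of_sub {A : ValuationSubring Qb} {x y : Qb}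
    (h : A.valuation (x - y) < 1) (hy : A.valuation y < 1) : A.valuation x < 1 := by
  have h1 : x = (x - y) + y := by ring
  rw [h1]
  exact lt_of_le_of_lt (Valuation.map_add A.valuation _ _) (max_lt h hy)

/-- Relative lifting: an automorphism of a finite normal subfield `F` that moves every
algebraic integer of `F` by a non-unit of `A` extends to an element of the inertia group of `A`. -/
theorem exists_mem_inertia_restrict (A : ValuationSubring Qb) {ℓ : ℕ} (hℓ : ℓ.Prime)
    (hA : A.LiesOverPrime ℓ) (F : IntermediateField ℚ Qb) [FiniteDimensional ℚ F] [Normal ℚ F]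
    (τ : F ≃ₐ[ℚ] F)
    (hτ : ∀ x : F, IsIntegral ℤ (x : Qb) → A.valuation ((τ x : Qb) - (x : Qb)) < 1) :
    ∃ σ : Γ, σ ∈ A.inertiaSubgroupIn ℚ ∧ ∀ x : F, σ (x : Qb) = τ x := by
  classical
  obtain ⟨γ, hγ⟩ := AlgEquiv.restrictNormalHom_surjective (F := ℚ) (K₁ := F) Qb τ
  have hγx : ∀ x : F, γ (x : Qb) = τ x := by
    intro x
    rw [← hγ]
    exact (AlgEquiv.restrictNormal_commutes γ F x).symm
  have : CompactSpace ↥F.fixingSubgroup :=
    isCompact_iff_compactSpace.mp F.fixingSubgroup_isClosed.isCompact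
  let _ : TopologicalSpace Bint := ⊥
  have : DiscreteTopology Bint := ⟨rfl⟩
  have := continuousSMul_int
  have : ContinuousSMul ↥F.fixingSubgroup Bint := inferInstance
  have := smulCommClass_fix F
  have := isInvariant_fix F
  have hfix : ∀ (g : ↥F.fixingSubgroup) (x : F), (g : Γ) (x : Qb) = x := fun g x =>
    (IntermediateField.mem_fixingSubgroup_iff F g.1).mp g.2 x x.2
  have hA'F : ∀ a : FixedPoints.subalgebra ℤ Bint ↥F.fixingSubgroup, ((a : Bint) : Qb) ∈ F := by
    intro a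
    have h1 : ((a : Bint) : Qb) ∈ IntermediateField.fixedField F.fixingSubgroup := by
      rw [IntermediateField.mem_fixedField_iff]
      intro g hg
      exact congrArg Subtype.val (a.2 ⟨g, hg⟩)
    rwa [InfiniteGalois.fixedField_fixingSubgroup F] at h1
  have hQprime : (primeOf A).IsPrime := primeOf_isPrime A
  have hγA' : ∀ a : FixedPoints.subalgebra ℤ Bint ↥F.fixingSubgroup,
      A.valuation (γ ((a : Bint) : Qb) - ((a : Bint) : Qb)) < 1 := by
    intro a
    have h1 := hτ ⟨_, hA'F a⟩ (a : Bint).2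
    rw [← hγx] at h1
    exact h1
  have : (γ⁻¹ • primeOf A).IsPrime := (Ideal.IsPrime.smul_iff γ⁻¹).mpr hQprime
  have hunder : (primeOf A).under (FixedPoints.subalgebra ℤ Bint ↥F.fixingSubgroup) =
      (γ⁻¹ • primeOf A).under (FixedPoints.subalgebra ℤ Bint ↥F.fixingSubgroup) := by
    ext a
    show (a : Bint) ∈ primeOf A ↔ (a : Bint) ∈ γ⁻¹ • primeOf A
    rw [Ideal.mem_inv_pointwise_smul_iff, mem_primeOf, mem_primeOf, smul_int_coe]
    constructor
    · intro h
      exact valuation_lt_one_of_sub (hγA' a) h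
    · intro h
      refine valuation_lt_one_of_sub ?_ h
      rw [← Valuation.map_neg, neg_sub]
      exact hγA' a
  obtain ⟨h, hh⟩ := Algebra.IsInvariant.exists_smul_of_under_eq_of_profinite
    (A := FixedPoints.subalgebra ℤ Bint ↥F.fixingSubgroup) (G := ↥F.fixingSubgroup)
    (primeOf A) (γ⁻¹ • primeOf A) hunder
  have hγ'Q : (γ * (h : Γ)) • primeOf A = primeOf A := by
    rw [mul_smul]
    have h1 : (h : Γ) • primeOf A = γ⁻¹ • primeOf A := hh.symm
    rw [h1, smul_inv_smul]
  have hγ'x : ∀ x : F, (γ * (h : Γ)) (x : Qb) = τ x := by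
    intro x
    show γ ((h : Γ) (x : Qb)) = τ x
    rw [hfix h x]
    exact hγx x
  let E₀ : (Bint ⧸ primeOf A) ≃ₐ[ℤ ⧸ (primeOf A).under ℤ] (Bint ⧸ primeOf A) :=
    Ideal.Quotient.stabilizerHom (primeOf A) ((primeOf A).under ℤ) Γ ⟨γ * (h : Γ), hγ'Q⟩
  have hE₀ : ∀ b : Bint, E₀ (Ideal.Quotient.mk _ b) = Ideal.Quotient.mk _ ((γ * (h : Γ)) • b) :=
    fun b => rfl
  let E : (Bint ⧸ primeOf A) ≃ₐ[FixedPoints.subalgebra ℤ Bint ↥F.fixingSubgroup ⧸
      (primeOf A).under (FixedPoints.subalgebra ℤ Bint ↥F.fixingSubgroup)] (Bint ⧸ primeOf A) :=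
    AlgEquiv.ofRingEquiv (f := E₀.toRingEquiv) (by
      intro x
      obtain ⟨a, rfl⟩ := Ideal.Quotient.mk_surjective x
      show E₀ (Ideal.Quotient.mk _ (a : Bint)) = Ideal.Quotient.mk _ (a : Bint)
      rw [hE₀, Ideal.Quotient.eq, mem_primeOf]
      show A.valuation (γ ((h : Γ) ((a : Bint) : Qb)) - ((a : Bint) : Qb)) < 1
      have h1 : (h : Γ) ((a : Bint) : Qb) = ((a : Bint) : Qb) := congrArg Subtype.val (a.2 h)
      rw [h1]
      exact hγA' a)
  obtain ⟨h', hh'⟩ := Ideal.Quotient.stabilizerHom_surjective_of_profinite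
    (G := ↥F.fixingSubgroup)
    ((primeOf A).under (FixedPoints.subalgebra ℤ Bint ↥F.fixingSubgroup)) (primeOf A) E
  refine ⟨(γ * (h : Γ)) * ((h'.1 : ↥F.fixingSubgroup) : Γ)⁻¹, ?_, ?_⟩
  · refine mem_inertiaSubgroupIn_of_int A hℓ hA _ (fun b => ?_)
    have h1 := congrArg (fun f => f (Ideal.Quotient.mk _ (((h'.1 : ↥F.fixingSubgroup) : Γ)⁻¹ • b)))
      hh'
    simp only [Ideal.Quotient.stabilizerHom_apply] at h1
    have h2 : E (Ideal.Quotient.mk _ (((h'.1 : ↥F.fixingSubgroup) : Γ)⁻¹ • b)) =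
        Ideal.Quotient.mk _ ((γ * (h : Γ)) • (((h'.1 : ↥F.fixingSubgroup) : Γ)⁻¹ • b)) := rfl
    rw [h2] at h1
    have h3 : h' • (((h'.1 : ↥F.fixingSubgroup) : Γ)⁻¹ • b) = b := by
      show ((h'.1 : ↥F.fixingSubgroup) : Γ) • (((h'.1 : ↥F.fixingSubgroup) : Γ)⁻¹ • b) = b
      rw [smul_inv_smul]
    rw [h3] at h1
    have h4 := (Ideal.Quotient.eq.mp h1.symm)
    rw [mem_primeOf] at h4
    exact h4
  · intro x
    show (γ * (h : Γ)) ((((h'.1 : ↥F.fixingSubgroup) : Γ)⁻¹) (x : Qb)) = τ x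
    have h1 : (((h'.1 : ↥F.fixingSubgroup) : Γ)⁻¹) (x : Qb) = x := hfix (h'.1)⁻¹ x
    rw [h1]
    exact hγ'x x

theorem valuation_ringOfIntegers_le_one (A : ValuationSubring Qb) (F : IntermediateField ℚ Qb)
    (c : 𝓞 F) : A.valuation (((c : F) : Qb)) ≤ 1 :=
  (A.valuation_le_one_iff _).mpr (mem_of_isIntegral_int A
    (map_isIntegral_int (algebraMap F Qb) (NumberField.RingOfIntegers.isIntegral_coe c)))

/-- The prime of `𝓞 F` below `A`. -/
def primeBelow (A : ValuationSubring Qb) (F : IntermediateField ℚ Qb) : Ideal (𝓞 F) where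
  carrier := {y | A.valuation (((y : F) : Qb)) < 1}
  add_mem' := fun {a b} ha hb => by
    show A.valuation ((((a + b : 𝓞 F) : F) : Qb)) < 1
    have h1 : ((((a + b : 𝓞 F) : F) : Qb)) = ((a : F) : Qb) + ((b : F) : Qb) := by
      simp
    rw [h1]
    exact lt_of_le_of_lt (Valuation.map_add A.valuation _ _) (max_lt ha hb)
  zero_mem' := by simp
  smul_mem' := fun c {b} hb => by
    show A.valuation ((((c * b : 𝓞 F) : F) : Qb)) < 1
    have h1 : ((((c * b : 𝓞 F) : F) : Qb)) = ((c : F) : Qb) * ((b : F) : Qb) := by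
      simp
    rw [h1, map_mul]
    exact lt_of_le_of_lt (mul_le_of_le_one_left' (valuation_ringOfIntegers_le_one A F c)) hb

theorem mem_primeBelow (A : ValuationSubring Qb) (F : IntermediateField ℚ Qb) (y : 𝓞 F) :
    y ∈ primeBelow A F ↔ A.valuation (((y : F) : Qb)) < 1 := Iff.rfl

theorem primeBelow_isPrime (A : ValuationSubring Qb) (F : IntermediateField ℚ Qb) :
    (primeBelow A F).IsPrime := by
  refine ⟨?_, ?_⟩
  · intro h
    have h1 : (1 : 𝓞 F) ∈ primeBelow A F := h ▸ Submodule.mem_top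
    rw [mem_primeBelow] at h1
    simp at h1
  · intro a b hab
    rw [mem_primeBelow] at hab
    by_contra hcon
    push Not at hcon
    rw [mem_primeBelow, mem_primeBelow, not_lt, not_lt] at hcon
    have h1 : ((((a * b : 𝓞 F) : F) : Qb)) = ((a : F) : Qb) * ((b : F) : Qb) := by
      simp
    rw [h1, map_mul] at hab
    exact absurd hab (not_lt.mpr (one_le_mul_of_one_le_of_one_le hcon.1 hcon.2))

/-- Minkowski on the absolute Galois group: a finite normal extension `F ≠ ℚ` inside `ℚ̄` has a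
prime `p` such that *every* inertia group above `p` acts non-trivially on `F`. -/
theorem exists_inertia_not_fixing (F : IntermediateField ℚ Qb) [FiniteDimensional ℚ F]
    [Normal ℚ F] (hF : F ≠ ⊥) :
    ∃ p : ℕ, p.Prime ∧ ∀ A : ValuationSubring Qb, A.LiesOverPrime p →
      ∃ σ : Γ, σ ∈ A.inertiaSubgroupIn ℚ ∧ ∃ x ∈ F, σ x ≠ x := by
  have hnf : NumberField F := ⟨⟩
  have hgal : IsGalois ℚ F := ⟨⟩
  have H : 1 < Module.finrank ℚ F := by
    have h1 : 0 < Module.finrank ℚ F := Module.finrank_pos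
    have h2 : Module.finrank ℚ F ≠ 1 := fun h => hF (IntermediateField.finrank_eq_one_iff.mp h)
    omega
  obtain ⟨p, hp, h⟩ := exists_ne_one_mem_inertia (K := F) H
  refine ⟨p, hp, fun A hA => ?_⟩
  have hv : A.valuation ((p : ℕ) : Qb) < 1 := A.mem_nonunits_iff.mp hA
  obtain ⟨τ, hτ1, hτ⟩ := h (primeBelow A F) (primeBelow_isPrime A F) (by
    rw [mem_primeBelow]
    simpa using hv)
  obtain ⟨σ, hσ, hσx⟩ := exists_mem_inertia_restrict A hp hA F τ (by
    intro x hx
    have hx' : IsIntegral ℤ x := (isIntegral_algebraMap_iff (algebraMap F Qb).injective).mp hx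
    obtain ⟨x', rfl⟩ : ∃ x' : 𝓞 F, (x' : F) = x := ⟨⟨x, hx'⟩, rfl⟩
    obtain ⟨y, hy, hyx⟩ := hτ x'
    rw [mem_primeBelow, hyx] at hy
    simpa using hy)
  refine ⟨σ, hσ, ?_⟩
  by_contra hcon
  push Not at hcon
  apply hτ1
  ext x
  have h1 := hcon x x.2
  rw [hσx x] at h1
  exact_mod_cast h1

/-- **Minkowski bridge** (open normal form). An open normal subgroup of `Gal(ℚ̄/ℚ)` containing,
for each prime `q`, the inertia group of *some* valuation subring over `q`, is everything. -/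
theorem eq_top_of_isOpen_of_inertia_le (H : Subgroup Γ) [hn : H.Normal]
    (hopen : IsOpen (H : Set Γ))
    (hI : ∀ q : ℕ, q.Prime → ∃ A : ValuationSubring Qb,
      A.LiesOverPrime q ∧ A.inertiaSubgroupIn ℚ ≤ H) : H = ⊤ := by
  have hclosed : IsClosed (H : Set Γ) := Subgroup.isClosed_of_isOpen H hopen
  have hfix : (IntermediateField.fixedField H).fixingSubgroup = H :=
    InfiniteGalois.fixingSubgroup_fixedField (⟨H, hclosed⟩ : ClosedSubgroup Γ)
  have hfin : FiniteDimensional ℚ (IntermediateField.fixedField H) :=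
    (InfiniteGalois.isOpen_iff_finite _).mp (by rw [hfix]; exact hopen)
  have hgal : IsGalois ℚ (IntermediateField.fixedField H) :=
    (InfiniteGalois.normal_iff_isGalois _).mp (by rw [hfix]; exact hn)
  by_cases hF : IntermediateField.fixedField H = ⊥
  · rw [← hfix, hF, IntermediateField.fixingSubgroup_bot]
  · exfalso
    obtain ⟨p, hp, h⟩ := exists_inertia_not_fixing (IntermediateField.fixedField H) hF
    obtain ⟨A, hA, hIA⟩ := hI p hp
    obtain ⟨σ, hσ, x, hx, hσx⟩ := h A hA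
    exact hσx ((IntermediateField.mem_fixedField_iff H x).mp hx σ (hIA hσ))

/-- **Minkowski bridge**, finite-level form. -/
theorem eq_top_of_inertia_le_of_normal (H : Subgroup Γ) [H.Normal]
    (L : IntermediateField ℚ Qb) [FiniteDimensional ℚ L] (hL : L.fixingSubgroup ≤ H)
    (hI : ∀ q : ℕ, q.Prime → ∃ A : ValuationSubring Qb,
      A.LiesOverPrime q ∧ A.inertiaSubgroupIn ℚ ≤ H) : H = ⊤ :=
  eq_top_of_isOpen_of_inertia_le H (Subgroup.isOpen_mono hL L.fixingSubgroup_isOpen) hI

/-- **Minkowski bridge**, finite-level form with the hypothesis spelled out pointwise. -/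
theorem eq_top_of_inertia_le_of_normal' (H : Subgroup Γ) [H.Normal]
    (L : IntermediateField ℚ Qb) [FiniteDimensional ℚ L]
    (hL : ∀ σ : Γ, (∀ x ∈ L, σ x = x) → σ ∈ H)
    (hI : ∀ q : ℕ, q.Prime → ∃ A : ValuationSubring Qb,
      A.LiesOverPrime q ∧ A.inertiaSubgroupIn ℚ ≤ H) : H = ⊤ :=
  eq_top_of_inertia_le_of_normal H L
    (fun σ hσ => hL σ ((IntermediateField.mem_fixingSubgroup_iff L σ).mp hσ)) hI

/-- A homomorphism from `Gal(ℚ̄/ℚ)` to a monoid that factors through a finite level and is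
trivial on one inertia group above every prime is trivial. -/
theorem monoidHom_eq_one_of_unramified {M : Type*} [Monoid M] (φ : Γ →* M)
    (hφ : ∃ L : IntermediateField ℚ Qb, FiniteDimensional ℚ L ∧
      ∀ σ : Γ, (∀ x ∈ L, σ x = x) → φ σ = 1)
    (hI : ∀ q : ℕ, q.Prime → ∃ A : ValuationSubring Qb,
      A.LiesOverPrime q ∧ ∀ σ ∈ A.inertiaSubgroupIn ℚ, φ σ = 1) (σ : Γ) : φ σ = 1 := by
  let H : Subgroup Γ :=
    { carrier := {σ | φ σ = 1}
      mul_mem' := fun {a b} ha hb => by
        show φ (a * b) = 1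
        rw [map_mul, show φ a = 1 from ha, show φ b = 1 from hb, mul_one]
      one_mem' := map_one φ
      inv_mem' := fun {a} ha => by
        show φ a⁻¹ = 1
        have h1 : φ a⁻¹ * φ a = 1 := by rw [← map_mul, inv_mul_cancel, map_one]
        rwa [show φ a = 1 from ha, mul_one] at h1 }
  have hn : H.Normal := ⟨fun a ha g => by
    show φ (g * a * g⁻¹) = 1
    rw [map_mul, map_mul, show φ a = 1 from ha, mul_one, ← map_mul, mul_inv_cancel, map_one]⟩
  obtain ⟨L, hLfin, hL⟩ := hφ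
  have htop : H = ⊤ := eq_top_of_inertia_le_of_normal' H L hL hI
  have h1 : σ ∈ H := htop ▸ Subgroup.mem_top σ
  exact h1

/-- Prelude-shaped corollary: a representation factoring through a finite level and trivial on
one inertia group above every prime is trivial. -/
theorem eq_one_of_galoisFactorsThroughFiniteLevel {M : Type} [Monoid M] (ρ : Γ →* M)
    (hρ : GaloisFactorsThroughFiniteLevel ρ)
    (hI : ∀ q : ℕ, q.Prime → ∃ A : ValuationSubring Qb,
      A.LiesOverPrime q ∧ ∀ σ ∈ A.inertiaSubgroupIn ℚ, ρ σ = 1) (σ : Γ) : ρ σ = 1 :=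
  monoidHom_eq_one_of_unramified ρ hρ hI σ

end rat

end Fermat.Agent.Lib.MinkowskiBridge
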