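import Mathlib
import Fermat.Agent.Lib.Herbrand

/-!
# Herbrand quotients and Mathlib's group cohomology of finite cyclic groups

For a finite cyclic group `G` with generator `g` and `A : Rep k G`,
`Nat.card (groupCohomology A i)` is the index `[ker (ρ g - 1) : range N]` for even `i > 0`
and `[ker N : range (ρ g - 1)]` for odd `i` (`0` meaning infinite).
-/

set_option autoImplicit false

open CategoryTheory

namespace Fermat.Agent.Lib.Herbrand

universe u

section Rep

variable {k G : Type u} [CommRing k] [CommGroup G] [Fintype G] (A : Rep k G) (g : G)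

/-- `a ↦ ρ(g) a - a` as an additive endomorphism of the underlying group of a representation. -/
def repSub : A →+ A := (A.ρ g - LinearMap.id).toAddMonoidHom

/-- The norm `a ↦ ∑ τ, ρ(τ) a` as an additive endomorphism. -/
def repNorm : A →+ A := A.ρ.norm.toAddMonoidHom

omit [Fintype G] in
@[simp] lemma repSub_apply (a : A) : repSub A g a = A.ρ g a - a := rfl

@[simp] lemma repNorm_apply (a : A) : repNorm A a = ∑ τ : G, A.ρ τ a := by
  simp [repNorm, Representation.norm]

lemma repSub_comp_repNorm : (repSub A g).comp (repNorm A) = 0 := by
  ext a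
  simp only [AddMonoidHom.coe_comp, Function.comp_apply, repSub_apply, AddMonoidHom.zero_apply]
  have : A.ρ g (repNorm A a) = repNorm A a := by
    simp only [repNorm_apply, map_sum]
    refine Fintype.sum_equiv (Equiv.mulLeft g) _ _ (fun τ => ?_)
    simp [map_mul]
  rw [this, sub_self]

lemma repNorm_comp_repSub : (repNorm A).comp (repSub A g) = 0 := by
  ext a
  simp only [AddMonoidHom.coe_comp, Function.comp_apply, repSub_apply, AddMonoidHom.zero_apply]
  rw [map_sub, sub_eq_zero]
  simp only [repNorm_apply]
  refine Fintype.sum_equiv (Equiv.mulRight g) _ _ (fun τ => ?_)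
  simp [map_mul]

/-- Cardinality of the homology of a short complex of modules as a relative index. -/
lemma card_homology_eq_relIndex (S : ShortComplex (ModuleCat.{u} k)) :
    Nat.card S.homology
      = (LinearMap.range S.f.hom).toAddSubgroup.relIndex (LinearMap.ker S.g.hom).toAddSubgroup := by
  rw [Nat.card_congr S.moduleCatHomologyIso.toLinearEquiv.toEquiv]
  show (LinearMap.range S.moduleCatToCycles).toAddSubgroup.index = _
  unfold AddSubgroup.relIndex
  congr 1
  ext x
  simp only [Submodule.mem_toAddSubgroup, LinearMap.mem_range]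
  constructor
  · rintro ⟨y, rfl⟩
    exact ⟨y, rfl⟩
  · rintro ⟨y, hy⟩
    exact ⟨y, Subtype.ext hy⟩

variable (hg : ∀ x, x ∈ Subgroup.zpowers g)
include hg

/-- For a finite cyclic group, `|Hⁱ(G, A)| = [ker (ρ g - 1) : range N]` for even `i > 0`. -/
theorem card_groupCohomology_even (i : ℕ) [NeZero i] (hi : Even i) :
    Nat.card (groupCohomology A i) = hq (repSub A g) (repNorm A) := by
  rw [Nat.card_congr (Rep.FiniteCyclicGroup.groupCohomologyIsoEven A g hg i hi).toLinearEquiv.toEquiv,
    card_homology_eq_relIndex]
  rfl

/-- For a finite cyclic group, `|Hⁱ(G, A)| = [ker N : range (ρ g - 1)]` for odd `i`. -/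
theorem card_groupCohomology_odd (i : ℕ) (hi : Odd i) :
    Nat.card (groupCohomology A i) = hq (repNorm A) (repSub A g) := by
  rw [Nat.card_congr (Rep.FiniteCyclicGroup.groupCohomologyIsoOdd A g hg i hi).toLinearEquiv.toEquiv,
    card_homology_eq_relIndex]
  rfl

theorem card_H2_eq : Nat.card (groupCohomology A 2) = hq (repSub A g) (repNorm A) :=
  card_groupCohomology_even A g hg 2 even_two

theorem card_H1_eq : Nat.card (groupCohomology A 1) = hq (repNorm A) (repSub A g) :=
  card_groupCohomology_odd A g hg 1 odd_one

/-- The Herbrand quotient is `|H²| / |H¹|`. -/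
theorem herbrand_eq_card_div_card :
    herbrand (repSub A g) (repNorm A)
      = (Nat.card (groupCohomology A 2) : ℚ) / (Nat.card (groupCohomology A 1) : ℚ) := by
  rw [card_H2_eq A g hg, card_H1_eq A g hg]; rfl

end Rep

/-! ### Modules given by a `DistribMulAction` / `MulDistribMulAction` -/

/-- The additive `G`-module structure on `Additive M` induced by a multiplicative distributive
action on `M`. (Not a global instance; use `attribute [local instance]`.) -/
@[reducible] def additiveDistribMulAction (G M : Type*) [Monoid G] [CommGroup M]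
    [MulDistribMulAction G M] : DistribMulAction G (Additive M) where
  smul g a := Additive.ofMul (g • Additive.toMul a)
  one_smul a := by
    show Additive.ofMul ((1 : G) • Additive.toMul a) = a
    simp
  mul_smul g h a := by
    show Additive.ofMul ((g * h) • Additive.toMul a) = Additive.ofMul (g • (h • Additive.toMul a))
    rw [mul_smul]
  smul_zero g := by
    show Additive.ofMul (g • (1 : M)) = 0
    simp
  smul_add g a b := by
    show Additive.ofMul (g • (Additive.toMul a * Additive.toMul b))
      = Additive.ofMul (g • Additive.toMul a * g • Additive.toMul b)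
    rw [smul_mul']

attribute [local instance] additiveDistribMulAction

section Action

variable {G M : Type} [CommGroup G] [Fintype G] (g : G) (hg : ∀ x, x ∈ Subgroup.zpowers g)

section Additive

variable [AddCommGroup M] [DistribMulAction G M]

omit [Fintype G] in
lemma repSub_ofDistribMulAction :
    repSub (Rep.ofDistribMulAction ℤ G M) g = subOneHom M g := by
  ext a; rfl

lemma repNorm_ofDistribMulAction :
    repNorm (Rep.ofDistribMulAction ℤ G M) = normHom G M := by
  ext a
  rw [repNorm_apply]
  exact (normHom_apply (G := G) (A := M) a).symm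

include hg

/-- `|H²(G, M)| = [M^G : N M]` for a finite cyclic group `G` (index form, `0` = infinite). -/
theorem card_H2_ofDistribMulAction :
    Nat.card (groupCohomology (Rep.ofDistribMulAction ℤ G M) 2)
      = hq (subOneHom M g) (normHom G M) := by
  have h := card_H2_eq (Rep.ofDistribMulAction ℤ G M) g hg
  rw [repSub_ofDistribMulAction, repNorm_ofDistribMulAction] at h
  exact h

/-- `|H¹(G, M)| = [ker N : (g - 1) M]` for a finite cyclic group `G`. -/
theorem card_H1_ofDistribMulAction :
    Nat.card (groupCohomology (Rep.ofDistribMulAction ℤ G M) 1)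
      = hq (normHom G M) (subOneHom M g) := by
  have h := card_H1_eq (Rep.ofDistribMulAction ℤ G M) g hg
  rw [repSub_ofDistribMulAction, repNorm_ofDistribMulAction] at h
  exact h

end Additive

section Multiplicative

variable [CommGroup M] [MulDistribMulAction G M]

omit [Fintype G] in
lemma repSub_ofMulDistribMulAction :
    repSub (Rep.ofMulDistribMulAction G M) g = subOneHom (Additive M) g := by
  ext a; rfl

lemma repNorm_ofMulDistribMulAction :
    repNorm (Rep.ofMulDistribMulAction G M) = normHom G (Additive M) := by
  ext a
  rw [repNorm_apply]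
  exact (normHom_apply (G := G) (A := Additive M) a).symm

include hg

/-- `|H²(G, M)| = [M^G : N M]` for a multiplicative `G`-module `M`, `G` finite cyclic. -/
theorem card_H2_ofMulDistribMulAction :
    Nat.card (groupCohomology (Rep.ofMulDistribMulAction G M) 2)
      = hq (subOneHom (Additive M) g) (normHom G (Additive M)) := by
  have h := card_H2_eq (Rep.ofMulDistribMulAction G M) g hg
  rw [repSub_ofMulDistribMulAction, repNorm_ofMulDistribMulAction] at h
  exact h

/-- `|H¹(G, M)| = [ker N : (g - 1) M]` for a multiplicative `G`-module `M`, `G` finite cyclic. -/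
theorem card_H1_ofMulDistribMulAction :
    Nat.card (groupCohomology (Rep.ofMulDistribMulAction G M) 1)
      = hq (normHom G (Additive M)) (subOneHom (Additive M) g) := by
  have h := card_H1_eq (Rep.ofMulDistribMulAction G M) g hg
  rw [repSub_ofMulDistribMulAction, repNorm_ofMulDistribMulAction] at h
  exact h

end Multiplicative

end Action

/-! ### Multiplicative notation -/

section Mul

/-- The additive index `hq` of the additive versions of two endomorphisms of a multiplicative
group is the multiplicative relative index `[ker f : range g]`. -/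
lemma hq_toAdditive {M : Type*} [CommGroup M] (f g : M →* M) :
    hq (MonoidHom.toAdditive f) (MonoidHom.toAdditive g) = g.range.relIndex f.ker := rfl

variable {G : Type*} [Group G] [Fintype G] {M : Type*} [CommGroup M] [MulDistribMulAction G M]

/-- `a ↦ σ • a / a`. -/
def mulSubOneHom (σ : G) : M →* M := MulDistribMulAction.toMonoidHom M σ / MonoidHom.id M

variable (G M) in
/-- `a ↦ ∏ τ, τ • a`. -/
def mulNormHom : M →* M := ∏ τ : G, MulDistribMulAction.toMonoidHom M τ

omit [Fintype G] in
@[simp] lemma mulSubOneHom_apply (σ : G) (a : M) : mulSubOneHom σ a = σ • a / a := rfl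

@[simp] lemma mulNormHom_apply (a : M) : mulNormHom G M a = ∏ τ : G, τ • a := by
  simp [mulNormHom, MonoidHom.finsetProd_apply]

omit [Fintype G] in
lemma subOneHom_additive (σ : G) :
    subOneHom (Additive M) σ = MonoidHom.toAdditive (mulSubOneHom (M := M) σ) :=
  DFunLike.ext _ _ fun _ => rfl

lemma normHom_additive :
    normHom G (Additive M) = MonoidHom.toAdditive (mulNormHom G M) := by
  refine DFunLike.ext _ _ fun a => ?_
  rw [normHom_apply]
  show _ = Additive.ofMul (mulNormHom G M (Additive.toMul a))
  rw [mulNormHom_apply, ofMul_prod]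
  rfl

/-- `[M^G : N M]` in multiplicative notation. -/
theorem hq_subOne_norm_mul (σ : G) :
    hq (subOneHom (Additive M) σ) (normHom G (Additive M))
      = (mulNormHom G M).range.relIndex (mulSubOneHom (M := M) σ).ker := by
  rw [subOneHom_additive, normHom_additive, hq_toAdditive]

/-- `[ker N : (σ - 1) M]` in multiplicative notation. -/
theorem hq_norm_subOne_mul (σ : G) :
    hq (normHom G (Additive M)) (subOneHom (Additive M) σ)
      = (mulSubOneHom (M := M) σ).range.relIndex (mulNormHom G M).ker := by
  rw [subOneHom_additive, normHom_additive, hq_toAdditive]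

end Mul

/-! ### Intrinsic description: independence of the generator -/

section Generator

variable {G : Type*} [Group G] [Fintype G] {A : Type*} [AddCommGroup A] [DistribMulAction G A]

omit [Fintype G] in
/-- For a generator `σ`, the kernel of `σ - 1` is the subgroup of `G`-fixed points. -/
lemma ker_subOneHom_of_generator (σ : G) (hσ : ∀ x, x ∈ Subgroup.zpowers σ) :
    (subOneHom A σ).ker = FixedPoints.addSubgroup G A := by
  ext a
  simp only [AddMonoidHom.mem_ker, subOneHom_apply, sub_eq_zero]
  constructor
  · intro h τ
    have h1 : σ ∈ MulAction.stabilizer G a := h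
    have h2 : Subgroup.zpowers σ ≤ MulAction.stabilizer G a := by
      rw [Subgroup.zpowers_le]; exact h1
    exact h2 (hσ τ)
  · intro h
    exact h σ

/-- For a generator `σ`, the image of `σ - 1` contains the image of every `τ - 1`. -/
lemma range_subOneHom_le_of_generator (σ : G) (hσ : ∀ x, x ∈ Subgroup.zpowers σ) (τ : G) :
    (subOneHom A τ).range ≤ (subOneHom A σ).range := by
  rintro _ ⟨a, rfl⟩
  obtain ⟨n, rfl⟩ := mem_powers_iff_mem_zpowers.2 (hσ τ)
  induction n with
  | zero => simp
  | succ n ih =>
    have : subOneHom A (σ ^ (n + 1)) a = subOneHom A σ ((σ ^ n) • a) + subOneHom A (σ ^ n) a := by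
      simp only [subOneHom_apply, pow_succ', mul_smul]
      abel
    rw [this]
    exact AddSubgroup.add_mem _ ⟨_, rfl⟩ ih

lemma range_subOneHom_of_generators (σ σ' : G) (hσ : ∀ x, x ∈ Subgroup.zpowers σ)
    (hσ' : ∀ x, x ∈ Subgroup.zpowers σ') :
    (subOneHom A σ).range = (subOneHom A σ').range :=
  le_antisymm (range_subOneHom_le_of_generator σ' hσ' σ) (range_subOneHom_le_of_generator σ hσ σ')

/-- `hq (σ - 1) N = [A^G : N A]`. -/
lemma hq_subOne_norm (σ : G) (hσ : ∀ x, x ∈ Subgroup.zpowers σ) :
    hq (subOneHom A σ) (normHom G A)
      = (normHom G A).range.relIndex (FixedPoints.addSubgroup G A) := by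
  unfold hq
  rw [ker_subOneHom_of_generator σ hσ]

/-- The Herbrand quotient of a module over a finite cyclic group does not depend on the chosen
generator. -/
theorem herbrandCyc_eq_of_generators (σ σ' : G) (hσ : ∀ x, x ∈ Subgroup.zpowers σ)
    (hσ' : ∀ x, x ∈ Subgroup.zpowers σ') :
    herbrandCyc A σ = herbrandCyc A σ' ∧ (DefinedCyc A σ ↔ DefinedCyc A σ') := by
  have h1 : hq (subOneHom A σ) (normHom G A) = hq (subOneHom A σ') (normHom G A) := by
    rw [hq_subOne_norm σ hσ, hq_subOne_norm σ' hσ']
  have h2 : hq (normHom G A) (subOneHom A σ) = hq (normHom G A) (subOneHom A σ') := by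
    unfold hq
    rw [range_subOneHom_of_generators σ σ' hσ hσ']
  refine ⟨?_, ?_⟩
  · unfold herbrandCyc herbrand
    rw [h1, h2]
  · unfold DefinedCyc Defined
    rw [h1, h2]

end Generator

end Fermat.Agent.Lib.Herbrand
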