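import Mathlib

/-!
# Explicit cyclic `2`-cocycles: `H²(G, A) = A^G / N A` for a finite cyclic group (helper166)

`G` a group generated by `σ` of order `n`, `A` an additive `G`-module.  An *index function* for
`σ` is `ι : G → ℕ` with `ι g < n` and `σ ^ ι g = g` (`IsIndex σ n ι`; `idx σ` is one,
`isIndex_idx`).  For `a : A` fixed by `σ` the function

`cyc n ι a (g, h) = if n ≤ ι g + ι h then a else 0`

is a `2`-cocycle (`isCocycle₂_cyc`); it is a coboundary iff `a` is a norm
(`isCoboundary₂_cyc_iff`), and every `2`-cocycle `f` is cohomologous to `cyc n ι (theta σ n f)`,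
where `theta σ n f = ∑ k < n, f (σ ^ k, σ)` is `σ`-invariant (`smul_theta`,
`isCoboundary₂_sub_cyc`).  Everything is in Mathlib's low-degree vocabulary
(`groupCohomology.IsCocycle₂`, `IsCoboundary₂`).
-/

set_option autoImplicit false
set_option linter.unusedSectionVars false

namespace Fermat.Agent.Lib.CyclicCocycle

open groupCohomology Finset

/-! ### sums over a period -/

section Period

variable {A : Type*} [AddCommGroup A]

lemma sum_range_shift {n : ℕ} (u : ℕ → A) (hu : u n = u 0) :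
    ∑ k ∈ range n, u (k + 1) = ∑ k ∈ range n, u k := by
  have h1 := Finset.sum_range_succ' u n
  have h2 := Finset.sum_range_succ u n
  rw [h1, hu] at h2
  exact add_right_cancel h2

lemma sum_range_add_period {n : ℕ} (u : ℕ → A) (hu : ∀ k, u (k + n) = u k) (m : ℕ) :
    ∑ k ∈ range n, u (m + k) = ∑ k ∈ range n, u k := by
  induction m with
  | zero => simp
  | succ m ih =>
    rw [← ih]
    have := sum_range_shift (n := n) (fun k => u (m + k)) (by simp only [add_zero]; exact hu m)
    rw [← this]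
    refine Finset.sum_congr rfl fun k _ => ?_
    congr 1
    ring

/-- the difference of two partial sums of a periodic sequence over a full period -/
lemma sum_range_sub_period {n : ℕ} (u : ℕ → A) (hu : ∀ k, u (k + n) = u k) {N : ℕ}
    (hN : n ≤ N) :
    ∑ k ∈ range N, u k - ∑ k ∈ range (N - n), u k = ∑ k ∈ range n, u k := by
  have e : N = (N - n) + n := by omega
  conv_lhs => rw [e, Finset.sum_range_add]
  rw [Nat.add_sub_cancel, add_sub_cancel_left]
  exact sum_range_add_period u hu _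

end Period

lemma add_mod_of_lt {x y n : ℕ} (hx : x < n) (hy : y < n) :
    (x + y) % n = if x + y < n then x + y else x + y - n := by
  split_ifs with h
  · exact Nat.mod_eq_of_lt h
  · rw [Nat.mod_eq_sub_mod (by omega)]
    exact Nat.mod_eq_of_lt (by omega)

/-! ### index functions -/

section Index

variable {G : Type*} [Group G]

/-- `ι` is an index function for the generator `σ` of order `n`. -/
structure IsIndex (σ : G) (n : ℕ) (ι : G → ℕ) : Prop where
  pos : 0 < n
  lt : ∀ g, ι g < n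
  pow : ∀ g, σ ^ ι g = g
  order : orderOf σ = n

namespace IsIndex

variable {σ : G} {n : ℕ} {ι : G → ℕ}

lemma pow_n (h : IsIndex σ n ι) : σ ^ n = 1 := h.order ▸ pow_orderOf_eq_one σ

lemma pow_add_n (h : IsIndex σ n ι) (k : ℕ) : σ ^ (k + n) = σ ^ k := by
  rw [pow_add, h.pow_n, mul_one]

lemma ι_pow (h : IsIndex σ n ι) (k : ℕ) : ι (σ ^ k) = k % n := by
  have h1 := h.pow (σ ^ k)
  rw [pow_eq_pow_iff_modEq, h.order] at h1
  have h2 := Nat.mod_eq_of_lt (h.lt (σ ^ k))
  rw [← h2]
  exact h1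

lemma ι_pow_of_lt (h : IsIndex σ n ι) {k : ℕ} (hk : k < n) : ι (σ ^ k) = k := by
  rw [h.ι_pow, Nat.mod_eq_of_lt hk]

lemma ι_mul (h : IsIndex σ n ι) (g g' : G) : ι (g * g') = (ι g + ι g') % n := by
  conv_lhs => rw [← h.pow g, ← h.pow g', ← pow_add]
  exact h.ι_pow _

lemma ι_mul' (h : IsIndex σ n ι) (g g' : G) :
    ι (g * g') = if ι g + ι g' < n then ι g + ι g' else ι g + ι g' - n := by
  rw [h.ι_mul, add_mod_of_lt (h.lt g) (h.lt g')]

lemma ι_one (h : IsIndex σ n ι) : ι 1 = 0 := by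
  have := h.ι_pow 0
  rwa [pow_zero, Nat.zero_mod] at this

lemma smul_eq {A : Type*} [AddCommGroup A] [DistribMulAction G A] (h : IsIndex σ n ι) {a : A}
    (ha : σ • a = a) (g : G) : g • a = a := by
  have key : ∀ k : ℕ, σ ^ k • a = a := by
    intro k
    induction k with
    | zero => simp
    | succ k ih => rw [pow_succ, mul_smul, ha, ih]
  rw [← h.pow g]
  exact key _

end IsIndex

open Classical in
/-- a canonical index function -/
noncomputable def idx (σ g : G) : ℕ :=
  if h : ∃ k, k < orderOf σ ∧ σ ^ k = g then Nat.find h else 0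

theorem isIndex_idx [Finite G] (σ : G) (hσ : ∀ g, g ∈ Subgroup.zpowers σ) :
    IsIndex σ (orderOf σ) (idx σ) := by
  classical
  have hpos : 0 < orderOf σ := orderOf_pos σ
  have hex : ∀ g, ∃ k, k < orderOf σ ∧ σ ^ k = g := by
    intro g
    obtain ⟨k, hk⟩ := (mem_powers_iff_mem_zpowers.mpr (hσ g))
    refine ⟨k % orderOf σ, Nat.mod_lt _ hpos, ?_⟩
    rw [pow_mod_orderOf]
    exact hk
  refine ⟨hpos, fun g => ?_, fun g => ?_, rfl⟩
  · unfold idx
    rw [dif_pos (hex g)]
    exact (Nat.find_spec (hex g)).1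
  · unfold idx
    rw [dif_pos (hex g)]
    exact (Nat.find_spec (hex g)).2

end Index

/-! ### the cyclic cocycle -/

section Cyc

variable {G A : Type*} [Group G] [AddCommGroup A] [DistribMulAction G A]

/-- the cyclic `2`-cochain attached to `a` -/
def cyc (n : ℕ) (ι : G → ℕ) (a : A) : G × G → A :=
  fun p => if n ≤ ι p.1 + ι p.2 then a else 0

lemma cyc_apply (n : ℕ) (ι : G → ℕ) (a : A) (g h : G) :
    cyc n ι a (g, h) = if n ≤ ι g + ι h then a else 0 := rfl

lemma cyc_add (n : ℕ) (ι : G → ℕ) (a b : A) : cyc n ι (a + b) = cyc n ι a + cyc n ι b := by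
  funext p
  simp only [cyc, Pi.add_apply]
  split_ifs <;> simp

lemma cyc_zero (n : ℕ) (ι : G → ℕ) : cyc n ι (0 : A) = 0 := by
  funext p
  simp [cyc]

lemma cyc_neg (n : ℕ) (ι : G → ℕ) (a : A) : cyc n ι (-a) = -cyc n ι a := by
  funext p
  simp only [cyc, Pi.neg_apply]
  split_ifs <;> simp

lemma cyc_sub (n : ℕ) (ι : G → ℕ) (a b : A) : cyc n ι (a - b) = cyc n ι a - cyc n ι b := by
  rw [sub_eq_add_neg, cyc_add, cyc_neg, sub_eq_add_neg]

variable {σ : G} {n : ℕ} {ι : G → ℕ}

/-- the cyclic cochain of a `σ`-invariant element is a `2`-cocycle -/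
theorem isCocycle₂_cyc (h : IsIndex σ n ι) {a : A} (ha : σ • a = a) :
    IsCocycle₂ (cyc n ι a) := by
  intro g g' g''
  simp only [cyc_apply, h.ι_mul', smul_ite, smul_zero, h.smul_eq ha]
  have h1 := h.lt g
  have h2 := h.lt g'
  have h3 := h.lt g''
  split_ifs <;> first | rfl | (exfalso; omega) | abel

/-- the norm `∑ k < n, σ ^ k • b` -/
def nrm (σ : G) (n : ℕ) (b : A) : A := ∑ k ∈ range n, σ ^ k • b

lemma nrm_eq_sum [Fintype G] (h : IsIndex σ n ι) (b : A) : nrm σ n b = ∑ g : G, g • b := by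
  unfold nrm
  refine Finset.sum_bij' (fun k _ => σ ^ k) (fun g _ => ι g) (fun _ _ => Finset.mem_univ _)
    (fun g _ => Finset.mem_range.mpr (h.lt g)) (fun k hk => ?_) (fun g _ => h.pow g)
    (fun _ _ => rfl)
  exact h.ι_pow_of_lt (Finset.mem_range.mp hk)

/-- `theta f = ∑ k < n, f (σ ^ k, σ)`: the invariant of a `2`-cocycle -/
def theta (σ : G) (n : ℕ) (f : G × G → A) : A := ∑ k ∈ range n, f (σ ^ k, σ)

lemma theta_add (f f' : G × G → A) : theta σ n (f + f') = theta σ n f + theta σ n f' := by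
  simp only [theta, Pi.add_apply, Finset.sum_add_distrib]

lemma theta_sub (f f' : G × G → A) : theta σ n (f - f') = theta σ n f - theta σ n f' := by
  simp only [theta, Pi.sub_apply, Finset.sum_sub_distrib]

/-- `theta` of a coboundary is a norm -/
theorem theta_of_coboundary (h : IsIndex σ n ι) {f : G × G → A} {x : G → A}
    (hx : ∀ g g' : G, g • x g' - x (g * g') + x g = f (g, g')) :
    theta σ n f = nrm σ n (x σ) := by
  unfold theta nrm
  have e : ∀ k, f (σ ^ k, σ) = σ ^ k • x σ - x (σ ^ (k + 1)) + x (σ ^ k) := by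
    intro k
    rw [← hx, pow_succ]
  simp only [e, Finset.sum_add_distrib, Finset.sum_sub_distrib]
  have := sum_range_shift (n := n) (fun k => x (σ ^ k)) (by simp only [h.pow_n, pow_zero])
  rw [this]
  abel

/-- `theta (cyc a) = a` when the group is nontrivial -/
theorem theta_cyc (h : IsIndex σ n ι) (hn : 2 ≤ n) (a : A) : theta σ n (cyc n ι a) = a := by
  unfold theta
  have hσ : ι σ = 1 := by
    have := h.ι_pow_of_lt (k := 1) (by omega)
    rwa [pow_one] at this
  rw [Finset.sum_eq_single (n - 1)]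
  · rw [cyc_apply, h.ι_pow_of_lt (by omega), hσ, if_pos (by omega)]
  · intro k hk hk'
    rw [cyc_apply, h.ι_pow_of_lt (Finset.mem_range.mp hk), hσ, if_neg]
    have := Finset.mem_range.mp hk
    omega
  · intro hh
    exact absurd (Finset.mem_range.mpr (by omega)) hh

/-- the cyclic cocycle of a norm is a coboundary -/
theorem isCoboundary₂_cyc_nrm (h : IsIndex σ n ι) (b : A) :
    IsCoboundary₂ (cyc n ι (nrm σ n b)) := by
  refine ⟨fun g => ∑ k ∈ range (ι g), σ ^ k • b, fun g g' => ?_⟩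
  beta_reduce
  have hper : ∀ k, σ ^ (k + n) • b = σ ^ k • b := fun k => by rw [h.pow_add_n]
  have e1 : g • ∑ k ∈ range (ι g'), σ ^ k • b = ∑ k ∈ range (ι g'), σ ^ (ι g + k) • b := by
    rw [Finset.smul_sum]
    refine Finset.sum_congr rfl fun k _ => ?_
    rw [pow_add, mul_smul, h.pow g]
  have e2 : ∑ k ∈ range (ι g + ι g'), σ ^ k • b
      = ∑ k ∈ range (ι g), σ ^ k • b + ∑ k ∈ range (ι g'), σ ^ (ι g + k) • b :=
    Finset.sum_range_add _ _ _
  rw [e1, cyc_apply, h.ι_mul']
  split_ifs with h1 h2 h2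
  · omega
  · rw [e2]; abel
  · have := sum_range_sub_period (fun k => σ ^ k • b) hper h2
    simp only [nrm]
    rw [← this, e2]
    abel
  · omega

/-- **the cyclic cocycle `cyc a` is a coboundary iff `a` is a norm** -/
theorem isCoboundary₂_cyc_iff (h : IsIndex σ n ι) (a : A) :
    IsCoboundary₂ (cyc n ι a) ↔ ∃ b, a = nrm σ n b := by
  constructor
  · rintro ⟨x, hx⟩
    by_cases hn : 2 ≤ n
    · exact ⟨x σ, by rw [← theta_of_coboundary h hx, theta_cyc h hn]⟩
    · have hn1 : n = 1 := by have := h.pos; omega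
      subst hn1
      exact ⟨a, by simp [nrm]⟩
  · rintro ⟨b, rfl⟩
    exact isCoboundary₂_cyc_nrm h b

/-- a `2`-cocycle satisfies `f (g, 1) = g • f (1, 1)` -/
lemma cocycle_right_one {f : G × G → A} (hf : IsCocycle₂ f) (g : G) :
    f (g, 1) = g • f (1, 1) := by
  have := hf g 1 1
  rw [mul_one, mul_one] at this
  exact add_right_cancel this

/-- the invariant `theta f` of a `2`-cocycle is fixed by `σ` -/
theorem smul_theta (h : IsIndex σ n ι) {f : G × G → A} (hf : IsCocycle₂ f) :
    σ • theta σ n f = theta σ n f := by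
  unfold theta
  rw [Finset.smul_sum]
  have e : ∀ k, σ • f (σ ^ k, σ) = f (σ ^ (k + 1), σ) + f (σ, σ ^ k) - f (σ, σ ^ (k + 1)) := by
    intro k
    have := hf σ (σ ^ k) σ
    rw [← pow_succ', ← pow_succ] at this
    rw [eq_sub_iff_add_eq, ← this]
  simp only [e, Finset.sum_add_distrib, Finset.sum_sub_distrib]
  have s1 := sum_range_shift (n := n) (fun k => f (σ ^ k, σ)) (by simp only [h.pow_n, pow_zero])
  have s2 := sum_range_shift (n := n) (fun k => f (σ, σ ^ k)) (by simp only [h.pow_n, pow_zero])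
  rw [s1, s2]
  abel

/-- the key formula: `f (σ^i, σ^m)` in terms of `F k = f (σ^k, σ)` -/
lemma cocycle_pow_pow {f : G × G → A} (hf : IsCocycle₂ f) (σ : G) (i m : ℕ) :
    f (σ ^ i, σ ^ m) = f (σ ^ i, 1) + ∑ k ∈ range m, f (σ ^ (i + k), σ)
      - σ ^ i • ∑ k ∈ range m, f (σ ^ k, σ) := by
  induction m with
  | zero => simp
  | succ m ih =>
    have := hf (σ ^ i) (σ ^ m) σ
    rw [← pow_add, ← pow_succ] at this
    rw [Finset.sum_range_succ, Finset.sum_range_succ, smul_add]
    have e : f (σ ^ i, σ ^ (m + 1)) = f (σ ^ (i + m), σ) + f (σ ^ i, σ ^ m)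
        - σ ^ i • f (σ ^ m, σ) := by
      rw [eq_sub_iff_add_eq, this, add_comm]
    rw [e, ih]
    abel

/-- **every `2`-cocycle is cohomologous to the cyclic cocycle of its invariant** -/
theorem isCoboundary₂_sub_cyc (h : IsIndex σ n ι) {f : G × G → A} (hf : IsCocycle₂ f) :
    IsCoboundary₂ (f - cyc n ι (theta σ n f)) := by
  refine ⟨fun g => f (1, 1) - ∑ k ∈ range (ι g), f (σ ^ k, σ), fun g g' => ?_⟩
  beta_reduce
  have hper : ∀ k, f (σ ^ (k + n), σ) = f (σ ^ k, σ) := fun k => by rw [h.pow_add_n]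
  have key := cocycle_pow_pow hf σ (ι g) (ι g')
  rw [h.pow g, h.pow g', cocycle_right_one hf g] at key
  have e2 : ∑ k ∈ range (ι g + ι g'), f (σ ^ k, σ)
      = ∑ k ∈ range (ι g), f (σ ^ k, σ) + ∑ k ∈ range (ι g'), f (σ ^ (ι g + k), σ) :=
    Finset.sum_range_add _ _ _
  rw [Pi.sub_apply, key, cyc_apply, h.ι_mul', smul_sub]
  split_ifs with h1 h2 h2
  · omega
  · rw [e2]; abel
  · have := sum_range_sub_period (fun k => f (σ ^ k, σ)) hper h2
    simp only [theta]
    rw [← this, e2]
    abel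
  · omega

/-- existence form -/
theorem exists_cyc (h : IsIndex σ n ι) {f : G × G → A} (hf : IsCocycle₂ f) :
    ∃ a : A, σ • a = a ∧ IsCoboundary₂ (f - cyc n ι a) :=
  ⟨theta σ n f, smul_theta h hf, isCoboundary₂_sub_cyc h hf⟩

end Cyc

end Fermat.Agent.Lib.CyclicCocycle
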