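import Fermat.Agent.Lib.FrobDensity.Count

/-!
# Auxiliary primes for reciprocity (S55 / CFT, REC-AUX)

For a prime `p`, a finite set `Q` of primes and a finite set `T` of natural numbers there is a prime
`ℓ ∉ T` such that no `q ∈ Q` is a `p`-th power modulo `ℓ`
(`exists_prime_forall_not_pow`), and then automatically `p ∣ ℓ - 1`
(`exists_prime_one_mod_forall_not_pow`).

Proof: Kummer independence (`exists_galois_moving`) in the splitting field `L` of
`Φ_p · ∏_{q ∈ Q} (X^p - q)` gives `σ ∈ Gal(L/ℚ)` fixing `ζ_p` and moving every `q^{1/p}`; the landed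
Frobenius density theorem gives a prime `P` of `L` over some `ℓ ∉ T ∪ Q ∪ {p}` with `σ P = P`, and
`q ≡ y^p mod ℓ` would force `q^{1/p} ≡ ζ^j y mod P`, hence `σ (q^{1/p}) ≡ q^{1/p} mod P`,
i.e. `(ζ - 1) q^{1/p} ∈ P`, which is impossible for `ℓ ∤ p q`.
-/

set_option autoImplicit false

open Polynomial
open scoped NumberField Pointwise IntermediateField

namespace Fermat.Agent.Lib.AuxPrime


section Kummer

variable {L : Type*} [Field L] [NumberField L]
variable {p : ℕ} {ζ : L} {ι : Type*} [Fintype ι]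

/-- For `σ` fixing `ℚ` and `a ^ p ∈ ℚ`, `σ a` is `ζ ^ e * a` for some `e < p`. -/
lemma exists_pow_mul_of_pow_eq (hp : p.Prime) (hζ : IsPrimitiveRoot ζ p) {a : L} {r : ℚ} (ha0 : a ≠ 0)
    (ha : a ^ p = algebraMap ℚ L r) (σ : L ≃ₐ[ℚ] L) :
    ∃ e : ℕ, e < p ∧ σ a = ζ ^ e * a := by
  have : NeZero p := ⟨hp.ne_zero⟩
  have h1 : (σ a / a) ^ p = 1 := by
    rw [div_pow, ← map_pow, ha, σ.commutes, div_self]
    rw [← ha]; exact pow_ne_zero _ ha0
  obtain ⟨e, he, hee⟩ := hζ.eq_pow_of_pow_eq_one h1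
  exact ⟨e, he, by rw [hee, div_mul_cancel₀ _ ha0]⟩

/-- A product of prime powers with exponents `< p`, not all zero, is not a `p`-th power in `ℚ`. -/
lemma prod_pow_ne_pow (hp : p.Prime) (q : ι → ℕ) (hq : ∀ i, (q i).Prime)
    (hinj : Function.Injective q) (a : ι → ℕ) (ha : ∀ i, a i < p) (i0 : ι) (hi0 : a i0 ≠ 0)
    (r : ℚ) : r ^ p ≠ ((∏ i, q i ^ a i : ℕ) : ℚ) := by
  have _ := hp
  classical
  intro h
  have hb0 : (∏ i, q i ^ a i : ℕ) ≠ 0 :=
    Finset.prod_ne_zero_iff.2 fun i _ => pow_ne_zero _ (hq i).ne_zero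
  have : Fact (q i0).Prime := ⟨hq i0⟩
  have h1 : padicValRat (q i0) (r ^ p) = p * padicValRat (q i0) r := padicValRat.pow r
  have h2 : padicValRat (q i0) ((∏ i, q i ^ a i : ℕ) : ℚ) = (a i0 : ℤ) := by
    rw [padicValRat.of_nat, ← Nat.factorization_def _ (hq i0),
      Nat.factorization_prod (fun i _ => pow_ne_zero _ (hq i).ne_zero)]
    simp only [Nat.factorization_pow, Finsupp.coe_finsetSum, Finset.sum_apply, Finsupp.smul_apply,
      (hq _).factorization, smul_eq_mul]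
    rw [Finset.sum_eq_single i0]
    · simp
    · intro j _ hj
      rw [Finsupp.single_apply, if_neg (fun h => hj (hinj h)), mul_zero]
    · intro h; exact absurd (Finset.mem_univ _) h
  rw [h] at h1
  rw [h1] at h2
  have h3 : (p : ℤ) ∣ (a i0 : ℤ) := ⟨_, h2.symm⟩
  have h4 : p ∣ a i0 := Int.natCast_dvd_natCast.1 h3
  exact hi0 (Nat.eq_zero_of_dvd_of_lt h4 (ha i0))

variable [IsGalois ℚ L]

/-- **Kummer independence.**  In a Galois number field containing a primitive `p`-th root of unity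
`ζ` and `p`-th roots `α i` of distinct primes `q i`, some automorphism fixes `ζ` and moves every
`α i` (to `ζ * α i`). -/
theorem exists_galois_moving (hp : p.Prime) (hζ : IsPrimitiveRoot ζ p) (q : ι → ℕ)
    (hq : ∀ i, (q i).Prime) (hinj : Function.Injective q) (α : ι → L)
    (hα : ∀ i, α i ^ p = (q i : L)) :
    ∃ σ : L ≃ₐ[ℚ] L, σ ζ = ζ ∧ ∀ i, σ (α i) = ζ * α i := by
  classical
  have hp1 : 1 < p := hp.one_lt
  have hpne : NeZero p := ⟨hp.ne_zero⟩
  have hpF : Fact p.Prime := ⟨hp⟩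
  have hα0 : ∀ i, α i ≠ 0 := fun i h => by
    have h2 := hα i
    rw [h, zero_pow hp.ne_zero] at h2
    exact (hq i).ne_zero (by exact_mod_cast h2.symm)
  have hα' : ∀ i, α i ^ p = algebraMap ℚ L (q i : ℚ) := fun i => by rw [hα i]; simp
  choose e he_lt he using fun (σ : L ≃ₐ[ℚ] L) (i : ι) =>
    exists_pow_mul_of_pow_eq hp hζ (hα0 i) (hα' i) σ
  let K : IntermediateField ℚ L := ℚ⟮ζ⟯
  have hζK : ζ ∈ K := IntermediateField.mem_adjoin_simple_self ℚ ζ
  have hfix : ∀ σ ∈ K.fixingSubgroup, σ ζ = ζ := fun σ hσ =>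
    (IntermediateField.mem_fixingSubgroup_iff K σ).1 hσ ζ hζK
  let ψ : (L ≃ₐ[ℚ] L) → ι → ZMod p := fun σ i => (e σ i : ZMod p)
  have hpow : ∀ a b : ℕ, ζ ^ a = ζ ^ b → (a : ZMod p) = (b : ZMod p) := by
    intro a b hab
    rw [ZMod.natCast_eq_natCast_iff']
    have h1 : ζ ^ (a % p) = ζ ^ (b % p) := by
      have ha := pow_mod_orderOf ζ a
      have hb := pow_mod_orderOf ζ b
      rw [← hζ.eq_orderOf] at ha hb
      rw [ha, hb, hab]
    exact hζ.pow_inj (Nat.mod_lt _ hp.pos) (Nat.mod_lt _ hp.pos) h1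
  have hψ_one : ψ 1 = 0 := by
    funext i
    have h1 := he 1 i
    have h2 : ζ ^ e 1 i = ζ ^ 0 := by
      have h3 : ζ ^ e 1 i * α i = 1 * α i := by rw [← h1, one_mul]; rfl
      rw [pow_zero]
      exact mul_right_cancel₀ (hα0 i) h3
    simpa [ψ] using hpow _ _ h2
  have hψ_mul : ∀ σ ∈ K.fixingSubgroup, ∀ τ, ψ (σ * τ) = ψ σ + ψ τ := by
    intro σ hσ τ
    funext i
    have h1 : (σ * τ) (α i) = ζ ^ (e σ i + e τ i) * α i := by
      rw [AlgEquiv.mul_apply, he τ i, map_mul, map_pow, hfix σ hσ, he σ i, pow_add]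
      ring
    have h2 : ζ ^ e (σ * τ) i = ζ ^ (e σ i + e τ i) := by
      have h3 := he (σ * τ) i
      rw [h1] at h3
      exact (mul_right_cancel₀ (hα0 i) h3).symm
    have h4 := hpow _ _ h2
    simpa [ψ] using h4
  have hψ_pow : ∀ σ ∈ K.fixingSubgroup, ∀ n : ℕ, ψ (σ ^ n) = n • ψ σ := by
    intro σ hσ n
    induction n with
    | zero => simpa using hψ_one
    | succ n ih => rw [pow_succ', hψ_mul σ hσ, ih, succ_nsmul']
  have key : ∀ v : ι → ZMod p,
      v ∈ Submodule.span (ZMod p) (ψ '' (K.fixingSubgroup : Set (L ≃ₐ[ℚ] L))) →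
      ∃ σ ∈ K.fixingSubgroup, ψ σ = v := by
    intro v hv
    induction hv using Submodule.span_induction with
    | mem x hx => obtain ⟨σ, hσ, rfl⟩ := hx; exact ⟨σ, hσ, rfl⟩
    | zero => exact ⟨1, one_mem _, hψ_one⟩
    | add x y _ _ hx hy =>
      obtain ⟨σ, hσ, rfl⟩ := hx
      obtain ⟨τ, hτ, rfl⟩ := hy
      exact ⟨σ * τ, mul_mem hσ hτ, hψ_mul σ hσ τ⟩
    | smul c x _ hx =>
      obtain ⟨σ, hσ, rfl⟩ := hx
      refine ⟨σ ^ c.val, pow_mem hσ _, ?_⟩
      rw [hψ_pow σ hσ, ← Nat.cast_smul_eq_nsmul (ZMod p), ZMod.natCast_zmod_val]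
  have htop : Submodule.span (ZMod p) (ψ '' (K.fixingSubgroup : Set (L ≃ₐ[ℚ] L))) = ⊤ := by
    by_contra hne
    obtain ⟨f, hf0, hf⟩ := Submodule.exists_le_ker_of_lt_top _ (Ne.lt_top hne)
    have hfψ : ∀ σ ∈ K.fixingSubgroup, f (ψ σ) = 0 := fun σ hσ =>
      LinearMap.mem_ker.1 (hf (Submodule.subset_span ⟨σ, hσ, rfl⟩))
    let c : ι → ZMod p := fun i => f fun j => if i = j then 1 else 0
    have hfc : ∀ v : ι → ZMod p, f v = ∑ i, v i * c i := fun v => by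
      rw [LinearMap.pi_apply_eq_sum_univ f v]; rfl
    obtain ⟨i0, hi0⟩ : ∃ i0, c i0 ≠ 0 := by
      by_contra hall
      have hall' : ∀ i, c i = 0 := fun i => by_contra fun h => hall ⟨i, h⟩
      apply hf0
      refine LinearMap.ext fun v => ?_
      rw [hfc]
      simp [hall']
    let a : ι → ℕ := fun i => (c i).val
    have ha_lt : ∀ i, a i < p := fun i => ZMod.val_lt _
    have ha0 : a i0 ≠ 0 := fun h => hi0 ((ZMod.val_eq_zero _).1 h)
    let β : L := ∏ i, α i ^ a i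
    have hβfix : ∀ σ ∈ K.fixingSubgroup, σ β = β := by
      intro σ hσ
      have h1 : σ β = ζ ^ (∑ i, e σ i * a i) * β := by
        simp only [β, map_prod, map_pow, he σ, mul_pow, Finset.prod_mul_distrib, ← pow_mul,
          Finset.prod_pow_eq_pow_sum]
      have h2 : p ∣ ∑ i, e σ i * a i := by
        rw [← ZMod.natCast_eq_zero_iff]
        have h3 := hfψ σ hσ
        rw [hfc] at h3
        simpa [ψ, a] using h3
      rw [h1, (hζ.pow_eq_one_iff_dvd _).2 h2, one_mul]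
    have hβK : β ∈ K := by
      rw [← IsGalois.fixedField_fixingSubgroup K, IntermediateField.mem_fixedField_iff]
      exact hβfix
    have hβp : β ^ p = algebraMap ℚ L ((∏ i, q i ^ a i : ℕ) : ℚ) := by
      simp only [β, ← Finset.prod_pow, ← pow_mul]
      simp only [mul_comm _ p, pow_mul, hα]
      simp
    have hirr : Irreducible (X ^ p - C (((∏ i, q i ^ a i : ℕ) : ℚ))) :=
      X_pow_sub_C_irreducible_of_prime hp (prod_pow_ne_pow hp q hq hinj a ha_lt i0 ha0)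
    have hmin : X ^ p - C (((∏ i, q i ^ a i : ℕ) : ℚ)) = minpoly ℚ β :=
      minpoly.eq_of_irreducible_of_monic hirr (by simp [hβp]) (monic_X_pow_sub_C _ hp.ne_zero)
    have hdeg : (minpoly ℚ β).natDegree = p := by rw [← hmin, natDegree_X_pow_sub_C]
    have hle1 : (minpoly ℚ β).natDegree ≤ Module.finrank ℚ K := by
      have h1 := minpoly.natDegree_le (A := ℚ) (⟨β, hβK⟩ : K)
      have h2 : minpoly ℚ (⟨β, hβK⟩ : K) = minpoly ℚ β := IntermediateField.minpoly_eq _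
      rwa [h2] at h1
    have hζint : IsIntegral ℚ ζ := Algebra.IsIntegral.isIntegral ζ
    have hle2 : Module.finrank ℚ K ≤ p - 1 := by
      rw [IntermediateField.adjoin.finrank hζint, ← Nat.totient_prime hp,
        ← natDegree_cyclotomic p ℚ]
      refine natDegree_le_of_dvd (minpoly.dvd ℚ ζ ?_) (cyclotomic_ne_zero p ℚ)
      rw [aeval_def, eval₂_eq_eval_map, map_cyclotomic]
      exact (isRoot_cyclotomic_iff).2 hζ
    omega
  obtain ⟨σ, hσ, hσv⟩ := key (fun _ => 1) (htop ▸ Submodule.mem_top)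
  refine ⟨σ, hfix σ hσ, fun i => ?_⟩
  have h1 : (e σ i : ZMod p) = ((1 : ℕ) : ZMod p) := by
    have := congrFun hσv i
    simpa [ψ] using this
  rw [ZMod.natCast_eq_natCast_iff', Nat.mod_eq_of_lt (he_lt σ i), Nat.mod_eq_of_lt hp1] at h1
  rw [he σ i, h1, pow_one]

end Kummer

section Field


/-- A finite normal extension in which `f` splits (packaged to avoid instance diamonds over `ℚ`). -/
theorem exists_normal_splits (K : Type) [Field K] (f : K[X]) :
    ∃ (L : Type) (_ : Field L) (_ : Algebra K L) (_ : FiniteDimensional K L) (_ : Normal K L),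
      (f.map (algebraMap K L)).Splits :=
  ⟨f.SplittingField, inferInstance, inferInstance, inferInstance, Normal.of_isSplittingField f,
    SplittingField.splits f⟩

/-- A Galois number field containing a primitive `p`-th root of unity and `p`-th roots of all
`q ∈ Q`. -/
theorem exists_aux_field {p : ℕ} (hp : p.Prime) (Q : Finset ℕ) :
    ∃ (L : Type) (_ : Field L) (_ : NumberField L) (_ : IsGalois ℚ L) (ζ : L),
      IsPrimitiveRoot ζ p ∧ ∀ q ∈ Q, ∃ a : L, a ^ p = (q : L) := by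
  classical
  let f : ℚ[X] := cyclotomic p ℚ * ∏ q ∈ Q, (X ^ p - C (q : ℚ))
  have hf0 : f ≠ 0 := mul_ne_zero (cyclotomic_ne_zero p ℚ)
    (Finset.prod_ne_zero_iff.2 fun q _ => X_pow_sub_C_ne_zero hp.pos _)
  obtain ⟨L, hfield, halg, hfd, hnorm, hsplit⟩ := exists_normal_splits ℚ f
  have hchar : CharZero L := charZero_of_injective_algebraMap (algebraMap ℚ L).injective
  have halg' : halg = DivisionRing.toRatAlgebra := Subsingleton.elim _ _
  subst halg'
  have hnf : NumberField L := { to_charZero := hchar, to_finiteDimensional := hfd }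
  have hgal : IsGalois ℚ L := ⟨⟩
  have hfm0 : f.map (algebraMap ℚ L) ≠ 0 := (Polynomial.map_ne_zero_iff (algebraMap ℚ L).injective).2 hf0
  have hpne : NeZero p := ⟨hp.ne_zero⟩
  have hroot : ∀ g : ℚ[X], g ∣ f → g.degree ≠ 0 → ∃ a : L, eval a (g.map (algebraMap ℚ L)) = 0 := by
    intro g hg hdeg
    exact (hsplit.of_dvd hfm0 (Polynomial.map_dvd _ hg)).exists_eval_eq_zero
      (by rwa [degree_map])
  refine ⟨L, hfield, hnf, hgal, ?_⟩
  obtain ⟨ζ, hζ⟩ := hroot (cyclotomic p ℚ) (dvd_mul_right _ _) (by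
    rw [degree_cyclotomic, Nat.totient_prime hp]
    have := hp.two_le
    intro h
    have h2 : p - 1 = 0 := by exact_mod_cast h
    omega)
  refine ⟨ζ, ?_, fun q hq => ?_⟩
  · rw [map_cyclotomic] at hζ
    exact (isRoot_cyclotomic_iff).1 hζ
  · obtain ⟨a, ha⟩ := hroot (X ^ p - C (q : ℚ))
      (Dvd.dvd.mul_left (Finset.dvd_prod_of_mem _ hq) _) (by
        rw [degree_X_pow_sub_C hp.pos]
        exact_mod_cast hp.ne_zero)
    refine ⟨a, ?_⟩
    simpa [sub_eq_zero] using ha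

end Field

section Main

/-- **Auxiliary prime.**  For a prime `p`, a finite set `Q` of primes and a finite set `T` there is
a prime `ℓ ∉ T` such that no element of `Q` is a `p`-th power modulo `ℓ`. -/
theorem exists_prime_forall_not_pow {p : ℕ} (hp : p.Prime) (T Q : Finset ℕ)
    (hQ : ∀ q ∈ Q, q.Prime) :
    ∃ ℓ : ℕ, ℓ.Prime ∧ ℓ ∉ T ∧ ∀ q ∈ Q, ∀ y : ZMod ℓ, y ^ p ≠ (q : ZMod ℓ) := by
  classical
  obtain ⟨L, hfield, hnf, hgal, ζ, hζ, hroots⟩ := exists_aux_field hp Q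
  have hpne : NeZero p := ⟨hp.ne_zero⟩
  choose! α hα using hroots
  obtain ⟨σ, hσζ, hσα⟩ := exists_galois_moving (ι := ↥Q) hp hζ (fun i => (i : ℕ))
    (fun i => hQ i i.2) Subtype.val_injective (fun i => α i) (fun i => hα i i.2)
  obtain ⟨ℓ, P, hℓ, hℓS, hPprime, hPover, -, hstab⟩ :=
    Fermat.Agent.Lib.FrobDensity.exists_prime_stabilizer_eq_zpowers L σ (T ∪ Q ∪ {p})
  have hℓT : ℓ ∉ T := fun h => hℓS (by simp [h])
  have hℓQ : ℓ ∉ Q := fun h => hℓS (by simp [h])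
  have hℓp : ℓ ≠ p := fun h => hℓS (by simp [h])
  refine ⟨ℓ, hℓ, hℓT, fun q hq y hy => ?_⟩
  have hℓne : NeZero ℓ := ⟨hℓ.ne_zero⟩
  have hσP : σ • P = P := by
    have h1 : σ ∈ MulAction.stabilizer (L ≃ₐ[ℚ] L) P := hstab ▸ Subgroup.mem_zpowers σ
    exact MulAction.mem_stabilizer_iff.1 h1
  -- membership of integers in `P`
  have hmemP : ∀ m : ℤ, ((m : 𝓞 L)) ∈ P → (ℓ : ℤ) ∣ m := by
    intro m hm
    have h1 : m ∈ Ideal.span {(ℓ : ℤ)} := by
      rw [Ideal.mem_of_liesOver P (Ideal.span {(ℓ : ℤ)}) m]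
      simpa using hm
    exact Ideal.mem_span_singleton.1 h1
  have hPmem : ∀ m : ℤ, (ℓ : ℤ) ∣ m → ((m : 𝓞 L)) ∈ P := by
    intro m hm
    have h1 : m ∈ Ideal.span {(ℓ : ℤ)} := Ideal.mem_span_singleton.2 hm
    rw [Ideal.mem_of_liesOver P (Ideal.span {(ℓ : ℤ)}) m] at h1
    simpa using h1
  -- integral models of `ζ` and `α q`
  let ζI : 𝓞 L := hζ.toInteger
  have hζI : IsPrimitiveRoot ζI p := hζ.toInteger_isPrimitiveRoot
  have hαint : IsIntegral ℤ (α q) := by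
    refine IsIntegral.of_pow hp.pos ?_
    rw [hα q hq]
    exact isIntegral_algebraMap (R := ℤ) (x := (q : ℤ)) |> fun h => by simpa using h
  let αI : 𝓞 L := ⟨α q, hαint⟩
  have hαIp : αI ^ p = (q : 𝓞 L) := by
    apply NumberField.RingOfIntegers.ext
    show algebraMap (𝓞 L) L (αI ^ p) = algebraMap (𝓞 L) L (q : 𝓞 L)
    rw [map_pow, map_natCast]
    exact hα q hq
  have hσζI : σ • ζI = ζI := by
    apply NumberField.RingOfIntegers.ext
    exact hσζ
  have hσαI : σ • αI = ζI * αI := by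
    apply NumberField.RingOfIntegers.ext
    exact hσα ⟨q, hq⟩
  -- `y = n` and `ℓ ∣ n ^ p - q`
  obtain ⟨n, rfl⟩ : ∃ n : ℕ, (n : ZMod ℓ) = y := ⟨y.val, ZMod.natCast_zmod_val y⟩
  have hdvd : (ℓ : ℤ) ∣ ((n : ℤ) ^ p - (q : ℤ)) := by
    have h1 : (((n ^ p : ℕ) : ℤ) : ZMod ℓ) = ((q : ℤ) : ZMod ℓ) := by
      push_cast
      exact hy
    have h2 := (ZMod.intCast_eq_intCast_iff_dvd_sub _ _ ℓ).1 h1.symm
    simpa using h2
  have h1 : ((n : 𝓞 L)) ^ p - αI ^ p ∈ P := by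
    have h2 := hPmem _ hdvd
    rw [hαIp]
    simpa using h2
  rw [hζI.pow_sub_pow_eq_prod_sub_mul _ _ hp.pos] at h1
  obtain ⟨μ, hμ, hμP⟩ := (hPprime.prod_mem_iff).1 h1
  have hμ1 : μ ^ p = 1 := ((mem_nthRootsFinset hp.pos (1 : 𝓞 L)).1 hμ)
  obtain ⟨j, -, rfl⟩ := hζI.eq_pow_of_pow_eq_one hμ1
  have h2 : σ • ((n : 𝓞 L) - ζI ^ j * αI) ∈ P := by
    have h3 := (Ideal.smul_mem_pointwise_smul_iff (a := σ) (S := P)).2 hμP
    rwa [hσP] at h3
  have hn : σ • (n : 𝓞 L) = (n : 𝓞 L) := by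
    apply NumberField.RingOfIntegers.ext
    show σ (algebraMap (𝓞 L) L (n : 𝓞 L)) = algebraMap (𝓞 L) L (n : 𝓞 L)
    rw [map_natCast, map_natCast]
  have h3 : σ • ((n : 𝓞 L) - ζI ^ j * αI) = (n : 𝓞 L) - ζI ^ j * (ζI * αI) := by
    rw [smul_sub, smul_mul', smul_pow', hσζI, hσαI, hn]
  rw [h3] at h2
  have h4 : ζI ^ j * αI * (ζI - 1) ∈ P := by
    have h5 := P.sub_mem hμP h2
    have h6 : ((n : 𝓞 L) - ζI ^ j * αI) - ((n : 𝓞 L) - ζI ^ j * (ζI * αI)) =
        ζI ^ j * αI * (ζI - 1) := by ring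
    rwa [h6] at h5
  have hPne : P ≠ ⊤ := hPprime.ne_top
  rcases hPprime.mem_or_mem h4 with h5 | h5
  · rcases hPprime.mem_or_mem h5 with h6 | h6
    · -- a root of unity in `P`
      have h7 : (ζI ^ j) ^ p ∈ P := P.pow_mem_of_mem h6 p hp.pos
      rw [hμ1] at h7
      exact hPne ((Ideal.eq_top_iff_one P).2 h7)
    · -- `α ∈ P` gives `ℓ ∣ q`
      have h7 : αI ^ p ∈ P := P.pow_mem_of_mem h6 p hp.pos
      rw [hαIp] at h7
      have h8 : (ℓ : ℤ) ∣ (q : ℤ) := hmemP (q : ℤ) (by simpa using h7)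
      have h9 : ℓ ∣ q := Int.natCast_dvd_natCast.1 h8
      have h10 : ℓ = q := (Nat.prime_dvd_prime_iff_eq hℓ (hQ q hq)).1 h9
      exact hℓQ (h10 ▸ hq)
  · -- `ζ ≡ 1 mod P` gives `ℓ ∣ p`
    have h6 : (Ideal.Quotient.mk P) ζI = 1 := by
      rw [← map_one (Ideal.Quotient.mk P)]
      exact Ideal.Quotient.eq.2 h5
    have h7 : (Ideal.Quotient.mk P) (∑ i ∈ Finset.range p, ζI ^ i) = (p : 𝓞 L ⧸ P) := by
      simp [map_sum, map_pow, h6]
    rw [hζI.geom_sum_eq_zero hp.one_lt, map_zero] at h7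
    have h8 : ((p : ℤ) : 𝓞 L) ∈ P := by
      rw [← Ideal.Quotient.eq_zero_iff_mem]
      simpa using h7.symm
    have h9 : ℓ ∣ p := Int.natCast_dvd_natCast.1 (hmemP (p : ℤ) h8)
    exact hℓp ((Nat.prime_dvd_prime_iff_eq hℓ hp).1 h9)

/-- **Auxiliary prime, with the congruence.**  For a prime `p`, a finite set `Q` of primes and a
finite set `T` there is a prime `ℓ ∉ T` with `p ∣ ℓ - 1` (and `ℓ ≠ p`, `ℓ ∉ Q`) such that no element
of `Q` is a `p`-th power modulo `ℓ`. -/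
theorem exists_prime_one_mod_forall_not_pow {p : ℕ} (hp : p.Prime) (T Q : Finset ℕ)
    (hQ : ∀ q ∈ Q, q.Prime) :
    ∃ ℓ : ℕ, ℓ.Prime ∧ ℓ ∉ T ∧ ℓ ∉ Q ∧ ℓ ≠ p ∧ p ∣ ℓ - 1 ∧
      ∀ q ∈ Q, ∀ y : ZMod ℓ, y ^ p ≠ (q : ZMod ℓ) := by
  classical
  -- add the prime `2` to `Q` so that `Q` is nonempty, and `Q ∪ {p}` to `T`
  obtain ⟨ℓ, hℓ, hℓT, hnot⟩ := exists_prime_forall_not_pow hp (T ∪ Q ∪ {p} ∪ {2}) (insert 2 Q)
    (fun q hq => by
      rcases Finset.mem_insert.1 hq with rfl | h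
      · exact Nat.prime_two
      · exact hQ q h)
  have hℓT' : ℓ ∉ T := fun h => hℓT (by simp [h])
  have hℓQ : ℓ ∉ Q := fun h => hℓT (by simp [h])
  have hℓp : ℓ ≠ p := fun h => hℓT (by simp [h])
  refine ⟨ℓ, hℓ, hℓT', hℓQ, hℓp, ?_, fun q hq => hnot q (Finset.mem_insert_of_mem hq)⟩
  -- `2` is not a `p`-th power mod `ℓ`, so `p ∣ ℓ - 1`
  by_contra hndvd
  have hFact : Fact ℓ.Prime := ⟨hℓ⟩
  have hcop : Nat.Coprime p (ℓ - 1) := (Nat.Prime.coprime_iff_not_dvd hp).2 hndvd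
  -- `x ↦ x ^ p` is a bijection of `(ZMod ℓ)ˣ`
  have h2 : ((2 : ℕ) : ZMod ℓ) ≠ 0 := by
    intro h
    rw [ZMod.natCast_eq_zero_iff] at h
    have h3 : ℓ = 2 := (Nat.prime_dvd_prime_iff_eq hℓ Nat.prime_two).1 h
    exact hℓT (by simp [h3])
  let u : (ZMod ℓ)ˣ := Units.mk0 _ h2
  have hcard : Fintype.card (ZMod ℓ)ˣ = ℓ - 1 := ZMod.card_units ℓ
  have hcop' : Nat.Coprime (Nat.card (ZMod ℓ)ˣ) p := by
    rw [Nat.card_eq_fintype_card, hcard]; exact hcop.symm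
  obtain ⟨v, hv⟩ := (powCoprime hcop').surjective u
  refine hnot 2 (Finset.mem_insert_self _ _) (v : ZMod ℓ) ?_
  have h4 : ((v ^ p : (ZMod ℓ)ˣ) : ZMod ℓ) = (u : ZMod ℓ) := by
    rw [← hv]; rfl
  simpa [u] using h4

end Main

end Fermat.Agent.Lib.AuxPrime
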