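/-
MONOMIAL ABHYANKAR LEMMA (compositum form), helper281.

Setting: `A` a DVR with uniformiser `t`, `L` a field containing `A`, generated over `Frac A` by one
element `s`; `w : L → ℤ` a discrete valuation of `L` (written additively, junk value at `0`)
which is `≥ 0` on `A`, `> 0` on the maximal ideal of `A`, `> 0` at `s`, and takes the value `1`.
If `ε t ^ eP * b(s) = s ^ e0 * a(s)` with `a, b ∈ A[X]` having unit constant terms, `ε` a unit and
`gcd eP e0` invertible in `A`, then

  `w s = eP / gcd eP e0`   and   `w t = e0 / gcd eP e0`.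

In particular, if `eP ∣ e0` then `w s = 1` ("the compositum is unramified over the `s`-line").
No completions, no Galois theory, no discriminants: with `z = s^b'/t^a'` and `τ = t^x/s^y`
(`eP = d a'`, `e0 = d b'`, `b' x - a' y = 1`) one has `s = z^x τ^a'`, `t = z^y τ^b'`, and the ring
`B = A[z, τ]` satisfies: `B/τB` is a quotient of `k[Z]/(Z^d - c)`, a separable algebra, hence von
Neumann regular; so every element of `B` of positive valuation is `τ ·` (element of `B`) up to a
`w`-unit of `B`, and `w(B \ 0) ⊆ ℕ · w τ`.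
-/
import Mathlib

set_option autoImplicit false

namespace Fermat.Agent.Lib.AbhComp

open Polynomial

/-! ### von Neumann regularity modulo a squarefree polynomial -/

/-- Modulo a squarefree polynomial `G` over a field every `f` satisfies `f (1 - f u) ≡ 0`. -/
theorem exists_mul_one_sub_eq {κ : Type*} [Field κ] (G f : κ[X]) (hG : Squarefree G) :
    ∃ u h : κ[X], f * (1 - f * u) = G * h := by
  classical
  have key : ∀ g1 : κ[X], g1 ∣ f → (∀ h, h ∣ f → h ∣ G → h ∣ g1) → ∀ g2, G = g1 * g2 →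
      ∃ u h : κ[X], f * (1 - f * u) = G * h := by
    rintro g1 ⟨f1, hf1⟩ hgcd g2 hg2
    have hrel : IsRelPrime g1 g2 := by
      have hG' : Squarefree (g1 * g2) := hg2 ▸ hG
      exact (squarefree_mul_iff.mp hG').1
    have hrel2 : IsRelPrime f g2 := by
      intro h hf hg
      have hG' : h ∣ G := hg.trans (Dvd.intro_left g1 hg2.symm)
      exact hrel (hgcd h hf hG') hg
    obtain ⟨u, v, huv⟩ := hrel2.isCoprime
    refine ⟨u, f1 * v, ?_⟩
    have h1 : 1 - f * u = v * g2 := by linear_combination -huv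
    rw [h1, hg2]
    nth_rewrite 1 [hf1]
    ring
  obtain ⟨g2, hg2⟩ : EuclideanDomain.gcd f G ∣ G := EuclideanDomain.gcd_dvd_right f G
  exact key _ (EuclideanDomain.gcd_dvd_left f G) (fun h hf hG' => EuclideanDomain.dvd_gcd hf hG')
    g2 hg2

/-! ### Elementary facts on integer-valued valuations -/

section Val

variable {L : Type*} [Field L] {w : L → ℤ}

theorem w_one (hmul : ∀ x y : L, x ≠ 0 → y ≠ 0 → w (x * y) = w x + w y) : w 1 = 0 := by
  have h := hmul 1 1 one_ne_zero one_ne_zero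
  rw [mul_one] at h
  omega

theorem w_neg_one (hmul : ∀ x y : L, x ≠ 0 → y ≠ 0 → w (x * y) = w x + w y) : w (-1) = 0 := by
  have h := hmul (-1) (-1) (neg_ne_zero.mpr one_ne_zero) (neg_ne_zero.mpr one_ne_zero)
  rw [neg_mul_neg, mul_one, w_one hmul] at h
  omega

theorem w_neg (hmul : ∀ x y : L, x ≠ 0 → y ≠ 0 → w (x * y) = w x + w y) {x : L} (hx : x ≠ 0) :
    w (-x) = w x := by
  have h := hmul (-1) x (neg_ne_zero.mpr one_ne_zero) hx
  rw [neg_one_mul, w_neg_one hmul, zero_add] at h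
  exact h

theorem w_pow (hmul : ∀ x y : L, x ≠ 0 → y ≠ 0 → w (x * y) = w x + w y) {x : L} (hx : x ≠ 0)
    (n : ℕ) : w (x ^ n) = n * w x := by
  induction n with
  | zero => simp [w_one hmul]
  | succ n ih =>
    rw [pow_succ, hmul _ _ (pow_ne_zero n hx) hx, ih]
    push_cast
    ring

theorem w_inv (hmul : ∀ x y : L, x ≠ 0 → y ≠ 0 → w (x * y) = w x + w y) {x : L} (hx : x ≠ 0) :
    w x⁻¹ = -w x := by
  have h := hmul x x⁻¹ hx (inv_ne_zero hx)
  rw [mul_inv_cancel₀ hx, w_one hmul] at h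
  omega

theorem w_div (hmul : ∀ x y : L, x ≠ 0 → y ≠ 0 → w (x * y) = w x + w y) {x y : L} (hx : x ≠ 0)
    (hy : y ≠ 0) : w (x / y) = w x - w y := by
  rw [div_eq_mul_inv, hmul _ _ hx (inv_ne_zero hy), w_inv hmul hy]
  ring

/-- Ultrametric equality: adding something of larger valuation does not change the valuation. -/
theorem w_add_eq (hmul : ∀ x y : L, x ≠ 0 → y ≠ 0 → w (x * y) = w x + w y)
    (hadd : ∀ x y : L, x ≠ 0 → y ≠ 0 → x + y ≠ 0 → min (w x) (w y) ≤ w (x + y))
    {c m : L} (hc : c ≠ 0) (hm : m = 0 ∨ w c < w m) : c + m ≠ 0 ∧ w (c + m) = w c := by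
  rcases eq_or_ne m 0 with rfl | hm0
  · simpa using hc
  · have hlt : w c < w m := hm.resolve_left hm0
    have hne : c + m ≠ 0 := by
      intro h
      have : m = -c := by linear_combination h
      rw [this, w_neg hmul hc] at hlt
      exact lt_irrefl _ hlt
    refine ⟨hne, le_antisymm ?_ ?_⟩
    · have h := hadd (c + m) (-m) hne (neg_ne_zero.mpr hm0) (by simpa using hc)
      rw [add_neg_cancel_right, w_neg hmul hm0] at h
      rcases min_le_iff.mp h with h' | h'
      · exact h'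
      · omega
    · have h := hadd c m hc hm0 hne
      rw [min_eq_left hlt.le] at h
      exact h

/-- The valuation ring of `w`. -/
def valRing (hmul : ∀ x y : L, x ≠ 0 → y ≠ 0 → w (x * y) = w x + w y)
    (hadd : ∀ x y : L, x ≠ 0 → y ≠ 0 → x + y ≠ 0 → min (w x) (w y) ≤ w (x + y)) : Subring L where
  carrier := {x | x = 0 ∨ 0 ≤ w x}
  mul_mem' := by
    rintro x y (rfl | hx) (rfl | hy)
    · left; simp
    · left; simp
    · left; simp
    · rcases eq_or_ne x 0 with rfl | hx0
      · left; simp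
      rcases eq_or_ne y 0 with rfl | hy0
      · left; simp
      right
      rw [hmul x y hx0 hy0]
      omega
  one_mem' := Or.inr (by rw [w_one hmul])
  add_mem' := by
    rintro x y (rfl | hx) (rfl | hy)
    · left; simp
    · right; simpa using hy
    · right; simpa using hx
    · rcases eq_or_ne x 0 with rfl | hx0
      · right; simpa using hy
      rcases eq_or_ne y 0 with rfl | hy0
      · right; simpa using hx
      rcases eq_or_ne (x + y) 0 with h0 | h0
      · left; exact h0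
      right
      exact le_trans (le_min hx hy) (hadd x y hx0 hy0 h0)
  zero_mem' := Or.inl rfl
  neg_mem' := by
    rintro x (rfl | hx)
    · left; simp
    · rcases eq_or_ne x 0 with rfl | hx0
      · left; simp
      right
      rw [w_neg hmul hx0]
      exact hx

theorem mem_valRing (hmul : ∀ x y : L, x ≠ 0 → y ≠ 0 → w (x * y) = w x + w y)
    (hadd : ∀ x y : L, x ≠ 0 → y ≠ 0 → x + y ≠ 0 → min (w x) (w y) ≤ w (x + y)) {x : L} :
    x ∈ valRing hmul hadd ↔ x = 0 ∨ 0 ≤ w x := Iff.rfl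

/-- Elements of positive valuation (or zero) are closed under addition. -/
theorem pos_add (hadd : ∀ x y : L, x ≠ 0 → y ≠ 0 → x + y ≠ 0 → min (w x) (w y) ≤ w (x + y))
    {x y : L} (hx : x = 0 ∨ 0 < w x) (hy : y = 0 ∨ 0 < w y) : x + y = 0 ∨ 0 < w (x + y) := by
  rcases eq_or_ne x 0 with rfl | hx0
  · simpa using hy
  rcases eq_or_ne y 0 with rfl | hy0
  · simpa using hx
  rcases eq_or_ne (x + y) 0 with h0 | h0
  · exact Or.inl h0
  · exact Or.inr (lt_of_lt_of_le (lt_min (hx.resolve_left hx0) (hy.resolve_left hy0))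
      (hadd x y hx0 hy0 h0))

theorem pos_neg (hmul : ∀ x y : L, x ≠ 0 → y ≠ 0 → w (x * y) = w x + w y)
    {x : L} (hx : x = 0 ∨ 0 < w x) : -x = 0 ∨ 0 < w (-x) := by
  rcases eq_or_ne x 0 with rfl | hx0
  · left; simp
  · right
    rw [w_neg hmul hx0]
    exact hx.resolve_left hx0

theorem pos_mul (hmul : ∀ x y : L, x ≠ 0 → y ≠ 0 → w (x * y) = w x + w y)
    {x y : L} (hx : x = 0 ∨ 0 < w x) (hy : y = 0 ∨ 0 ≤ w y) : x * y = 0 ∨ 0 < w (x * y) := by
  rcases eq_or_ne x 0 with rfl | hx0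
  · left; simp
  rcases eq_or_ne y 0 with rfl | hy0
  · left; simp
  right
  rw [hmul x y hx0 hy0]
  have h1 := hx.resolve_left hx0
  have h2 := hy.resolve_left hy0
  omega

end Val

/-- Natural Bezout coefficients for coprime positive integers. -/
theorem exists_nat_bezout {a' b' : ℕ} (hcop : Nat.Coprime a' b') (ha' : 0 < a') (hb' : 0 < b') :
    ∃ x y : ℕ, b' * x = a' * y + 1 := by
  have h := Int.gcd_eq_gcd_ab (a' : ℤ) (b' : ℤ)
  have hg : Int.gcd (a' : ℤ) (b' : ℤ) = 1 := by
    rw [Int.gcd_natCast_natCast]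
    exact hcop
  rw [hg] at h
  obtain ⟨X0, hX0⟩ : ∃ X0, X0 = Int.gcdB (a' : ℤ) (b' : ℤ) := ⟨_, rfl⟩
  obtain ⟨Y0, hY0⟩ : ∃ Y0, Y0 = -Int.gcdA (a' : ℤ) (b' : ℤ) := ⟨_, rfl⟩
  have hrel : (b' : ℤ) * X0 - a' * Y0 = 1 := by
    rw [hX0, hY0]
    push_cast at h
    linarith
  obtain ⟨k, hk⟩ : ∃ k : ℤ, k = |X0| + |Y0| := ⟨_, rfl⟩
  have hk0 : 0 ≤ k := by
    rw [hk]
    positivity
  have ha1 : (1 : ℤ) ≤ a' := by exact_mod_cast ha'
  have hb1 : (1 : ℤ) ≤ b' := by exact_mod_cast hb'
  have hx : 0 ≤ X0 + a' * k := by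
    have h1 : k ≤ a' * k := by nlinarith
    have h2 : -|X0| ≤ X0 := neg_abs_le X0
    have h3 : 0 ≤ |Y0| := abs_nonneg Y0
    linarith
  have hy : 0 ≤ Y0 + b' * k := by
    have h1 : k ≤ b' * k := by nlinarith
    have h2 : -|Y0| ≤ Y0 := neg_abs_le Y0
    have h3 : 0 ≤ |X0| := abs_nonneg X0
    linarith
  refine ⟨(X0 + a' * k).toNat, (Y0 + b' * k).toNat, ?_⟩
  zify
  rw [Int.toNat_of_nonneg hx, Int.toNat_of_nonneg hy]
  linear_combination hrel

/-! ### The monomial Abhyankar lemma -/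

section Main

variable {A L : Type*} [CommRing A] [IsDomain A] [IsDiscreteValuationRing A]
  [Field L] [Algebra A L]

/-- **Monomial Abhyankar lemma.** See the file header. -/
theorem monomial_abhyankar
    (hinj : Function.Injective (algebraMap A L))
    (w : L → ℤ)
    (hmul : ∀ x y : L, x ≠ 0 → y ≠ 0 → w (x * y) = w x + w y)
    (hadd : ∀ x y : L, x ≠ 0 → y ≠ 0 → x + y ≠ 0 → min (w x) (w y) ≤ w (x + y))
    (hA : ∀ x : A, x ≠ 0 → 0 ≤ w (algebraMap A L x))
    (hAm : ∀ x : A, x ≠ 0 → x ∈ IsLocalRing.maximalIdeal A → 0 < w (algebraMap A L x))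
    (hone : ∃ x : L, x ≠ 0 ∧ w x = 1)
    (s : L) (hs0 : s ≠ 0) (hs : 0 < w s)
    (hgen : ∀ x : L, ∃ r q : A[X], aeval s q ≠ 0 ∧ x * aeval s q = aeval s r)
    (t : A) (ht : Irreducible t) (ε : Aˣ) (eP e0 : ℕ) (heP : 0 < eP) (he0 : 0 < e0)
    (hd : IsUnit ((Nat.gcd eP e0 : ℕ) : A))
    (a b : A[X]) (ha : IsUnit (a.coeff 0)) (hb : IsUnit (b.coeff 0))
    (hrel : algebraMap A L ((ε : A) * t ^ eP) * aeval s b = s ^ e0 * aeval s a) :
    w s * (Nat.gcd eP e0 : ℤ) = eP ∧ w (algebraMap A L t) * (Nat.gcd eP e0 : ℤ) = e0 := by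
  classical
  obtain ⟨V, hV⟩ : ∃ V : Subring L, V = valRing hmul hadd := ⟨_, rfl⟩
  have hVmem : ∀ {x : L}, x ∈ V ↔ x = 0 ∨ 0 ≤ w x := by
    intro x
    rw [hV]
    exact Iff.rfl
  obtain ⟨tL, htL⟩ : ∃ tL : L, tL = algebraMap A L t := ⟨_, rfl⟩
  rw [← htL]
  have hmap0 : ∀ x : A, x ≠ 0 → algebraMap A L x ≠ 0 :=
    fun x hx => (map_ne_zero_iff _ hinj).mpr hx
  have htL0 : tL ≠ 0 := htL ▸ hmap0 t ht.ne_zero
  have hwt : 0 < w tL := by
    rw [htL]
    refine hAm t ht.ne_zero ?_
    rw [IsLocalRing.mem_maximalIdeal, mem_nonunits_iff]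
    exact ht.not_isUnit
  have hunit : ∀ x : A, IsUnit x → w (algebraMap A L x) = 0 := by
    intro x hx
    obtain ⟨y, hy⟩ := hx.exists_right_inv
    have hx0 : x ≠ 0 := hx.ne_zero
    have hy0 : y ≠ 0 := by
      rintro rfl
      simp at hy
    have h1 := hA x hx0
    have h2 := hA y hy0
    have h3 := hmul (algebraMap A L x) (algebraMap A L y) (hmap0 x hx0) (hmap0 y hy0)
    rw [← map_mul, hy, map_one, w_one hmul] at h3
    omega
  have hAV : ∀ x : A, algebraMap A L x ∈ V := by
    intro x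
    rcases eq_or_ne x 0 with rfl | hx
    · rw [map_zero]
      exact V.zero_mem
    · exact hVmem.mpr (Or.inr (hA x hx))
  have hsV : s ∈ V := hVmem.mpr (Or.inr hs.le)
  have haevalV : ∀ (y : L), y ∈ V → ∀ p : A[X], aeval y p ∈ V := by
    intro y hy p
    rw [aeval_def, eval₂_eq_sum, Polynomial.sum_def]
    exact Subring.sum_mem V fun n _ => V.mul_mem (hAV _) (V.pow_mem hy n)
  have hdecp : ∀ p : A[X], aeval s p = algebraMap A L (p.coeff 0) + s * aeval s p.divX := by
    intro p
    have h := congrArg (aeval s) (Polynomial.divX_mul_X_add p)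
    rw [map_add, map_mul, aeval_X, aeval_C] at h
    rw [← h]
    ring
  -- polynomials with unit constant term are `w`-units at `s`
  have hpoly : ∀ p : A[X], IsUnit (p.coeff 0) → aeval s p ≠ 0 ∧ w (aeval s p) = 0 := by
    intro p hp
    have hc0 : algebraMap A L (p.coeff 0) ≠ 0 := hmap0 _ hp.ne_zero
    have hcw : w (algebraMap A L (p.coeff 0)) = 0 := hunit _ hp
    have hm : s * aeval s p.divX = 0 ∨
        w (algebraMap A L (p.coeff 0)) < w (s * aeval s p.divX) := by
      rw [hcw]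
      exact pos_mul hmul (Or.inr hs) (hVmem.mp (haevalV s hsV p.divX))
    obtain ⟨h1, h2⟩ := w_add_eq hmul hadd hc0 hm
    rw [hdecp p]
    exact ⟨h1, h2.trans hcw⟩
  obtain ⟨ha0, hwa⟩ := hpoly a ha
  obtain ⟨hb0, hwb⟩ := hpoly b hb
  -- gcd bookkeeping
  obtain ⟨d, hd_def⟩ : ∃ d : ℕ, d = Nat.gcd eP e0 := ⟨_, rfl⟩
  rw [← hd_def] at hd ⊢
  have hdpos : 0 < d := hd_def ▸ Nat.gcd_pos_of_pos_left _ heP
  obtain ⟨a', ha'⟩ : d ∣ eP := hd_def ▸ Nat.gcd_dvd_left eP e0
  obtain ⟨b', hb'⟩ : d ∣ e0 := hd_def ▸ Nat.gcd_dvd_right eP e0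
  have ha'pos : 0 < a' := by
    rcases Nat.eq_zero_or_pos a' with h | h
    · rw [h, mul_zero] at ha'
      omega
    · exact h
  have hb'pos : 0 < b' := by
    rcases Nat.eq_zero_or_pos b' with h | h
    · rw [h, mul_zero] at hb'
      omega
    · exact h
  have hcop : Nat.Coprime a' b' := by
    have h := Nat.coprime_div_gcd_div_gcd (m := eP) (n := e0) (hd_def ▸ hdpos)
    rw [← hd_def] at h
    have h1 : eP / d = a' := by rw [ha', Nat.mul_div_cancel_left _ hdpos]
    have h2 : e0 / d = b' := by rw [hb', Nat.mul_div_cancel_left _ hdpos]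
    rwa [h1, h2] at h
  obtain ⟨x, y, hxy⟩ := exists_nat_bezout hcop ha'pos hb'pos
  -- valuations
  have hε : w (algebraMap A L (ε : A)) = 0 := hunit _ ε.isUnit
  have hε0 : algebraMap A L (ε : A) ≠ 0 := hmap0 _ ε.ne_zero
  have hεt : algebraMap A L ((ε : A) * t ^ eP) = algebraMap A L (ε : A) * tL ^ eP := by
    rw [map_mul, map_pow, htL]
  rw [hεt] at hrel
  have hval : (eP : ℤ) * w tL = e0 * w s := by
    have h := congrArg w hrel
    rw [hmul _ _ (mul_ne_zero hε0 (pow_ne_zero _ htL0)) hb0, hmul _ _ hε0 (pow_ne_zero _ htL0),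
      w_pow hmul htL0, hmul _ _ (pow_ne_zero _ hs0) ha0, w_pow hmul hs0, hε, hwa, hwb] at h
    linarith
  have hval' : (a' : ℤ) * w tL = b' * w s := by
    have h : (d : ℤ) * (a' * w tL) = d * (b' * w s) := by
      rw [ha', hb'] at hval
      push_cast at hval
      linarith
    exact mul_left_cancel₀ (by exact_mod_cast hdpos.ne') h
  obtain ⟨z, hz⟩ : ∃ z : L, z = s ^ b' / tL ^ a' := ⟨_, rfl⟩
  obtain ⟨τ, hτ⟩ : ∃ τ : L, τ = tL ^ x / s ^ y := ⟨_, rfl⟩
  have hz0 : z ≠ 0 := hz ▸ div_ne_zero (pow_ne_zero _ hs0) (pow_ne_zero _ htL0)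
  have hτ0 : τ ≠ 0 := hτ ▸ div_ne_zero (pow_ne_zero _ htL0) (pow_ne_zero _ hs0)
  have hwz : w z = 0 := by
    rw [hz, w_div hmul (pow_ne_zero _ hs0) (pow_ne_zero _ htL0), w_pow hmul hs0,
      w_pow hmul htL0]
    linarith
  have hwτ : w τ = x * w tL - y * w s := by
    rw [hτ, w_div hmul (pow_ne_zero _ htL0) (pow_ne_zero _ hs0), w_pow hmul htL0,
      w_pow hmul hs0]
  have hxy' : (b' : ℤ) * x = a' * y + 1 := by exact_mod_cast hxy
  have hsτ : w s = a' * w τ := by
    rw [hwτ]
    linear_combination (-(x : ℤ)) * hval' - (w s) * hxy'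
  have htτ : w tL = b' * w τ := by
    rw [hwτ]
    linear_combination (-(w tL)) * hxy' - (y : ℤ) * hval'
  have hwτpos : 0 < w τ := by
    by_contra hcon
    have h1 : w τ ≤ 0 := not_lt.mp hcon
    have h2 : (a' : ℤ) * w τ ≤ 0 :=
      mul_nonpos_of_nonneg_of_nonpos (by positivity) h1
    omega
  -- monomial identities
  have hs_eq : s = z ^ x * τ ^ a' := by
    rw [hz, hτ, div_pow, div_pow, ← pow_mul, ← pow_mul, ← pow_mul, ← pow_mul, hxy]
    field_simp
    ring
  have ht_eq : tL = z ^ y * τ ^ b' := by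
    have h1 : x * b' = a' * y + 1 := by rw [mul_comm]; exact hxy
    rw [hz, hτ, div_pow, div_pow, ← pow_mul, ← pow_mul, ← pow_mul, ← pow_mul, h1]
    field_simp
    ring
  -- the ring `B = A[z, τ]`
  obtain ⟨B, hB⟩ : ∃ B : Subalgebra A L, B = Algebra.adjoin A {z, τ} := ⟨_, rfl⟩
  have hzB : z ∈ B := hB ▸ Algebra.subset_adjoin (Set.mem_insert _ _)
  have hτB : τ ∈ B := hB ▸ Algebra.subset_adjoin (Set.mem_insert_of_mem _ rfl)
  have hsB : s ∈ B := by
    rw [hs_eq]
    exact B.mul_mem (B.pow_mem hzB _) (B.pow_mem hτB _)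
  have htB : tL ∈ B := by
    rw [ht_eq]
    exact B.mul_mem (B.pow_mem hzB _) (B.pow_mem hτB _)
  have haevalB : ∀ (y : L), y ∈ B → ∀ p : A[X], aeval y p ∈ B := by
    intro y hy p
    rw [aeval_def, eval₂_eq_sum, Polynomial.sum_def]
    exact Subalgebra.sum_mem B fun n _ => B.mul_mem (B.algebraMap_mem _) (B.pow_mem hy n)
  have hBV : ∀ p ∈ B, p ∈ V := by
    intro p hp
    rw [hB] at hp
    induction hp using Algebra.adjoin_induction with
    | mem u hu =>
      rcases hu with h | h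
      · rw [h]
        exact hVmem.mpr (Or.inr hwz.ge)
      · rw [Set.mem_singleton_iff.mp h]
        exact hVmem.mpr (Or.inr hwτpos.le)
    | algebraMap r => exact hAV r
    | add u v _ _ hu hv => exact V.add_mem hu hv
    | mul u v _ _ hu hv => exact V.mul_mem hu hv
  have hBnn : ∀ p ∈ B, p = 0 ∨ 0 ≤ w p := fun p hp => hVmem.mp (hBV p hp)
  -- `s` and `t` are multiples of `τ` in `B`
  have hsτB : ∃ β ∈ B, s = τ * β := by
    refine ⟨z ^ x * τ ^ (a' - 1), B.mul_mem (B.pow_mem hzB _) (B.pow_mem hτB _), ?_⟩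
    have h1 : τ ^ a' = τ * τ ^ (a' - 1) := by
      rw [← pow_succ', Nat.sub_add_cancel ha'pos]
    calc s = z ^ x * τ ^ a' := hs_eq
      _ = τ * (z ^ x * τ ^ (a' - 1)) := by rw [h1]; ring
  have htτB : ∃ β ∈ B, tL = τ * β := by
    refine ⟨z ^ y * τ ^ (b' - 1), B.mul_mem (B.pow_mem hzB _) (B.pow_mem hτB _), ?_⟩
    have h1 : τ ^ b' = τ * τ ^ (b' - 1) := by
      rw [← pow_succ', Nat.sub_add_cancel hb'pos]
    calc tL = z ^ y * τ ^ b' := ht_eq
      _ = τ * (z ^ y * τ ^ (b' - 1)) := by rw [h1]; ring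
  -- every element of `B` is a polynomial in `z` modulo `τ B`
  have hdecomp : ∀ p ∈ B, ∃ f : A[X], ∃ β ∈ B, p = aeval z f + τ * β := by
    intro p hp
    rw [hB] at hp
    induction hp using Algebra.adjoin_induction with
    | mem u hu =>
      rcases hu with h | h
      · exact ⟨X, 0, B.zero_mem, by rw [h]; simp⟩
      · exact ⟨0, 1, B.one_mem, by rw [Set.mem_singleton_iff.mp h]; simp⟩
    | algebraMap r => exact ⟨C r, 0, B.zero_mem, by simp⟩
    | add u v _ _ hu hv =>
      obtain ⟨f1, β1, hβ1, h1⟩ := hu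
      obtain ⟨f2, β2, hβ2, h2⟩ := hv
      exact ⟨f1 + f2, β1 + β2, B.add_mem hβ1 hβ2, by rw [h1, h2, map_add]; ring⟩
    | mul u v _ _ hu hv =>
      obtain ⟨f1, β1, hβ1, h1⟩ := hu
      obtain ⟨f2, β2, hβ2, h2⟩ := hv
      refine ⟨f1 * f2, β1 * aeval z f2 + aeval z f1 * β2 + τ * β1 * β2, ?_, ?_⟩
      · exact B.add_mem (B.add_mem (B.mul_mem hβ1 (haevalB z hzB f2))
          (B.mul_mem (haevalB z hzB f1) hβ2)) (B.mul_mem (B.mul_mem hτB hβ1) hβ2)
      · rw [h1, h2, map_mul]
        ring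
  -- the relation `z ^ d * a(s) = ε * b(s)`
  have hzd : z ^ d * aeval s a = algebraMap A L (ε : A) * aeval s b := by
    have h1 : z ^ d = s ^ e0 / tL ^ eP := by
      rw [hz, div_pow, ← pow_mul, ← pow_mul, hb', ha', mul_comm b' d, mul_comm a' d]
    rw [h1, div_mul_eq_mul_div, div_eq_iff (pow_ne_zero _ htL0), ← hrel]
    ring
  -- the separable polynomial satisfied by `z` modulo `τ`
  obtain ⟨ua, hua⟩ := ha
  obtain ⟨c, hc⟩ : ∃ c : A, c = (ε : A) * b.coeff 0 * ((ua⁻¹ : Aˣ) : A) := ⟨_, rfl⟩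
  have hcunit : IsUnit c := by
    rw [hc]
    exact (ε.isUnit.mul hb).mul (ua⁻¹).isUnit
  obtain ⟨Gt, hGt⟩ : ∃ Gt : A[X], Gt = X ^ d - C c := ⟨_, rfl⟩
  have hGz : ∃ β ∈ B, aeval z Gt = τ * β := by
    obtain ⟨βs, hβs, hsβ⟩ := hsτB
    refine ⟨βs * (algebraMap A L ((ua⁻¹ : Aˣ) : A) *
      (algebraMap A L (ε : A) * aeval s b.divX - z ^ d * aeval s a.divX)), ?_, ?_⟩
    · exact B.mul_mem hβs (B.mul_mem (B.algebraMap_mem _)
        (B.sub_mem (B.mul_mem (B.algebraMap_mem _) (haevalB s hsB _))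
          (B.mul_mem (B.pow_mem hzB _) (haevalB s hsB _))))
    · have e1 := hdecp a
      have e2 := hdecp b
      rw [← hua] at e1
      have e3 : algebraMap A L (ua : A) * algebraMap A L ((ua⁻¹ : Aˣ) : A) = 1 := by
        rw [← map_mul, Units.mul_inv, map_one]
      have e4 : aeval z Gt = z ^ d - algebraMap A L c := by
        rw [hGt]
        simp
      rw [e4, hc, map_mul, map_mul, ← mul_assoc τ, ← hsβ]
      rw [e1, e2] at hzd
      linear_combination (algebraMap A L ((ua⁻¹ : Aˣ) : A)) * hzd - z ^ d * e3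
  -- KEY: an element of `B` of positive valuation is `τ ·` (element of `B`) up to a `w`-unit
  have hkey : ∀ p ∈ B, p ≠ 0 → 0 < w p →
      ∃ e ∈ B, ∃ β ∈ B, e ≠ 0 ∧ w e = 0 ∧ e * p = τ * β := by
    intro p hp hp0 hwp
    obtain ⟨f, β0, hβ0, hpf⟩ := hdecomp p hp
    have hGsq : Squarefree (Gt.map (IsLocalRing.residue A)) := by
      have h1 : Gt.map (IsLocalRing.residue A) = X ^ d - C (IsLocalRing.residue A c) := by
        rw [hGt]
        simp
      rw [h1]
      apply Polynomial.Separable.squarefree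
      apply separable_X_pow_sub_C
      · have h2 : ((d : ℕ) : IsLocalRing.ResidueField A) = IsLocalRing.residue A ((d : ℕ) : A) := by
          simp
        rw [h2]
        intro h3
        rw [IsLocalRing.residue_eq_zero_iff, IsLocalRing.mem_maximalIdeal, mem_nonunits_iff] at h3
        exact h3 hd
      · intro h3
        rw [IsLocalRing.residue_eq_zero_iff, IsLocalRing.mem_maximalIdeal, mem_nonunits_iff] at h3
        exact h3 hcunit
    obtain ⟨ub, hbar, hvn⟩ := exists_mul_one_sub_eq (Gt.map (IsLocalRing.residue A))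
      (f.map (IsLocalRing.residue A)) hGsq
    obtain ⟨u, rfl⟩ := Polynomial.map_surjective (IsLocalRing.residue A)
      IsLocalRing.residue_surjective ub
    obtain ⟨h, rfl⟩ := Polynomial.map_surjective (IsLocalRing.residue A)
      IsLocalRing.residue_surjective hbar
    have hP : C t ∣ f * (1 - f * u) - Gt * h := by
      have hmap : (f * (1 - f * u) - Gt * h).map (IsLocalRing.residue A) = 0 := by
        simp only [Polynomial.map_sub, Polynomial.map_mul, Polynomial.map_one]
        rw [hvn, sub_self]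
      rw [Polynomial.C_dvd_iff_dvd_coeff]
      intro i
      have h1 : IsLocalRing.residue A ((f * (1 - f * u) - Gt * h).coeff i) = 0 := by
        rw [← Polynomial.coeff_map, hmap, coeff_zero]
      rw [IsLocalRing.residue_eq_zero_iff, ht.maximalIdeal_eq, Ideal.mem_span_singleton] at h1
      exact h1
    obtain ⟨k, hk⟩ := hP
    have hev := congrArg (aeval z) hk
    simp only [map_sub, map_mul, map_one, aeval_C] at hev
    rw [← htL] at hev
    obtain ⟨βG, hβG, hGβ⟩ := hGz
    obtain ⟨βt, hβt, htβ⟩ := htτB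
    -- `aeval z f` has positive valuation (or vanishes)
    have hfz : aeval z f = 0 ∨ 0 < w (aeval z f) := by
      have h1 : aeval z f = p + -(τ * β0) := by rw [hpf]; ring
      rw [h1]
      exact pos_add hadd (Or.inr hwp) (pos_neg hmul (pos_mul hmul (Or.inr hwτpos) (hBnn β0 hβ0)))
    have hm : -(aeval z f * aeval z u) = 0 ∨ w (1 : L) < w (-(aeval z f * aeval z u)) := by
      rw [w_one hmul]
      exact pos_neg hmul (pos_mul hmul hfz (hBnn _ (haevalB z hzB u)))
    obtain ⟨he0, hwe⟩ := w_add_eq hmul hadd (one_ne_zero (α := L)) hm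
    rw [w_one hmul] at hwe
    refine ⟨1 + -(aeval z f * aeval z u),
      B.add_mem B.one_mem (B.neg_mem (B.mul_mem (haevalB z hzB f) (haevalB z hzB u))),
      βG * aeval z h + βt * aeval z k + (1 + -(aeval z f * aeval z u)) * β0,
      B.add_mem (B.add_mem (B.mul_mem hβG (haevalB z hzB h)) (B.mul_mem hβt (haevalB z hzB k)))
        (B.mul_mem (B.add_mem B.one_mem (B.neg_mem (B.mul_mem (haevalB z hzB f)
          (haevalB z hzB u)))) hβ0), he0, hwe, ?_⟩
    rw [hGβ, htβ] at hev
    rw [hpf]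
    linear_combination hev
  -- hence `w (B \ 0) ⊆ ℕ · w τ`
  have hdiv : ∀ n : ℕ, ∀ p ∈ B, p ≠ 0 → w p ≤ n → w τ ∣ w p := by
    intro n
    induction n with
    | zero =>
      intro p hp hp0 hle
      have h0 : 0 ≤ w p := (hBnn p hp).resolve_left hp0
      have h1 : w p = 0 := le_antisymm (by simpa using hle) h0
      rw [h1]
      exact dvd_zero _
    | succ n ih =>
      intro p hp hp0 hle
      have h0 : 0 ≤ w p := (hBnn p hp).resolve_left hp0
      rcases h0.eq_or_lt with h | h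
      · rw [← h]
        exact dvd_zero _
      · obtain ⟨e, _, β, hβB, he0, hwe, heq⟩ := hkey p hp hp0 h
        have hβ0 : β ≠ 0 := by
          rintro rfl
          rw [mul_zero] at heq
          exact (mul_ne_zero he0 hp0) heq
        have hwβ : w p = w β + w τ := by
          have h1 := congrArg w heq
          rw [hmul e p he0 hp0, hmul τ β hτ0 hβ0, hwe] at h1
          omega
        have h2 := ih β hβB hβ0 (by push_cast at hle; omega)
        rw [hwβ]
        exact dvd_add h2 dvd_rfl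
  have hall : ∀ v : L, v ≠ 0 → w τ ∣ w v := by
    intro v hv
    obtain ⟨r, q, hq0, hvq⟩ := hgen v
    have hqB : aeval s q ∈ B := haevalB s hsB q
    have hrB : aeval s r ∈ B := haevalB s hsB r
    have hr0 : aeval s r ≠ 0 := by
      rw [← hvq]
      exact mul_ne_zero hv hq0
    have h1 := hdiv (w (aeval s q)).toNat _ hqB hq0 (Int.self_le_toNat _)
    have h2 := hdiv (w (aeval s r)).toNat _ hrB hr0 (Int.self_le_toNat _)
    have h3 := congrArg w hvq
    rw [hmul v _ hv hq0] at h3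
    have h4 : w v = w (aeval s r) - w (aeval s q) := by omega
    rw [h4]
    exact dvd_sub h2 h1
  obtain ⟨x1, hx1, hwx1⟩ := hone
  have hτ1 : w τ = 1 := by
    have h := hall x1 hx1
    rw [hwx1] at h
    exact Int.eq_one_of_dvd_one hwτpos.le h
  constructor
  · rw [hsτ, hτ1, ha']
    push_cast
    ring
  · rw [htτ, hτ1, hb']
    push_cast
    ring

end Main

/-- `L = F(s)`, `F = Frac A`: every element of `L` is a quotient of two polynomials in `s` with
coefficients in `A` (the shape of the hypothesis `hgen` of `monomial_abhyankar`). -/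
theorem exists_poly_of_adjoin_eq_top {A F L : Type*} [CommRing A] [IsDomain A] [Field F]
    [Algebra A F] [IsFractionRing A F] [Field L] [Algebra A L] [Algebra F L] [IsScalarTower A F L]
    (s : L) (hgen : IntermediateField.adjoin F {s} = ⊤) (x : L) :
    ∃ r q : A[X], aeval s q ≠ 0 ∧ x * aeval s q = aeval s r := by
  have hx : x ∈ IntermediateField.adjoin F {s} := by
    rw [hgen]
    trivial
  rw [IntermediateField.mem_adjoin_simple_iff] at hx
  obtain ⟨r0, q0, hx⟩ := hx
  by_cases hq : aeval s q0 = 0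
  · refine ⟨0, 1, by simp, ?_⟩
    rw [hx, hq, div_zero]
    simp
  · obtain ⟨br, hbr, hr⟩ := IsLocalization.integerNormalization_spec (nonZeroDivisors A) r0
    obtain ⟨bq, hbq, hq1⟩ := IsLocalization.integerNormalization_spec (nonZeroDivisors A) q0
    have hinj : Function.Injective (algebraMap A L) := by
      rw [IsScalarTower.algebraMap_eq A F L]
      exact (algebraMap F L).injective.comp (IsFractionRing.injective A F)
    have key : ∀ (c : A) (g : F[X]) (g1 : A[X]), g1.map (algebraMap A F) = c • g →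
        aeval s g1 = algebraMap A L c * aeval s g := by
      intro c g g1 h
      rw [← Polynomial.aeval_map_algebraMap F s g1, h, algebra_compatible_smul F c g, map_smul,
        Algebra.smul_def, ← IsScalarTower.algebraMap_apply]
    have er := key br r0 _ hr
    have eq := key bq q0 _ hq1
    have hbr0 : algebraMap A L br ≠ 0 :=
      (map_ne_zero_iff _ hinj).mpr (nonZeroDivisors.ne_zero hbr)
    have hbq0 : algebraMap A L bq ≠ 0 :=
      (map_ne_zero_iff _ hinj).mpr (nonZeroDivisors.ne_zero hbq)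
    refine ⟨C bq * IsLocalization.integerNormalization (nonZeroDivisors A) r0,
      C br * IsLocalization.integerNormalization (nonZeroDivisors A) q0, ?_, ?_⟩
    · rw [map_mul, aeval_C, eq]
      exact mul_ne_zero hbr0 (mul_ne_zero hbq0 hq)
    · rw [map_mul, map_mul, aeval_C, aeval_C, er, eq, hx]
      field_simp

end Fermat.Agent.Lib.AbhComp
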