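/-
MONOMIAL ABHYANKAR LEMMA for Prelude places (helper281).  Wrapper of `Lib/AbhComp.lean`.

`P : Place K F` below `Q : Place K L`, `L = F(s)`, `0 < Q.ord s`, `t0 : F` with `0 < P.ord t0`,
and a relation `t0 * b(s) = s ^ e0 * a(s)` with `a, b : K[X]`, `a(0) b(0) ≠ 0`, `char K = 0`.
Then `Q.ord s = P.ord t0 / gcd (P.ord t0) e0` and `e(Q/P) = e0 / gcd (P.ord t0) e0`.
In particular `P.ord t0 ∣ e0 → Q.ord s = 1`: the compositum `F(s)` is unramified over the `s`-line
at `Q` (Abhyankar's lemma for the compositum of `F` with a rational function field `K(s)`,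
`t0 = s ^ e0 * (unit at s = 0)`).
-/
import Fermat.Agent.Lib.AbhComp
import Fermat.Agent.S24.FF.Ord

set_option autoImplicit false

namespace Fermat.Agent.Lib.AbhComp

open Polynomial AlgebraicCurve

variable {K F L : Type*} [Field K] [Field F] [Field L] [Algebra K F] [Algebra K L] [Algebra F L]
  [IsScalarTower K F L]

/-- **Monomial Abhyankar lemma, places form.** -/
theorem place_ord_of_monomial_rel [CharZero K]
    (P : Place K F) (Q : Place K L)
    (hQP : Q.toValuationSubring.comap (algebraMap F L) = P.toValuationSubring)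
    (s : L) (hs : 0 < Q.ord s) (hgen : IntermediateField.adjoin F {s} = ⊤)
    (t0 : F) (ht0 : 0 < P.ord t0)
    (a b : K[X]) (ha : a.coeff 0 ≠ 0) (hb : b.coeff 0 ≠ 0) (e0 : ℕ) (he0 : 0 < e0)
    (hrel : algebraMap F L t0 * aeval s b = s ^ e0 * aeval s a) :
    Q.ord s * (Nat.gcd (P.ord t0).toNat e0 : ℤ) = P.ord t0 ∧
      ∀ f : F, f ≠ 0 →
        Q.ord (algebraMap F L f) * (Nat.gcd (P.ord t0).toNat e0 : ℤ) = e0 * P.ord f := by
  classical
  have hs0 : s ≠ 0 := by
    rintro rfl
    simp at hs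
  have ht00 : t0 ≠ 0 := by
    rintro rfl
    simp at ht0
  obtain ⟨t, ht⟩ := IsDiscreteValuationRing.exists_irreducible P.toValuationSubring
  obtain ⟨ε, hεt⟩ := P.exists_unit_mul_zpow ht00 ht
  obtain ⟨eP, heP⟩ : ∃ eP : ℕ, (eP : ℤ) = P.ord t0 :=
    ⟨(P.ord t0).toNat, Int.toNat_of_nonneg ht0.le⟩
  have hePpos : 0 < eP := by
    have h : (0 : ℤ) < eP := heP ▸ ht0
    exact_mod_cast h
  have hePnat : (P.ord t0).toNat = eP := by
    rw [← heP, Int.toNat_natCast]
  rw [← heP, zpow_natCast] at hεt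
  rw [hePnat, ← heP]
  have hKAL : IsScalarTower K P.toValuationSubring L := IsScalarTower.of_algebraMap_eq (fun c => by
    rw [IsScalarTower.algebraMap_apply K F L]
    rfl)
  have hmemQ : ∀ f : F, f ∈ P.toValuationSubring ↔ algebraMap F L f ∈ Q.toValuationSubring := by
    intro f
    rw [← hQP, ValuationSubring.mem_comap]
  have hinj : Function.Injective (algebraMap P.toValuationSubring L) := by
    rw [IsScalarTower.algebraMap_eq P.toValuationSubring F L]
    exact (algebraMap F L).injective.comp (IsFractionRing.injective _ F)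
  have hAL : ∀ x : P.toValuationSubring,
      algebraMap P.toValuationSubring L x = algebraMap F L (x : F) := fun x => rfl
  have hA : ∀ x : P.toValuationSubring, x ≠ 0 →
      0 ≤ Q.ord (algebraMap P.toValuationSubring L x) := by
    intro x _
    rw [hAL]
    exact Fermat.Agent.S24.FF.ord_nonneg_of_mem Q ((hmemQ _).mp x.2)
  have hAm : ∀ x : P.toValuationSubring, x ≠ 0 → x ∈ IsLocalRing.maximalIdeal P.toValuationSubring →
      0 < Q.ord (algebraMap P.toValuationSubring L x) := by
    intro x hx hxm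
    have h0 := hA x hx
    rcases h0.eq_or_lt with h | h
    · exfalso
      have hxF : (x : F) ≠ 0 := by
        intro h'
        exact hx (Subtype.ext h')
      have hxL : algebraMap F L (x : F) ≠ 0 := (map_ne_zero_iff _ (algebraMap F L).injective).mpr hxF
      have h1 : 0 ≤ Q.ord (algebraMap F L (x : F))⁻¹ := by
        rw [Q.ord_inv, ← hAL, ← h, neg_zero]
      have h2 : (algebraMap F L (x : F))⁻¹ ∈ Q.toValuationSubring :=
        (Fermat.Agent.S24.FF.ord_nonneg_iff Q (inv_ne_zero hxL)).mp h1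
      rw [← map_inv₀, ← hmemQ] at h2
      have hunit : IsUnit x := by
        refine isUnit_iff_exists_inv.mpr ⟨⟨(x : F)⁻¹, h2⟩, Subtype.ext ?_⟩
        show (x : F) * (x : F)⁻¹ = 1
        exact mul_inv_cancel₀ hxF
      rw [IsLocalRing.mem_maximalIdeal, mem_nonunits_iff] at hxm
      exact hxm hunit
    · exact h
  have hone : ∃ v : L, v ≠ 0 ∧ Q.ord v = 1 := by
    obtain ⟨ϖ, hϖ⟩ := IsDiscreteValuationRing.exists_irreducible Q.toValuationSubring
    refine ⟨(ϖ : L), ?_, Q.ord_coe_irreducible hϖ⟩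
    intro h
    exact hϖ.ne_zero (Subtype.ext h)
  have hd : IsUnit ((Nat.gcd eP e0 : ℕ) : P.toValuationSubring) := by
    have h1 : ((Nat.gcd eP e0 : ℕ) : K) ≠ 0 :=
      Nat.cast_ne_zero.mpr (Nat.gcd_pos_of_pos_left _ hePpos).ne'
    have h2 := (isUnit_iff_ne_zero.mpr h1).map (algebraMap K P.toValuationSubring)
    rwa [map_natCast] at h2
  have hau : IsUnit ((a.map (algebraMap K P.toValuationSubring)).coeff 0) := by
    rw [coeff_map]
    exact (isUnit_iff_ne_zero.mpr ha).map _
  have hbu : IsUnit ((b.map (algebraMap K P.toValuationSubring)).coeff 0) := by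
    rw [coeff_map]
    exact (isUnit_iff_ne_zero.mpr hb).map _
  have hrel' : algebraMap P.toValuationSubring L ((ε : P.toValuationSubring) * t ^ eP) *
      aeval s (b.map (algebraMap K P.toValuationSubring)) =
      s ^ e0 * aeval s (a.map (algebraMap K P.toValuationSubring)) := by
    rw [Polynomial.aeval_map_algebraMap, Polynomial.aeval_map_algebraMap, hAL, ← hrel, hεt]
    rfl
  obtain ⟨h1, h2⟩ := monomial_abhyankar (A := P.toValuationSubring) (L := L) hinj Q.ord
    (fun x y hx hy => Q.ord_mul hx hy)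
    (fun x y _ _ hxy => Fermat.Agent.S24.FF.ord_add_ge Q hxy)
    hA hAm hone s hs0 hs
    (exists_poly_of_adjoin_eq_top (A := P.toValuationSubring) (F := F) s hgen)
    t ht ε eP e0 hePpos he0 hd _ _ hau hbu hrel'
  refine ⟨h1, ?_⟩
  intro f hf
  obtain ⟨u, hu⟩ := P.exists_unit_mul_zpow hf ht
  have htF : (t : F) ≠ 0 := by
    intro h
    exact ht.ne_zero (Subtype.ext h)
  have huF : ((u : P.toValuationSubring) : F) ≠ 0 := by
    intro h
    exact u.ne_zero (Subtype.ext h)
  have huL : algebraMap F L ((u : P.toValuationSubring) : F) ≠ 0 :=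
    (map_ne_zero_iff _ (algebraMap F L).injective).mpr huF
  have htL : algebraMap F L (t : F) ≠ 0 :=
    (map_ne_zero_iff _ (algebraMap F L).injective).mpr htF
  -- units of `O_P` are units of `O_Q`
  have hwu : Q.ord (algebraMap F L ((u : P.toValuationSubring) : F)) = 0 := by
    have e1 := hA (u : P.toValuationSubring) u.ne_zero
    have e2 := hA ((u⁻¹ : (P.toValuationSubring)ˣ) : P.toValuationSubring) (u⁻¹).ne_zero
    have e3 := Q.ord_mul (hinj.ne_iff' (map_zero _) |>.mpr u.ne_zero)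
      (hinj.ne_iff' (map_zero _) |>.mpr (u⁻¹).ne_zero)
    rw [← map_mul, Units.mul_inv, map_one, Q.ord_one] at e3
    rw [← hAL]
    omega
  have hfL : algebraMap F L f = algebraMap F L ((u : P.toValuationSubring) : F) *
      (algebraMap F L (t : F)) ^ (P.ord f) := by
    conv_lhs => rw [hu]
    rw [map_mul, map_zpow₀]
  rw [hfL, Q.ord_mul huL (zpow_ne_zero _ htL), hwu, zero_add, Q.ord_zpow, ← hAL, mul_assoc, h2]
  ring

/-- Unramified case: if `P.ord t0 ∣ e0` then `s` is a uniformiser at `Q`. -/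
theorem place_ord_eq_one_of_dvd [CharZero K]
    (P : Place K F) (Q : Place K L)
    (hQP : Q.toValuationSubring.comap (algebraMap F L) = P.toValuationSubring)
    (s : L) (hs : 0 < Q.ord s) (hgen : IntermediateField.adjoin F {s} = ⊤)
    (t0 : F) (ht0 : 0 < P.ord t0)
    (a b : K[X]) (ha : a.coeff 0 ≠ 0) (hb : b.coeff 0 ≠ 0) (e0 : ℕ) (he0 : 0 < e0)
    (hrel : algebraMap F L t0 * aeval s b = s ^ e0 * aeval s a)
    (hdvd : P.ord t0 ∣ (e0 : ℤ)) : Q.ord s = 1 := by
  obtain ⟨h1, -⟩ := place_ord_of_monomial_rel P Q hQP s hs hgen t0 ht0 a b ha hb e0 he0 hrel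
  obtain ⟨eP, heP⟩ : ∃ eP : ℕ, (eP : ℤ) = P.ord t0 :=
    ⟨(P.ord t0).toNat, Int.toNat_of_nonneg ht0.le⟩
  have hePnat : (P.ord t0).toNat = eP := by
    rw [← heP, Int.toNat_natCast]
  rw [hePnat, ← heP] at h1
  rw [← heP] at hdvd ht0
  have hdvd' : eP ∣ e0 := by exact_mod_cast hdvd
  rw [Nat.gcd_eq_left hdvd'] at h1
  have hpos : (eP : ℤ) ≠ 0 := ht0.ne'
  exact mul_right_cancel₀ hpos (by rw [h1, one_mul])

end Fermat.Agent.Lib.AbhComp
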