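import Mathlib

set_option autoImplicit false
set_option linter.overlappingInstances false
set_option linter.unusedSectionVars false

open Polynomial

namespace Fermat.Agent.Lib.Abhyankar

section Ord

variable {D : Type*} [CommRing D] [IsDedekindDomain D] (P : Ideal D)

theorem mem_pow_iff_le_emultiplicity (x : D) (n : ℕ) :
    x ∈ P ^ n ↔ (n : ℕ∞) ≤ emultiplicity P (Ideal.span {x}) := by
  rw [← Ideal.dvd_span_singleton, pow_dvd_iff_le_emultiplicity]

variable [hP : P.IsPrime] (hP0 : P ≠ ⊥)

include hP0 in
theorem emultiplicity_span_mul (x y : D) :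
    emultiplicity P (Ideal.span {x * y}) =
      emultiplicity P (Ideal.span {x}) + emultiplicity P (Ideal.span {y}) := by
  rw [← Ideal.span_singleton_mul_span_singleton, emultiplicity_mul (Ideal.prime_of_isPrime hP0 hP)]

include hP0 in
theorem emultiplicity_span_pow (x : D) (n : ℕ) :
    emultiplicity P (Ideal.span {x ^ n}) = n * emultiplicity P (Ideal.span {x}) := by
  rw [← Ideal.span_singleton_pow, emultiplicity_pow (Ideal.prime_of_isPrime hP0 hP)]

theorem emultiplicity_span_eq_zero {x : D} (hx : x ∉ P) :
    emultiplicity P (Ideal.span {x}) = 0 := by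
  rw [emultiplicity_eq_zero, Ideal.dvd_span_singleton]
  exact hx

include hP0 in
theorem emultiplicity_span_ne_top {x : D} (hx : x ≠ 0) :
    emultiplicity P (Ideal.span {x}) ≠ ⊤ := by
  rw [← finiteMultiplicity_iff_emultiplicity_ne_top]
  exact FiniteMultiplicity.of_prime_left (Ideal.prime_of_isPrime hP0 hP) (by simpa using hx)

end Ord

section Different

variable (A K L : Type*) {B : Type*} [CommRing A] [Field K] [CommRing B] [Field L]
  [Algebra A K] [Algebra B L] [Algebra A B] [Algebra K L] [Algebra A L]
  [IsScalarTower A K L] [IsScalarTower A B L] [IsFractionRing A K]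
  [FiniteDimensional K L] [Algebra.IsSeparable K L] [IsIntegralClosure B A L]
  [IsFractionRing B L] [IsDedekindDomain A] [IsDedekindDomain B]
  [Module.IsTorsionFree A B] [Module.Finite A B]

/-- **Different bound.** If `L = K(x)`, `F(x) = 0` with `F ∈ A[X]`, and `P ^ e ∣ p B` for a maximal
ideal `p` of `A`, then `F'(x) ∈ P ^ (e - 1)`. -/
theorem aeval_derivative_mem_pow (x : B) (hx : Algebra.adjoin K {algebraMap B L x} = ⊤)
    (F : A[X]) (hF : aeval x F = 0) {p : Ideal A} [p.IsMaximal] (hp : p ≠ ⊥)
    (P : Ideal B) {e : ℕ} (he : e ≠ 0) (hP : P ^ e ∣ p.map (algebraMap A B)) :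
    aeval x (derivative F) ∈ P ^ (e - 1) := by
  have hint : IsIntegral A x := IsIntegralClosure.isIntegral A L x
  obtain ⟨h, rfl⟩ := minpoly.isIntegrallyClosed_dvd hint hF
  have h1 : aeval x (derivative (minpoly A x)) ∈ differentIdeal A B :=
    aeval_derivative_mem_differentIdeal A K L x hx
  have h2 : differentIdeal A B ≤ P ^ (e - 1) :=
    Ideal.le_of_dvd (pow_sub_one_dvd_differentIdeal_aux A K L P he hp hP)
  rw [derivative_mul, map_add, map_mul, map_mul, minpoly.aeval, zero_mul, add_zero]
  exact Ideal.mul_mem_right _ _ (h2 h1)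

/-- (U) Adjoining an `m`-th root of a unit (`m` invertible) is unramified: no prime `Q` of `B`
has `p B ≤ Q ^ 2`. -/
theorem not_map_le_sq_of_pow_eq_unit (z : B) (hz : Algebra.adjoin K {algebraMap B L z} = ⊤)
    (m : ℕ) (η : A) (hη : IsUnit η) (hm : IsUnit (m : A)) (hzm : z ^ m = algebraMap A B η)
    {p : Ideal A} [p.IsMaximal] (hp : p ≠ ⊥) (Q : Ideal B) [hQ : Q.IsPrime] :
    ¬ p.map (algebraMap A B) ≤ Q ^ 2 := by
  intro hle
  have hm0 : m ≠ 0 := by
    rintro rfl
    simp at hm
  have hF : aeval z (X ^ m - C η : A[X]) = 0 := by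
    simp [hzm]
  have h1 := aeval_derivative_mem_pow A K L z hz (X ^ m - C η) hF hp Q (e := 2) (by norm_num)
    (Ideal.dvd_iff_le.mpr hle)
  have hzu : IsUnit z := by
    have : IsUnit (z ^ m) := by
      rw [hzm]; exact hη.map _
    exact (isUnit_pow_iff hm0).mp this
  have hmu : IsUnit ((m : ℕ) : B) := by
    have := hm.map (algebraMap A B)
    simpa using this
  have h2 : aeval z (derivative (X ^ m - C η : A[X])) = (m : B) * z ^ (m - 1) := by
    simp [derivative_X_pow]
  rw [h2] at h1
  have h3 : IsUnit ((m : B) * z ^ (m - 1)) := hmu.mul (hzu.pow _)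
  have h4 : Q = ⊤ := Ideal.eq_top_of_isUnit_mem _ (by simpa using h1) h3
  exact hQ.ne_top h4

/-- (E) Adjoining a `k`-th root `s` of an element `c` with `c ∈ p`, `c ∉ p ^ 2` (`k` invertible
mod `p`): `s` is a uniformiser at every prime `P` of `B` above `p`. -/
theorem mem_and_not_mem_sq_of_pow_eq (s : B) (hs : Algebra.adjoin K {algebraMap B L s} = ⊤)
    (k : ℕ) (c : A) (hsk : s ^ k = algebraMap A B c)
    {p : Ideal A} [p.IsMaximal] (hp : p ≠ ⊥) (hc : c ∈ p) (hc2 : c ∉ p ^ 2) (hk : (k : A) ∉ p)
    (P : Ideal B) [hP : P.IsPrime] (hPp : P.comap (algebraMap A B) = p) :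
    s ∈ P ∧ s ∉ P ^ 2 := by
  have hinj : Function.Injective (algebraMap A B) := FaithfulSMul.algebraMap_injective A B
  have hk0 : k ≠ 0 := by
    rintro rfl
    exact hk (by simp)
  have hP0 : P ≠ ⊥ := by
    rintro rfl
    apply hp
    rw [← hPp]
    exact (Ideal.comap_bot_of_injective _ hinj)
  have hcP : algebraMap A B c ∈ P := by
    have : c ∈ P.comap (algebraMap A B) := hPp ▸ hc
    exact this
  have hsP : s ∈ P := hP.mem_of_pow_mem k (hsk ▸ hcP)
  refine ⟨hsP, ?_⟩
  have hc0 : c ≠ 0 := by
    rintro rfl
    exact hc2 (Ideal.zero_mem _)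
  have hs0 : s ≠ 0 := by
    rintro rfl
    rw [zero_pow hk0] at hsk
    exact hc0 (hinj (by rw [← hsk, map_zero]))
  -- the exact order of `s` at `P`
  obtain ⟨a, ha⟩ := ENat.ne_top_iff_exists.mp (emultiplicity_span_ne_top P hP0 hs0)
  have ha1 : 1 ≤ a := by
    have := (mem_pow_iff_le_emultiplicity P s 1).mp (by simpa using hsP)
    rw [← ha] at this
    exact_mod_cast this
  -- `span {c} = p * J` with `J ⊄ p`
  obtain ⟨J, hJ⟩ : p ∣ Ideal.span {c} := Ideal.dvd_span_singleton.mpr hc
  have hJp : ¬ J ≤ p := by
    intro hle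
    apply hc2
    have : Ideal.span {c} ≤ p ^ 2 := by
      rw [hJ, sq]
      exact Ideal.mul_mono_right hle
    exact this (Ideal.mem_span_singleton_self c)
  obtain ⟨d, hdJ, hdp⟩ := SetLike.not_le_iff_exists.mp hJp
  -- `p B ≤ P ^ (k * a)`
  have hmap : p.map (algebraMap A B) ≤ P ^ (k * a) := by
    rw [Ideal.map_le_iff_le_comap]
    intro y hy
    rw [Ideal.mem_comap, mem_pow_iff_le_emultiplicity]
    have hdy : d * y ∈ Ideal.span {c} := by
      rw [hJ, mul_comm d y]
      exact Ideal.mul_mem_mul hy hdJ
    obtain ⟨r, hr⟩ := Ideal.mem_span_singleton'.mp hdy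
    have hdP : algebraMap A B d ∉ P := by
      intro h
      apply hdp
      rw [← hPp]
      exact h
    have e1 : emultiplicity P (Ideal.span {algebraMap A B d * algebraMap A B y}) =
        emultiplicity P (Ideal.span {algebraMap A B y}) := by
      rw [emultiplicity_span_mul P hP0, emultiplicity_span_eq_zero P hdP, zero_add]
    have e2 : algebraMap A B d * algebraMap A B y = algebraMap A B r * s ^ k := by
      rw [← map_mul, ← hr, map_mul, hsk]
    rw [← e1, e2, emultiplicity_span_mul P hP0, emultiplicity_span_pow P hP0, ← ha]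
    push_cast
    exact le_add_self
  have hka : k * a ≠ 0 := Nat.mul_ne_zero hk0 (by omega)
  have hF : aeval s (X ^ k - C c : A[X]) = 0 := by
    simp [hsk]
  have h1 := aeval_derivative_mem_pow A K L s hs (X ^ k - C c) hF hp P hka
    (Ideal.dvd_iff_le.mpr hmap)
  have h2 : aeval s (derivative (X ^ k - C c : A[X])) = (k : B) * s ^ (k - 1) := by
    simp [derivative_X_pow]
  rw [h2, mem_pow_iff_le_emultiplicity, emultiplicity_span_mul P hP0,
    emultiplicity_span_pow P hP0, ← ha] at h1
  have hkP : ((k : ℕ) : B) ∉ P := by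
    intro h
    apply hk
    rw [← hPp, Ideal.mem_comap]
    simpa using h
  rw [emultiplicity_span_eq_zero P hkP, zero_add] at h1
  have h3 : k * a - 1 ≤ (k - 1) * a := by exact_mod_cast h1
  have ha' : a = 1 := by
    rcases Nat.lt_or_ge a 2 with h | h
    · omega
    · exfalso
      have hk1 : 1 ≤ k := Nat.one_le_iff_ne_zero.mpr hk0
      obtain ⟨k', rfl⟩ : ∃ k', k = k' + 1 := ⟨k - 1, by omega⟩
      simp only [Nat.add_sub_cancel] at h3
      have : (k' + 1) * a = k' * a + a := by ring
      omega
  intro hs2
  have := (mem_pow_iff_le_emultiplicity P s 2).mp hs2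
  rw [← ha, ha'] at this
  norm_num at this

end Different


section Tower

/-- **Abhyankar's lemma, tower form.** `A` a DVR with uniformiser `t`, `K = Frac A` of
characteristic zero; `K ⊆ M ⊆ L` finite, `C`, `B` the integral closures of `A` in `M`, `L`.
If `M = K(z)` with `z ^ m = η` a unit of `A`, and `L = M(s)` with `s ^ k = t * z`
(`m`, `k` invertible in `A`), then `s` is a uniformiser at every nonzero prime of `B`. -/
theorem tower {A K M L C B : Type*} [CommRing A] [IsDomain A] [IsDiscreteValuationRing A]
    [Field K] [Algebra A K] [IsFractionRing A K] [CharZero K]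
    [Field M] [Algebra K M] [Algebra A M] [IsScalarTower A K M] [FiniteDimensional K M]
    [Field L] [Algebra K L] [Algebra M L] [Algebra A L] [IsScalarTower K M L]
    [IsScalarTower A K L] [IsScalarTower A M L] [FiniteDimensional M L]
    [CommRing C] [Algebra A C] [Algebra C M] [IsScalarTower A C M] [IsIntegralClosure C A M]
    [CommRing B] [Algebra A B] [Algebra B L] [IsScalarTower A B L] [IsIntegralClosure B A L]
    [Algebra C B] [Algebra C L] [IsScalarTower A C B] [IsScalarTower C B L] [IsScalarTower C M L]
    (t : A) (ht : Irreducible t) (η : A) (hη : IsUnit η) (m k : ℕ)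
    (hm : IsUnit (m : A)) (hk : IsUnit (k : A))
    (z : C) (hz : Algebra.adjoin K {algebraMap C M z} = ⊤) (hzm : z ^ m = algebraMap A C η)
    (s : B) (hs : Algebra.adjoin M {algebraMap B L s} = ⊤)
    (hsk : s ^ k = algebraMap C B (algebraMap A C t * z))
    (P : Ideal B) [hP : P.IsPrime] (hP0 : P ≠ ⊥) : s ∈ P ∧ s ∉ P ^ 2 := by
  have : CharZero M := charZero_of_injective_algebraMap (algebraMap K M).injective
  have : FiniteDimensional K L := FiniteDimensional.trans K M L
  have hCM : Function.Injective (algebraMap C M) := IsIntegralClosure.algebraMap_injective C A M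
  have hBL : Function.Injective (algebraMap B L) := IsIntegralClosure.algebraMap_injective B A L
  have : IsDomain C := hCM.isDomain
  have : IsDomain B := hBL.isDomain
  have : IsDedekindDomain C := IsIntegralClosure.isDedekindDomain A K M C
  have : IsDedekindDomain B := IsIntegralClosure.isDedekindDomain A K L B
  have : IsFractionRing C M := IsIntegralClosure.isFractionRing_of_finite_extension A K M C
  have : IsFractionRing B L := IsIntegralClosure.isFractionRing_of_finite_extension A K L B
  have : Algebra.IsIntegral A C := IsIntegralClosure.isIntegral_algebra A M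
  have : Algebra.IsIntegral A B := IsIntegralClosure.isIntegral_algebra A L
  have : IsScalarTower A C L := IsScalarTower.of_algebraMap_eq fun x => by
    rw [IsScalarTower.algebraMap_apply A M L, IsScalarTower.algebraMap_apply A C M,
      ← IsScalarTower.algebraMap_apply C M L]
  have : IsIntegralClosure B C L := IsIntegralClosure.tower_top (R := A)
  have : Algebra.IsIntegral C B := IsIntegralClosure.isIntegral_algebra C L
  have : Module.Finite A C := IsIntegralClosure.finite A K M C
  have : Module.Finite C B := IsIntegralClosure.finite C M L B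
  have hAC : Function.Injective (algebraMap A C) := by
    have h : Function.Injective (algebraMap A M) := by
      rw [IsScalarTower.algebraMap_eq A K M]
      exact (algebraMap K M).injective.comp (IsFractionRing.injective A K)
    rw [IsScalarTower.algebraMap_eq A C M] at h
    exact Function.Injective.of_comp h
  have hCB : Function.Injective (algebraMap C B) := by
    have h : Function.Injective (algebraMap C L) := by
      rw [IsScalarTower.algebraMap_eq C M L]
      exact (algebraMap M L).injective.comp hCM
    rw [IsScalarTower.algebraMap_eq C B L] at h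
    exact Function.Injective.of_comp h
  have : Module.IsTorsionFree A C := Module.isTorsionFree_iff_algebraMap_injective.mpr hAC
  have : Module.IsTorsionFree C B := Module.isTorsionFree_iff_algebraMap_injective.mpr hCB
  -- the primes
  set p : Ideal A := IsLocalRing.maximalIdeal A with hpdef
  have hp0 : p ≠ ⊥ := IsDiscreteValuationRing.not_a_field A
  set Q : Ideal C := P.comap (algebraMap C B) with hQdef
  have hQprime : Q.IsPrime := Ideal.comap_isPrime _ _
  have hQ0 : Q ≠ ⊥ := fun h => hP0 (Ideal.eq_bot_of_comap_eq_bot h)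
  have hQmax : Q.IsMaximal := hQprime.isMaximal hQ0
  have hQp : Q.comap (algebraMap A C) = p := by
    have h0 : Q.comap (algebraMap A C) ≠ ⊥ := fun h => hQ0 (Ideal.eq_bot_of_comap_eq_bot h)
    have hpr : (Q.comap (algebraMap A C)).IsPrime := Ideal.comap_isPrime _ _
    exact IsLocalRing.eq_maximalIdeal (hpr.isMaximal h0)
  have hm0 : m ≠ 0 := by
    rintro rfl
    simp at hm
  have hzu : IsUnit z := by
    have : IsUnit (z ^ m) := by
      rw [hzm]; exact hη.map _
    exact (isUnit_pow_iff hm0).mp this
  -- (U): `t ∉ Q ^ 2`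
  have hU := not_map_le_sq_of_pow_eq_unit A K M z hz m η hη hm hzm hp0 Q
  have htQ : algebraMap A C t ∈ Q := by
    have : t ∈ Q.comap (algebraMap A C) := by
      rw [hQp, hpdef, ht.maximalIdeal_eq]
      exact Ideal.mem_span_singleton_self t
    exact this
  have htQ2 : algebraMap A C t ∉ Q ^ 2 := by
    intro h
    apply hU
    rw [hpdef, ht.maximalIdeal_eq, Ideal.map_span, Set.image_singleton, Ideal.span_le,
      Set.singleton_subset_iff]
    exact h
  have hc : algebraMap A C t * z ∈ Q := Ideal.mul_mem_right _ _ htQ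
  have hc2 : algebraMap A C t * z ∉ Q ^ 2 := by
    intro h
    apply htQ2
    obtain ⟨w, hw⟩ := hzu.exists_right_inv
    have := Ideal.mul_mem_right w _ h
    rwa [mul_assoc, hw, mul_one] at this
  have hkQ : ((k : ℕ) : C) ∉ Q := by
    intro h
    have hu : IsUnit ((k : ℕ) : C) := by
      have := hk.map (algebraMap A C)
      simpa using this
    exact hQprime.ne_top (Ideal.eq_top_of_isUnit_mem _ h hu)
  exact mem_and_not_mem_sq_of_pow_eq C M L s hs k (algebraMap A C t * z) hsk hQ0 hc hc2 hkQ P rfl

end Tower


section Main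

theorem adjoin_eq_top_of_tower (K M : Type*) {L : Type*} [CommSemiring K] [CommSemiring M]
    [Semiring L] [Algebra K M] [Algebra M L] [Algebra K L] [IsScalarTower K M L] (S : Set L)
    (h : Algebra.adjoin K S = ⊤) : Algebra.adjoin M S = ⊤ := by
  rw [eq_top_iff]
  rintro x -
  have hx : x ∈ Algebra.adjoin K S := by rw [h]; trivial
  induction hx using Algebra.adjoin_induction with
  | mem y hy => exact Algebra.subset_adjoin hy
  | algebraMap r =>
    rw [IsScalarTower.algebraMap_apply K M L]
    exact Subalgebra.algebraMap_mem _ _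
  | add y z _ _ hy hz => exact add_mem hy hz
  | mul y z _ _ hy hz => exact mul_mem hy hz

open IntermediateField

/-- **Abhyankar's lemma.** `A` a DVR with uniformiser `t`, `L = Frac A` of characteristic zero,
`L' = L(s)` finite over `L` with `s ^ (m * k) = t ^ m * η`, `η` a unit of `A` and `m`, `k`
invertible in `A`. Then `s` is a uniformiser at every nonzero prime of the integral closure `B'`
of `A` in `L'`. -/
theorem abhyankar {A L L' B' : Type*} [CommRing A] [IsDomain A] [IsDiscreteValuationRing A]
    [Field L] [Algebra A L] [IsFractionRing A L] [CharZero L]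
    [Field L'] [Algebra L L'] [Algebra A L'] [IsScalarTower A L L'] [FiniteDimensional L L']
    [CommRing B'] [Algebra A B'] [Algebra B' L'] [IsScalarTower A B' L'] [IsIntegralClosure B' A L']
    (t : A) (ht : Irreducible t) (η : A) (hη : IsUnit η) (m k : ℕ)
    (hm : IsUnit (m : A)) (hk : IsUnit (k : A))
    (s : B') (hs : s ^ (m * k) = algebraMap A B' (t ^ m * η))
    (hgen : IntermediateField.adjoin L {algebraMap B' L' s} = ⊤)
    (P : Ideal B') [hPp : P.IsPrime] (hP : P ≠ ⊥) : s ∈ P ∧ s ∉ P ^ 2 := by
  have hAL' : Function.Injective (algebraMap A L') := by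
    rw [IsScalarTower.algebraMap_eq A L L']
    exact (algebraMap L L').injective.comp (IsFractionRing.injective A L)
  have hBL' : Function.Injective (algebraMap B' L') := IsIntegralClosure.algebraMap_injective B' A L'
  have htL0 : algebraMap A L' t ≠ 0 := by
    intro h
    exact ht.ne_zero (hAL' (by rw [h, map_zero]))
  have hm0 : m ≠ 0 := by
    rintro rfl
    simp at hm
  have hzLm : (algebraMap B' L' s ^ k / algebraMap A L' t) ^ m = algebraMap A L' η := by
    rw [div_pow, ← pow_mul, mul_comm k m, ← map_pow, hs, ← IsScalarTower.algebraMap_apply A B' L',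
      map_mul, map_pow]
    field_simp
  have hzLint : IsIntegral A (algebraMap B' L' s ^ k / algebraMap A L' t) :=
    IsIntegral.of_pow (Nat.pos_of_ne_zero hm0) (hzLm ▸ isIntegral_algebraMap)
  let M : IntermediateField L L' := L⟮algebraMap B' L' s ^ k / algebraMap A L' t⟯
  let C : Subalgebra A M := integralClosure A M
  have : IsScalarTower A M L' := IsScalarTower.of_algebraMap_eq fun _ => rfl
  have : IsScalarTower A C L' := IsScalarTower.of_algebraMap_eq fun _ => rfl
  let : Algebra C B' := (IsIntegralClosure.lift A B' L' : C →ₐ[A] B').toRingHom.toAlgebra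
  have hCB : ∀ x : C, algebraMap B' L' (algebraMap C B' x) = algebraMap C L' x :=
    fun x => IsIntegralClosure.algebraMap_lift A B' L' x
  have : IsScalarTower C B' L' := IsScalarTower.of_algebraMap_eq fun x => (hCB x).symm
  have : IsScalarTower A C B' := IsScalarTower.of_algebraMap_eq fun x =>
    ((IsIntegralClosure.lift A B' L' : C →ₐ[A] B').commutes x).symm
  -- the element `z`
  have hzLalg : IsIntegral L (algebraMap B' L' s ^ k / algebraMap A L' t) :=
    IsIntegral.of_finite L _
  let zM : M := AdjoinSimple.gen L (algebraMap B' L' s ^ k / algebraMap A L' t)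
  have hzMint : IsIntegral A zM := by
    have h : IsIntegral A ((IsScalarTower.toAlgHom A M L') zM) := hzLint
    exact (isIntegral_algHom_iff (IsScalarTower.toAlgHom A M L') (algebraMap M L').injective).mp h
  let z : C := ⟨zM, hzMint⟩
  have hz : Algebra.adjoin L {algebraMap C M z} = ⊤ :=
    (adjoin.powerBasis hzLalg).adjoin_gen_eq_top
  have hzm : z ^ m = algebraMap A C η := by
    apply Subtype.ext
    apply Subtype.ext
    exact hzLm
  have hs' : Algebra.adjoin M {algebraMap B' L' s} = ⊤ := by
    have h1 : Algebra.adjoin L {algebraMap B' L' s} = ⊤ := by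
      rw [← adjoin_simple_toSubalgebra_of_isAlgebraic (IsIntegral.of_finite L _).isAlgebraic, hgen]
      rfl
    exact adjoin_eq_top_of_tower L M _ h1
  have hsk : s ^ k = algebraMap C B' (algebraMap A C t * z) := by
    apply hBL'
    rw [hCB, map_pow, map_mul]
    change _ = algebraMap A L' t * (algebraMap B' L' s ^ k / algebraMap A L' t)
    field_simp
  exact tower (K := L) (M := M) (L := L') (C := C) (B := B') t ht η hη m k hm hk z hz hzm s hs' hsk
    P hP

end Main

end Fermat.Agent.Lib.Abhyankar
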