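import Mathlib

set_option autoImplicit false

namespace Fermat.Agent.Lib.AbhyankarDVR

open Polynomial Ideal IntermediateField

attribute [local instance] FractionRing.liftAlgebra FractionRing.isScalarTower_liftAlgebra

section Tower

variable {D L DM M D' L' : Type*}
  [CommRing D] [IsDedekindDomain D] [Field L] [Algebra D L] [IsFractionRing D L] [CharZero L]
  [Field M] [Algebra L M] [FiniteDimensional L M] [Algebra D M] [IsScalarTower D L M]
  [CommRing DM] [IsDomain DM] [Algebra D DM] [Algebra DM M] [IsScalarTower D DM M]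
  [IsIntegralClosure DM D M]
  [Field L'] [Algebra M L'] [FiniteDimensional M L']
  [CommRing D'] [IsDomain D'] [Algebra DM D'] [Algebra D' L'] [Algebra DM L']
  [IsScalarTower DM M L'] [IsScalarTower DM D' L'] [IsIntegralClosure D' DM L']
  [Algebra D D'] [IsScalarTower D DM D']

include L M L' in
/-- Tower form of Abhyankar's lemma: `D ⊆ DM ⊆ D'` integral closures in `L ⊆ M ⊆ L'`,
`M = L(ζ)` with `ζ ^ e0 = w0` a `P`-unit, `L' = M(s)` with `s ^ f = ζ * t`, `t` a uniformiser
at `P`. Then `s` is a uniformiser at every prime of `D'` above `P`. -/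
theorem tower_core (P : Ideal D) [P.IsPrime] (hP : P ≠ ⊥)
    (t : D) (htP : t ∈ P) (htP2 : t ∉ P ^ 2)
    (e0 f : ℕ) (he0 : 0 < e0) (hf : 0 < f) (he0P : (e0 : D) ∉ P)
    (ζ : DM) (w0 : D) (hw0 : w0 ∉ P) (hζ : ζ ^ e0 = algebraMap D DM w0)
    (hζgen : Algebra.adjoin L {algebraMap DM M ζ} = ⊤)
    (s : D') (hs : s ^ f = algebraMap DM D' ζ * algebraMap D D' t)
    (hsgen : Algebra.adjoin M {algebraMap D' L' s} = ⊤)
    (𝔓 : Ideal D') [𝔓.IsPrime] [𝔓.LiesOver P] : s ∉ 𝔓 ^ 2 := by
  classical
  have hM0 : CharZero M := charZero_of_injective_algebraMap (algebraMap L M).injective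
  have : IsDedekindDomain DM := IsIntegralClosure.isDedekindDomain D L M DM
  have : IsFractionRing DM M := IsIntegralClosure.isFractionRing_of_finite_extension D L M DM
  have : Module.Finite D DM := IsIntegralClosure.finite D L M DM
  have hinj1 : Function.Injective (algebraMap D DM) := by
    have h : Function.Injective (algebraMap D M) := by
      rw [IsScalarTower.algebraMap_eq D L M]
      exact (algebraMap L M).injective.comp (IsFractionRing.injective D L)
    rw [IsScalarTower.algebraMap_eq D DM M] at h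
    exact Function.Injective.of_comp h
  have : Module.IsTorsionFree D DM := Module.isTorsionFree_iff_algebraMap_injective.mpr hinj1
  have : IsDedekindDomain D' := IsIntegralClosure.isDedekindDomain DM M L' D'
  have : IsFractionRing D' L' := IsIntegralClosure.isFractionRing_of_finite_extension DM M L' D'
  have : Module.Finite DM D' := IsIntegralClosure.finite DM M L' D'
  have hinj2 : Function.Injective (algebraMap DM D') := by
    have h : Function.Injective (algebraMap DM L') := by
      rw [IsScalarTower.algebraMap_eq DM M L']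
      exact (algebraMap M L').injective.comp (IsFractionRing.injective DM M)
    rw [IsScalarTower.algebraMap_eq DM D' L'] at h
    exact Function.Injective.of_comp h
  have : Module.IsTorsionFree DM D' := Module.isTorsionFree_iff_algebraMap_injective.mpr hinj2
  -- the middle prime
  set 𝔭 : Ideal DM := 𝔓.under DM with h𝔭
  have h𝔭prime : 𝔭.IsPrime := inferInstance
  have : 𝔓.LiesOver 𝔭 := Ideal.over_under 𝔓
  have h𝔭P : 𝔭.under D = P := by
    have h1 : P = 𝔓.under D := Ideal.LiesOver.over
    rw [h1, h𝔭, Ideal.under_under]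
  have : 𝔭.LiesOver P := ⟨h𝔭P.symm⟩
  -- Step U: `𝔭` is unramified over `D`.
  have hU : ¬ 𝔭 ∣ differentIdeal D DM := by
    intro hdvd
    have hle : differentIdeal D DM ≤ 𝔭 := Ideal.dvd_iff_le.mp hdvd
    have hmem := hle (aeval_derivative_mem_differentIdeal D L M ζ hζgen)
    have hint : IsIntegral D ζ := IsIntegralClosure.isIntegral D M ζ
    have hroot : aeval ζ (X ^ e0 - C w0 : D[X]) = 0 := by simp [hζ]
    obtain ⟨q, hq⟩ := minpoly.isIntegrallyClosed_dvd hint hroot
    have hder : aeval ζ (derivative (X ^ e0 - C w0 : D[X])) =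
        aeval ζ (derivative (minpoly D ζ)) * aeval ζ q := by
      rw [hq, derivative_mul, map_add, map_mul, map_mul, minpoly.aeval, zero_mul, add_zero]
    have h1 : (e0 : DM) * ζ ^ (e0 - 1) ∈ 𝔭 := by
      have h2 : aeval ζ (derivative (X ^ e0 - C w0 : D[X])) = (e0 : DM) * ζ ^ (e0 - 1) := by
        simp [derivative_X_pow]
      rw [← h2, hder]
      exact 𝔭.mul_mem_right _ hmem
    rcases h𝔭prime.mem_or_mem h1 with h | h
    · apply he0P
      rw [← h𝔭P, Ideal.mem_comap]
      simpa using h
    · have h3 : ζ ∈ 𝔭 := h𝔭prime.mem_of_pow_mem _ h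
      apply hw0
      rw [← h𝔭P, Ideal.mem_comap, ← hζ]
      exact 𝔭.pow_mem_of_mem h3 e0 he0
  have hD0 : CharZero D := (algebraMap D L).charZero
  have hsep : Algebra.IsSeparable (FractionRing D) (FractionRing DM) := by
    have : Algebra.IsAlgebraic (FractionRing D) (FractionRing DM) := inferInstance
    infer_instance
  have hUnr : Algebra.IsUnramifiedAt D 𝔭 := not_dvd_differentIdeal_iff.mp hU
  have e1 : 𝔭.ramificationIdx D = 1 := Ideal.ramificationIdx_eq_one_of_isUnramifiedAt
  -- Step R: `e(𝔓 | 𝔭) ≤ [L' : M] ≤ f`.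
  have hfin : Module.finrank DM D' ≤ f := by
    rw [← IsFractionRing.finrank_eq DM M D' L']
    have hsint : IsIntegral M (algebraMap D' L' s) := IsIntegral.of_finite M _
    have htop : M⟮algebraMap D' L' s⟯ = ⊤ := by
      apply IntermediateField.toSubalgebra_injective
      rw [IntermediateField.adjoin_simple_toSubalgebra_of_isAlgebraic hsint.isAlgebraic, hsgen,
        IntermediateField.top_toSubalgebra]
    have h1 : Module.finrank M L' = (minpoly M (algebraMap D' L' s)).natDegree := by
      rw [← IntermediateField.adjoin.finrank hsint, htop, IntermediateField.finrank_top']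
    rw [h1]
    have hmonic : (X ^ f - C (algebraMap DM M ζ * algebraMap D M t) : M[X]).Monic :=
      monic_X_pow_sub_C _ hf.ne'
    have hroot : aeval (algebraMap D' L' s) (X ^ f - C (algebraMap DM M ζ * algebraMap D M t) : M[X])
        = 0 := by
      simp only [map_sub, map_pow, aeval_X, aeval_C, map_mul]
      rw [← map_pow, hs, map_mul, ← IsScalarTower.algebraMap_apply DM M L',
        ← IsScalarTower.algebraMap_apply DM D' L', IsScalarTower.algebraMap_apply D DM D',
        ← IsScalarTower.algebraMap_apply DM D' L', IsScalarTower.algebraMap_apply D DM M,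
        ← IsScalarTower.algebraMap_apply DM M L', sub_self]
    have h2 := natDegree_le_natDegree (minpoly.min M (algebraMap D' L' s) hmonic hroot)
    rwa [natDegree_X_pow_sub_C] at h2
  have e2 : 𝔓.ramificationIdx DM ≤ f := by
    have hfinite : (𝔭.primesOver D').Finite := Algebra.QuasiFinite.finite_primesOver 𝔭
    have : Fintype (𝔭.primesOver D') := hfinite.fintype
    have hsum := Ideal.sum_ramification_inertia_eq_finrank 𝔭 D'
    have hmem : 𝔓 ∈ 𝔭.primesOver D' := ⟨inferInstance, inferInstance⟩
    have hterm : 𝔓.ramificationIdx DM * 𝔓.inertiaDeg DM ≤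
        ∑ q : 𝔭.primesOver D', q.1.ramificationIdx DM * q.1.inertiaDeg DM :=
      Finset.single_le_sum
        (f := fun q : 𝔭.primesOver D' => q.1.ramificationIdx DM * q.1.inertiaDeg DM)
        (fun _ _ => Nat.zero_le _) (Finset.mem_univ ⟨𝔓, hmem⟩)
    have hpos := Ideal.inertiaDeg_pos 𝔓 DM
    calc 𝔓.ramificationIdx DM ≤ 𝔓.ramificationIdx DM * 𝔓.inertiaDeg DM :=
          Nat.le_mul_of_pos_right _ hpos
      _ ≤ Module.finrank DM D' := hterm.trans hsum.le
      _ ≤ f := hfin
  -- Step T: multiplicativity in the tower.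
  have e3 : 𝔓.ramificationIdx D ≤ f := by
    rw [Ideal.ramificationIdx_tower 𝔭 𝔓, e1, one_mul]
    exact e2
  -- Step M: count the exponent of `𝔓` in `t`.
  intro hs2
  have hinj3 : Function.Injective (algebraMap D D') := by
    rw [IsScalarTower.algebraMap_eq D DM D']
    exact hinj2.comp hinj1
  have h𝔓P : 𝔓.under D = P := (Ideal.LiesOver.over (P := 𝔓) (p := P)).symm
  have hPmap : P.map (algebraMap D D') ≠ ⊥ := by
    rwa [Ne, Ideal.map_eq_bot_iff_of_injective hinj3]
  have hmult : 𝔓.ramificationIdx D = multiplicity 𝔓 (P.map (algebraMap D D')) :=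
    Ideal.IsDedekindDomain.ramificationIdx_eq_multiplicity P 𝔓 hPmap
  have hζ𝔓 : algebraMap DM D' ζ ∉ 𝔓 := by
    intro h
    have h3 : ζ ∈ 𝔭 := h
    apply hw0
    rw [← h𝔭P, Ideal.mem_comap, ← hζ]
    exact 𝔭.pow_mem_of_mem h3 e0 he0
  have ht𝔓 : algebraMap D D' t ∈ 𝔓 ^ (f + 1) := by
    have h1 : s ^ f ∈ 𝔓 ^ (2 * f) := by
      rw [pow_mul]
      exact Ideal.pow_mem_pow hs2 f
    rw [hs] at h1
    rcases Ideal.IsPrime.mul_mem_pow 𝔓 h1 with h | h
    · exact absurd h hζ𝔓
    · exact Ideal.pow_le_pow_right (by omega) h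
  have hle : P.map (algebraMap D D') ≤ 𝔓 ^ (f + 1) := by
    obtain ⟨J, hJ⟩ : P ∣ Ideal.span {t} :=
      Ideal.dvd_iff_le.mpr ((Ideal.span_singleton_le_iff_mem P).mpr htP)
    have hJP : ¬ J ≤ P := by
      intro h
      apply htP2
      have h4 : Ideal.span {t} ≤ P ^ 2 := by
        rw [hJ, sq]
        exact Ideal.mul_mono_right h
      exact h4 (Ideal.mem_span_singleton_self t)
    obtain ⟨j, hjJ, hjP⟩ := SetLike.not_le_iff_exists.mp hJP
    rw [Ideal.map_le_iff_le_comap]
    intro x hx
    rw [Ideal.mem_comap]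
    have h1 : x * j ∈ Ideal.span {t} := by
      rw [hJ]
      exact Ideal.mul_mem_mul hx hjJ
    obtain ⟨d, hd⟩ := Ideal.mem_span_singleton'.mp h1
    have h2 : algebraMap D D' j * algebraMap D D' x ∈ 𝔓 ^ (f + 1) := by
      rw [← map_mul, mul_comm j x, ← hd, map_mul]
      exact Ideal.mul_mem_left _ _ ht𝔓
    rcases Ideal.IsPrime.mul_mem_pow 𝔓 h2 with h | h
    · exfalso
      apply hjP
      rw [← h𝔓P]
      exact h
    · exact h
  have hdvd : 𝔓 ^ (f + 1) ∣ P.map (algebraMap D D') := Ideal.dvd_iff_le.mpr hle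
  have h𝔓unit : ¬ IsUnit 𝔓 := by
    rw [Ideal.isUnit_iff]
    exact Ideal.IsPrime.ne_top inferInstance
  have hfm : FiniteMultiplicity 𝔓 (P.map (algebraMap D D')) :=
    FiniteMultiplicity.of_not_isUnit h𝔓unit hPmap
  have h5 := hfm.le_multiplicity_of_pow_dvd hdvd
  omega

end Tower

section Core

variable {D L D' L' : Type*}
  [CommRing D] [IsDedekindDomain D] [Field L] [Algebra D L] [IsFractionRing D L] [CharZero L]
  [Field L'] [Algebra L L'] [FiniteDimensional L L'] [Algebra D L'] [IsScalarTower D L L']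
  [CommRing D'] [IsDomain D'] [Algebra D D'] [Algebra D' L'] [IsScalarTower D D' L']
  [IsIntegralClosure D' D L']

include L L' in
/-- Auxiliary form of `core` with the middle field `M` given. -/
theorem core_aux (M : IntermediateField L L') (P : Ideal D) [P.IsPrime]
    (t : D) (htP : t ∈ P) (htP2 : t ∉ P ^ 2)
    (e0 f : ℕ) (he0 : 0 < e0) (hf : 0 < f) (he0P : (e0 : D) ∉ P)
    (w0 : D) (hw0 : w0 ∉ P) (s : D')
    (zM : M) (hzt : (zM : L') * algebraMap D L' t = (algebraMap D' L' s) ^ f)
    (hzMe : zM ^ e0 = algebraMap D M w0) (hMgen : Algebra.adjoin L {zM} = ⊤)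
    (hsgen : L⟮algebraMap D' L' s⟯ = ⊤)
    (𝔓 : Ideal D') [𝔓.IsPrime] [𝔓.LiesOver P] : s ∉ 𝔓 ^ 2 := by
  classical
  have hzMint : IsIntegral D zM := by
    apply IsIntegral.of_pow he0
    rw [hzMe]
    exact isIntegral_algebraMap
  have towDML' : IsScalarTower D M L' := IsScalarTower.of_algebraMap_eq (fun _ => rfl)
  have towDDML' : IsScalarTower D (integralClosure D M) L' :=
    IsScalarTower.of_algebraMap_eq (fun _ => rfl)
  let algDMD' : Algebra (integralClosure D M) D' :=
    (IsIntegralClosure.lift D D' L' : (integralClosure D M) →ₐ[D] D').toRingHom.toAlgebra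
  have halg : ∀ x : integralClosure D M, algebraMap D' L' (algebraMap (integralClosure D M) D' x)
      = algebraMap (integralClosure D M) L' x :=
    fun x => IsIntegralClosure.algebraMap_lift D D' L' x
  have tow1 : IsScalarTower (integralClosure D M) D' L' :=
    IsScalarTower.of_algebraMap_eq (fun x => (halg x).symm)
  have tow2 : IsScalarTower D (integralClosure D M) D' :=
    IsScalarTower.of_algebraMap_eq (fun x =>
      ((IsIntegralClosure.lift D D' L' : (integralClosure D M) →ₐ[D] D').commutes x).symm)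
  have hic : IsIntegralClosure D' (integralClosure D M) L' :=
    IsIntegralClosure.tower_top (R := D) (A := integralClosure D M) (B := L') (C := D')
  have ht0 : t ≠ 0 := by
    rintro rfl
    exact htP2 (Ideal.zero_mem _)
  have hP : P ≠ ⊥ := by
    rintro rfl
    exact ht0 (by simpa using htP)
  refine tower_core (L := L) (M := M) (DM := integralClosure D M) (L' := L') P hP t htP htP2
    e0 f he0 hf he0P ⟨zM, hzMint⟩ w0 hw0 ?_ ?_ s ?_ ?_ 𝔓
  · apply Subtype.ext
    simpa using hzMe
  · exact hMgen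
  · apply IsIntegralClosure.algebraMap_injective D' D L'
    rw [map_pow, map_mul, halg, ← IsScalarTower.algebraMap_apply D D' L', ← hzt]
    rfl
  · have hsint : IsIntegral L (algebraMap D' L' s) := IsIntegral.of_finite L _
    have h1 : Algebra.adjoin L {algebraMap D' L' s} = ⊤ := by
      rw [← IntermediateField.adjoin_simple_toSubalgebra_of_isAlgebraic hsint.isAlgebraic, hsgen,
        IntermediateField.top_toSubalgebra]
    rw [eq_top_iff]
    intro x _
    have hx : x ∈ Algebra.adjoin L {algebraMap D' L' s} := by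
      rw [h1]
      exact Algebra.mem_top
    induction hx using Algebra.adjoin_induction with
    | mem y hy => exact Algebra.subset_adjoin hy
    | algebraMap r =>
      have h3 : algebraMap L L' r = algebraMap M L' (algebraMap L M r) := rfl
      rw [h3]
      exact Subalgebra.algebraMap_mem _ _
    | add y y' _ _ hy hy' => exact Subalgebra.add_mem _ (hy trivial) (hy' trivial)
    | mul y y' _ _ hy hy' => exact Subalgebra.mul_mem _ (hy trivial) (hy' trivial)

include L L' in
/-- **Abhyankar's lemma**, Dedekind form.  `D` a Dedekind domain of characteristic zero with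
fraction field `L`, `P` a prime, `t` a uniformiser at `P`, `w0` a `P`-unit, `e0` invertible
at `P`.  If `L' = L(s)` with `s ^ (e0 * f) = w0 * t ^ e0`, then `s` is a uniformiser at every
prime of the integral closure `D'` of `D` in `L'` lying over `P`. -/
theorem core (P : Ideal D) [P.IsPrime] (t : D) (htP : t ∈ P) (htP2 : t ∉ P ^ 2)
    (e0 f : ℕ) (he0 : 0 < e0) (hf : 0 < f) (he0P : (e0 : D) ∉ P)
    (w0 : D) (hw0 : w0 ∉ P)
    (s : D') (hs : s ^ (e0 * f) = algebraMap D D' (w0 * t ^ e0))
    (hsgen : L⟮algebraMap D' L' s⟯ = ⊤)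
    (𝔓 : Ideal D') [𝔓.IsPrime] [𝔓.LiesOver P] : s ∉ 𝔓 ^ 2 := by
  classical
  have ht0 : t ≠ 0 := by
    rintro rfl
    exact htP2 (Ideal.zero_mem _)
  have hinjL : Function.Injective (algebraMap D L') := by
    rw [IsScalarTower.algebraMap_eq D L L']
    exact (algebraMap L L').injective.comp (IsFractionRing.injective D L)
  have htL : algebraMap D L' t ≠ 0 := by
    rwa [Ne, map_eq_zero_iff _ hinjL]
  set σ : L' := algebraMap D' L' s with hσ
  set z : L' := σ ^ f / algebraMap D L' t with hz
  have hzt : z * algebraMap D L' t = σ ^ f := by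
    rw [hz, div_mul_cancel₀ _ htL]
  have hσpow : σ ^ (e0 * f) = algebraMap D L' (w0 * t ^ e0) := by
    rw [hσ, ← map_pow, hs, ← IsScalarTower.algebraMap_apply]
  have hze : z ^ e0 = algebraMap D L' w0 := by
    rw [hz, div_pow, ← pow_mul, mul_comm f e0, hσpow, map_mul, map_pow,
      mul_div_assoc, div_self (pow_ne_zero _ htL), mul_one]
  have hzint : IsIntegral L z := IsIntegral.of_finite L z
  refine core_aux (L := L) (L' := L') L⟮z⟯ P t htP htP2 e0 f he0 hf he0P w0 hw0 s
    (IntermediateField.AdjoinSimple.gen L z) ?_ ?_ ?_ hsgen 𝔓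
  · rw [IntermediateField.AdjoinSimple.coe_gen]
    exact hzt
  · apply Subtype.ext
    rw [SubmonoidClass.coe_pow, IntermediateField.AdjoinSimple.coe_gen, hze]
    rfl
  · have h := (IntermediateField.adjoin.powerBasis hzint).adjoin_gen_eq_top
    rwa [IntermediateField.adjoin.powerBasis_gen] at h

end Core

section DVR

variable {V K L D L' D' : Type*}
  [CommRing V] [IsDomain V] [IsDiscreteValuationRing V]
  [Field K] [Algebra V K] [IsFractionRing V K]
  [Field L] [Algebra K L] [FiniteDimensional K L] [Algebra V L] [IsScalarTower V K L]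
  [CommRing D] [IsDomain D] [Algebra V D] [Algebra D L] [IsScalarTower V D L]
  [IsIntegralClosure D V L]
  [Field L'] [Algebra L L'] [FiniteDimensional L L'] [Algebra D L'] [IsScalarTower D L L']
  [CommRing D'] [IsDomain D'] [Algebra D D'] [Algebra D' L'] [IsScalarTower D D' L']
  [IsIntegralClosure D' D L']

include K L L' in
/-- **Abhyankar's lemma**, DVR form, residue characteristic zero.
`V` a discrete valuation ring in which every nonzero natural number is a unit, `ϖ` a
uniformiser, `D` the integral closure of `V` in a finite extension `L` of `K = Frac V`, all of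
whose ramification indices divide `e`.  If `L' = L(s)` with `s ^ e = ϖ` and `D'` is the integral
closure of `D` in `L'`, then `s` is a uniformiser at every nonzero prime of `D'`. -/
theorem not_mem_sq (hchar : ∀ n : ℕ, n ≠ 0 → IsUnit (n : V)) (ϖ : V) (hϖ : Irreducible ϖ)
    (e : ℕ)
    (htame : ∀ P : Ideal D, P.IsPrime → P ≠ ⊥ →
      ∃ k : ℕ, k ∣ e ∧ algebraMap V D ϖ ∈ P ^ k ∧ algebraMap V D ϖ ∉ P ^ (k + 1))
    (s : D') (hs : s ^ e = algebraMap D D' (algebraMap V D ϖ))
    (hgen : L⟮algebraMap D' L' s⟯ = ⊤)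
    (𝔓 : Ideal D') [𝔓.IsPrime] (h𝔓 : 𝔓 ≠ ⊥) : s ∈ 𝔓 ∧ s ∉ 𝔓 ^ 2 := by
  classical
  have hV0 : CharZero V := by
    refine ⟨fun m n hmn => ?_⟩
    by_contra hne
    rcases Nat.lt_or_gt_of_ne hne with h | h
    · have h1 : ((n - m : ℕ) : V) = 0 := by
        rw [Nat.cast_sub h.le, hmn, sub_self]
      exact (hchar (n - m) (by omega)).ne_zero h1
    · have h1 : ((m - n : ℕ) : V) = 0 := by
        rw [Nat.cast_sub h.le, hmn, sub_self]
      exact (hchar (m - n) (by omega)).ne_zero h1
  have hK0 : CharZero K := charZero_of_injective_algebraMap (IsFractionRing.injective V K)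
  have hL0 : CharZero L := charZero_of_injective_algebraMap (algebraMap K L).injective
  have hDed : IsDedekindDomain D := IsIntegralClosure.isDedekindDomain V K L D
  have hFr : IsFractionRing D L := IsIntegralClosure.isFractionRing_of_finite_extension V K L D
  have hFin : Module.Finite V D := IsIntegralClosure.finite V K L D
  have hInt : Algebra.IsIntegral V D := IsIntegralClosure.isIntegral_algebra V L
  have hInt' : Algebra.IsIntegral D D' := IsIntegralClosure.isIntegral_algebra D L'
  -- every nonzero prime of `D` contains `ϖ`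
  have hϖmem : ∀ P : Ideal D, P.IsPrime → P ≠ ⊥ → algebraMap V D ϖ ∈ P := by
    intro P hPp hP0
    have h1 : P.comap (algebraMap V D) ≠ ⊥ := Ideal.IsIntegral.comap_ne_bot V hP0
    have h2 : (P.comap (algebraMap V D)).IsMaximal :=
      Ideal.IsPrime.isMaximal (Ideal.comap_isPrime _ _) h1
    have h3 : P.comap (algebraMap V D) = Ideal.span {ϖ} := by
      rw [IsLocalRing.eq_maximalIdeal h2, hϖ.maximalIdeal_eq]
    have h4 : ϖ ∈ P.comap (algebraMap V D) := by
      rw [h3]
      exact Ideal.mem_span_singleton_self ϖ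
    exact h4
  -- `D` has finitely many primes, hence is a PID
  have hfinite : {I : Ideal D | I.IsPrime}.Finite := by
    have h1 : ((IsLocalRing.maximalIdeal V).primesOver D).Finite :=
      Algebra.QuasiFinite.finite_primesOver _
    refine (h1.union (Set.finite_singleton ⊥)).subset ?_
    intro I hI
    by_cases hI0 : I = ⊥
    · right
      exact hI0
    · left
      have hIp : I.IsPrime := hI
      refine ⟨hIp, ⟨?_⟩⟩
      have h1 : I.comap (algebraMap V D) ≠ ⊥ := Ideal.IsIntegral.comap_ne_bot V hI0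
      have h2 : (I.comap (algebraMap V D)).IsMaximal :=
        Ideal.IsPrime.isMaximal (Ideal.comap_isPrime _ _) h1
      exact (IsLocalRing.eq_maximalIdeal h2).symm
  have hPID : IsPrincipalIdealRing D := IsPrincipalIdealRing.of_finite_primes hfinite
  -- the prime below `𝔓`
  have hP0 : 𝔓.under D ≠ ⊥ := Ideal.IsIntegral.comap_ne_bot D h𝔓
  have hPp : (𝔓.under D).IsPrime := inferInstance
  obtain ⟨k, hke, hk1, hk2⟩ := htame (𝔓.under D) hPp hP0
  have hϖP := hϖmem (𝔓.under D) hPp hP0
  have hk0 : 0 < k := by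
    rcases Nat.eq_zero_or_pos k with rfl | h
    · exact absurd (by simpa using hϖP) hk2
    · exact h
  obtain ⟨f, rfl⟩ := hke
  have hs𝔓 : s ∈ 𝔓 := by
    have h1 : s ^ (k * f) ∈ 𝔓 := by
      rw [hs]
      exact hϖP
    exact Ideal.IsPrime.mem_of_pow_mem inferInstance _ h1
  refine ⟨hs𝔓, ?_⟩
  have hf : 0 < f := by
    rcases Nat.eq_zero_or_pos f with rfl | h
    · exfalso
      have h1 : (1 : D') ∈ 𝔓 := by
        have h2 : s ^ (k * 0) ∈ 𝔓 := by
          rw [hs]
          exact hϖP
        simpa using h2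
      exact (Ideal.IsPrime.ne_top inferInstance) ((Ideal.eq_top_iff_one 𝔓).mpr h1)
    · exact h
  -- a generator `t` of the prime below
  obtain ⟨t, ht⟩ := (IsPrincipalIdealRing.principal (𝔓.under D)).principal
  have ht' : 𝔓.under D = Ideal.span {t} := ht
  have htP : t ∈ 𝔓.under D := by
    rw [ht']
    exact Ideal.mem_span_singleton_self t
  have ht0 : t ≠ 0 := by
    rintro rfl
    apply hP0
    rw [ht']
    simp
  have htP2 : t ∉ (𝔓.under D) ^ 2 := by
    intro h
    rw [ht', Ideal.span_singleton_pow, Ideal.mem_span_singleton] at h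
    obtain ⟨c, hc⟩ := h
    have h1 : t * (t * c) = t * 1 := by
      rw [mul_one, ← mul_assoc, ← sq]
      exact hc.symm
    have h2 : t * c = 1 := mul_left_cancel₀ ht0 h1
    have h3 : (1 : D) ∈ 𝔓.under D := by
      rw [← h2]
      exact Ideal.mul_mem_right _ _ htP
    exact (Ideal.IsPrime.ne_top hPp) ((Ideal.eq_top_iff_one _).mpr h3)
  obtain ⟨w0, hw0⟩ : ∃ w0 : D, algebraMap V D ϖ = w0 * t ^ k := by
    rw [ht', Ideal.span_singleton_pow, Ideal.mem_span_singleton] at hk1
    obtain ⟨c, hc⟩ := hk1
    exact ⟨c, by rw [hc, mul_comm]⟩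
  have hw0P : w0 ∉ 𝔓.under D := by
    intro h
    apply hk2
    rw [hw0, pow_succ, mul_comm (w0 : D)]
    exact Ideal.mul_mem_mul (Ideal.pow_mem_pow htP k) h
  have hkP : ((k : ℕ) : D) ∉ 𝔓.under D := by
    intro h
    have h1 : IsUnit ((k : ℕ) : D) := by
      have h2 := (hchar k hk0.ne').map (algebraMap V D)
      simpa using h2
    exact (Ideal.IsPrime.ne_top hPp) (Ideal.eq_top_of_isUnit_mem _ h h1)
  exact core (L := L) (L' := L') (𝔓.under D) t htP htP2 k f hk0 hf hkP w0 hw0P s
    (by rw [hs, hw0]) hgen 𝔓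

include K L L' in
/-- Under the hypotheses of `not_mem_sq`, the ideal `(s)` of `D'` is radical: the closed fibre
of `D'` over `V[s]` is reduced. -/
theorem isRadical_span (hchar : ∀ n : ℕ, n ≠ 0 → IsUnit (n : V)) (ϖ : V) (hϖ : Irreducible ϖ)
    (e : ℕ)
    (htame : ∀ P : Ideal D, P.IsPrime → P ≠ ⊥ →
      ∃ k : ℕ, k ∣ e ∧ algebraMap V D ϖ ∈ P ^ k ∧ algebraMap V D ϖ ∉ P ^ (k + 1))
    (s : D') (hs : s ^ e = algebraMap D D' (algebraMap V D ϖ))
    (hgen : L⟮algebraMap D' L' s⟯ = ⊤) : (Ideal.span {s}).IsRadical := by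
  classical
  have hV0 : CharZero V := by
    refine ⟨fun m n hmn => ?_⟩
    by_contra hne
    rcases Nat.lt_or_gt_of_ne hne with h | h
    · have h1 : ((n - m : ℕ) : V) = 0 := by
        rw [Nat.cast_sub h.le, hmn, sub_self]
      exact (hchar (n - m) (by omega)).ne_zero h1
    · have h1 : ((m - n : ℕ) : V) = 0 := by
        rw [Nat.cast_sub h.le, hmn, sub_self]
      exact (hchar (m - n) (by omega)).ne_zero h1
  have hK0 : CharZero K := charZero_of_injective_algebraMap (IsFractionRing.injective V K)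
  have hL0 : CharZero L := charZero_of_injective_algebraMap (algebraMap K L).injective
  have hDed : IsDedekindDomain D := IsIntegralClosure.isDedekindDomain V K L D
  have hFr : IsFractionRing D L := IsIntegralClosure.isFractionRing_of_finite_extension V K L D
  have hDed' : IsDedekindDomain D' := IsIntegralClosure.isDedekindDomain D L L' D'
  have hsq : Squarefree (Ideal.span {s} : Ideal D') := by
    intro J hJ
    rw [Ideal.isUnit_iff]
    by_contra hJtop
    obtain ⟨𝔓, h𝔓max, hJ𝔓⟩ := Ideal.exists_le_maximal J hJtop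
    have h𝔓p : 𝔓.IsPrime := h𝔓max.isPrime
    have hs2 : s ∈ 𝔓 ^ 2 := by
      have h1 : Ideal.span {s} ≤ J * J := Ideal.dvd_iff_le.mp hJ
      have h2 : J * J ≤ 𝔓 ^ 2 := by
        rw [sq]
        exact Ideal.mul_mono hJ𝔓 hJ𝔓
      exact h2 (h1 (Ideal.mem_span_singleton_self s))
    by_cases h𝔓0 : 𝔓 = ⊥
    · -- then `s = 0`, so `ϖ = 0` or `ϖ = 1`
      have hs0 : s = 0 := by
        have h3 : s ∈ (⊥ : Ideal D') := by
          have h4 : 𝔓 ^ 2 ≤ 𝔓 := Ideal.pow_le_self two_ne_zero
          rw [← h𝔓0]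
          exact h4 hs2
        simpa using h3
      have hinj : Function.Injective (algebraMap D D') := by
        have h5 : Function.Injective (algebraMap D L') := by
          rw [IsScalarTower.algebraMap_eq D L L']
          exact (algebraMap L L').injective.comp (IsFractionRing.injective D L)
        rw [IsScalarTower.algebraMap_eq D D' L'] at h5
        exact Function.Injective.of_comp h5
      have hinjV : Function.Injective (algebraMap V D) := by
        have h5 : Function.Injective (algebraMap V L) := by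
          rw [IsScalarTower.algebraMap_eq V K L]
          exact (algebraMap K L).injective.comp (IsFractionRing.injective V K)
        rw [IsScalarTower.algebraMap_eq V D L] at h5
        exact Function.Injective.of_comp h5
      rcases Nat.eq_zero_or_pos e with rfl | he
      · rw [pow_zero] at hs
        have h6 : ϖ = 1 := by
          apply hinjV
          apply hinj
          rw [← hs, map_one, map_one]
        exact hϖ.not_isUnit (h6 ▸ isUnit_one)
      · rw [hs0, zero_pow he.ne'] at hs
        have h6 : ϖ = 0 := by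
          apply hinjV
          apply hinj
          rw [← hs, map_zero, map_zero]
        exact hϖ.ne_zero h6
    · exact (not_mem_sq (K := K) (L := L) (L' := L') hchar ϖ hϖ e htame s hs hgen 𝔓 h𝔓0).2 hs2
  intro x hx
  obtain ⟨n, hn⟩ := hx
  have h1 : (Ideal.span {s} : Ideal D') ∣ (Ideal.span {x}) ^ n := by
    rw [Ideal.span_singleton_pow, Ideal.dvd_iff_le, Ideal.span_singleton_le_iff_mem]
    exact hn
  have h2 := hsq.isRadical n _ h1
  rw [Ideal.dvd_iff_le, Ideal.span_singleton_le_iff_mem] at h2
  exact h2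

include K L L' in
/-- Elementwise form of `isRadical_span`. -/
theorem mem_span_of_pow_mem (hchar : ∀ n : ℕ, n ≠ 0 → IsUnit (n : V)) (ϖ : V)
    (hϖ : Irreducible ϖ) (e : ℕ)
    (htame : ∀ P : Ideal D, P.IsPrime → P ≠ ⊥ →
      ∃ k : ℕ, k ∣ e ∧ algebraMap V D ϖ ∈ P ^ k ∧ algebraMap V D ϖ ∉ P ^ (k + 1))
    (s : D') (hs : s ^ e = algebraMap D D' (algebraMap V D ϖ))
    (hgen : L⟮algebraMap D' L' s⟯ = ⊤) {x : D'} {n : ℕ} (hx : x ^ n ∈ Ideal.span {s}) :
    x ∈ Ideal.span {s} :=
  isRadical_span (K := K) (L := L) (L' := L') hchar ϖ hϖ e htame s hs hgen ⟨n, hx⟩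

include K L L' in
/-- Quotient form of `isRadical_span`. -/
theorem isReduced_quotient (hchar : ∀ n : ℕ, n ≠ 0 → IsUnit (n : V)) (ϖ : V)
    (hϖ : Irreducible ϖ) (e : ℕ)
    (htame : ∀ P : Ideal D, P.IsPrime → P ≠ ⊥ →
      ∃ k : ℕ, k ∣ e ∧ algebraMap V D ϖ ∈ P ^ k ∧ algebraMap V D ϖ ∉ P ^ (k + 1))
    (s : D') (hs : s ^ e = algebraMap D D' (algebraMap V D ϖ))
    (hgen : L⟮algebraMap D' L' s⟯ = ⊤) : IsReduced (D' ⧸ Ideal.span {s}) :=
  (Ideal.isRadical_iff_quotient_reduced _).mp
    (isRadical_span (K := K) (L := L) (L' := L') hchar ϖ hϖ e htame s hs hgen)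

end DVR

end Fermat.Agent.Lib.AbhyankarDVR
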