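import Fermat.Agent.Lib.Abhyankar

set_option autoImplicit false
set_option linter.overlappingInstances false
set_option linter.unusedSectionVars false

open Polynomial

namespace Fermat.Agent.Lib.AbhyankarDed

open Fermat.Agent.Lib.Abhyankar

section Ord

variable {D : Type*} [CommRing D] [IsDedekindDomain D] (P : Ideal D) [hP : P.IsPrime]

/-- In a Dedekind domain, `P ^ n` is `P`-primary: a factor outside `P` can be cancelled. -/
theorem mem_pow_of_mul_mem (hP0 : P ≠ ⊥) {x y : D} (hx : x ∉ P) (n : ℕ) (h : x * y ∈ P ^ n) :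
    y ∈ P ^ n := by
  rw [mem_pow_iff_le_emultiplicity] at h ⊢
  rwa [emultiplicity_span_mul P hP0, emultiplicity_span_eq_zero P hx, zero_add] at h

end Ord

section Different

variable (A K L : Type*) {B : Type*} [CommRing A] [Field K] [CommRing B] [Field L]
  [Algebra A K] [Algebra B L] [Algebra A B] [Algebra K L] [Algebra A L]
  [IsScalarTower A K L] [IsScalarTower A B L] [IsFractionRing A K]
  [FiniteDimensional K L] [Algebra.IsSeparable K L] [IsIntegralClosure B A L]
  [IsFractionRing B L] [IsDedekindDomain A] [IsDedekindDomain B]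
  [Module.IsTorsionFree A B] [Module.Finite A B]

/-- (U') Adjoining an `m`-th root `z` of an element `η ∉ p` (`m ∉ p`) is unramified above `p`. -/
theorem not_map_le_sq_of_pow_eq (z : B) (hz : Algebra.adjoin K {algebraMap B L z} = ⊤)
    (m : ℕ) (η : A) (hzm : z ^ m = algebraMap A B η)
    {p : Ideal A} [p.IsMaximal] (hp : p ≠ ⊥) (hη : η ∉ p) (hm : (m : A) ∉ p)
    (Q : Ideal B) [hQ : Q.IsPrime] (hQp : Q.comap (algebraMap A B) = p) :
    ¬ p.map (algebraMap A B) ≤ Q ^ 2 := by
  intro hle
  have hF : aeval z (X ^ m - C η : A[X]) = 0 := by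
    simp [hzm]
  have h1 := aeval_derivative_mem_pow A K L z hz (X ^ m - C η) hF hp Q (e := 2) (by norm_num)
    (Ideal.dvd_iff_le.mpr hle)
  have h2 : aeval z (derivative (X ^ m - C η : A[X])) = (m : B) * z ^ (m - 1) := by
    simp [derivative_X_pow]
  rw [h2] at h1
  simp only [Nat.add_one_sub_one, pow_one] at h1
  rcases hQ.mem_or_mem h1 with h | h
  · apply hm
    rw [← hQp, Ideal.mem_comap]
    simpa using h
  · apply hη
    rw [← hQp, Ideal.mem_comap, ← hzm]
    exact Ideal.pow_mem_of_mem _ (hQ.mem_of_pow_mem _ h) _ (Nat.pos_of_ne_zero (by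
      rintro rfl
      exact hm (by simp)))

/-- Unramified primes keep uniformisers: if `p B ⊄ Q ^ 2` and `t ∈ p \ p ^ 2` then `t ∉ Q ^ 2`. -/
theorem not_mem_sq_of_not_map_le_sq {p : Ideal A} [p.IsMaximal] (Q : Ideal B) [hQ : Q.IsPrime]
    (hQ0 : Q ≠ ⊥) (hQp : Q.comap (algebraMap A B) = p) (hU : ¬ p.map (algebraMap A B) ≤ Q ^ 2)
    (t : A) (ht : t ∈ p) (ht2 : t ∉ p ^ 2) : algebraMap A B t ∉ Q ^ 2 := by
  intro h
  apply hU
  obtain ⟨J, hJ⟩ : p ∣ Ideal.span {t} := Ideal.dvd_span_singleton.mpr ht
  have hJp : ¬ J ≤ p := by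
    intro hle
    apply ht2
    have : Ideal.span {t} ≤ p ^ 2 := by
      rw [hJ, sq]
      exact Ideal.mul_mono_right hle
    exact this (Ideal.mem_span_singleton_self t)
  obtain ⟨d, hdJ, hdp⟩ := SetLike.not_le_iff_exists.mp hJp
  rw [Ideal.map_le_iff_le_comap]
  intro y hy
  rw [Ideal.mem_comap]
  have hdy : d * y ∈ Ideal.span {t} := by
    rw [hJ, mul_comm d y]
    exact Ideal.mul_mem_mul hy hdJ
  obtain ⟨r, hr⟩ := Ideal.mem_span_singleton'.mp hdy
  have hdQ : algebraMap A B d ∉ Q := by
    intro h'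
    apply hdp
    rw [← hQp]
    exact h'
  apply mem_pow_of_mul_mem Q hQ0 hdQ 2
  rw [← map_mul, ← hr, map_mul]
  exact Ideal.mul_mem_left _ _ h

end Different


section Tower

/-- **Abhyankar's lemma, tower form over a Dedekind base.** `A` a Dedekind domain, `K = Frac A`
of characteristic zero, `p` a nonzero prime, `t ∈ p \ p ^ 2`; `K ⊆ M ⊆ L` finite, `C`, `B` the
integral closures of `A` in `M`, `L`. If `M = K(z)` with `z ^ m = η ∉ p`, and `L = M(s)` with
`s ^ k = t * z` (`m, k ∉ p`), then `s` is a uniformiser at every prime of `B` above `p`. -/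
theorem tower_dedekind {A K M L C B : Type*} [CommRing A] [IsDedekindDomain A]
    [Field K] [Algebra A K] [IsFractionRing A K] [CharZero K]
    [Field M] [Algebra K M] [Algebra A M] [IsScalarTower A K M] [FiniteDimensional K M]
    [Field L] [Algebra K L] [Algebra M L] [Algebra A L] [IsScalarTower K M L]
    [IsScalarTower A K L] [IsScalarTower A M L] [FiniteDimensional M L]
    [CommRing C] [Algebra A C] [Algebra C M] [IsScalarTower A C M] [IsIntegralClosure C A M]
    [CommRing B] [Algebra A B] [Algebra B L] [IsScalarTower A B L] [IsIntegralClosure B A L]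
    [Algebra C B] [Algebra C L] [IsScalarTower A C B] [IsScalarTower C B L] [IsScalarTower C M L]
    (p : Ideal A) [hpp : p.IsPrime] (hp0 : p ≠ ⊥)
    (t : A) (ht : t ∈ p) (ht2 : t ∉ p ^ 2) (η : A) (hη : η ∉ p) (m k : ℕ)
    (hm : (m : A) ∉ p) (hk : (k : A) ∉ p)
    (z : C) (hz : Algebra.adjoin K {algebraMap C M z} = ⊤) (hzm : z ^ m = algebraMap A C η)
    (s : B) (hs : Algebra.adjoin M {algebraMap B L s} = ⊤)
    (hsk : s ^ k = algebraMap C B (algebraMap A C t * z))
    (P : Ideal B) [hP : P.IsPrime] (hPp : P.comap (algebraMap A B) = p) : s ∈ P ∧ s ∉ P ^ 2 := by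
  have : CharZero M := charZero_of_injective_algebraMap (algebraMap K M).injective
  have : FiniteDimensional K L := FiniteDimensional.trans K M L
  have hCM : Function.Injective (algebraMap C M) := IsIntegralClosure.algebraMap_injective C A M
  have hBL : Function.Injective (algebraMap B L) := IsIntegralClosure.algebraMap_injective B A L
  have : IsDomain C := hCM.isDomain
  have : IsDomain B := hBL.isDomain
  have : IsDedekindDomain C := IsIntegralClosure.isDedekindDomain A K M C
  have : IsDedekindDomain B := IsIntegralClosure.isDedekindDomain A K L B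
  have : IsFractionRing C M := IsIntegralClosure.isFractionRing_of_finite_extension A K M C
  have : IsFractionRing B L := IsIntegralClosure.isFractionRing_of_finite_extension A K L B
  have : Algebra.IsIntegral A C := IsIntegralClosure.isIntegral_algebra A M
  have : Algebra.IsIntegral A B := IsIntegralClosure.isIntegral_algebra A L
  have : IsScalarTower A C L := IsScalarTower.of_algebraMap_eq fun x => by
    rw [IsScalarTower.algebraMap_apply A M L, IsScalarTower.algebraMap_apply A C M,
      ← IsScalarTower.algebraMap_apply C M L]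
  have : IsIntegralClosure B C L := IsIntegralClosure.tower_top (R := A)
  have : Algebra.IsIntegral C B := IsIntegralClosure.isIntegral_algebra C L
  have : Module.Finite A C := IsIntegralClosure.finite A K M C
  have : Module.Finite C B := IsIntegralClosure.finite C M L B
  have hAC : Function.Injective (algebraMap A C) := by
    have h : Function.Injective (algebraMap A M) := by
      rw [IsScalarTower.algebraMap_eq A K M]
      exact (algebraMap K M).injective.comp (IsFractionRing.injective A K)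
    rw [IsScalarTower.algebraMap_eq A C M] at h
    exact Function.Injective.of_comp h
  have hCB : Function.Injective (algebraMap C B) := by
    have h : Function.Injective (algebraMap C L) := by
      rw [IsScalarTower.algebraMap_eq C M L]
      exact (algebraMap M L).injective.comp hCM
    rw [IsScalarTower.algebraMap_eq C B L] at h
    exact Function.Injective.of_comp h
  have : Module.IsTorsionFree A C := Module.isTorsionFree_iff_algebraMap_injective.mpr hAC
  have : Module.IsTorsionFree C B := Module.isTorsionFree_iff_algebraMap_injective.mpr hCB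
  have hpmax : p.IsMaximal := hpp.isMaximal hp0
  -- the primes
  set Q : Ideal C := P.comap (algebraMap C B) with hQdef
  have hQprime : Q.IsPrime := Ideal.comap_isPrime _ _
  have hQp : Q.comap (algebraMap A C) = p := by
    rw [hQdef, Ideal.comap_comap, ← IsScalarTower.algebraMap_eq, hPp]
  have hQ0 : Q ≠ ⊥ := by
    intro h
    apply hp0
    rw [← hQp, h]
    exact Ideal.comap_bot_of_injective _ hAC
  have hQmax : Q.IsMaximal := hQprime.isMaximal hQ0
  have hm0 : m ≠ 0 := by
    rintro rfl
    exact hm (by simp)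
  -- (U'): `t ∉ Q ^ 2`
  have hU := not_map_le_sq_of_pow_eq A K M z hz m η hzm hp0 hη hm Q hQp
  have htQ : algebraMap A C t ∈ Q := by
    have : t ∈ Q.comap (algebraMap A C) := hQp ▸ ht
    exact this
  have htQ2 : algebraMap A C t ∉ Q ^ 2 := not_mem_sq_of_not_map_le_sq A Q hQ0 hQp hU t ht ht2
  have hzQ : z ∉ Q := by
    intro h
    apply hη
    rw [← hQp, Ideal.mem_comap, ← hzm]
    exact Ideal.pow_mem_of_mem _ h _ (Nat.pos_of_ne_zero hm0)
  have hc : algebraMap A C t * z ∈ Q := Ideal.mul_mem_right _ _ htQ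
  have hc2 : algebraMap A C t * z ∉ Q ^ 2 := by
    intro h
    apply htQ2
    rw [mul_comm] at h
    exact mem_pow_of_mul_mem Q hQ0 hzQ 2 h
  have hkQ : ((k : ℕ) : C) ∉ Q := by
    intro h
    apply hk
    rw [← hQp, Ideal.mem_comap]
    simpa using h
  exact mem_and_not_mem_sq_of_pow_eq C M L s hs k (algebraMap A C t * z) hsk hQ0 hc hc2 hkQ P rfl

end Tower


section Main

open IntermediateField

/-- **Abhyankar's lemma over a Dedekind domain** (no localisation needed). `D` a Dedekind domain
with fraction field `L` of characteristic zero, `P` a nonzero prime, `ϖ ∈ P ^ m \ P ^ (m + 1)`,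
`L' = L(s)` finite over `L` with `s ^ (m * k) = ϖ` and `m * k ∉ P` (tame). Then `s` is a
uniformiser at every prime `𝔓` above `P` of the integral closure `D'` of `D` in `L'`. -/
theorem abhyankar_dedekind {D L L' D' : Type*} [CommRing D] [IsDedekindDomain D]
    [Field L] [Algebra D L] [IsFractionRing D L] [CharZero L]
    [Field L'] [Algebra L L'] [Algebra D L'] [IsScalarTower D L L'] [FiniteDimensional L L']
    [CommRing D'] [Algebra D D'] [Algebra D' L'] [IsScalarTower D D' L'] [IsIntegralClosure D' D L']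
    (P : Ideal D) [hPp : P.IsPrime] (hP0 : P ≠ ⊥) (ϖ : D) (m k : ℕ)
    (hϖ : ϖ ∈ P ^ m) (hϖ' : ϖ ∉ P ^ (m + 1)) (hmk : ((m * k : ℕ) : D) ∉ P)
    (s : D') (hs : s ^ (m * k) = algebraMap D D' ϖ)
    (hgen : IntermediateField.adjoin L {algebraMap D' L' s} = ⊤)
    (𝔓 : Ideal D') [h𝔓p : 𝔓.IsPrime] (h𝔓 : 𝔓.comap (algebraMap D D') = P) :
    s ∈ 𝔓 ∧ s ∉ 𝔓 ^ 2 := by
  have hDL : Function.Injective (algebraMap D L) := IsFractionRing.injective D L
  have hDL' : Function.Injective (algebraMap D L') := by
    rw [IsScalarTower.algebraMap_eq D L L']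
    exact (algebraMap L L').injective.comp hDL
  have hD'L' : Function.Injective (algebraMap D' L') :=
    IsIntegralClosure.algebraMap_injective D' D L'
  have hm : ((m : ℕ) : D) ∉ P := fun h => hmk (by
    rw [Nat.cast_mul]; exact Ideal.mul_mem_right _ _ h)
  have hk : ((k : ℕ) : D) ∉ P := fun h => hmk (by
    rw [Nat.cast_mul]; exact Ideal.mul_mem_left _ _ h)
  obtain ⟨m', rfl⟩ : ∃ m', m = m' + 1 := Nat.exists_eq_succ_of_ne_zero (by
    rintro rfl; exact hm (by simp))
  obtain ⟨k', rfl⟩ : ∃ k', k = k' + 1 := Nat.exists_eq_succ_of_ne_zero (by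
    rintro rfl; exact hk (by simp))
  -- a uniformiser `t` at `P`
  obtain ⟨t, ht1, ht2⟩ := Ideal.exists_mem_pow_notMem_pow_succ P hP0 hPp.ne_top 1
  rw [pow_one] at ht1
  have ht2' : t ∉ P ^ 2 := ht2
  -- `(t) = P * I`, `d ∈ I \ P`
  obtain ⟨I, hI⟩ : P ∣ Ideal.span {t} := Ideal.dvd_span_singleton.mpr ht1
  have hIP : ¬ I ≤ P := by
    intro hle
    apply ht2'
    have : Ideal.span {t} ≤ P ^ 2 := by
      rw [hI, sq]
      exact Ideal.mul_mono_right hle
    exact this (Ideal.mem_span_singleton_self t)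
  obtain ⟨d, hdI, hdP⟩ := SetLike.not_le_iff_exists.mp hIP
  -- `β := d ^ m`, `ϖ * β = η * t ^ m`
  have hβP : ∀ n : ℕ, d ^ n ∉ P := fun n h => hdP (hPp.mem_of_pow_mem _ h)
  have hmem : ϖ * d ^ (m' + 1) ∈ Ideal.span {t ^ (m' + 1)} := by
    rw [← Ideal.span_singleton_pow, hI, mul_pow]
    exact Ideal.mul_mem_mul hϖ (Ideal.pow_mem_pow hdI _)
  obtain ⟨η, hη⟩ := Ideal.mem_span_singleton'.mp hmem
  have hηP : η ∉ P := by
    intro h
    apply hϖ'
    apply mem_pow_of_mul_mem P hP0 (hβP (m' + 1))
    rw [mul_comm, ← hη, pow_succ P (m' + 1), mul_comm]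
    exact Ideal.mul_mem_mul h (Ideal.pow_mem_pow ht1 _)
  have ht0 : t ≠ 0 := by
    rintro rfl
    exact ht2' (Ideal.zero_mem _)
  have hd0 : d ≠ 0 := by
    rintro rfl
    exact hdP (Ideal.zero_mem _)
  have htL0 : algebraMap D L' t ≠ 0 := fun h => ht0 (hDL' (by rw [h, map_zero]))
  have hsL : algebraMap D' L' s ^ ((m' + 1) * (k' + 1)) = algebraMap D L' ϖ := by
    rw [← map_pow, hs, ← IsScalarTower.algebraMap_apply D D' L']
  have hηL : algebraMap D L' η * algebraMap D L' t ^ (m' + 1) =
      algebraMap D L' ϖ * algebraMap D L' d ^ (m' + 1) := by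
    rw [← map_pow, ← map_pow, ← map_mul, ← map_mul, hη]
  have hzLm : (algebraMap D L' d ^ (m' + 1) * algebraMap D' L' s ^ (k' + 1) / algebraMap D L' t)
      ^ (m' + 1) = algebraMap D L' ((d ^ (m' + 1)) ^ m' * η) := by
    rw [div_pow, mul_pow, ← pow_mul (algebraMap D' L' s), mul_comm (k' + 1) (m' + 1), hsL,
      div_eq_iff (pow_ne_zero _ htL0), map_mul, map_pow, map_pow, mul_assoc, hηL]
    ring
  have hzLint : IsIntegral D
      (algebraMap D L' d ^ (m' + 1) * algebraMap D' L' s ^ (k' + 1) / algebraMap D L' t) :=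
    IsIntegral.of_pow (Nat.succ_pos m') (hzLm ▸ isIntegral_algebraMap)
  let M : IntermediateField L L' :=
    L⟮algebraMap D L' d ^ (m' + 1) * algebraMap D' L' s ^ (k' + 1) / algebraMap D L' t⟯
  let C : Subalgebra D M := integralClosure D M
  have : IsScalarTower D M L' := IsScalarTower.of_algebraMap_eq fun _ => rfl
  have : IsScalarTower D C L' := IsScalarTower.of_algebraMap_eq fun _ => rfl
  let : Algebra C D' := (IsIntegralClosure.lift D D' L' : C →ₐ[D] D').toRingHom.toAlgebra
  have hCB : ∀ x : C, algebraMap D' L' (algebraMap C D' x) = algebraMap C L' x :=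
    fun x => IsIntegralClosure.algebraMap_lift D D' L' x
  have : IsScalarTower C D' L' := IsScalarTower.of_algebraMap_eq fun x => (hCB x).symm
  have : IsScalarTower D C D' := IsScalarTower.of_algebraMap_eq fun x =>
    ((IsIntegralClosure.lift D D' L' : C →ₐ[D] D').commutes x).symm
  -- the element `z`
  have hzLalg : IsIntegral L
      (algebraMap D L' d ^ (m' + 1) * algebraMap D' L' s ^ (k' + 1) / algebraMap D L' t) :=
    IsIntegral.of_finite L _
  let zM : M := AdjoinSimple.gen L
    (algebraMap D L' d ^ (m' + 1) * algebraMap D' L' s ^ (k' + 1) / algebraMap D L' t)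
  have hzMint : IsIntegral D zM := by
    have h : IsIntegral D ((IsScalarTower.toAlgHom D M L') zM) := hzLint
    exact (isIntegral_algHom_iff (IsScalarTower.toAlgHom D M L') (algebraMap M L').injective).mp h
  let z : C := ⟨zM, hzMint⟩
  have hz : Algebra.adjoin L {algebraMap C M z} = ⊤ :=
    (adjoin.powerBasis hzLalg).adjoin_gen_eq_top
  have hzm : z ^ (m' + 1) = algebraMap D C ((d ^ (m' + 1)) ^ m' * η) := by
    apply Subtype.ext
    apply Subtype.ext
    exact hzLm
  -- the element `s' = β * s`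
  have hs'L : algebraMap D' L' (algebraMap D D' (d ^ (m' + 1)) * s) =
      algebraMap D L' d ^ (m' + 1) * algebraMap D' L' s := by
    rw [map_mul, ← IsScalarTower.algebraMap_apply, map_pow]
  have hgen' : Algebra.adjoin M {algebraMap D' L' (algebraMap D D' (d ^ (m' + 1)) * s)} = ⊤ := by
    have h1 : Algebra.adjoin L {algebraMap D' L' s} = ⊤ := by
      rw [← adjoin_simple_toSubalgebra_of_isAlgebraic (IsIntegral.of_finite L _).isAlgebraic, hgen]
      rfl
    have h2 : Algebra.adjoin L {algebraMap D' L' (algebraMap D D' (d ^ (m' + 1)) * s)} = ⊤ := by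
      rw [eq_top_iff, ← h1]
      apply Algebra.adjoin_le
      rintro x rfl
      have hβL : algebraMap D L (d ^ (m' + 1)) ≠ 0 := fun h =>
        pow_ne_zero _ hd0 (hDL (by rw [h, map_zero]))
      have : algebraMap D' L' s = algebraMap L L' (algebraMap D L (d ^ (m' + 1)))⁻¹ *
          algebraMap D' L' (algebraMap D D' (d ^ (m' + 1)) * s) := by
        rw [hs'L, ← map_pow, IsScalarTower.algebraMap_apply D L L', ← mul_assoc, ← map_mul,
          inv_mul_cancel₀ hβL, map_one, one_mul]
      rw [this]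
      exact mul_mem (Subalgebra.algebraMap_mem _ _) (Algebra.subset_adjoin rfl)
    exact adjoin_eq_top_of_tower L M _ h2
  have hsk : (algebraMap D D' (d ^ (m' + 1)) * s) ^ (k' + 1) =
      algebraMap C D' (algebraMap D C ((d ^ (m' + 1)) ^ k' * t) * z) := by
    apply hD'L'
    rw [hCB, map_pow, hs'L, map_mul]
    change _ = algebraMap D L' ((d ^ (m' + 1)) ^ k' * t) *
      (algebraMap D L' d ^ (m' + 1) * algebraMap D' L' s ^ (k' + 1) / algebraMap D L' t)
    rw [map_mul, map_pow, map_pow]
    field_simp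
    ring
  have ht' : (d ^ (m' + 1)) ^ k' * t ∈ P := Ideal.mul_mem_left _ _ ht1
  have ht'2 : (d ^ (m' + 1)) ^ k' * t ∉ P ^ 2 := fun h =>
    ht2' (mem_pow_of_mul_mem P hP0 (by rw [← pow_mul]; exact hβP _) 2 h)
  have hη' : (d ^ (m' + 1)) ^ m' * η ∉ P := by
    intro h
    rcases hPp.mem_or_mem h with h | h
    · rw [← pow_mul] at h
      exact hβP _ h
    · exact hηP h
  have key := tower_dedekind (K := L) (M := M) (L := L') (C := C) (B := D') P hP0
    ((d ^ (m' + 1)) ^ k' * t) ht' ht'2 ((d ^ (m' + 1)) ^ m' * η) hη' (m' + 1) (k' + 1) hm hk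
    z hz hzm (algebraMap D D' (d ^ (m' + 1)) * s) hgen' hsk 𝔓 h𝔓
  refine ⟨?_, fun h => key.2 (Ideal.mul_mem_left _ _ h)⟩
  have h1 : s ^ ((m' + 1) * (k' + 1)) ∈ 𝔓 := by
    rw [hs]
    have : ϖ ∈ 𝔓.comap (algebraMap D D') := by
      rw [h𝔓]
      exact Ideal.pow_le_self (Nat.succ_ne_zero m') hϖ
    exact this
  exact h𝔓p.mem_of_pow_mem _ h1

end Main

end Fermat.Agent.Lib.AbhyankarDed
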