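import Mathlib

/-!
# Base change of a chart ring along a finite free extension of discrete valuation rings

Level-free, Mathlib only (Program FG / S19, Route C, brick `EQ`, statement (BC)).

Data: commutative rings `O' → O`, fields `L'`, `L` over them, a ring homomorphism `ι : L' → L`
over `O' → O`, and a finite family `b : Fin r → O` which spans `O` over `O'` and whose image is
`ι`-linearly independent in `L`.  For a set `S' ⊆ L'` (in the applications `{u}`, `{u⁻¹}`,
`{u, u⁻¹}`) we compare the integral closure of `O'[S']` in `L'` (the chart over `O'`) with the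
integral closure of `O[ι S']` in `L` (the chart over `O`):

* `InSpan O' ι b S' x` : `x = ∑ j, b j * ι (c j)` with every `c j` in the chart over `O'`;
* `InSpan.isIntegral` : such an `x` lies in the chart over `O`;
* `exists_mul_inSpan` (generic fibre, by the trace form): if moreover the `b j` span `L` over
  `ι L'`, `L'` has characteristic zero and `O'` is integrally closed in `L'`, then every `x` of
  the chart over `O` has a nonzero multiple `δ x`, `δ ∈ O'`, with `InSpan`;
* `isIntegral_iff_inSpan` (**(BC)**): if `O'` is a discrete valuation ring with uniformiser `π'`,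
  `π' = w π ^ e` in `O` with `w` a unit and `π` a non-unit, the residue fields agree
  (`O = O' + π O`) and the special fibre of the chart over `O'` is reduced, then the chart over
  `O` is exactly `⊕ j, b j • (chart over O')`.
-/

set_option autoImplicit false

namespace Fermat.Agent.Lib.ChartBaseChange

open scoped BigOperators
open Polynomial

theorem isIntegral_of_mem_adjoin {R A : Type*} [CommRing R] [CommRing A] [Algebra R A]
    {S : Set A} {x : A} (hx : x ∈ Algebra.adjoin R S) : IsIntegral (Algebra.adjoin R S) x :=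
  isIntegral_algebraMap (R := Algebra.adjoin R S) (A := A) (x := ⟨x, hx⟩)

section Core

variable {O' O L' L : Type*} [CommRing O'] [CommRing O] [Field L'] [Field L]
  [Algebra O' O] [Algebra O' L'] [Algebra O L]

/-- `x = ∑ j, b j * ι (c j)` with every `c j` integral over `O'[S']`. -/
def InSpan (O' : Type*) {O L' L : Type*} [CommRing O'] [CommRing O] [Field L'] [Field L]
    [Algebra O' O] [Algebra O' L'] [Algebra O L]
    (ι : L' →+* L) {r : ℕ} (b : Fin r → O) (S' : Set L') (x : L) : Prop :=
  ∃ c : Fin r → L', (∀ j, IsIntegral (Algebra.adjoin O' S') (c j)) ∧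
    x = ∑ j, algebraMap O L (b j) * ι (c j)

theorem isIntegral_algebraMap_adjoin (S' : Set L') (a : O') :
    IsIntegral (Algebra.adjoin O' S') (algebraMap O' L' a) :=
  isIntegral_of_mem_adjoin (Subalgebra.algebraMap_mem _ a)

variable (ι : L' →+* L) {r : ℕ} (b : Fin r → O) (S' : Set L')

theorem inSpan_zero : InSpan O' ι b S' (0 : L) :=
  ⟨fun _ => 0, fun _ => isIntegral_zero, by simp⟩

variable {ι b S'}

theorem InSpan.add {x y : L} (hx : InSpan O' ι b S' x) (hy : InSpan O' ι b S' y) :
    InSpan O' ι b S' (x + y) := by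
  obtain ⟨c, hc, rfl⟩ := hx
  obtain ⟨d, hd, rfl⟩ := hy
  refine ⟨fun j => c j + d j, fun j => (hc j).add (hd j), ?_⟩
  rw [← Finset.sum_add_distrib]
  exact Finset.sum_congr rfl fun j _ => by rw [map_add, mul_add]

theorem inSpan_sum {κ : Type*} (s : Finset κ) (f : κ → L)
    (h : ∀ k ∈ s, InSpan O' ι b S' (f k)) : InSpan O' ι b S' (∑ k ∈ s, f k) := by
  classical
  induction s using Finset.induction_on with
  | empty => simpa using inSpan_zero (O' := O') ι b S'
  | insert k s hk ih =>
    rw [Finset.sum_insert hk]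
    exact (h k (Finset.mem_insert_self k s)).add (ih fun k' hk' => h k' (Finset.mem_insert_of_mem hk'))

theorem InSpan.map_mul {x : L} (hx : InSpan O' ι b S' x) {c0 : L'}
    (hc0 : IsIntegral (Algebra.adjoin O' S') c0) : InSpan O' ι b S' (ι c0 * x) := by
  obtain ⟨c, hc, rfl⟩ := hx
  refine ⟨fun j => c0 * c j, fun j => hc0.mul (hc j), ?_⟩
  rw [Finset.mul_sum]
  exact Finset.sum_congr rfl fun j _ => by rw [_root_.map_mul]; ring

section Span

variable (hι : ∀ a : O', ι (algebraMap O' L' a) = algebraMap O L (algebraMap O' O a))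
  (hspan : ∀ a : O, ∃ a' : Fin r → O', a = ∑ j, algebraMap O' O (a' j) * b j)

include hι hspan

theorem inSpan_algebraMap (a : O) : InSpan O' ι b S' (algebraMap O L a) := by
  obtain ⟨a', ha'⟩ := hspan a
  refine ⟨fun j => algebraMap O' L' (a' j), fun j => isIntegral_algebraMap_adjoin S' (a' j), ?_⟩
  conv_lhs => rw [ha']
  rw [map_sum]
  exact Finset.sum_congr rfl fun j _ => by rw [map_mul, hι, mul_comm]

theorem InSpan.algebraMap_mul {x : L} (hx : InSpan O' ι b S' x) (a : O) :
    InSpan O' ι b S' (algebraMap O L a * x) := by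
  obtain ⟨c, hc, rfl⟩ := hx
  rw [Finset.mul_sum]
  refine inSpan_sum _ _ fun j _ => ?_
  have h1 : algebraMap O L a * (algebraMap O L (b j) * ι (c j))
      = ι (c j) * algebraMap O L (a * b j) := by rw [_root_.map_mul]; ring
  rw [h1]
  exact (inSpan_algebraMap hι hspan (a * b j)).map_mul (hc j)

theorem InSpan.mul {x y : L} (hx : InSpan O' ι b S' x) (hy : InSpan O' ι b S' y) :
    InSpan O' ι b S' (x * y) := by
  obtain ⟨c, hc, rfl⟩ := hx
  rw [Finset.sum_mul]
  refine inSpan_sum _ _ fun j _ => ?_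
  have h1 : algebraMap O L (b j) * ι (c j) * y = algebraMap O L (b j) * (ι (c j) * y) := by ring
  rw [h1]
  exact (hy.map_mul (hc j)).algebraMap_mul hι hspan (b j)

/-- The subalgebra `⊕ j, b j • (chart over O')` of `L`. -/
def spanAlg : Subalgebra O L where
  carrier := {x | InSpan O' ι b S' x}
  mul_mem' := fun hx hy => InSpan.mul hι hspan hx hy
  add_mem' := fun hx hy => InSpan.add hx hy
  algebraMap_mem' := fun a => inSpan_algebraMap hι hspan a

theorem mem_spanAlg {x : L} : x ∈ spanAlg hι hspan (S' := S') ↔ InSpan O' ι b S' x := Iff.rfl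

theorem inSpan_map {c0 : L'} (hc0 : IsIntegral (Algebra.adjoin O' S') c0) :
    InSpan O' ι b S' (ι c0) := by
  have := (inSpan_algebraMap (S' := S') hι hspan 1).map_mul hc0
  rwa [map_one, mul_one] at this

theorem adjoin_le_spanAlg : Algebra.adjoin O (ι '' S') ≤ spanAlg hι hspan (S' := S') := by
  refine Algebra.adjoin_le ?_
  rintro _ ⟨s, hs, rfl⟩
  exact inSpan_map hι hspan (isIntegral_of_mem_adjoin (Algebra.subset_adjoin hs))

omit hspan in
theorem map_mem_adjoin {y : L'} (hy : y ∈ Algebra.adjoin O' S') :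
    ι y ∈ Algebra.adjoin O (ι '' S') := by
  induction hy using Algebra.adjoin_induction with
  | mem s hs => exact Algebra.subset_adjoin ⟨s, hs, rfl⟩
  | algebraMap a => rw [hι]; exact Subalgebra.algebraMap_mem _ _
  | add x y _ _ hx hy => rw [map_add]; exact Subalgebra.add_mem _ hx hy
  | mul x y _ _ hx hy => rw [map_mul]; exact Subalgebra.mul_mem _ hx hy

omit hspan in
/-- `ι` maps the chart over `O'` into the chart over `O`. -/
theorem isIntegral_map {c : L'} (hc : IsIntegral (Algebra.adjoin O' S') c) :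
    IsIntegral (Algebra.adjoin O (ι '' S')) (ι c) := by
  let φ : ↥(Algebra.adjoin O' S') →+* ↥(Algebra.adjoin O (ι '' S')) :=
    (ι.comp (algebraMap ↥(Algebra.adjoin O' S') L')).codRestrict (Algebra.adjoin O (ι '' S'))
      fun y => map_mem_adjoin hι y.2
  exact IsIntegral.map_of_comp_eq φ ι (RingHom.ext fun _ => rfl) hc

omit hspan in
/-- Elements of `⊕ j, b j • (chart over O')` lie in the chart over `O`. -/
theorem InSpan.isIntegral {x : L} (hx : InSpan O' ι b S' x) :
    IsIntegral (Algebra.adjoin O (ι '' S')) x := by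
  obtain ⟨c, hc, rfl⟩ := hx
  refine IsIntegral.sum _ fun j _ => ?_
  exact IsIntegral.mul (isIntegral_of_mem_adjoin (Subalgebra.algebraMap_mem _ _))
    (isIntegral_map hι (hc j))

end Span


section Special

variable [IsDomain O'] [IsDiscreteValuationRing O']
  (hι : ∀ a : O', ι (algebraMap O' L' a) = algebraMap O L (algebraMap O' O a))
  (hspan : ∀ a : O, ∃ a' : Fin r → O', a = ∑ j, algebraMap O' O (a' j) * b j)
  (hind : ∀ c : Fin r → L', ∑ j, algebraMap O L (b j) * ι (c j) = 0 → ∀ j, c j = 0)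
  (π' : O') (hπ' : Irreducible π') (π : O) (hπ : ¬ IsUnit π) (e : ℕ) (he : e ≠ 0)
  (w : Oˣ) (hπe : algebraMap O' O π' = (w : O) * π ^ e)
  (hres : ∀ a : O, ∃ a' : O', ∃ a'' : O, a = algebraMap O' O a' + π * a'')
  (hrad : ∀ x : L', IsIntegral (Algebra.adjoin O' S') x → ∀ (n : ℕ) (y : L'),
    IsIntegral (Algebra.adjoin O' S') y → x ^ n = algebraMap O' L' π' * y →
    ∃ z : L', IsIntegral (Algebra.adjoin O' S') z ∧ x = algebraMap O' L' π' * z)

include hι hspan hind hπ' hπ he hπe hres hrad

/-- The special fibre of `⊕ j, b j • (chart over O')` is reduced. -/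
theorem InSpan.of_pow {t y : L} (ht : InSpan O' ι b S' t) (hy : InSpan O' ι b S' y) (n : ℕ)
    (h : t ^ n = algebraMap O L π * y) :
    ∃ s : L, InSpan O' ι b S' s ∧ t = algebraMap O L π * s := by
  classical
  have htT : t ∈ spanAlg hι hspan (S' := S') := ht
  have hyT : y ∈ spanAlg hι hspan (S' := S') := hy
  obtain ⟨c, hc, htc⟩ := ht
  choose β b'' hb using fun j => hres (b j)
  -- `t = ι c0 + π s1`
  set c0 : L' := ∑ j, algebraMap O' L' (β j) * c j with hc0def
  have hc0 : IsIntegral (Algebra.adjoin O' S') c0 :=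
    IsIntegral.sum _ fun j _ => (isIntegral_algebraMap_adjoin S' (β j)).mul (hc j)
  set s1 : L := ∑ j, algebraMap O L (b'' j) * ι (c j) with hs1def
  have hs1 : InSpan O' ι b S' s1 :=
    inSpan_sum _ _ fun j _ => (inSpan_map hι hspan (hc j)).algebraMap_mul hι hspan (b'' j)
  have hs1T : s1 ∈ spanAlg hι hspan (S' := S') := hs1
  have hc0T : ι c0 ∈ spanAlg hι hspan (S' := S') := inSpan_map hι hspan hc0
  have ht_eq : t = ι c0 + algebraMap O L π * s1 := by
    rw [htc, hc0def, hs1def, map_sum, Finset.mul_sum, ← Finset.sum_add_distrib]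
    refine Finset.sum_congr rfl fun j _ => ?_
    conv_lhs => rw [hb j]
    rw [map_add, _root_.map_mul, _root_.map_mul, hι]
    ring
  -- `(ι c0) ^ n = π z1`
  set gs : L := ∑ i ∈ Finset.range n, t ^ i * (ι c0) ^ (n - 1 - i) with hgsdef
  have hgsT : gs ∈ spanAlg hι hspan (S' := S') :=
    Subalgebra.sum_mem _ fun i _ =>
      Subalgebra.mul_mem _ (Subalgebra.pow_mem _ htT _) (Subalgebra.pow_mem _ hc0T _)
  have hgs : gs * (t - ι c0) = t ^ n - (ι c0) ^ n := (Commute.all t (ι c0)).geom_sum₂_mul n
  have hz1 : (ι c0) ^ n = algebraMap O L π * (y - gs * s1) := by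
    have h2 : t - ι c0 = algebraMap O L π * s1 := by rw [ht_eq]; ring
    rw [h2, h] at hgs
    linear_combination hgs
  have hz1T : y - gs * s1 ∈ spanAlg hι hspan (S' := S') :=
    Subalgebra.sub_mem _ hyT (Subalgebra.mul_mem _ hgsT hs1T)
  -- `ι (c0 ^ (n * e)) = π' z2`
  have hπe' : algebraMap O L (algebraMap O' O π') = algebraMap O L (w : O) * algebraMap O L π ^ e := by
    rw [hπe, _root_.map_mul, map_pow]
  have hwinv : algebraMap O L ((w⁻¹ : Oˣ) : O) * algebraMap O L (w : O) = 1 := by
    rw [← _root_.map_mul, Units.inv_mul, map_one]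
  set z2 : L := algebraMap O L ((w⁻¹ : Oˣ) : O) * (y - gs * s1) ^ e with hz2def
  have hz2T : z2 ∈ spanAlg hι hspan (S' := S') :=
    Subalgebra.mul_mem _ (Subalgebra.algebraMap_mem _ _) (Subalgebra.pow_mem _ hz1T _)
  have hz2 : ι (c0 ^ (n * e)) = algebraMap O L (algebraMap O' O π') * z2 := by
    rw [map_pow, pow_mul, hz1, mul_pow, hπe', hz2def]
    linear_combination (-(algebraMap O L π ^ e * (y - gs * s1) ^ e)) * hwinv
  obtain ⟨t', ht', hz2t'⟩ := hz2T
  obtain ⟨o, ho⟩ := hspan 1
  have ho' : ∑ j, algebraMap O L (b j) * ι (algebraMap O' L' (o j)) = 1 := by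
    have h1 : algebraMap O L (1 : O) = 1 := map_one _
    rw [ho, map_sum] at h1
    rw [← h1]
    exact Finset.sum_congr rfl fun j _ => by rw [_root_.map_mul, hι, mul_comm]
  have hkey : ∀ j, algebraMap O' L' (o j) * c0 ^ (n * e) - algebraMap O' L' π' * t' j = 0 := by
    refine hind _ ?_
    have h1 : ∀ j, algebraMap O L (b j) *
        ι (algebraMap O' L' (o j) * c0 ^ (n * e) - algebraMap O' L' π' * t' j)
        = (algebraMap O L (b j) * ι (algebraMap O' L' (o j))) * ι (c0 ^ (n * e))
          - algebraMap O L (algebraMap O' O π') * (algebraMap O L (b j) * ι (t' j)) := by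
      intro j
      rw [map_sub, _root_.map_mul, _root_.map_mul, hι π']
      ring
    rw [Finset.sum_congr rfl fun j _ => h1 j, Finset.sum_sub_distrib, ← Finset.sum_mul,
      ← Finset.mul_sum, ho', one_mul, hz2, ← hz2t', sub_self]
  -- some `o j` is a unit
  have hunit : ∃ j, IsUnit (o j) := by
    by_contra hcon
    push Not at hcon
    have hdvd : ∀ j, π' ∣ o j := by
      intro j
      have h1 : o j ∈ IsLocalRing.maximalIdeal O' := (IsLocalRing.mem_maximalIdeal _).mpr (hcon j)
      rw [hπ'.maximalIdeal_eq, Ideal.mem_span_singleton] at h1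
      exact h1
    choose o' ho' using hdvd
    have h1 : (1 : O) = π * ((w : O) * π ^ (e - 1) * ∑ j, algebraMap O' O (o' j) * b j) := by
      have h2 : (w : O) * π ^ e = π * ((w : O) * π ^ (e - 1)) := by
        obtain ⟨e', rfl⟩ := Nat.exists_eq_succ_of_ne_zero he
        rw [Nat.succ_sub_one, pow_succ]; ring
      have h3 : (1 : O) = algebraMap O' O π' * ∑ j, algebraMap O' O (o' j) * b j := by
        rw [Finset.mul_sum]
        conv_lhs => rw [ho]
        refine Finset.sum_congr rfl fun j _ => ?_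
        rw [ho' j, _root_.map_mul]; ring
      rw [h3, hπe, h2]; ring
    exact hπ (IsUnit.of_mul_eq_one _ h1.symm)
  obtain ⟨j, hj⟩ := hunit
  obtain ⟨v, hv⟩ := hj
  have hc0pow : c0 ^ (n * e) = algebraMap O' L' π' * (algebraMap O' L' ((v⁻¹ : O'ˣ) : O') * t' j) := by
    have h1 := hkey j
    have h2 : algebraMap O' L' ((v⁻¹ : O'ˣ) : O') * algebraMap O' L' (o j) = 1 := by
      rw [← _root_.map_mul, ← hv, Units.inv_mul, map_one]
    linear_combination (algebraMap O' L' ((v⁻¹ : O'ˣ) : O')) * h1 - (c0 ^ (n * e)) * h2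
  obtain ⟨z, hz, hc0z⟩ := hrad c0 hc0 (n * e) _
    ((isIntegral_algebraMap_adjoin S' _).mul (ht' j)) hc0pow
  refine ⟨algebraMap O L ((w : O) * π ^ (e - 1)) * ι z + s1,
    ((inSpan_map hι hspan hz).algebraMap_mul hι hspan _).add hs1, ?_⟩
  have h3 : algebraMap O L (algebraMap O' O π')
      = algebraMap O L π * algebraMap O L ((w : O) * π ^ (e - 1)) := by
    rw [hπe, ← _root_.map_mul]
    congr 1
    obtain ⟨e', rfl⟩ := Nat.exists_eq_succ_of_ne_zero he
    rw [Nat.succ_sub_one, pow_succ]; ring
  rw [ht_eq, hc0z, _root_.map_mul, hι, h3]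
  ring

/-- Descent along the uniformiser: an element of the chart over `O` with a `π`-power multiple in
`⊕ j, b j • (chart over O')` lies in it. -/
theorem inSpan_of_pow_mul (hπL : algebraMap O L π ≠ 0) :
    ∀ (n : ℕ) (x : L), IsIntegral (Algebra.adjoin O (ι '' S')) x →
      InSpan O' ι b S' (algebraMap O L π ^ n * x) → InSpan O' ι b S' x := by
  intro n
  induction n with
  | zero => intro x _ hx; simpa using hx
  | succ n ih =>
    intro x hx hr
    obtain ⟨P, hP, hPx⟩ := id hx
    set d := P.natDegree with hd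
    set f := algebraMap ↥(Algebra.adjoin O (ι '' S')) L with hf
    have h1 : x ^ d = - ∑ i ∈ Finset.range d, f (P.coeff i) * x ^ i := by
      have h2 := hPx
      rw [Polynomial.eval₂_eq_sum_range, Finset.sum_range_succ, hP.coeff_natDegree, map_one,
        one_mul] at h2
      linear_combination h2
    set ϖ := algebraMap O L π with hϖ
    set s := ϖ ^ (n + 1) with hs
    have hrT : s * x ∈ spanAlg hι hspan (S' := S') := hr
    have hϖT : ϖ ∈ spanAlg hι hspan (S' := S') := Subalgebra.algebraMap_mem _ _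
    have hsT : s ∈ spanAlg hι hspan (S' := S') := Subalgebra.pow_mem _ hϖT _
    have hfT : ∀ a : ↥(Algebra.adjoin O (ι '' S')), f a ∈ spanAlg hι hspan (S' := S') :=
      fun a => adjoin_le_spanAlg hι hspan a.2
    set Y : L := - ∑ i ∈ Finset.range d, f (P.coeff i) * (ϖ ^ n * s ^ (d - 1 - i)) * (s * x) ^ i
      with hY
    have hYT : Y ∈ spanAlg hι hspan (S' := S') :=
      Subalgebra.neg_mem _ (Subalgebra.sum_mem _ fun i _ =>
        Subalgebra.mul_mem _ (Subalgebra.mul_mem _ (hfT _)
          (Subalgebra.mul_mem _ (Subalgebra.pow_mem _ hϖT _) (Subalgebra.pow_mem _ hsT _)))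
          (Subalgebra.pow_mem _ hrT _))
    have hpow : (s * x) ^ d = ϖ * Y := by
      rw [mul_pow, h1, hY, mul_neg, mul_neg, Finset.mul_sum, Finset.mul_sum]
      congr 1
      refine Finset.sum_congr rfl fun i hi => ?_
      have hi' : i < d := Finset.mem_range.mp hi
      have h2 : s ^ d = s ^ (d - 1 - i) * s ^ i * s := by
        rw [← pow_add, ← pow_succ]; congr 1; omega
      have h3 : s = ϖ * ϖ ^ n := by rw [hs, pow_succ]; ring
      rw [h2, mul_pow]
      conv_lhs => rw [h3]
      conv_rhs => rw [h3]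
      ring
    obtain ⟨s', hs', hrs⟩ := InSpan.of_pow hι hspan hind π' hπ' π hπ e he w hπe hres hrad hr hYT d hpow
    have h4 : ϖ ^ n * x = s' := by
      have h5 : ϖ * (ϖ ^ n * x) = ϖ * s' := by rw [← hrs, hs, pow_succ]; ring
      exact mul_left_cancel₀ hπL h5
    exact ih x hx (by rw [h4]; exact hs')

/-- **(BC)**: the chart over `O` is `⊕ j, b j • (chart over O')`, provided every element of the
chart over `O` has a nonzero `O'`-multiple in the sum (generic fibre, `exists_mul_inSpan`). -/
theorem isIntegral_iff_inSpan (hπL : algebraMap O L π ≠ 0)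
    (hgen : ∀ x : L, IsIntegral (Algebra.adjoin O (ι '' S')) x →
      ∃ δ : O', δ ≠ 0 ∧ InSpan O' ι b S' (algebraMap O L (algebraMap O' O δ) * x))
    (x : L) : IsIntegral (Algebra.adjoin O (ι '' S')) x ↔ InSpan O' ι b S' x := by
  refine ⟨fun hx => ?_, fun hx => hx.isIntegral hι⟩
  obtain ⟨δ, hδ0, hδ⟩ := hgen x hx
  obtain ⟨k, v, rfl⟩ := IsDiscreteValuationRing.eq_unit_mul_pow_irreducible hδ0 hπ'
  refine inSpan_of_pow_mul hι hspan hind π' hπ' π hπ e he w hπe hres hrad hπL (e * k) x hx ?_
  have h1 : algebraMap O L π ^ (e * k) * x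
      = algebraMap O L ((((w⁻¹ : Oˣ) : O)) ^ k * algebraMap O' O ((v⁻¹ : O'ˣ) : O')) *
        (algebraMap O L (algebraMap O' O ((v : O') * π' ^ k)) * x) := by
    have h2 : algebraMap O' O ((v⁻¹ : O'ˣ) : O') * algebraMap O' O (v : O') = 1 := by
      rw [← _root_.map_mul, Units.inv_mul, map_one]
    have h3 : ((w⁻¹ : Oˣ) : O) * (w : O) = 1 := Units.inv_mul w
    have h4 : ((w⁻¹ : Oˣ) : O) ^ k * (w : O) ^ k = 1 := by rw [← mul_pow, h3, one_pow]
    have key : π ^ (e * k) = ((w⁻¹ : Oˣ) : O) ^ k * algebraMap O' O ((v⁻¹ : O'ˣ) : O') *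
        algebraMap O' O ((v : O') * π' ^ k) := by
      rw [_root_.map_mul, map_pow, hπe, mul_pow, pow_mul]
      linear_combination (-(π ^ e) ^ k * ((w⁻¹ : Oˣ) : O) ^ k * (w : O) ^ k) * h2 - (π ^ e) ^ k * h4
    rw [← map_pow, key, _root_.map_mul (algebraMap O L), mul_assoc]
  rw [h1]
  exact hδ.algebraMap_mul hι hspan _

end Special

end Core

end Fermat.Agent.Lib.ChartBaseChange
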