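import Mathlib
import Fermat.Agent.Lib.ChartBaseChange

/-!
# Base change of a chart ring: the generic fibre (trace form)

Level-free, Mathlib only.  Companion of `Lib/ChartBaseChange`: in the notation of that file, if
the `b j` form a basis of `L` over `ι L'` (and span `O` over `O'`), `L'` has characteristic zero
and `O'` is integrally closed in `L'`, then every `x` integral over `O[ι S']` has a nonzero
multiple `δ x`, `δ ∈ O'`, of the form `∑ j, b j * ι (c j)` with the `c j` integral over `O'[S']`.
(`δ` is the discriminant of the trace form of `L / ι L'` in the basis `b`.)  This is the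
hypothesis `hgen` of `ChartBaseChange.isIntegral_iff_inSpan`.
-/

set_option autoImplicit false
set_option linter.style.haveILetI false

namespace Fermat.Agent.Lib.ChartBaseChange

open scoped BigOperators
open Polynomial

section Gen

variable {O' O L' L : Type*} [CommRing O'] [CommRing O] [Field L'] [Field L]
  [Algebra O' O] [Algebra O' L'] [Algebra O L]

/-- Integrality over a subalgebra all of whose elements are integral over a smaller ring. -/
theorem isIntegral_of_isIntegral_subalgebra {R A B : Type*} [CommRing R] [CommRing A]
    [CommRing B] [Algebra R B] [Algebra A B] (D : Subalgebra A B)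
    (hD : ∀ y ∈ D, IsIntegral R y) {x : B} (hx : IsIntegral D x) : IsIntegral R x := by
  let φ : ↥D →+* ↥(integralClosure R B) :=
    (algebraMap ↥D B).codRestrict (integralClosure R B) fun y => hD y y.2
  have h1 : IsIntegral ↥(integralClosure R B) x := by
    have := IsIntegral.map_of_comp_eq φ (RingHom.id B) (RingHom.ext fun _ => rfl) hx
    simpa using this
  exact isIntegral_trans x h1

theorem exists_mul_inSpan [CharZero L'] (ι : L' →+* L)
    (hι : ∀ a : O', ι (algebraMap O' L' a) = algebraMap O L (algebraMap O' O a))
    {r : ℕ} (b : Fin r → O)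
    (hspan : ∀ a : O, ∃ a' : Fin r → O', a = ∑ j, algebraMap O' O (a' j) * b j)
    (hind : ∀ c : Fin r → L', ∑ j, algebraMap O L (b j) * ι (c j) = 0 → ∀ j, c j = 0)
    (hLspan : ∀ x : L, ∃ c : Fin r → L', x = ∑ j, algebraMap O L (b j) * ι (c j))
    (hOL' : ∀ x : L', IsIntegral O' x → ∃ a : O', algebraMap O' L' a = x)
    (S' : Set L') (x : L) (hx : IsIntegral (Algebra.adjoin O (ι '' S')) x) :
    ∃ δ : O', δ ≠ 0 ∧ InSpan O' ι b S' (algebraMap O L (algebraMap O' O δ) * x) := by
  classical
  letI : Algebra L' L := ι.toAlgebra
  have hιalg : ∀ y : L', algebraMap L' L y = ι y := fun _ => rfl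
  let v : Fin r → L := fun j => algebraMap O L (b j)
  have hli : LinearIndependent L' v := by
    rw [Fintype.linearIndependent_iff]
    intro g hg
    refine hind g ?_
    rw [← hg]
    exact Finset.sum_congr rfl fun j _ => by rw [Algebra.smul_def, hιalg, mul_comm]
  have hsp : ⊤ ≤ Submodule.span L' (Set.range v) := by
    intro y _
    obtain ⟨c, rfl⟩ := hLspan y
    refine Submodule.sum_mem _ fun j _ => ?_
    have h1 : algebraMap O L (b j) * ι (c j) = c j • v j := by
      rw [Algebra.smul_def, hιalg, mul_comm]
    rw [h1]
    exact Submodule.smul_mem _ _ (Submodule.subset_span ⟨j, rfl⟩)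
  let B : Module.Basis (Fin r) L' L := Module.Basis.mk hli hsp
  have hB : (⇑B : Fin r → L) = v := Module.Basis.coe_mk hli hsp
  haveI : FiniteDimensional L' L := Module.Finite.of_basis B
  -- `O'` acts on `L`
  letI : Algebra O' L := ((algebraMap O L).comp (algebraMap O' O)).toAlgebra
  haveI : IsScalarTower O' O L := IsScalarTower.of_algebraMap_eq fun _ => rfl
  haveI : IsScalarTower O' L' L := IsScalarTower.of_algebraMap_eq fun a => (hι a).symm
  -- `O` is integral over `O'`
  haveI : Module.Finite O' O := by
    refine Module.Finite.of_surjective (Fintype.linearCombination O' b) ?_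
    intro a
    obtain ⟨a', ha'⟩ := hspan a
    refine ⟨a', ?_⟩
    rw [Fintype.linearCombination_apply, ha']
    exact Finset.sum_congr rfl fun j _ => by rw [Algebra.smul_def]
  have hOint : ∀ a : O, IsIntegral O' (algebraMap O L a) := fun a =>
    (Algebra.IsIntegral.isIntegral (R := O') a).algebraMap
  -- the Gram matrix of the trace form
  let G : Matrix (Fin r) (Fin r) L' := Algebra.traceMatrix L' v
  have hGdet : G.det ≠ 0 := by
    have h1 := det_traceForm_ne_zero (K := L') (L := L) B
    rwa [← Algebra.traceMatrix_of_basis, hB] at h1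
  have hGint : ∀ i j, IsIntegral O' (G i j) := by
    intro i j
    show IsIntegral O' (Algebra.traceMatrix L' v i j)
    rw [Algebra.traceMatrix_apply, Algebra.traceForm_apply]
    refine Algebra.isIntegral_trace ?_
    show IsIntegral O' (algebraMap O L (b i) * algebraMap O L (b j))
    rw [← map_mul]
    exact hOint _
  choose g hg using fun i j => hOL' (G i j) (hGint i j)
  let gM : Matrix (Fin r) (Fin r) O' := Matrix.of g
  have hgM : (algebraMap O' L').mapMatrix gM = G := by
    ext i j
    exact hg i j
  refine ⟨gM.det, ?_, ?_⟩
  · intro h0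
    apply hGdet
    rw [← hgM, ← RingHom.map_det, h0, map_zero]
  · obtain ⟨c, hxc⟩ := hLspan x
    -- the chart base ring acts on `L`
    haveI : IsScalarTower ↥(Algebra.adjoin O' S') L' L :=
      IsScalarTower.of_algebraMap_eq fun _ => rfl
    haveI : IsScalarTower O' ↥(Algebra.adjoin O' S') L :=
      IsScalarTower.of_algebraMap_eq fun a => (hι a).symm
    have hadj : ∀ y ∈ Algebra.adjoin O (ι '' S'), IsIntegral ↥(Algebra.adjoin O' S') y := by
      intro y hy
      induction hy using Algebra.adjoin_induction with
      | mem s hs =>
        obtain ⟨s', hs', rfl⟩ := hs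
        exact isIntegral_algebraMap (R := ↥(Algebra.adjoin O' S')) (A := L)
          (x := ⟨s', Algebra.subset_adjoin hs'⟩)
      | algebraMap a => exact (hOint a).tower_top
      | add x y _ _ hx hy => exact hx.add hy
      | mul x y _ _ hx hy => exact hx.mul hy
    have hxint : IsIntegral ↥(Algebra.adjoin O' S') x :=
      isIntegral_of_isIntegral_subalgebra _ hadj hx
    have hvint : ∀ k, IsIntegral ↥(Algebra.adjoin O' S') (v k) := fun k =>
      (hOint (b k)).tower_top
    have ht : ∀ k, IsIntegral ↥(Algebra.adjoin O' S') (Algebra.trace L' L (x * v k)) :=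
      fun k => Algebra.isIntegral_trace (hxint.mul (hvint k))
    have htr : ∀ k, Algebra.trace L' L (x * v k) = ∑ j, c j * G j k := by
      intro k
      rw [hxc, Finset.sum_mul, map_sum]
      refine Finset.sum_congr rfl fun j _ => ?_
      have h1 : algebraMap O L (b j) * ι (c j) * v k = c j • (v j * v k) := by
        rw [Algebra.smul_def, hιalg]; ring
      rw [h1, map_smul, smul_eq_mul]
      rfl
    have hadj2 : ∀ j, G.det * c j = ∑ k, Algebra.trace L' L (x * v k) * G.adjugate k j := by
      intro j
      have h1 : Matrix.vecMul (fun k => Algebra.trace L' L (x * v k)) G.adjugate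
          = Matrix.vecMul c (G * G.adjugate) := by
        rw [← Matrix.vecMul_vecMul]
        congr 1
        ext k
        rw [htr k]
        rfl
      rw [Matrix.mul_adjugate, Matrix.vecMul_smul, Matrix.vecMul_one] at h1
      have h2 := congrFun h1 j
      simp only [Matrix.vecMul, dotProduct, Pi.smul_apply, smul_eq_mul] at h2
      exact h2.symm
    have hadjM : (algebraMap O' L').mapMatrix gM.adjugate = G.adjugate := by
      rw [← hgM, RingHom.map_adjugate]
    refine ⟨fun j => ∑ k, Algebra.trace L' L (x * v k) * algebraMap O' L' (gM.adjugate k j),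
      fun j => ?_, ?_⟩
    · exact IsIntegral.sum _ fun k _ => (ht k).mul (isIntegral_algebraMap_adjoin S' _)
    · have h3 : ∀ j, (∑ k, Algebra.trace L' L (x * v k) * algebraMap O' L' (gM.adjugate k j))
          = G.det * c j := by
        intro j
        rw [hadj2 j]
        refine Finset.sum_congr rfl fun k _ => ?_
        rw [← hadjM]
        rfl
      simp_rw [h3]
      rw [hxc, Finset.mul_sum]
      refine Finset.sum_congr rfl fun j _ => ?_
      rw [map_mul, ← hgM, ← RingHom.map_det, hι]
      ring

end Gen

end Fermat.Agent.Lib.ChartBaseChange
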