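import Mathlib
import Fermat.Agent.Lib.ChartBaseChange

/-!
# Base change of a chart ring: the chart over `O'` surjects onto the special fibre of the chart
over `O`

Level-free corollary of `Lib/ChartBaseChange` (Program FG / S19, Route C, brick `COS`, statement
(RES)).  In the setting of that file (`O' → O`, `ι : L' → L`, a family `b : Fin r → O`), assume
that the residue rings agree: `O = O' + π O`.  Then every element of
`⊕ j, b j • ι (chart over O')` — hence, under (BC), every element of the chart over `O` — is
congruent modulo `π` (times the chart over `O`) to the image of an element of the chart over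
`O'`:

`x = ι x' + π * y`,  `x'` in the chart over `O'`,  `y` in the chart over `O`.

In the application `O' = A ∩ E'` with `E'` the inertia-fixed subfield of `E`: `ι x'` is fixed by
the inertia group, so local parameters of the special fibre can be chosen inertia-invariant.
-/

set_option autoImplicit false

namespace Fermat.Agent.Lib.ChartBaseChange

open scoped BigOperators

variable {O' O L' L : Type*} [CommRing O'] [CommRing O] [Field L'] [Field L]
  [Algebra O' O] [Algebra O' L'] [Algebra O L]
  {ι : L' →+* L} {r : ℕ} {b : Fin r → O} {S' : Set L'}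

/-- **(RES), `InSpan` form.** -/
theorem exists_map_add_mul_of_inSpan
    (hι : ∀ a : O', ι (algebraMap O' L' a) = algebraMap O L (algebraMap O' O a)) (π : O)
    (hres : ∀ a : O, ∃ a' : O', ∃ a'' : O, a = algebraMap O' O a' + π * a'') {x : L}
    (hx : InSpan O' ι b S' x) :
    ∃ x' : L', IsIntegral (Algebra.adjoin O' S') x' ∧
      ∃ y : L, IsIntegral (Algebra.adjoin O (ι '' S')) y ∧ x = ι x' + algebraMap O L π * y := by
  obtain ⟨c, hc, rfl⟩ := hx
  choose b' b'' hb using fun j => hres (b j)
  refine ⟨∑ j, algebraMap O' L' (b' j) * c j, ?_, ∑ j, algebraMap O L (b'' j) * ι (c j), ?_, ?_⟩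
  · exact IsIntegral.sum _ fun j _ =>
      IsIntegral.mul (isIntegral_algebraMap_adjoin S' (b' j)) (hc j)
  · exact IsIntegral.sum _ fun j _ =>
      IsIntegral.mul (isIntegral_of_mem_adjoin (Subalgebra.algebraMap_mem _ _))
        (isIntegral_map hι (hc j))
  · rw [map_sum, Finset.mul_sum, ← Finset.sum_add_distrib]
    refine Finset.sum_congr rfl fun j _ => ?_
    conv_lhs => rw [hb j]
    rw [map_add, _root_.map_mul (algebraMap O L), _root_.map_mul ι, hι]
    ring

/-- **(RES)**: under (BC), the chart over `O'` surjects onto the special fibre of the chart over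
`O`. -/
theorem exists_map_add_mul
    (hι : ∀ a : O', ι (algebraMap O' L' a) = algebraMap O L (algebraMap O' O a)) (π : O)
    (hres : ∀ a : O, ∃ a' : O', ∃ a'' : O, a = algebraMap O' O a' + π * a'')
    (hbc : ∀ x : L, IsIntegral (Algebra.adjoin O (ι '' S')) x → InSpan O' ι b S' x)
    (x : L) (hx : IsIntegral (Algebra.adjoin O (ι '' S')) x) :
    ∃ x' : L', IsIntegral (Algebra.adjoin O' S') x' ∧
      ∃ y : L, IsIntegral (Algebra.adjoin O (ι '' S')) y ∧ x = ι x' + algebraMap O L π * y :=
  exists_map_add_mul_of_inSpan hι π hres (hbc x hx)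

end Fermat.Agent.Lib.ChartBaseChange
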