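import Mathlib
import Fermat.Prelude.Def_FLTPrelim_Ramification

namespace Fermat.Agent.Lib.PlaceValRing

open IsDedekindDomain NumberField

section General

variable {R K L : Type*} [CommRing R] [IsDedekindDomain R] [Field K] [Algebra R K]
  [IsFractionRing R K] [Field L] [Algebra K L]

omit [IsDedekindDomain R] in
/-- A valuation subring of an extension field `L` of `K = Frac R` containing the image of `R`
and having the image of the proper ideal `v` inside its non-units. -/
theorem exists_base (v : Ideal R) (hv : v ≠ ⊤) :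
    ∃ B : ValuationSubring L,
      (∀ a : R, algebraMap K L (algebraMap R K a) ∈ B) ∧
      (∀ a ∈ v, algebraMap K L (algebraMap R K a) ∈ B.nonunits) := by
  classical
  let f : R →+* L := (algebraMap K L).comp (algebraMap R K)
  have hf : Function.Injective f :=
    (algebraMap K L).injective.comp (IsFractionRing.injective R K)
  let R₀ : Subring L := f.range
  let g : R →+* R₀ := f.rangeRestrict
  have hg : Function.Surjective g := f.rangeRestrict_surjective
  have hginj : Function.Injective g := by
    intro a b hab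
    apply hf
    exact congrArg Subtype.val hab
  let I₀ : Ideal R₀ := v.map g
  have hI : I₀ ≠ ⊤ := by
    intro htop
    have h1 : (1 : R₀) ∈ I₀ := by rw [htop]; exact Submodule.mem_top
    obtain ⟨a, ha, ha1⟩ := (Ideal.mem_map_iff_of_surjective g hg).mp h1
    have : a = 1 := hginj (by rw [ha1, map_one])
    rw [this] at ha
    exact hv ((Ideal.eq_top_iff_one _).mpr ha)
  obtain ⟨B, hle, hB⟩ := Ideal.image_subset_nonunits_valuationSubring I₀ hI
  refine ⟨B, fun a => hle ⟨a, rfl⟩, fun a ha => ?_⟩
  exact hB ⟨g a, Ideal.mem_map_of_mem g ha, rfl⟩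

/-- The valuation subring of `exists_base` induces exactly the `v`-adic valuation ring on `K`. -/
theorem exists_valuationSubring_general (v : HeightOneSpectrum R) :
    ∃ A : ValuationSubring L,
      (∀ x : K, (algebraMap K L x ∈ A ↔ v.valuation K x ≤ 1)) ∧
      (∀ x : K, (algebraMap K L x ∈ A.nonunits ↔ v.valuation K x < 1)) := by
  classical
  obtain ⟨B, hB1, hB2⟩ := exists_base (K := K) (L := L) v.asIdeal v.isPrime.ne_top
  -- elements outside `v` become units of `B`
  have hunit : ∀ s : R, s ∉ v.asIdeal →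
      B.valuation (algebraMap K L (algebraMap R K s)) = 1 := by
    intro s hs
    have hmax : v.asIdeal.IsMaximal := v.isMaximal
    obtain ⟨t, i, hi, hti⟩ := hmax.exists_inv hs
    have hm := hB2 _ hi
    rw [ValuationSubring.mem_nonunits_iff] at hm
    have hs1 : B.valuation (algebraMap K L (algebraMap R K s)) ≤ 1 :=
      (B.valuation_le_one_iff _).mpr (hB1 s)
    have ht1 : B.valuation (algebraMap K L (algebraMap R K t)) ≤ 1 :=
      (B.valuation_le_one_iff _).mpr (hB1 t)
    have hprod : B.valuation (algebraMap K L (algebraMap R K (t * s))) = 1 := by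
      have e : algebraMap K L (algebraMap R K (t * s)) =
          1 - algebraMap K L (algebraMap R K i) := by
        have : t * s = 1 - i := by rw [← hti]; ring
        rw [this, map_sub, map_sub, map_one, map_one]
      rw [e]
      exact Valuation.map_one_sub_of_lt _ hm
    rw [map_mul, map_mul, map_mul] at hprod
    exact eq_one_of_one_le_mul_right ht1 hs1 hprod.ge
  have hmemle : ∀ x : K, v.valuation K x ≤ 1 → algebraMap K L x ∈ B := by
    intro x hx
    obtain ⟨n, d, hnd⟩ := v.exists_primeCompl_mul_eq_of_integer x hx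
    have hd : B.valuation (algebraMap K L (algebraMap R K (d : R))) = 1 := hunit d d.2
    have h2 := congrArg (fun y => B.valuation (algebraMap K L y)) hnd
    simp only [map_mul] at h2
    rw [hd, mul_one] at h2
    rw [← B.valuation_le_one_iff, h2]
    exact (B.valuation_le_one_iff _).mpr (hB1 n)
  have hmemlt : ∀ x : K, v.valuation K x < 1 → algebraMap K L x ∈ B.nonunits := by
    intro x hx
    obtain ⟨n, d, hnd⟩ := v.exists_primeCompl_mul_eq_of_integer x hx.le
    have hd : B.valuation (algebraMap K L (algebraMap R K (d : R))) = 1 := hunit d d.2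
    have hdv : v.valuation K (algebraMap R K (d : R)) = 1 := by
      rw [HeightOneSpectrum.valuation_of_algebraMap]
      exact (v.intValuation_eq_one_iff_mem_primeCompl _).mpr d.2
    have hn : n ∈ v.asIdeal := by
      rw [← HeightOneSpectrum.valuation_lt_one_iff_mem (K := K)]
      show v.valuation K (algebraMap R K n) < 1
      rw [← hnd, map_mul, hdv, mul_one]
      exact hx
    have h2 := congrArg (fun y => B.valuation (algebraMap K L y)) hnd
    simp only [map_mul] at h2
    rw [hd, mul_one] at h2
    rw [ValuationSubring.mem_nonunits_iff, h2]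
    exact (ValuationSubring.mem_nonunits_iff (A := B)).mp (hB2 n hn)
  have hinv : ∀ x : K, x ≠ 0 → algebraMap K L x⁻¹ = (algebraMap K L x)⁻¹ := fun x _ => by
    rw [map_inv₀]
  refine ⟨B, fun x => ⟨fun hx => ?_, hmemle x⟩, fun x => ⟨fun hx => ?_, hmemlt x⟩⟩
  · by_contra hlt
    rw [not_le] at hlt
    have hx0 : x ≠ 0 := by
      rintro rfl
      simp at hlt
    have hv0 : v.valuation K x ≠ 0 := by rw [Ne, map_eq_zero]; exact hx0
    have h1 : v.valuation K x⁻¹ < 1 := by
      rw [map_inv₀]
      exact inv_lt_one_of_one_lt₀ hlt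
    have h2 := hmemlt x⁻¹ h1
    rw [hinv x hx0, ValuationSubring.mem_nonunits_iff, map_inv₀] at h2
    have h3 : B.valuation (algebraMap K L x) ≤ 1 := (B.valuation_le_one_iff _).mpr hx
    have hB0 : B.valuation (algebraMap K L x) ≠ 0 := by
      rw [Ne, map_eq_zero, map_eq_zero]; exact hx0
    have h4 : 1 < B.valuation (algebraMap K L x) := by
      rwa [inv_lt_one₀ (zero_lt_iff.mpr hB0)] at h2
    exact absurd h3 (not_le.mpr h4)
  · by_contra hge
    rw [not_lt] at hge
    have hx0 : x ≠ 0 := by
      rintro rfl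
      simp at hge
    have hv0 : v.valuation K x ≠ 0 := by rw [Ne, map_eq_zero]; exact hx0
    have h1 : v.valuation K x⁻¹ ≤ 1 := by
      rw [map_inv₀]
      exact inv_le_one_of_one_le₀ hge
    have h2 := hmemle x⁻¹ h1
    rw [hinv x hx0, ← B.valuation_le_one_iff, map_inv₀] at h2
    rw [ValuationSubring.mem_nonunits_iff] at hx
    have hB0 : B.valuation (algebraMap K L x) ≠ 0 := by
      rw [Ne, map_eq_zero, map_eq_zero]; exact hx0
    have h4 : 1 ≤ B.valuation (algebraMap K L x) := by
      rwa [inv_le_one₀ (zero_lt_iff.mpr hB0)] at h2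
    exact absurd hx (not_lt.mpr h4)

end General

section Qbar

local notation "Qb" => AlgebraicClosure ℚ

/-- **Valuation-ring dictionary.**  Every finite place `v` of a number field `K ⊆ Qb` is induced
by a valuation subring of `Qb`. -/
theorem exists_valuationSubring_both (K : IntermediateField ℚ Qb) [NumberField K]
    (v : HeightOneSpectrum (𝓞 K)) :
    ∃ A : ValuationSubring Qb,
      (∀ x : K, ((x : Qb) ∈ A ↔ v.valuation K x ≤ 1)) ∧
      (∀ x : K, ((x : Qb) ∈ A.nonunits ↔ v.valuation K x < 1)) :=
  exists_valuationSubring_general (R := 𝓞 K) (K := K) (L := Qb) v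

theorem exists_valuationSubring (K : IntermediateField ℚ Qb) [NumberField K]
    (v : HeightOneSpectrum (𝓞 K)) :
    ∃ A : ValuationSubring Qb, ∀ x : K, ((x : Qb) ∈ A ↔ v.valuation K x ≤ 1) := by
  obtain ⟨A, h1, -⟩ := exists_valuationSubring_both K v
  exact ⟨A, h1⟩

/-- A valuation subring inducing `v` lies over the residue characteristic of `v`. -/
theorem liesOverPrime_of_nonunits (K : IntermediateField ℚ Qb) [NumberField K]
    (v : HeightOneSpectrum (𝓞 K)) (A : ValuationSubring Qb)
    (hA : ∀ x : K, ((x : Qb) ∈ A.nonunits ↔ v.valuation K x < 1))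
    (ℓ : ℕ) (hℓ : ((ℓ : ℕ) : 𝓞 K) ∈ v.asIdeal) : A.LiesOverPrime ℓ := by
  have h1 : v.valuation K ((ℓ : ℕ) : K) < 1 := by
    have := (HeightOneSpectrum.valuation_lt_one_iff_mem (K := K) v ((ℓ : ℕ) : 𝓞 K)).mpr hℓ
    simpa using this
  have h2 := (hA ((ℓ : ℕ) : K)).mpr h1
  show ((ℓ : ℕ) : Qb) ∈ A.nonunits
  simpa using h2

/-- Packaged form: `A` induces `v` and lies over every rational prime contained in `v`. -/
theorem exists_valuationSubring_liesOver (K : IntermediateField ℚ Qb) [NumberField K]
    (v : HeightOneSpectrum (𝓞 K)) :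
    ∃ A : ValuationSubring Qb,
      (∀ x : K, ((x : Qb) ∈ A ↔ v.valuation K x ≤ 1)) ∧
      (∀ x : K, ((x : Qb) ∈ A.nonunits ↔ v.valuation K x < 1)) ∧
      (∀ ℓ : ℕ, ((ℓ : ℕ) : 𝓞 K) ∈ v.asIdeal → A.LiesOverPrime ℓ) := by
  obtain ⟨A, h1, h2⟩ := exists_valuationSubring_both K v
  exact ⟨A, h1, h2, fun ℓ hℓ => liesOverPrime_of_nonunits K v A h2 ℓ hℓ⟩

end Qbar

end Fermat.Agent.Lib.PlaceValRing
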