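/-
Crossing with cyclotomic fields (algebraic half of Chebotarev's trick).

Part I (inside `Qb = AlgebraicClosure ℚ`, `Gq = Gal(Qb/ℚ)`, `L` finite over `ℚ` inside `Qb`):
* `exists_aut_pow` : every unit exponent is realised on a primitive root of unity;
* `exists_mul_of_coprime`, `adjoin_inf_adjoin_eq_bot_of_coprime` : cyclotomic fields of coprime
  conductors are linearly disjoint (`ℚ(ζ_m) ⊓ ℚ(ζ_m') = ⊥`);
* `finite_setOf_prime_inf_ne_bot`, `exists_prime_modEq_one_inf_eq_bot` : for all but finitely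
  many primes `m`, `L ⊓ ℚ(ζ_m) = ⊥`; there are such `m ≡ 1 (mod k)`, arbitrarily large;
* `exists_extend_both` : if `L ⊓ ℚ(ζ_m) = ⊥`, every pair (`g|_L`, `ζ ↦ ζ ^ a`) is realised by
  one automorphism (`Gal(L(ζ_m)/ℚ) = Gal(L/ℚ) × (ℤ/m)ˣ`).

Part II (pure group theory):
* `two_pow_mul_card_not_dvd_orderOf_le` : in a cyclic group of order divisible by `n ^ j`, at
  most the fraction `n / 2 ^ j` of the elements has order not divisible by `n`;
* `eq_one_of_mem_zpowers_of_dvd`, `injOn_zpowers_of_dvd`, `orderOf_eq_of_dvd`,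
  `card_fibre_mul_card`, `two_pow_mul_card_bad_lifts_le`, `two_pow_mul_card_lifts_le` : for
  `r : G' → G0`, `κ : G' → C` jointly injective, `κ` onto the cyclic `C`: a lift `σ` of `τ` with
  `ord τ ∣ ord (κ σ)` has `κ` injective on `⟨σ⟩`, and the other lifts are rare.

Part III (abstract tower `ℚ ⊆ M ⊆ L = M(ζ_m)`, no linear disjointness needed):
* `restrictNormalHom_surjective_tower`, `eq_one_of_restrict_of_autToPow`, `autToPow_surjective`,
  `autToPow_eq_one_iff`, `normal_of_isCyclotomicExtension`, `isGalois_of_isCyclotomicExtension`,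
  `faithful_of_dvd`, `orderOf_eq_orderOf_autToPow`, `ncard_lifts_mul_card`;
* `two_pow_mul_ncard_unfaithful_lifts_le`, `two_pow_mul_ncard_lifts_le`,
  `one_sub_mul_ncard_lifts_le` : for `m ≡ 1 (mod [M:ℚ] ^ j)` prime, all but the fraction
  `[M:ℚ] ^ 2 / 2 ^ j` of the lifts `σ` of any `τ ∈ Gal(M/ℚ)` act faithfully on `ζ_m` via `⟨σ⟩`;
* `cyclotomicField_tower` : `CyclotomicField m M` is such a tower.
-/
import Mathlib

set_option autoImplicit false

open scoped IntermediateField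

namespace Fermat.Agent.Lib.CycloCross

local notation "Qb" => AlgebraicClosure ℚ
local notation "Gq" => (AlgebraicClosure ℚ ≃ₐ[ℚ] AlgebraicClosure ℚ)

local instance isAlgebraicQbar_cc : Algebra.IsAlgebraic ℚ (AlgebraicClosure ℚ) :=
  AlgebraicClosure.isAlgebraic ℚ
local instance isAlgClosureQbar_cc : IsAlgClosure ℚ (AlgebraicClosure ℚ) :=
  ⟨inferInstance, inferInstance⟩
local instance normalQbar_cc : Normal ℚ (AlgebraicClosure ℚ) :=
  IsAlgClosure.normal ℚ (AlgebraicClosure ℚ)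
local instance isGaloisQbar_cc : IsGalois ℚ (AlgebraicClosure ℚ) := ⟨⟩

section Cyclo

/-- An automorphism fixing `ζ` fixes `ℚ(ζ)` pointwise. -/
theorem apply_eq_of_mem_adjoin {v : Gq} {ζ y : Qb} (hv : v ζ = ζ) (hy : y ∈ ℚ⟮ζ⟯) : v y = y := by
  have halg : IsAlgebraic ℚ ζ := Algebra.IsAlgebraic.isAlgebraic ζ
  have h1 : y ∈ (ℚ⟮ζ⟯ : IntermediateField ℚ Qb).toSubalgebra := hy
  rw [IntermediateField.adjoin_simple_toSubalgebra_of_isAlgebraic halg,
    Algebra.adjoin_singleton_eq_range_aeval] at h1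
  obtain ⟨P, hP⟩ := h1
  have hP' : Polynomial.aeval ζ P = y := hP
  have h2 : v (Polynomial.aeval ζ P) = Polynomial.aeval (v ζ) P :=
    (Polynomial.aeval_algHom_apply (v : Qb →ₐ[ℚ] Qb) ζ P).symm
  rw [← hP', h2, hv]

/-- Every exponent prime to `n` is realised by an automorphism on a primitive `n`-th root. -/
theorem exists_aut_pow {n : ℕ} (hn : 0 < n) {ξ : Qb} (hξ : IsPrimitiveRoot ξ n) {c : ℕ}
    (hc : c.Coprime n) : ∃ v : Gq, v ξ = ξ ^ c := by
  have h1 : IsPrimitiveRoot (ξ ^ c) n := hξ.pow_of_coprime c hc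
  have h2 : IsConjRoot ℚ (ξ ^ c) ξ := by
    rw [isConjRoot_def, ← Polynomial.cyclotomic_eq_minpoly_rat hξ hn,
      ← Polynomial.cyclotomic_eq_minpoly_rat h1 hn]
  exact h2.exists_algEquiv

/-- The image of a primitive root under an automorphism is a coprime power. -/
theorem exists_coprime_pow_eq {n : ℕ} (hn : 0 < n) {ξ : Qb} (hξ : IsPrimitiveRoot ξ n) (g : Gq) :
    ∃ a : ℕ, a.Coprime n ∧ g ξ = ξ ^ a := by
  have : NeZero n := ⟨hn.ne'⟩
  have h1 : IsPrimitiveRoot (g ξ) n := hξ.map_of_injective g.injective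
  obtain ⟨a, -, ha⟩ := hξ.eq_pow_of_pow_eq_one h1.pow_eq_one
  refine ⟨a, ?_, ha.symm⟩
  rw [← ha] at h1
  exact (hξ.pow_iff_coprime hn a).1 h1

/-- For coprime `m`, `m'`: an automorphism acting as a prescribed coprime power on `ζ_m` and
trivially on `ζ_m'`. -/
theorem exists_aut_pow_fix {m m' : ℕ} (hm : 0 < m) (hm' : 0 < m') (h : m.Coprime m')
    {ζ ζ' : Qb} (hζ : IsPrimitiveRoot ζ m) (hζ' : IsPrimitiveRoot ζ' m') {a : ℕ}
    (ha : a.Coprime m) : ∃ v : Gq, v ζ = ζ ^ a ∧ v ζ' = ζ' := by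
  have : NeZero m := ⟨hm.ne'⟩
  have : NeZero m' := ⟨hm'.ne'⟩
  -- the primitive `m m'`-th root `ξ = ζ ζ'`
  have hξ : IsPrimitiveRoot (ζ * ζ') (m * m') := by
    have h1 : orderOf (ζ * ζ') = m * m' := by
      rw [(Commute.all ζ ζ').orderOf_mul_eq_mul_orderOf_of_coprime
        (by rw [← hζ.eq_orderOf, ← hζ'.eq_orderOf]; exact h), ← hζ.eq_orderOf, ← hζ'.eq_orderOf]
    rw [← h1]
    exact IsPrimitiveRoot.orderOf _
  -- `c ≡ a (mod m)`, `c ≡ 1 (mod m')`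
  obtain ⟨c, hca, hc1⟩ := Nat.chineseRemainder h a 1
  have hcm : c.Coprime m := by
    have : Nat.gcd c m = 1 := by rw [Nat.ModEq.gcd_eq hca]; exact ha
    exact this
  have hcm' : c.Coprime m' := by
    have : Nat.gcd c m' = 1 := by rw [Nat.ModEq.gcd_eq hc1]; exact Nat.gcd_one_left m'
    exact this
  obtain ⟨v, hv⟩ := exists_aut_pow (Nat.mul_pos hm hm') hξ (Nat.Coprime.mul_right hcm hcm')
  refine ⟨v, ?_, ?_⟩
  · -- `ζ` is a power of `ξ ^ m' = ζ ^ m'`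
    have h1 : IsPrimitiveRoot (ζ ^ m') m := hζ.pow_of_coprime m' h.symm
    obtain ⟨i, -, hi⟩ := h1.eq_pow_of_pow_eq_one hζ.pow_eq_one
    have h2 : (ζ * ζ') ^ (m' * i) = ζ := by
      rw [pow_mul, mul_pow, hζ'.pow_eq_one, mul_one, hi]
    calc v ζ = v ((ζ * ζ') ^ (m' * i)) := by rw [h2]
      _ = ((ζ * ζ') ^ (m' * i)) ^ c := by rw [map_pow, hv, ← pow_mul, ← pow_mul, Nat.mul_comm]
      _ = ζ ^ c := by rw [h2]
      _ = ζ ^ a := by
        rw [pow_eq_pow_mod c hζ.pow_eq_one, pow_eq_pow_mod a hζ.pow_eq_one]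
        exact congrArg _ hca
  · have h1 : IsPrimitiveRoot (ζ' ^ m) m' := hζ'.pow_of_coprime m h
    obtain ⟨i, -, hi⟩ := h1.eq_pow_of_pow_eq_one hζ'.pow_eq_one
    have h2 : (ζ * ζ') ^ (m * i) = ζ' := by
      rw [pow_mul, mul_pow, hζ.pow_eq_one, one_mul, hi]
    calc v ζ' = v ((ζ * ζ') ^ (m * i)) := by rw [h2]
      _ = ((ζ * ζ') ^ (m * i)) ^ c := by rw [map_pow, hv, ← pow_mul, ← pow_mul, Nat.mul_comm]
      _ = ζ' ^ c := by rw [h2]
      _ = ζ' ^ 1 := by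
        rw [pow_eq_pow_mod c hζ'.pow_eq_one, pow_eq_pow_mod 1 hζ'.pow_eq_one]
        exact congrArg _ hc1
      _ = ζ' := pow_one _

/-- Cyclotomic fields of coprime conductors are independent: every automorphism is a product
of one fixing `ζ` and one fixing `ζ'`. -/
theorem exists_mul_of_coprime {m m' : ℕ} (hm : 0 < m) (hm' : 0 < m') (h : m.Coprime m')
    {ζ ζ' : Qb} (hζ : IsPrimitiveRoot ζ m) (hζ' : IsPrimitiveRoot ζ' m') (g : Gq) :
    ∃ u v : Gq, g = u * v ∧ u ζ = ζ ∧ v ζ' = ζ' := by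
  obtain ⟨a, ha, hga⟩ := exists_coprime_pow_eq hm hζ g⁻¹
  obtain ⟨v, hv, hv'⟩ := exists_aut_pow_fix hm hm' h hζ hζ' ha
  -- `g⁻¹ = v * (v⁻¹ * g⁻¹)`, so `g = (v⁻¹ * g⁻¹)⁻¹ * v⁻¹`
  refine ⟨(v⁻¹ * g⁻¹)⁻¹, v⁻¹, by group, ?_, ?_⟩
  · have h1 : (v⁻¹ * g⁻¹) ζ = ζ := by
      change v⁻¹ (g⁻¹ ζ) = ζ
      rw [hga, ← hv]
      exact AlgEquiv.symm_apply_apply v ζ
    have h2 : (v⁻¹ * g⁻¹)⁻¹ ((v⁻¹ * g⁻¹) ζ) = ζ := AlgEquiv.symm_apply_apply (v⁻¹ * g⁻¹) ζ
    rwa [h1] at h2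
  · have h2 : v⁻¹ (v ζ') = ζ' := AlgEquiv.symm_apply_apply v ζ'
    rwa [hv'] at h2

/-- `ℚ(ζ_m) ⊓ ℚ(ζ_m') = ℚ` for coprime `m`, `m'`. -/
theorem adjoin_inf_adjoin_eq_bot_of_coprime {m m' : ℕ} (hm : 0 < m) (hm' : 0 < m')
    (h : m.Coprime m') {ζ ζ' : Qb} (hζ : IsPrimitiveRoot ζ m) (hζ' : IsPrimitiveRoot ζ' m') :
    (ℚ⟮ζ⟯ ⊓ ℚ⟮ζ'⟯ : IntermediateField ℚ Qb) = ⊥ := by
  rw [eq_bot_iff]
  intro x hx
  rw [IntermediateField.mem_inf] at hx
  rw [InfiniteGalois.mem_bot_iff_fixed]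
  intro g
  obtain ⟨u, v, rfl, hu, hv⟩ := exists_mul_of_coprime hm hm' h hζ hζ' g
  change u (v x) = x
  rw [apply_eq_of_mem_adjoin hv hx.2, apply_eq_of_mem_adjoin hu hx.1]

end Cyclo

section Disjoint

variable (L : IntermediateField ℚ Qb) [FiniteDimensional ℚ L]

/-- For all but finitely many primes `m`, `L ⊓ ℚ(ζ_m) = ℚ`. -/
theorem finite_setOf_prime_inf_ne_bot :
    {m : ℕ | m.Prime ∧ ∃ ζ : Qb, IsPrimitiveRoot ζ m ∧ L ⊓ ℚ⟮ζ⟯ ≠ ⊥}.Finite := by
  classical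
  by_contra hinf
  have hinf' : Set.Infinite {m : ℕ | m.Prime ∧ ∃ ζ : Qb, IsPrimitiveRoot ζ m ∧ L ⊓ ℚ⟮ζ⟯ ≠ ⊥} :=
    hinf
  have hfin : Finite (IntermediateField ℚ ↥L) :=
    Field.finite_intermediateField_of_exists_primitive_element ℚ ↥L
      (Field.exists_primitive_element ℚ ↥L)
  have hI : Infinite ↥{m : ℕ | m.Prime ∧ ∃ ζ : Qb, IsPrimitiveRoot ζ m ∧ L ⊓ ℚ⟮ζ⟯ ≠ ⊥} :=
    hinf'.to_subtype
  let f : ↥{m : ℕ | m.Prime ∧ ∃ ζ : Qb, IsPrimitiveRoot ζ m ∧ L ⊓ ℚ⟮ζ⟯ ≠ ⊥} →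
      IntermediateField ℚ ↥L :=
    fun x => IntermediateField.restrict (inf_le_left : L ⊓ ℚ⟮x.2.2.choose⟯ ≤ L)
  obtain ⟨x, y, hxy, hf⟩ := Finite.exists_ne_map_eq_of_infinite f
  have h1 : L ⊓ ℚ⟮x.2.2.choose⟯ = L ⊓ ℚ⟮y.2.2.choose⟯ := by
    have h2 := congrArg IntermediateField.lift hf
    simp only [f, IntermediateField.lift_restrict] at h2
    exact h2
  have hx := x.2.2.choose_spec
  have hy := y.2.2.choose_spec
  have hne : (x : ℕ) ≠ (y : ℕ) := fun h => hxy (Subtype.ext h)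
  have hcop : (x : ℕ).Coprime (y : ℕ) := (Nat.coprime_primes x.2.1 y.2.1).2 hne
  have h3 := adjoin_inf_adjoin_eq_bot_of_coprime x.2.1.pos y.2.1.pos hcop hx.1 hy.1
  have hle : L ⊓ ℚ⟮x.2.2.choose⟯ ≤
      (ℚ⟮x.2.2.choose⟯ ⊓ ℚ⟮y.2.2.choose⟯ : IntermediateField ℚ Qb) :=
    le_inf inf_le_right (h1.le.trans inf_le_right)
  exact hx.2 (le_bot_iff.mp (hle.trans h3.le))

/-- There are arbitrarily large primes `m ≡ 1 (mod k)` with `L ⊓ ℚ(ζ_m) = ℚ`. -/
theorem exists_prime_modEq_one_inf_eq_bot {k : ℕ} (hk : k ≠ 0) (B : ℕ) :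
    ∃ m : ℕ, m.Prime ∧ B < m ∧ m ≡ 1 [MOD k] ∧
      ∀ ζ : Qb, IsPrimitiveRoot ζ m → L ⊓ ℚ⟮ζ⟯ = ⊥ := by
  obtain ⟨T, hT⟩ := (finite_setOf_prime_inf_ne_bot L).bddAbove
  obtain ⟨m, hm, hmB, hmk⟩ := Nat.exists_prime_gt_modEq_one (max B T) hk
  refine ⟨m, hm, (le_max_left _ _).trans_lt hmB, hmk, fun ζ hζ => ?_⟩
  by_contra hne
  have h1 : m ≤ T := hT ⟨hm, ζ, hζ, hne⟩
  exact absurd ((le_max_right B T).trans_lt hmB) (not_lt.2 h1)

/-- Membership in the fixing subgroup of `ℚ(ζ)`. -/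
theorem mem_fixingSubgroup_adjoin_simple_iff (ζ : Qb) (v : Gq) :
    v ∈ (ℚ⟮ζ⟯ : IntermediateField ℚ Qb).fixingSubgroup ↔ v ζ = ζ := by
  rw [IntermediateField.mem_fixingSubgroup_iff]
  exact ⟨fun h => h ζ (IntermediateField.mem_adjoin_simple_self ℚ ζ),
    fun h x hx => apply_eq_of_mem_adjoin h hx⟩

/-- The fixing subgroup of a cyclotomic field is normal. -/
theorem normal_fixingSubgroup_adjoin {m : ℕ} (hm : 0 < m) {ζ : Qb} (hζ : IsPrimitiveRoot ζ m) :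
    ((ℚ⟮ζ⟯ : IntermediateField ℚ Qb).fixingSubgroup).Normal := by
  refine ⟨fun v hv g => ?_⟩
  rw [mem_fixingSubgroup_adjoin_simple_iff] at hv ⊢
  obtain ⟨b, -, hb⟩ := exists_coprime_pow_eq hm hζ g⁻¹
  change g (v (g⁻¹ ζ)) = ζ
  rw [hb, map_pow, hv, ← hb]
  exact AlgEquiv.apply_symm_apply g ζ

/-- **Crossing.**  If `L ⊓ ℚ(ζ_m) = ℚ`, every pair (restriction of `g` to `L`, exponent `a` on
`ζ_m`) is realised by one automorphism: `Gal(L(ζ_m)/ℚ) = Gal(L/ℚ) × (ℤ/m)ˣ`. -/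
theorem exists_extend_both {m : ℕ} (hm : 0 < m) {ζ : Qb} (hζ : IsPrimitiveRoot ζ m)
    (h : L ⊓ ℚ⟮ζ⟯ = ⊥) (g : Gq) {a : ℕ} (ha : a.Coprime m) :
    ∃ k : Gq, (∀ x ∈ L, k x = g x) ∧ k ζ = ζ ^ a := by
  obtain ⟨hh, hhζ⟩ := exists_aut_pow hm hζ ha
  have hN := normal_fixingSubgroup_adjoin hm hζ
  -- `Fix L ⊔ Fix ℚ(ζ)` is open, hence closed, with fixed field `L ⊓ ℚ(ζ) = ℚ`
  have hopen : IsOpen ((L.fixingSubgroup ⊔ (ℚ⟮ζ⟯ : IntermediateField ℚ Qb).fixingSubgroup :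
      Subgroup Gq) : Set Gq) :=
    Subgroup.isOpen_mono le_sup_left (IntermediateField.fixingSubgroup_isOpen L)
  have hclosed := Subgroup.isClosed_of_isOpen _ hopen
  let H : ClosedSubgroup Gq :=
    ⟨L.fixingSubgroup ⊔ (ℚ⟮ζ⟯ : IntermediateField ℚ Qb).fixingSubgroup, hclosed⟩
  have h1 := InfiniteGalois.fixingSubgroup_fixedField H
  have h2 : IntermediateField.fixedField H.toSubgroup ≤ ⊥ := by
    rw [← h]
    intro x hx
    rw [IntermediateField.mem_fixedField_iff] at hx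
    rw [IntermediateField.mem_inf]
    constructor
    · rw [← InfiniteGalois.fixedField_fixingSubgroup L, IntermediateField.mem_fixedField_iff]
      exact fun f hf => hx f (Subgroup.mem_sup_left hf)
    · rw [← InfiniteGalois.fixedField_fixingSubgroup (ℚ⟮ζ⟯ : IntermediateField ℚ Qb),
        IntermediateField.mem_fixedField_iff]
      exact fun f hf => hx f (Subgroup.mem_sup_right hf)
  have htop : L.fixingSubgroup ⊔ (ℚ⟮ζ⟯ : IntermediateField ℚ Qb).fixingSubgroup = ⊤ := by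
    rw [eq_top_iff]
    intro σ _
    have h3 : σ ∈ (IntermediateField.fixedField H.toSubgroup).fixingSubgroup := by
      rw [IntermediateField.mem_fixingSubgroup_iff]
      intro x hx
      have hx' := h2 hx
      rw [IntermediateField.mem_bot] at hx'
      obtain ⟨r, rfl⟩ := hx'
      exact σ.commutes r
    rw [h1] at h3
    exact h3
  have hmem : g⁻¹ * hh ∈ ((L.fixingSubgroup ⊔ (ℚ⟮ζ⟯ : IntermediateField ℚ Qb).fixingSubgroup :
      Subgroup Gq) : Set Gq) := by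
    rw [htop]
    exact Subgroup.mem_top _
  rw [Subgroup.mul_normal, Set.mem_mul] at hmem
  obtain ⟨u, hu, v, hv, huv⟩ := hmem
  refine ⟨g * u, fun x hx => ?_, ?_⟩
  · change g (u x) = g x
    rw [(IntermediateField.mem_fixingSubgroup_iff L u).1 hu x hx]
  · have h4 : g * u = hh * v⁻¹ := by
      rw [eq_mul_inv_iff_mul_eq, mul_assoc, huv, mul_inv_cancel_left]
    rw [h4]
    change hh (v⁻¹ ζ) = ζ ^ a
    have h5 : v⁻¹ ζ = ζ := by
      have h6 : v⁻¹ (v ζ) = ζ := AlgEquiv.symm_apply_apply v ζ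
      rwa [(mem_fixingSubgroup_adjoin_simple_iff ζ v).1 hv] at h6
    rw [h5, hhζ]

end Disjoint

section Count

/-- If `n ∤ d`, `d ∣ N` and `n ^ j ∣ N` (`j ≥ 1`), then `d ∣ N / r ^ j` for some prime `r ∣ n`. -/
theorem exists_prime_dvd_div_of_not_dvd {n d N j : ℕ} (hj : 1 ≤ j) (hN : N ≠ 0)
    (hnN : n ^ j ∣ N) (hdN : d ∣ N) (hnd : ¬ n ∣ d) :
    ∃ r ∈ n.primeFactors, r ^ j ∣ N ∧ d ∣ N / r ^ j := by
  have hn0 : n ≠ 0 := by
    rintro rfl
    rw [zero_pow (by omega), zero_dvd_iff] at hnN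
    exact hN hnN
  have hd0 : d ≠ 0 := by
    rintro rfl
    exact hN (zero_dvd_iff.1 hdN)
  rw [Nat.dvd_iff_prime_pow_dvd_dvd] at hnd
  push Not at hnd
  obtain ⟨r, k, hr, hrkn, hrkd⟩ := hnd
  have hk : 1 ≤ k := by
    rcases Nat.eq_zero_or_pos k with rfl | h
    · exact absurd (by simp) hrkd
    · exact h
  have hrn : r ∣ n := (dvd_pow_self r (by omega)).trans hrkn
  have hrjN : r ^ j ∣ N := (pow_dvd_pow_of_dvd hrn j).trans hnN
  refine ⟨r, Nat.mem_primeFactors.2 ⟨hr, hrn, hn0⟩, hrjN, ?_⟩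
  obtain ⟨f, d', hd', rfl⟩ := Nat.exists_eq_pow_mul_and_not_dvd hd0 r hr.ne_one
  have hfk : f < k := by
    by_contra hge
    push Not at hge
    exact hrkd ((pow_dvd_pow r hge).trans (dvd_mul_right _ _))
  have h1 : r ^ (f + j) ∣ N := by
    have h2 : r ^ (k * j) ∣ N := by
      rw [pow_mul]
      exact (pow_dvd_pow_of_dvd hrkn j).trans hnN
    refine (pow_dvd_pow r ?_).trans h2
    have h3 : k * 1 ≤ k * j := Nat.mul_le_mul_left k hj
    have h4 : (f + 1) * j ≤ k * j := Nat.mul_le_mul_right j hfk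
    nlinarith
  have h2 : d' ∣ N := (dvd_mul_left _ _).trans hdN
  have hcop : (r ^ (f + j)).Coprime d' :=
    Nat.Coprime.pow_left _ ((Nat.Prime.coprime_iff_not_dvd hr).2 hd')
  have h3 : r ^ (f + j) * d' ∣ N := hcop.mul_dvd_of_dvd_of_dvd h1 h2
  have h4 : r ^ f * d' * r ^ j ∣ N := by
    have : r ^ f * d' * r ^ j = r ^ (f + j) * d' := by ring
    rw [this]
    exact h3
  exact (Nat.dvd_div_iff_mul_dvd hrjN).2 (by rw [mul_comm]; exact h4)

/-- **Cyclic count.**  In a finite cyclic group whose order is divisible by `n ^ j` (`j ≥ 1`), at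
most the fraction `n / 2 ^ j` of the elements has order not divisible by `n`. -/
theorem two_pow_mul_card_not_dvd_orderOf_le {C : Type*} [Group C] [Fintype C] [IsCyclic C]
    [DecidableEq C] {n j : ℕ} (hj : 1 ≤ j) (hn : n ^ j ∣ Fintype.card C) :
    2 ^ j * (Finset.univ.filter (fun a : C => ¬ n ∣ orderOf a)).card ≤ n * Fintype.card C := by
  classical
  have hN : Fintype.card C ≠ 0 := Fintype.card_ne_zero
  -- the bad set is covered by the kernels of `a ↦ a ^ (N / r ^ j)`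
  have hsub : Finset.univ.filter (fun a : C => ¬ n ∣ orderOf a) ⊆
      n.primeFactors.biUnion (fun r => Finset.univ.filter
        (fun a : C => a ^ (Fintype.card C / r ^ j) = 1)) := by
    intro a ha
    rw [Finset.mem_filter] at ha
    obtain ⟨r, hr, -, hdvd⟩ := exists_prime_dvd_div_of_not_dvd hj hN hn
      (orderOf_dvd_card (x := a)) ha.2
    rw [Finset.mem_biUnion]
    exact ⟨r, hr, Finset.mem_filter.2 ⟨Finset.mem_univ _, orderOf_dvd_iff_pow_eq_one.1 hdvd⟩⟩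
  have hcard : (Finset.univ.filter (fun a : C => ¬ n ∣ orderOf a)).card ≤
      ∑ r ∈ n.primeFactors, Fintype.card C / r ^ j := by
    refine (Finset.card_le_card hsub).trans (Finset.card_biUnion_le.trans ?_)
    refine Finset.sum_le_sum fun r hr => ?_
    have hr' := Nat.mem_primeFactors.1 hr
    have hrjN : r ^ j ∣ Fintype.card C := (pow_dvd_pow_of_dvd hr'.2.1 j).trans hn
    have hpos : 0 < Fintype.card C / r ^ j :=
      Nat.div_pos (Nat.le_of_dvd (Nat.pos_of_ne_zero hN) hrjN) (pow_pos hr'.1.pos j)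
    exact IsCyclic.card_pow_eq_one_le hpos
  have hterm : ∀ r ∈ n.primeFactors, 2 ^ j * (Fintype.card C / r ^ j) ≤ Fintype.card C := by
    intro r hr
    have hr' := Nat.mem_primeFactors.1 hr
    calc 2 ^ j * (Fintype.card C / r ^ j) ≤ r ^ j * (Fintype.card C / r ^ j) :=
          Nat.mul_le_mul_right _ (Nat.pow_le_pow_left hr'.1.two_le j)
      _ ≤ Fintype.card C := Nat.mul_div_le _ _
  have hpf : n.primeFactors.card ≤ n := by
    have h1 : n.primeFactors ⊆ Finset.Ioc 0 n := by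
      intro r hr
      rw [Finset.mem_Ioc]
      exact ⟨Nat.pos_of_mem_primeFactors hr, Nat.le_of_mem_primeFactors hr⟩
    have h2 := Finset.card_le_card h1
    rwa [Nat.card_Ioc, Nat.sub_zero] at h2
  calc 2 ^ j * (Finset.univ.filter (fun a : C => ¬ n ∣ orderOf a)).card
      ≤ 2 ^ j * ∑ r ∈ n.primeFactors, Fintype.card C / r ^ j := Nat.mul_le_mul_left _ hcard
    _ = ∑ r ∈ n.primeFactors, 2 ^ j * (Fintype.card C / r ^ j) := Finset.mul_sum _ _ _
    _ ≤ ∑ _r ∈ n.primeFactors, Fintype.card C := Finset.sum_le_sum hterm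
    _ = n.primeFactors.card * Fintype.card C := by rw [Finset.sum_const, smul_eq_mul]
    _ ≤ n * Fintype.card C := Nat.mul_le_mul_right _ hpf

end Count

section LiftCount

variable {G' G0 C : Type*} [Group G'] [Group G0] [Group C]

/-- A lift `σ` of `r σ` whose `κ`-image has order divisible by the order of `r σ` generates a
cyclic group on which `κ` is injective (`(r, κ)` jointly injective). -/
theorem eq_one_of_mem_zpowers_of_dvd (r : G' →* G0) (κ : G' →* C)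
    (hinj : ∀ x : G', r x = 1 → κ x = 1 → x = 1) {σ : G'}
    (h : orderOf (r σ) ∣ orderOf (κ σ)) {x : G'} (hx : x ∈ Subgroup.zpowers σ) (hκx : κ x = 1) :
    x = 1 := by
  obtain ⟨a, rfl⟩ := Subgroup.mem_zpowers_iff.1 hx
  refine hinj _ ?_ hκx
  rw [map_zpow] at hκx ⊢
  have h1 : (orderOf (κ σ) : ℤ) ∣ a := orderOf_dvd_iff_zpow_eq_one.2 hκx
  exact orderOf_dvd_iff_zpow_eq_one.1 ((Int.natCast_dvd_natCast.2 h).trans h1)

theorem injOn_zpowers_of_dvd (r : G' →* G0) (κ : G' →* C)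
    (hinj : ∀ x : G', r x = 1 → κ x = 1 → x = 1) {σ : G'}
    (h : orderOf (r σ) ∣ orderOf (κ σ)) : Set.InjOn κ (Subgroup.zpowers σ : Set G') := by
  intro x hx y hy hxy
  have h1 : x * y⁻¹ = 1 :=
    eq_one_of_mem_zpowers_of_dvd r κ hinj h
      ((Subgroup.zpowers σ).mul_mem hx ((Subgroup.zpowers σ).inv_mem hy))
      (by rw [map_mul, map_inv, hxy, mul_inv_cancel])
  exact mul_inv_eq_one.1 h1

theorem orderOf_eq_of_dvd (r : G' →* G0) (κ : G' →* C)
    (hinj : ∀ x : G', r x = 1 → κ x = 1 → x = 1) {σ : G'}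
    (h : orderOf (r σ) ∣ orderOf (κ σ)) : orderOf σ = orderOf (κ σ) := by
  refine Nat.dvd_antisymm ?_ (orderOf_map_dvd κ σ)
  rw [orderOf_dvd_iff_pow_eq_one]
  refine eq_one_of_mem_zpowers_of_dvd r κ hinj h (Subgroup.npow_mem_zpowers σ _) ?_
  rw [map_pow, pow_orderOf_eq_one]

/-- `κ` is injective on each fibre of `r`. -/
theorem injOn_fibre (r : G' →* G0) (κ : G' →* C)
    (hinj : ∀ x : G', r x = 1 → κ x = 1 → x = 1) (τ : G0) :
    Set.InjOn κ {σ : G' | r σ = τ} := by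
  intro x hx y hy hxy
  have hx' : r x = τ := hx
  have hy' : r y = τ := hy
  have h1 : x * y⁻¹ = 1 := hinj _ (by rw [map_mul, map_inv, hx', hy', mul_inv_cancel])
    (by rw [map_mul, map_inv, hxy, mul_inv_cancel])
  exact mul_inv_eq_one.1 h1

variable [Fintype G'] [DecidableEq G0]

/-- Any fibre of `r` is at most as large as a nonempty one. -/
theorem card_fibre_le (r : G' →* G0) {τ : G0} {σ₁ : G'} (h₁ : r σ₁ = τ) (g : G0) :
    (Finset.univ.filter (fun σ : G' => r σ = g)).card ≤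
      (Finset.univ.filter (fun σ : G' => r σ = τ)).card := by
  classical
  rcases (Finset.univ.filter (fun σ : G' => r σ = g)).eq_empty_or_nonempty with h | ⟨σ₂, h₂⟩
  · rw [h, Finset.card_empty]; exact Nat.zero_le _
  · rw [Finset.mem_filter] at h₂
    refine Finset.card_le_card_of_injOn (fun σ => σ₁ * σ₂⁻¹ * σ) ?_ ?_
    · intro σ hσ
      have hσ' := (Finset.mem_filter.1 (Finset.mem_coe.1 hσ)).2
      refine Finset.mem_coe.2 (Finset.mem_filter.2 ⟨Finset.mem_univ _, ?_⟩)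
      rw [map_mul, map_mul, map_inv, h₁, h₂.2, hσ', inv_mul_cancel_right]
    · intro x _ y _ hxy
      exact mul_left_cancel hxy

variable [Fintype G0]

theorem card_le_card_mul_card_fibre (r : G' →* G0) {τ : G0} {σ₁ : G'} (h₁ : r σ₁ = τ) :
    Fintype.card G' ≤ Fintype.card G0 * (Finset.univ.filter (fun σ : G' => r σ = τ)).card := by
  classical
  have h1 : (Finset.univ : Finset G').card =
      ∑ g : G0, (Finset.univ.filter (fun σ : G' => r σ = g)).card :=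
    Finset.card_eq_sum_card_fiberwise (fun x _ => Finset.mem_univ (r x))
  rw [← Finset.card_univ, h1]
  calc ∑ g : G0, (Finset.univ.filter (fun σ : G' => r σ = g)).card
      ≤ ∑ _g : G0, (Finset.univ.filter (fun σ : G' => r σ = τ)).card :=
        Finset.sum_le_sum fun g _ => card_fibre_le r h₁ g
    _ = Fintype.card G0 * (Finset.univ.filter (fun σ : G' => r σ = τ)).card := by
        rw [Finset.sum_const, smul_eq_mul, Finset.card_univ]

/-- For `r` onto, every fibre has `|G'| / |G0|` elements. -/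
theorem card_fibre_mul_card (r : G' →* G0) (hr : Function.Surjective r) (τ : G0) :
    (Finset.univ.filter (fun σ : G' => r σ = τ)).card * Fintype.card G0 = Fintype.card G' := by
  classical
  have h1 : (Finset.univ : Finset G').card =
      ∑ g : G0, (Finset.univ.filter (fun σ : G' => r σ = g)).card :=
    Finset.card_eq_sum_card_fiberwise (fun x _ => Finset.mem_univ (r x))
  obtain ⟨σ₁, h₁⟩ := hr τ
  have h2 : ∀ g : G0, (Finset.univ.filter (fun σ : G' => r σ = g)).card =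
      (Finset.univ.filter (fun σ : G' => r σ = τ)).card := by
    intro g
    obtain ⟨σ₂, h₂⟩ := hr g
    exact le_antisymm (card_fibre_le r h₁ g) (card_fibre_le r h₂ τ)
  rw [← Finset.card_univ (α := G'), h1, Finset.sum_congr rfl (fun g _ => h2 g), Finset.sum_const,
    smul_eq_mul, Finset.card_univ, Nat.mul_comm]

variable [Fintype C] [DecidableEq C]

/-- **Bad lifts are rare.**  `r : G' → G0`, `κ : G' → C` jointly injective, `κ` onto the cyclic
group `C` whose order is divisible by `(ord τ) ^ j`: among the lifts `σ` of `τ`, those with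
`ord τ ∤ ord (κ σ)` are at most the fraction `ord τ * |G0| / 2 ^ j`. -/
theorem two_pow_mul_card_bad_lifts_le [IsCyclic C] (r : G' →* G0) (κ : G' →* C)
    (hinj : ∀ x : G', r x = 1 → κ x = 1 → x = 1) (hκ : Function.Surjective κ) (τ : G0) {j : ℕ}
    (hj : 1 ≤ j) (hn : orderOf τ ^ j ∣ Fintype.card C) :
    2 ^ j * (Finset.univ.filter
        (fun σ : G' => r σ = τ ∧ ¬ orderOf τ ∣ orderOf (κ σ))).card ≤
      orderOf τ * Fintype.card G0 * (Finset.univ.filter (fun σ : G' => r σ = τ)).card := by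
  classical
  rcases (Finset.univ.filter (fun σ : G' => r σ = τ)).eq_empty_or_nonempty with h | ⟨σ₁, h₁⟩
  · have h0 : Finset.univ.filter (fun σ : G' => r σ = τ ∧ ¬ orderOf τ ∣ orderOf (κ σ)) = ∅ := by
      rw [Finset.eq_empty_iff_forall_notMem] at h ⊢
      intro σ hσ
      rw [Finset.mem_filter] at hσ
      exact h σ (Finset.mem_filter.2 ⟨Finset.mem_univ _, hσ.2.1⟩)
    rw [h0, Finset.card_empty, Nat.mul_zero]
    exact Nat.zero_le _
  · rw [Finset.mem_filter] at h₁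
    have h2 : (Finset.univ.filter
        (fun σ : G' => r σ = τ ∧ ¬ orderOf τ ∣ orderOf (κ σ))).card ≤
        (Finset.univ.filter (fun a : C => ¬ orderOf τ ∣ orderOf a)).card := by
      refine Finset.card_le_card_of_injOn κ ?_ ?_
      · intro σ hσ
        have hσ' := (Finset.mem_filter.1 (Finset.mem_coe.1 hσ)).2
        exact Finset.mem_coe.2 (Finset.mem_filter.2 ⟨Finset.mem_univ _, hσ'.2⟩)
      · intro x hx y hy hxy
        have hx' := (Finset.mem_filter.1 (Finset.mem_coe.1 hx)).2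
        have hy' := (Finset.mem_filter.1 (Finset.mem_coe.1 hy)).2
        exact injOn_fibre r κ hinj τ hx'.1 hy'.1 hxy
    have h3 := two_pow_mul_card_not_dvd_orderOf_le (C := C) hj hn
    have h4 : Fintype.card C ≤ Fintype.card G' := Fintype.card_le_of_surjective κ hκ
    have h5 := card_le_card_mul_card_fibre r h₁.2
    calc 2 ^ j * (Finset.univ.filter
          (fun σ : G' => r σ = τ ∧ ¬ orderOf τ ∣ orderOf (κ σ))).card
        ≤ 2 ^ j * (Finset.univ.filter (fun a : C => ¬ orderOf τ ∣ orderOf a)).card :=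
          Nat.mul_le_mul_left _ h2
      _ ≤ orderOf τ * Fintype.card C := h3
      _ ≤ orderOf τ * (Fintype.card G0 * (Finset.univ.filter (fun σ : G' => r σ = τ)).card) :=
          Nat.mul_le_mul_left _ (h4.trans h5)
      _ = orderOf τ * Fintype.card G0 * (Finset.univ.filter (fun σ : G' => r σ = τ)).card :=
          (Nat.mul_assoc _ _ _).symm

/-- Good lifts are most lifts (same hypotheses). -/
theorem two_pow_mul_card_lifts_le [IsCyclic C] (r : G' →* G0) (κ : G' →* C)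
    (hinj : ∀ x : G', r x = 1 → κ x = 1 → x = 1) (hκ : Function.Surjective κ) (τ : G0) {j : ℕ}
    (hj : 1 ≤ j) (hn : orderOf τ ^ j ∣ Fintype.card C) :
    2 ^ j * (Finset.univ.filter (fun σ : G' => r σ = τ)).card ≤
      2 ^ j * (Finset.univ.filter
        (fun σ : G' => r σ = τ ∧ orderOf τ ∣ orderOf (κ σ))).card +
      orderOf τ * Fintype.card G0 * (Finset.univ.filter (fun σ : G' => r σ = τ)).card := by
  classical
  have h1 := two_pow_mul_card_bad_lifts_le r κ hinj hκ τ hj hn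
  have h2 : (Finset.univ.filter (fun σ : G' => r σ = τ)).card =
      (Finset.univ.filter (fun σ : G' => r σ = τ ∧ orderOf τ ∣ orderOf (κ σ))).card +
      (Finset.univ.filter (fun σ : G' => r σ = τ ∧ ¬ orderOf τ ∣ orderOf (κ σ))).card := by
    rw [← Finset.filter_filter, ← Finset.filter_filter]
    exact (Finset.card_filter_add_card_filter_not _).symm
  calc 2 ^ j * (Finset.univ.filter (fun σ : G' => r σ = τ)).card
      = 2 ^ j * (Finset.univ.filter
          (fun σ : G' => r σ = τ ∧ orderOf τ ∣ orderOf (κ σ))).card +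
        2 ^ j * (Finset.univ.filter
          (fun σ : G' => r σ = τ ∧ ¬ orderOf τ ∣ orderOf (κ σ))).card := by
        rw [h2, Nat.mul_add]
    _ ≤ _ := Nat.add_le_add_left h1 _

end LiftCount

section Tower

variable {M L : Type*} [Field M] [Field L] [CharZero M] [CharZero L] [Algebra M L]
  [IsScalarTower ℚ M L]

/-- (a) Restriction `Gal(L/ℚ) → Gal(M/ℚ)` is onto. -/
theorem restrictNormalHom_surjective_tower [Normal ℚ M] [Normal ℚ L] :
    Function.Surjective (AlgEquiv.restrictNormalHom M : (L ≃ₐ[ℚ] L) →* (M ≃ₐ[ℚ] M)) :=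
  AlgEquiv.restrictNormalHom_surjective L

/-- (b) If `L = M(ζ)`, an automorphism of `L` trivial on `M` and fixing `ζ` is trivial. -/
theorem eq_one_of_restrictNormalHom_eq_one [Normal ℚ M] {ζ : L}
    (htop : Algebra.adjoin M {ζ} = ⊤) (σ : L ≃ₐ[ℚ] L)
    (h1 : AlgEquiv.restrictNormalHom M σ = 1) (h2 : σ ζ = ζ) : σ = 1 := by
  have hM : ∀ x : M, σ (algebraMap M L x) = algebraMap M L x := by
    intro x
    have h3 := AlgEquiv.restrictNormal_commutes σ M x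
    have h4 : σ.restrictNormal M = 1 := h1
    rw [h4] at h3
    exact h3.symm
  let σM : L →ₐ[M] L := { (σ : L →+* L) with commutes' := hM }
  have h5 : σM = AlgHom.id M L :=
    AlgHom.ext_of_adjoin_eq_top htop (fun x hx => by
      rw [Set.mem_singleton_iff] at hx
      subst hx
      exact h2)
  ext x
  exact congrArg (fun f : L →ₐ[M] L => f x) h5

/-- (c) Over `ℚ`, every unit exponent is realised on `ζ_m` inside a normal extension. -/
theorem autToPow_surjective [Normal ℚ L] {m : ℕ} [NeZero m] {ζ : L} (hζ : IsPrimitiveRoot ζ m) :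
    Function.Surjective (hζ.autToPow ℚ) := by
  intro u
  have hm : 0 < m := Nat.pos_of_ne_zero (NeZero.ne m)
  have hc : ((u : ZMod m).val).Coprime m := ZMod.val_coe_unit_coprime u
  have h1 : IsPrimitiveRoot (ζ ^ (u : ZMod m).val) m := hζ.pow_of_coprime _ hc
  have h2 : IsConjRoot ℚ (ζ ^ (u : ZMod m).val) ζ := by
    rw [isConjRoot_def, ← Polynomial.cyclotomic_eq_minpoly_rat hζ hm,
      ← Polynomial.cyclotomic_eq_minpoly_rat h1 hm]
  obtain ⟨σ, hσ⟩ := h2.exists_algEquiv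
  refine ⟨σ, ?_⟩
  have h3 := hζ.autToPow_spec ℚ σ
  rw [hσ] at h3
  have h4 := hζ.pow_inj (ZMod.val_lt _) (ZMod.val_lt _) h3
  exact Units.ext (ZMod.val_injective m h4)

/-- `κ σ = 1` means `σ ζ = ζ`. -/
theorem autToPow_eq_one_iff {m : ℕ} [NeZero m] {ζ : L} (hζ : IsPrimitiveRoot ζ m)
    (σ : L ≃ₐ[ℚ] L) : hζ.autToPow ℚ σ = 1 ↔ σ ζ = ζ := by
  have h3 := hζ.autToPow_spec ℚ σ
  constructor
  · intro h
    rw [h, Units.val_one, ZMod.val_one_eq_one_mod, ← pow_eq_pow_mod 1 hζ.pow_eq_one,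
      pow_one] at h3
    exact h3.symm
  · intro h
    rw [h] at h3
    have h5 : ζ ^ ((1 : (ZMod m)ˣ) : ZMod m).val = ζ := by
      rw [Units.val_one, ZMod.val_one_eq_one_mod, ← pow_eq_pow_mod 1 hζ.pow_eq_one, pow_one]
    have h4 := hζ.pow_inj (ZMod.val_lt _) (ZMod.val_lt _) (h3.trans h5.symm)
    exact Units.ext (ZMod.val_injective m h4)

/-- (b') Joint injectivity of (restriction to `M`, cyclotomic character) on `Gal(M(ζ)/ℚ)`. -/
theorem eq_one_of_restrict_of_autToPow [Normal ℚ M] {m : ℕ} [NeZero m] {ζ : L}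
    (hζ : IsPrimitiveRoot ζ m) (htop : Algebra.adjoin M {ζ} = ⊤) (σ : L ≃ₐ[ℚ] L)
    (h1 : AlgEquiv.restrictNormalHom M σ = 1) (h2 : hζ.autToPow ℚ σ = 1) : σ = 1 :=
  eq_one_of_restrictNormalHom_eq_one htop σ h1 ((autToPow_eq_one_iff hζ σ).1 h2)

end Tower

section TowerCount

variable {M L : Type*} [Field M] [Field L] [CharZero M] [CharZero L] [Algebra M L]
  [IsScalarTower ℚ M L]

/-- `M(ζ_m)` is normal over `ℚ` when `M` is. -/
theorem normal_of_isCyclotomicExtension [Normal ℚ M] [FiniteDimensional ℚ M] (m : ℕ) [NeZero m]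
    [IsCyclotomicExtension {m} M L] : Normal ℚ L := by
  obtain ⟨p, hp⟩ := Normal.exists_isSplittingField ℚ M
  -- a nonzero polynomial with splitting field `M`
  obtain ⟨q, hq0, hq⟩ : ∃ q : Polynomial ℚ, q ≠ 0 ∧ Polynomial.IsSplittingField ℚ M q := by
    by_cases hp0 : p = 0
    · refine ⟨1, one_ne_zero, ⟨?_, ?_⟩⟩
      · rw [Polynomial.map_one]; exact Polynomial.Splits.one
      · have h1 := hp.adjoin_rootSet
        rw [hp0, Polynomial.rootSet_zero] at h1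
        rw [Polynomial.rootSet_one]
        exact h1
    · exact ⟨p, hp0, hp⟩
  have hX0 : (Polynomial.X ^ m - 1 : Polynomial ℚ) ≠ 0 := by
    have h1 := Polynomial.X_pow_sub_C_ne_zero (R := ℚ) (Nat.pos_of_ne_zero (NeZero.ne m)) 1
    rwa [Polynomial.C_1] at h1
  have hX : Polynomial.IsSplittingField M L
      (Polynomial.map (algebraMap ℚ M) (Polynomial.X ^ m - 1)) := by
    rw [Polynomial.map_sub, Polynomial.map_pow, Polynomial.map_X, Polynomial.map_one]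
    exact IsCyclotomicExtension.isSplittingField_X_pow_sub_one m M L
  have := Polynomial.IsSplittingField.mul (F := ℚ) (K := M) L q (Polynomial.X ^ m - 1) hq0 hX0
  exact Normal.of_isSplittingField (q * (Polynomial.X ^ m - 1))

/-- `M(ζ_m)` is Galois over `ℚ` when `M` is. -/
theorem isGalois_of_isCyclotomicExtension [Normal ℚ M] [FiniteDimensional ℚ M] (m : ℕ)
    [NeZero m] [IsCyclotomicExtension {m} M L] : IsGalois ℚ L :=
  haveI := normal_of_isCyclotomicExtension (M := M) (L := L) m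
  ⟨⟩

/-- A lift `σ` of `τ` whose cyclotomic character has order divisible by `ord τ` generates a
group acting faithfully on `ζ`. -/
theorem faithful_of_dvd [Normal ℚ M] {m : ℕ} [NeZero m] {ζ : L} (hζ : IsPrimitiveRoot ζ m)
    (htop : Algebra.adjoin M {ζ} = ⊤) {σ : L ≃ₐ[ℚ] L}
    (h : orderOf (σ.restrictNormal M) ∣ orderOf (hζ.autToPow ℚ σ)) {x : L ≃ₐ[ℚ] L}
    (hx : x ∈ Subgroup.zpowers σ) (hxζ : x ζ = ζ) : x = 1 :=
  eq_one_of_mem_zpowers_of_dvd (AlgEquiv.restrictNormalHom M) (hζ.autToPow ℚ)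
    (fun y h1 h2 => eq_one_of_restrict_of_autToPow hζ htop y h1 h2) h hx
    ((autToPow_eq_one_iff hζ x).2 hxζ)

/-- Same hypothesis: `ord σ = ord (κ σ)`. -/
theorem orderOf_eq_orderOf_autToPow [Normal ℚ M] {m : ℕ} [NeZero m] {ζ : L}
    (hζ : IsPrimitiveRoot ζ m) (htop : Algebra.adjoin M {ζ} = ⊤) {σ : L ≃ₐ[ℚ] L}
    (h : orderOf (σ.restrictNormal M) ∣ orderOf (hζ.autToPow ℚ σ)) :
    orderOf σ = orderOf (hζ.autToPow ℚ σ) :=
  orderOf_eq_of_dvd (AlgEquiv.restrictNormalHom M) (hζ.autToPow ℚ)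
    (fun y h1 h2 => eq_one_of_restrict_of_autToPow hζ htop y h1 h2) h

variable [Normal ℚ M] [Normal ℚ L] [FiniteDimensional ℚ M] [FiniteDimensional ℚ L]

/-- The number of lifts of `τ` to `L`. -/
theorem ncard_lifts_mul_card (τ : M ≃ₐ[ℚ] M) :
    {σ : L ≃ₐ[ℚ] L | σ.restrictNormal M = τ}.ncard * Nat.card (M ≃ₐ[ℚ] M) =
      Nat.card (L ≃ₐ[ℚ] L) := by
  classical
  have h1 := card_fibre_mul_card (AlgEquiv.restrictNormalHom M : (L ≃ₐ[ℚ] L) →* (M ≃ₐ[ℚ] M))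
    restrictNormalHom_surjective_tower τ
  rw [Nat.card_eq_fintype_card, Nat.card_eq_fintype_card, ← h1, Set.ncard_eq_toFinset_card']
  congr 2
  ext σ
  rw [Set.mem_toFinset, Finset.mem_filter]
  simp only [Finset.mem_univ, true_and, Set.mem_ofPred_eq]
  exact Iff.rfl

/-- **Crossing, counted.**  `L = M(ζ_m)`, `m` prime, `(ord τ) ^ j ∣ m - 1`: among the lifts `σ`
of `τ` to `L`, those for which `⟨σ⟩` does NOT act faithfully on `ζ_m` are at most the fraction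
`ord τ * [M : ℚ] / 2 ^ j`. -/
theorem two_pow_mul_ncard_unfaithful_lifts_le {m : ℕ} (hm : m.Prime) {ζ : L}
    (hζ : IsPrimitiveRoot ζ m) (htop : Algebra.adjoin M {ζ} = ⊤) (τ : M ≃ₐ[ℚ] M) {j : ℕ}
    (hj : 1 ≤ j) (hn : orderOf τ ^ j ∣ m - 1) :
    2 ^ j * {σ : L ≃ₐ[ℚ] L | σ.restrictNormal M = τ ∧
        ¬ ∀ x ∈ Subgroup.zpowers σ, x ζ = ζ → x = 1}.ncard ≤
      orderOf τ * Nat.card (M ≃ₐ[ℚ] M) * {σ : L ≃ₐ[ℚ] L | σ.restrictNormal M = τ}.ncard := by
  classical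
  have : Fact m.Prime := ⟨hm⟩
  have : NeZero m := ⟨hm.ne_zero⟩
  have hn' : orderOf τ ^ j ∣ Fintype.card (ZMod m)ˣ := by rw [ZMod.card_units]; exact hn
  have h1 := two_pow_mul_card_bad_lifts_le
    (AlgEquiv.restrictNormalHom M : (L ≃ₐ[ℚ] L) →* (M ≃ₐ[ℚ] M)) (hζ.autToPow ℚ)
    (fun y h1 h2 => eq_one_of_restrict_of_autToPow hζ htop y h1 h2) (autToPow_surjective hζ) τ
    hj hn'
  have h2 : {σ : L ≃ₐ[ℚ] L | σ.restrictNormal M = τ ∧
      ¬ ∀ x ∈ Subgroup.zpowers σ, x ζ = ζ → x = 1}.ncard ≤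
      (Finset.univ.filter (fun σ : L ≃ₐ[ℚ] L => AlgEquiv.restrictNormalHom M σ = τ ∧
        ¬ orderOf τ ∣ orderOf (hζ.autToPow ℚ σ))).card := by
    rw [← Set.ncard_coe_finset]
    refine Set.ncard_le_ncard ?_ (Finset.finite_toSet _)
    intro σ hσ
    obtain ⟨hσ1, hσ2⟩ := hσ
    refine Finset.mem_coe.2 (Finset.mem_filter.2 ⟨Finset.mem_univ _, hσ1, fun hdvd => hσ2 ?_⟩)
    intro x hx hxζ
    exact faithful_of_dvd hζ htop (by rw [hσ1]; exact hdvd) hx hxζ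
  have h3 : {σ : L ≃ₐ[ℚ] L | σ.restrictNormal M = τ}.ncard =
      (Finset.univ.filter (fun σ : L ≃ₐ[ℚ] L => AlgEquiv.restrictNormalHom M σ = τ)).card := by
    rw [← Set.ncard_coe_finset]
    congr 1
    ext σ
    rw [Finset.mem_coe, Finset.mem_filter]
    simp only [Finset.mem_univ, true_and, Set.mem_ofPred_eq]
    exact Iff.rfl
  rw [h3, ← Nat.card_eq_fintype_card] at *
  exact (Nat.mul_le_mul_left _ h2).trans h1

/-- **Crossing, counted (good form).**  Most lifts `σ` of `τ` to `L = M(ζ_m)` generate a group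
acting faithfully on `ζ_m`. -/
theorem two_pow_mul_ncard_lifts_le {m : ℕ} (hm : m.Prime) {ζ : L}
    (hζ : IsPrimitiveRoot ζ m) (htop : Algebra.adjoin M {ζ} = ⊤) (τ : M ≃ₐ[ℚ] M) {j : ℕ}
    (hj : 1 ≤ j) (hn : orderOf τ ^ j ∣ m - 1) :
    2 ^ j * {σ : L ≃ₐ[ℚ] L | σ.restrictNormal M = τ}.ncard ≤
      2 ^ j * {σ : L ≃ₐ[ℚ] L | σ.restrictNormal M = τ ∧
        ∀ x ∈ Subgroup.zpowers σ, x ζ = ζ → x = 1}.ncard +
      orderOf τ * Nat.card (M ≃ₐ[ℚ] M) * {σ : L ≃ₐ[ℚ] L | σ.restrictNormal M = τ}.ncard := by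
  classical
  have h1 := two_pow_mul_ncard_unfaithful_lifts_le hm hζ htop τ hj hn
  have h2 : {σ : L ≃ₐ[ℚ] L | σ.restrictNormal M = τ}.ncard ≤
      {σ : L ≃ₐ[ℚ] L | σ.restrictNormal M = τ ∧
        ∀ x ∈ Subgroup.zpowers σ, x ζ = ζ → x = 1}.ncard +
      {σ : L ≃ₐ[ℚ] L | σ.restrictNormal M = τ ∧
        ¬ ∀ x ∈ Subgroup.zpowers σ, x ζ = ζ → x = 1}.ncard := by
    refine le_trans (Set.ncard_le_ncard ?_ (Set.toFinite _)) (Set.ncard_union_le _ _)
    intro σ hσ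
    by_cases h : ∀ x ∈ Subgroup.zpowers σ, x ζ = ζ → x = 1
    · exact Or.inl ⟨hσ, h⟩
    · exact Or.inr ⟨hσ, h⟩
  calc 2 ^ j * {σ : L ≃ₐ[ℚ] L | σ.restrictNormal M = τ}.ncard
      ≤ 2 ^ j * ({σ : L ≃ₐ[ℚ] L | σ.restrictNormal M = τ ∧
          ∀ x ∈ Subgroup.zpowers σ, x ζ = ζ → x = 1}.ncard +
        {σ : L ≃ₐ[ℚ] L | σ.restrictNormal M = τ ∧
          ¬ ∀ x ∈ Subgroup.zpowers σ, x ζ = ζ → x = 1}.ncard) := Nat.mul_le_mul_left _ h2
    _ = 2 ^ j * {σ : L ≃ₐ[ℚ] L | σ.restrictNormal M = τ ∧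
          ∀ x ∈ Subgroup.zpowers σ, x ζ = ζ → x = 1}.ncard +
        2 ^ j * {σ : L ≃ₐ[ℚ] L | σ.restrictNormal M = τ ∧
          ¬ ∀ x ∈ Subgroup.zpowers σ, x ζ = ζ → x = 1}.ncard := Nat.mul_add _ _ _
    _ ≤ _ := Nat.add_le_add_left h1 _

/-- A power of two beating `d * d / ε`. -/
theorem exists_pow_bound (d : ℕ) {ε : ℝ} (hε : 0 < ε) :
    ∃ j : ℕ, 1 ≤ j ∧ ((d * d : ℕ) : ℝ) ≤ ε * 2 ^ j := by
  obtain ⟨k, hk⟩ := pow_unbounded_of_one_lt (((d * d : ℕ) : ℝ) / ε) (one_lt_two (α := ℝ))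
  refine ⟨k + 1, Nat.le_add_left 1 k, ?_⟩
  have h1 : ((d * d : ℕ) : ℝ) < ε * 2 ^ k := by
    have := (div_lt_iff₀ hε).1 hk
    linarith
  have h2 : (2 : ℝ) ^ k ≤ 2 ^ (k + 1) := pow_le_pow_right₀ one_le_two (Nat.le_succ k)
  exact h1.le.trans (mul_le_mul_of_nonneg_left h2 hε.le)

/-- **Crossing, `ε`-form.**  `d = [M : ℚ]`, `d * d ≤ ε 2 ^ j`, `m ≡ 1 (mod d ^ j)` prime,
`L = M(ζ_m)`: for EVERY `τ ∈ Gal(M/ℚ)`, at least the fraction `1 - ε` of the lifts `σ` of `τ`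
generate a group acting faithfully on `ζ_m`. -/
theorem one_sub_mul_ncard_lifts_le {m : ℕ} (hm : m.Prime) {ζ : L}
    (hζ : IsPrimitiveRoot ζ m) (htop : Algebra.adjoin M {ζ} = ⊤) {j : ℕ} (hj : 1 ≤ j)
    (hmod : m ≡ 1 [MOD Nat.card (M ≃ₐ[ℚ] M) ^ j]) {ε : ℝ}
    (hε : ((Nat.card (M ≃ₐ[ℚ] M) * Nat.card (M ≃ₐ[ℚ] M) : ℕ) : ℝ) ≤ ε * 2 ^ j)
    (τ : M ≃ₐ[ℚ] M) :
    (1 - ε) * ({σ : L ≃ₐ[ℚ] L | σ.restrictNormal M = τ}.ncard : ℝ) ≤
      ({σ : L ≃ₐ[ℚ] L | σ.restrictNormal M = τ ∧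
        ∀ x ∈ Subgroup.zpowers σ, x ζ = ζ → x = 1}.ncard : ℝ) := by
  have hdvd : orderOf τ ∣ Nat.card (M ≃ₐ[ℚ] M) := orderOf_dvd_natCard τ
  have hn : orderOf τ ^ j ∣ m - 1 :=
    (pow_dvd_pow_of_dvd hdvd j).trans ((Nat.modEq_iff_dvd' hm.one_le).1 hmod.symm)
  have h1 := two_pow_mul_ncard_lifts_le hm hζ htop τ hj hn
  have hle : orderOf τ ≤ Nat.card (M ≃ₐ[ℚ] M) := Nat.le_of_dvd Nat.card_pos hdvd
  set l := {σ : L ≃ₐ[ℚ] L | σ.restrictNormal M = τ}.ncard with hl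
  set g := {σ : L ≃ₐ[ℚ] L | σ.restrictNormal M = τ ∧
        ∀ x ∈ Subgroup.zpowers σ, x ζ = ζ → x = 1}.ncard with hg
  set d := Nat.card (M ≃ₐ[ℚ] M) with hd
  have h2 : ((2 ^ j * l : ℕ) : ℝ) ≤ ((2 ^ j * g + orderOf τ * d * l : ℕ) : ℝ) :=
    Nat.cast_le.2 h1
  push_cast at h2
  have h3 : (orderOf τ : ℝ) * d ≤ ε * 2 ^ j := by
    refine le_trans ?_ hε
    push_cast
    exact mul_le_mul_of_nonneg_right (Nat.cast_le.2 hle) (Nat.cast_nonneg d)
  have h4 : (orderOf τ : ℝ) * d * l ≤ ε * 2 ^ j * l :=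
    mul_le_mul_of_nonneg_right h3 (Nat.cast_nonneg l)
  have h5 : (2 : ℝ) ^ j * ((1 - ε) * l) ≤ 2 ^ j * g := by nlinarith
  exact le_of_mul_le_mul_left h5 (by positivity)

end TowerCount

section Cyclotomic

/-- The tower `M ⊆ M(ζ_m) = CyclotomicField m M` satisfies all hypotheses used above. -/
theorem cyclotomicField_tower (M : Type*) [Field M] [NumberField M] [IsGalois ℚ M] (m : ℕ)
    [NeZero m] : IsGalois ℚ (CyclotomicField m M) ∧
      ∃ ζ : CyclotomicField m M, IsPrimitiveRoot ζ m ∧ Algebra.adjoin M {ζ} = ⊤ := by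
  refine ⟨isGalois_of_isCyclotomicExtension (M := M) m, ?_⟩
  have hζ := IsCyclotomicExtension.zeta_spec m M (CyclotomicField m M)
  exact ⟨_, hζ, IsCyclotomicExtension.adjoin_primitive_root_eq_top hζ⟩

end Cyclotomic

end Fermat.Agent.Lib.CycloCross
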