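import Mathlib

/-!
# Coset systems and the transfer (Hecke operators on `Hom(Γ, A)`), level free

`Γ`, `𝔾` groups, `ι : Γ →* 𝔾` injective (in the applications `Γ` is a congruence subgroup and `𝔾`
is `GL₂(ℝ)`).  A *coset system* `S : CosetSys ι X` is a finite family `t : X → 𝔾` of elements
together with, for every `γ : Γ`, a permutation `perm γ` of `X` and elements `coc γ x : Γ` such
that `t x * ι γ = ι (coc γ x) * t (perm γ x)`.  Cosets may be repeated, and no action or cocycle
axiom is required.

* `transfer S : (Additive Γ →+ A) →+ (Additive Γ →+ A)`,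
  `transfer S φ γ = ∑ x, φ (coc γ x)` : the Hecke operator of the system on `Hom(Γ, A)`, for
  every abelian group `A`.
* `transfer_congr` : the transfer depends only on the multiset of cosets `ι Γ * t x`.
* `comp`, `transfer_comp` : composition of transfers is the transfer of the product system.
* `transfer_comm` : two transfers commute as soon as the products `t x * t' y` and `t' y * t x`
  represent the same cosets (with multiplicities).
* `conjSys`, `transfer_conjSys` : the system of a single element normalising `Γ` (diamond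
  operators); `transfer_conjSys_of_mem` : inner automorphisms act trivially.
* `transfer_eq_zero_of_cycles` : if `φ` kills all the elements `t x * γ ^ k * (t x)⁻¹` lying in
  `Γ`, then `transfer S φ γ = 0` (the transfer preserves "parabolic" homomorphisms).
* `sum_smul_eq`, `prod_smul_eq` : the additive and the multiplicative multiplier lemma for a
  function on a `𝔾`-set.
-/

set_option autoImplicit false

namespace Fermat.Agent.Lib.CosetTransfer

variable {Γ 𝔾 : Type*} [Group Γ] [Group 𝔾]

/-! ### The class-sum lemma -/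

section ClassSum

variable {ι : Γ →* 𝔾}

/-- **Class-sum lemma.**  If a permutation `σ` of the index set preserves the cosets
`ι Γ * t x`, with transition elements `g x`, then `∑ x, φ (g x) = 0` for every homomorphism `φ`
from `Γ` to an abelian group. -/
theorem sum_map_eq_zero (hι : Function.Injective ι) {X : Type*} [Fintype X] {A : Type*}
    [AddCommGroup A] (t : X → 𝔾) (σ : Equiv.Perm X) (g : X → Γ)
    (h : ∀ x, t (σ x) = ι (g x) * t x) (φ : Additive Γ →+ A) :
    ∑ x, φ (Additive.ofMul (g x)) = 0 := by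
  classical
  rcases isEmpty_or_nonempty X with hX | hX
  · simp
  -- the class of an index
  let r : Setoid X :=
    { r := fun x y => ∃ k : Γ, t x = ι k * t y
      iseqv :=
        { refl := fun x => ⟨1, by simp⟩
          symm := by
            rintro x y ⟨k, hk⟩
            exact ⟨k⁻¹, by rw [hk, ← mul_assoc, ← map_mul, inv_mul_cancel, map_one, one_mul]⟩
          trans := by
            rintro x y z ⟨k, hk⟩ ⟨k', hk'⟩
            exact ⟨k * k', by rw [hk, hk', map_mul, mul_assoc]⟩ } }
  let π : X → Quotient r := fun x => Quotient.mk r x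
  let c : X → X := fun x => Function.invFun π (π x)
  have hc : ∀ x, π (c x) = π x := fun x => Function.invFun_eq ⟨x, rfl⟩
  have hrel : ∀ x, ∃ k : Γ, t x = ι k * t (c x) := fun x =>
    Quotient.exact (hc x).symm
  choose k hk using hrel
  have hπσ : ∀ x, π (σ x) = π x := fun x => Quotient.sound ⟨g x, h x⟩
  have hcσ : ∀ x, c (σ x) = c x := fun x => by
    show Function.invFun π (π (σ x)) = Function.invFun π (π x)
    rw [hπσ]
  have hg : ∀ x, g x = k (σ x) * (k x)⁻¹ := by
    intro x
    apply hι
    have h1 : ι (k (σ x)) * t (c x) = ι (g x) * (ι (k x) * t (c x)) := by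
      rw [← hk x, ← h x, hk (σ x), hcσ]
    have h2 : ι (k (σ x)) = ι (g x) * ι (k x) := by
      have h3 := congrArg (· * (t (c x))⁻¹) h1
      simpa [mul_assoc] using h3
    rw [map_mul, map_inv, h2, mul_assoc, mul_inv_cancel, mul_one]
  have hsum : ∀ x, φ (Additive.ofMul (g x)) =
      φ (Additive.ofMul (k (σ x))) - φ (Additive.ofMul (k x)) := by
    intro x
    rw [hg x, ofMul_mul, map_add, ofMul_inv, map_neg, sub_eq_add_neg]
  rw [Finset.sum_congr rfl fun x _ => hsum x, Finset.sum_sub_distrib,
    Equiv.sum_comp σ (fun x => φ (Additive.ofMul (k x))), sub_self]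

/-- Two-index form of the class-sum lemma. -/
theorem sum_map_eq_zero' (hι : Function.Injective ι) {X Y : Type*} [Fintype X] [Fintype Y]
    {A : Type*} [AddCommGroup A] (t : Y → 𝔾) (e₁ e₂ : X ≃ Y) (g : X → Γ)
    (h : ∀ x, t (e₂ x) = ι (g x) * t (e₁ x)) (φ : Additive Γ →+ A) :
    ∑ x, φ (Additive.ofMul (g x)) = 0 := by
  have h' : ∀ y, t ((e₁.symm.trans e₂) y) = ι (g (e₁.symm y)) * t y := by
    intro y
    have := h (e₁.symm y)
    simpa using this
  have h0 := sum_map_eq_zero hι t (e₁.symm.trans e₂) (fun y => g (e₁.symm y)) h' φ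
  rw [← h0]
  exact (Equiv.sum_comp e₁.symm (fun x => φ (Additive.ofMul (g x)))).symm

end ClassSum

/-! ### Coset systems and their transfer -/

/-- A coset system for `ι : Γ →* 𝔾` indexed by `X`. -/
structure CosetSys (ι : Γ →* 𝔾) (X : Type*) where
  /-- the representatives -/
  t : X → 𝔾
  /-- the permutation of the index set attached to `γ` -/
  perm : Γ → Equiv.Perm X
  /-- the cocycle -/
  coc : Γ → X → Γ
  spec : ∀ (γ : Γ) (x : X), t x * ι γ = ι (coc γ x) * t (perm γ x)

section Transfer

variable {ι : Γ →* 𝔾} {X : Type*} [Fintype X] {A : Type*} [AddCommGroup A]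

theorem CosetSys.sum_coc_one (S : CosetSys ι X) (hι : Function.Injective ι)
    (φ : Additive Γ →+ A) : ∑ x, φ (Additive.ofMul (S.coc 1 x)) = 0 := by
  refine sum_map_eq_zero' hι S.t (S.perm 1) (Equiv.refl X) (fun x => S.coc 1 x) (fun x => ?_) φ
  have := S.spec 1 x
  simpa using this

theorem CosetSys.sum_coc_mul (S : CosetSys ι X) (hι : Function.Injective ι)
    (φ : Additive Γ →+ A) (a b : Γ) :
    ∑ x, φ (Additive.ofMul (S.coc (a * b) x)) =
      ∑ x, φ (Additive.ofMul (S.coc a x)) + ∑ x, φ (Additive.ofMul (S.coc b x)) := by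
  have key := sum_map_eq_zero' hι S.t ((S.perm a).trans (S.perm b)) (S.perm (a * b))
    (fun x => (S.coc (a * b) x)⁻¹ * S.coc a x * S.coc b (S.perm a x)) (fun x => ?_) φ
  · have hx : ∀ x, φ (Additive.ofMul ((S.coc (a * b) x)⁻¹ * S.coc a x * S.coc b (S.perm a x)))
        = -φ (Additive.ofMul (S.coc (a * b) x)) + φ (Additive.ofMul (S.coc a x))
          + φ (Additive.ofMul (S.coc b (S.perm a x))) := by
      intro x
      rw [ofMul_mul, ofMul_mul, ofMul_inv, map_add, map_add, map_neg]
    rw [Finset.sum_congr rfl fun x _ => hx x, Finset.sum_add_distrib, Finset.sum_add_distrib,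
      Finset.sum_neg_distrib,
      Equiv.sum_comp (S.perm a) (fun y => φ (Additive.ofMul (S.coc b y)))] at key
    have h2 : ∑ x, φ (Additive.ofMul (S.coc (a * b) x)) =
        (-∑ x, φ (Additive.ofMul (S.coc (a * b) x)) + ∑ x, φ (Additive.ofMul (S.coc a x))
          + ∑ x, φ (Additive.ofMul (S.coc b x))) + ∑ x, φ (Additive.ofMul (S.coc (a * b) x)) := by
      rw [key, zero_add]
    rw [h2]
    abel
  · -- the two decompositions of `t x * ι (a * b)`
    have h1 := S.spec (a * b) x
    have h2 := S.spec a x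
    have h3 := S.spec b (S.perm a x)
    have h4 : S.t x * ι (a * b) =
        ι (S.coc a x) * ι (S.coc b (S.perm a x)) * S.t (S.perm b (S.perm a x)) := by
      rw [map_mul, ← mul_assoc, h2, mul_assoc, h3, mul_assoc]
    rw [h1] at h4
    show S.t (S.perm (a * b) x) = _ * S.t (S.perm b (S.perm a x))
    rw [map_mul, map_mul, map_inv, mul_assoc, mul_assoc, ← mul_assoc (ι (S.coc a x)), ← h4,
      inv_mul_cancel_left]

/-- The transfer of a coset system on a homomorphism `φ : Γ → A`. -/
def transferFun (S : CosetSys ι X) (hι : Function.Injective ι) (φ : Additive Γ →+ A) :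
    Additive Γ →+ A where
  toFun γ := ∑ x, φ (Additive.ofMul (S.coc (Additive.toMul γ) x))
  map_zero' := S.sum_coc_one hι φ
  map_add' γ δ := S.sum_coc_mul hι φ (Additive.toMul γ) (Additive.toMul δ)

/-- **The transfer** (Hecke operator) of a coset system on `Hom(Γ, A)`. -/
def transfer (S : CosetSys ι X) (hι : Function.Injective ι) :
    (Additive Γ →+ A) →+ (Additive Γ →+ A) where
  toFun := transferFun S hι
  map_zero' := by
    refine AddMonoidHom.ext fun γ => ?_
    simp [transferFun]
  map_add' φ ψ := by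
    refine AddMonoidHom.ext fun γ => ?_
    simp [transferFun, Finset.sum_add_distrib]

theorem transfer_apply (S : CosetSys ι X) (hι : Function.Injective ι) (φ : Additive Γ →+ A)
    (γ : Γ) :
    transfer S hι φ (Additive.ofMul γ) = ∑ x, φ (Additive.ofMul (S.coc γ x)) := rfl

/-- Naturality in the coefficient group. -/
theorem transfer_comp_hom (S : CosetSys ι X) (hι : Function.Injective ι) {B : Type*}
    [AddCommGroup B] (f : A →+ B) (φ : Additive Γ →+ A) :
    transfer S hι (f.comp φ) = f.comp (transfer S hι φ) := by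
  refine AddMonoidHom.ext fun γ => ?_
  show ∑ x, f (φ _) = f (∑ x, φ _)
  rw [map_sum]

/-- **Independence of the representatives**: the transfer depends only on the multiset of
cosets. -/
theorem transfer_congr {X' : Type*} [Fintype X'] (S : CosetSys ι X) (S' : CosetSys ι X')
    (hι : Function.Injective ι) (e : X ≃ X') (h : ∀ x, ∃ g : Γ, S'.t (e x) = ι g * S.t x) :
    (transfer S hι : (Additive Γ →+ A) →+ (Additive Γ →+ A)) = transfer S' hι := by
  choose k hk using h
  refine AddMonoidHom.ext fun φ => AddMonoidHom.ext fun γ' => ?_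
  generalize hγ : Additive.toMul γ' = γ
  show transfer S hι φ (Additive.ofMul (Additive.toMul γ')) =
    transfer S' hι φ (Additive.ofMul (Additive.toMul γ'))
  rw [hγ, transfer_apply, transfer_apply]
  have key := sum_map_eq_zero' hι S'.t ((S.perm γ).trans e) (e.trans (S'.perm γ))
    (fun x => (S'.coc γ (e x))⁻¹ * k x * S.coc γ x * (k (S.perm γ x))⁻¹) (fun x => ?_) φ
  · have hx : ∀ x, φ (Additive.ofMul
        ((S'.coc γ (e x))⁻¹ * k x * S.coc γ x * (k (S.perm γ x))⁻¹))
        = -φ (Additive.ofMul (S'.coc γ (e x))) + φ (Additive.ofMul (k x))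
          + φ (Additive.ofMul (S.coc γ x)) - φ (Additive.ofMul (k (S.perm γ x))) := by
      intro x
      rw [ofMul_mul, ofMul_mul, ofMul_mul, ofMul_inv, ofMul_inv, map_add, map_add, map_add,
        map_neg, map_neg, sub_eq_add_neg]
    rw [Finset.sum_congr rfl fun x _ => hx x, Finset.sum_sub_distrib, Finset.sum_add_distrib,
      Finset.sum_add_distrib, Finset.sum_neg_distrib,
      Equiv.sum_comp (S.perm γ) (fun y => φ (Additive.ofMul (k y))),
      Equiv.sum_comp e (fun y => φ (Additive.ofMul (S'.coc γ y)))] at key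
    have h2 : ∑ x, φ (Additive.ofMul (S.coc γ x)) =
        (-∑ y, φ (Additive.ofMul (S'.coc γ y)) + ∑ x, φ (Additive.ofMul (k x))
          + ∑ x, φ (Additive.ofMul (S.coc γ x)) - ∑ x, φ (Additive.ofMul (k x)))
          + ∑ y, φ (Additive.ofMul (S'.coc γ y)) := by
      abel
    rw [h2, key, zero_add]
  · have h1 := S'.spec γ (e x)
    have h2 := S.spec γ x
    have h3 := hk x
    have h4 := hk (S.perm γ x)
    show S'.t (S'.perm γ (e x)) = _ * S'.t (e (S.perm γ x))
    have h5 : ι (S'.coc γ (e x)) * S'.t (S'.perm γ (e x)) =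
        ι (k x) * ι (S.coc γ x) * S.t (S.perm γ x) := by
      rw [← h1, h3, mul_assoc, h2, mul_assoc]
    have h6 : S.t (S.perm γ x) = ι (k (S.perm γ x))⁻¹ * S'.t (e (S.perm γ x)) := by
      rw [h4, map_inv, inv_mul_cancel_left]
    rw [h6] at h5
    have h7 : S'.t (S'.perm γ (e x)) = (ι (S'.coc γ (e x)))⁻¹ *
        (ι (k x) * ι (S.coc γ x) * (ι (k (S.perm γ x))⁻¹ * S'.t (e (S.perm γ x)))) := by
      rw [← h5, inv_mul_cancel_left]
    rw [h7]
    simp only [map_mul, map_inv, mul_assoc]

end Transfer

/-! ### Composition -/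

section Comp

variable {ι : Γ →* 𝔾} {X X' : Type*}

/-- The product of two coset systems: representatives `S.t x * S'.t y`. -/
def CosetSys.comp (S : CosetSys ι X) (S' : CosetSys ι X') : CosetSys ι (X' × X) where
  t p := S.t p.2 * S'.t p.1
  perm γ := Equiv.prodShear (S'.perm γ) (fun y => S.perm (S'.coc γ y))
  coc γ p := S.coc (S'.coc γ p.1) p.2
  spec γ p := by
    show S.t p.2 * S'.t p.1 * ι γ = ι (S.coc (S'.coc γ p.1) p.2) *
      (S.t (S.perm (S'.coc γ p.1) p.2) * S'.t (S'.perm γ p.1))
    rw [mul_assoc, S'.spec γ p.1, ← mul_assoc, S.spec (S'.coc γ p.1) p.2, mul_assoc]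

@[simp]
theorem CosetSys.comp_t (S : CosetSys ι X) (S' : CosetSys ι X') (p : X' × X) :
    (S.comp S').t p = S.t p.2 * S'.t p.1 := rfl

variable [Fintype X] [Fintype X'] {A : Type*} [AddCommGroup A]

/-- **Composition**: applying `transfer S` and then `transfer S'` is the transfer of the
product system. -/
theorem transfer_comp (S : CosetSys ι X) (S' : CosetSys ι X') (hι : Function.Injective ι)
    (φ : Additive Γ →+ A) :
    transfer S' hι (transfer S hι φ) = transfer (S.comp S') hι φ := by
  refine AddMonoidHom.ext fun γ' => ?_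
  generalize hγ : Additive.toMul γ' = γ
  show transfer S' hι (transfer S hι φ) (Additive.ofMul (Additive.toMul γ')) =
    transfer (S.comp S') hι φ (Additive.ofMul (Additive.toMul γ'))
  rw [hγ, transfer_apply, transfer_apply, Fintype.sum_prod_type]
  rfl

/-- **Commutation criterion**: two transfers commute if the two product systems represent the
same cosets with the same multiplicities. -/
theorem transfer_comm (S : CosetSys ι X) (S' : CosetSys ι X') (hι : Function.Injective ι)
    (e : X' × X ≃ X × X')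
    (h : ∀ p : X' × X, ∃ g : Γ, S'.t (e p).2 * S.t (e p).1 = ι g * (S.t p.2 * S'.t p.1))
    (φ : Additive Γ →+ A) :
    transfer S hι (transfer S' hι φ) = transfer S' hι (transfer S hι φ) := by
  rw [transfer_comp, transfer_comp]
  exact (DFunLike.congr_fun (transfer_congr (S.comp S') (S'.comp S) hι e h) φ).symm

end Comp

/-! ### A single element normalising `Γ` -/

section Conj

variable {ι : Γ →* 𝔾}

/-- The coset system of an element `n` with `n * ι γ = ι (c γ) * n`. -/
def conjSys (n : 𝔾) (c : Γ → Γ) (hc : ∀ γ, n * ι γ = ι (c γ) * n) : CosetSys ι Unit where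
  t _ := n
  perm _ := 1
  coc γ _ := c γ
  spec γ _ := hc γ

variable {A : Type*} [AddCommGroup A]

theorem transfer_conjSys (hι : Function.Injective ι) (n : 𝔾) (c : Γ → Γ)
    (hc : ∀ γ, n * ι γ = ι (c γ) * n) (φ : Additive Γ →+ A) (γ : Γ) :
    transfer (conjSys n c hc) hι φ (Additive.ofMul γ) = φ (Additive.ofMul (c γ)) := by
  rw [transfer_apply]
  simp [conjSys]

/-- Inner automorphisms act trivially on `Hom(Γ, A)`. -/
theorem transfer_conjSys_of_mem (hι : Function.Injective ι) (g : Γ) (c : Γ → Γ)
    (hc : ∀ γ, ι g * ι γ = ι (c γ) * ι g) (φ : Additive Γ →+ A) :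
    transfer (conjSys (ι g) c hc) hι φ = φ := by
  refine AddMonoidHom.ext fun γ' => ?_
  generalize hγ : Additive.toMul γ' = γ
  show transfer (conjSys (ι g) c hc) hι φ (Additive.ofMul (Additive.toMul γ')) =
    φ (Additive.ofMul (Additive.toMul γ'))
  rw [hγ, transfer_conjSys]
  have h : c γ = g * γ * g⁻¹ := by
    apply hι
    have h1 := hc γ
    rw [map_mul, map_mul, map_inv, h1, mul_assoc, mul_inv_cancel, mul_one]
  rw [h, ofMul_mul, ofMul_mul, ofMul_inv, map_add, map_add, map_neg]
  abel

end Conj

/-! ### Cycles: the transfer preserves parabolic homomorphisms -/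

section Cycles

/-- If the sum of `f` over every cycle of `σ` vanishes, then the total sum vanishes. -/
theorem sum_eq_zero_of_cycles {X A : Type*} [Fintype X] [AddCommGroup A]
    (σ : Equiv.Perm X) (f : X → A)
    (h : ∀ (x : X) (k : ℕ), 0 < k → (σ ^ k) x = x →
      ∑ i ∈ Finset.range k, f ((σ ^ i) x) = 0) :
    ∑ x, f x = 0 := by
  classical
  have key : ∀ n : ℕ, ∀ S : Finset X, S.card = n → (∀ x ∈ S, σ x ∈ S) → ∑ x ∈ S, f x = 0 := by
    intro n
    induction n using Nat.strong_induction_on with
    | _ n ih =>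
      intro S hS hstab
      rcases S.eq_empty_or_nonempty with rfl | ⟨x, hx⟩
      · simp
      have hex : ∃ k, 0 < k ∧ (σ ^ k) x = x :=
        ⟨orderOf σ, orderOf_pos σ, by rw [pow_orderOf_eq_one]; rfl⟩
      obtain ⟨k, hk, hmin'⟩ : ∃ k, (0 < k ∧ (σ ^ k) x = x) ∧
          ∀ j, j < k → ¬ (0 < j ∧ (σ ^ j) x = x) :=
        ⟨Nat.find hex, Nat.find_spec hex, fun j hj => Nat.find_min hex hj⟩
      have hmin : ∀ j, 0 < j → j < k → (σ ^ j) x ≠ x := fun j hj hjk hjx =>
        hmin' j hjk ⟨hj, hjx⟩
      set O : Finset X := (Finset.range k).image (fun i => (σ ^ i) x) with hO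
      have hpow_mem : ∀ i : ℕ, (σ ^ i) x ∈ S := by
        intro i
        induction i with
        | zero => simpa using hx
        | succ i ih' =>
          rw [pow_succ', Equiv.Perm.mul_apply]
          exact hstab _ ih'
      have hOS : O ⊆ S := by
        intro y hy
        obtain ⟨i, -, rfl⟩ := Finset.mem_image.mp hy
        exact hpow_mem i
      have hinj : ∀ i ∈ Finset.range k, ∀ j ∈ Finset.range k,
          (σ ^ i) x = (σ ^ j) x → i = j := by
        have aux : ∀ i j : ℕ, i < j → j < k → (σ ^ i) x ≠ (σ ^ j) x := by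
          intro i j hij hjk heq
          have e : σ ^ j = σ ^ i * σ ^ (j - i) := by
            rw [← pow_add]
            congr 1
            omega
          rw [e, Equiv.Perm.mul_apply] at heq
          exact hmin (j - i) (by omega) (by omega) ((σ ^ i).injective heq.symm)
        intro i hi j hj hij
        rw [Finset.mem_range] at hi hj
        by_contra hne
        rcases lt_or_gt_of_ne hne with hlt | hgt
        · exact aux i j hlt hj hij
        · exact aux j i hgt hi hij.symm
      have hsumO : ∑ y ∈ O, f y = 0 := by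
        rw [hO, Finset.sum_image hinj]
        exact h x k hk.1 hk.2
      have hstab' : ∀ y ∈ S \ O, σ y ∈ S \ O := by
        intro y hy
        rw [Finset.mem_sdiff] at hy ⊢
        refine ⟨hstab y hy.1, ?_⟩
        intro hσy
        obtain ⟨i, hi, hiy⟩ := Finset.mem_image.mp hσy
        rw [Finset.mem_range] at hi
        apply hy.2
        rcases Nat.eq_zero_or_pos i with rfl | hipos
        · refine Finset.mem_image.mpr ⟨k - 1, Finset.mem_range.mpr (by omega), ?_⟩
          apply σ.injective
          show σ ((σ ^ (k - 1)) x) = σ y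
          rw [← Equiv.Perm.mul_apply, ← pow_succ', Nat.sub_add_cancel hk.1, hk.2]
          simpa using hiy
        · refine Finset.mem_image.mpr ⟨i - 1, Finset.mem_range.mpr (by omega), ?_⟩
          apply σ.injective
          show σ ((σ ^ (i - 1)) x) = σ y
          rw [← Equiv.Perm.mul_apply, ← pow_succ', Nat.sub_add_cancel hipos]
          exact hiy
      have hxO : x ∈ O := Finset.mem_image.mpr ⟨0, Finset.mem_range.mpr hk.1, by simp⟩
      have hcard : (S \ O).card < n := by
        rw [← hS]
        exact Finset.card_lt_card (Finset.sdiff_ssubset hOS ⟨x, hxO⟩)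
      have h0 := ih _ hcard (S \ O) rfl hstab'
      rw [← Finset.sum_sdiff hOS, h0, hsumO, add_zero]
  simpa using key _ Finset.univ rfl (fun x _ => Finset.mem_univ _)

variable {ι : Γ →* 𝔾} {X : Type*} [Fintype X] {A : Type*} [AddCommGroup A]

omit [Fintype X] in
/-- Along the orbit of `x` under `perm γ`: `t x * ι γ ^ i = ι P * t ((perm γ)^i x)` with
`φ P = ∑_{j < i} φ (coc γ ((perm γ)^j x))`. -/
theorem CosetSys.exists_orbit_prod (S : CosetSys ι X) (φ : Additive Γ →+ A) (γ : Γ) (x : X)
    (i : ℕ) : ∃ P : Γ, S.t x * ι γ ^ i = ι P * S.t ((S.perm γ ^ i) x) ∧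
      φ (Additive.ofMul P) =
        ∑ j ∈ Finset.range i, φ (Additive.ofMul (S.coc γ ((S.perm γ ^ j) x))) := by
  induction i with
  | zero => exact ⟨1, by simp, by simp⟩
  | succ i ih =>
    obtain ⟨P, hP, hφ⟩ := ih
    refine ⟨P * S.coc γ ((S.perm γ ^ i) x), ?_, ?_⟩
    · rw [pow_succ, ← mul_assoc, hP, mul_assoc, S.spec γ ((S.perm γ ^ i) x), map_mul, mul_assoc,
        pow_succ', Equiv.Perm.mul_apply]
    · rw [ofMul_mul, map_add, hφ, Finset.sum_range_succ]

/-- **The transfer kills `γ`** as soon as `φ` kills every element of `Γ` of the form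
`t x * γ ^ k * (t x)⁻¹`, `k > 0`. -/
theorem transfer_eq_zero_of_cycles (S : CosetSys ι X) (hι : Function.Injective ι)
    (φ : Additive Γ →+ A) (γ : Γ)
    (h : ∀ (x : X) (k : ℕ) (g : Γ), 0 < k → ι g = S.t x * ι γ ^ k * (S.t x)⁻¹ →
      φ (Additive.ofMul g) = 0) :
    transfer S hι φ (Additive.ofMul γ) = 0 := by
  rw [transfer_apply]
  apply sum_eq_zero_of_cycles (S.perm γ)
  intro x k hk hfix
  obtain ⟨P, hP, hφ⟩ := S.exists_orbit_prod φ γ x k
  rw [← hφ]
  refine h x k P hk ?_
  rw [hP, hfix, mul_assoc, mul_inv_cancel, mul_one]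

end Cycles

/-! ### Multiplier lemmas -/

section Multiplier

variable {ι : Γ →* 𝔾} {X : Type*} [Fintype X] {Z : Type*} [MulAction 𝔾 Z]

/-- **Multiplier lemma, additive form.** -/
theorem sum_smul_eq (S : CosetSys ι X) {B : Type*} [AddCommGroup B] (F : Z → B) (φ : Γ → B)
    (hF : ∀ (γ : Γ) (z : Z), F (ι γ • z) = F z + φ γ) (γ : Γ) (z : Z) :
    ∑ x, F (S.t x • ι γ • z) = ∑ x, F (S.t x • z) + ∑ x, φ (S.coc γ x) := by
  have h1 : ∀ x, F (S.t x • ι γ • z) = F (S.t (S.perm γ x) • z) + φ (S.coc γ x) := by
    intro x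
    rw [← mul_smul, S.spec γ x, mul_smul, hF]
  rw [Finset.sum_congr rfl fun x _ => h1 x, Finset.sum_add_distrib,
    Equiv.sum_comp (S.perm γ) (fun y => F (S.t y • z))]

/-- **Multiplier lemma, multiplicative form.** -/
theorem prod_smul_eq (S : CosetSys ι X) {B : Type*} [CommMonoid B] (F : Z → B) (χ : Γ → B)
    (hF : ∀ (γ : Γ) (z : Z), F (ι γ • z) = χ γ * F z) (γ : Γ) (z : Z) :
    ∏ x, F (S.t x • ι γ • z) = (∏ x, χ (S.coc γ x)) * ∏ x, F (S.t x • z) := by
  have h1 : ∀ x, F (S.t x • ι γ • z) = χ (S.coc γ x) * F (S.t (S.perm γ x) • z) := by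
    intro x
    rw [← mul_smul, S.spec γ x, mul_smul, hF]
  rw [Finset.prod_congr rfl fun x _ => h1 x, Finset.prod_mul_distrib,
    Equiv.prod_comp (S.perm γ) (fun y => F (S.t y • z))]

end Multiplier

end Fermat.Agent.Lib.CosetTransfer
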