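import Mathlib
import Fermat.Agent.Lib.CycloChar

/-!
# The mod-`M` cyclotomic character of `G_ℚ`, for an arbitrary modulus `M` (helper56)

`Qb := AlgebraicClosure ℚ`, `GQ := Qb ≃ₐ[ℚ] Qb`, `M` any nonzero natural number.

* `cycMod M : GQ →* (ZMod M)ˣ`, with `cycMod_spec` (action on `M`-th roots of unity),
  `cycMod_frobenius` (value `q` at a Frobenius element over `q ∤ M`), `cycMod_inertia`
  (trivial on inertia over `q ∤ M`), `cycMod_complexConjugation` (value `-1`),
  `cycMod_surjective`, `cycMod_unitsMap` (compatibility for `M ∣ M'`);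
* `cycloField M = ℚ(ζ_M)`: finite-dimensional, `cycMod_eq_one_iff`, `cycMod_eq_of_eqOn`;
* `chi M ψ := ψ ∘ cycMod M` for a monoid hom `ψ` on `(ZMod M)ˣ`, with the same facts.

(The prime-modulus case is `CFT/Rec/Cyclo`; the `p`-adic character is `Lib/CycloChar.cyclo`.)
-/

set_option autoImplicit false

namespace Fermat.Agent.Lib.CycMod

open Fermat.Agent.Lib.CycloChar

local notation "Qb" => AlgebraicClosure ℚ
local notation "GQ" => (AlgebraicClosure ℚ ≃ₐ[ℚ] AlgebraicClosure ℚ)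

private theorem isAlgClosure_rat_aux : IsAlgClosure ℚ (AlgebraicClosure ℚ) := by
  have h : (DivisionRing.toRatAlgebra : Algebra ℚ (AlgebraicClosure ℚ)) =
      AlgebraicClosure.instAlgebra ℚ := Subsingleton.elim _ _
  rw [h]; infer_instance

attribute [local instance] isAlgClosure_rat_aux

variable (M : ℕ) [hM : NeZero M]

theorem exists_zeta : ∃ ζ : Qb, IsPrimitiveRoot ζ M := by
  have : NeZero ((M : ℕ) : Qb) := ⟨by exact_mod_cast hM.out⟩
  exact HasEnoughRootsOfUnity.exists_primitiveRoot Qb M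

/-- A chosen primitive `M`-th root of unity. -/
noncomputable def zeta : Qb := (exists_zeta M).choose

theorem zeta_spec : IsPrimitiveRoot (zeta M) M := (exists_zeta M).choose_spec

theorem zeta_pow : zeta M ^ M = 1 := (zeta_spec M).pow_eq_one

/-- The mod-`M` cyclotomic character of `G_ℚ`. -/
noncomputable def cycMod : GQ →* (ZMod M)ˣ := (zeta_spec M).autToPow ℚ

theorem cycMod_zeta (σ : GQ) : σ (zeta M) = zeta M ^ ((cycMod M σ : (ZMod M)ˣ) : ZMod M).val :=
  ((zeta_spec M).autToPow_spec ℚ σ).symm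

/-- The defining property: the action on `M`-th roots of unity. -/
theorem cycMod_spec (σ : GQ) {t : Qb} (ht : t ^ M = 1) :
    σ t = t ^ ((cycMod M σ : (ZMod M)ˣ) : ZMod M).val := by
  obtain ⟨i, -, rfl⟩ := (zeta_spec M).eq_pow_of_pow_eq_one ht
  rw [map_pow, cycMod_zeta, ← pow_mul, ← pow_mul, mul_comm]

theorem zeta_pow_eq_iff (a b : ℕ) :
    zeta M ^ a = zeta M ^ b ↔ (a : ZMod M) = (b : ZMod M) := by
  rw [((zeta_spec M).isOfFinOrder hM.out).pow_eq_pow_iff_modEq,
    ← (zeta_spec M).eq_orderOf, ZMod.natCast_eq_natCast_iff]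

/-- `cycMod M σ` is the exponent of the action of `σ` on `zeta M`. -/
theorem cycMod_eq_of_pow (σ : GQ) (a : ℕ) (h : σ (zeta M) = zeta M ^ a) :
    ((cycMod M σ : (ZMod M)ˣ) : ZMod M) = a := by
  have h1 := cycMod_zeta M σ
  rw [h] at h1
  have h2 := (zeta_pow_eq_iff M _ _).mp h1
  rw [ZMod.natCast_zmod_val] at h2
  exact h2.symm

/-- `cycMod M σ` is determined by the action of `σ` on ANY primitive `M`-th root of unity. -/
theorem cycMod_eq_of_pow' (σ : GQ) (a : ℕ) {ξ : Qb} (hξ : IsPrimitiveRoot ξ M)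
    (h : σ ξ = ξ ^ a) : ((cycMod M σ : (ZMod M)ˣ) : ZMod M) = a := by
  obtain ⟨i, -, hi⟩ := hξ.eq_pow_of_pow_eq_one (zeta_pow M)
  apply cycMod_eq_of_pow
  rw [← hi, map_pow, h, ← pow_mul, ← pow_mul, mul_comm]

/-- `cycMod M` takes the value `q` at every Frobenius element over a prime `q ∤ M`. -/
theorem cycMod_frobenius {q : ℕ} (hq : q.Prime) (hqM : ¬ q ∣ M) (A : ValuationSubring Qb)
    (hA : A.LiesOverPrime q) (σ : GQ) (hσ : A.IsFrobeniusAt σ q) :
    ((cycMod M σ : (ZMod M)ˣ) : ZMod M) = q := by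
  apply cycMod_eq_of_pow
  exact frob_root A hA σ hσ ((Nat.Prime.coprime_iff_not_dvd hq).mpr hqM).symm (zeta_pow M)

/-- `cycMod M` at a Frobenius element over `q ∤ M`, as a unit. -/
theorem cycMod_frobenius_unit {q : ℕ} (hq : q.Prime) (hqM : ¬ q ∣ M) (A : ValuationSubring Qb)
    (hA : A.LiesOverPrime q) (σ : GQ) (hσ : A.IsFrobeniusAt σ q) :
    cycMod M σ = ZMod.unitOfCoprime q ((Nat.Prime.coprime_iff_not_dvd hq).mpr hqM) := by
  apply Units.ext
  rw [ZMod.coe_unitOfCoprime]
  exact cycMod_frobenius M hq hqM A hA σ hσ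

/-- `cycMod M` is trivial on the inertia groups over primes `q ∤ M`. -/
theorem cycMod_inertia {q : ℕ} (hq : q.Prime) (hqM : ¬ q ∣ M) (A : ValuationSubring Qb)
    (hA : A.LiesOverPrime q) (σ : GQ) (hσ : σ ∈ A.inertiaSubgroupIn ℚ) : cycMod M σ = 1 := by
  apply Units.ext
  rw [Units.val_one]
  have h := cycMod_eq_of_pow M σ 1 (by
    rw [pow_one]
    exact inertia_root A hA σ hσ ((Nat.Prime.coprime_iff_not_dvd hq).mpr hqM).symm (zeta_pow M))
  rw [h, Nat.cast_one]

/-- `cycMod M` takes the value `-1` at complex conjugation. -/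
theorem cycMod_complexConjugation : cycMod M complexConjugation = -1 := by
  apply Units.ext
  rw [Units.val_neg, Units.val_one]
  have hpos : 0 < M := Nat.pos_of_ne_zero hM.out
  have h := cycMod_eq_of_pow M complexConjugation (M - 1) (by
    rw [complexConjugation_root hM.out (zeta_pow M)]
    have h1 : zeta M ^ (M - 1) * zeta M = 1 := by
      rw [← pow_succ, Nat.sub_add_cancel hpos, zeta_pow]
    exact (eq_inv_of_mul_eq_one_left h1).symm)
  rw [h, Nat.cast_sub hpos, ZMod.natCast_self, Nat.cast_one, zero_sub]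

/-! ### The field `ℚ(ζ_M)` -/

/-- The field `ℚ(ζ_M)` inside `AlgebraicClosure ℚ`. -/
noncomputable def cycloField : IntermediateField ℚ Qb :=
  IntermediateField.adjoin ℚ {zeta M}

theorem zeta_mem_cycloField : zeta M ∈ cycloField M :=
  IntermediateField.mem_adjoin_simple_self ℚ (zeta M)

theorem finiteDimensional_cycloField : FiniteDimensional ℚ (cycloField M) := by
  apply IntermediateField.adjoin.finiteDimensional
  exact ((zeta_spec M).isIntegral (Nat.pos_of_ne_zero hM.out)).tower_top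

omit hM in
/-- An automorphism fixes `ℚ(z)` pointwise iff it fixes `z`. -/
theorem mem_fixingSubgroup_adjoin_singleton (σ : GQ) (z : Qb) :
    σ ∈ (IntermediateField.adjoin ℚ {z}).fixingSubgroup ↔ σ z = z := by
  rw [IntermediateField.mem_fixingSubgroup_iff]
  constructor
  · intro h
    exact h z (IntermediateField.mem_adjoin_simple_self ℚ z)
  · intro h x hx
    induction hx using IntermediateField.adjoin_induction with
    | mem x hx =>
      rw [Set.mem_singleton_iff] at hx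
      rw [hx]; exact h
    | algebraMap x => exact σ.commutes x
    | add x y _ _ hx hy =>
      show σ (x + y) = x + y
      rw [map_add]
      exact congrArg₂ (· + ·) hx hy
    | inv x _ hx =>
      show σ x⁻¹ = x⁻¹
      rw [map_inv₀]
      exact congrArg (·⁻¹) hx
    | mul x y _ _ hx hy =>
      show σ (x * y) = x * y
      rw [map_mul]
      exact congrArg₂ (· * ·) hx hy

/-- `cycMod M σ = 1` iff `σ` fixes `ζ_M`. -/
theorem cycMod_eq_one_iff_apply (σ : GQ) : cycMod M σ = 1 ↔ σ (zeta M) = zeta M := by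
  constructor
  · intro h
    have h1 := cycMod_zeta M σ
    rw [h1]
    have h2 : zeta M ^ ((cycMod M σ : (ZMod M)ˣ) : ZMod M).val = zeta M ^ 1 := by
      rw [zeta_pow_eq_iff, ZMod.natCast_zmod_val, h, Units.val_one, Nat.cast_one]
    rw [h2, pow_one]
  · intro h
    apply Units.ext
    rw [Units.val_one]
    have h1 := cycMod_eq_of_pow M σ 1 (by rw [pow_one, h])
    rw [h1, Nat.cast_one]

/-- `cycMod M σ = 1` iff `σ` fixes `ℚ(ζ_M)`. -/
theorem cycMod_eq_one_iff (σ : GQ) : cycMod M σ = 1 ↔ σ ∈ (cycloField M).fixingSubgroup := by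
  rw [cycloField, mem_fixingSubgroup_adjoin_singleton, cycMod_eq_one_iff_apply]

/-- Continuity: `cycMod M σ` only depends on the restriction of `σ` to `ℚ(ζ_M)`. -/
theorem cycMod_eq_of_eqOn (σ τ : GQ) (h : ∀ x ∈ cycloField M, σ x = τ x) :
    cycMod M σ = cycMod M τ := by
  have h1 : cycMod M (τ⁻¹ * σ) = 1 := by
    rw [cycMod_eq_one_iff, IntermediateField.mem_fixingSubgroup_iff]
    intro x hx
    show τ⁻¹ (σ x) = x
    rw [h x hx]
    exact τ.symm_apply_apply x
  rw [map_mul, map_inv] at h1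
  exact (inv_mul_eq_one.mp h1).symm

/-- `cycMod M` is trivial on an automorphism fixing `ℚ(ζ_M)` pointwise (elementwise form). -/
theorem cycMod_eq_one_of_fix (σ : GQ) (h : ∀ x ∈ cycloField M, σ x = x) : cycMod M σ = 1 := by
  rw [cycMod_eq_one_iff, IntermediateField.mem_fixingSubgroup_iff]
  exact h

/-! ### Surjectivity -/

/-- `cycMod M` is surjective (irreducibility of the cyclotomic polynomial). -/
theorem cycMod_surjective : Function.Surjective (cycMod M) := by
  intro a
  have hpos : 0 < M := Nat.pos_of_ne_zero hM.out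
  have hcop : Nat.Coprime ((a : ZMod M).val) M := ZMod.val_coe_unit_coprime a
  have hprim : IsPrimitiveRoot (zeta M ^ (a : ZMod M).val) M := (zeta_spec M).pow_of_coprime _ hcop
  have hmin : minpoly ℚ (zeta M) = minpoly ℚ (zeta M ^ (a : ZMod M).val) := by
    rw [← Polynomial.cyclotomic_eq_minpoly_rat (zeta_spec M) hpos,
      ← Polynomial.cyclotomic_eq_minpoly_rat hprim hpos]
  have hconj : IsConjRoot ℚ (zeta M) (zeta M ^ (a : ZMod M).val) := hmin
  obtain ⟨σ, hσ⟩ := IsConjRoot.exists_algEquiv hconj.symm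
  refine ⟨σ, ?_⟩
  apply Units.ext
  have h1 := cycMod_eq_of_pow M σ _ hσ
  rw [h1, ZMod.natCast_zmod_val]

/-! ### Change of modulus -/

/-- Compatibility of the cyclotomic characters for `M ∣ M'`. -/
theorem cycMod_unitsMap {M' : ℕ} [NeZero M'] (h : M ∣ M') (σ : GQ) :
    ZMod.unitsMap h (cycMod M' σ) = cycMod M σ := by
  apply Units.ext
  have ht : zeta M ^ M' = 1 := by
    obtain ⟨k, rfl⟩ := h
    rw [pow_mul, zeta_pow, one_pow]
  have h1 := cycMod_spec M' σ ht
  have h2 := cycMod_eq_of_pow M σ _ h1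
  show ((ZMod.unitsMap h (cycMod M' σ) : (ZMod M)ˣ) : ZMod M)
    = ((cycMod M σ : (ZMod M)ˣ) : ZMod M)
  rw [h2, ZMod.natCast_val]
  rfl

/-! ### Kernel, Frobenius classes, the `p`-adic character -/

/-- The kernel of `cycMod M` is the absolute Galois group of `ℚ(ζ_M)`. -/
theorem ker_cycMod : (cycMod M).ker = (cycloField M).fixingSubgroup := by
  ext σ
  rw [MonoidHom.mem_ker, cycMod_eq_one_iff]

/-- Frobenius elements over primes `q ≡ q'` modulo `M` (both prime to `M`) have the same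
cyclotomic character. -/
theorem cycMod_eq_of_frobenius_of_modEq {q q' : ℕ} (hq : q.Prime) (hqM : ¬ q ∣ M)
    (hq' : q'.Prime) (hq'M : ¬ q' ∣ M) (hqq' : q ≡ q' [MOD M])
    (A : ValuationSubring Qb) (hA : A.LiesOverPrime q) (σ : GQ) (hσ : A.IsFrobeniusAt σ q)
    (A' : ValuationSubring Qb) (hA' : A'.LiesOverPrime q') (σ' : GQ)
    (hσ' : A'.IsFrobeniusAt σ' q') : cycMod M σ = cycMod M σ' := by
  apply Units.ext
  rw [cycMod_frobenius M hq hqM A hA σ hσ, cycMod_frobenius M hq' hq'M A' hA' σ' hσ']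
  exact (ZMod.natCast_eq_natCast_iff q q' M).mpr hqq'

/-- The reduction modulo `p ^ n` of the `p`-adic cyclotomic character is `cycMod (p ^ n)`. -/
theorem toZModPow_cyclo (p : ℕ) [Fact p.Prime] (n : ℕ) (σ : GQ) :
    PadicInt.toZModPow n (cyclo p σ : ℤ_[p]) =
      ((cycMod (p ^ n) σ : (ZMod (p ^ n))ˣ) : ZMod (p ^ n)) := by
  rw [toZModPow_cyclo_of_pow p σ n ((cycMod (p ^ n) σ : (ZMod (p ^ n))ˣ) : ZMod (p ^ n)).val
    (fun μ hμ => cycMod_spec (p ^ n) σ hμ), ZMod.natCast_zmod_val]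

/-! ### Characters `ψ ∘ cycMod M` -/

section chi

variable {X : Type*} [Monoid X] (ψ : (ZMod M)ˣ →* X)

/-- The character `χ = ψ ∘ cycMod M` of `G_ℚ`. -/
noncomputable def chi : GQ →* X := ψ.comp (cycMod M)

theorem chi_apply (σ : GQ) : chi M ψ σ = ψ (cycMod M σ) := rfl

/-- `χ(Frob_q) = ψ(q mod M)` for `q ∤ M`. -/
theorem chi_frobenius {q : ℕ} (hq : q.Prime) (hqM : ¬ q ∣ M) (A : ValuationSubring Qb)
    (hA : A.LiesOverPrime q) (σ : GQ) (hσ : A.IsFrobeniusAt σ q) :
    chi M ψ σ = ψ (ZMod.unitOfCoprime q ((Nat.Prime.coprime_iff_not_dvd hq).mpr hqM)) := by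
  rw [chi_apply, cycMod_frobenius_unit M hq hqM A hA σ hσ]

/-- `χ` is unramified at every `q ∤ M`. -/
theorem chi_inertia {q : ℕ} (hq : q.Prime) (hqM : ¬ q ∣ M) (A : ValuationSubring Qb)
    (hA : A.LiesOverPrime q) (σ : GQ) (hσ : σ ∈ A.inertiaSubgroupIn ℚ) : chi M ψ σ = 1 := by
  rw [chi_apply, cycMod_inertia M hq hqM A hA σ hσ, map_one]

/-- `χ(c) = ψ(-1)` at complex conjugation. -/
theorem chi_complexConjugation : chi M ψ complexConjugation = ψ (-1) := by
  rw [chi_apply, cycMod_complexConjugation]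

/-- `χ` only depends on the restriction to `ℚ(ζ_M)`. -/
theorem chi_eq_of_eqOn (σ τ : GQ) (h : ∀ x ∈ cycloField M, σ x = τ x) :
    chi M ψ σ = chi M ψ τ := by
  rw [chi_apply, chi_apply, cycMod_eq_of_eqOn M σ τ h]

/-- `χ` is trivial on the absolute Galois group of `ℚ(ζ_M)`. -/
theorem chi_eq_one_of_mem_fixingSubgroup {σ : GQ} (hσ : σ ∈ (cycloField M).fixingSubgroup) :
    chi M ψ σ = 1 := by
  rw [chi_apply, (cycMod_eq_one_iff M σ).mpr hσ, map_one]

theorem chi_surjective (hψ : Function.Surjective ψ) : Function.Surjective (chi M ψ) :=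
  hψ.comp (cycMod_surjective M)

end chi

/-! ### Dirichlet characters as Galois characters -/

section dirichlet

variable {R : Type*} [CommMonoidWithZero R] (ε : DirichletCharacter R M)

/-- The Galois character `ε ∘ cycMod M` attached to a Dirichlet character `ε` modulo `M`. -/
noncomputable def dirChar : GQ →* Rˣ := chi M ε.toUnitHom

theorem dirChar_apply (σ : GQ) :
    ((dirChar M ε σ : Rˣ) : R) = ε ((cycMod M σ : (ZMod M)ˣ) : ZMod M) :=
  MulChar.coe_toUnitHom ε (cycMod M σ)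

/-- `ε ∘ cycMod M` takes the value `ε(q)` at a Frobenius element over `q ∤ M`. -/
theorem dirChar_frobenius {q : ℕ} (hq : q.Prime) (hqM : ¬ q ∣ M) (A : ValuationSubring Qb)
    (hA : A.LiesOverPrime q) (σ : GQ) (hσ : A.IsFrobeniusAt σ q) :
    ((dirChar M ε σ : Rˣ) : R) = ε (q : ZMod M) := by
  rw [dirChar_apply, cycMod_frobenius M hq hqM A hA σ hσ]

/-- `ε ∘ cycMod M` is unramified at every `q ∤ M`. -/
theorem dirChar_inertia {q : ℕ} (hq : q.Prime) (hqM : ¬ q ∣ M) (A : ValuationSubring Qb)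
    (hA : A.LiesOverPrime q) (σ : GQ) (hσ : σ ∈ A.inertiaSubgroupIn ℚ) : dirChar M ε σ = 1 :=
  chi_inertia M ε.toUnitHom hq hqM A hA σ hσ

/-- `ε ∘ cycMod M` only depends on the restriction to `ℚ(ζ_M)`. -/
theorem dirChar_eq_of_eqOn (σ τ : GQ) (h : ∀ x ∈ cycloField M, σ x = τ x) :
    dirChar M ε σ = dirChar M ε τ :=
  chi_eq_of_eqOn M ε.toUnitHom σ τ h

end dirichlet

end Fermat.Agent.Lib.CycMod
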