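/-
# The mod-`M` cyclotomic character of `G_ℚ` (helper244)

`Qb := AlgebraicClosure ℚ`, `GQ := Qb ≃ₐ[ℚ] Qb`, `M : ℕ` with `[NeZero M]`.

* `kappa M : GQ →* (ZMod M)ˣ` (Mathlib's `modularCyclotomicCharacter` on `Qb`), with
  `kappa_spec` (`σ t = t ^ κ(σ)` for `t ^ M = 1`), `kappa_eq_of_pow` (characterisation),
  `kappa_frobenius` (value `ℓ` at a Frobenius element at `ℓ` prime to `M`),
  `kappa_inertia` (trivial on inertia at `q` prime to `M`),
  `kappa_congr` / `kappa_cont` (it factors through `cycloField M = ℚ(ζ_M)`),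
  `kappa_pow_frobenius` (the shape consumed by the Frobenius-power step of the engine),
  `kappa_complexConjugation` (value `-1`), `kappa_dvd` (compatibility for `M ∣ M'`).
* `chi M ψ : GQ →* Rˣ := ψ.comp (kappa M)` for a character `ψ : (ZMod M)ˣ →* Rˣ`
  (the Galois character of a Dirichlet character), with the same facts transported.
-/
import Mathlib
import Fermat.Agent.Lib.CycloChar

set_option autoImplicit false

namespace Fermat.Agent.Lib.CycloCharMod

open Fermat.Agent.Lib.CycloChar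

local notation "Qb" => AlgebraicClosure ℚ
local notation "GQ" => (AlgebraicClosure ℚ ≃ₐ[ℚ] AlgebraicClosure ℚ)

variable (M : ℕ) [NeZero M]

theorem hasEnough : HasEnoughRootsOfUnity Qb M := by
  have : NeZero ((M : ℕ) : Qb) := ⟨by exact_mod_cast NeZero.ne M⟩
  infer_instance

theorem exists_primitiveRoot : ∃ ζ : Qb, IsPrimitiveRoot ζ M := by
  have := hasEnough M
  exact HasEnoughRootsOfUnity.exists_primitiveRoot Qb M

/-- A chosen primitive `M`-th root of unity in `Qb`. -/
noncomputable def zeta : Qb := (exists_primitiveRoot M).choose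

theorem zeta_spec : IsPrimitiveRoot (zeta M) M := (exists_primitiveRoot M).choose_spec

theorem zeta_pow : zeta M ^ M = 1 := (zeta_spec M).pow_eq_one

theorem card_rootsOfUnity : Nat.card { x // x ∈ rootsOfUnity M Qb } = M :=
  (zeta_spec M).card_rootsOfUnity

/-- The mod-`M` cyclotomic character of the absolute Galois group of `ℚ`. -/
noncomputable def kappa : GQ →* (ZMod M)ˣ :=
  (modularCyclotomicCharacter Qb (card_rootsOfUnity M)).comp (MulSemiringAction.toRingAut GQ Qb)

theorem kappa_spec (σ : GQ) {t : Qb} (ht : t ^ M = 1) :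
    σ t = t ^ ((kappa M σ : (ZMod M)ˣ) : ZMod M).val := by
  have ht0 : t ≠ 0 := by
    rintro rfl
    rw [zero_pow (NeZero.ne M)] at ht
    exact zero_ne_one ht
  have hmem : Units.mk0 t ht0 ∈ rootsOfUnity M Qb := by
    rw [mem_rootsOfUnity]
    apply Units.ext
    simpa using ht
  have h := modularCyclotomicCharacter.spec Qb (card_rootsOfUnity M)
    (MulSemiringAction.toRingAut GQ Qb σ) hmem
  simpa [kappa] using h

/-- Characterisation of the mod-`M` cyclotomic character. -/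
theorem kappa_eq_of_pow (σ : GQ) (a : ℕ) (h : ∀ μ : Qb, μ ^ M = 1 → σ μ = μ ^ a) :
    ((kappa M σ : (ZMod M)ˣ) : ZMod M) = (a : ZMod M) := by
  have hζ := zeta_spec M
  have h1 := kappa_spec M σ (zeta_pow M)
  rw [h (zeta M) (zeta_pow M)] at h1
  have hpos : 0 < M := Nat.pos_of_ne_zero (NeZero.ne M)
  have hfin : IsOfFinOrder (zeta M) :=
    isOfFinOrder_iff_pow_eq_one.mpr ⟨M, hpos, zeta_pow M⟩
  have h2 : a ≡ ((kappa M σ : (ZMod M)ˣ) : ZMod M).val [MOD M] := by
    have := hfin.pow_eq_pow_iff_modEq.mp h1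
    rwa [← hζ.eq_orderOf] at this
  have h3 := (ZMod.natCast_eq_natCast_iff _ _ _).mpr h2
  rw [h3, ZMod.natCast_zmod_val]

/-- The mod-`M` cyclotomic character of a Frobenius element at `ℓ` prime to `M` is `ℓ`. -/
theorem kappa_frobenius {ℓ : ℕ} (hℓM : Nat.Coprime M ℓ) (A : ValuationSubring Qb)
    (hA : A.LiesOverPrime ℓ) (s : GQ) (hs : A.IsFrobeniusAt s ℓ) :
    ((kappa M s : (ZMod M)ˣ) : ZMod M) = (ℓ : ZMod M) :=
  kappa_eq_of_pow M s ℓ fun _ hμ => frob_root A hA s hs hℓM hμ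

/-- The mod-`M` cyclotomic character is trivial on inertia at `q` prime to `M`. -/
theorem kappa_inertia {q : ℕ} (hqM : Nat.Coprime M q) (P : ValuationSubring Qb)
    (hP : P.LiesOverPrime q) (σ : GQ) (hσ : σ ∈ P.inertiaSubgroupIn ℚ) :
    kappa M σ = 1 := by
  apply Units.ext
  rw [Units.val_one]
  have h := kappa_eq_of_pow M σ 1 fun μ hμ => by
    rw [pow_one]
    exact inertia_root P hP σ hσ hqM hμ
  rw [h, Nat.cast_one]

/-! ### Continuity -/

/-- The field `ℚ(ζ_M)` inside `AlgebraicClosure ℚ`. -/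
noncomputable def cycloField : IntermediateField ℚ Qb :=
  IntermediateField.adjoin ℚ {zeta M}

theorem zeta_mem_cycloField : zeta M ∈ cycloField M :=
  IntermediateField.mem_adjoin_simple_self ℚ (zeta M)

theorem finiteDimensional_cycloField : FiniteDimensional ℚ (cycloField M) := by
  apply IntermediateField.adjoin.finiteDimensional
  exact ((zeta_spec M).isIntegral (Nat.pos_of_ne_zero (NeZero.ne M))).tower_top

/-- Every `M`-th root of unity lies in `cycloField M`. -/
theorem mem_cycloField_of_pow_eq_one {μ : Qb} (hμ : μ ^ M = 1) : μ ∈ cycloField M := by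
  obtain ⟨i, -, rfl⟩ := (zeta_spec M).eq_pow_of_pow_eq_one hμ
  exact pow_mem (zeta_mem_cycloField M) i

/-- `kappa M` only depends on the action on `ℚ(ζ_M)`. -/
theorem kappa_congr (σ τ : GQ) (h : ∀ x ∈ cycloField M, σ x = τ x) :
    kappa M σ = kappa M τ := by
  apply Units.ext
  have key : ∀ μ : Qb, μ ^ M = 1 → σ μ = μ ^ ((kappa M τ : (ZMod M)ˣ) : ZMod M).val := by
    intro μ hμ
    rw [h μ (mem_cycloField_of_pow_eq_one M hμ)]
    exact kappa_spec M τ hμ
  have h1 := kappa_eq_of_pow M σ _ key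
  rw [ZMod.natCast_zmod_val] at h1
  exact h1

/-- Continuity of `kappa M`: it factors through a finite extension of `ℚ`. -/
theorem kappa_cont : ∃ L : IntermediateField ℚ Qb, FiniteDimensional ℚ L ∧
    ∀ σ τ : GQ, (∀ x ∈ L, σ x = τ x) → kappa M σ = kappa M τ :=
  ⟨cycloField M, finiteDimensional_cycloField M, kappa_congr M⟩

theorem kappa_eq_one_of_fix (σ : GQ) (h : ∀ x ∈ cycloField M, σ x = x) : kappa M σ = 1 := by
  have := kappa_congr M σ 1 (fun x hx => by rw [h x hx]; rfl)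
  rwa [map_one] at this

/-- The shape used with the Frobenius density lemma: if `g` acts on `ℚ(ζ_M)` as the `b`-th
power of a Frobenius element `s` over `ℓ` prime to `M`, then `kappa M g = ℓ ^ b`. -/
theorem kappa_pow_frobenius {ℓ : ℕ} (hℓM : Nat.Coprime M ℓ) (A : ValuationSubring Qb)
    (hA : A.LiesOverPrime ℓ) (s : GQ) (hs : A.IsFrobeniusAt s ℓ) (g : GQ) (b : ℕ)
    (h : ∀ x ∈ cycloField M, g x = (s ^ b) x) :
    ((kappa M g : (ZMod M)ˣ) : ZMod M) = (ℓ : ZMod M) ^ b := by
  rw [kappa_congr M g (s ^ b) h, map_pow, Units.val_pow_eq_pow_val,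
    kappa_frobenius M hℓM A hA s hs]

/-- The mod-`M` cyclotomic character of complex conjugation is `-1`. -/
theorem kappa_complexConjugation : kappa M complexConjugation = -1 := by
  apply Units.ext
  rw [Units.val_neg, Units.val_one]
  have hpos : 0 < M := Nat.pos_of_ne_zero (NeZero.ne M)
  have h := kappa_eq_of_pow M complexConjugation (M - 1) fun μ hμ => by
    rw [complexConjugation_root hpos.ne' hμ]
    have h1 : μ ^ (M - 1) * μ = 1 := by
      rw [← pow_succ, Nat.sub_add_cancel hpos, hμ]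
    exact (eq_inv_of_mul_eq_one_left h1).symm
  rw [h, Nat.cast_sub hpos, ZMod.natCast_self, Nat.cast_one, zero_sub]

/-- Compatibility of the mod-`M` and mod-`M'` cyclotomic characters for `M ∣ M'`. -/
theorem kappa_dvd {M' : ℕ} [NeZero M'] (h : M ∣ M') (σ : GQ) :
    kappa M σ = ZMod.unitsMap h (kappa M' σ) := by
  apply Units.ext
  have key : ∀ μ : Qb, μ ^ M = 1 → σ μ = μ ^ ((kappa M' σ : (ZMod M')ˣ) : ZMod M').val := by
    intro μ hμ
    obtain ⟨c, rfl⟩ := h
    exact kappa_spec (M * c) σ (by rw [pow_mul, hμ, one_pow])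
  have h1 := kappa_eq_of_pow M σ _ key
  rw [h1, ZMod.unitsMap_def, Units.coe_map, MonoidHom.coe_coe, ZMod.castHom_apply,
    ZMod.natCast_val]

/-! ### The Galois character of a Dirichlet-type character -/

section Chi

variable {R : Type*} [CommMonoid R] (ψ : (ZMod M)ˣ →* Rˣ)

/-- The Galois character `ψ ∘ κ_M` attached to a character `ψ` of `(ℤ/M)ˣ`. -/
noncomputable def chi : GQ →* Rˣ := ψ.comp (kappa M)

theorem chi_apply (σ : GQ) : chi M ψ σ = ψ (kappa M σ) := rfl

/-- At a Frobenius element at `ℓ` prime to `M` the character `ψ ∘ κ_M` takes the value `ψ(ℓ)`. -/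
theorem chi_frobenius {ℓ : ℕ} (hℓM : Nat.Coprime M ℓ) (A : ValuationSubring Qb)
    (hA : A.LiesOverPrime ℓ) (s : GQ) (hs : A.IsFrobeniusAt s ℓ) (u : (ZMod M)ˣ)
    (hu : (u : ZMod M) = (ℓ : ZMod M)) : chi M ψ s = ψ u := by
  rw [chi_apply]
  congr 1
  apply Units.ext
  rw [kappa_frobenius M hℓM A hA s hs, hu]

theorem chi_inertia {q : ℕ} (hqM : Nat.Coprime M q) (P : ValuationSubring Qb)
    (hP : P.LiesOverPrime q) (σ : GQ) (hσ : σ ∈ P.inertiaSubgroupIn ℚ) :
    chi M ψ σ = 1 := by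
  rw [chi_apply, kappa_inertia M hqM P hP σ hσ, map_one]

theorem chi_congr (σ τ : GQ) (h : ∀ x ∈ cycloField M, σ x = τ x) :
    chi M ψ σ = chi M ψ τ := by
  rw [chi_apply, chi_apply, kappa_congr M σ τ h]

theorem chi_eq_one_of_fix (σ : GQ) (h : ∀ x ∈ cycloField M, σ x = x) : chi M ψ σ = 1 := by
  rw [chi_apply, kappa_eq_one_of_fix M σ h, map_one]

/-- If `g` acts on `ℚ(ζ_M)` as the `b`-th power of a Frobenius element `s` over `ℓ` prime to
`M`, then `ψ(κ_M(g)) = ψ(ℓ) ^ b`. -/
theorem chi_pow_frobenius {ℓ : ℕ} (hℓM : Nat.Coprime M ℓ) (A : ValuationSubring Qb)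
    (hA : A.LiesOverPrime ℓ) (s : GQ) (hs : A.IsFrobeniusAt s ℓ) (g : GQ) (b : ℕ)
    (h : ∀ x ∈ cycloField M, g x = (s ^ b) x) (u : (ZMod M)ˣ)
    (hu : (u : ZMod M) = (ℓ : ZMod M)) : chi M ψ g = ψ u ^ b := by
  rw [chi_congr M ψ g (s ^ b) h, map_pow, chi_frobenius M ψ hℓM A hA s hs u hu]

end Chi

end Fermat.Agent.Lib.CycloCharMod
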