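/-
Crossing with cyclotomic fields, subset form (continuation of `Lib/CycloCross`).

Tower `ℚ ⊆ M ⊆ L = M(ζ_m)`:
* `faithful_inv_iff`, `faithful_conj` : "`⟨σ⟩` acts faithfully on `ζ_m`" is stable under
  inversion and conjugation;
* `ncard_preimage_mul_card` : the preimage in `Gal(L/ℚ)` of `X₀ ⊆ Gal(M/ℚ)` has
  `|X₀| [L : M]` elements;
* `one_sub_mul_ncard_preimage_le` : for `m ≡ 1 (mod [M:ℚ] ^ j)` prime, `[M:ℚ] ^ 2 ≤ ε 2 ^ j`,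
  at least the fraction `1 - ε` of that preimage is faithful on `ζ_m`.
-/
import Fermat.Agent.Lib.CycloCross
set_option autoImplicit false

namespace Fermat.Agent.Lib.CycloCross

section Preimage

variable {M L : Type*} [Field M] [Field L] [CharZero M] [CharZero L] [Algebra M L]
  [IsScalarTower ℚ M L]

/-- Faithfulness of `⟨σ⟩` on `ζ` is invariant under inversion. -/
theorem faithful_inv_iff (ζ : L) (σ : L ≃ₐ[ℚ] L) :
    (∀ x ∈ Subgroup.zpowers σ⁻¹, x ζ = ζ → x = 1) ↔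
      (∀ x ∈ Subgroup.zpowers σ, x ζ = ζ → x = 1) := by
  rw [Subgroup.zpowers_inv]

/-- Faithfulness of `⟨σ⟩` on a root of unity is invariant under conjugation. -/
theorem faithful_conj {m : ℕ} (hm : 0 < m) {ζ : L} (hζ : IsPrimitiveRoot ζ m) {σ : L ≃ₐ[ℚ] L}
    (h : ∀ x ∈ Subgroup.zpowers σ, x ζ = ζ → x = 1) (g : L ≃ₐ[ℚ] L) :
    ∀ x ∈ Subgroup.zpowers (g * σ * g⁻¹), x ζ = ζ → x = 1 := by
  have : NeZero m := ⟨hm.ne'⟩
  intro x hx hxζ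
  obtain ⟨k, rfl⟩ := Subgroup.mem_zpowers_iff.1 hx
  have h1 : (g * σ * g⁻¹) ^ k = g * σ ^ k * g⁻¹ := conj_zpow
  rw [h1] at hxζ ⊢
  -- `g⁻¹ ζ = ζ ^ a`, so `σ ^ k` fixes `ζ ^ a = g⁻¹ ζ`
  have h2 : (σ ^ k) (g⁻¹ ζ) = g⁻¹ ζ := by
    have h3 : g ((σ ^ k) (g⁻¹ ζ)) = ζ := hxζ
    have h4 : g⁻¹ (g ((σ ^ k) (g⁻¹ ζ))) = (σ ^ k) (g⁻¹ ζ) := AlgEquiv.symm_apply_apply g _
    rw [← h4, h3]
  -- `ζ` is a power of `g⁻¹ ζ`
  have h5 : IsPrimitiveRoot (g⁻¹ ζ) m := hζ.map_of_injective g⁻¹.injective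
  obtain ⟨i, -, hi⟩ := h5.eq_pow_of_pow_eq_one hζ.pow_eq_one
  have h6 : (σ ^ k) ζ = ζ := by
    rw [← hi, map_pow, h2]
  have h7 : σ ^ k = 1 := h (σ ^ k) (Subgroup.zpow_mem_zpowers σ k) h6
  rw [h7, mul_one, mul_inv_cancel]

variable [Normal ℚ M] [Normal ℚ L] [FiniteDimensional ℚ M] [FiniteDimensional ℚ L]

/-- Size of the preimage of a subset of `Gal(M/ℚ)` in `Gal(L/ℚ)`. -/
theorem ncard_preimage_mul_card (X₀ : Set (M ≃ₐ[ℚ] M)) :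
    {σ : L ≃ₐ[ℚ] L | σ.restrictNormal M ∈ X₀}.ncard * Nat.card (M ≃ₐ[ℚ] M) =
      X₀.ncard * Nat.card (L ≃ₐ[ℚ] L) := by
  classical
  have h1 : {σ : L ≃ₐ[ℚ] L | σ.restrictNormal M ∈ X₀}.ncard =
      ∑ τ ∈ X₀.toFinset, {σ : L ≃ₐ[ℚ] L | σ.restrictNormal M = τ}.ncard := by
    have h2 : {σ : L ≃ₐ[ℚ] L | σ.restrictNormal M ∈ X₀}.ncard =
        (Finset.univ.filter (fun σ : L ≃ₐ[ℚ] L => σ.restrictNormal M ∈ X₀)).card := by
      rw [← Set.ncard_coe_finset]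
      congr 1
      ext σ
      simp
    rw [h2, Finset.card_eq_sum_card_fiberwise (f := fun σ : L ≃ₐ[ℚ] L => σ.restrictNormal M)
      (t := X₀.toFinset) (fun σ hσ => Set.mem_toFinset.2 (Finset.mem_filter.1 hσ).2)]
    refine Finset.sum_congr rfl fun τ hτ => ?_
    rw [← Set.ncard_coe_finset]
    congr 1
    ext σ
    have hτ' : τ ∈ X₀ := Set.mem_toFinset.1 hτ
    simp only [Finset.coe_filter, Finset.mem_filter, Finset.mem_univ, true_and, Set.mem_ofPred_eq]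
    exact ⟨fun h => h.2, fun h => ⟨h ▸ hτ', h⟩⟩
  rw [h1, Finset.sum_mul, Finset.sum_congr rfl (fun τ _ => ncard_lifts_mul_card (L := L) τ),
    Finset.sum_const, smul_eq_mul, Set.ncard_eq_toFinset_card']

/-- **Crossing, `ε`-form for a subset.**  Same hypotheses as `one_sub_mul_ncard_lifts_le`: at
least the fraction `1 - ε` of the preimage of any `X₀ ⊆ Gal(M/ℚ)` in `Gal(M(ζ_m)/ℚ)` consists
of `σ` with `⟨σ⟩` faithful on `ζ_m`. -/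
theorem one_sub_mul_ncard_preimage_le {m : ℕ} (hm : m.Prime) {ζ : L}
    (hζ : IsPrimitiveRoot ζ m) (htop : Algebra.adjoin M {ζ} = ⊤) {j : ℕ} (hj : 1 ≤ j)
    (hmod : m ≡ 1 [MOD Nat.card (M ≃ₐ[ℚ] M) ^ j]) {ε : ℝ}
    (hε : ((Nat.card (M ≃ₐ[ℚ] M) * Nat.card (M ≃ₐ[ℚ] M) : ℕ) : ℝ) ≤ ε * 2 ^ j)
    (X₀ : Set (M ≃ₐ[ℚ] M)) :
    (1 - ε) * ({σ : L ≃ₐ[ℚ] L | σ.restrictNormal M ∈ X₀}.ncard : ℝ) ≤
      ({σ : L ≃ₐ[ℚ] L | σ.restrictNormal M ∈ X₀ ∧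
        ∀ x ∈ Subgroup.zpowers σ, x ζ = ζ → x = 1}.ncard : ℝ) := by
  classical
  have hA : {σ : L ≃ₐ[ℚ] L | σ.restrictNormal M ∈ X₀}.ncard =
      ∑ τ ∈ X₀.toFinset, {σ : L ≃ₐ[ℚ] L | σ.restrictNormal M = τ}.ncard := by
    have h2 : {σ : L ≃ₐ[ℚ] L | σ.restrictNormal M ∈ X₀}.ncard =
        (Finset.univ.filter (fun σ : L ≃ₐ[ℚ] L => σ.restrictNormal M ∈ X₀)).card := by
      rw [← Set.ncard_coe_finset]
      congr 1
      ext σ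
      simp
    rw [h2, Finset.card_eq_sum_card_fiberwise (f := fun σ : L ≃ₐ[ℚ] L => σ.restrictNormal M)
      (t := X₀.toFinset) (fun σ hσ => Set.mem_toFinset.2 (Finset.mem_filter.1 hσ).2)]
    refine Finset.sum_congr rfl fun τ hτ => ?_
    rw [← Set.ncard_coe_finset]
    congr 1
    ext σ
    have hτ' : τ ∈ X₀ := Set.mem_toFinset.1 hτ
    simp only [Finset.coe_filter, Finset.mem_filter, Finset.mem_univ, true_and, Set.mem_ofPred_eq]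
    exact ⟨fun h => h.2, fun h => ⟨h ▸ hτ', h⟩⟩
  have hB : {σ : L ≃ₐ[ℚ] L | σ.restrictNormal M ∈ X₀ ∧
        ∀ x ∈ Subgroup.zpowers σ, x ζ = ζ → x = 1}.ncard =
      ∑ τ ∈ X₀.toFinset, {σ : L ≃ₐ[ℚ] L | σ.restrictNormal M = τ ∧
        ∀ x ∈ Subgroup.zpowers σ, x ζ = ζ → x = 1}.ncard := by
    have h2 : {σ : L ≃ₐ[ℚ] L | σ.restrictNormal M ∈ X₀ ∧
        ∀ x ∈ Subgroup.zpowers σ, x ζ = ζ → x = 1}.ncard =
        (Finset.univ.filter (fun σ : L ≃ₐ[ℚ] L => σ.restrictNormal M ∈ X₀ ∧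
          ∀ x ∈ Subgroup.zpowers σ, x ζ = ζ → x = 1)).card := by
      rw [← Set.ncard_coe_finset]
      congr 1
      ext σ
      simp
    rw [h2, Finset.card_eq_sum_card_fiberwise (f := fun σ : L ≃ₐ[ℚ] L => σ.restrictNormal M)
      (t := X₀.toFinset) (fun σ hσ => Set.mem_toFinset.2 (Finset.mem_filter.1 hσ).2.1)]
    refine Finset.sum_congr rfl fun τ hτ => ?_
    rw [← Set.ncard_coe_finset]
    congr 1
    ext σ
    have hτ' : τ ∈ X₀ := Set.mem_toFinset.1 hτ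
    simp only [Finset.coe_filter, Finset.mem_filter, Finset.mem_univ, true_and, Set.mem_ofPred_eq]
    exact ⟨fun h => ⟨h.2, h.1.2⟩, fun h => ⟨⟨h.1 ▸ hτ', h.2⟩, h.1⟩⟩
  rw [hA, hB]
  push_cast
  rw [Finset.mul_sum]
  exact Finset.sum_le_sum fun τ _ => one_sub_mul_ncard_lifts_le hm hζ htop hj hmod hε τ

end Preimage

end Fermat.Agent.Lib.CycloCross
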