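import Mathlib.NumberTheory.NumberField.Cyclotomic.PID
import Mathlib.NumberTheory.NumberField.Cyclotomic.Ideal

set_option autoImplicit false

namespace Fermat.Agent.Lib.CycloPID

open NumberField Polynomial Ideal RingOfIntegers NumberField.Ideal IsCyclotomicExtension

variable {K : Type*} [Field K] [NumberField K]

/-- Kummer-Dedekind with explicit data: in the ring of integers of the `p`-th cyclotomic field
(`p` prime), if `Q` is a monic integer polynomial whose reduction mod `q` is an irreducible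
factor of the `p`-th cyclotomic polynomial mod `q`, and `α` generates the ideal `(q, Q(ζ))`
(witnessed by `β`, `γ`, `a`, `b`), then some prime over `q` is principal. -/
theorem exists_principal_primeOver (p q : ℕ) [hp : Fact p.Prime] [hq : Fact q.Prime]
    [IsCyclotomicExtension {p} ℚ K]
    (Q : ℤ[X]) (hQm : Q.Monic)
    (hQirr : Irreducible (Q.map (Int.castRingHom (ZMod q))))
    (hQdvd : Q.map (Int.castRingHom (ZMod q)) ∣ cyclotomic p (ZMod q))
    (α β γ a b : 𝓞 K)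
    (h1 : α * β = (q : 𝓞 K))
    (h2 : α * γ = aeval (zeta_spec p ℚ K).toInteger Q)
    (h3 : α = (q : 𝓞 K) * a + aeval (zeta_spec p ℚ K).toInteger Q * b) :
    ∃ P ∈ primesOver (span {(q : ℤ)}) (𝓞 K), Submodule.IsPrincipal P := by
  set θ := (zeta_spec p ℚ K).toInteger with hθ
  have hexp : ¬ q ∣ exponent θ := by
    rw [exponent_eq_one_iff.mpr <| Rat.adjoin_singleton_eq_top (zeta_spec p ℚ K)]
    exact hq.out.not_dvd_one
  have hmin : minpoly ℤ θ = cyclotomic p ℤ := by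
    rw [cyclotomic_eq_minpoly (zeta_spec p ℚ K) hp.out.pos, ← RingOfIntegers.minpoly_coe θ]
    rfl
  have hQmem : Q.map (Int.castRingHom (ZMod q)) ∈ monicFactorsMod θ q := by
    rw [Multiset.mem_toFinset,
      Polynomial.mem_normalizedFactors_iff (map_monic_ne_zero (minpoly.monic θ.isIntegral))]
    refine ⟨hQirr, hQm.map _, ?_⟩
    rw [hmin, map_cyclotomic_int]
    exact hQdvd
  refine ⟨_, ((primesOverSpanEquivMonicFactorsMod hexp).symm ⟨_, hQmem⟩).2, ?_⟩
  rw [primesOverSpanEquivMonicFactorsMod_symm_apply_eq_span hexp hQmem]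
  refine ⟨⟨α, ?_⟩⟩
  rw [Ideal.submodule_span_eq]
  apply le_antisymm
  · rw [Ideal.span_le]
    rintro x (rfl | rfl)
    · exact Ideal.mem_span_singleton.mpr ⟨β, h1.symm⟩
    · exact Ideal.mem_span_singleton.mpr ⟨γ, h2.symm⟩
  · rw [Ideal.span_singleton_le_iff_mem, h3]
    exact Ideal.add_mem _ (Ideal.mul_mem_right _ _ (Ideal.subset_span (by simp)))
      (Ideal.mul_mem_right _ _ (Ideal.subset_span (by simp)))

/-- Degree-one case of `exists_principal_primeOver`: `Q = X - r` with `r` a root of the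
`p`-th cyclotomic polynomial mod `q`. -/
theorem exists_principal_primeOver_linear (p q : ℕ) [hp : Fact p.Prime] [hq : Fact q.Prime]
    [IsCyclotomicExtension {p} ℚ K] (r : ℤ)
    (hr : (q : ℤ) ∣ (cyclotomic p ℤ).eval r)
    (α β γ a b : 𝓞 K)
    (h1 : α * β = (q : 𝓞 K))
    (h2 : α * γ = (zeta_spec p ℚ K).toInteger - (r : 𝓞 K))
    (h3 : α = (q : 𝓞 K) * a + ((zeta_spec p ℚ K).toInteger - (r : 𝓞 K)) * b) :
    ∃ P ∈ primesOver (span {(q : ℤ)}) (𝓞 K), Submodule.IsPrincipal P := by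
  have hmap : (X - C r : ℤ[X]).map (Int.castRingHom (ZMod q)) = X - C (r : ZMod q) := by
    simp
  have hav : aeval (zeta_spec p ℚ K).toInteger (X - C r : ℤ[X]) =
      (zeta_spec p ℚ K).toInteger - (r : 𝓞 K) := by
    simp
  refine exists_principal_primeOver p q (X - C r) (monic_X_sub_C r) ?_ ?_ α β γ a b h1 ?_ ?_
  · rw [hmap]; exact irreducible_X_sub_C _
  · rw [hmap, dvd_iff_isRoot, IsRoot.def, ← map_cyclotomic_int, eval_intCast_map,
      eq_intCast, Int.cast_id, ZMod.intCast_zmod_eq_zero_iff_dvd]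
    exact hr
  · rw [hav]; exact h2
  · rw [hav]; exact h3

/-- The unique prime over `p` in the `p`-th cyclotomic ring is principal. -/
theorem exists_principal_primeOver_self (p : ℕ) [hp : Fact p.Prime]
    [IsCyclotomicExtension {p} ℚ K] :
    ∃ P ∈ primesOver (span {(p : ℤ)}) (𝓞 K), Submodule.IsPrincipal P := by
  obtain ⟨⟨P, hP1, hP2⟩⟩ := (span {(p : ℤ)}).nonempty_primesOver (S := 𝓞 K)
  refine ⟨P, ⟨hP1, hP2⟩, ?_⟩
  rw [Rat.eq_span_zeta_sub_one_of_liesOver' p K (zeta_spec p ℚ K) P]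
  exact ⟨⟨_, rfl⟩⟩

/-- For a prime `q ≠ p`, every prime over `q` in the `p`-th cyclotomic ring has inertia degree
`o > 0` with `q ^ o ≡ 1 mod p`. -/
theorem exists_primeOver_inertiaDeg (p q : ℕ) [hp : Fact p.Prime] [hq : Fact q.Prime]
    [IsCyclotomicExtension {p} ℚ K] (hpq : q ≠ p) :
    ∃ P ∈ primesOver (span {(q : ℤ)}) (𝓞 K),
      0 < P.inertiaDeg ℤ ∧ q ^ (P.inertiaDeg ℤ) % p = 1 := by
  obtain ⟨⟨P, hP1, hP2⟩⟩ := (span {(q : ℤ)}).nonempty_primesOver (S := 𝓞 K)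
  refine ⟨P, ⟨hP1, hP2⟩, ?_⟩
  have : NeZero p := ⟨hp.out.ne_zero⟩
  have hnd : ¬ q ∣ p := fun h => hpq ((Nat.prime_dvd_prime_iff_eq hq.out hp.out).mp h)
  rw [Rat.inertiaDeg_eq_of_not_dvd (m := p) q K P hnd]
  have hne : ((q : ℕ) : ZMod p) ≠ 0 := by
    rw [Ne, ZMod.natCast_eq_zero_iff]
    exact fun h => hpq ((Nat.prime_dvd_prime_iff_eq hp.out hq.out).mp h).symm
  have hpow : ((q : ℕ) : ZMod p) ^ (p - 1) = 1 := ZMod.pow_card_sub_one_eq_one hne
  have hopos : 0 < orderOf ((q : ℕ) : ZMod p) :=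
    orderOf_pos_iff.mpr (isOfFinOrder_iff_pow_eq_one.mpr
      ⟨p - 1, Nat.sub_pos_of_lt hp.out.one_lt, hpow⟩)
  refine ⟨hopos, ?_⟩
  have h1 := pow_orderOf_eq_one ((q : ℕ) : ZMod p)
  rw [← Nat.cast_pow, ← Nat.cast_one, ZMod.natCast_eq_natCast_iff'] at h1
  rw [h1]
  exact Nat.mod_eq_of_lt hp.out.one_lt

end Fermat.Agent.Lib.CycloPID
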