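import Mathlib

set_option autoImplicit false

namespace Fermat.Agent.Lib.CycloPID11

open NumberField Polynomial InfinitePlace Nat Real Module Ideal

variable (K : Type*) [Field K] [NumberField K]

theorem minkowski_lt [IsCyclotomicExtension {11} ℚ K] :
    (4 / π) ^ nrComplexPlaces K *
      ((finrank ℚ K)! / (finrank ℚ K) ^ (finrank ℚ K) * √|discr K|) < 60 := by
  have : Fact (Nat.Prime 11) := ⟨by norm_num⟩
  rw [IsCyclotomicExtension.Rat.discr_prime 11 K, IsCyclotomicExtension.finrank (n := 11) K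
    (cyclotomic.irreducible_rat (by simp)),
    IsCyclotomicExtension.Rat.nrComplexPlaces_eq_totient_div_two 11,
    totient_prime (by norm_num)]
  have h10 : (10 : ℕ)! = 3628800 := by decide
  have hsq : √|((-1 : ℤ) ^ ((11 - 1) / 2) * (11 : ℕ) ^ (11 - 2) : ℤ)| < 48559 := by
    rw [Real.sqrt_lt' (by norm_num)]
    norm_num
  have hpi : (4 / π) < 4 / 3.14 := by
    apply div_lt_div_of_pos_left (by norm_num) (by norm_num) Real.pi_gt_d2
  have hpos : (0 : ℝ) < 4 / π := by positivity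
  have h5 : (4 / π) ^ 5 < (4 / 3.14) ^ 5 := by gcongr
  have key : (4 / π) ^ 5 * ((3628800 : ℝ) / 10 ^ 10 *
      √|((-1 : ℤ) ^ ((11 - 1) / 2) * (11 : ℕ) ^ (11 - 2) : ℤ)|) < 60 := by
    calc _ < (4 / 3.14) ^ 5 * ((3628800 : ℝ) / 10 ^ 10 * 48559) := by gcongr
      _ < 60 := by norm_num
  have e1 : (11 - 1) / 2 = 5 := by norm_num
  have e2 : (11 - 1 : ℕ) = 10 := by norm_num
  rw [e1, e2, h10]
  norm_num at key ⊢
  exact key

theorem sixty_le_pow_orderOf {p : ℕ} (hp : p.Prime) (hp60 : p < 60) (h11 : p ≠ 11)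
    (h23 : p ≠ 23) : 60 ≤ p ^ orderOf (p : ZMod 11) := by
  have h1 : (p : ZMod 11) ^ orderOf (p : ZMod 11) = 1 := pow_orderOf_eq_one _
  have hfpos : 0 < orderOf (p : ZMod 11) := by
    have : Fact (Nat.Prime 11) := ⟨by norm_num⟩
    apply orderOf_pos_iff.mpr
    rw [isOfFinOrder_iff_pow_eq_one]
    refine ⟨10, by norm_num, ?_⟩
    have hne : (p : ZMod 11) ≠ 0 := by
      rw [Ne, ZMod.natCast_eq_zero_iff]
      intro h
      exact h11 ((Nat.prime_dvd_prime_iff_eq (by norm_num) hp).mp h).symm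
    exact ZMod.pow_card_sub_one_eq_one hne
  by_contra hlt
  have hf5 : orderOf (p : ZMod 11) ≤ 5 := by
    by_contra h6
    have h6' : 6 ≤ orderOf (p : ZMod 11) := by omega
    have : 2 ^ 6 ≤ p ^ orderOf (p : ZMod 11) :=
      (Nat.pow_le_pow_right (by norm_num) h6').trans (Nat.pow_le_pow_left hp.two_le _)
    omega
  generalize orderOf (p : ZMod 11) = f at h1 hfpos hlt hf5
  interval_cases p <;> first
    | (exfalso; revert hp; decide)
    | (exfalso; exact h11 rfl)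
    | (exfalso; exact h23 rfl)
    | (interval_cases f <;> first
        | (exfalso; revert hlt; decide)
        | (exfalso; revert h1; decide))

theorem geom_sum_four_zmod23 : ∑ x ∈ Finset.range 11, (4 : ZMod 23) ^ x = 0 := by
  decide

theorem exists_principal_prime_over_23 [IsCyclotomicExtension {11} ℚ K] :
    ∃ P ∈ primesOver (span {((23 : ℕ) : ℤ)}) (𝓞 K), Submodule.IsPrincipal P := by
  have : Fact (Nat.Prime 11) := ⟨by norm_num⟩
  have : Fact (Nat.Prime 23) := ⟨by norm_num⟩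
  have hζ := IsCyclotomicExtension.zeta_spec 11 ℚ K
  set ζ : 𝓞 K := hζ.toInteger with hζdef
  have hζ' : IsPrimitiveRoot ζ 11 := hζ.toInteger_isPrimitiveRoot
  have hΦ : 1 + ζ + ζ ^ 2 + ζ ^ 3 + ζ ^ 4 + ζ ^ 5 + ζ ^ 6 + ζ ^ 7 + ζ ^ 8 + ζ ^ 9 + ζ ^ 10 = 0 := by
    have := hζ'.geom_sum_eq_zero (by norm_num)
    simpa [Finset.sum_range_succ] using this
  have h₁ : ¬ 23 ∣ RingOfIntegers.exponent ζ := by
    rw [RingOfIntegers.exponent_eq_one_iff.mpr <|
      IsCyclotomicExtension.Rat.adjoin_singleton_eq_top hζ]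
    norm_num
  have hQ : (X - C (4 : ℤ)).map (Int.castRingHom (ZMod 23)) ∈
      RingOfIntegers.monicFactorsMod ζ 23 := by
    rw [Multiset.mem_toFinset, Polynomial.mem_normalizedFactors_iff
      (map_monic_ne_zero (minpoly.monic ζ.isIntegral))]
    have hmap : (X - C (4 : ℤ)).map (Int.castRingHom (ZMod 23)) = X - C (4 : ZMod 23) := by
      rw [Polynomial.map_sub, Polynomial.map_X, Polynomial.map_C, eq_intCast, Int.cast_ofNat]
    rw [hmap]
    refine ⟨irreducible_X_sub_C _, monic_X_sub_C _, ?_⟩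
    have hmin : minpoly ℤ ζ = cyclotomic 11 ℤ := by
      rw [cyclotomic_eq_minpoly hζ (by norm_num), ← RingOfIntegers.minpoly_coe ζ]
      rfl
    rw [hmin, map_cyclotomic_int, dvd_iff_isRoot, IsRoot.def, cyclotomic_prime, eval_finsetSum]
    simp only [eval_pow, eval_X]
    exact geom_sum_four_zmod23
  refine ⟨span {((23 : ℕ) : 𝓞 K), aeval ζ (X - C (4 : ℤ))}, ?_, ?_⟩
  · rw [← NumberField.Ideal.primesOverSpanEquivMonicFactorsMod_symm_apply_eq_span h₁ hQ]
    exact ((NumberField.Ideal.primesOverSpanEquivMonicFactorsMod h₁).symm ⟨_, hQ⟩).prop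
  · have hspan : span {((23 : ℕ) : 𝓞 K), aeval ζ (X - C (4 : ℤ))} = span {1 + ζ + ζ ^ 3} := by
      have haev : aeval ζ (X - C (4 : ℤ)) = ζ - 4 := by
        rw [map_sub, aeval_X, aeval_C, eq_intCast, Int.cast_ofNat]
      rw [haev]
      apply le_antisymm
      · rw [span_le]
        intro x hx
        rcases hx with rfl | rfl
        · rw [SetLike.mem_coe, mem_span_singleton]
          refine ⟨(-2) + (-14) * ζ + (-17) * ζ ^ 2 + (-12) * ζ ^ 3 + (-5) * ζ ^ 4 + (-9) * ζ ^ 5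
            + (-10) * ζ ^ 6 + (-16) * ζ ^ 7 + (-6) * ζ ^ 8 + (-15) * ζ ^ 9, ?_⟩
          push_cast
          linear_combination (-((-25) + 9 * ζ + (-15) * ζ ^ 2)) * hΦ
        · rw [SetLike.mem_coe, mem_span_singleton]
          refine ⟨1 + 3 * ζ + 3 * ζ ^ 2 + 2 * ζ ^ 3 + ζ ^ 4 + 2 * ζ ^ 5 + 2 * ζ ^ 6 + 3 * ζ ^ 7
            + ζ ^ 8 + 3 * ζ ^ 9, ?_⟩
          linear_combination (-(5 + (-2) * ζ + 3 * ζ ^ 2)) * hΦ
      · rw [span_singleton_le_iff_mem, mem_span_pair]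
        refine ⟨3, ζ ^ 2 + 4 * ζ + 17, ?_⟩
        push_cast
        ring
    rw [hspan]
    exact ⟨_, rfl⟩

theorem eleven_pid [IsCyclotomicExtension {11} ℚ K] : IsPrincipalIdealRing (𝓞 K) := by
  have : Fact (Nat.Prime 11) := ⟨by norm_num⟩
  have : IsGalois ℚ K := IsCyclotomicExtension.isGalois {11} ℚ K
  have hM : ⌊(4 / π) ^ nrComplexPlaces K *
      ((finrank ℚ K)! / (finrank ℚ K) ^ (finrank ℚ K) * √|discr K|)⌋₊ < 60 := by
    apply (Nat.floor_lt (by positivity)).mpr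
    exact_mod_cast minkowski_lt K
  apply RingOfIntegers.isPrincipalIdealRing_of_isPrincipal_of_lt_or_isPrincipal_of_mem_primesOver_of_mem_Icc
  intro p hp hpp
  have hp60 : p < 60 := lt_of_le_of_lt (Finset.mem_Icc.mp hp).2 hM
  have : Fact p.Prime := ⟨hpp⟩
  by_cases h11 : p = 11
  · subst h11
    obtain ⟨⟨P, hP1, hP2⟩⟩ := (span {((11 : ℕ) : ℤ)}).nonempty_primesOver (S := 𝓞 K)
    refine ⟨P, ⟨hP1, hP2⟩, Or.inr ?_⟩
    rw [IsCyclotomicExtension.Rat.eq_span_zeta_sub_one_of_liesOver' 11 K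
      (IsCyclotomicExtension.zeta_spec 11 ℚ K) P]
    exact ⟨_, rfl⟩
  by_cases h23 : p = 23
  · subst h23
    obtain ⟨P, hP, hprin⟩ := exists_principal_prime_over_23 K
    exact ⟨P, hP, Or.inr hprin⟩
  · obtain ⟨⟨P, hP1, hP2⟩⟩ := (span {(p : ℤ)}).nonempty_primesOver (S := 𝓞 K)
    refine ⟨P, ⟨hP1, hP2⟩, Or.inl ?_⟩
    have hnd : ¬ p ∣ 11 := by
      intro h
      exact h11 ((Nat.prime_dvd_prime_iff_eq hpp (by norm_num)).mp h)
    rw [IsCyclotomicExtension.Rat.inertiaDeg_eq_of_not_dvd p K P hnd]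
    exact lt_of_lt_of_le hM (sixty_le_pow_orderOf hpp hp60 h11 h23)

end Fermat.Agent.Lib.CycloPID11
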