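import Fermat.Agent.Lib.CycloPID
import Mathlib.Algebra.Polynomial.SpecificDegree
import Mathlib.Tactic.NormNum.Prime
import Mathlib.Tactic.LinearCombination
import Mathlib.Tactic.IntervalCases
import Mathlib.Tactic.ComputeDegree

set_option autoImplicit false

namespace Fermat.Agent.Lib.CycloPID13

open NumberField Polynomial Ideal RingOfIntegers NumberField.Ideal IsCyclotomicExtension
open Fermat.Agent.Lib.CycloPID

variable {K : Type*} [Field K] [NumberField K]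

theorem geom13 [IsCyclotomicExtension {13} ℚ K] (θ : 𝓞 K)
    (hθ : θ = (zeta_spec 13 ℚ K).toInteger) :
    1 + θ + θ ^ 2 + θ ^ 3 + θ ^ 4 + θ ^ 5 + θ ^ 6 + θ ^ 7 + θ ^ 8 + θ ^ 9 + θ ^ 10 + θ ^ 11 + θ ^ 12 = 0 := by
  subst hθ
  have h := (zeta_spec 13 ℚ K).toInteger_isPrimitiveRoot.geom_sum_eq_zero (by norm_num)
  simpa [Finset.sum_range_succ] using h

theorem principal_53 [IsCyclotomicExtension {13} ℚ K] :
    ∃ P ∈ primesOver (span {((53 : ℕ) : ℤ)}) (𝓞 K), Submodule.IsPrincipal P := by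
  have : Fact (Nat.Prime 13) := ⟨by norm_num⟩
  have : Fact (Nat.Prime 53) := ⟨by norm_num⟩
  obtain ⟨θ, hθ⟩ : ∃ θ : 𝓞 K, θ = (zeta_spec 13 ℚ K).toInteger := ⟨_, rfl⟩
  have hΦ := geom13 θ hθ
  refine exists_principal_primeOver_linear 13 53 36 ?_
    (1 + θ + θ ^ 3)
    (1 - 24 * θ - 35 * θ ^ 2 - 25 * θ ^ 3 - 10 * θ ^ 4 - 14 * θ ^ 5 - 20 * θ ^ 6 - 29 * θ ^ 7 - 16 * θ ^ 8 - 23 * θ ^ 9 - 7 * θ ^ 10 - 36 * θ ^ 11)
    (17 * θ + 24 * θ ^ 2 + 17 * θ ^ 3 + 7 * θ ^ 4 + 10 * θ ^ 5 + 14 * θ ^ 6 + 20 * θ ^ 7 + 11 * θ ^ 8 + 16 * θ ^ 9 + 5 * θ ^ 10 + 25 * θ ^ 11)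
    (881) (1297 + 36 * θ + θ ^ 2) ?_ ?_ ?_
  · rw [cyclotomic_prime]
    simp only [Finset.sum_range_succ, Finset.sum_range_zero, eval_add, eval_pow, eval_X,
      eval_zero]
    decide
  · push_cast
    linear_combination (-52 + 29 * θ - 36 * θ ^ 2) * hΦ
  · rw [← hθ]; push_cast
    linear_combination (36 - 20 * θ + 25 * θ ^ 2) * hΦ
  · rw [← hθ]; push_cast; ring

theorem principal_79 [IsCyclotomicExtension {13} ℚ K] :
    ∃ P ∈ primesOver (span {((79 : ℕ) : ℤ)}) (𝓞 K), Submodule.IsPrincipal P := by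
  have : Fact (Nat.Prime 13) := ⟨by norm_num⟩
  have : Fact (Nat.Prime 79) := ⟨by norm_num⟩
  obtain ⟨θ, hθ⟩ : ∃ θ : 𝓞 K, θ = (zeta_spec 13 ℚ K).toInteger := ⟨_, rfl⟩
  have hΦ := geom13 θ hθ
  refine exists_principal_primeOver_linear 13 79 64 ?_
    (1 + θ - θ ^ 4)
    (24 - 25 * θ - 27 * θ ^ 2 + 10 * θ ^ 3 - 3 * θ ^ 4 - 39 * θ ^ 5 - 5 * θ ^ 6 - 2 * θ ^ 7 - 18 * θ ^ 8 - 38 * θ ^ 9 + 16 * θ ^ 10 - 35 * θ ^ 11)
    (-19 + 21 * θ + 22 * θ ^ 2 - 8 * θ ^ 3 + 3 * θ ^ 4 + 32 * θ ^ 5 + 4 * θ ^ 6 + 2 * θ ^ 7 + 15 * θ ^ 8 + 31 * θ ^ 9 - 13 * θ ^ 10 + 29 * θ ^ 11)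
    (-212369) (-262143 - 4096 * θ - 64 * θ ^ 2 - θ ^ 3) ?_ ?_ ?_
  · rw [cyclotomic_prime]
    simp only [Finset.sum_range_succ, Finset.sum_range_zero, eval_add, eval_pow, eval_X,
      eval_zero]
    decide
  · push_cast
    linear_combination (-55 + 54 * θ - 51 * θ ^ 2 + 35 * θ ^ 3) * hΦ
  · rw [← hθ]; push_cast
    linear_combination (45 - 44 * θ + 42 * θ ^ 2 - 29 * θ ^ 3) * hΦ
  · rw [← hθ]; push_cast; ring

theorem principal_131 [IsCyclotomicExtension {13} ℚ K] :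
    ∃ P ∈ primesOver (span {((131 : ℕ) : ℤ)}) (𝓞 K), Submodule.IsPrincipal P := by
  have : Fact (Nat.Prime 13) := ⟨by norm_num⟩
  have : Fact (Nat.Prime 131) := ⟨by norm_num⟩
  obtain ⟨θ, hθ⟩ : ∃ θ : 𝓞 K, θ = (zeta_spec 13 ℚ K).toInteger := ⟨_, rfl⟩
  have hΦ := geom13 θ hθ
  refine exists_principal_primeOver_linear 13 131 80 ?_
    (1 - θ - θ ^ 3)
    (111 + 78 * θ + 17 * θ ^ 2 + 67 * θ ^ 3 + 84 * θ ^ 4 + 40 * θ ^ 5 + 46 * θ ^ 6 + 69 * θ ^ 7 + 48 * θ ^ 8 + 33 * θ ^ 9 + 41 * θ ^ 10 + 28 * θ ^ 11)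
    (-68 - 47 * θ - 10 * θ ^ 2 - 41 * θ ^ 3 - 51 * θ ^ 4 - 24 * θ ^ 5 - 28 * θ ^ 6 - 42 * θ ^ 7 - 29 * θ ^ 8 - 20 * θ ^ 9 - 25 * θ ^ 10 - 17 * θ ^ 11)
    (-3909) (-6401 - 80 * θ - θ ^ 2) ?_ ?_ ?_
  · rw [cyclotomic_prime]
    simp only [Finset.sum_range_succ, Finset.sum_range_zero, eval_add, eval_pow, eval_X,
      eval_zero]
    decide
  · push_cast
    linear_combination (-20 - 13 * θ - 28 * θ ^ 2) * hΦ
  · rw [← hθ]; push_cast
    linear_combination (12 + 8 * θ + 17 * θ ^ 2) * hΦ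
  · rw [← hθ]; push_cast; ring

theorem principal_157 [IsCyclotomicExtension {13} ℚ K] :
    ∃ P ∈ primesOver (span {((157 : ℕ) : ℤ)}) (𝓞 K), Submodule.IsPrincipal P := by
  have : Fact (Nat.Prime 13) := ⟨by norm_num⟩
  have : Fact (Nat.Prime 157) := ⟨by norm_num⟩
  obtain ⟨θ, hθ⟩ : ∃ θ : 𝓞 K, θ = (zeta_spec 13 ℚ K).toInteger := ⟨_, rfl⟩
  have hΦ := geom13 θ hθ
  refine exists_principal_primeOver_linear 13 157 75 ?_
    (1 - θ + θ ^ 2 + θ ^ 4)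
    (89 + 86 * θ + 42 * θ ^ 2 + 77 * θ ^ 3 + 67 * θ ^ 4 + 25 * θ ^ 5 + 37 * θ ^ 6 + 56 * θ ^ 7 + 73 * θ ^ 8 + 113 * θ ^ 9 + 124 * θ ^ 10 + 76 * θ ^ 11)
    (-43 - 41 * θ - 20 * θ ^ 2 - 37 * θ ^ 3 - 32 * θ ^ 4 - 12 * θ ^ 5 - 18 * θ ^ 6 - 27 * θ ^ 7 - 35 * θ ^ 8 - 54 * θ ^ 9 - 59 * θ ^ 10 - 36 * θ ^ 11)
    (201568) (421949 + 5626 * θ + 75 * θ ^ 2 + θ ^ 3) ?_ ?_ ?_
  · rw [cyclotomic_prime]
    simp only [Finset.sum_range_succ, Finset.sum_range_zero, eval_add, eval_pow, eval_X,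
      eval_zero]
    decide
  · push_cast
    linear_combination (-68 + 65 * θ + 48 * θ ^ 2 + 76 * θ ^ 3) * hΦ
  · rw [← hθ]; push_cast
    linear_combination (32 - 31 * θ - 23 * θ ^ 2 - 36 * θ ^ 3) * hΦ
  · rw [← hθ]; push_cast; ring

theorem principal_3 [IsCyclotomicExtension {13} ℚ K] :
    ∃ P ∈ primesOver (span {((3 : ℕ) : ℤ)}) (𝓞 K), Submodule.IsPrincipal P := by
  have : Fact (Nat.Prime 13) := ⟨by norm_num⟩
  obtain ⟨θ, hθ⟩ : ∃ θ : 𝓞 K, θ = (zeta_spec 13 ℚ K).toInteger := ⟨_, rfl⟩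
  have hΦ := geom13 θ hθ
  have hQ : (X ^ 3 - X - 1 : ℤ[X]) = X ^ 3 - (X + C 1) := by simp [sub_sub]
  have hQm : (X ^ 3 - X - 1 : ℤ[X]).Monic := by
    rw [hQ]
    exact monic_X_pow_sub (by rw [degree_X_add_C]; norm_num)
  have hmap : (X ^ 3 - X - 1 : ℤ[X]).map (Int.castRingHom (ZMod 3)) = X ^ 3 - X - 1 := by
    simp
  have hav : aeval (zeta_spec 13 ℚ K).toInteger (X ^ 3 - X - 1 : ℤ[X]) = θ ^ 3 - θ - 1 := by
    rw [← hθ]; simp
  refine exists_principal_primeOver 13 3 (X ^ 3 - X - 1) hQm ?_ ?_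
    (1 + θ - θ ^ 3)
    (-1 - θ ^ 2 - θ ^ 3 - 2 * θ ^ 5 - θ ^ 7 - 2 * θ ^ 8 + θ ^ 9 - 3 * θ ^ 10)
    (-1) 0 (-1) ?_ ?_ ?_
  · rw [hmap]
    apply irreducible_of_degree_le_three_of_not_isRoot
    · have : (X ^ 3 - X - 1 : (ZMod 3)[X]).natDegree = 3 := by compute_degree!
      rw [this]; decide
    · intro x
      simp only [IsRoot.def, eval_sub, eval_pow, eval_X, eval_one]
      revert x; decide
  · have hid : cyclotomic 13 ℤ = (X ^ 3 - X - 1) *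
        (X ^ 9 + X ^ 8 + 2 * X ^ 7 + 3 * X ^ 6 + 4 * X ^ 5 + 6 * X ^ 4 + 8 * X ^ 3 + 11 * X ^ 2
          + 15 * X + 20) + C 3 * (9 * X ^ 2 + 12 * X + 7) := by
      rw [cyclotomic_prime]
      simp only [Finset.sum_range_succ, Finset.sum_range_zero, map_ofNat]
      ring
    rw [← map_cyclotomic_int, hid, Polynomial.map_add, Polynomial.map_mul, Polynomial.map_mul,
      map_C, hmap]
    have h3 : (Int.castRingHom (ZMod 3)) 3 = 0 := by decide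
    rw [h3, map_zero, zero_mul, add_zero]
    exact Dvd.intro _ rfl
  · push_cast
    linear_combination (-4 + 3 * θ) * hΦ
  · rw [hav]; ring
  · rw [hav]; ring

open Real InfinitePlace Module Nat in
theorem minkowski13_le [IsCyclotomicExtension {13} ℚ K] :
    ⌊(4 / π) ^ nrComplexPlaces K *
      ((finrank ℚ K)! / (finrank ℚ K) ^ (finrank ℚ K) * √|(discr K : ℝ)|)⌋₊ ≤ 306 := by
  have : Fact (Nat.Prime 13) := ⟨by norm_num⟩
  rw [Rat.discr_prime 13 K, IsCyclotomicExtension.finrank (n := 13) K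
    (cyclotomic.irreducible_rat (by norm_num)), Rat.nrComplexPlaces_eq_totient_div_two 13,
    Nat.totient_prime (by norm_num : Nat.Prime 13)]
  have hfact : (12 ! : ℝ) = 479001600 := by
    have : (12 ! : ℕ) = 479001600 := by decide
    rw [this]; norm_num
  have hsq : √|(((-1 : ℤ) ^ ((13 - 1) / 2) * (13 : ℕ) ^ (13 - 2) : ℤ) : ℝ)| < 1338800 := by
    rw [Real.sqrt_lt' (by norm_num)]
    norm_num
  have hpi : (4 : ℝ) / π < 4 / 3.1415 := by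
    apply div_lt_div_of_pos_left (by norm_num) (by norm_num) pi_gt_d4
  have hpi0 : (0 : ℝ) ≤ 4 / π := by positivity
  have hlt : (4 / π) ^ ((13 - 1) / 2) *
      (((13 - 1 : ℕ) ! : ℝ) / ((13 - 1 : ℕ) : ℝ) ^ (13 - 1) *
        √|(((-1 : ℤ) ^ ((13 - 1) / 2) * (13 : ℕ) ^ (13 - 2) : ℤ) : ℝ)|) < 307 := by
    have e1 : (13 - 1) / 2 = 6 := by norm_num
    have e2 : (13 - 1 : ℕ) = 12 := by norm_num
    rw [e1, e2, hfact]
    calc (4 / π) ^ 6 * ((479001600 : ℝ) / ((12 : ℕ) : ℝ) ^ 12 *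
          √|(((-1 : ℤ) ^ 6 * (13 : ℕ) ^ (13 - 2) : ℤ) : ℝ)|)
        ≤ (4 / 3.1415) ^ 6 * ((479001600 : ℝ) / ((12 : ℕ) : ℝ) ^ 12 * 1338800) := by
          rw [e1] at hsq
          gcongr
      _ < 307 := by norm_num
  exact Nat.lt_succ_iff.mp ((Nat.floor_lt (by positivity)).mpr hlt)

theorem key13 (p o : ℕ) (hp : p.Prime) (ho : 0 < o) (hmod : p ^ o % 13 = 1)
    (hle : p ^ o ≤ 306) : p = 3 ∨ p = 53 ∨ p = 79 ∨ p = 131 ∨ p = 157 := by
  have hp2 : 2 ≤ p := hp.two_le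
  have hpo : p ≤ p ^ o := Nat.le_self_pow ho.ne' p
  rcases Nat.lt_or_ge o 2 with ho2 | ho2
  · have ho1 : o = 1 := by omega
    subst ho1
    rw [pow_one] at hmod hle
    interval_cases p <;> first | omega | (exfalso; revert hp; norm_num)
  · have hsq : p ^ 2 ≤ 306 := (Nat.pow_le_pow_right (by omega) ho2).trans hle
    have hpsq : p ≤ 17 := by nlinarith
    have ho9 : o < 9 := by
      by_contra h
      have : 2 ^ 9 ≤ p ^ o :=
        (Nat.pow_le_pow_left hp2 9).trans (Nat.pow_le_pow_right (by omega) (by omega))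
      omega
    interval_cases p <;> first
      | (exfalso; revert hp; norm_num; done)
      | (interval_cases o <;> omega)

/-- The ring of integers of the `13`-th cyclotomic field is a principal ideal domain. -/
theorem thirteen_pid (K : Type*) [Field K] [NumberField K] [IsCyclotomicExtension {13} ℚ K] :
    IsPrincipalIdealRing (𝓞 K) := by
  have : Fact (Nat.Prime 13) := ⟨by norm_num⟩
  have : IsGalois ℚ K := IsCyclotomicExtension.isGalois {13} ℚ K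
  apply RingOfIntegers.isPrincipalIdealRing_of_isPrincipal_of_lt_or_isPrincipal_of_mem_primesOver_of_mem_Icc
  intro q hq hqprime
  have hM := minkowski13_le (K := K)
  have : Fact q.Prime := ⟨hqprime⟩
  by_cases hself : q = 13
  · subst hself
    obtain ⟨P, hP, hPp⟩ := exists_principal_primeOver_self (K := K) 13
    exact ⟨P, hP, Or.inr hPp⟩
  by_cases hsp : q = 3 ∨ q = 53 ∨ q = 79 ∨ q = 131 ∨ q = 157
  · rcases hsp with rfl | rfl | rfl | rfl | rfl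
    · obtain ⟨P, hP, hPp⟩ := principal_3 (K := K); exact ⟨P, hP, Or.inr hPp⟩
    · obtain ⟨P, hP, hPp⟩ := principal_53 (K := K); exact ⟨P, hP, Or.inr hPp⟩
    · obtain ⟨P, hP, hPp⟩ := principal_79 (K := K); exact ⟨P, hP, Or.inr hPp⟩
    · obtain ⟨P, hP, hPp⟩ := principal_131 (K := K); exact ⟨P, hP, Or.inr hPp⟩
    · obtain ⟨P, hP, hPp⟩ := principal_157 (K := K); exact ⟨P, hP, Or.inr hPp⟩
  · obtain ⟨P, hP, hpos, hmod⟩ := exists_primeOver_inertiaDeg (K := K) 13 q hself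
    refine ⟨P, hP, Or.inl ?_⟩
    by_contra hle
    rw [not_lt] at hle
    exact hsp (key13 q _ hqprime hpos hmod (hle.trans hM))

end Fermat.Agent.Lib.CycloPID13
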