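import Fermat.Agent.Lib.CycloPID
import Mathlib.Algebra.Polynomial.SpecificDegree
import Mathlib.Tactic.NormNum.Prime
import Mathlib.Tactic.LinearCombination
import Mathlib.Tactic.IntervalCases
import Mathlib.Tactic.ComputeDegree

set_option autoImplicit false

namespace Fermat.Agent.Lib.CycloPID7

open NumberField Polynomial Ideal RingOfIntegers NumberField.Ideal IsCyclotomicExtension
open Fermat.Agent.Lib.CycloPID

variable {K : Type*} [Field K] [NumberField K]

open Real InfinitePlace Module Nat in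
theorem minkowski7_le [IsCyclotomicExtension {7} ℚ K] :
    ⌊(4 / π) ^ nrComplexPlaces K *
      ((finrank ℚ K)! / (finrank ℚ K) ^ (finrank ℚ K) * √|(discr K : ℝ)|)⌋₊ ≤ 4 := by
  have : Fact (Nat.Prime 7) := ⟨by norm_num⟩
  rw [Rat.discr_prime 7 K, IsCyclotomicExtension.finrank (n := 7) K
    (cyclotomic.irreducible_rat (by norm_num)), Rat.nrComplexPlaces_eq_totient_div_two 7,
    Nat.totient_prime (by norm_num : Nat.Prime 7)]
  have hfact : (6 ! : ℝ) = 720 := by
    have : (6 ! : ℕ) = 720 := by decide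
    rw [this]; norm_num
  have hsq : √|(((-1 : ℤ) ^ ((7 - 1) / 2) * (7 : ℕ) ^ (7 - 2) : ℤ) : ℝ)| < 130 := by
    rw [Real.sqrt_lt' (by norm_num)]
    norm_num
  have hpi : (4 : ℝ) / π < 4 / 3 := by
    apply div_lt_div_of_pos_left (by norm_num) (by norm_num) pi_gt_three
  have hpi0 : (0 : ℝ) ≤ 4 / π := by positivity
  have hlt : (4 / π) ^ ((7 - 1) / 2) *
      (((7 - 1 : ℕ) ! : ℝ) / ((7 - 1 : ℕ) : ℝ) ^ (7 - 1) *
        √|(((-1 : ℤ) ^ ((7 - 1) / 2) * (7 : ℕ) ^ (7 - 2) : ℤ) : ℝ)|) < 5 := by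
    have e1 : (7 - 1) / 2 = 3 := by norm_num
    have e2 : (7 - 1 : ℕ) = 6 := by norm_num
    rw [e1, e2, hfact]
    calc (4 / π) ^ 3 * ((720 : ℝ) / ((6 : ℕ) : ℝ) ^ 6 *
          √|(((-1 : ℤ) ^ 3 * (7 : ℕ) ^ (7 - 2) : ℤ) : ℝ)|)
        ≤ (4 / 3) ^ 3 * ((720 : ℝ) / ((6 : ℕ) : ℝ) ^ 6 * 130) := by
          rw [e1] at hsq
          gcongr
      _ < 5 := by norm_num
  exact Nat.lt_succ_iff.mp ((Nat.floor_lt (by positivity)).mpr hlt)

theorem key7 (p o : ℕ) (hp : p.Prime) (ho : 0 < o) (hmod : p ^ o % 7 = 1)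
    (hle : p ^ o ≤ 4) : False := by
  have hp2 : 2 ≤ p := hp.two_le
  have hpo : p ≤ p ^ o := Nat.le_self_pow ho.ne' p
  rcases Nat.lt_or_ge o 2 with ho2 | ho2
  · have ho1 : o = 1 := by omega
    subst ho1
    rw [pow_one] at hmod hle
    interval_cases p <;> first | omega | (exfalso; revert hp; norm_num)
  · have hsq : p ^ 2 ≤ 4 := (Nat.pow_le_pow_right (by omega) ho2).trans hle
    have hpsq : p ≤ 2 := by nlinarith
    have ho9 : o < 3 := by
      by_contra h
      have : 2 ^ 3 ≤ p ^ o :=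
        (Nat.pow_le_pow_left hp2 3).trans (Nat.pow_le_pow_right (by omega) (by omega))
      omega
    interval_cases p <;> first
      | (exfalso; revert hp; norm_num; done)
      | (interval_cases o <;> omega)

/-- The ring of integers of the `7`-th cyclotomic field is a principal ideal domain. -/
theorem seven_pid (K : Type*) [Field K] [NumberField K] [IsCyclotomicExtension {7} ℚ K] :
    IsPrincipalIdealRing (𝓞 K) := by
  have : Fact (Nat.Prime 7) := ⟨by norm_num⟩
  have : IsGalois ℚ K := IsCyclotomicExtension.isGalois {7} ℚ K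
  apply RingOfIntegers.isPrincipalIdealRing_of_isPrincipal_of_lt_or_isPrincipal_of_mem_primesOver_of_mem_Icc
  intro q hq hqprime
  have hM := minkowski7_le (K := K)
  have : Fact q.Prime := ⟨hqprime⟩
  by_cases hself : q = 7
  · subst hself
    obtain ⟨P, hP, hPp⟩ := exists_principal_primeOver_self (K := K) 7
    exact ⟨P, hP, Or.inr hPp⟩
  obtain ⟨P, hP, hpos, hmod⟩ := exists_primeOver_inertiaDeg (K := K) 7 q hself
  refine ⟨P, hP, Or.inl ?_⟩
  by_contra hle
  rw [not_lt] at hle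
  exact key7 q _ hqprime hpos hmod (hle.trans hM)

end Fermat.Agent.Lib.CycloPID7
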