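import Mathlib

/-!
# The adic completion of a discrete valuation ring

For a discrete valuation ring `R`, Mathlib's `AdicCompletion (maximalIdeal R) R` is a local ring,
adically complete with respect to its maximal ideal, with the same residue field.  We add that it
is a domain, a discrete valuation ring, that `R` embeds into it, and (when applicable) that it has
characteristic zero and finite residue field.
-/

set_option autoImplicit false

namespace Fermat.Agent.Lib.DVRCompletion

open IsLocalRing

variable (R : Type*) [CommRing R] [IsDomain R] [IsDiscreteValuationRing R]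

/-- The completion of the discrete valuation ring `R`. -/
abbrev Compl : Type _ := AdicCompletion (maximalIdeal R) R

theorem algebraMap_injective : Function.Injective (algebraMap R (Compl R)) := by
  have h : Function.Injective (AdicCompletion.of (maximalIdeal R) R) :=
    AdicCompletion.of_injective (maximalIdeal R) R
  intro x y hxy
  exact h hxy

theorem maximalIdeal_eq_span {ϖ : R} (hϖ : Irreducible ϖ) :
    maximalIdeal (Compl R) = Ideal.span {algebraMap R (Compl R) ϖ} := by
  rw [AdicCompletion.maximalIdeal_eq_map]
  have h := (IsDiscreteValuationRing.irreducible_iff_uniformizer ϖ).mp hϖ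
  apply le_antisymm
  · rw [Ideal.map_le_iff_le_comap]
    intro a ha
    rw [h, Ideal.mem_span_singleton] at ha
    obtain ⟨c, rfl⟩ := ha
    rw [Ideal.mem_comap, map_mul]
    exact Ideal.mul_mem_right _ _ (Ideal.mem_span_singleton_self _)
  · rw [Ideal.span_le, Set.singleton_subset_iff]
    refine Ideal.mem_map_of_mem _ ?_
    rw [h]
    exact Ideal.mem_span_singleton_self ϖ

theorem pow_ne_zero_compl {ϖ : R} (hϖ : Irreducible ϖ) (n : ℕ) :
    algebraMap R (Compl R) ϖ ^ n ≠ 0 := by
  rw [← map_pow]
  intro h
  have := algebraMap_injective R (h.trans (map_zero _).symm)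
  exact pow_ne_zero n hϖ.ne_zero this

/-- Every nonzero element of the completion is a unit times a power of the uniformiser. -/
theorem exists_associated_pow {ϖ : R} (hϖ : Irreducible ϖ) {x : Compl R} (hx : x ≠ 0) :
    ∃ n : ℕ, Associated (algebraMap R (Compl R) ϖ ^ n) x := by
  have hm := maximalIdeal_eq_span R hϖ
  have hex : ∃ n : ℕ, x ∉ maximalIdeal (Compl R) ^ n := by
    by_contra hall
    push Not at hall
    apply hx
    refine IsHausdorff.haus' (I := maximalIdeal (Compl R)) x fun n => ?_
    rw [SModEq.zero, smul_eq_mul, Ideal.mul_top]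
    exact hall n
  classical
  have hn0 : Nat.find hex ≠ 0 := by
    intro h0
    have := Nat.find_spec hex
    rw [h0, pow_zero, Ideal.one_eq_top] at this
    exact this Submodule.mem_top
  obtain ⟨n, hn⟩ := Nat.exists_eq_succ_of_ne_zero hn0
  have hmem : x ∈ maximalIdeal (Compl R) ^ n := by
    by_contra hnot
    have := Nat.find_min' hex hnot
    omega
  have hnot : x ∉ maximalIdeal (Compl R) ^ (n + 1) := by
    have := Nat.find_spec hex
    rwa [hn] at this
  rw [hm, Ideal.span_singleton_pow, Ideal.mem_span_singleton] at hmem
  obtain ⟨y, rfl⟩ := hmem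
  have hy : IsUnit y := by
    by_contra hy
    apply hnot
    have hy' : y ∈ maximalIdeal (Compl R) := (IsLocalRing.mem_maximalIdeal y).mpr hy
    rw [pow_succ]
    refine Ideal.mul_mem_mul ?_ hy'
    rw [hm, Ideal.span_singleton_pow]
    exact Ideal.mem_span_singleton_self _
  obtain ⟨u, rfl⟩ := hy
  exact ⟨n, u, rfl⟩

theorem isDomain : IsDomain (Compl R) := by
  obtain ⟨ϖ, hϖ⟩ := IsDiscreteValuationRing.exists_irreducible R
  have hnz : NoZeroDivisors (Compl R) := by
    refine ⟨fun {a b} hab => ?_⟩
    by_contra hne
    push Not at hne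
    obtain ⟨n, u, hu⟩ := exists_associated_pow R hϖ hne.1
    obtain ⟨m, v, hv⟩ := exists_associated_pow R hϖ hne.2
    have h : algebraMap R (Compl R) ϖ ^ (n + m) * ((u : Compl R) * v) = 0 := by
      rw [← hab, ← hu, ← hv, pow_add]
      ring
    have h2 : algebraMap R (Compl R) ϖ ^ (n + m) = 0 :=
      (Units.mul_left_eq_zero (u * v)).mp (by rw [Units.val_mul]; exact h)
    exact pow_ne_zero_compl R hϖ _ h2
  exact NoZeroDivisors.to_isDomain _

theorem irreducible_algebraMap {ϖ : R} (hϖ : Irreducible ϖ) :
    Irreducible (algebraMap R (Compl R) ϖ) := by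
  have hm := maximalIdeal_eq_span R hϖ
  have := isDomain R
  have hnu : ¬ IsUnit (algebraMap R (Compl R) ϖ) := by
    rw [← mem_nonunits_iff, ← IsLocalRing.mem_maximalIdeal, hm]
    exact Ideal.mem_span_singleton_self _
  refine ⟨hnu, fun a b hab => ?_⟩
  by_contra hcon
  push Not at hcon
  have ha : a ∈ maximalIdeal (Compl R) := (IsLocalRing.mem_maximalIdeal a).mpr hcon.1
  have hb : b ∈ maximalIdeal (Compl R) := (IsLocalRing.mem_maximalIdeal b).mpr hcon.2
  rw [hm, Ideal.mem_span_singleton] at ha hb
  obtain ⟨a', rfl⟩ := ha
  obtain ⟨b', rfl⟩ := hb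
  have hne := pow_ne_zero_compl R hϖ 1
  rw [pow_one] at hne
  have h1 : algebraMap R (Compl R) ϖ * (1 - algebraMap R (Compl R) ϖ * (a' * b')) = 0 := by
    linear_combination hab
  rcases mul_eq_zero.mp h1 with h | h
  · exact hne h
  · have hu : IsUnit (algebraMap R (Compl R) ϖ * (a' * b')) := by
      rw [← sub_eq_zero.mp h]
      exact isUnit_one
    exact hnu (isUnit_of_mul_isUnit_left hu)

theorem isDiscreteValuationRing :
    haveI := isDomain R
    IsDiscreteValuationRing (Compl R) := by
  have := isDomain R
  obtain ⟨ϖ, hϖ⟩ := IsDiscreteValuationRing.exists_irreducible R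
  exact IsDiscreteValuationRing.ofHasUnitMulPowIrreducibleFactorization
    ⟨algebraMap R (Compl R) ϖ, irreducible_algebraMap R hϖ,
      fun {x} hx => exists_associated_pow R hϖ hx⟩

theorem charZero [CharZero R] : CharZero (Compl R) :=
  charZero_of_injective_algebraMap (algebraMap_injective R)

theorem finite_residueField [Finite (ResidueField R)] : Finite (ResidueField (Compl R)) :=
  Finite.of_surjective _ (AdicCompletion.residueField_map_bijective R).surjective

end Fermat.Agent.Lib.DVRCompletion
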