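import Mathlib
import Fermat.Prelude.Thm_IsLocalRing_isAdicComplete_of_module_finite
import Fermat.Prelude.Thm_Algebra_finite_maximalSpectrum_and_bijective_localization_of_module_finite

set_option autoImplicit false
set_option linter.style.haveILetI false

/-!
Finite extensions of a complete discrete valuation ring: the integral closure `B` of a
complete DVR `O` (characteristic zero, finite residue field) in a finite extension `L` of
`K = Frac O` is again a complete DVR with finite residue field, module-finite over `O`.
-/

namespace Fermat.Agent.Lib.DVRExt

open IsLocalRing

section Local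

variable (O : Type) [CommRing O] [IsLocalRing O] [IsNoetherianRing O]
  [IsAdicComplete (maximalIdeal O) O]

/-- A module-finite algebra over a complete noetherian local ring which is a domain is local. -/
theorem isLocalRing_of_finite_of_isDomain (B : Type) [CommRing B] [IsDomain B] [Algebra O B]
    [Module.Finite O B] : IsLocalRing B := by
  obtain ⟨hfin, hbij, -, -⟩ :=
    Algebra.finite_maximalSpectrum_and_bijective_localization_of_module_finite (𝒪 := O) B
  refine IsLocalRing.of_unique_max_ideal ?_
  obtain ⟨m, hm⟩ := Ideal.exists_maximal B
  refine ⟨m, hm, ?_⟩
  intro m' hm'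
  by_contra hne
  classical
  let I : MaximalSpectrum B := ⟨m, hm⟩
  let I' : MaximalSpectrum B := ⟨m', hm'⟩
  have hII' : I' ≠ I := fun h => hne (congrArg MaximalSpectrum.asIdeal h)
  let φ := RingHom.pi fun J : MaximalSpectrum B => algebraMap B (Localization.AtPrime J.asIdeal)
  obtain ⟨a, ha⟩ := hbij.2 (Pi.single I 1)
  obtain ⟨b, hb⟩ := hbij.2 (Pi.single I' 1)
  have hab : φ (a * b) = 0 := by
    rw [map_mul, ha, hb]
    funext J
    by_cases hJ : J = I
    · subst hJ
      simp [Pi.single_eq_of_ne (Ne.symm hII')]
    · simp [Pi.single_eq_of_ne hJ]
  have hab0 : a * b = 0 := hbij.1 (by rw [hab, map_zero])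
  rcases mul_eq_zero.mp hab0 with h | h
  · rw [h, map_zero] at ha
    have := congrFun ha I
    simp at this
  · rw [h, map_zero] at hb
    have := congrFun hb I'
    simp at this

end Local

section Main

variable (O : Type) [CommRing O] [IsDomain O] [IsDiscreteValuationRing O]
  [IsAdicComplete (maximalIdeal O) O] [Finite (ResidueField O)] [CharZero O]
  (K : Type) [Field K] [Algebra O K] [IsFractionRing O K]
  (L : Type) [Field L] [Algebra K L] [Algebra O L] [IsScalarTower O K L] [FiniteDimensional K L]

set_option linter.unusedSectionVars false
set_option linter.unusedVariables false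
set_option linter.style.haveILetI false

include O K

theorem charZero_field : CharZero K :=
  charZero_of_injective_algebraMap (IsFractionRing.injective O K)

theorem isSeparable : Algebra.IsSeparable K L := by
  haveI := charZero_field O K
  infer_instance

theorem injective_algebraMap_top : Function.Injective (algebraMap O L) := by
  rw [IsScalarTower.algebraMap_eq O K L]
  exact (algebraMap K L).injective.comp (IsFractionRing.injective O K)

theorem moduleFinite : Module.Finite O (integralClosure O L) := by
  haveI := isSeparable O K L
  exact IsIntegralClosure.finite O K L (integralClosure O L)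

theorem isDedekindDomain : IsDedekindDomain (integralClosure O L) := by
  haveI := isSeparable O K L
  exact integralClosure.isDedekindDomain O K L

theorem isFractionRing : IsFractionRing (integralClosure O L) L := by
  haveI := isSeparable O K L
  exact integralClosure.isFractionRing_of_finite_extension K L

theorem injective_algebraMap : Function.Injective (algebraMap O (integralClosure O L)) := by
  intro a b hab
  apply injective_algebraMap_top O K L
  have := congrArg (algebraMap (integralClosure O L) L) hab
  rwa [← IsScalarTower.algebraMap_apply, ← IsScalarTower.algebraMap_apply] at this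

theorem isLocalRing : IsLocalRing (integralClosure O L) := by
  haveI := moduleFinite O K L
  exact isLocalRing_of_finite_of_isDomain O (integralClosure O L)

theorem isLocalHom : IsLocalHom (algebraMap O (integralClosure O L)) := by
  haveI : FaithfulSMul O (integralClosure O L) :=
    (faithfulSMul_iff_algebraMap_injective O (integralClosure O L)).mpr
      (injective_algebraMap O K L)
  haveI : Algebra.IsIntegral O (integralClosure O L) := integralClosure.AlgebraIsIntegral
  infer_instance

theorem not_isField : ¬ IsField (integralClosure O L) := by
  intro hF
  haveI := isLocalHom O K L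
  obtain ⟨π, hπ⟩ := IsDiscreteValuationRing.exists_irreducible O
  have hπ0 : algebraMap O (integralClosure O L) π ≠ 0 := by
    intro h
    exact hπ.ne_zero (injective_algebraMap O K L (by rw [h, map_zero]))
  obtain ⟨c, hc⟩ := hF.mul_inv_cancel hπ0
  have hu : IsUnit (algebraMap O (integralClosure O L) π) := IsUnit.of_mul_eq_one _ hc
  exact hπ.not_isUnit (IsUnit.of_map (algebraMap O (integralClosure O L)) π hu)

theorem isDiscreteValuationRing : IsDiscreteValuationRing (integralClosure O L) := by
  have hD := isDedekindDomain O K L
  haveI := isLocalRing O K L
  exact ((IsDiscreteValuationRing.TFAE (integralClosure O L) (not_isField O K L)).out 0 2).mpr hD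

theorem isAdicComplete :
    letI := isLocalRing O K L
    IsAdicComplete (maximalIdeal (integralClosure O L)) (integralClosure O L) := by
  letI := isLocalRing O K L
  haveI := moduleFinite O K L
  haveI := isLocalHom O K L
  exact IsLocalRing.isAdicComplete_of_module_finite (𝒪 := O)

theorem finite_residueField :
    letI := isLocalRing O K L
    Finite (ResidueField (integralClosure O L)) := by
  letI := isLocalRing O K L
  haveI := moduleFinite O K L
  haveI := isLocalHom O K L
  exact IsLocalRing.ResidueField.finite_of_finite (R := O) inferInstance

theorem charZero : CharZero (integralClosure O L) :=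
  charZero_of_injective_algebraMap (injective_algebraMap O K L)

/-- The packaged existential, in the binder shape of the frozen statements. -/
theorem exists_ext :
    ∃ (O'' : Type) (_ : CommRing O'') (_ : IsDomain O'') (_ : IsDiscreteValuationRing O'')
      (_ : IsAdicComplete (maximalIdeal O'') O'') (_ : Finite (ResidueField O''))
      (_ : CharZero O'') (_ : Algebra O O'') (_ : Module.Finite O O'')
      (_ : IsLocalHom (algebraMap O O'')) (_ : Algebra O'' L) (_ : IsScalarTower O O'' L)
      (_ : IsFractionRing O'' L),
      Function.Injective (algebraMap O O'') ∧
        ∀ x : L, IsIntegral O x → ∃ y : O'', algebraMap O'' L y = x := by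
  letI := isDiscreteValuationRing O K L
  exact ⟨integralClosure O L, inferInstance, inferInstance, isDiscreteValuationRing O K L,
    isAdicComplete O K L, finite_residueField O K L, charZero O K L, inferInstance,
    moduleFinite O K L, isLocalHom O K L, inferInstance, inferInstance, isFractionRing O K L,
    injective_algebraMap O K L, fun x hx => ⟨⟨x, hx⟩, rfl⟩⟩

end Main

section Frac

variable (O : Type) [CommRing O] [IsDomain O] [IsDiscreteValuationRing O]
  [IsAdicComplete (maximalIdeal O) O] [Finite (ResidueField O)] [CharZero O]
  (K : Type) [Field K] [Algebra O K] [IsFractionRing O K]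
  (L : Type) [Field L] [Algebra K L] [FiniteDimensional K L]

/-- Variant without an `O`-algebra structure on `L`: compatibility is stated as an equation of
ring homomorphisms. -/
theorem exists_ext' :
    ∃ (O'' : Type) (_ : CommRing O'') (_ : IsDomain O'') (_ : IsDiscreteValuationRing O'')
      (_ : IsAdicComplete (maximalIdeal O'') O'') (_ : Finite (ResidueField O''))
      (_ : CharZero O'') (_ : Algebra O O'') (_ : Module.Finite O O'')
      (_ : IsLocalHom (algebraMap O O'')) (_ : Algebra O'' L) (_ : IsFractionRing O'' L),
      Function.Injective (algebraMap O O'') ∧
        (algebraMap O'' L).comp (algebraMap O O'') = (algebraMap K L).comp (algebraMap O K) ∧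
        ∀ x : L, IsIntegral O'' x → ∃ y : O'', algebraMap O'' L y = x := by
  letI : Algebra O L := ((algebraMap K L).comp (algebraMap O K)).toAlgebra
  haveI : IsScalarTower O K L := IsScalarTower.of_algebraMap_eq fun _ => rfl
  obtain ⟨O'', i1, i2, i3, i4, i5, i6, i7, i8, i9, i10, i11, i12, hinj, hint⟩ := exists_ext O K L
  refine ⟨O'', i1, i2, i3, i4, i5, i6, i7, i8, i9, i10, i12, hinj, ?_, ?_⟩
  · ext a
    exact (IsScalarTower.algebraMap_apply O O'' L a).symm
  · intro x hx
    haveI : Algebra.IsIntegral O O'' := Algebra.IsIntegral.of_finite O O''
    exact hint x (isIntegral_trans (R := O) x hx)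

end Frac

end Fermat.Agent.Lib.DVRExt
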