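import Mathlib

/-!
# Local monogenicity

A finite torsion-free Dedekind extension `B` of a local domain `A` with trivial residue field
extensions and infinite residue field is generated by one element: `B = A[θ]`
(`exists_adjoin_eq_top`).  Mathlib only (helper223).
-/

set_option autoImplicit false

namespace Fermat.Agent.Lib.MonogenicLocal

open Polynomial

section Abstract

variable {A B : Type*} [CommRing A] [CommRing B] [Algebra A B]

/-- `P ^ k ≤ (t ^ k) + P ^ (k + 1)` if `P ≤ (t) + P ^ 2` and `t ∈ P`. -/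
theorem pow_le_span_pow_sup (P : Ideal B) (t : B) (ht : t ∈ P)
    (hP : P ≤ Ideal.span {t} ⊔ P ^ 2) (k : ℕ) :
    P ^ k ≤ Ideal.span {t ^ k} ⊔ P ^ (k + 1) := by
  induction k with
  | zero => simp
  | succ k ih =>
    calc P ^ (k + 1) = P ^ k * P := pow_succ _ _
      _ ≤ (Ideal.span {t ^ k} ⊔ P ^ (k + 1)) * (Ideal.span {t} ⊔ P ^ 2) := Ideal.mul_mono ih hP
      _ ≤ Ideal.span {t ^ (k + 1)} ⊔ P ^ (k + 1 + 1) := by
        rw [Ideal.sup_mul, Ideal.mul_sup, Ideal.mul_sup]
        refine sup_le (sup_le ?_ ?_) (sup_le ?_ ?_)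
        · rw [Ideal.span_singleton_mul_span_singleton, ← pow_succ]
          exact le_sup_left
        · refine le_sup_of_le_right ?_
          calc Ideal.span {t ^ k} * P ^ 2 ≤ P ^ k * P ^ 2 :=
                Ideal.mul_mono_left ((Ideal.span_singleton_le_iff_mem _).mpr
                  (Ideal.pow_mem_pow ht k))
            _ = P ^ (k + 1 + 1) := by rw [← pow_add]
        · refine le_sup_of_le_right ?_
          calc P ^ (k + 1) * Ideal.span {t} ≤ P ^ (k + 1) * P :=
                Ideal.mul_mono_right ((Ideal.span_singleton_le_iff_mem _).mpr ht)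
            _ = P ^ (k + 1 + 1) := (pow_succ _ _).symm
        · refine le_sup_of_le_right ?_
          calc P ^ (k + 1) * P ^ 2 = P ^ (k + 1 + 2) := (pow_add _ _ _).symm
            _ ≤ P ^ (k + 1 + 1) := Ideal.pow_le_pow_right (by omega)

/-- Modulo any power of `P`, every element of `B` is a polynomial in `θ` with coefficients in
`A`, if the residue field of `P` is covered by `A` and `θ - c` is a uniformiser at `P`. -/
theorem exists_aeval_sub_mem_pow (P : Ideal B)
    (hres : ∀ b : B, ∃ a : A, b - algebraMap A B a ∈ P)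
    (θ : B) (c : A) (hθ : θ - algebraMap A B c ∈ P)
    (hP : P ≤ Ideal.span {θ - algebraMap A B c} ⊔ P ^ 2) (k : ℕ) (b : B) :
    ∃ g : A[X], b - aeval θ g ∈ P ^ k := by
  induction k with
  | zero => exact ⟨0, by simp⟩
  | succ k ih =>
    obtain ⟨g, hg⟩ := ih
    have h1 := pow_le_span_pow_sup P _ hθ hP k hg
    obtain ⟨y, hy, z, hz, hyz⟩ := Submodule.mem_sup.mp h1
    obtain ⟨b', rfl⟩ := Ideal.mem_span_singleton'.mp hy
    obtain ⟨a, ha⟩ := hres b'
    refine ⟨g + C a * (X - C c) ^ k, ?_⟩
    have h2 : b - aeval θ (g + C a * (X - C c) ^ k) =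
        (b' - algebraMap A B a) * (θ - algebraMap A B c) ^ k + z := by
      simp only [map_add, map_mul, aeval_C, map_pow, map_sub, aeval_X]
      linear_combination -hyz
    rw [h2]
    refine Ideal.add_mem _ ?_ hz
    rw [pow_succ']
    exact Ideal.mul_mem_mul ha (Ideal.pow_mem_pow hθ k)

variable {ι : Type*} [Fintype ι] [DecidableEq ι]

/-- Polynomial "idempotents": `ε i (θ) ≡ 1` modulo `P i ^ N` and `≡ 0` modulo `P j ^ N`,
`j ≠ i`. -/
theorem exists_poly_idem (P : ι → Ideal B) (c : ι → A) (θ : B) (N : ℕ)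
    (hθ : ∀ i, θ - algebraMap A B (c i) ∈ P i)
    (hc : ∀ i j, i ≠ j → IsUnit (c i - c j)) (i : ι) :
    ∃ ε : A[X], aeval θ ε - 1 ∈ P i ^ N ∧ ∀ j, j ≠ i → aeval θ ε ∈ P j ^ N := by
  classical
  -- inverses of the differences
  have hu : ∀ j, j ≠ i → ∃ u : A, u * (c i - c j) = 1 := fun j hj =>
    (hc i j (Ne.symm hj)).exists_left_inv
  choose! u hu using hu
  set q : A[X] := ∏ j ∈ Finset.univ.erase i, (C (u j) * (X - C (c j))) ^ N with hq
  have hqθ : aeval θ q = ∏ j ∈ Finset.univ.erase i,
      (algebraMap A B (u j) * (θ - algebraMap A B (c j))) ^ N := by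
    rw [hq, map_prod]
    refine Finset.prod_congr rfl fun j _ => ?_
    simp only [map_pow, map_mul, aeval_C, map_sub, aeval_X]
  have hq1 : aeval θ q - 1 ∈ P i := by
    rw [← Ideal.Quotient.eq, hqθ, map_prod, map_one]
    refine Finset.prod_eq_one fun j hj => ?_
    have hji : j ≠ i := Finset.ne_of_mem_erase hj
    have h3 : algebraMap A B (u j) * (θ - algebraMap A B (c j)) - 1 ∈ P i := by
      have h4 : algebraMap A B (u j) * (θ - algebraMap A B (c j)) - 1 =
          algebraMap A B (u j) * (θ - algebraMap A B (c i)) := by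
        have h5 : algebraMap A B (u j) * (algebraMap A B (c i) - algebraMap A B (c j)) = 1 := by
          rw [← map_sub, ← map_mul, hu j hji, map_one]
        linear_combination h5
      rw [h4]
      exact Ideal.mul_mem_left _ _ (hθ i)
    rw [map_pow, (Ideal.Quotient.eq.mpr h3 : Ideal.Quotient.mk (P i) _ = _), map_one, one_pow]
  have hq0 : ∀ j, j ≠ i → aeval θ q ∈ P j ^ N := by
    intro j hj
    rw [hqθ]
    refine Ideal.mem_of_dvd _ (Finset.dvd_prod_of_mem _ (Finset.mem_erase.mpr ⟨hj, Finset.mem_univ j⟩)) ?_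
    rw [mul_pow]
    exact Ideal.mul_mem_left _ _ (Ideal.pow_mem_pow (hθ j) N)
  refine ⟨q * ∑ m ∈ Finset.range N, (1 - q) ^ m, ?_, fun j hj => ?_⟩
  · have h6 : aeval θ (q * ∑ m ∈ Finset.range N, (1 - q) ^ m) - 1 = -(1 - aeval θ q) ^ N := by
      have h7 := geom_sum_mul_neg (1 - aeval θ q) N
      simp only [map_mul, map_sum, map_pow, map_sub, map_one]
      linear_combination h7
    rw [h6]
    refine Ideal.neg_mem_iff _ |>.mpr (Ideal.pow_mem_pow ?_ N)
    have : 1 - aeval θ q = -(aeval θ q - 1) := by ring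
    rw [this]
    exact Ideal.neg_mem_iff _ |>.mpr hq1
  · rw [map_mul]
    exact Ideal.mul_mem_right _ _ (hq0 j hj)

/-- **Abstract monogenicity criterion.** -/
theorem adjoin_eq_top_of_crt [IsLocalRing A] [Module.Finite A B]
    (P : ι → Ideal B) (c : ι → A) (θ : B) (N : ℕ)
    (hres : ∀ i, ∀ b : B, ∃ a : A, b - algebraMap A B a ∈ P i)
    (hθ : ∀ i, θ - algebraMap A B (c i) ∈ P i)
    (hP : ∀ i, P i ≤ Ideal.span {θ - algebraMap A B (c i)} ⊔ P i ^ 2)
    (hc : ∀ i j, i ≠ j → IsUnit (c i - c j))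
    (hN : ⨅ i, P i ^ N ≤ Ideal.map (algebraMap A B) (IsLocalRing.maximalIdeal A)) :
    Algebra.adjoin A {θ} = ⊤ := by
  classical
  have key : (⊤ : Submodule A B) ≤ Subalgebra.toSubmodule (Algebra.adjoin A {θ}) := by
    apply Submodule.le_of_le_smul_of_le_jacobson_bot Module.Finite.fg_top
      (IsLocalRing.maximalIdeal_le_jacobson _)
    intro b _
    have hg : ∀ i, ∃ g : A[X], b - aeval θ g ∈ P i ^ N := fun i =>
      exists_aeval_sub_mem_pow (P i) (hres i) θ (c i) (hθ i) (hP i) N b
    choose g hg using hg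
    have hε : ∀ i, ∃ ε : A[X], aeval θ ε - 1 ∈ P i ^ N ∧ ∀ j, j ≠ i → aeval θ ε ∈ P j ^ N :=
      fun i => exists_poly_idem P c θ N hθ hc i
    choose ε hε1 hε0 using hε
    set G : A[X] := ∑ i, g i * ε i with hG
    have hmem : b - aeval θ G ∈ Ideal.map (algebraMap A B) (IsLocalRing.maximalIdeal A) := by
      apply hN
      rw [Ideal.mem_iInf]
      intro j
      have h1 : b - aeval θ G = (b - aeval θ (g j)) - aeval θ (g j) * (aeval θ (ε j) - 1)
          - ∑ i ∈ Finset.univ.erase j, aeval θ (g i) * aeval θ (ε i) := by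
        rw [hG, map_sum, ← Finset.add_sum_erase _ _ (Finset.mem_univ j)]
        simp only [map_mul]
        ring
      rw [h1]
      refine Ideal.sub_mem _ (Ideal.sub_mem _ (hg j) (Ideal.mul_mem_left _ _ (hε1 j))) ?_
      refine Ideal.sum_mem _ fun i hi => Ideal.mul_mem_left _ _ (hε0 i j ?_)
      exact (Finset.ne_of_mem_erase hi).symm
    rw [Submodule.mem_sup]
    refine ⟨aeval θ G, aeval_mem_adjoin_singleton A θ, b - aeval θ G, ?_, by ring⟩
    rw [Ideal.smul_top_eq_map]
    exact hmem
  exact eq_top_iff.mpr fun x _ => key (Submodule.mem_top (x := x))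

end Abstract

section Dedekind

open IsLocalRing

variable {A B : Type*} [CommRing A] [IsDomain A] [IsLocalRing A]
  [CommRing B] [IsDedekindDomain B] [Algebra A B] [Module.Finite A B] [Module.IsTorsionFree A B]

/-- **Local monogenicity.**  `A` a local domain which is not a field, with infinite residue
field, `B` a Dedekind domain, finite and torsion-free over `A`, such that every residue field of
`B` is covered by `A`.  Then `B = A[θ]` for some `θ`. -/
theorem exists_adjoin_eq_top (h𝔪 : maximalIdeal A ≠ ⊥)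
    (hres : ∀ P : Ideal B, P.IsMaximal → ∀ b : B, ∃ a : A, b - algebraMap A B a ∈ P)
    [Infinite (ResidueField A)] : ∃ θ : B, Algebra.adjoin A {θ} = ⊤ := by
  classical
  let ι : Type _ := ↥((maximalIdeal A).primesOver B)
  let P : ι → Ideal B := fun i => i.1
  have hPne : ∀ i : ι, P i ≠ ⊥ := fun i => Ideal.ne_bot_of_mem_primesOver h𝔪 i.2
  have hPprime : ∀ i : ι, (P i).IsPrime := fun i => i.2.1
  have hPmax : ∀ i : ι, (P i).IsMaximal := fun i => (hPprime i).isMaximal (hPne i)
  have hPinj : ∀ i j : ι, i ≠ j → P i ≠ P j := fun i j h h' => h (Subtype.ext h')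
  -- the constants
  let f : ι ↪ ResidueField A :=
    (Fintype.equivFin ι).toEmbedding.trans (Fin.valEmbedding.trans (Infinite.natEmbedding _))
  have hc : ∀ i, ∃ a : A, residue A a = f i := fun i => residue_surjective (f i)
  choose c hc using hc
  have hcu : ∀ i j, i ≠ j → IsUnit (c i - c j) := by
    intro i j hij
    rw [← notMem_maximalIdeal]
    intro hmem
    have h1 : residue A (c i - c j) = 0 := (residue_eq_zero_iff _).mpr hmem
    rw [map_sub, hc, hc, sub_eq_zero] at h1
    exact hij (f.injective h1)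
  -- uniformisers
  have ht : ∀ i, ∃ t : B, t ∈ P i ∧ t ∉ P i ^ 2 := by
    intro i
    obtain ⟨t, h1, h2⟩ := Ideal.exists_mem_pow_notMem_pow_succ (P i) (hPne i) (hPmax i).ne_top 1
    exact ⟨t, by simpa using h1, h2⟩
  choose t ht1 ht2 using ht
  -- CRT
  obtain ⟨θ, hθ'⟩ := IsDedekindDomain.exists_forall_sub_mem_ideal (s := Finset.univ) P
    (fun _ => 2) (fun i _ => Ideal.prime_of_isPrime (hPne i) (hPprime i))
    (fun i _ j _ h => hPinj i j h) (fun i => algebraMap A B (c i.1) + t i.1)
  have hθ2 : ∀ i, θ - algebraMap A B (c i) - t i ∈ P i ^ 2 := fun i => by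
    have h1 := hθ' i (Finset.mem_univ i)
    have h2 : θ - algebraMap A B (c i) - t i = θ - (algebraMap A B (c i) + t i) := by ring
    rw [h2]
    exact h1
  have hθ : ∀ i, θ - algebraMap A B (c i) ∈ P i := fun i => by
    have h1 : θ - algebraMap A B (c i) = (θ - algebraMap A B (c i) - t i) + t i := by ring
    rw [h1]
    exact Ideal.add_mem _ (Ideal.pow_le_self two_ne_zero (hθ2 i)) (ht1 i)
  have hP : ∀ i, P i ≤ Ideal.span {θ - algebraMap A B (c i)} ⊔ P i ^ 2 := by
    intro i
    have hlt : P i ^ (1 + 1) < Ideal.span {θ - algebraMap A B (c i)} ⊔ P i ^ 2 := by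
      refine lt_of_le_of_ne le_sup_right ?_
      intro h
      apply ht2 i
      have h3 : θ - algebraMap A B (c i) ∈ P i ^ 2 := by
        have h5 : θ - algebraMap A B (c i) ∈
            Ideal.span {θ - algebraMap A B (c i)} ⊔ P i ^ 2 :=
          Ideal.mem_sup_left (Ideal.mem_span_singleton_self _)
        rw [← h] at h5
        exact h5
      have h4 : t i = (θ - algebraMap A B (c i)) - (θ - algebraMap A B (c i) - t i) := by ring
      rw [h4]
      exact Ideal.sub_mem _ h3 (hθ2 i)
    have hle : Ideal.span {θ - algebraMap A B (c i)} ⊔ P i ^ 2 ≤ P i ^ 1 := by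
      rw [pow_one]
      exact sup_le ((Ideal.span_singleton_le_iff_mem _).mpr (hθ i))
        (Ideal.pow_le_self two_ne_zero)
    have h6 := Ideal.eq_prime_pow_of_succ_lt_of_le (hPne i) hlt hle
    rw [h6, pow_one]
  -- the exponent
  obtain ⟨N, hN⟩ := Ideal.exists_radical_pow_le_of_fg
    (Ideal.map (algebraMap A B) (maximalIdeal A)) (IsNoetherian.noetherian _)
  have hrad : ⨅ i, P i ≤ (Ideal.map (algebraMap A B) (maximalIdeal A)).radical := by
    rw [Ideal.radical_eq_sInf]
    refine le_sInf fun J hJ => ?_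
    obtain ⟨hJ1, hJ2⟩ := hJ
    have hJover : J.LiesOver (maximalIdeal A) := by
      constructor
      have h1 : maximalIdeal A ≤ J.under A := by
        rw [Ideal.under_def]
        exact Ideal.map_le_iff_le_comap.mp hJ1
      exact (maximalIdeal.isMaximal A).eq_of_le (Ideal.IsPrime.under A J).ne_top h1
    exact iInf_le_of_le (⟨J, hJ2, hJover⟩ : ι) le_rfl
  have hcop : ((Finset.univ : Finset ι) : Set ι).Pairwise
      (Function.onFun IsCoprime fun i => P i ^ N) := by
    intro i _ j _ hij
    exact Ideal.isCoprime_iff_sup_eq.mpr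
      (Ideal.pow_sup_pow_eq_top ((hPmax i).coprime_of_ne (hPmax j) (hPinj i j hij)))
  have hN' : ⨅ i, P i ^ N ≤ Ideal.map (algebraMap A B) (maximalIdeal A) := by
    refine le_trans ?_ hN
    have h1 : ⨅ i, P i ^ N = ∏ i, P i ^ N := by
      rw [Ideal.prod_eq_iInf_of_pairwise_isCoprime hcop]
      simp
    rw [h1, Finset.prod_pow]
    refine Ideal.pow_right_mono (le_trans Ideal.prod_le_inf ?_) N
    rw [Finset.inf_eq_iInf]
    simpa using hrad
  exact ⟨θ, adjoin_eq_top_of_crt P c θ N (fun i => hres (P i) (hPmax i)) hθ hP hcu hN'⟩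

end Dedekind

end Fermat.Agent.Lib.MonogenicLocal
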