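import Mathlib
import Fermat.Agent.Lib.MonogenicLocal

/-!
# Logarithmic derivatives are trace-dual regular (no tameness needed)

Level-free core of the step "regular on the special fibre implies trace-dual" (helper223).

* `exists_total_deriv`, `exists_deriv_mul_mem_adjoin`: for a monogenic order `A[θ]` and an
  additive Leibniz map `δ` with `δ a = d a * c` on `A`, one has
  `δ b * g'(θ) ∈ A[θ] * c` for every `b ∈ A[θ]` (`g` the minimal polynomial of `θ`);
  together with Euler's formula `Tr (x / g'(θ)) ∈ A` this puts `δ b / c` into the trace dual.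
* `trace_mem_local`: over a discrete valuation ring `A` with trivial residue field extensions and
  infinite residue field (so the integral closure is monogenic, `Lib.MonogenicLocal`): if `f` is
  at every valuation ring of `L` a unit times a `p`-th power (`p` the characteristic of `Ω`), then
  `G := δ f / (f c)` satisfies `Tr_{L/K} (G b) ∈ A` for all integral `b`.
* `trace_mem_global`: the same over a Dedekind algebra `R₀` over an algebraically closed field
  all of whose residue fields are the constants (e.g. `k[j]`).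
-/

set_option autoImplicit false

namespace Fermat.Agent.Lib.DerivDual

open Polynomial

section Derivation

variable {Ω : Type*} [CommRing Ω]

theorem deriv_zero (δ : Ω → Ω) (hadd : ∀ x y, δ (x + y) = δ x + δ y) : δ 0 = 0 := by
  have := hadd 0 0
  simpa using this

theorem deriv_one (δ : Ω → Ω) (hmul : ∀ x y, δ (x * y) = δ x * y + x * δ y) : δ 1 = 0 := by
  have := hmul 1 1
  simpa using this

theorem deriv_pow_succ (δ : Ω → Ω) (hmul : ∀ x y, δ (x * y) = δ x * y + x * δ y) (x : Ω)
    (n : ℕ) : δ (x ^ (n + 1)) = ((n + 1 : ℕ) : Ω) * x ^ n * δ x := by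
  induction n with
  | zero => simp
  | succ n ih =>
    rw [pow_succ, hmul, ih]
    push_cast
    ring

theorem deriv_pow_char (δ : Ω → Ω) (hmul : ∀ x y, δ (x * y) = δ x * y + x * δ y) (p : ℕ)
    [CharP Ω p] (x : Ω) : δ (x ^ p) = 0 := by
  rcases Nat.eq_zero_or_pos p with hp | hp
  · subst hp
    rw [pow_zero]
    exact deriv_one δ hmul
  · obtain ⟨n, rfl⟩ : ∃ n, p = n + 1 := ⟨p - 1, by omega⟩
    rw [deriv_pow_succ δ hmul, CharP.cast_eq_zero Ω (n + 1), zero_mul, zero_mul]

end Derivation

section Monogenic

variable {A K L Ω : Type*} [CommRing A] [IsDomain A] [IsIntegrallyClosed A]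
  [Field K] [Algebra A K] [IsFractionRing A K]
  [Field L] [Algebra K L] [Algebra A L] [IsScalarTower A K L]
  [FiniteDimensional K L] [Algebra.IsSeparable K L]
  [CommRing Ω] [Algebra L Ω]

omit [IsDomain A] [IsIntegrallyClosed A] in
/-- Total derivative of a polynomial expression: if `δ` is a derivation of `Ω` whose values on
`A` lie in `A * c`, then `δ (g θ) = g^d θ * c + g' θ * δ θ` for some `g^d ∈ A[X]`. -/
theorem exists_total_deriv (δ : Ω → Ω) (hadd : ∀ x y, δ (x + y) = δ x + δ y)
    (hmul : ∀ x y, δ (x * y) = δ x * y + x * δ y) (c : Ω)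
    (hd : ∀ a : A, ∃ e : A,
      δ (algebraMap L Ω (algebraMap A L a)) = algebraMap L Ω (algebraMap A L e) * c)
    (θ : L) (g : A[X]) :
    ∃ r : A[X], δ (algebraMap L Ω (aeval θ g)) =
      algebraMap L Ω (aeval θ r) * c +
        algebraMap L Ω (aeval θ (derivative g)) * δ (algebraMap L Ω θ) := by
  induction g using Polynomial.induction_on with
  | C a =>
    obtain ⟨e, he⟩ := hd a
    refine ⟨C e, ?_⟩
    simp only [aeval_C, derivative_C, map_zero, zero_mul, add_zero]
    exact he
  | add p q hp hq =>
    obtain ⟨rp, hrp⟩ := hp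
    obtain ⟨rq, hrq⟩ := hq
    refine ⟨rp + rq, ?_⟩
    simp only [map_add, hadd, hrp, hrq]
    ring
  | monomial n a h =>
    obtain ⟨r, hr⟩ := h
    refine ⟨r * X, ?_⟩
    have h1 : aeval θ (C a * X ^ (n + 1)) = aeval θ (C a * X ^ n) * θ := by
      simp only [map_mul, aeval_C, map_pow, aeval_X]
      ring
    have h2 : derivative (C a * X ^ (n + 1)) = derivative (C a * X ^ n) * X + C a * X ^ n := by
      have : C a * X ^ (n + 1) = (C a * X ^ n) * X := by ring
      rw [this, derivative_mul, derivative_X, mul_one]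
    rw [h1, map_mul, hmul, hr, h2]
    simp only [map_add, map_mul, aeval_X]
    ring

/-- **A derivation maps a monogenic order `A[θ]` into `(1 / m'(θ)) A[θ]`** (its trace dual, by
Euler's formula), `m` the minimal polynomial of `θ`. -/
theorem exists_deriv_mul_mem_adjoin (δ : Ω → Ω) (hadd : ∀ x y, δ (x + y) = δ x + δ y)
    (hmul : ∀ x y, δ (x * y) = δ x * y + x * δ y) (c : Ω)
    (hd : ∀ a : A, ∃ e : A,
      δ (algebraMap L Ω (algebraMap A L a)) = algebraMap L Ω (algebraMap A L e) * c)
    (θ : L) (hθ : IsIntegral A θ) (x : L) (hx : x ∈ Algebra.adjoin A {θ}) :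
    ∃ y : L, δ (algebraMap L Ω x) = algebraMap L Ω y * c ∧
      aeval θ (derivative (minpoly K θ)) * y ∈ Algebra.adjoin A {θ} := by
  have hδ0 : δ 0 = 0 := deriv_zero δ hadd
  set m := minpoly A θ with hm
  have hmK : minpoly K θ = m.map (algebraMap A K) :=
    minpoly.isIntegrallyClosed_eq_field_fractions' K hθ
  have hm0 : aeval θ m = 0 := minpoly.aeval A θ
  have hDeq : aeval θ (derivative (minpoly K θ)) = aeval θ (derivative m) := by
    rw [hmK, derivative_map, aeval_map_algebraMap]
  have hne : aeval θ (derivative m) ≠ 0 := by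
    have h1 := (Algebra.IsSeparable.isSeparable K θ).aeval_derivative_ne_zero (minpoly.aeval K θ)
    rwa [hDeq] at h1
  obtain ⟨rm, hrm⟩ := exists_total_deriv δ hadd hmul c hd θ m
  rw [hm0, map_zero, hδ0] at hrm
  obtain ⟨g, rfl⟩ : ∃ g : A[X], aeval θ g = x := by
    rw [Algebra.adjoin_singleton_eq_range_aeval] at hx
    exact hx
  obtain ⟨r, hr⟩ := exists_total_deriv δ hadd hmul c hd θ g
  rw [hDeq]
  set D := aeval θ (derivative m) with hD
  refine ⟨D⁻¹ * (D * aeval θ r - aeval θ (derivative g) * aeval θ rm), ?_, ?_⟩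
  · have h3 : algebraMap L Ω D * δ (algebraMap L Ω (aeval θ g)) =
        algebraMap L Ω (D * aeval θ r - aeval θ (derivative g) * aeval θ rm) * c := by
      rw [hr]
      simp only [map_sub, map_mul]
      linear_combination (-(algebraMap L Ω (aeval θ (derivative g)))) * hrm
    have h4 : algebraMap L Ω D⁻¹ * algebraMap L Ω D = 1 := by
      rw [← map_mul, inv_mul_cancel₀ hne, map_one]
    calc δ (algebraMap L Ω (aeval θ g))
        = (algebraMap L Ω D⁻¹ * algebraMap L Ω D) * δ (algebraMap L Ω (aeval θ g)) := by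
          rw [h4, one_mul]
      _ = algebraMap L Ω D⁻¹ * (algebraMap L Ω D * δ (algebraMap L Ω (aeval θ g))) := by ring
      _ = _ := by rw [h3, map_mul]; ring
  · rw [mul_inv_cancel_left₀ hne]
    exact Subalgebra.sub_mem _ (Subalgebra.mul_mem _ (aeval_mem_adjoin_singleton A θ)
      (aeval_mem_adjoin_singleton A θ)) (Subalgebra.mul_mem _ (aeval_mem_adjoin_singleton A θ)
      (aeval_mem_adjoin_singleton A θ))

end Monogenic

section Local

open IsLocalRing IsDedekindDomain

variable {A K L Ω : Type*} [CommRing A] [IsDomain A] [IsDiscreteValuationRing A]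
  [Field K] [Algebra A K] [IsFractionRing A K]
  [Field L] [Algebra K L] [Algebra A L] [IsScalarTower A K L]
  [FiniteDimensional K L] [Algebra.IsSeparable K L]
  [Field Ω] [Algebra L Ω]

/-- **Logarithmic derivatives of functions whose divisor is divisible by `p` are trace-dual
regular; local form over a discrete valuation ring.** -/
theorem trace_mem_local [Infinite (ResidueField A)]
    (hres : ∀ P : Ideal (integralClosure A L), P.IsMaximal → ∀ b : integralClosure A L,
      ∃ a : A, b - algebraMap A (integralClosure A L) a ∈ P)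
    (δ : Ω → Ω) (hadd : ∀ x y, δ (x + y) = δ x + δ y)
    (hmul : ∀ x y, δ (x * y) = δ x * y + x * δ y) (c : Ω) (hc : c ≠ 0)
    (hd : ∀ a : A, ∃ e : A,
      δ (algebraMap L Ω (algebraMap A L a)) = algebraMap L Ω (algebraMap A L e) * c)
    (p : ℕ) [CharP Ω p] (f : L) (hf : f ≠ 0)
    (hU : ∀ w : ValuationSubring L, ∃ u h : L, f = u * h ^ p ∧ u ∈ w ∧ u⁻¹ ∈ w)
    (G : L) (hG : algebraMap L Ω G * algebraMap L Ω f * c = δ (algebraMap L Ω f))
    (b : L) (hb : IsIntegral A b) :
    ∃ a : A, Algebra.trace K L (G * b) = algebraMap A K a := by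
  classical
  have hDedB : IsDedekindDomain (integralClosure A L) := integralClosure.isDedekindDomain A K L
  have hFracB : IsFractionRing (integralClosure A L) L :=
    integralClosure.isFractionRing_of_finite_extension K L
  have hfinB : Module.Finite A (integralClosure A L) :=
    IsIntegralClosure.finite A K L (integralClosure A L)
  have hinjAL : Function.Injective (algebraMap A L) := by
    rw [IsScalarTower.algebraMap_eq A K L]
    exact (algebraMap K L).injective.comp (IsFractionRing.injective A K)
  have hinjAB : Function.Injective (algebraMap A (integralClosure A L)) := by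
    have h : Function.Injective (algebraMap A L) := hinjAL
    rw [IsScalarTower.algebraMap_eq A (integralClosure A L) L, RingHom.coe_comp] at h
    exact Function.Injective.of_comp h
  have hTF : Module.IsTorsionFree A (integralClosure A L) :=
    Module.isTorsionFree_iff_algebraMap_injective.mpr hinjAB
  have h𝔪 : maximalIdeal A ≠ ⊥ := IsDiscreteValuationRing.not_a_field A
  obtain ⟨θ, hθ⟩ := MonogenicLocal.exists_adjoin_eq_top (A := A) (B := integralClosure A L)
    h𝔪 hres
  have hθint : IsIntegral A (θ : L) := θ.2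
  have hadj : ∀ z : L, IsIntegral A z → z ∈ Algebra.adjoin A {(θ : L)} := by
    intro z hz
    have h1 : (⟨z, hz⟩ : integralClosure A L) ∈ Algebra.adjoin A {θ} := by
      rw [hθ]
      trivial
    have h2 : (integralClosure A L).val ⟨z, hz⟩ ∈
        (Algebra.adjoin A {θ}).map (integralClosure A L).val :=
      Subalgebra.mem_map.mpr ⟨_, h1, rfl⟩
    rw [AlgHom.map_adjoin, Set.image_singleton] at h2
    exact h2
  have hadj' : ∀ z : L, z ∈ Algebra.adjoin A {(θ : L)} → IsIntegral A z := by
    intro z hz
    have h1 : Algebra.adjoin A {(θ : L)} ≤ integralClosure A L :=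
      Algebra.adjoin_le (Set.singleton_subset_iff.mpr hθint)
    exact h1 hz
  have halgL : Algebra.IsAlgebraic A L :=
    (IsFractionRing.comap_isAlgebraic_iff (A := A) (K := K) (C := L)).mpr inferInstance
  have hgen : Algebra.adjoin K {(θ : L)} = ⊤ := by
    rw [eq_top_iff]
    intro z _
    obtain ⟨a, ha0, haz⟩ := (halgL.isAlgebraic z).exists_integral_multiple
    have h1 : a • z ∈ Algebra.adjoin A {(θ : L)} := hadj _ haz
    have h2 : a • z ∈ Algebra.adjoin K {(θ : L)} := by
      have h3 : (Algebra.adjoin A {(θ : L)} : Set L) ⊆ Algebra.adjoin K {(θ : L)} := by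
        have : Algebra.adjoin A {(θ : L)} ≤ (Algebra.adjoin K {(θ : L)}).restrictScalars A :=
          Algebra.adjoin_le (by
            intro y hy
            exact Algebra.subset_adjoin hy)
        exact this
      exact h3 h1
    have h4 : algebraMap A K a ≠ 0 :=
      (map_ne_zero_iff _ (IsFractionRing.injective A K)).mpr ha0
    have h5 : z = (algebraMap A K a)⁻¹ • (a • z) := by
      rw [← IsScalarTower.algebraMap_smul K a z, smul_smul, inv_mul_cancel₀ h4, one_smul]
    rw [h5]
    exact Subalgebra.smul_mem _ h2 _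
  set D := aeval (θ : L) (derivative (minpoly K (θ : L))) with hD
  have hDne : D ≠ 0 :=
    (Algebra.IsSeparable.isSeparable K (θ : L)).aeval_derivative_ne_zero (minpoly.aeval K _)
  have hDint : IsIntegral A D := by
    have hmK : minpoly K (θ : L) = (minpoly A (θ : L)).map (algebraMap A K) :=
      minpoly.isIntegrallyClosed_eq_field_fractions' K hθint
    rw [hD, hmK, derivative_map, aeval_map_algebraMap]
    exact hadj' _ (aeval_mem_adjoin_singleton A _)
  -- the derivation on integral elements
  have hder : ∀ x : L, IsIntegral A x → ∃ y : L, δ (algebraMap L Ω x) = algebraMap L Ω y * c ∧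
      IsIntegral A (D * y) := by
    intro x hx
    obtain ⟨y, hy1, hy2⟩ := exists_deriv_mul_mem_adjoin (K := K) δ hadd hmul c hd (θ : L) hθint x
      (hadj x hx)
    exact ⟨y, hy1, hadj' _ hy2⟩
  have hinjΩ : Function.Injective (algebraMap L Ω) := (algebraMap L Ω).injective
  -- `D * G` is integral
  have hDG : IsIntegral A (D * G) := by
    have hmem : D * G ∈ (algebraMap (integralClosure A L) L).range := by
      apply HeightOneSpectrum.mem_integers_of_valuation_le_one
      intro v
      obtain ⟨u, h, hfu, hu1, hu2⟩ := hU (v.valuation L).valuationSubring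
      have hu0 : u ≠ 0 := by
        rintro rfl
        exact hf (by rw [hfu, zero_mul])
      have hhp : h ^ p ≠ 0 := by
        intro h0
        exact hf (by rw [hfu, h0, mul_zero])
      have hδf : δ (algebraMap L Ω f) = δ (algebraMap L Ω u) * algebraMap L Ω (h ^ p) := by
        rw [hfu, map_mul, hmul, map_pow, deriv_pow_char δ hmul p, mul_zero, add_zero]
      have hGu : algebraMap L Ω G * algebraMap L Ω u * c = δ (algebraMap L Ω u) := by
        have h1 : (algebraMap L Ω G * algebraMap L Ω u * c) * algebraMap L Ω (h ^ p) =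
            δ (algebraMap L Ω u) * algebraMap L Ω (h ^ p) := by
          rw [← hδf, ← hG, hfu, map_mul]
          ring
        exact mul_right_cancel₀ ((map_ne_zero_iff _ hinjΩ).mpr hhp) h1
      have hvu : v.valuation L u = 1 := by
        have h1 : v.valuation L u ≤ 1 := hu1
        have h2 : v.valuation L u⁻¹ ≤ 1 := hu2
        rw [map_inv₀] at h2
        have h3 : v.valuation L u ≠ 0 := (Valuation.ne_zero_iff _).mpr hu0
        exact le_antisymm h1 ((inv_le_one₀ (zero_lt_iff.mpr h3)).mp h2)
      obtain ⟨n, d, hnd⟩ := v.exists_primeCompl_mul_eq_of_integer u hu1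
      have hvd : v.valuation L (algebraMap (integralClosure A L) L d) = 1 := by
        rw [HeightOneSpectrum.valuation_of_algebraMap]
        exact (v.intValuation_eq_one_iff_mem_primeCompl _).mpr d.2
      have hvn : v.valuation L (algebraMap (integralClosure A L) L n) = 1 := by
        rw [← hnd, map_mul, hvu, hvd, one_mul]
      obtain ⟨yn, hyn1, hyn2⟩ := hder (algebraMap (integralClosure A L) L n) n.2
      obtain ⟨yd, hyd1, hyd2⟩ := hder (algebraMap (integralClosure A L) L d)
        (d : integralClosure A L).2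
      have heq : G * algebraMap (integralClosure A L) L n = yn - u * yd := by
        apply hinjΩ
        apply mul_right_cancel₀ hc
        have h1 := congrArg (fun z => δ (algebraMap L Ω z)) hnd
        simp only [map_mul, hmul, hyn1, hyd1] at h1
        rw [← hGu] at h1
        have h2 : algebraMap L Ω (algebraMap (integralClosure A L) L n) =
            algebraMap L Ω u * algebraMap L Ω (algebraMap (integralClosure A L) L d) := by
          rw [← map_mul, hnd]
        simp only [map_sub, map_mul]
        rw [h2]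
        linear_combination h1
      have h5 : v.valuation L (D * G * algebraMap (integralClosure A L) L n) ≤ 1 := by
        have h6 : D * G * algebraMap (integralClosure A L) L n = D * yn - u * (D * yd) := by
          rw [mul_assoc, heq]
          ring
        rw [h6]
        refine le_trans (Valuation.map_sub _ _ _) (max_le ?_ ?_)
        · exact v.valuation_le_one (K := L) (⟨D * yn, hyn2⟩ : integralClosure A L)
        · rw [map_mul, hvu, one_mul]
          exact v.valuation_le_one (K := L) (⟨D * yd, hyd2⟩ : integralClosure A L)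
      rw [map_mul, hvn, mul_one] at h5
      exact h5
    obtain ⟨z, hz⟩ := hmem
    rw [← hz]
    exact z.2
  -- `G` lies in the trace dual of `A[θ]`
  have hGdual : G ∈ (Algebra.traceForm K L).dualSubmodule
      (Subalgebra.toSubmodule (Algebra.adjoin A {(θ : L)})) := by
    rw [traceForm_dualSubmodule_adjoin A K hgen hθint, ← hD]
    have h1 : G = D⁻¹ • (D * G) := by rw [smul_eq_mul, inv_mul_cancel_left₀ hDne]
    rw [h1]
    exact Submodule.smul_mem_pointwise_smul _ _ _ (hadj _ hDG)
  have h2 := hGdual b (hadj b hb)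
  obtain ⟨a, ha⟩ := Submodule.mem_one.mp h2
  exact ⟨a, by rw [ha, Algebra.traceForm_apply]⟩

end Local

section Global

open IsLocalRing

variable {k R₀ K L Ω : Type*} [Field k] [IsAlgClosed k] [CommRing R₀] [IsDedekindDomain R₀]
  [Algebra k R₀] [Field K] [Algebra R₀ K] [IsFractionRing R₀ K]
  [Field L] [Algebra K L] [Algebra R₀ L] [IsScalarTower R₀ K L]
  [FiniteDimensional K L] [Algebra.IsSeparable K L]
  [Field Ω] [Algebra L Ω]

/-- Over an algebraically closed field `k`: if `B` is integral over `A`, `P` is a maximal ideal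
of `B` and every element of `A` is congruent to a constant from `k` modulo `P ∩ A`, then every
element of `B` is congruent to a constant modulo `P` (the residue field of `P` is `k`). -/
theorem exists_sub_mem_of_isAlgClosed {k' A' B' : Type*} [Field k'] [IsAlgClosed k']
    [CommRing A'] [CommRing B'] [Algebra A' B'] [Algebra.IsIntegral A' B'] (g : k' →+* A')
    (P : Ideal B') [P.IsMaximal]
    (hA : ∀ a : A', ∃ c : k', a - g c ∈ P.comap (algebraMap A' B')) (b : B') :
    ∃ c : k', b - algebraMap A' B' (g c) ∈ P := by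
  let ψ₁ : k' →+* A' ⧸ P.comap (algebraMap A' B') :=
    (Ideal.Quotient.mk (P.comap (algebraMap A' B'))).comp g
  have hψ₁ : Function.Surjective ψ₁ := by
    intro x
    obtain ⟨a, rfl⟩ := Ideal.Quotient.mk_surjective x
    obtain ⟨c, hc⟩ := hA a
    refine ⟨c, ?_⟩
    show Ideal.Quotient.mk (P.comap (algebraMap A' B')) (g c) =
      Ideal.Quotient.mk (P.comap (algebraMap A' B')) a
    symm
    rw [Ideal.Quotient.eq]
    exact hc
  let ψ₂ : A' ⧸ P.comap (algebraMap A' B') →+* B' ⧸ P :=
    Ideal.quotientMap P (algebraMap A' B') le_rfl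
  have hψ₂ : ψ₂.IsIntegral :=
    RingHom.IsIntegral.quotient (algebraMap A' B') Algebra.IsIntegral.isIntegral
  have hφ : (ψ₂.comp ψ₁).IsIntegral :=
    RingHom.IsIntegral.trans (R := k') (S := A' ⧸ P.comap (algebraMap A' B')) (T := B' ⧸ P) ψ₁ ψ₂
      (RingHom.isIntegral_of_surjective ψ₁ hψ₁) hψ₂
  obtain ⟨c, hc⟩ := (IsAlgClosed.ringHom_bijective_of_isIntegral _ hφ).2 (Ideal.Quotient.mk P b)
  refine ⟨c, ?_⟩
  rw [← Ideal.Quotient.eq, ← hc]
  rfl

/-- **Logarithmic derivatives of functions whose divisor is divisible by `p` are trace-dual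
regular; global form.**  `k` an algebraically closed field, `R₀` a Dedekind `k`-algebra all of
whose residue fields are `k` (e.g. `k[j]`), `K = Frac R₀`, `L / K` finite separable, `Ω ⊇ L` a
field with an additive Leibniz map `δ` of characteristic `p` such that `δ a = d a * c` with
`d a ∈ R₀` for `a ∈ R₀` (`c = δ j ≠ 0`).  If `f ≠ 0` in `L` is, at every valuation ring of `L`,
a unit times a `p`-th power, then `G := δ f / (f c)` satisfies `Tr_{L/K}(G b) ∈ R₀` for every
`b ∈ L` integral over `R₀`. -/
theorem trace_mem_global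
    (hk : ∀ 𝔭 : Ideal R₀, 𝔭.IsMaximal → ∀ r : R₀, ∃ a : k, r - algebraMap k R₀ a ∈ 𝔭)
    (δ : Ω → Ω) (hadd : ∀ x y, δ (x + y) = δ x + δ y)
    (hmul : ∀ x y, δ (x * y) = δ x * y + x * δ y) (c : Ω) (hc : c ≠ 0)
    (hd : ∀ a : R₀, ∃ e : R₀,
      δ (algebraMap L Ω (algebraMap R₀ L a)) = algebraMap L Ω (algebraMap R₀ L e) * c)
    (p : ℕ) [CharP Ω p] (f : L) (hf : f ≠ 0)
    (hU : ∀ w : ValuationSubring L, ∃ u h : L, f = u * h ^ p ∧ u ∈ w ∧ u⁻¹ ∈ w)
    (G : L) (hG : algebraMap L Ω G * algebraMap L Ω f * c = δ (algebraMap L Ω f))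
    (b : L) (hb : IsIntegral R₀ b) :
    ∃ a : R₀, Algebra.trace K L (G * b) = algebraMap R₀ K a := by
  classical
  by_contra hcon
  -- the ideal of denominators of the trace
  let I : Ideal R₀ :=
    { carrier := {r | ∃ a : R₀, algebraMap R₀ K r * Algebra.trace K L (G * b) = algebraMap R₀ K a}
      add_mem' := by
        rintro r s ⟨a, ha⟩ ⟨a', ha'⟩
        exact ⟨a + a', by rw [map_add, add_mul, ha, ha', map_add]⟩
      zero_mem' := ⟨0, by simp⟩
      smul_mem' := by
        rintro r s ⟨a, ha⟩
        exact ⟨r * a, by rw [smul_eq_mul, map_mul, mul_assoc, ha, map_mul]⟩ }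
  have hI : I ≠ ⊤ := by
    intro h
    have h1 : (1 : R₀) ∈ I := by
      rw [h]
      trivial
    obtain ⟨a, ha⟩ := h1
    exact hcon ⟨a, by rw [← ha, map_one, one_mul]⟩
  obtain ⟨𝔭, h𝔭max, hI𝔭⟩ := Ideal.exists_le_maximal I hI
  haveI := h𝔭max.isPrime
  have h𝔭ne : 𝔭 ≠ ⊥ := by
    rintro rfl
    have hfield : IsField R₀ := Ring.isField_iff_maximal_bot.mpr h𝔭max
    obtain ⟨a, ha⟩ := (IsFractionRing.surjective_iff_isField (R := R₀) (K := K)).mpr hfield
      (Algebra.trace K L (G * b))
    exact hcon ⟨a, ha.symm⟩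
  -- localisation at `𝔭`
  have hle : 𝔭.primeCompl ≤ nonZeroDivisors R₀ := 𝔭.primeCompl_le_nonZeroDivisors
  let iA'K : Algebra (Localization.AtPrime 𝔭) K :=
    (IsLocalization.lift (M := 𝔭.primeCompl) (g := algebraMap R₀ K) (fun y =>
      IsUnit.mk0 _ ((map_ne_zero_iff _ (IsFractionRing.injective R₀ K)).mpr
        (nonZeroDivisors.ne_zero (hle y.2))))).toAlgebra
  have hT1 : IsScalarTower R₀ (Localization.AtPrime 𝔭) K :=
    IsScalarTower.of_algebraMap_eq (fun a => by
      rw [RingHom.algebraMap_toAlgebra, IsLocalization.lift_eq])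
  let iA'L : Algebra (Localization.AtPrime 𝔭) L :=
    ((algebraMap K L).comp (algebraMap (Localization.AtPrime 𝔭) K)).toAlgebra
  have hT2 : IsScalarTower (Localization.AtPrime 𝔭) K L :=
    IsScalarTower.of_algebraMap_eq (fun a => rfl)
  have hT3 : IsScalarTower R₀ (Localization.AtPrime 𝔭) L :=
    IsScalarTower.of_algebraMap_eq (fun a => by
      rw [IsScalarTower.algebraMap_apply (Localization.AtPrime 𝔭) K L,
        ← IsScalarTower.algebraMap_apply R₀ (Localization.AtPrime 𝔭) K,
        ← IsScalarTower.algebraMap_apply R₀ K L])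
  have hFrac : IsFractionRing (Localization.AtPrime 𝔭) K :=
    IsFractionRing.isFractionRing_of_isDomain_of_isLocalization 𝔭.primeCompl
      (Localization.AtPrime 𝔭) K
  have hDVR : IsDiscreteValuationRing (Localization.AtPrime 𝔭) :=
    IsLocalization.AtPrime.isDiscreteValuationRing_of_dedekind_domain R₀ h𝔭ne
      (Localization.AtPrime 𝔭)
  -- residue fields
  have hresA : ∀ a' : Localization.AtPrime 𝔭, ∃ a : k,
      a' - algebraMap R₀ (Localization.AtPrime 𝔭) (algebraMap k R₀ a) ∈
        maximalIdeal (Localization.AtPrime 𝔭) := by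
    intro a'
    obtain ⟨x, hx⟩ := (IsLocalization.AtPrime.equivQuotMaximalIdeal 𝔭
      (Localization.AtPrime 𝔭)).surjective (Ideal.Quotient.mk _ a')
    obtain ⟨r, rfl⟩ := Ideal.Quotient.mk_surjective x
    rw [IsLocalization.AtPrime.equivQuotMaximalIdeal_apply_mk, Ideal.Quotient.eq] at hx
    obtain ⟨a, ha⟩ := hk 𝔭 h𝔭max r
    refine ⟨a, ?_⟩
    have h1 : algebraMap R₀ (Localization.AtPrime 𝔭) (r - algebraMap k R₀ a) ∈
        maximalIdeal (Localization.AtPrime 𝔭) :=
      (IsLocalization.AtPrime.to_map_mem_maximal_iff (Localization.AtPrime 𝔭) 𝔭 _).mpr ha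
    have h2 : a' - algebraMap R₀ (Localization.AtPrime 𝔭) (algebraMap k R₀ a) =
        -(algebraMap R₀ (Localization.AtPrime 𝔭) r - a') +
          algebraMap R₀ (Localization.AtPrime 𝔭) (r - algebraMap k R₀ a) := by
      rw [map_sub]
      ring
    rw [h2]
    exact Ideal.add_mem _ (Ideal.neg_mem_iff _ |>.mpr hx) h1
  have hinf : Infinite (ResidueField (Localization.AtPrime 𝔭)) :=
    Infinite.of_injective
      ((residue (Localization.AtPrime 𝔭)).comp
        ((algebraMap R₀ (Localization.AtPrime 𝔭)).comp (algebraMap k R₀)))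
      (RingHom.injective _)
  have hres' : ∀ P : Ideal (integralClosure (Localization.AtPrime 𝔭) L), P.IsMaximal →
      ∀ b' : integralClosure (Localization.AtPrime 𝔭) L, ∃ a' : Localization.AtPrime 𝔭,
        b' - algebraMap (Localization.AtPrime 𝔭) (integralClosure (Localization.AtPrime 𝔭) L) a'
          ∈ P := by
    intro P hP b'
    haveI := hP
    have hq : P.comap (algebraMap (Localization.AtPrime 𝔭)
        (integralClosure (Localization.AtPrime 𝔭) L)) = maximalIdeal (Localization.AtPrime 𝔭) :=
      eq_maximalIdeal (Ideal.isMaximal_comap_of_isIntegral_of_isMaximal P)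
    obtain ⟨c', hc'⟩ := exists_sub_mem_of_isAlgClosed
      ((algebraMap R₀ (Localization.AtPrime 𝔭)).comp (algebraMap k R₀)) P (fun a' => by
        obtain ⟨a, ha⟩ := hresA a'
        exact ⟨a, by rw [hq]; exact ha⟩) b'
    exact ⟨_, hc'⟩
  -- the chain rule over the localisation
  have hinjΩ : Function.Injective (algebraMap L Ω) := (algebraMap L Ω).injective
  have hd' : ∀ a' : Localization.AtPrime 𝔭, ∃ e' : Localization.AtPrime 𝔭,
      δ (algebraMap L Ω (algebraMap (Localization.AtPrime 𝔭) L a')) =
        algebraMap L Ω (algebraMap (Localization.AtPrime 𝔭) L e') * c := by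
    intro a'
    obtain ⟨⟨r, s⟩, hrs⟩ := IsLocalization.surj 𝔭.primeCompl a'
    obtain ⟨er, her⟩ := hd r
    obtain ⟨es, hes⟩ := hd (s : R₀)
    have hs0 : algebraMap R₀ L (s : R₀) ≠ 0 := by
      rw [IsScalarTower.algebraMap_apply R₀ K L]
      exact (map_ne_zero_iff _ (algebraMap K L).injective).mpr
        ((map_ne_zero_iff _ (IsFractionRing.injective R₀ K)).mpr
          (nonZeroDivisors.ne_zero (hle s.2)))
    have hrsL : algebraMap (Localization.AtPrime 𝔭) L a' * algebraMap R₀ L (s : R₀) =
        algebraMap R₀ L r := by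
      have := congrArg (algebraMap (Localization.AtPrime 𝔭) L) hrs
      rwa [map_mul, ← IsScalarTower.algebraMap_apply, ← IsScalarTower.algebraMap_apply] at this
    refine ⟨(algebraMap R₀ (Localization.AtPrime 𝔭) er -
      a' * algebraMap R₀ (Localization.AtPrime 𝔭) es) * IsLocalization.mk' _ 1 s, ?_⟩
    have hmk : algebraMap (Localization.AtPrime 𝔭) L
        (IsLocalization.mk' (Localization.AtPrime 𝔭) 1 s) * algebraMap R₀ L (s : R₀) = 1 := by
      rw [IsScalarTower.algebraMap_apply R₀ (Localization.AtPrime 𝔭) L, ← map_mul,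
        IsLocalization.mk'_spec, map_one, map_one]
    have h1 := congrArg (fun z => δ (algebraMap L Ω z)) hrsL
    simp only [map_mul, hmul, her, hes] at h1
    apply mul_right_cancel₀ ((map_ne_zero_iff _ hinjΩ).mpr hs0)
    have hmk' := congrArg (algebraMap L Ω) hmk
    simp only [map_mul, map_one] at hmk'
    simp only [map_mul, map_sub, ← IsScalarTower.algebraMap_apply R₀ (Localization.AtPrime 𝔭) L]
    linear_combination h1 - (algebraMap L Ω (algebraMap R₀ L er) -
      algebraMap L Ω (algebraMap (Localization.AtPrime 𝔭) L a') *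
        algebraMap L Ω (algebraMap R₀ L es)) * c * hmk'
  have hb' : IsIntegral (Localization.AtPrime 𝔭) b := hb.tower_top
  obtain ⟨a', ha'⟩ := trace_mem_local (A := Localization.AtPrime 𝔭) (K := K) (L := L) hres' δ hadd
    hmul c hc hd' p f hf hU G hG b hb'
  obtain ⟨⟨a, s⟩, has⟩ := IsLocalization.surj 𝔭.primeCompl a'
  have hsI : (s : R₀) ∈ I := ⟨a, by
    rw [ha', IsScalarTower.algebraMap_apply R₀ (Localization.AtPrime 𝔭) K, ← map_mul, mul_comm,
      has, ← IsScalarTower.algebraMap_apply]⟩
  exact s.2 (hI𝔭 hsI)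

end Global

end Fermat.Agent.Lib.DerivDual
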