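import Mathlib

/-!
# Finite orbit under field automorphisms implies algebraic

`K` algebraically closed of characteristic zero, `k` a subfield.  If the orbit of `x : K` under
`Aut(K / k)` is finite then `x` is algebraic over `k`.

Proof: if `x` is transcendental, extend `{x}` to a transcendence basis `B`; the `k`-automorphism
`X_x ↦ X_x + 1` of `k[B]` extends to an automorphism of `K` (an algebraic closure of `k[B]`), and
its powers move `x` to `x + n`.

This is the descent step `ℂ → ℚ̄` for objects with finitely many conjugates.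
-/

set_option autoImplicit false

namespace Fermat.Agent.Lib.FiniteOrbitAlg

open MvPolynomial

section Shift

variable (k : Type*) [CommRing k] (ι : Type*)

/-- The `k`-algebra endomorphism `X_i ↦ X_i + c i` of `k[X_i]`. -/
noncomputable def shiftHom (c : ι → k) : MvPolynomial ι k →ₐ[k] MvPolynomial ι k :=
  aeval fun i => X i + C (c i)

@[simp] theorem shiftHom_X (c : ι → k) (i : ι) : shiftHom k ι c (X i) = X i + C (c i) := by
  simp [shiftHom]

theorem shiftHom_comp (c d : ι → k) :
    (shiftHom k ι c).comp (shiftHom k ι d) = shiftHom k ι (c + d) := by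
  apply MvPolynomial.algHom_ext
  intro i
  simp only [AlgHom.comp_apply, shiftHom_X, map_add, Pi.add_apply]
  have : (shiftHom k ι c) (C (d i)) = C (d i) := by
    simp [shiftHom]
  rw [this]
  ring

theorem shiftHom_zero : shiftHom k ι (0 : ι → k) = AlgHom.id k _ := by
  apply MvPolynomial.algHom_ext
  intro i
  simp

/-- The `k`-algebra automorphism `X_i ↦ X_i + c i` of `k[X_i]`. -/
noncomputable def shiftEquiv (c : ι → k) : MvPolynomial ι k ≃ₐ[k] MvPolynomial ι k :=
  AlgEquiv.ofAlgHom (shiftHom k ι c) (shiftHom k ι (-c))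
    (by rw [shiftHom_comp, add_neg_cancel, shiftHom_zero])
    (by rw [shiftHom_comp, neg_add_cancel, shiftHom_zero])

@[simp] theorem shiftEquiv_X (c : ι → k) (i : ι) : shiftEquiv k ι c (X i) = X i + C (c i) := by
  simp [shiftEquiv]

end Shift

variable {k K : Type*} [Field k] [Field K] [Algebra k K] [IsAlgClosed K]

/-- A transcendental element of an algebraically closed field can be moved to `x + 1` by a
`k`-automorphism. -/
theorem exists_algEquiv_add_one (x : K) (hx : Transcendental k x) :
    ∃ σ : K ≃ₐ[k] K, σ x = x + 1 := by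
  classical
  have hs : AlgebraicIndepOn k id ({x} : Set K) := by
    unfold AlgebraicIndepOn
    rw [algebraicIndependent_singleton_iff (⟨x, rfl⟩ : ({x} : Set K))]
    exact hx
  obtain ⟨t, hst, ht⟩ := exists_isTranscendenceBasis_superset hs
  let i₀ : t := ⟨x, hst rfl⟩
  have := IsAlgClosed.isAlgClosure_of_transcendence_basis ((↑) : t → K) ht
  let c : t → k := fun i => if i = i₀ then 1 else 0
  let e : Algebra.adjoin k (Set.range ((↑) : t → K)) ≃ₐ[k]
      Algebra.adjoin k (Set.range ((↑) : t → K)) :=
    ht.1.aevalEquiv.symm.trans ((shiftEquiv k t c).trans ht.1.aevalEquiv)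
  let σ₀ : K ≃+* K := IsAlgClosure.equivOfEquiv K K e.toRingEquiv
  have hσ₀ : ∀ a : Algebra.adjoin k (Set.range ((↑) : t → K)),
      σ₀ (algebraMap _ K a) = algebraMap _ K (e a) := fun a =>
    IsAlgClosure.equivOfEquiv_algebraMap K K e.toRingEquiv a
  refine ⟨AlgEquiv.ofRingEquiv (f := σ₀) ?_, ?_⟩
  · intro r
    have h1 : algebraMap k K r
        = algebraMap (Algebra.adjoin k (Set.range ((↑) : t → K))) K
          (algebraMap k (Algebra.adjoin k (Set.range ((↑) : t → K))) r) := rfl
    rw [h1, hσ₀, e.commutes]
  · show σ₀ x = x + 1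
    have hx' : x = algebraMap (Algebra.adjoin k (Set.range ((↑) : t → K))) K
        (ht.1.aevalEquiv (X i₀)) := by
      rw [ht.1.algebraMap_aevalEquiv, aeval_X]
    have he : e (ht.1.aevalEquiv (X i₀)) = ht.1.aevalEquiv (X i₀ + C 1) := by
      simp [e, c]
    conv_lhs => rw [hx']
    rw [hσ₀, he, ht.1.algebraMap_aevalEquiv]
    simp [i₀]

/-- **Finite orbit implies algebraic.** -/
theorem isAlgebraic_of_finite_orbit [CharZero K] (x : K)
    (h : (Set.range fun σ : K ≃ₐ[k] K => σ x).Finite) : IsAlgebraic k x := by
  by_contra hx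
  obtain ⟨σ, hσ⟩ := exists_algEquiv_add_one (k := k) x hx
  have hpow : ∀ n : ℕ, (σ ^ n) x = x + n := by
    intro n
    induction n with
    | zero => simp
    | succ n ih =>
      rw [pow_succ', AlgEquiv.mul_apply, ih, map_add, hσ, map_natCast]
      push_cast
      ring
  refine h.not_infinite (Set.infinite_of_injective_forall_mem (f := fun n : ℕ => x + n) ?_ ?_)
  · intro a b hab
    simpa using hab
  · intro n
    exact ⟨σ ^ n, hpow n⟩

/-- Version with a finite set containing the orbit. -/
theorem isAlgebraic_of_orbit_subset_finite [CharZero K] (x : K) (s : Set K) (hs : s.Finite)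
    (h : ∀ σ : K ≃ₐ[k] K, σ x ∈ s) : IsAlgebraic k x :=
  isAlgebraic_of_finite_orbit x (hs.subset (by rintro _ ⟨σ, rfl⟩; exact h σ))

/-- Family version: if a family `c : ι → K` has finitely many conjugates `σ ∘ c`, then every
member is algebraic. -/
theorem isAlgebraic_of_finite_orbit_family [CharZero K] {ι : Type*} (c : ι → K)
    (h : (Set.range fun σ : K ≃ₐ[k] K => fun i => σ (c i)).Finite) (i : ι) :
    IsAlgebraic k (c i) := by
  refine isAlgebraic_of_finite_orbit (c i) ((h.image fun f : ι → K => f i).subset ?_)
  rintro _ ⟨σ, rfl⟩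
  exact ⟨fun j => σ (c j), ⟨σ, rfl⟩, rfl⟩

/-! ### Ring-automorphism versions over `ℚ`, and descent to an algebraically closed subfield -/

section Rat

variable {F : Type*} [Field F] [IsAlgClosed F] [CharZero F]

/-- An element of an algebraically closed field of characteristic zero with finite orbit under
all ring automorphisms is algebraic over `ℚ`. -/
theorem isAlgebraic_rat_of_finite_orbit (x : F)
    (h : (Set.range fun σ : F ≃+* F => σ x).Finite) : IsAlgebraic ℚ x := by
  refine isAlgebraic_of_finite_orbit (k := ℚ) x (h.subset ?_)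
  rintro _ ⟨σ, rfl⟩
  exact ⟨σ.toRingEquiv, rfl⟩

/-- Family version of `isAlgebraic_rat_of_finite_orbit`. -/
theorem isAlgebraic_rat_of_finite_orbit_family {ι : Type*} (c : ι → F)
    (h : (Set.range fun σ : F ≃+* F => fun i => σ (c i)).Finite) (i : ι) :
    IsAlgebraic ℚ (c i) := by
  refine isAlgebraic_rat_of_finite_orbit (c i) ((h.image fun f : ι → F => f i).subset ?_)
  rintro _ ⟨σ, rfl⟩
  exact ⟨fun j => σ (c j), ⟨σ, rfl⟩, rfl⟩

end Rat

/-- An element algebraic over `k` lies in the image of any `k`-embedding of an algebraically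
closed field. -/
theorem mem_range_of_isAlgebraic {k L M : Type*} [Field k] [Field L] [Field M] [Algebra k L]
    [Algebra k M] [IsAlgClosed L] (j : L →ₐ[k] M) {x : M} (hx : IsAlgebraic k x) :
    x ∈ Set.range j := by
  have hint : IsIntegral k x := hx.isIntegral
  have hsplit : ((minpoly k x).map (algebraMap k L)).Splits := IsAlgClosed.splits _
  have hne : (minpoly k x).map (algebraMap k L) ≠ 0 :=
    Polynomial.map_ne_zero (minpoly.ne_zero hint)
  have hroot : (((minpoly k x).map (algebraMap k L)).map (j : L →+* M)).IsRoot x := by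
    rw [Polynomial.map_map, j.comp_algebraMap, Polynomial.IsRoot.def,
      Polynomial.eval_map_algebraMap, minpoly.aeval]
  obtain ⟨y, hy⟩ := hsplit.mem_range_of_isRoot hne hroot
  exact ⟨y, hy⟩

/-- An element algebraic over `ℚ` lies in the image of any ring hom from an algebraically closed
field of characteristic zero. -/
theorem mem_range_of_isAlgebraic_rat {L M : Type*} [Field L] [Field M] [CharZero L] [CharZero M]
    [IsAlgClosed L] (j : L →+* M) {x : M} (hx : IsAlgebraic ℚ x) : x ∈ Set.range j := by
  obtain ⟨y, hy⟩ := mem_range_of_isAlgebraic (k := ℚ) j.toRatAlgHom hx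
  exact ⟨y, hy⟩

section Descent

variable {L M : Type*} [Field L] [Field M] [CharZero L] [CharZero M] [IsAlgClosed L]
  [IsAlgClosed M] (j : L →+* M)

/-- **Descent of elements**: finite orbit under all ring automorphisms of `M` implies coming from
the algebraically closed subfield `L` (e.g. `L = ℚ̄`, `M = ℂ`). -/
theorem mem_range_of_finite_orbit (x : M) (h : (Set.range fun σ : M ≃+* M => σ x).Finite) :
    x ∈ Set.range j :=
  mem_range_of_isAlgebraic_rat j (isAlgebraic_rat_of_finite_orbit x h)

/-- **Descent of families.** -/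
theorem exists_family_of_finite_orbit {ι : Type*} (c : ι → M)
    (h : (Set.range fun σ : M ≃+* M => fun i => σ (c i)).Finite) :
    ∃ d : ι → L, ∀ i, j (d i) = c i := by
  have hmem : ∀ i, c i ∈ Set.range j := fun i =>
    mem_range_of_isAlgebraic_rat j (isAlgebraic_rat_of_finite_orbit_family c h i)
  choose d hd using hmem
  exact ⟨d, hd⟩

/-- **Descent of power series**: a power series over `M` with finitely many coefficientwise
conjugates has coefficients in `L`. -/
theorem exists_powerSeries_of_finite_orbit (f : PowerSeries M)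
    (h : (Set.range fun σ : M ≃+* M => fun n : ℕ => σ (PowerSeries.coeff n f)).Finite) :
    ∃ g : PowerSeries L, PowerSeries.map j g = f := by
  obtain ⟨d, hd⟩ := exists_family_of_finite_orbit j (fun n : ℕ => PowerSeries.coeff n f) h
  refine ⟨PowerSeries.mk d, ?_⟩
  ext n
  rw [PowerSeries.coeff_map, PowerSeries.coeff_mk, hd]

/-- **Descent of Laurent series**: a Laurent series over `M` with finitely many coefficientwise
conjugates has coefficients in `L`. -/
theorem exists_laurentSeries_of_finite_orbit (f : LaurentSeries M)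
    (h : (Set.range fun σ : M ≃+* M => fun n : ℤ => σ (f.coeff n)).Finite) :
    ∃ g : LaurentSeries L, g.map j = f := by
  have hmem : ∀ n : ℤ, f.coeff n ∈ Set.range j := fun n =>
    mem_range_of_isAlgebraic_rat j
      (isAlgebraic_rat_of_finite_orbit_family (fun n : ℤ => f.coeff n) h n)
  have hinj : Function.Injective j := j.injective
  let s : ZeroHom M L :=
    ⟨Function.invFun j, by
      have := Function.leftInverse_invFun hinj (0 : L)
      rwa [map_zero] at this⟩
  refine ⟨f.map s, ?_⟩
  ext n
  obtain ⟨y, hy⟩ := hmem n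
  simp only [HahnSeries.map_coeff]
  show j (Function.invFun j (f.coeff n)) = f.coeff n
  rw [← hy, Function.leftInverse_invFun hinj y]

end Descent

/-- Specialisation to `ℚ̄ ⊆ ℂ`. -/
theorem complex_isAlgebraic_of_finite_orbit (x : ℂ)
    (h : (Set.range fun σ : ℂ ≃+* ℂ => σ x).Finite) : IsAlgebraic ℚ x :=
  isAlgebraic_rat_of_finite_orbit x h

theorem complex_mem_range_of_finite_orbit (j : AlgebraicClosure ℚ →+* ℂ) (x : ℂ)
    (h : (Set.range fun σ : ℂ ≃+* ℂ => σ x).Finite) : x ∈ Set.range j :=
  mem_range_of_finite_orbit j x h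

end Fermat.Agent.Lib.FiniteOrbitAlg
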