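import Mathlib
import Fermat.Agent.S36.Descent

/-!
# Descent of invariant Kummer classes in an arbitrary subfield of `ℚ̄((q))`

`S36.Descent.exists_invariant_rep` is stated for the modular function fields `Fb N`.  Here the
same Hilbert-90 argument (normalised roots + Poincaré sum; no `H²`, no infinite Galois theory)
for an ARBITRARY subfield `M ⊆ ℚ̄((q))` containing the constants, e.g. a Kummer cover
`Fb N (h)`, `h ^ p ∈ Fb N`, of a modular function field.

`act τ = coeffMap τ` is the coefficientwise action of `Gq = Gal(ℚ̄/ℚ)` on `ℚ̄((q))`.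

* `exists_invariant_rep` : if `f ∈ M`, `f ≠ 0`, is fixed by the automorphisms fixing a number
  field and `∀ τ ∈ I, ∃ k ∈ M, τ f = f * k ^ m`, then `f = f0 * h ^ m` with `f0, h ∈ M` and
  `τ f0 = f0` for all `τ ∈ I`.  (`M` need not be stable under `I`.)
* `coeff_fixed` : the coefficients of an `I`-fixed series are `I`-fixed.
* `exists_invariant_rep_of_mem_Fb` : the same for `f` in a modular function field `Fb N`
  contained in `M` (the finiteness hypothesis is `S30.GaussDescent.exists_descent`).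
-/

set_option autoImplicit false

noncomputable section

namespace Fermat.Agent.Lib.DescentSubfield

open HahnSeries ModularCurve AlgebraicCurve
open Fermat.Agent.S30 Fermat.Agent.S30.E4 Fermat.Agent.S36.Descent

local notation "Qb" => AlgebraicClosure ℚ
local notation "Gq" => (AlgebraicClosure ℚ ≃ₐ[ℚ] AlgebraicClosure ℚ)
local notation "LS" => LaurentSeries (AlgebraicClosure ℚ)

/-- The coefficientwise action of `Gal(ℚ̄/ℚ)` on `ℚ̄((q))`. -/
abbrev act (σ : Gq) : LS →+* LS := coeffMap (σ : Qb →+* Qb)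

theorem act_mul (σ τ : Gq) (x : LS) : act (σ * τ) x = act σ (act τ x) := by
  show coeffMap ((σ * τ : Gq) : Qb →+* Qb) x =
    coeffMap (σ : Qb →+* Qb) (coeffMap (τ : Qb →+* Qb) x)
  rw [coeffMap_coeffMap]
  exact coeffMap_congr (RingHom.ext fun _ => rfl) _

theorem act_algebraMap (σ : Gq) (c : Qb) :
    act σ (algebraMap Qb LS c) = algebraMap Qb LS (σ c) :=
  coeffMap_algebraMap (σ : Qb →+* Qb) c

theorem leadingCoeff_act (σ : Gq) (x : LS) : (act σ x).leadingCoeff = σ x.leadingCoeff :=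
  leadingCoeff_coeffMap (σ : Qb →+* Qb) x

theorem ne_zero_of_leadingCoeff_eq_one {x : LS} (hx : x.leadingCoeff = 1) : x ≠ 0 := by
  rintro rfl
  rw [leadingCoeff_zero] at hx
  exact zero_ne_one hx

/-- The coefficients of a series fixed by `τ` are fixed by `τ`. -/
theorem coeff_fixed {τ : Gq} {x : LS} (h : act τ x = x) (n : ℤ) : τ (x.coeff n) = x.coeff n := by
  have h1 := congrArg (fun z : LS => z.coeff n) h
  simpa [act, coeffMap_coeff] using h1

/-- Existence of a normalised root inside `M`. -/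
theorem exists_normalised_root (M : Subfield LS) (hconst : ∀ c : Qb, algebraMap Qb LS c ∈ M)
    {m : ℕ} (hm : 0 < m) {f : LS} (hlc : f.leadingCoeff = 1) {τ : Gq} {k : LS} (hkM : k ∈ M)
    (hk : act τ f = f * k ^ m) :
    ∃ w ∈ M, act τ f = f * w ^ m ∧ w.leadingCoeff = 1 := by
  have h1 : k.leadingCoeff ^ m = 1 := by
    have := congrArg HahnSeries.leadingCoeff hk
    rw [leadingCoeff_act, hlc, map_one, leadingCoeff_mul, hlc, one_mul, leadingCoeff_pow_eq] at this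
    exact this.symm
  have hc : k.leadingCoeff ≠ 0 := by
    intro h0; rw [h0, zero_pow hm.ne'] at h1; exact zero_ne_one h1
  refine ⟨k * algebraMap Qb LS (k.leadingCoeff)⁻¹, M.mul_mem hkM (hconst _), ?_, ?_⟩
  · rw [mul_pow, ← map_pow, inv_pow, h1, inv_one, map_one, mul_one]; exact hk
  · rw [leadingCoeff_mul, leadingCoeff_algebraMap, mul_inv_cancel₀ hc]

/-- **Poincaré sum.**  If `lc f = 1`, `f` is fixed by the automorphisms fixing the number field
`E₀`, and the class of `f` modulo `m`-th powers of `M` is `I`-invariant, there is `b ≠ 0` in `M`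
with `f * b ^ m` fixed by `I`. -/
theorem exists_poincare (M : Subfield LS) (hconst : ∀ c : Qb, algebraMap Qb LS c ∈ M)
    (I : Subgroup Gq) {m : ℕ} (hm : 0 < m) (f : LS) (hf : f ≠ 0) (hlc : f.leadingCoeff = 1)
    (E₀ : IntermediateField ℚ Qb) (hE₀ : FiniteDimensional ℚ E₀)
    (hfix0 : ∀ τ : Gq, (∀ x ∈ E₀, τ x = x) → act τ f = f)
    (hinv : ∀ τ ∈ I, ∃ k ∈ M, act τ f = f * k ^ m) :
    ∃ b ∈ M, b ≠ 0 ∧ ∀ σ ∈ I, act σ (f * b ^ m) = f * b ^ m := by
  classical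
  -- normalised roots
  have hroot : ∀ τ : Gq, ∃ w : LS, τ ∈ I → (w ∈ M ∧ act τ f = f * w ^ m ∧ w.leadingCoeff = 1) := by
    intro τ
    by_cases hτ : τ ∈ I
    · obtain ⟨k, hkM, hk⟩ := hinv τ hτ
      obtain ⟨w, hwM, hw⟩ := exists_normalised_root M hconst hm hlc hkM hk
      exact ⟨w, fun _ => ⟨hwM, hw⟩⟩
    · exact ⟨1, fun h => absurd h hτ⟩
  choose w hw using hroot
  have huniq : ∀ τ ∈ I, ∀ v : LS, act τ f = f * v ^ m → v.leadingCoeff = 1 → v = w τ := by
    intro τ hτ v hv hvlc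
    obtain ⟨-, h1, h2⟩ := hw τ hτ
    refine eq_of_pow_eq_of_leadingCoeff_eq hm (ne_zero_of_leadingCoeff_eq_one h2) ?_
      (hvlc.trans h2.symm)
    exact mul_left_cancel₀ hf (hv.symm.trans h1)
  have hcoc : ∀ σ ∈ I, ∀ τ ∈ I, w (σ * τ) = w σ * act σ (w τ) := by
    intro σ hσ τ hτ
    obtain ⟨-, h1, h2⟩ := hw σ hσ
    obtain ⟨-, h3, h4⟩ := hw τ hτ
    refine (huniq (σ * τ) (I.mul_mem hσ hτ) _ ?_ ?_).symm
    · rw [act_mul, h3, map_mul, map_pow, h1, mul_pow, mul_assoc]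
    · rw [leadingCoeff_mul, h2, leadingCoeff_act, h4, map_one, one_mul]
  -- the coefficient field
  have : Normal ℚ Qb := normal_rat_Qb
  let E : IntermediateField ℚ Qb := IntermediateField.normalClosure ℚ E₀ Qb
  have hEfin : FiniteDimensional ℚ E := normalClosure.is_finiteDimensional ℚ E₀ Qb
  have hEnorm : Normal ℚ E := normalClosure.normal ℚ E₀ Qb
  have hE₀E : E₀ ≤ E := IntermediateField.le_normalClosure E₀
  let r : Gq →* (E ≃ₐ[ℚ] E) := AlgEquiv.restrictNormalHom E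
  have hr : ∀ (σ : Gq) (x : E), algebraMap E Qb (r σ x) = σ (algebraMap E Qb x) :=
    fun σ x => AlgEquiv.restrictNormal_commutes σ E x
  -- `τ` trivial on `E` fixes `f`
  have hfix : ∀ τ : Gq, r τ = 1 → act τ f = f := by
    intro τ hτ
    refine hfix0 τ fun x hx => ?_
    have h1 := hr τ ⟨x, hE₀E hx⟩
    rw [hτ] at h1
    exact h1.symm
  have hw1 : ∀ υ ∈ I, r υ = 1 → w υ = 1 := by
    intro υ hυ h1
    refine (huniq υ hυ 1 ?_ leadingCoeff_one).symm
    rw [hfix υ h1, one_pow, mul_one]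
  have hconstw : ∀ σ ∈ I, ∀ σ' ∈ I, r σ = r σ' → w σ = w σ' := by
    intro σ hσ σ' hσ' h
    have hυ : σ⁻¹ * σ' ∈ I := I.mul_mem (I.inv_mem hσ) hσ'
    have h1 : r (σ⁻¹ * σ') = 1 := by rw [map_mul, map_inv, h, inv_mul_cancel]
    have h2 : σ' = σ * (σ⁻¹ * σ') := by rw [mul_inv_cancel_left]
    rw [h2, hcoc σ hσ _ hυ, hw1 _ hυ h1, map_one, mul_one]
  -- the coefficients of the Poincaré sum
  let c : (E ≃ₐ[ℚ] E) → LS := fun g =>
    if h : ∃ τ, τ ∈ I ∧ r τ = g then w (Classical.choose h) else 0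
  have hc_of : ∀ τ ∈ I, c (r τ) = w τ := by
    intro τ hτ
    have h : ∃ τ', τ' ∈ I ∧ r τ' = r τ := ⟨τ, hτ, rfl⟩
    show (if h : ∃ τ', τ' ∈ I ∧ r τ' = r τ then w (Classical.choose h) else 0) = w τ
    rw [dif_pos h]
    exact hconstw _ (Classical.choose_spec h).1 τ hτ (Classical.choose_spec h).2
  have hc_zero : ∀ g, (¬ ∃ τ, τ ∈ I ∧ r τ = g) → c g = 0 := by
    intro g h
    show (if h : ∃ τ', τ' ∈ I ∧ r τ' = g then w (Classical.choose h) else 0) = 0
    rw [dif_neg h]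
  have hc_mem : ∀ g, c g ∈ M := by
    intro g
    by_cases h : ∃ τ, τ ∈ I ∧ r τ = g
    · obtain ⟨τ, hτ, rfl⟩ := h
      rw [hc_of τ hτ]
      exact (hw τ hτ).1
    · rw [hc_zero g h]
      exact M.zero_mem
  have hstep : ∀ σ ∈ I, ∀ g, act σ (c g) * w σ = c (r σ * g) := by
    intro σ hσ g
    by_cases h : ∃ τ, τ ∈ I ∧ r τ = g
    · obtain ⟨τ, hτ, rfl⟩ := h
      rw [hc_of τ hτ, ← map_mul r, hc_of (σ * τ) (I.mul_mem hσ hτ), hcoc σ hσ τ hτ, mul_comm]
    · rw [hc_zero g h, map_zero, zero_mul]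
      symm
      apply hc_zero
      rintro ⟨τ', hτ', h'⟩
      apply h
      refine ⟨σ⁻¹ * τ', I.mul_mem (I.inv_mem hσ) hτ', ?_⟩
      rw [map_mul, map_inv, h', inv_mul_cancel_left]
  -- the characters
  let ψ : E →+* LS := (algebraMap Qb LS).comp (algebraMap E Qb)
  have hψinj : Function.Injective ψ := ψ.injective
  let φ : (E ≃ₐ[ℚ] E) → (E →* LS) := fun g =>
    (ψ : E →* LS).comp ((g : E →+* E) : E →* E)
  have hφ : ∀ g x, φ g x = ψ (g x) := fun _ _ => rfl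
  have hφinj : Function.Injective φ := by
    intro g g' h
    ext x
    have h1 : φ g x = φ g' x := by rw [h]
    rw [hφ, hφ] at h1
    exact congrArg _ (hψinj h1)
  have hLI : LinearIndependent LS (fun g : E ≃ₐ[ℚ] E => (φ g : E → LS)) :=
    (linearIndependent_monoidHom E LS).comp φ hφinj
  have hc1 : c 1 = 1 := by
    have h1 := hc_of 1 I.one_mem
    rw [map_one] at h1
    rw [h1]
    exact hw1 1 I.one_mem (map_one r)
  obtain ⟨x, hx⟩ : ∃ x : E, ∑ g : E ≃ₐ[ℚ] E, c g * φ g x ≠ 0 := by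
    by_contra hcon
    have hcon' : ∀ x : E, ∑ g : E ≃ₐ[ℚ] E, c g * φ g x = 0 := fun x =>
      not_not.mp fun h => hcon ⟨x, h⟩
    have h0 : ∑ g : E ≃ₐ[ℚ] E, c g • (φ g : E → LS) = 0 := by
      funext x
      rw [Finset.sum_apply]
      simpa using hcon' x
    have h1 := Fintype.linearIndependent_iff.mp hLI c h0 1
    rw [hc1] at h1
    exact one_ne_zero h1
  have hbM : ∑ g : E ≃ₐ[ℚ] E, c g * φ g x ∈ M := by
    refine M.sum_mem fun g _ => M.mul_mem (hc_mem g) ?_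
    exact hconst _
  refine ⟨∑ g : E ≃ₐ[ℚ] E, c g * φ g x, hbM, hx, ?_⟩
  intro σ hσ
  -- `σ b * w σ = b`
  have hgalφ : ∀ g : E ≃ₐ[ℚ] E, act σ (φ g x) = φ (r σ * g) x := by
    intro g
    rw [hφ, hφ]
    show act σ (algebraMap Qb LS (algebraMap E Qb (g x))) =
      algebraMap Qb LS (algebraMap E Qb ((r σ * g) x))
    rw [act_algebraMap, ← hr σ (g x)]
    rfl
  have hb : act σ (∑ g : E ≃ₐ[ℚ] E, c g * φ g x) * w σ = ∑ g : E ≃ₐ[ℚ] E, c g * φ g x := by
    rw [map_sum, Finset.sum_mul]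
    have h1 : ∀ g : E ≃ₐ[ℚ] E, act σ (c g * φ g x) * w σ = c (r σ * g) * φ (r σ * g) x := by
      intro g
      rw [map_mul, hgalφ, mul_right_comm, hstep σ hσ g]
    rw [Finset.sum_congr rfl fun g _ => h1 g]
    exact Fintype.sum_equiv (Equiv.mulLeft (r σ)) _ _ fun g => rfl
  obtain ⟨-, h1, -⟩ := hw σ hσ
  rw [map_mul, map_pow, h1, mul_assoc, ← mul_pow, mul_comm (w σ), hb]

/-- **Descent of invariant Kummer classes (Hilbert 90) in a subfield `M` of `ℚ̄((q))`.**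
If `f ∈ M` is fixed by the automorphisms fixing a number field and its class modulo `m`-th powers
of `M` is invariant under the subgroup `I` of `Gal(ℚ̄/ℚ)`, then `f = f0 * h ^ m` with
`f0, h ∈ M` and `f0` fixed by `I`. -/
theorem exists_invariant_rep (M : Subfield LS) (hconst : ∀ c : Qb, algebraMap Qb LS c ∈ M)
    (I : Subgroup Gq) {m : ℕ} (hm : 0 < m) (f : LS) (hfM : f ∈ M) (hf : f ≠ 0)
    (hfin : ∃ E₀ : IntermediateField ℚ Qb, FiniteDimensional ℚ E₀ ∧
      ∀ τ : Gq, (∀ x ∈ E₀, τ x = x) → act τ f = f)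
    (hinv : ∀ τ ∈ I, ∃ k ∈ M, act τ f = f * k ^ m) :
    ∃ f0 h : LS, f0 ∈ M ∧ h ∈ M ∧ h ≠ 0 ∧ f = f0 * h ^ m ∧ ∀ τ ∈ I, act τ f0 = f0 := by
  obtain ⟨E₀, hE₀, hfix0⟩ := hfin
  have hc : f.leadingCoeff ≠ 0 := leadingCoeff_ne_zero.mpr hf
  set a : Qb := f.leadingCoeff with ha
  set f₁ : LS := f * algebraMap Qb LS a⁻¹ with hf₁
  have hf₁M : f₁ ∈ M := M.mul_mem hfM (hconst _)
  have hf₁0 : f₁ ≠ 0 := by
    refine mul_ne_zero hf ?_
    rw [Ne, map_eq_zero]
    exact inv_ne_zero hc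
  have hlc₁ : f₁.leadingCoeff = 1 := by
    rw [hf₁, leadingCoeff_mul, leadingCoeff_algebraMap, ← ha, mul_inv_cancel₀ hc]
  have hff₁ : f = f₁ * algebraMap Qb LS a := by
    rw [hf₁, mul_assoc, ← map_mul, inv_mul_cancel₀ hc, map_one, mul_one]
  -- enlarge the number field by the leading coefficient
  let E₁ : IntermediateField ℚ Qb := E₀ ⊔ IntermediateField.adjoin ℚ {a}
  have hE₁ : FiniteDimensional ℚ E₁ := by
    have : FiniteDimensional ℚ (IntermediateField.adjoin ℚ ({a} : Set Qb)) :=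
      IntermediateField.adjoin.finiteDimensional
        (GaussDescent.isAlgebraic_rat_Qb.isAlgebraic a).isIntegral
    exact IntermediateField.finiteDimensional_sup E₀ _
  have hfix1 : ∀ τ : Gq, (∀ x ∈ E₁, τ x = x) → act τ f₁ = f₁ := by
    intro τ hτ
    have h1 : act τ f = f := hfix0 τ fun x hx => hτ x ((le_sup_left : E₀ ≤ E₁) hx)
    have h2 : τ a = a := hτ a ((le_sup_right : IntermediateField.adjoin ℚ {a} ≤ E₁)
      (IntermediateField.mem_adjoin_simple_self ℚ a))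
    rw [hf₁, map_mul, h1, act_algebraMap, map_inv₀, h2]
  have hinv₁ : ∀ τ ∈ I, ∃ k ∈ M, act τ f₁ = f₁ * k ^ m := by
    intro τ hτ
    obtain ⟨k, hkM, hk⟩ := hinv τ hτ
    obtain ⟨d, hd⟩ := IsAlgClosed.exists_pow_nat_eq (a * (τ a)⁻¹) hm
    refine ⟨k * algebraMap Qb LS d, M.mul_mem hkM (hconst _), ?_⟩
    rw [hf₁, map_mul, hk, act_algebraMap, mul_pow, ← map_pow, hd, map_mul, map_inv₀]
    have h1 : algebraMap Qb LS a⁻¹ * algebraMap Qb LS a = 1 := by
      rw [← map_mul, inv_mul_cancel₀ hc, map_one]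
    calc f * k ^ m * algebraMap Qb LS (τ a)⁻¹
        = f * k ^ m * (algebraMap Qb LS a⁻¹ * algebraMap Qb LS a) *
            algebraMap Qb LS (τ a)⁻¹ := by rw [h1, mul_one]
      _ = f * algebraMap Qb LS a⁻¹ *
            (k ^ m * (algebraMap Qb LS a * algebraMap Qb LS (τ a)⁻¹)) := by ring
  obtain ⟨b, hbM, hb0, hb⟩ := exists_poincare M hconst I hm f₁ hf₁0 hlc₁ E₁ hE₁ hfix1 hinv₁
  obtain ⟨e, he⟩ := IsAlgClosed.exists_pow_nat_eq a hm
  have he0 : e ≠ 0 := by
    rintro rfl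
    rw [zero_pow hm.ne'] at he
    exact hc he.symm
  refine ⟨f₁ * b ^ m, b⁻¹ * algebraMap Qb LS e, M.mul_mem hf₁M (M.pow_mem hbM m),
    M.mul_mem (M.inv_mem hbM) (hconst _), ?_, ?_, hb⟩
  · refine mul_ne_zero (inv_ne_zero hb0) ?_
    rw [Ne, map_eq_zero]
    exact he0
  · rw [mul_pow, ← map_pow, he, inv_pow, hff₁]
    have h2 : b ^ m * (b ^ m)⁻¹ = 1 := mul_inv_cancel₀ (pow_ne_zero m hb0)
    calc f₁ * algebraMap Qb LS a = f₁ * (b ^ m * (b ^ m)⁻¹) * algebraMap Qb LS a := by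
          rw [h2, mul_one]
      _ = f₁ * b ^ m * ((b ^ m)⁻¹ * algebraMap Qb LS a) := by ring

/-- The finiteness hypothesis of `exists_invariant_rep` for elements of a modular function
field. -/
theorem exists_fixed_of_mem_Fb (N : ℕ) (f : Fb N) :
    ∃ E₀ : IntermediateField ℚ Qb, FiniteDimensional ℚ E₀ ∧
      ∀ τ : Gq, (∀ x ∈ E₀, τ x = x) → act τ (f : LS) = (f : LS) := by
  obtain ⟨E₀, hE₀, hdesc⟩ := GaussDescent.exists_descent (modularFunctionFieldFull N) f.2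
  refine ⟨E₀, hE₀, fun τ hτ => ?_⟩
  obtain ⟨y, -, hyf⟩ := hdesc E₀ le_rfl
  rw [← hyf]
  show coeffMap (τ : Qb →+* Qb) (coeffMap (algebraMap E₀ Qb) y) = coeffMap (algebraMap E₀ Qb) y
  rw [coeffMap_coeffMap]
  refine coeffMap_congr (RingHom.ext fun x => ?_) y
  exact hτ (x : Qb) x.2

/-- **Descent on a cover**: `exists_invariant_rep` for `f` in a modular function field `Fb N`
contained in the subfield `M` of `ℚ̄((q))` (e.g. `M` a Kummer cover of `Fb N`). -/
theorem exists_invariant_rep_of_mem_Fb (N : ℕ) (M : Subfield LS)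
    (hFM : ∀ x : Fb N, (x : LS) ∈ M) (I : Subgroup Gq) {m : ℕ} (hm : 0 < m) (f : Fb N)
    (hf : f ≠ 0) (hinv : ∀ τ ∈ I, ∃ k ∈ M, act τ (f : LS) = (f : LS) * k ^ m) :
    ∃ f0 h : LS, f0 ∈ M ∧ h ∈ M ∧ h ≠ 0 ∧ (f : LS) = f0 * h ^ m ∧ ∀ τ ∈ I, act τ f0 = f0 := by
  refine exists_invariant_rep M (fun c => ?_) I hm (f : LS) (hFM f) ?_
    (exists_fixed_of_mem_Fb N f) hinv
  · have h := hFM (algebraMap Qb (Fb N) c)
    exact h
  · intro h
    exact hf (Subtype.ext h)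

end Fermat.Agent.Lib.DescentSubfield
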