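import Mathlib

/-!
# Elements with a finite automorphism orbit are algebraic

Let `L / K` be a field extension with `L` algebraically closed.  If `x : L` is transcendental
over `K`, then for every `c : K` there is a `K`-automorphism of `L` with `x ↦ x + c`
(extend `{x}` to a transcendence basis, shift the corresponding variable of the polynomial ring,
and extend to `L` by uniqueness of algebraic closures).  Consequently an element whose orbit under
`L ≃ₐ[K] L` is finite (for instance an element fixed by a subgroup of finite index) is algebraic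
over `K` when `K` is infinite.  This is the descent step "defined over `ℂ` with finitely many
conjugates ⇒ defined over `ℚ̄`".
-/

set_option autoImplicit false

open MvPolynomial

namespace Fermat.Agent.Lib.FiniteOrbit

variable {K L : Type*} [Field K] [Field L] [Algebra K L]

section Shift

variable {ι : Type*} (d : ι → K)

/-- The `K`-algebra endomorphism `X i ↦ X i + d i` of a polynomial ring. -/
noncomputable def shiftHom : MvPolynomial ι K →ₐ[K] MvPolynomial ι K :=
  aeval fun i => X i + C (d i)

@[simp] lemma shiftHom_X (i : ι) : shiftHom d (X i) = X i + C (d i) := by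
  simp [shiftHom]

lemma shiftHom_comp_neg : (shiftHom d).comp (shiftHom (fun i => -d i)) = AlgHom.id K _ := by
  ext i
  simp [shiftHom]

/-- The `K`-algebra automorphism `X i ↦ X i + d i` of a polynomial ring. -/
noncomputable def shiftEquiv : MvPolynomial ι K ≃ₐ[K] MvPolynomial ι K :=
  AlgEquiv.ofAlgHom (shiftHom d) (shiftHom fun i => -d i) (shiftHom_comp_neg d)
    (by simpa using shiftHom_comp_neg (fun i => -d i))

@[simp] lemma shiftEquiv_X (i : ι) : shiftEquiv d (X i) = X i + C (d i) := by
  simp [shiftEquiv]

end Shift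

/-- If `x` is transcendental over `K` in an algebraically closed field `L`, then for every
`c : K` some `K`-automorphism of `L` maps `x` to `x + c`. -/
theorem exists_algEquiv_translate [IsAlgClosed L] (x : L) (hx : Transcendental K x) (c : K) :
    ∃ σ : L ≃ₐ[K] L, σ x = x + algebraMap K L c := by
  classical
  -- a transcendence basis through `x`
  have hind : AlgebraicIndepOn K id ({x} : Set L) := by
    have : AlgebraicIndependent K (fun i : ({x} : Set L) => (i : L)) :=
      (algebraicIndependent_singleton_iff (⟨x, rfl⟩ : ({x} : Set L))).2 hx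
    exact this
  obtain ⟨t, hxt, ht⟩ := exists_isTranscendenceBasis_superset hind
  have hxmem : x ∈ t := hxt rfl
  set v : t → L := fun i => (i : L) with hv
  let A := Algebra.adjoin K (Set.range v)
  have : IsAlgClosure A L := IsAlgClosed.isAlgClosure_of_transcendence_basis v ht
  let e : MvPolynomial t K ≃ₐ[K] A := ht.1.aevalEquiv
  let d : t → K := fun i => if (i : L) = x then c else 0
  let eA : A ≃ₐ[K] A := (e.symm.trans (shiftEquiv d)).trans e
  let σ₀ : L ≃+* L := IsAlgClosure.equivOfEquiv L L eA.toRingEquiv
  have hσ₀ : ∀ a : A, σ₀ (algebraMap A L a) = algebraMap A L (eA a) := fun a =>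
    IsAlgClosure.equivOfEquiv_algebraMap L L eA.toRingEquiv a
  have hcomm : ∀ k : K, σ₀ (algebraMap K L k) = algebraMap K L k := fun k => by
    have h1 : algebraMap K L k = algebraMap A L (algebraMap K A k) :=
      IsScalarTower.algebraMap_apply K A L k
    rw [h1, hσ₀, AlgEquiv.commutes]
  refine ⟨AlgEquiv.ofRingEquiv (f := σ₀) hcomm, ?_⟩
  have hx1 : x = algebraMap A L (e (X ⟨x, hxmem⟩)) := by
    rw [AlgebraicIndependent.algebraMap_aevalEquiv]
    simp [hv]
  have hx2 : eA (e (X ⟨x, hxmem⟩)) = e (X ⟨x, hxmem⟩ + C c) := by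
    simp [eA, d]
  change σ₀ x = x + algebraMap K L c
  conv_lhs => rw [hx1]
  rw [hσ₀, hx2, AlgebraicIndependent.algebraMap_aevalEquiv]
  simp [hv]

/-- An element of an algebraically closed extension `L` of an infinite field `K` whose orbit
under `L ≃ₐ[K] L` is finite is algebraic over `K`. -/
theorem isAlgebraic_of_finite_orbit [IsAlgClosed L] [Infinite K] (x : L)
    (h : (Set.range fun σ : L ≃ₐ[K] L => σ x).Finite) : IsAlgebraic K x := by
  by_contra hx
  have hx' : Transcendental K x := hx
  choose σ hσ using exists_algEquiv_translate (K := K) x hx'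
  have hinj : Function.Injective fun c : K => x + algebraMap K L c := by
    intro c c' hcc
    exact (algebraMap K L).injective (add_left_cancel hcc)
  have hsub : (Set.range fun c : K => x + algebraMap K L c) ⊆
      Set.range fun σ : L ≃ₐ[K] L => σ x := by
    rintro _ ⟨c, rfl⟩
    exact ⟨σ c, hσ c⟩
  exact (Set.infinite_range_of_injective hinj) (h.subset hsub)

/-- An element fixed by a finite-index subgroup of `L ≃ₐ[K] L` has a finite orbit. -/
theorem finite_orbit_of_fixed_by_finiteIndex (H : Subgroup (L ≃ₐ[K] L)) [H.FiniteIndex] (x : L)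
    (hfix : ∀ σ ∈ H, σ x = x) : (Set.range fun σ : L ≃ₐ[K] L => σ x).Finite := by
  classical
  have : Finite ((L ≃ₐ[K] L) ⧸ H) := Subgroup.finite_quotient_of_finiteIndex
  let f : (L ≃ₐ[K] L) ⧸ H → L := Quotient.lift (fun σ : L ≃ₐ[K] L => σ x) (by
    intro a b hab
    have hmem : a⁻¹ * b ∈ H := QuotientGroup.leftRel_apply.mp hab
    have h1 := hfix _ hmem
    have h2 : b x = a ((a⁻¹ * b) x) := by
      simp [AlgEquiv.mul_apply]
    show a x = b x
    rw [h2, h1])
  have hsub : (Set.range fun σ : L ≃ₐ[K] L => σ x) ⊆ Set.range f := by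
    rintro _ ⟨σ, rfl⟩
    exact ⟨QuotientGroup.mk σ, rfl⟩
  exact (Set.finite_range f).subset hsub

/-- An element fixed by a finite-index subgroup of `L ≃ₐ[K] L` (`L` algebraically closed,
`K` infinite) is algebraic over `K`. -/
theorem isAlgebraic_of_fixed_by_finiteIndex [IsAlgClosed L] [Infinite K]
    (H : Subgroup (L ≃ₐ[K] L)) [H.FiniteIndex] (x : L) (hfix : ∀ σ ∈ H, σ x = x) :
    IsAlgebraic K x :=
  isAlgebraic_of_finite_orbit x (finite_orbit_of_fixed_by_finiteIndex H x hfix)

/-- If moreover `K` is algebraically closed, an element with a finite orbit lies in `K`. -/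
theorem mem_range_of_finite_orbit [IsAlgClosed L] [IsAlgClosed K] (x : L)
    (h : (Set.range fun σ : L ≃ₐ[K] L => σ x).Finite) : x ∈ (algebraMap K L).range := by
  have : Infinite K := IsAlgClosed.instInfinite
  have hx : IsAlgebraic K x := isAlgebraic_of_finite_orbit x h
  have hint : IsIntegral K x := hx.isIntegral
  exact minpoly.mem_range_of_degree_eq_one K x
    (IsAlgClosed.degree_eq_one_of_irreducible K (minpoly.irreducible hint))

/-- If `K` is algebraically closed, an element fixed by a finite-index subgroup lies in `K`. -/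
theorem mem_range_of_fixed_by_finiteIndex [IsAlgClosed L] [IsAlgClosed K]
    (H : Subgroup (L ≃ₐ[K] L)) [H.FiniteIndex] (x : L) (hfix : ∀ σ ∈ H, σ x = x) :
    x ∈ (algebraMap K L).range :=
  mem_range_of_finite_orbit x (finite_orbit_of_fixed_by_finiteIndex H x hfix)

/-- Tower version: `K ⊆ Kb ⊆ L` with `Kb`, `L` algebraically closed and `K` infinite.  An element
of `L` with a finite orbit under `L ≃ₐ[K] L` lies in `Kb`.  (Typical use: `K = ℚ`,
`Kb = AlgebraicClosure ℚ`, `L = ℂ`.) -/
theorem mem_range_of_finite_orbit_tower {Kb : Type*} [Field Kb] [Algebra K Kb] [Algebra Kb L]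
    [IsScalarTower K Kb L] [IsAlgClosed Kb] [IsAlgClosed L] [Infinite K] (x : L)
    (h : (Set.range fun σ : L ≃ₐ[K] L => σ x).Finite) : x ∈ (algebraMap Kb L).range := by
  have hx : IsAlgebraic K x := isAlgebraic_of_finite_orbit x h
  have hint : IsIntegral Kb x := (hx.tower_top Kb).isIntegral
  exact minpoly.mem_range_of_degree_eq_one Kb x
    (IsAlgClosed.degree_eq_one_of_irreducible Kb (minpoly.irreducible hint))

/-- Tower version for an element fixed by a finite-index subgroup of `L ≃ₐ[K] L`. -/
theorem mem_range_of_fixed_by_finiteIndex_tower {Kb : Type*} [Field Kb] [Algebra K Kb]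
    [Algebra Kb L] [IsScalarTower K Kb L] [IsAlgClosed Kb] [IsAlgClosed L] [Infinite K]
    (H : Subgroup (L ≃ₐ[K] L)) [H.FiniteIndex] (x : L) (hfix : ∀ σ ∈ H, σ x = x) :
    x ∈ (algebraMap Kb L).range :=
  mem_range_of_finite_orbit_tower x (finite_orbit_of_fixed_by_finiteIndex H x hfix)

end Fermat.Agent.Lib.FiniteOrbit
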