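import Mathlib
import Fermat.Prelude.Def_ModularCurve_LaurentCoeff
import Fermat.Agent.Lib.FiniteOrbit

/-!
# Descent of Laurent series along `K ⊆ Kb ⊆ L`

A Laurent series over an algebraically closed field `L` whose orbit under the coefficientwise
action of `L ≃ₐ[K] L` is finite has all its coefficients in the algebraically closed
intermediate field `Kb` (e.g. `K = ℚ`, `Kb = ℚ̄`, `L = ℂ`), i.e. it is the coefficientwise image
of a Laurent series over `Kb`.
-/

set_option autoImplicit false

open ModularCurve

namespace Fermat.Agent.Lib.FiniteOrbit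

variable {K Kb L : Type*} [Field K] [Field Kb] [Field L] [Algebra K Kb] [Algebra Kb L]
  [Algebra K L] [IsScalarTower K Kb L]

/-- Coefficients of a Laurent series with a finite coefficientwise orbit have finite orbits. -/
theorem finite_orbit_coeff (f : LaurentSeries L)
    (h : (Set.range fun σ : L ≃ₐ[K] L => coeffMap (σ : L →+* L) f).Finite) (n : ℤ) :
    (Set.range fun σ : L ≃ₐ[K] L => σ (f.coeff n)).Finite := by
  have hsub : (Set.range fun σ : L ≃ₐ[K] L => σ (f.coeff n)) ⊆
      (fun g : LaurentSeries L => g.coeff n) ''
        (Set.range fun σ : L ≃ₐ[K] L => coeffMap (σ : L →+* L) f) := by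
    rintro _ ⟨σ, rfl⟩
    exact ⟨_, ⟨σ, rfl⟩, by simp⟩
  exact (h.image _).subset hsub

/-- Every coefficient of a Laurent series over `L` with a finite orbit under the coefficientwise
action of `L ≃ₐ[K] L` lies in `Kb`. -/
theorem coeff_mem_range_of_finite_orbit [IsAlgClosed Kb] [IsAlgClosed L] [Infinite K]
    (f : LaurentSeries L)
    (h : (Set.range fun σ : L ≃ₐ[K] L => coeffMap (σ : L →+* L) f).Finite) (n : ℤ) :
    f.coeff n ∈ (algebraMap Kb L).range :=
  mem_range_of_finite_orbit_tower (f.coeff n) (finite_orbit_coeff f h n)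

/-- A Laurent series all of whose coefficients lie in the subfield `Kb` is the coefficientwise
image of a Laurent series over `Kb`. -/
theorem exists_coeffMap_eq_of_coeff_mem (f : LaurentSeries L)
    (h : ∀ n : ℤ, f.coeff n ∈ (algebraMap Kb L).range) :
    ∃ g : LaurentSeries Kb, coeffMap (algebraMap Kb L) g = f := by
  classical
  choose c hc using h
  have hinj : Function.Injective (algebraMap Kb L) := (algebraMap Kb L).injective
  have hsupp : Function.support c ⊆ f.support := by
    intro n hn
    rw [Function.mem_support] at hn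
    rw [HahnSeries.mem_support, ← hc n]
    exact fun h0 => hn (hinj (by rw [h0, map_zero]))
  refine ⟨⟨c, f.isPWO_support.mono hsupp⟩, ?_⟩
  ext n
  simp [hc n]

/-- **Descent.** A Laurent series over `L` with a finite orbit under the coefficientwise action
of `L ≃ₐ[K] L` is the coefficientwise image of a Laurent series over `Kb`. -/
theorem exists_coeffMap_eq_of_finite_orbit [IsAlgClosed Kb] [IsAlgClosed L] [Infinite K]
    (f : LaurentSeries L)
    (h : (Set.range fun σ : L ≃ₐ[K] L => coeffMap (σ : L →+* L) f).Finite) :
    ∃ g : LaurentSeries Kb, coeffMap (algebraMap Kb L) g = f :=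
  exists_coeffMap_eq_of_coeff_mem f (coeff_mem_range_of_finite_orbit f h)

/-- **Descent**, fixed-point form: a Laurent series over `L` fixed by the coefficientwise action
of a finite-index subgroup of `L ≃ₐ[K] L` comes from `Kb`. -/
theorem exists_coeffMap_eq_of_fixed_by_finiteIndex [IsAlgClosed Kb] [IsAlgClosed L] [Infinite K]
    (H : Subgroup (L ≃ₐ[K] L)) [H.FiniteIndex] (f : LaurentSeries L)
    (hfix : ∀ σ ∈ H, coeffMap ((σ : L ≃ₐ[K] L) : L →+* L) f = f) :
    ∃ g : LaurentSeries Kb, coeffMap (algebraMap Kb L) g = f := by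
  refine exists_coeffMap_eq_of_coeff_mem f fun n => ?_
  refine mem_range_of_fixed_by_finiteIndex_tower H (f.coeff n) fun σ hσ => ?_
  have := congrArg (fun g : LaurentSeries L => g.coeff n) (hfix σ hσ)
  simpa using this

end Fermat.Agent.Lib.FiniteOrbit
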