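import Mathlib
import Fermat.Agent.Lib.DescentSubfield
import Fermat.Agent.S36.CoefFix
import Fermat.Agent.Lib.FiniteOrbitLaurent

/-!
# Series of `ℚ̄((q))` with coefficients in a number field (companion of `Lib/DescentSubfield`)

`FinCoeff x` : the series `x ∈ ℚ̄((q))` is fixed by the coefficientwise action of the
automorphisms of `ℚ̄` fixing some number field (equivalently: its coefficients lie in a number
field).  This is the finiteness hypothesis `hfin` of `DescentSubfield.exists_invariant_rep`.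

* `FinCoeff` is stable under the field operations, contains the constants and the elements of
  the modular function fields `Fb N`; hence it holds on every subfield generated by such
  elements (`finCoeff_of_mem_closure`).
* `finCoeff_of_pow_eq` : an `m`-th root of a `FinCoeff` series is `FinCoeff` (uniqueness of the
  root with a given leading coefficient).  So `FinCoeff` holds on a Kummer cover
  `Fb N (h)`, `h ^ m ∈ Fb N`.
* `coeff_mem_of_fixed` : the coefficients lie in the number field.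
* `exists_numberField_of_fixed` : a `FinCoeff` series fixed by a subgroup `I` of `Gal(ℚ̄/ℚ)` is
  `coeffMap (algebraMap K ℚ̄) z`, `z ∈ K((q))`, for a number field `K` fixed pointwise by `I`.
* `exists_invariant_rep_finCoeff` : `DescentSubfield.exists_invariant_rep` with the hypothesis
  `FinCoeff f`, and the conclusion that the invariant representative `f0` is `FinCoeff` when all
  elements of `M` are.
-/

set_option autoImplicit false

noncomputable section

namespace Fermat.Agent.Lib.DescentSubfield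

open HahnSeries ModularCurve AlgebraicCurve
open Fermat.Agent.S30 Fermat.Agent.S30.E4 Fermat.Agent.S36.Descent

local notation "Qb" => AlgebraicClosure ℚ
local notation "Gq" => (AlgebraicClosure ℚ ≃ₐ[ℚ] AlgebraicClosure ℚ)
local notation "LS" => LaurentSeries (AlgebraicClosure ℚ)

/-- The series `x` is fixed by the automorphisms of `ℚ̄` fixing some number field. -/
def FinCoeff (x : LS) : Prop :=
  ∃ E₀ : IntermediateField ℚ Qb, FiniteDimensional ℚ E₀ ∧
    ∀ τ : Gq, (∀ y ∈ E₀, τ y = y) → act τ x = x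

theorem finCoeff_algebraMap (c : Qb) : FinCoeff (algebraMap Qb LS c) := by
  refine ⟨IntermediateField.adjoin ℚ {c}, IntermediateField.adjoin.finiteDimensional
    (GaussDescent.isAlgebraic_rat_Qb.isAlgebraic c).isIntegral, fun τ hτ => ?_⟩
  rw [act_algebraMap, hτ c (IntermediateField.mem_adjoin_simple_self ℚ c)]

theorem finCoeff_zero : FinCoeff (0 : LS) :=
  ⟨⊥, inferInstance, fun _ _ => map_zero _⟩

theorem finCoeff_one : FinCoeff (1 : LS) :=
  ⟨⊥, inferInstance, fun _ _ => map_one _⟩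

theorem FinCoeff.add {x y : LS} (hx : FinCoeff x) (hy : FinCoeff y) : FinCoeff (x + y) := by
  obtain ⟨E₁, hE₁, h₁⟩ := hx
  obtain ⟨E₂, hE₂, h₂⟩ := hy
  refine ⟨E₁ ⊔ E₂, IntermediateField.finiteDimensional_sup E₁ E₂, fun τ hτ => ?_⟩
  rw [map_add, h₁ τ fun z hz => hτ z ((le_sup_left : E₁ ≤ E₁ ⊔ E₂) hz),
    h₂ τ fun z hz => hτ z ((le_sup_right : E₂ ≤ E₁ ⊔ E₂) hz)]

theorem FinCoeff.mul {x y : LS} (hx : FinCoeff x) (hy : FinCoeff y) : FinCoeff (x * y) := by
  obtain ⟨E₁, hE₁, h₁⟩ := hx
  obtain ⟨E₂, hE₂, h₂⟩ := hy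
  refine ⟨E₁ ⊔ E₂, IntermediateField.finiteDimensional_sup E₁ E₂, fun τ hτ => ?_⟩
  rw [map_mul, h₁ τ fun z hz => hτ z ((le_sup_left : E₁ ≤ E₁ ⊔ E₂) hz),
    h₂ τ fun z hz => hτ z ((le_sup_right : E₂ ≤ E₁ ⊔ E₂) hz)]

theorem FinCoeff.neg {x : LS} (hx : FinCoeff x) : FinCoeff (-x) := by
  obtain ⟨E₁, hE₁, h₁⟩ := hx
  exact ⟨E₁, hE₁, fun τ hτ => by rw [map_neg, h₁ τ hτ]⟩

theorem FinCoeff.inv {x : LS} (hx : FinCoeff x) : FinCoeff x⁻¹ := by
  obtain ⟨E₁, hE₁, h₁⟩ := hx
  exact ⟨E₁, hE₁, fun τ hτ => by rw [map_inv₀, h₁ τ hτ]⟩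

theorem FinCoeff.pow {x : LS} (hx : FinCoeff x) (n : ℕ) : FinCoeff (x ^ n) := by
  obtain ⟨E₁, hE₁, h₁⟩ := hx
  exact ⟨E₁, hE₁, fun τ hτ => by rw [map_pow, h₁ τ hτ]⟩

/-- `FinCoeff` holds on the subfield generated by a set of `FinCoeff` series. -/
theorem finCoeff_of_mem_closure (S : Set LS) (hS : ∀ s ∈ S, FinCoeff s) {x : LS}
    (hx : x ∈ Subfield.closure S) : FinCoeff x := by
  induction hx using Subfield.closure_induction with
  | mem y hy => exact hS y hy
  | one => exact finCoeff_one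
  | add x y _ _ hx hy => exact hx.add hy
  | neg x _ hx => exact hx.neg
  | inv x _ hx => exact hx.inv
  | mul x y _ _ hx hy => exact hx.mul hy

/-- The elements of the modular function fields are `FinCoeff`. -/
theorem finCoeff_coe_Fb (N : ℕ) (f : Fb N) : FinCoeff (f : LS) :=
  exists_fixed_of_mem_Fb N f

/-- **Roots.** A nonzero `m`-th root of a `FinCoeff` series is `FinCoeff`. -/
theorem finCoeff_of_pow_eq {m : ℕ} (hm : 0 < m) {w f : LS} (hw : w ≠ 0) (h : w ^ m = f)
    (hf : FinCoeff f) : FinCoeff w := by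
  obtain ⟨E₀, hE₀, h₀⟩ := hf
  set a : Qb := w.leadingCoeff with ha
  have hfd : FiniteDimensional ℚ (IntermediateField.adjoin ℚ ({a} : Set Qb)) :=
    IntermediateField.adjoin.finiteDimensional
      (GaussDescent.isAlgebraic_rat_Qb.isAlgebraic a).isIntegral
  refine ⟨E₀ ⊔ IntermediateField.adjoin ℚ {a}, IntermediateField.finiteDimensional_sup E₀ _,
    fun τ hτ => ?_⟩
  have h1 : act τ f = f := h₀ τ fun z hz =>
    hτ z ((le_sup_left : E₀ ≤ E₀ ⊔ IntermediateField.adjoin ℚ {a}) hz)
  have h2 : τ a = a := hτ a ((le_sup_right : IntermediateField.adjoin ℚ {a} ≤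
    E₀ ⊔ IntermediateField.adjoin ℚ {a}) (IntermediateField.mem_adjoin_simple_self ℚ a))
  refine eq_of_pow_eq_of_leadingCoeff_eq hm hw ?_ ?_
  · rw [← map_pow, h, h1]
  · rw [leadingCoeff_act, ← ha, h2]

/-- The coefficients of a series fixed by the automorphisms fixing `E₀` lie in `E₀`. -/
theorem coeff_mem_of_fixed (E₀ : IntermediateField ℚ Qb) {x : LS}
    (h : ∀ τ : Gq, (∀ y ∈ E₀, τ y = y) → act τ x = x) (n : ℤ) : x.coeff n ∈ E₀ := by
  refine mem_of_fixingSubgroup E₀ fun τ hτ => ?_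
  exact coeff_fixed (h τ fun y hy => (IntermediateField.mem_fixingSubgroup_iff E₀ τ).mp hτ y hy) n

/-- **Field of definition.**  A `FinCoeff` series fixed by the subgroup `I` is defined over a
number field `K` which is fixed pointwise by `I`. -/
theorem exists_numberField_of_fixed (I : Subgroup Gq) {x : LS} (hx : FinCoeff x)
    (hI : ∀ τ ∈ I, act τ x = x) :
    ∃ K : IntermediateField ℚ Qb, FiniteDimensional ℚ K ∧ (∀ τ ∈ I, ∀ y ∈ K, τ y = y) ∧
      ∃ z : LaurentSeries K, coeffMap (algebraMap K Qb) z = x := by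
  obtain ⟨E₀, hE₀, h₀⟩ := hx
  set K : IntermediateField ℚ Qb :=
    IntermediateField.adjoin ℚ (Set.range fun n : ℤ => x.coeff n) with hK
  have hKE : K ≤ E₀ := by
    rw [hK, IntermediateField.adjoin_le_iff]
    rintro _ ⟨n, rfl⟩
    exact coeff_mem_of_fixed E₀ h₀ n
  have hKfin : FiniteDimensional ℚ K :=
    FiniteDimensional.of_injective (IntermediateField.inclusion hKE).toLinearMap
      (IntermediateField.inclusion hKE).injective
  refine ⟨K, hKfin, fun τ hτ y hy => ?_, ?_⟩
  · -- the fixed field of `τ` contains all the coefficients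
    have hle : K ≤ IntermediateField.fixedField (Subgroup.zpowers τ) := by
      rw [hK, IntermediateField.adjoin_le_iff]
      rintro _ ⟨n, rfl⟩
      rw [SetLike.mem_coe, IntermediateField.mem_fixedField_iff]
      intro g hg
      obtain ⟨k, rfl⟩ := Subgroup.mem_zpowers_iff.mp hg
      have hfix : ∀ j : ℤ, act (τ ^ j) x = x := by
        intro j
        have hmem : τ ^ j ∈ I := I.zpow_mem hτ j
        exact hI _ hmem
      exact coeff_fixed (hfix k) n
    have := (IntermediateField.mem_fixedField_iff _ y).mp (hle hy) τ (Subgroup.mem_zpowers τ)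
    exact this
  · refine Fermat.Agent.Lib.FiniteOrbit.exists_coeffMap_eq_of_coeff_mem (Kb := K)
      (L := Qb) x fun n => ?_
    exact ⟨⟨x.coeff n, IntermediateField.subset_adjoin ℚ _ ⟨n, rfl⟩⟩, rfl⟩

/-- **Descent of invariant Kummer classes, `FinCoeff` form.**  If every element of the subfield
`M ⊆ ℚ̄((q))` is `FinCoeff` (e.g. `M` generated by modular functions and roots of modular
functions), an `I`-invariant class modulo `m`-th powers of `M` has a representative `f0 ∈ M`
which is defined over a number field fixed pointwise by `I`. -/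
theorem exists_invariant_rep_finCoeff (M : Subfield LS)
    (hconst : ∀ c : Qb, algebraMap Qb LS c ∈ M) (hM : ∀ x ∈ M, FinCoeff x)
    (I : Subgroup Gq) {m : ℕ} (hm : 0 < m) (f : LS) (hfM : f ∈ M) (hf : f ≠ 0)
    (hinv : ∀ τ ∈ I, ∃ k ∈ M, act τ f = f * k ^ m) :
    ∃ f0 h : LS, f0 ∈ M ∧ h ∈ M ∧ h ≠ 0 ∧ f = f0 * h ^ m ∧ (∀ τ ∈ I, act τ f0 = f0) ∧
      ∃ K : IntermediateField ℚ Qb, FiniteDimensional ℚ K ∧ (∀ τ ∈ I, ∀ y ∈ K, τ y = y) ∧
        ∃ z : LaurentSeries K, coeffMap (algebraMap K Qb) z = f0 := by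
  obtain ⟨f0, h, hf0M, hhM, hh0, hfe, hfix⟩ :=
    exists_invariant_rep M hconst I hm f hfM hf (hM f hfM) hinv
  exact ⟨f0, h, hf0M, hhM, hh0, hfe, hfix, exists_numberField_of_fixed I (hM f0 hf0M) hfix⟩

/-! ### The cover field generated by a modular function field and a root -/

/-- The subfield of `ℚ̄((q))` generated by the modular function field `Fb N` and a series `h`
(in the applications `h ^ m ∈ Fb N`: a Kummer cover of the modular curve). -/
def cover (N : ℕ) (h : LS) : Subfield LS :=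
  Subfield.closure (Set.range (fun x : Fb N => (x : LS)) ∪ {h})

theorem coe_mem_cover (N : ℕ) (h : LS) (x : Fb N) : (x : LS) ∈ cover N h :=
  Subfield.subset_closure (Or.inl ⟨x, rfl⟩)

theorem self_mem_cover (N : ℕ) (h : LS) : h ∈ cover N h :=
  Subfield.subset_closure (Or.inr rfl)

theorem algebraMap_mem_cover (N : ℕ) (h : LS) (c : Qb) : algebraMap Qb LS c ∈ cover N h :=
  coe_mem_cover N h (algebraMap Qb (Fb N) c)

/-- Every element of the cover `Fb N (h)`, `h ^ m ∈ Fb N`, has its coefficients in a number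
field. -/
theorem finCoeff_of_mem_cover {N : ℕ} {h : LS} {m : ℕ} (hm : 0 < m) (hh : h ≠ 0) (t : Fb N)
    (hpow : h ^ m = (t : LS)) {x : LS} (hx : x ∈ cover N h) : FinCoeff x := by
  refine finCoeff_of_mem_closure _ ?_ hx
  rintro s (⟨y, rfl⟩ | hs)
  · exact finCoeff_coe_Fb N y
  · rw [Set.mem_singleton_iff] at hs
    subst hs
    exact finCoeff_of_pow_eq hm hh hpow (finCoeff_coe_Fb N t)

/-- **C4 on a Kummer cover.**  `h ^ m = t ∈ Fb N`, `f ∈ Fb N` nonzero, and the class of `f`
modulo `m`-th powers of the cover field `Fb N (h)` invariant under the subgroup `I` of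
`Gal(ℚ̄/ℚ)` (coefficientwise action).  Then `f = f0 * H ^ m` with `f0, H` in the cover field,
`f0` fixed by `I` and defined over a number field fixed pointwise by `I`. -/
theorem exists_invariant_rep_cover (N : ℕ) (h : LS) {m : ℕ} (hm : 0 < m) (hh : h ≠ 0)
    (t : Fb N) (hpow : h ^ m = (t : LS)) (I : Subgroup Gq) (f : Fb N) (hf : f ≠ 0)
    (hinv : ∀ τ ∈ I, ∃ k ∈ cover N h, act τ (f : LS) = (f : LS) * k ^ m) :
    ∃ f0 H : LS, f0 ∈ cover N h ∧ H ∈ cover N h ∧ H ≠ 0 ∧ (f : LS) = f0 * H ^ m ∧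
      (∀ τ ∈ I, act τ f0 = f0) ∧
      ∃ K : IntermediateField ℚ Qb, FiniteDimensional ℚ K ∧ (∀ τ ∈ I, ∀ y ∈ K, τ y = y) ∧
        ∃ z : LaurentSeries K, coeffMap (algebraMap K Qb) z = f0 := by
  refine exists_invariant_rep_finCoeff (cover N h) (algebraMap_mem_cover N h)
    (fun x hx => finCoeff_of_mem_cover hm hh t hpow hx) I hm (f : LS) (coe_mem_cover N h f) ?_
    hinv
  intro h0
  exact hf (Subtype.ext h0)

end Fermat.Agent.Lib.DescentSubfield
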