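import Mathlib

/-!
# Kernel of the reduction and divisibility of the determinant

Mathlib-only linear algebra (brick N1 of the "special fibre is normal" count, S30 model theorem).

* `exists_det_ne_zero_mul_col_eq_zero` : over a field, for a square matrix `N` there is an
  invertible matrix `P` such that `N * P` has `dim ker N` zero columns.
* `pow_finrank_ker_dvd_det` : if `(t)` is a maximal ideal of `W` and the reduction of the square
  matrix `M` modulo `t` has a `c`-dimensional kernel, then `t ^ c ∣ det M`.
* `pow_dvd_det_of_finrank_ker` : the same with a lower bound for the dimension of the kernel.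
-/

set_option autoImplicit false

namespace Fermat.Agent.Lib.DetKer

open Matrix

/-- Over a field, for a square matrix `N` there is an invertible matrix `P` such that `N * P` has
(at least) `dim ker N` zero columns. -/
theorem exists_det_ne_zero_mul_col_eq_zero {k ι : Type*} [Field k] [Fintype ι] [DecidableEq ι]
    (N : Matrix ι ι k) :
    ∃ P : Matrix ι ι k, P.det ≠ 0 ∧ ∃ s : Finset ι,
      s.card = Module.finrank k (LinearMap.ker (Matrix.toLin' N)) ∧
      ∀ j ∈ s, ∀ i, (N * P) i j = 0 := by
  classical
  set K := LinearMap.ker (Matrix.toLin' N) with hK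
  obtain ⟨K', hK'⟩ := Submodule.exists_isCompl K
  let bK := Module.finBasis k K
  let bK' := Module.finBasis k K'
  let B : Module.Basis (Fin (Module.finrank k K) ⊕ Fin (Module.finrank k K')) k (ι → k) :=
    (bK.prod bK').map (Submodule.prodEquivOfIsCompl K K' hK')
  let e : ι ≃ Fin (Module.finrank k K) ⊕ Fin (Module.finrank k K') :=
    (Pi.basisFun k ι).indexEquiv B
  let v : Module.Basis ι k (ι → k) := B.reindex e.symm
  refine ⟨(Pi.basisFun k ι).toMatrix v, ?_,
    Finset.univ.map ⟨fun a => e.symm (Sum.inl a), ?_⟩, ?_, ?_⟩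
  · have h := (Pi.basisFun k ι).isUnit_det v
    rw [Module.Basis.det_apply] at h
    exact h.ne_zero
  · intro a a' h
    simpa using h
  · simp
  · intro j hj i
    obtain ⟨a, -, rfl⟩ := Finset.mem_map.mp hj
    have hv : v (e.symm (Sum.inl a)) = (bK a : ι → k) := by
      simp [v, B]
    have hmem : Matrix.toLin' N (bK a : ι → k) = 0 := LinearMap.mem_ker.mp (bK a).2
    rw [Matrix.toLin'_apply] at hmem
    have h1 : (N * (Pi.basisFun k ι).toMatrix v) i (e.symm (Sum.inl a)) =
        (N *ᵥ v (e.symm (Sum.inl a))) i := by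
      simp [Matrix.mul_apply, Matrix.mulVec, dotProduct, Module.Basis.toMatrix_apply]
    show (N * (Pi.basisFun k ι).toMatrix v) i (e.symm (Sum.inl a)) = 0
    rw [h1, hv, hmem]
    rfl

/-- **Kernel of the reduction and divisibility of the determinant.**  If `(t)` is a maximal ideal
of `W` and the reduction of the square matrix `M` modulo `t` has a `c`-dimensional kernel, then
`t ^ c ∣ det M`. -/
theorem pow_finrank_ker_dvd_det {W ι : Type*} [CommRing W] [Fintype ι] [DecidableEq ι]
    {t : W} (ht : Prime t) (hmax : (Ideal.span {t}).IsMaximal) (M : Matrix ι ι W) :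
    t ^ Module.finrank (W ⧸ Ideal.span {t})
        (LinearMap.ker (Matrix.toLin' (M.map (Ideal.Quotient.mk (Ideal.span {t}))))) ∣ M.det := by
  classical
  have _ := ht
  let _ : Field (W ⧸ Ideal.span {t}) := Ideal.Quotient.field _
  obtain ⟨P', hP', s, hs, hcol⟩ :=
    exists_det_ne_zero_mul_col_eq_zero (M.map (Ideal.Quotient.mk (Ideal.span {t})))
  have hsurj : Function.Surjective (Ideal.Quotient.mk (Ideal.span {t})) :=
    Ideal.Quotient.mk_surjective
  choose lift hlift using hsurj
  let P : Matrix ι ι W := fun i j => lift (P' i j)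
  have hPmap : P.map (Ideal.Quotient.mk (Ideal.span {t})) = P' := by
    ext i j
    simp [P, hlift]
  have hdetP : ¬ t ∣ P.det := by
    intro h
    apply hP'
    rw [← hPmap, ← RingHom.mapMatrix_apply, ← RingHom.map_det]
    exact Ideal.Quotient.eq_zero_iff_mem.mpr (Ideal.mem_span_singleton.mpr h)
  have hcop : IsCoprime t P.det := by
    obtain ⟨y, i, hi, hyi⟩ := hmax.exists_inv (x := P.det) (by rwa [Ideal.mem_span_singleton])
    obtain ⟨z, rfl⟩ := Ideal.mem_span_singleton.mp hi
    exact ⟨z, y, by rw [← hyi]; ring⟩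
  have hdvd : ∀ j ∈ s, ∀ i, t ∣ (M * P) i j := by
    intro j hj i
    have h1 := hcol j hj i
    rw [← hPmap, ← Matrix.map_mul] at h1
    exact Ideal.mem_span_singleton.mp (Ideal.Quotient.eq_zero_iff_mem.mp h1)
  have hdvd' : ∀ j i, ∃ w : W, j ∈ s → (M * P) i j = t * w := by
    intro j i
    by_cases hj : j ∈ s
    · obtain ⟨w, hw⟩ := hdvd j hj i
      exact ⟨w, fun _ => hw⟩
    · exact ⟨0, fun h => absurd h hj⟩
  choose w hw using hdvd'
  let N : Matrix ι ι W := fun i j => if j ∈ s then w j i else (M * P) i j
  let D : ι → W := fun j => if j ∈ s then t else 1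
  have hMP : M * P = N * Matrix.diagonal D := by
    ext i j
    rw [Matrix.mul_diagonal]
    by_cases hj : j ∈ s
    · simp [N, D, hj, hw j i hj, mul_comm]
    · simp [N, D, hj]
  have hprod : ∏ j, D j = t ^ s.card := by
    simp only [D]
    rw [Finset.prod_ite_mem, Finset.univ_inter, Finset.prod_const]
  have hdet : M.det * P.det = N.det * t ^ s.card := by
    rw [← Matrix.det_mul, hMP, Matrix.det_mul, Matrix.det_diagonal, hprod]
  rw [← hs]
  exact (hcop.pow_left).dvd_of_dvd_mul_right ⟨N.det, by rw [hdet]; ring⟩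

/-- Variant of `pow_finrank_ker_dvd_det` with a lower bound for the dimension of the kernel. -/
theorem pow_dvd_det_of_le_finrank_ker {W ι : Type*} [CommRing W] [Fintype ι] [DecidableEq ι]
    {t : W} (ht : Prime t) (hmax : (Ideal.span {t}).IsMaximal) (M : Matrix ι ι W) {c : ℕ}
    (hc : c ≤ Module.finrank (W ⧸ Ideal.span {t})
        (LinearMap.ker (Matrix.toLin' (M.map (Ideal.Quotient.mk (Ideal.span {t})))))) :
    t ^ c ∣ M.det :=
  (pow_dvd_pow t hc).trans (pow_finrank_ker_dvd_det ht hmax M)

end Fermat.Agent.Lib.DetKer
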