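/-
Lib.MultisetEval (helper291): a finite multiset of points is determined by the products of the
values of all functions.

Setting: `k` an infinite field, `B` a commutative `k`-algebra ("regular functions"), points are
indexed by a type `ι` through an injective family `ev : ι → B →ₐ[k] k` of evaluations.
If two multisets `S`, `S'` of points satisfy `∏_{s ∈ S} g(s) = ∏_{s ∈ S'} g(s)` for every `g : B`,
then `S = S'`.

Use (E7 / S37, helper104's design step (2)): the multiset `r_*(T_q P)` of reduced Hecke translates
is determined by the numbers `red((T_q^× f)(P))`.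
-/
import Mathlib

set_option autoImplicit false

namespace Fermat.Agent.Lib.MultisetEval

open Polynomial

variable {k B ι : Type*} [Field k] [CommRing B] [Algebra k B]

/-- Step 1: equality of all products forces equality of the multisets of values of each `g`. -/
theorem map_eval_eq_of_forall_prod_eq [Infinite k] (ev : ι → B →ₐ[k] k) (S S' : Multiset ι)
    (h : ∀ g : B, (S.map fun i => ev i g).prod = (S'.map fun i => ev i g).prod) (g : B) :
    (S.map fun i => ev i g) = (S'.map fun i => ev i g) := by
  classical
  -- the two polynomials `∏ (X - C (-(g(s))))` agree at every point of `k`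
  have hpoly : ((S.map fun i => -(ev i g)).map fun a => (X : k[X]) - C a).prod =
      ((S'.map fun i => -(ev i g)).map fun a => (X : k[X]) - C a).prod := by
    apply Polynomial.funext
    intro ε
    have hε := h (g + algebraMap k B ε)
    simp only [map_add, AlgHom.commutes, Algebra.algebraMap_self, RingHom.id_apply] at hε
    rw [Polynomial.eval_multiset_prod, Polynomial.eval_multiset_prod, Multiset.map_map,
      Multiset.map_map, Multiset.map_map, Multiset.map_map]
    have e : ∀ R : Multiset ι,
        (R.map ((Polynomial.eval ε ∘ fun a => (X : k[X]) - C a) ∘ fun i => -(ev i g))) =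
          R.map fun i => ev i g + ε :=
      fun R => Multiset.map_congr rfl fun i _ => by simp [add_comm]
    rw [e S, e S']
    exact hε
  have hroots := congrArg Polynomial.roots hpoly
  rw [Polynomial.roots_multiset_prod_X_sub_C, Polynomial.roots_multiset_prod_X_sub_C] at hroots
  have hneg := congrArg (Multiset.map fun a : k => -a) hroots
  simpa [Multiset.map_map, Function.comp_def] using hneg

/-- Separation: for an injective family of evaluations and a finite set `T` of points there is a
function equal to `1` at `x` and to `0` at every other point of `T`. -/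
theorem exists_indicator (ev : ι → B →ₐ[k] k) (hinj : Function.Injective ev) [DecidableEq ι]
    (T : Finset ι) (x : ι) :
    ∃ g : B, ev x g = 1 ∧ ∀ y ∈ T, y ≠ x → ev y g = 0 := by
  classical
  have hsep : ∀ y : ι, y ≠ x → ∃ b : B, ev x b = 1 ∧ ev y b = 0 := by
    intro y hy
    have hne : ev x ≠ ev y := fun h => hy (hinj h).symm
    obtain ⟨b, hb⟩ : ∃ b : B, ev x b ≠ ev y b := by
      by_contra hcon
      exact hne (AlgHom.ext fun b => by_contra fun hb => hcon ⟨b, hb⟩)
    refine ⟨algebraMap k B (ev x b - ev y b)⁻¹ * (b - algebraMap k B (ev y b)), ?_, ?_⟩
    · rw [map_mul, AlgHom.commutes, map_sub, AlgHom.commutes]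
      simp only [Algebra.algebraMap_self, RingHom.id_apply]
      exact inv_mul_cancel₀ (sub_ne_zero.mpr hb)
    · rw [map_mul, map_sub, AlgHom.commutes]
      simp
  choose! b hb1 hb0 using hsep
  refine ⟨∏ y ∈ T.erase x, b y, ?_, ?_⟩
  · rw [map_prod]
    exact Finset.prod_eq_one fun y hy => hb1 y (Finset.ne_of_mem_erase hy)
  · intro y hyT hyx
    rw [map_prod]
    exact Finset.prod_eq_zero (Finset.mem_erase.mpr ⟨hyx, hyT⟩) (hb0 y hyx)

/-- **A multiset of points is determined by the products of values of all functions.** -/
theorem eq_of_forall_prod_eq [Infinite k] (ev : ι → B →ₐ[k] k) (hinj : Function.Injective ev)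
    (S S' : Multiset ι)
    (h : ∀ g : B, (S.map fun i => ev i g).prod = (S'.map fun i => ev i g).prod) : S = S' := by
  classical
  ext x
  obtain ⟨g, hgx, hg0⟩ := exists_indicator ev hinj (S + S').toFinset x
  have hmap := map_eval_eq_of_forall_prod_eq ev S S' h g
  have hcount := congrArg (Multiset.count (1 : k)) hmap
  rw [Multiset.count_map, Multiset.count_map] at hcount
  have key : ∀ R : Multiset ι, R ≤ S + S' →
      (R.filter fun a => (1 : k) = ev a g) = R.filter fun a => x = a := by
    intro R hR
    refine Multiset.filter_congr fun a ha => ?_
    constructor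
    · intro h1
      by_contra hne
      have hmem : a ∈ (S + S').toFinset := Multiset.mem_toFinset.mpr (Multiset.mem_of_le hR ha)
      have := hg0 a hmem (fun h => hne h.symm)
      rw [this] at h1
      exact one_ne_zero h1
    · rintro rfl
      exact hgx.symm
  rw [key S (Multiset.le_add_right S S'), key S' (Multiset.le_add_left S' S)] at hcount
  rw [Multiset.filter_eq, Multiset.filter_eq, Multiset.card_replicate,
    Multiset.card_replicate] at hcount
  exact hcount

/-- Variant with evaluation homomorphisms themselves as points. -/
theorem algHom_multiset_eq_of_forall_prod_eq [Infinite k] (S S' : Multiset (B →ₐ[k] k))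
    (h : ∀ g : B, (S.map fun s => s g).prod = (S'.map fun s => s g).prod) : S = S' :=
  eq_of_forall_prod_eq (fun s => s) Function.injective_id S S' h

end Fermat.Agent.Lib.MultisetEval
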