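import Mathlib
import Fermat.Agent.Lib.MultisetEval

/-!
# Determinants of multiplication on quotients of Dedekind domains, and specialisation of zeros

* `det_mulLeft_quotient_prod` : for a Dedekind `k`-algebra `D` whose residue fields are `k`
  (given by residue characters `χ P : D →ₐ[k] k`, `ker (χ P) = P`), the determinant of the
  multiplication by `g` on `D ⧸ P₁ ⋯ Pₙ` is `∏ χ Pᵢ g`.
* `span_eq_of_det_eq` : two nonzero elements with the same determinant functional generate the
  same ideal.
-/

set_option autoImplicit false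
set_option linter.unusedSectionVars false

noncomputable section

namespace Fermat.Agent.Lib.DetPoints

open IsDedekindDomain Module

section Dedekind

variable {k D : Type*} [Field k] [CommRing D] [IsDedekindDomain D] [Algebra k D]

/-- The ideal attached to a multiset of height-one primes. -/
def prodIdeal (s : Multiset (HeightOneSpectrum D)) : Ideal D :=
  (s.map fun P => P.asIdeal).prod

@[simp] theorem prodIdeal_zero : prodIdeal (0 : Multiset (HeightOneSpectrum D)) = ⊤ := by
  simp [prodIdeal, Ideal.one_eq_top]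

@[simp] theorem prodIdeal_cons (P : HeightOneSpectrum D) (s : Multiset (HeightOneSpectrum D)) :
    prodIdeal (P ::ₘ s) = P.asIdeal * prodIdeal s := by
  simp [prodIdeal]

theorem prodIdeal_ne_bot (s : Multiset (HeightOneSpectrum D)) : prodIdeal s ≠ ⊥ := by
  induction s using Multiset.induction_on with
  | empty => simp
  | cons P s ih =>
    rw [prodIdeal_cons]
    exact mul_ne_zero P.ne_bot ih

variable (χ : HeightOneSpectrum D → D →ₐ[k] k)
  (hχ : ∀ P, RingHom.ker (χ P : D →+* k) = P.asIdeal)

include hχ in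
theorem sub_algebraMap_mem (P : HeightOneSpectrum D) (x : D) :
    x - algebraMap k D (χ P x) ∈ P.asIdeal := by
  rw [← hχ P, RingHom.mem_ker]
  simp

include hχ in
/-- One step: passing from `D ⧸ I` to `D ⧸ P * I` multiplies the determinant by `χ P g`. -/
theorem det_step (P : HeightOneSpectrum D) (I : Ideal D) (hI : I ≠ ⊥)
    [Module.Finite k (D ⧸ I)] :
    Module.Finite k (D ⧸ (P.asIdeal * I)) ∧ ∀ g : D,
      LinearMap.det (LinearMap.mulLeft k (Ideal.Quotient.mk (P.asIdeal * I) g)) =
        χ P g * LinearMap.det (LinearMap.mulLeft k (Ideal.Quotient.mk I g)) := by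
  classical
  set J : Ideal D := P.asIdeal * I with hJ
  have hle : J ≤ I := Ideal.mul_le_right
  -- an element of `I` outside `J`
  have hlt : J < I := by
    refine lt_of_le_of_ne hle fun h => ?_
    have h1 : P.asIdeal * I = ⊤ * I := by rw [Ideal.top_mul]; exact h
    have h2 : P.asIdeal = ⊤ := mul_right_cancel₀ hI h1
    exact P.isPrime.ne_top h2
  obtain ⟨a, haI, haJ⟩ := SetLike.exists_of_lt hlt
  -- `I = (a) + J`
  have hsup : Ideal.span {a} ⊔ J = I := by
    have hdvd : I ∣ Ideal.span {a} := by
      rw [Ideal.dvd_iff_le, Ideal.span_singleton_le_iff_mem]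
      exact haI
    obtain ⟨M, hM⟩ := hdvd
    have hMP : ¬ M ≤ P.asIdeal := by
      intro h
      apply haJ
      have : Ideal.span {a} ≤ J := by
        rw [hM, hJ, mul_comm P.asIdeal I]
        exact Ideal.mul_mono_right h
      exact this (Ideal.mem_span_singleton_self a)
    have hMP' : M ⊔ P.asIdeal = ⊤ := by
      have hmax : P.asIdeal.IsMaximal := P.isMaximal
      by_contra hne
      exact hMP (by
        have := hmax.eq_of_le hne le_sup_right
        rw [this]
        exact le_sup_left)
    rw [hM, hJ, mul_comm P.asIdeal I, ← Ideal.mul_sup, hMP', Ideal.mul_top]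
  have hdecomp : ∀ y ∈ I, ∃ d : D, y - d * a ∈ J := by
    intro y hy
    rw [← hsup, Submodule.mem_sup] at hy
    obtain ⟨u, hu, z, hz, rfl⟩ := hy
    obtain ⟨d, rfl⟩ := Ideal.mem_span_singleton'.mp hu
    exact ⟨d, by simpa using hz⟩
  -- the factor map and its kernel
  let φ : (D ⧸ J) →ₗ[k] (D ⧸ I) := (Ideal.Quotient.factorₐ k hle).toLinearMap
  have hφ : ∀ x : D, φ (Ideal.Quotient.mk J x) = Ideal.Quotient.mk I x := fun x => rfl
  have hφsurj : Function.Surjective φ := by
    intro z
    obtain ⟨x, rfl⟩ := Ideal.Quotient.mk_surjective z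
    exact ⟨Ideal.Quotient.mk J x, rfl⟩
  let W : Submodule k (D ⧸ J) := LinearMap.ker φ
  have hW : ∀ w ∈ W, ∃ y ∈ I, Ideal.Quotient.mk J y = w := by
    intro w hw
    obtain ⟨y, rfl⟩ := Ideal.Quotient.mk_surjective w
    refine ⟨y, ?_, rfl⟩
    have : φ (Ideal.Quotient.mk J y) = 0 := hw
    rwa [hφ, Ideal.Quotient.eq_zero_iff_mem] at this
  -- the action of `D` on the kernel is through `χ P`
  have hact : ∀ (d : D) (y : D), y ∈ I →
      Ideal.Quotient.mk J (d * y) = χ P d • Ideal.Quotient.mk J y := by
    intro d y hy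
    rw [Algebra.smul_def, ← Ideal.Quotient.mk_algebraMap, ← map_mul,
      Ideal.Quotient.mk_eq_mk_iff_sub_mem]
    have h1 : d * y - algebraMap k D (χ P d) * y = (d - algebraMap k D (χ P d)) * y := by ring
    rw [h1]
    exact Ideal.mul_mem_mul (sub_algebraMap_mem χ hχ P d) hy
  have haW : Ideal.Quotient.mk J a ∈ W := by
    show φ (Ideal.Quotient.mk J a) = 0
    rw [hφ, Ideal.Quotient.eq_zero_iff_mem]
    exact haI
  have hfr : Module.finrank k W = 1 := by
    refine finrank_eq_one (⟨Ideal.Quotient.mk J a, haW⟩ : W) ?_ ?_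
    · intro h
      have h2 : Ideal.Quotient.mk J a = 0 := congrArg Subtype.val h
      exact haJ (Ideal.Quotient.eq_zero_iff_mem.mp h2)
    · rintro ⟨w, hw⟩
      obtain ⟨y, hy, rfl⟩ := hW w hw
      obtain ⟨d, hd⟩ := hdecomp y hy
      refine ⟨χ P d, Subtype.ext ?_⟩
      show χ P d • Ideal.Quotient.mk J a = Ideal.Quotient.mk J y
      rw [← hact d a haI]
      exact ((Ideal.Quotient.mk_eq_mk_iff_sub_mem _ _).mpr hd).symm
  have hWfin : Module.Finite k W := Module.finite_of_finrank_pos (by rw [hfr]; exact one_pos)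
  let ψ : ((D ⧸ J) ⧸ W) ≃ₗ[k] (D ⧸ I) := φ.quotKerEquivOfSurjective hφsurj
  have hQfin : Module.Finite k ((D ⧸ J) ⧸ W) := Module.Finite.equiv ψ.symm
  have hJfin : Module.Finite k (D ⧸ J) := Module.Finite.of_submodule_quotient W
  refine ⟨hJfin, fun g => ?_⟩
  set e : (D ⧸ J) →ₗ[k] (D ⧸ J) := LinearMap.mulLeft k (Ideal.Quotient.mk J g) with he_def
  have he : W ≤ W.comap e := by
    intro w hw
    obtain ⟨y, hy, rfl⟩ := hW w hw
    show φ (Ideal.Quotient.mk J g * Ideal.Quotient.mk J y) = 0
    rw [← map_mul, hφ, Ideal.Quotient.eq_zero_iff_mem]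
    exact I.mul_mem_left g hy
  rw [LinearMap.det_eq_det_mul_det W e he]
  congr 1
  · -- the restriction is `χ P g • id`
    have hres : LinearMap.restrict e (p := W) (q := W) he = χ P g • LinearMap.id := by
      apply LinearMap.ext
      rintro ⟨w, hw⟩
      obtain ⟨y, hy, rfl⟩ := hW w hw
      apply Subtype.ext
      show Ideal.Quotient.mk J g * Ideal.Quotient.mk J y = χ P g • Ideal.Quotient.mk J y
      rw [← map_mul, hact g y hy]
    rw [hres, LinearMap.det_smul, hfr, pow_one, LinearMap.det_id, mul_one]
  · have hconj : (ψ : ((D ⧸ J) ⧸ W) →ₗ[k] (D ⧸ I)) ∘ₗ (W.mapQ W e he) ∘ₗ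
        (ψ.symm : (D ⧸ I) →ₗ[k] ((D ⧸ J) ⧸ W)) =
        LinearMap.mulLeft k (Ideal.Quotient.mk I g) := by
      apply LinearMap.ext
      intro z
      obtain ⟨x, rfl⟩ := ψ.surjective z
      obtain ⟨x, rfl⟩ := Submodule.Quotient.mk_surjective W x
      obtain ⟨y, rfl⟩ := Ideal.Quotient.mk_surjective x
      simp only [LinearMap.coe_comp, LinearEquiv.coe_coe, Function.comp_apply,
        LinearEquiv.symm_apply_apply, LinearMap.mulLeft_apply]
      show ψ (W.mapQ W e he (Submodule.Quotient.mk (Ideal.Quotient.mk J y))) =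
        Ideal.Quotient.mk I g * ψ (Submodule.Quotient.mk (Ideal.Quotient.mk J y))
      rw [Submodule.mapQ_apply]
      show φ (Ideal.Quotient.mk J g * Ideal.Quotient.mk J y) =
        Ideal.Quotient.mk I g * φ (Ideal.Quotient.mk J y)
      rw [← map_mul, hφ, hφ, map_mul]
    rw [← hconj, LinearMap.det_conj]

include hχ in
/-- **Determinant of multiplication on a quotient of a Dedekind domain.** -/
theorem det_mulLeft_quotient_prod (s : Multiset (HeightOneSpectrum D)) :
    Module.Finite k (D ⧸ prodIdeal s) ∧ ∀ g : D,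
      LinearMap.det (LinearMap.mulLeft k (Ideal.Quotient.mk (prodIdeal s) g)) =
        (s.map fun P => χ P g).prod := by
  induction s using Multiset.induction_on with
  | empty =>
    have hsub : Subsingleton (D ⧸ prodIdeal (0 : Multiset (HeightOneSpectrum D))) := by
      rw [prodIdeal_zero]
      exact Ideal.Quotient.subsingleton_iff.mpr rfl
    refine ⟨Module.Finite.of_finite, fun g => ?_⟩
    rw [LinearMap.det_eq_one_of_subsingleton]
    simp
  | cons P s ih =>
    obtain ⟨hfin, hdet⟩ := ih
    haveI := hfin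
    have h := det_step χ hχ P (prodIdeal s) (prodIdeal_ne_bot s)
    rw [prodIdeal_cons]
    refine ⟨h.1, fun g => ?_⟩
    rw [h.2 g, hdet g, Multiset.map_cons, Multiset.prod_cons]

/-- Every nonzero ideal is the product of a multiset of height-one primes. -/
theorem exists_prodIdeal_eq (I : Ideal D) (hI : I ≠ ⊥) :
    ∃ s : Multiset (HeightOneSpectrum D), prodIdeal s = I := by
  classical
  have key : ∀ t : Multiset (Ideal D), (∀ Q ∈ t, Prime Q) →
      ∃ s : Multiset (HeightOneSpectrum D), (s.map fun P => P.asIdeal) = t := by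
    intro t
    induction t using Multiset.induction_on with
    | empty => exact fun _ => ⟨0, rfl⟩
    | cons Q t ih =>
      intro h
      obtain ⟨s, hs⟩ := ih fun Q' hQ' => h Q' (Multiset.mem_cons_of_mem hQ')
      have hQ : Prime Q := h Q (Multiset.mem_cons_self Q t)
      refine ⟨(⟨Q, Ideal.isPrime_of_prime hQ, hQ.ne_zero⟩ : HeightOneSpectrum D) ::ₘ s, ?_⟩
      rw [Multiset.map_cons, hs]
  obtain ⟨s, hs⟩ := key (UniqueFactorizationMonoid.normalizedFactors I)
    fun Q hQ => UniqueFactorizationMonoid.prime_of_normalized_factor Q hQ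
  refine ⟨s, ?_⟩
  rw [prodIdeal, hs]
  exact Ideal.prod_normalizedFactors_eq_self hI

include hχ in
theorem chi_injective : Function.Injective χ := by
  intro P Q h
  apply HeightOneSpectrum.ext
  rw [← hχ P, ← hχ Q, h]

include hχ in
/-- **Uniqueness.** Two nonzero ideals whose determinant functionals agree up to a common
product of characters are equal. -/
theorem eq_of_det_mul_eq [Infinite k] (I I' : Ideal D) (hI : I ≠ ⊥) (hI' : I' ≠ ⊥)
    (T : Multiset (D →ₐ[k] k))
    (h : ∀ g : D,
      LinearMap.det (LinearMap.mulLeft k (Ideal.Quotient.mk I g)) * (T.map fun ψ => ψ g).prod =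
      LinearMap.det (LinearMap.mulLeft k (Ideal.Quotient.mk I' g)) * (T.map fun ψ => ψ g).prod) :
    I = I' := by
  classical
  obtain ⟨s, rfl⟩ := exists_prodIdeal_eq I hI
  obtain ⟨s', rfl⟩ := exists_prodIdeal_eq I' hI'
  have hmul : s.map χ + T = s'.map χ + T := by
    apply Fermat.Agent.Lib.MultisetEval.algHom_multiset_eq_of_forall_prod_eq
    intro g
    have h1 := (det_mulLeft_quotient_prod χ hχ s).2 g
    have h2 := (det_mulLeft_quotient_prod χ hχ s').2 g
    rw [Multiset.map_add, Multiset.map_add, Multiset.prod_add, Multiset.prod_add,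
      Multiset.map_map, Multiset.map_map]
    have e1 : (s.map ((fun ψ : D →ₐ[k] k => ψ g) ∘ χ)) = s.map fun P => χ P g := rfl
    have e2 : (s'.map ((fun ψ : D →ₐ[k] k => ψ g) ∘ χ)) = s'.map fun P => χ P g := rfl
    rw [e1, e2, ← h1, ← h2]
    exact h g
  have hmap : s.map χ = s'.map χ := add_right_cancel hmul
  rw [Multiset.map_injective (chi_injective χ hχ) hmap]

include hχ in
/-- Two nonzero elements with the same determinant functional generate the same ideal. -/
theorem span_eq_of_det_eq [Infinite k] (a b : D) (ha : a ≠ 0) (hb : b ≠ 0)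
    (h : ∀ g : D,
      LinearMap.det (LinearMap.mulLeft k (Ideal.Quotient.mk (Ideal.span {a}) g)) =
      LinearMap.det (LinearMap.mulLeft k (Ideal.Quotient.mk (Ideal.span {b}) g))) :
    Ideal.span {a} = Ideal.span {b} := by
  refine eq_of_det_mul_eq χ hχ _ _ ?_ ?_ 0 fun g => ?_
  · rwa [Ne, Ideal.span_singleton_eq_bot]
  · rwa [Ne, Ideal.span_singleton_eq_bot]
  · rw [h g]

end Dedekind

/-! ### Transfer of determinants along semilinear maps -/

section Transfer

variable {A K M N : Type*} [CommRing A] [Field K] [AddCommGroup M] [Module A M]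
  [AddCommGroup N] [Module K N]

/-- If a semilinear map `π : M → N` over `φ : A → K` carries a basis of `M` to a basis of `N`,
determinants of compatible endomorphisms correspond under `φ`. -/
theorem det_transfer_of_basis {ι : Type*} [Fintype ι] [DecidableEq ι] (φ : A →+* K) (π : M →+ N)
    (hπ : ∀ (a : A) (x : M), π (a • x) = φ a • π x) (b : Basis ι A M)
    (hli : LinearIndependent K fun i => π (b i))
    (hsp : ⊤ ≤ Submodule.span K (Set.range fun i => π (b i)))
    (f : M →ₗ[A] M) (fK : N →ₗ[K] N) (hf : ∀ x, π (f x) = fK (π x)) :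
    LinearMap.det fK = φ (LinearMap.det f) := by
  set b' : Basis ι K N := Basis.mk hli hsp with hb'
  have hb'i : ∀ i, b' i = π (b i) := fun i => Basis.mk_apply hli hsp i
  have hmat : LinearMap.toMatrix b' b' fK = (LinearMap.toMatrix b b f).map φ := by
    ext i j
    rw [LinearMap.toMatrix_apply, Matrix.map_apply, LinearMap.toMatrix_apply, hb'i, ← hf]
    have h1 : f (b j) = ∑ l, (b.repr (f (b j)) l) • b l := (b.sum_repr (f (b j))).symm
    have h2 : π (f (b j)) = ∑ l, φ (b.repr (f (b j)) l) • b' l := by
      conv_lhs => rw [h1]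
      rw [map_sum]
      refine Finset.sum_congr rfl fun l _ => ?_
      rw [hπ, hb'i]
    rw [h2, b'.repr_sum_self]
  rw [← LinearMap.det_toMatrix b', hmat, ← LinearMap.det_toMatrix b]
  exact (RingHom.map_det φ _).symm

variable [Module.Free A M] [Module.Finite A M]

/-- **Reduction of determinants.**  `φ : A → K` surjective, `π : M → N` a surjective semilinear
map whose kernel is `(ker φ) • M`. -/
theorem det_transfer_quotient (φ : A →+* K) (hφ : Function.Surjective φ) (π : M →+ N)
    (hπ : ∀ (a : A) (x : M), π (a • x) = φ a • π x) (hsurj : Function.Surjective π)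
    (hker : ∀ x : M, π x = 0 → x ∈ (RingHom.ker φ) • (⊤ : Submodule A M))
    (f : M →ₗ[A] M) (fK : N →ₗ[K] N) (hf : ∀ x, π (f x) = fK (π x)) :
    LinearMap.det fK = φ (LinearMap.det f) := by
  classical
  set b := Module.Free.chooseBasis A M with hb
  haveI : Fintype (Module.Free.ChooseBasisIndex A M) := Module.Free.ChooseBasisIndex.fintype A M
  have hsum : ∀ c : Module.Free.ChooseBasisIndex A M → A,
      π (∑ i, c i • b i) = ∑ i, φ (c i) • π (b i) := by
    intro c
    rw [map_sum]
    exact Finset.sum_congr rfl fun i _ => hπ _ _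
  refine det_transfer_of_basis φ π hπ b ?_ ?_ f fK hf
  · rw [Fintype.linearIndependent_iff]
    intro g hg i
    choose c hc using fun i => hφ (g i)
    have h0 : π (∑ i, c i • b i) = 0 := by
      rw [hsum]
      simpa [hc] using hg
    have hmem := hker _ h0
    rw [← b.span_eq, Submodule.mem_ideal_smul_span_iff_exists_sum] at hmem
    obtain ⟨a, ha, hsum'⟩ := hmem
    have hrepr : b.repr (∑ i, c i • b i) i = c i := by
      rw [b.repr_sum_self]
    have hrepr' : b.repr (a.sum fun i c => c • b i) i = a i := by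
      have : (a.sum fun i c => c • b i) = b.repr.symm a := by
        rw [Basis.repr_symm_apply, Finsupp.linearCombination_apply]
      rw [this, LinearEquiv.apply_symm_apply]
    have : c i = a i := by rw [← hrepr, ← hsum', hrepr']
    rw [← hc i, this]
    exact RingHom.mem_ker.mp (ha i)
  · intro n _
    obtain ⟨x, rfl⟩ := hsurj n
    rw [← b.sum_repr x, hsum]
    exact Submodule.sum_mem _ fun i _ =>
      Submodule.smul_mem _ _ (Submodule.subset_span ⟨i, rfl⟩)

/-- **Determinants and localisation.**  `K` the fraction field of the domain `A`, `π : M → N`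
an injective semilinear map whose image spans `N` up to denominators. -/
theorem det_transfer_fraction [IsDomain A] [Algebra A K] [IsFractionRing A K] (π : M →+ N)
    (hπ : ∀ (a : A) (x : M), π (a • x) = algebraMap A K a • π x)
    (hinj : Function.Injective π)
    (hspan : ∀ n : N, ∃ s : A, s ≠ 0 ∧ ∃ x : M, algebraMap A K s • n = π x)
    (f : M →ₗ[A] M) (fK : N →ₗ[K] N) (hf : ∀ x, π (f x) = fK (π x)) :
    LinearMap.det fK = algebraMap A K (LinearMap.det f) := by
  classical
  set b := Module.Free.chooseBasis A M with hb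
  haveI : Fintype (Module.Free.ChooseBasisIndex A M) := Module.Free.ChooseBasisIndex.fintype A M
  have hsum : ∀ c : Module.Free.ChooseBasisIndex A M → A,
      π (∑ i, c i • b i) = ∑ i, algebraMap A K (c i) • π (b i) := by
    intro c
    rw [map_sum]
    exact Finset.sum_congr rfl fun i _ => hπ _ _
  have hinjA : Function.Injective (algebraMap A K) := IsFractionRing.injective A K
  refine det_transfer_of_basis (algebraMap A K) π hπ b ?_ ?_ f fK hf
  · rw [Fintype.linearIndependent_iff]
    intro g hg i
    obtain ⟨⟨s, hs⟩, hsg⟩ := IsLocalization.exist_integer_multiples_of_finset (nonZeroDivisors A)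
      (Finset.univ.image g)
    have hs0 : algebraMap A K s ≠ 0 := by
      rw [Ne, map_eq_zero_iff _ hinjA]
      exact nonZeroDivisors.ne_zero hs
    have hint : ∀ i, ∃ c : A, algebraMap A K c = algebraMap A K s * g i := by
      intro i
      obtain ⟨c, hc⟩ := hsg (g i) (Finset.mem_image_of_mem g (Finset.mem_univ i))
      exact ⟨c, by rw [hc, Algebra.smul_def]⟩
    choose c hc using hint
    have h0 : π (∑ i, c i • b i) = 0 := by
      rw [hsum]
      simp only [hc, mul_smul]
      rw [← Finset.smul_sum, hg, smul_zero]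
    have h1 : ∑ i, c i • b i = 0 := hinj (by rw [h0, map_zero])
    have hci : c i = 0 := by
      have hrepr : b.repr (∑ i, c i • b i) i = c i := by
        rw [b.repr_sum_self]
      rw [h1, map_zero] at hrepr
      simpa using hrepr.symm
    have := hc i
    rw [hci, map_zero] at this
    exact (mul_eq_zero.mp this.symm).resolve_left hs0
  · intro n _
    obtain ⟨s, hs, x, hx⟩ := hspan n
    have hs0 : algebraMap A K s ≠ 0 := by
      rw [Ne, map_eq_zero_iff _ hinjA]
      exact hs
    have hn : n = (algebraMap A K s)⁻¹ • π x := by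
      rw [← hx, smul_smul, inv_mul_cancel₀ hs0, one_smul]
    rw [hn, ← b.sum_repr x, hsum]
    exact Submodule.smul_mem _ _ (Submodule.sum_mem _ fun i _ =>
      Submodule.smul_mem _ _ (Submodule.subset_span ⟨i, rfl⟩))

end Transfer

/-! ### Specialisation of zeros -/

section Specialisation

variable {A k C Dk : Type*} [CommRing A] [Field k] [CommRing C] [Algebra A C]
  [CommRing Dk] [Algebra k Dk]

theorem smul_mk_eq {R S : Type*} [CommRing R] [CommRing S] [Algebra R S] (I : Ideal S) (r : R)
    (x : S) : r • Ideal.Quotient.mk I x = Ideal.Quotient.mk I (algebraMap R S r * x) := by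
  rw [Algebra.smul_def, map_mul, Ideal.Quotient.mk_algebraMap]

/-- The map `C ⧸ (a) → D ⧸ (ρ a)` induced by a ring homomorphism `ρ : C → D`. -/
def quotMap {D' : Type*} [CommRing D'] (ρ : C →+* D') (a : C) :
    (C ⧸ Ideal.span {a}) →+* (D' ⧸ Ideal.span {ρ a}) :=
  Ideal.quotientMap (Ideal.span {ρ a}) ρ (by
    rw [Ideal.span_singleton_le_iff_mem, Ideal.mem_comap]
    exact Ideal.mem_span_singleton_self _)

@[simp] theorem quotMap_mk {D' : Type*} [CommRing D'] (ρ : C →+* D') (a c : C) :
    quotMap ρ a (Ideal.Quotient.mk _ c) = Ideal.Quotient.mk _ (ρ c) := rfl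

variable (red : A →+* k) (ρ : C →+* Dk)

/-- **Reduction of the determinant functional.**  `ρ : C → Dk` is the reduction of the chart
ring (surjective, kernel `(ker red) C`, compatible with `red : A → k`), and `C ⧸ (a)` is finite
free over `A`. -/
theorem red_det (hred : Function.Surjective red) (hρ : Function.Surjective ρ)
    (hcomp : ∀ x : A, ρ (algebraMap A C x) = algebraMap k Dk (red x))
    (hker : RingHom.ker ρ = (RingHom.ker red).map (algebraMap A C))
    (a : C) [Module.Free A (C ⧸ Ideal.span {a})] [Module.Finite A (C ⧸ Ideal.span {a})] (g : C) :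
    LinearMap.det (LinearMap.mulLeft k (Ideal.Quotient.mk (Ideal.span {ρ a}) (ρ g))) =
      red (LinearMap.det (LinearMap.mulLeft A (Ideal.Quotient.mk (Ideal.span {a}) g))) := by
  refine det_transfer_quotient red hred (quotMap ρ a).toAddMonoidHom ?_ ?_ ?_ _ _ ?_
  · intro α x
    obtain ⟨c, rfl⟩ := Ideal.Quotient.mk_surjective x
    show quotMap ρ a (α • Ideal.Quotient.mk _ c) = red α • quotMap ρ a (Ideal.Quotient.mk _ c)
    rw [smul_mk_eq, quotMap_mk, quotMap_mk, smul_mk_eq, map_mul, hcomp]
  · intro n
    obtain ⟨d, rfl⟩ := Ideal.Quotient.mk_surjective n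
    obtain ⟨c, rfl⟩ := hρ d
    exact ⟨Ideal.Quotient.mk _ c, rfl⟩
  · intro x hx
    obtain ⟨c, rfl⟩ := Ideal.Quotient.mk_surjective x
    have h1 : Ideal.Quotient.mk (Ideal.span {ρ a}) (ρ c) = 0 := hx
    rw [Ideal.Quotient.eq_zero_iff_mem] at h1
    obtain ⟨d, hd⟩ := Ideal.mem_span_singleton'.mp h1
    obtain ⟨y, rfl⟩ := hρ d
    have h2 : c - y * a ∈ (RingHom.ker red).map (algebraMap A C) := by
      rw [← hker, RingHom.mem_ker, map_sub, map_mul, hd, sub_self]
    have h3 : Ideal.Quotient.mk (Ideal.span {a}) c =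
        Ideal.Quotient.mk (Ideal.span {a}) (c - y * a) := by
      rw [Ideal.Quotient.mk_eq_mk_iff_sub_mem]
      have : c - (c - y * a) = y * a := by ring
      rw [this]
      exact Ideal.mul_mem_left _ _ (Ideal.mem_span_singleton_self a)
    rw [h3]
    have key : ∀ z ∈ (RingHom.ker red).map (algebraMap A C),
        Ideal.Quotient.mk (Ideal.span {a}) z ∈
          (RingHom.ker red) • (⊤ : Submodule A (C ⧸ Ideal.span {a})) := by
      intro z hz
      refine Submodule.span_induction ?_ ?_ ?_ ?_ hz
      · rintro _ ⟨m, hm, rfl⟩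
        have : Ideal.Quotient.mk (Ideal.span {a}) (algebraMap A C m) =
            m • (1 : C ⧸ Ideal.span {a}) := by
          rw [Algebra.smul_def, mul_one]
          rfl
        rw [this]
        exact Submodule.smul_mem_smul hm Submodule.mem_top
      · rw [map_zero]
        exact Submodule.zero_mem _
      · intro u v _ _ hu hv
        rw [map_add]
        exact Submodule.add_mem _ hu hv
      · intro r u _ hu
        rw [smul_eq_mul, map_mul]
        refine Submodule.smul_induction_on hu ?_ ?_
        · intro m hm t _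
          rw [mul_smul_comm]
          exact Submodule.smul_mem_smul hm Submodule.mem_top
        · intro u v hu hv
          rw [mul_add]
          exact Submodule.add_mem _ hu hv
    exact key _ h2
  · intro x
    obtain ⟨c, rfl⟩ := Ideal.Quotient.mk_surjective x
    show quotMap ρ a (Ideal.Quotient.mk _ g * Ideal.Quotient.mk _ c) =
      Ideal.Quotient.mk _ (ρ g) * quotMap ρ a (Ideal.Quotient.mk _ c)
    rw [← map_mul, quotMap_mk, quotMap_mk, map_mul, map_mul]

variable [IsDedekindDomain Dk] (χ : HeightOneSpectrum Dk → Dk →ₐ[k] k)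
  (hχ : ∀ P, RingHom.ker (χ P : Dk →+* k) = P.asIdeal)

include hχ in
/-- **Matching zeros give a unit on the special fibre.**  If the determinant functionals of
`a` and `b` reduce to the same functional up to a common product `T` of points of the special
fibre, then `ρ a` and `ρ b` generate the same ideal of the special fibre `Dk`. -/
theorem span_eq_of_matching [Infinite k] (hred : Function.Surjective red)
    (hρ : Function.Surjective ρ)
    (hcomp : ∀ x : A, ρ (algebraMap A C x) = algebraMap k Dk (red x))
    (hker : RingHom.ker ρ = (RingHom.ker red).map (algebraMap A C))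
    (a b : C) (ha : ρ a ≠ 0) (hb : ρ b ≠ 0)
    [Module.Free A (C ⧸ Ideal.span {a})] [Module.Finite A (C ⧸ Ideal.span {a})]
    [Module.Free A (C ⧸ Ideal.span {b})] [Module.Finite A (C ⧸ Ideal.span {b})]
    (T : Multiset (Dk →ₐ[k] k))
    (h : ∀ g : C,
      red (LinearMap.det (LinearMap.mulLeft A (Ideal.Quotient.mk (Ideal.span {a}) g))) *
          (T.map fun ψ => ψ (ρ g)).prod =
        red (LinearMap.det (LinearMap.mulLeft A (Ideal.Quotient.mk (Ideal.span {b}) g))) *
          (T.map fun ψ => ψ (ρ g)).prod) :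
    Ideal.span {ρ a} = Ideal.span {ρ b} := by
  refine eq_of_det_mul_eq χ hχ _ _ ?_ ?_ T fun g' => ?_
  · rwa [Ne, Ideal.span_singleton_eq_bot]
  · rwa [Ne, Ideal.span_singleton_eq_bot]
  · obtain ⟨g, rfl⟩ := hρ g'
    rw [red_det red ρ hred hρ hcomp hker a g, red_det red ρ hred hρ hcomp hker b g]
    exact h g

end Specialisation

/-! ### The generic fibre -/

section Generic

variable {A E C DE : Type*} [CommRing A] [IsDomain A] [Field E] [Algebra A E]
  [IsFractionRing A E] [CommRing C] [Algebra A C] [CommRing DE] [Algebra E DE]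
  (ι : C →+* DE)

/-- **The determinant functional on the generic fibre.**  `ι : C → DE` is the localisation of
the chart ring at the nonzero constants. -/
theorem generic_det (hι : Function.Injective ι)
    (hcomp : ∀ x : A, ι (algebraMap A C x) = algebraMap E DE (algebraMap A E x))
    (hloc : ∀ z : DE, ∃ s : A, s ≠ 0 ∧ ∃ c : C, algebraMap E DE (algebraMap A E s) * z = ι c)
    (a : C) [Module.Free A (C ⧸ Ideal.span {a})] [Module.Finite A (C ⧸ Ideal.span {a})] (g : C) :
    LinearMap.det (LinearMap.mulLeft E (Ideal.Quotient.mk (Ideal.span {ι a}) (ι g))) =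
      algebraMap A E
        (LinearMap.det (LinearMap.mulLeft A (Ideal.Quotient.mk (Ideal.span {a}) g))) := by
  have hsmul : ∀ (α : A) (c : C), ι (α • c) = algebraMap E DE (algebraMap A E α) * ι c := by
    intro α c
    rw [Algebra.smul_def, map_mul, hcomp]
  refine det_transfer_fraction (quotMap ι a).toAddMonoidHom ?_ ?_ ?_ _ _ ?_
  · intro α x
    obtain ⟨c, rfl⟩ := Ideal.Quotient.mk_surjective x
    show quotMap ι a (α • Ideal.Quotient.mk _ c) =
      algebraMap A E α • quotMap ι a (Ideal.Quotient.mk _ c)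
    rw [smul_mk_eq, quotMap_mk, quotMap_mk, smul_mk_eq, map_mul, hcomp]
  · rw [injective_iff_map_eq_zero]
    intro x hx
    obtain ⟨c, rfl⟩ := Ideal.Quotient.mk_surjective x
    have h1 : Ideal.Quotient.mk (Ideal.span {ι a}) (ι c) = 0 := hx
    rw [Ideal.Quotient.eq_zero_iff_mem] at h1
    obtain ⟨z, hz⟩ := Ideal.mem_span_singleton'.mp h1
    obtain ⟨s, hs, c', hc'⟩ := hloc z
    have h2 : s • c = c' * a := by
      apply hι
      rw [hsmul, map_mul, ← hc', ← hz]
      ring
    have h3 : s • Ideal.Quotient.mk (Ideal.span {a}) c = 0 := by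
      have : s • Ideal.Quotient.mk (Ideal.span {a}) c =
          Ideal.Quotient.mk (Ideal.span {a}) (s • c) := rfl
      rw [this, h2, Ideal.Quotient.eq_zero_iff_mem]
      exact Ideal.mul_mem_left _ _ (Ideal.mem_span_singleton_self a)
    exact (smul_eq_zero.mp h3).resolve_left hs
  · intro n
    obtain ⟨z, rfl⟩ := Ideal.Quotient.mk_surjective n
    obtain ⟨s, hs, c, hc⟩ := hloc z
    refine ⟨s, hs, Ideal.Quotient.mk _ c, ?_⟩
    show algebraMap A E s • Ideal.Quotient.mk (Ideal.span {ι a}) z =
      quotMap ι a (Ideal.Quotient.mk _ c)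
    rw [quotMap_mk, ← hc, smul_mk_eq]
  · intro x
    obtain ⟨c, rfl⟩ := Ideal.Quotient.mk_surjective x
    show quotMap ι a (Ideal.Quotient.mk _ g * Ideal.Quotient.mk _ c) =
      Ideal.Quotient.mk _ (ι g) * quotMap ι a (Ideal.Quotient.mk _ c)
    rw [← map_mul, quotMap_mk, quotMap_mk, map_mul, map_mul]

variable [IsDedekindDomain DE] (χE : HeightOneSpectrum DE → DE →ₐ[E] E)
  (hχE : ∀ P, RingHom.ker (χE P : DE →+* E) = P.asIdeal)

include hχE in
/-- The determinant functional of `a` is the product of the values at the zeros of `a` on the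
generic fibre. -/
theorem generic_det_eq_prod (hι : Function.Injective ι)
    (hcomp : ∀ x : A, ι (algebraMap A C x) = algebraMap E DE (algebraMap A E x))
    (hloc : ∀ z : DE, ∃ s : A, s ≠ 0 ∧ ∃ c : C, algebraMap E DE (algebraMap A E s) * z = ι c)
    (a : C) [Module.Free A (C ⧸ Ideal.span {a})] [Module.Finite A (C ⧸ Ideal.span {a})]
    (s : Multiset (HeightOneSpectrum DE)) (hs : prodIdeal s = Ideal.span {ι a}) (g : C) :
    algebraMap A E (LinearMap.det (LinearMap.mulLeft A (Ideal.Quotient.mk (Ideal.span {a}) g))) =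
      (s.map fun P => χE P (ι g)).prod := by
  have h2 := (det_mulLeft_quotient_prod χE hχE s).2 (ι g)
  rw [hs] at h2
  rw [← generic_det ι hι hcomp hloc a g, h2]

end Generic

/-! ### The combined statement -/

section Combined

variable {A E k C DE Dk : Type*} [CommRing A] [IsDomain A] [Field E] [Algebra A E]
  [IsFractionRing A E] [Field k] [Infinite k] [CommRing C] [Algebra A C]
  [CommRing DE] [IsDedekindDomain DE] [Algebra E DE]
  [CommRing Dk] [IsDedekindDomain Dk] [Algebra k Dk]

/-- **Specialisation of zeros (abstract form of "reduction of principal divisors").**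

`C` is a chart ring over `A` with generic fibre `ι : C → DE` (Dedekind over `E = Frac A`, residue
characters `χE`) and special fibre `ρ : C → Dk` (Dedekind over `k`, residue characters `χ`,
`ρ` surjective with kernel `(ker red) C`).  Let `a, b ∈ C` have nonzero reduction, with
`C ⧸ (a)`, `C ⧸ (b)` finite free over `A`, and zero multisets `sa`, `sb` on the generic fibre.
If `sa + V = sb + U` where `U`, `V` are multisets of points of the generic fibre which have the
same multiset `T` of reductions (in the test-function sense `hU`, `hV`), then `ρ a` and `ρ b`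
generate the same ideal: `ρ a / ρ b` is a unit of the special fibre. -/
theorem span_eq_of_zeros_matching (red : A →+* k) (ρ : C →+* Dk) (ι : C →+* DE)
    (χ : HeightOneSpectrum Dk → Dk →ₐ[k] k)
    (hχ : ∀ P, RingHom.ker (χ P : Dk →+* k) = P.asIdeal)
    (χE : HeightOneSpectrum DE → DE →ₐ[E] E)
    (hχE : ∀ P, RingHom.ker (χE P : DE →+* E) = P.asIdeal)
    (hred : Function.Surjective red) (hρ : Function.Surjective ρ)
    (hcompk : ∀ x : A, ρ (algebraMap A C x) = algebraMap k Dk (red x))
    (hker : RingHom.ker ρ = (RingHom.ker red).map (algebraMap A C))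
    (hι : Function.Injective ι)
    (hcompE : ∀ x : A, ι (algebraMap A C x) = algebraMap E DE (algebraMap A E x))
    (hloc : ∀ z : DE, ∃ s : A, s ≠ 0 ∧ ∃ c : C, algebraMap E DE (algebraMap A E s) * z = ι c)
    (a b : C) (ha : ρ a ≠ 0) (hb : ρ b ≠ 0)
    [Module.Free A (C ⧸ Ideal.span {a})] [Module.Finite A (C ⧸ Ideal.span {a})]
    [Module.Free A (C ⧸ Ideal.span {b})] [Module.Finite A (C ⧸ Ideal.span {b})]
    (sa sb U V : Multiset (HeightOneSpectrum DE))
    (hsa : prodIdeal sa = Ideal.span {ι a}) (hsb : prodIdeal sb = Ideal.span {ι b})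
    (hUV : sa + V = sb + U) (T : Multiset (Dk →ₐ[k] k))
    (hU : ∀ g : C, ∃ x : A, algebraMap A E x = (U.map fun P => χE P (ι g)).prod ∧
      red x = (T.map fun ψ => ψ (ρ g)).prod)
    (hV : ∀ g : C, ∃ x : A, algebraMap A E x = (V.map fun P => χE P (ι g)).prod ∧
      red x = (T.map fun ψ => ψ (ρ g)).prod) :
    Ideal.span {ρ a} = Ideal.span {ρ b} := by
  refine span_eq_of_matching red ρ χ hχ hred hρ hcompk hker a b ha hb T fun g => ?_
  obtain ⟨xU, hxU, hrU⟩ := hU g
  obtain ⟨xV, hxV, hrV⟩ := hV g
  have hda := generic_det_eq_prod ι χE hχE hι hcompE hloc a sa hsa g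
  have hdb := generic_det_eq_prod ι χE hχE hι hcompE hloc b sb hsb g
  have hprod := congrArg (fun s : Multiset (HeightOneSpectrum DE) =>
    (s.map fun P => χE P (ι g)).prod) hUV
  simp only [Multiset.map_add, Multiset.prod_add] at hprod
  rw [← hda, ← hdb, ← hxU, ← hxV, ← map_mul, ← map_mul] at hprod
  have h1 := IsFractionRing.injective A E hprod
  have h2 := congrArg red h1
  rw [map_mul, map_mul, hrU, hrV] at h2
  exact h2

end Combined

end Fermat.Agent.Lib.DetPoints
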