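import Mathlib

/-!
# Eisenstein series of weight 4 with a (not necessarily congruence) character of `Γ₀(N)`

For a unitary character `φ : Γ₀(N) →* ℂˣ` which is trivial on the stabiliser of `∞`
(matrices with lower-left entry `0`), the series

  `E_φ(τ) = 1/2 · ∑_{(c,d)} φ(γ_{c,d})⁻¹ (cτ+d)⁻⁴`

(sum over the bottom rows `(c,d)` of `Γ₀(N)`, `γ_{c,d} ∈ Γ₀(N)` any matrix with that bottom row)
is holomorphic on `ℍ`, satisfies `E_φ(γτ) = φ(γ) (cτ+d)⁴ E_φ(τ)`, tends to `1` at `i∞`, and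
all its slashes `E_φ ∣[4] σ`, `σ ∈ SL(2,ℤ)`, are bounded at `i∞`.
-/

set_option autoImplicit false

open scoped MatrixGroups Manifold Topology
open UpperHalfPlane ModularForm Matrix CongruenceSubgroup Filter EisensteinSeries

noncomputable section

namespace Fermat.Agent.Lib.EisChar

/-! ### The full lattice sum is bounded on `im τ ≥ 1` -/

/-- `latSum k τ = ∑_{x ∈ ℤ²} ‖(x₀ τ + x₁)^(-k)‖`. -/
def latSum (k : ℤ) (τ : ℍ) : ℝ := ∑' x : Fin 2 → ℤ, ‖eisSummand k x τ‖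

/-- right multiplication by an element of `SL(2,ℤ)` as a permutation of `ℤ²` -/
def vecMulEquiv (g : SL(2, ℤ)) : (Fin 2 → ℤ) ≃ (Fin 2 → ℤ) where
  toFun x := x ᵥ* (g : Matrix (Fin 2) (Fin 2) ℤ)
  invFun x := x ᵥ* ((g⁻¹ : SL(2, ℤ)) : Matrix (Fin 2) (Fin 2) ℤ)
  left_inv x := by
    simp_rw [vecMul_vecMul, ← Matrix.SpecialLinearGroup.coe_mul, mul_inv_cancel,
      Matrix.SpecialLinearGroup.coe_one, vecMul_one]
  right_inv x := by
    simp_rw [vecMul_vecMul, ← Matrix.SpecialLinearGroup.coe_mul, inv_mul_cancel,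
      Matrix.SpecialLinearGroup.coe_one, vecMul_one]

@[simp]
theorem vecMulEquiv_apply (g : SL(2, ℤ)) (x : Fin 2 → ℤ) :
    vecMulEquiv g x = x ᵥ* (g : Matrix (Fin 2) (Fin 2) ℤ) := rfl

theorem latSum_T_zpow_smul (k : ℤ) (n : ℤ) (τ : ℍ) :
    latSum k (ModularGroup.T ^ n • τ) = latSum k τ := by
  unfold latSum
  have h : ∀ x : Fin 2 → ℤ, ‖eisSummand k x (ModularGroup.T ^ n • τ)‖
      = ‖eisSummand k (vecMulEquiv (ModularGroup.T ^ n) x) τ‖ := by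
    intro x
    rw [eisSummand_SL2_apply, ModularGroup.denom_apply]
    simp [ModularGroup.coe_T_zpow]
  simp_rw [h]
  exact (vecMulEquiv (ModularGroup.T ^ n)).tsum_eq (fun x => ‖eisSummand k x τ‖)

theorem latSum_le {k : ℤ} (hk : 3 ≤ k) : ∃ C : ℝ, ∀ τ : ℍ, 1 ≤ τ.im → latSum k τ ≤ C := by
  have hk' : (2 : ℝ) < k := by norm_cast
  refine ⟨∑' x : Fin 2 → ℤ, r ⟨⟨((1 : ℕ) : ℝ), 1⟩, one_pos⟩ ^ (-k) * ‖x‖ ^ (-k), fun τ hτ => ?_⟩
  obtain ⟨n, hn⟩ := ModularGroup_T_zpow_mem_verticalStrip τ (N := 1) one_pos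
  rw [← latSum_T_zpow_smul k (((1 : ℕ) : ℤ) * n) τ]
  unfold latSum
  apply (summable_norm_eisSummand hk _).tsum_le_tsum _
  · exact_mod_cast (summable_one_div_norm_rpow hk').mul_left <|
      r ⟨⟨((1 : ℕ) : ℝ), 1⟩, one_pos⟩ ^ (-k)
  · intro x
    simp_rw [eisSummand, norm_zpow]
    exact_mod_cast summand_bound_of_mem_verticalStrip (lt_trans two_pos hk').le x one_pos
      (verticalStrip_anti_right ((1 : ℕ) : ℝ) hτ hn)

theorem latSum_nonneg (k : ℤ) (τ : ℍ) : 0 ≤ latSum k τ :=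
  tsum_nonneg fun _ => norm_nonneg _

/-! ### Bottom rows of `Γ₀(N)` -/

variable (N : ℕ)

/-- The set of bottom rows of elements of `Γ₀(N)`. -/
def rowSet : Set (Fin 2 → ℤ) := {v | (N : ℤ) ∣ v 0 ∧ IsCoprime (v 0) (v 1)}

theorem row_mem (γ : Gamma0 N) :
    ((γ : SL(2, ℤ)) : Matrix (Fin 2) (Fin 2) ℤ) 1 ∈ rowSet N := by
  refine ⟨?_, ModularGroup.bottom_row_coprime _⟩
  have h := Gamma0_mem.mp γ.2
  exact (ZMod.intCast_zmod_eq_zero_iff_dvd _ N).mp h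

theorem exists_rep (v : rowSet N) :
    ∃ γ : Gamma0 N, ((γ : SL(2, ℤ)) : Matrix (Fin 2) (Fin 2) ℤ) 1 = v := by
  obtain ⟨g, -, hg⟩ := ModularGroup.bottom_row_surj (R := ℤ) v.2.2
  refine ⟨⟨g, ?_⟩, hg⟩
  rw [Gamma0_mem]
  have h : (g : Matrix (Fin 2) (Fin 2) ℤ) 1 0 = v.1 0 := congrFun hg 0
  rw [h]
  exact (ZMod.intCast_zmod_eq_zero_iff_dvd _ N).mpr v.2.1

/-- A chosen element of `Γ₀(N)` with bottom row `v`. -/
def rep (v : rowSet N) : Gamma0 N := (exists_rep N v).choose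

theorem rep_row (v : rowSet N) :
    ((rep N v : SL(2, ℤ)) : Matrix (Fin 2) (Fin 2) ℤ) 1 = v := (exists_rep N v).choose_spec

theorem bottom_mul_inv (γ g : SL(2, ℤ))
    (h : (γ : Matrix (Fin 2) (Fin 2) ℤ) 1 = (g : Matrix (Fin 2) (Fin 2) ℤ) 1) :
    ((γ * g⁻¹ : SL(2, ℤ)) : Matrix (Fin 2) (Fin 2) ℤ) 1 0 = 0 := by
  have h0 := congrFun h 0
  have h1 := congrFun h 1
  simp only [Matrix.SpecialLinearGroup.coe_mul, Matrix.SpecialLinearGroup.coe_inv, Matrix.mul_apply,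
    Fin.sum_univ_two, Matrix.adjugate_fin_two, Matrix.of_apply, Matrix.cons_val', Matrix.cons_val_zero,
    Matrix.cons_val_one]
  simp [h0, h1]
  ring

theorem row_mul (g γ : SL(2, ℤ)) :
    ((g * γ : SL(2, ℤ)) : Matrix (Fin 2) (Fin 2) ℤ) 1
      = (g : Matrix (Fin 2) (Fin 2) ℤ) 1 ᵥ* (γ : Matrix (Fin 2) (Fin 2) ℤ) := by
  ext j
  simp [Matrix.mul_apply, Matrix.vecMul, dotProduct, Fin.sum_univ_two]

variable {N}

/-- Right multiplication by `γ ∈ Γ₀(N)` permutes the bottom rows. -/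
def rowEquiv (γ : Gamma0 N) : rowSet N ≃ rowSet N where
  toFun v := ⟨v.1 ᵥ* ((γ : SL(2, ℤ)) : Matrix (Fin 2) (Fin 2) ℤ), by
    have h := row_mem N (rep N v * γ)
    rw [Subgroup.coe_mul, row_mul, rep_row] at h
    exact h⟩
  invFun v := ⟨v.1 ᵥ* (((γ⁻¹ : Gamma0 N) : SL(2, ℤ)) : Matrix (Fin 2) (Fin 2) ℤ), by
    have h := row_mem N (rep N v * γ⁻¹)
    rw [Subgroup.coe_mul, row_mul, rep_row] at h
    exact h⟩
  left_inv v := by
    apply Subtype.ext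
    simp only [Subgroup.coe_inv]
    simp_rw [vecMul_vecMul, ← Matrix.SpecialLinearGroup.coe_mul, mul_inv_cancel,
      Matrix.SpecialLinearGroup.coe_one, vecMul_one]
  right_inv v := by
    apply Subtype.ext
    simp only [Subgroup.coe_inv]
    simp_rw [vecMul_vecMul, ← Matrix.SpecialLinearGroup.coe_mul, inv_mul_cancel,
      Matrix.SpecialLinearGroup.coe_one, vecMul_one]

@[simp]
theorem rowEquiv_apply (γ : Gamma0 N) (v : rowSet N) :
    (rowEquiv γ v : Fin 2 → ℤ) = v.1 ᵥ* ((γ : SL(2, ℤ)) : Matrix (Fin 2) (Fin 2) ℤ) := rfl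

/-! ### The character weights -/

variable (φ : Gamma0 N →* ℂˣ)

/-- the weight `φ(γ_v)⁻¹` of a bottom row -/
def wt (v : rowSet N) : ℂ := ((φ (rep N v))⁻¹ : ℂˣ)

theorem phi_eq_of_row
    (hpar : ∀ γ : Gamma0 N, ((γ : SL(2, ℤ)) : Matrix (Fin 2) (Fin 2) ℤ) 1 0 = 0 → φ γ = 1)
    (γ γ' : Gamma0 N)
    (h : ((γ : SL(2, ℤ)) : Matrix (Fin 2) (Fin 2) ℤ) 1
      = ((γ' : SL(2, ℤ)) : Matrix (Fin 2) (Fin 2) ℤ) 1) : φ γ = φ γ' := by
  have h1 : φ (γ * γ'⁻¹) = 1 := hpar _ (by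
    rw [Subgroup.coe_mul, Subgroup.coe_inv]
    exact bottom_mul_inv _ _ h)
  rw [map_mul, map_inv, mul_inv_eq_one] at h1
  exact h1

theorem wt_rowEquiv
    (hpar : ∀ γ : Gamma0 N, ((γ : SL(2, ℤ)) : Matrix (Fin 2) (Fin 2) ℤ) 1 0 = 0 → φ γ = 1)
    (γ : Gamma0 N) (v : rowSet N) : wt φ v = (φ γ : ℂ) * wt φ (rowEquiv γ v) := by
  have h : φ (rep N (rowEquiv γ v)) = φ (rep N v * γ) := by
    apply phi_eq_of_row φ hpar
    rw [rep_row, Subgroup.coe_mul, row_mul, rep_row, rowEquiv_apply]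
  unfold wt
  rw [h, map_mul]
  simp

theorem norm_wt (hunit : ∀ γ, ‖(φ γ : ℂ)‖ = 1) (v : rowSet N) : ‖wt φ v‖ = 1 := by
  unfold wt
  rw [Units.val_inv_eq_inv_val, norm_inv, hunit, inv_one]

/-! ### The series -/

/-- the Eisenstein series of weight `k` with character `φ` (only used for `k = 4`) -/
def eisK (k : ℤ) (τ : ℍ) : ℂ := 2⁻¹ * ∑' v : rowSet N, wt φ v * eisSummand k v τ

theorem norm_term (hunit : ∀ γ, ‖(φ γ : ℂ)‖ = 1) (k : ℤ) (v : rowSet N) (τ : ℍ) :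
    ‖wt φ v * eisSummand k v τ‖ = ‖eisSummand k v τ‖ := by
  rw [norm_mul, norm_wt φ hunit, one_mul]

theorem summable_term (hunit : ∀ γ, ‖(φ γ : ℂ)‖ = 1) {k : ℤ} (hk : 3 ≤ k) (τ : ℍ) :
    Summable fun v : rowSet N => wt φ v * eisSummand k v τ := by
  apply Summable.of_norm
  simp_rw [norm_term φ hunit]
  exact (summable_norm_eisSummand hk τ).subtype _

/-- the transformation law -/
theorem eisK_smul
    (hpar : ∀ γ : Gamma0 N, ((γ : SL(2, ℤ)) : Matrix (Fin 2) (Fin 2) ℤ) 1 0 = 0 → φ γ = 1)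
    (k : ℤ) (γ : Gamma0 N) (τ : ℍ) :
    eisK φ k ((γ : SL(2, ℤ)) • τ) = (φ γ : ℂ) * denom (γ : SL(2, ℤ)) τ ^ k * eisK φ k τ := by
  unfold eisK
  have h : ∀ v : rowSet N, wt φ v * eisSummand k v ((γ : SL(2, ℤ)) • τ)
      = ((φ γ : ℂ) * denom (γ : SL(2, ℤ)) τ ^ k)
        * (wt φ (rowEquiv γ v) * eisSummand k (rowEquiv γ v) τ) := by
    intro v
    rw [eisSummand_SL2_apply, wt_rowEquiv φ hpar γ v, rowEquiv_apply]
    ring
  simp_rw [h]
  rw [tsum_mul_left, (rowEquiv γ).tsum_eq (fun v => wt φ v * eisSummand k v τ)]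
  ring

/-! ### Holomorphy -/

theorem tendstoLocallyUniformly_term (hunit : ∀ γ, ‖(φ γ : ℂ)‖ = 1) {k : ℤ} (hk : 3 ≤ k) :
    TendstoLocallyUniformly
      (fun (s : Finset (rowSet N)) ↦ (fun τ : ℍ => ∑ x ∈ s, wt φ x * eisSummand k x τ))
      (fun τ : ℍ => ∑' v : rowSet N, wt φ v * eisSummand k v τ) Filter.atTop := by
  have hk' : (2 : ℝ) < k := by norm_cast
  have p_sum : Summable fun x : rowSet N ↦ ‖x.val‖ ^ (-k) :=
    mod_cast (summable_one_div_norm_rpow hk').subtype (· ∈ rowSet N)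
  simp only [tendstoLocallyUniformly_iff_forall_isCompact]
  intro K hK
  obtain ⟨A, B, hB, HABK⟩ := subset_verticalStrip_of_isCompact hK
  refine (tendstoUniformlyOn_tsum (hu := p_sum.mul_left <| r ⟨⟨A, B⟩, hB⟩ ^ (-k : ℝ))
    (fun p z hz ↦ ?_)).mono HABK
  rw [norm_term φ hunit]
  simpa only [eisSummand, one_div, ← _root_.zpow_neg, norm_zpow, ← Real.rpow_intCast,
    Int.cast_neg] using summand_bound_of_mem_verticalStrip (by positivity) p hB hz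

theorem tendstoLocallyUniformlyOn_term (hunit : ∀ γ, ‖(φ γ : ℂ)‖ = 1) {k : ℤ} (hk : 3 ≤ k) :
    TendstoLocallyUniformlyOn
      (fun (s : Finset (rowSet N)) ↦
        ((fun τ : ℍ => ∑ x ∈ s, wt φ x * eisSummand k x τ) ∘ ofComplex))
      ((fun τ : ℍ => ∑' v : rowSet N, wt φ v * eisSummand k v τ) ∘ ofComplex)
      Filter.atTop {z : ℂ | 0 < z.im} := by
  rw [← upperHalfPlaneSet, ← range_coe, ← Set.image_univ]
  apply TendstoLocallyUniformlyOn.comp (s := ⊤) _ _ _ (OpenPartialHomeomorph.continuousOn_symm _)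
  · simp only [Set.top_eq_univ, tendstoLocallyUniformlyOn_univ]
    exact tendstoLocallyUniformly_term φ hunit hk
  · simp only [Topology.IsOpenEmbedding.toOpenPartialHomeomorph_target, Set.top_eq_univ,
      Set.mapsTo_range_iff, Set.mem_univ, forall_const]

theorem mdifferentiable_eisK (hunit : ∀ γ, ‖(φ γ : ℂ)‖ = 1) {k : ℤ} (hk : 3 ≤ k) :
    MDifferentiable 𝓘(ℂ) 𝓘(ℂ) (eisK φ k) := by
  have h1 : MDifferentiable 𝓘(ℂ) 𝓘(ℂ)
      (fun τ : ℍ => ∑' v : rowSet N, wt φ v * eisSummand k v τ) := by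
    rw [UpperHalfPlane.mdifferentiable_iff]
    refine (tendstoLocallyUniformlyOn_term φ hunit hk).differentiableOn
      (Eventually.of_forall fun s ↦ ?_) isOpen_upperHalfPlaneSet
    have h2 : ((fun τ : ℍ => ∑ x ∈ s, wt φ x * eisSummand k x τ) ∘ ofComplex)
        = fun z : ℂ => ∑ x ∈ s, wt φ x * (eisSummand k x ∘ ofComplex) z := by
      funext z
      simp
    rw [h2]
    exact DifferentiableOn.fun_sum
      fun x _ ↦ (eisSummand_extension_differentiableOn k x.1).const_mul _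
  exact (mdifferentiable_const (c := (2⁻¹ : ℂ))).mul h1

/-! ### Boundedness of all slashes at `i∞` -/

theorem slash_apply_eq (k : ℤ) (σ : SL(2, ℤ)) (τ : ℍ) :
    (eisK φ k ∣[k] σ) τ
      = 2⁻¹ * ∑' v : rowSet N, wt φ v * eisSummand k (vecMulEquiv σ v.1) τ := by
  rw [SL_slash_apply]
  unfold eisK
  simp_rw [eisSummand_SL2_apply]
  rw [mul_assoc, ← tsum_mul_right]
  congr 1
  apply tsum_congr
  intro v
  have hd : denom σ τ ≠ 0 := denom_ne_zero σ τ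
  rw [_root_.zpow_neg, vecMulEquiv_apply]
  field_simp

theorem norm_slash_le (hunit : ∀ γ, ‖(φ γ : ℂ)‖ = 1) {k : ℤ} (hk : 3 ≤ k) (σ : SL(2, ℤ))
    (τ : ℍ) : ‖(eisK φ k ∣[k] σ) τ‖ ≤ latSum k τ := by
  rw [slash_apply_eq, norm_mul]
  have hs : Summable fun v : rowSet N => ‖wt φ v * eisSummand k (vecMulEquiv σ v.1) τ‖ := by
    have hinj : Function.Injective fun v : rowSet N => vecMulEquiv σ v.1 :=
      (vecMulEquiv σ).injective.comp Subtype.val_injective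
    have := (summable_norm_eisSummand hk τ).comp_injective hinj
    refine this.congr fun v => ?_
    simp [norm_wt φ hunit]
  have h1 : ‖∑' v : rowSet N, wt φ v * eisSummand k (vecMulEquiv σ v.1) τ‖
      ≤ ∑' v : rowSet N, ‖wt φ v * eisSummand k (vecMulEquiv σ v.1) τ‖ :=
    norm_tsum_le_tsum_norm hs
  have h2 : ∑' v : rowSet N, ‖wt φ v * eisSummand k (vecMulEquiv σ v.1) τ‖ ≤ latSum k τ := by
    have hinj : Function.Injective fun v : rowSet N => vecMulEquiv σ v.1 :=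
      (vecMulEquiv σ).injective.comp Subtype.val_injective
    have h3 := tsum_comp_le_tsum_of_inj (summable_norm_eisSummand hk τ)
      (fun _ => norm_nonneg _) hinj
    refine le_trans (le_of_eq ?_) h3
    apply tsum_congr
    intro v
    simp [norm_wt φ hunit]
  have h4 : ‖(2⁻¹ : ℂ)‖ ≤ 1 := by
    rw [norm_inv]
    norm_num
  calc ‖(2⁻¹ : ℂ)‖ * ‖∑' v : rowSet N, wt φ v * eisSummand k (vecMulEquiv σ v.1) τ‖
      ≤ 1 * latSum k τ := mul_le_mul h4 (h1.trans h2) (norm_nonneg _) zero_le_one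
    _ = latSum k τ := one_mul _

theorem isBoundedAtImInfty_slash (hunit : ∀ γ, ‖(φ γ : ℂ)‖ = 1) {k : ℤ} (hk : 3 ≤ k)
    (σ : SL(2, ℤ)) : IsBoundedAtImInfty (eisK φ k ∣[k] σ) := by
  obtain ⟨C, hC⟩ := latSum_le hk
  rw [UpperHalfPlane.isBoundedAtImInfty_iff]
  exact ⟨C, 1, fun z hz => (norm_slash_le φ hunit hk σ z).trans (hC z hz)⟩

/-! ### The limit at `i∞` (weight 4) -/

variable (N) in
/-- the row `(0, 1)` -/
def e₁ : rowSet N := ⟨![0, 1], by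
  refine ⟨by simp, ?_⟩
  simpa using isCoprime_one_right (x := (0 : ℤ))⟩

variable (N) in
/-- the row `(0, -1)` -/
def e₂ : rowSet N := ⟨![0, -1], by
  refine ⟨by simp, ?_⟩
  simpa using (isCoprime_one_right (x := (0 : ℤ))).neg_right⟩

/-- indicator of the rows with `c = 0` -/
def delta (v : rowSet N) : ℂ := if v.1 0 = 0 then 1 else 0

theorem row_zero_cases (v : rowSet N) (h0 : v.1 0 = 0) : v = e₁ N ∨ v = e₂ N := by
  have hc := v.2.2
  rw [h0] at hc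
  rcases Int.isUnit_iff.mp (isCoprime_zero_left.mp hc) with h1 | h1
  · left
    apply Subtype.ext
    funext i
    fin_cases i
    · simpa [e₁] using h0
    · simpa [e₁] using h1
  · right
    apply Subtype.ext
    funext i
    fin_cases i
    · simpa [e₂] using h0
    · simpa [e₂] using h1

theorem e₁_ne_e₂ : e₁ N ≠ e₂ N := by
  intro h
  have h1 := congrArg (fun v : rowSet N => v.1 1) h
  simp [e₁, e₂] at h1

theorem delta_eq_zero_of_notMem (v : rowSet N) (hv : v ∉ ({e₁ N, e₂ N} : Finset (rowSet N))) :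
    delta v = 0 := by
  unfold delta
  rw [if_neg]
  intro h0
  apply hv
  rcases row_zero_cases v h0 with h | h <;> simp [h]

theorem tsum_delta : ∑' v : rowSet N, delta v = 2 := by
  rw [tsum_eq_sum (s := {e₁ N, e₂ N}) (fun v hv => delta_eq_zero_of_notMem v hv)]
  rw [Finset.sum_pair e₁_ne_e₂]
  simp [delta, e₁, e₂]
  norm_num

theorem summable_delta : Summable (delta (N := N)) :=
  summable_of_ne_finset_zero (s := {e₁ N, e₂ N}) (fun v hv => delta_eq_zero_of_notMem v hv)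

theorem term_of_zero
    (hpar : ∀ γ : Gamma0 N, ((γ : SL(2, ℤ)) : Matrix (Fin 2) (Fin 2) ℤ) 1 0 = 0 → φ γ = 1)
    (v : rowSet N) (h0 : v.1 0 = 0) (τ : ℍ) : wt φ v * eisSummand 4 v τ = 1 := by
  have hw : wt φ v = 1 := by
    unfold wt
    rw [hpar (rep N v) (by rw [rep_row]; exact h0)]
    simp
  have hc := v.2.2
  rw [h0] at hc
  rw [hw, one_mul, eisSummand, h0]
  rcases Int.isUnit_iff.mp (isCoprime_zero_left.mp hc) with h1 | h1
  · simp [h1]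
  · rw [h1]
    simp only [Int.cast_zero, zero_mul, zero_add, Int.cast_neg, Int.cast_one]
    rw [_root_.zpow_neg]
    norm_num

theorem norm_eisSummand_four_le (v : Fin 2 → ℤ) (h0 : v 0 ≠ 0) (τ : ℍ) :
    ‖eisSummand 4 v τ‖ ≤ (τ.im)⁻¹ * ‖eisSummand 3 v τ‖ := by
  unfold eisSummand
  set w : ℂ := (v 0 : ℂ) * (τ : ℂ) + v 1 with hw
  have him : τ.im ≤ ‖w‖ := by
    have h1 : |w.im| ≤ ‖w‖ := Complex.abs_im_le_norm w
    have h2 : w.im = (v 0 : ℝ) * τ.im := by simp [hw]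
    have h3 : (1 : ℝ) ≤ |(v 0 : ℝ)| := by exact_mod_cast Int.one_le_abs h0
    rw [h2, abs_mul, abs_of_pos τ.im_pos] at h1
    nlinarith [τ.im_pos]
  have hpos : 0 < ‖w‖ := lt_of_lt_of_le τ.im_pos him
  rw [norm_zpow, norm_zpow]
  have h4 : ‖w‖ ^ (-4 : ℤ) = ‖w‖⁻¹ * ‖w‖ ^ (-3 : ℤ) := by
    rw [show (-4 : ℤ) = -1 + -3 by norm_num, zpow_add₀ hpos.ne', _root_.zpow_neg_one]
  rw [h4]
  apply mul_le_mul_of_nonneg_right _ (zpow_nonneg hpos.le _)
  exact inv_anti₀ τ.im_pos him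

theorem norm_eis_sub_one_le (hunit : ∀ γ, ‖(φ γ : ℂ)‖ = 1)
    (hpar : ∀ γ : Gamma0 N, ((γ : SL(2, ℤ)) : Matrix (Fin 2) (Fin 2) ℤ) 1 0 = 0 → φ γ = 1)
    (τ : ℍ) : ‖eisK φ 4 τ - 1‖ ≤ (τ.im)⁻¹ * latSum 3 τ := by
  have hsum := summable_term φ hunit (k := 4) (by norm_num) τ
  have h1 : eisK φ 4 τ - 1
      = 2⁻¹ * ∑' v : rowSet N, (wt φ v * eisSummand 4 v τ - delta v) := by
    unfold eisK
    rw [hsum.tsum_sub summable_delta, tsum_delta]
    ring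
  rw [h1, norm_mul]
  have hb : ∀ v : rowSet N,
      ‖wt φ v * eisSummand 4 v τ - delta v‖ ≤ (τ.im)⁻¹ * ‖eisSummand 3 v τ‖ := by
    intro v
    by_cases h0 : v.1 0 = 0
    · rw [term_of_zero φ hpar v h0, delta, if_pos h0, sub_self, norm_zero]
      exact mul_nonneg (inv_nonneg.mpr τ.im_pos.le) (norm_nonneg _)
    · rw [delta, if_neg h0, sub_zero, norm_term φ hunit]
      exact norm_eisSummand_four_le v.1 h0 τ
  have hs3 : Summable fun v : rowSet N => (τ.im)⁻¹ * ‖eisSummand 3 v τ‖ :=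
    ((summable_norm_eisSummand (k := 3) le_rfl τ).subtype _).mul_left _
  have hsn : Summable fun v : rowSet N => ‖wt φ v * eisSummand 4 v τ - delta v‖ :=
    Summable.of_nonneg_of_le (fun _ => norm_nonneg _) hb hs3
  have h2 : ‖∑' v : rowSet N, (wt φ v * eisSummand 4 v τ - delta v)‖
      ≤ ∑' v : rowSet N, (τ.im)⁻¹ * ‖eisSummand 3 v τ‖ :=
    (norm_tsum_le_tsum_norm hsn).trans (hsn.tsum_le_tsum hb hs3)
  have h3 : ∑' v : rowSet N, (τ.im)⁻¹ * ‖eisSummand 3 v τ‖ ≤ (τ.im)⁻¹ * latSum 3 τ := by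
    rw [tsum_mul_left]
    apply mul_le_mul_of_nonneg_left _ (inv_nonneg.mpr τ.im_pos.le)
    exact tsum_comp_le_tsum_of_inj (summable_norm_eisSummand (k := 3) le_rfl τ)
      (fun _ => norm_nonneg _) Subtype.val_injective
  have h4 : ‖(2⁻¹ : ℂ)‖ ≤ 1 := by
    rw [norm_inv]
    norm_num
  calc ‖(2⁻¹ : ℂ)‖ * ‖∑' v : rowSet N, (wt φ v * eisSummand 4 v τ - delta v)‖
      ≤ 1 * ((τ.im)⁻¹ * latSum 3 τ) :=
        mul_le_mul h4 (h2.trans h3) (norm_nonneg _) zero_le_one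
    _ = (τ.im)⁻¹ * latSum 3 τ := one_mul _

theorem tendsto_eis (hunit : ∀ γ, ‖(φ γ : ℂ)‖ = 1)
    (hpar : ∀ γ : Gamma0 N, ((γ : SL(2, ℤ)) : Matrix (Fin 2) (Fin 2) ℤ) 1 0 = 0 → φ γ = 1) :
    Tendsto (eisK φ 4) atImInfty (𝓝 1) := by
  obtain ⟨C, hC⟩ := latSum_le (k := 3) le_rfl
  rw [tendsto_iff_norm_sub_tendsto_zero]
  have hlim : Tendsto (fun τ : ℍ => (τ.im)⁻¹ * C) atImInfty (𝓝 0) := by
    have h1 : Tendsto (fun τ : ℍ => τ.im) atImInfty atTop := tendsto_comap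
    have h2 := (tendsto_inv_atTop_zero.comp h1).mul_const C
    simpa using h2
  refine squeeze_zero' (Eventually.of_forall fun _ => norm_nonneg _) ?_ hlim
  have hmem : {z : ℍ | 1 ≤ z.im} ∈ atImInfty := (atImInfty_mem _).mpr ⟨1, fun z hz => hz⟩
  filter_upwards [hmem] with τ hτ
  exact (norm_eis_sub_one_le φ hunit hpar τ).trans
    (mul_le_mul_of_nonneg_left (hC τ hτ) (inv_nonneg.mpr τ.im_pos.le))

/-- **Eisenstein series with character.** For a unitary character `φ` of `Γ₀(N)` which is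
trivial on the stabiliser of `∞`, there is a holomorphic `E` on `ℍ` with
`E(γτ) = φ(γ) (cτ+d)⁴ E(τ)`, `E → 1` at `i∞`, and all slashes `E ∣[4] σ` bounded at `i∞`. -/
theorem exists_eis_char (N : ℕ) (φ : Gamma0 N →* ℂˣ) (hunit : ∀ γ, ‖(φ γ : ℂ)‖ = 1)
    (hpar : ∀ γ : Gamma0 N, ((γ : SL(2, ℤ)) : Matrix (Fin 2) (Fin 2) ℤ) 1 0 = 0 → φ γ = 1) :
    ∃ E : ℍ → ℂ, MDifferentiable 𝓘(ℂ) 𝓘(ℂ) E ∧
      (∀ (γ : Gamma0 N) (τ : ℍ), E ((γ : SL(2, ℤ)) • τ)
        = (φ γ : ℂ) * denom (γ : SL(2, ℤ)) τ ^ (4 : ℤ) * E τ) ∧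
      Tendsto E atImInfty (𝓝 1) ∧
      ∀ σ : SL(2, ℤ), IsBoundedAtImInfty (E ∣[(4 : ℤ)] σ) :=
  ⟨eisK φ 4, mdifferentiable_eisK φ hunit (by norm_num), eisK_smul φ hpar 4,
    tendsto_eis φ hunit hpar, isBoundedAtImInfty_slash φ hunit (by norm_num)⟩

end Fermat.Agent.Lib.EisChar

end
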