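/-
Eisenstein series of weight `k ≥ 3` twisted by an arbitrary bounded weight on bottom rows,
in particular by a unitary character of an arbitrary (possibly non-congruence) subgroup of
`SL(2, ℤ)` which is trivial on upper triangular elements.

Brick (B2) of the S30 route: surjectivity of the Kummer-class-to-character map.
-/
import Mathlib

set_option autoImplicit false

open ModularForm UpperHalfPlane Complex Matrix CongruenceSubgroup Set Filter Topology
open EisensteinSeries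
open scoped MatrixGroups Manifold

namespace Fermat.Agent.Lib.EisCharGen

noncomputable section

/-- The weighted Eisenstein sum `∑ w(v) (v₀ z + v₁)^(-k)` over all integer vectors `v`. -/
def eisW (w : (Fin 2 → ℤ) → ℂ) (k : ℤ) (z : ℍ) : ℂ :=
  ∑' v : Fin 2 → ℤ, w v * eisSummand k v z

lemma vecMul_mul_inv (A : SL(2, ℤ)) (v : Fin 2 → ℤ) : (v ᵥ* A.1) ᵥ* A⁻¹.1 = v := by
  have h : A.1 * A⁻¹.1 = 1 := congrArg Subtype.val (mul_inv_cancel A)
  rw [vecMul_vecMul, h, vecMul_one]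

lemma vecMul_inv_mul (A : SL(2, ℤ)) (v : Fin 2 → ℤ) : (v ᵥ* A⁻¹.1) ᵥ* A.1 = v := by
  have h : A⁻¹.1 * A.1 = 1 := congrArg Subtype.val (inv_mul_cancel A)
  rw [vecMul_vecMul, h, vecMul_one]

/-- Right multiplication by `A ∈ SL(2, ℤ)` as a permutation of integer row vectors. -/
def vecMulEquiv (A : SL(2, ℤ)) : (Fin 2 → ℤ) ≃ (Fin 2 → ℤ) where
  toFun v := v ᵥ* A.1
  invFun v := v ᵥ* A⁻¹.1
  left_inv v := vecMul_mul_inv A v
  right_inv v := vecMul_inv_mul A v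

@[simp] lemma vecMulEquiv_apply (A : SL(2, ℤ)) (v : Fin 2 → ℤ) :
    vecMulEquiv A v = v ᵥ* A.1 := rfl

@[simp] lemma vecMulEquiv_symm_apply (A : SL(2, ℤ)) (v : Fin 2 → ℤ) :
    (vecMulEquiv A).symm v = v ᵥ* A⁻¹.1 := rfl

variable {w : (Fin 2 → ℤ) → ℂ} {k : ℤ}

lemma norm_term_le (hw : ∀ v, ‖w v‖ ≤ 1) (v : Fin 2 → ℤ) (z : ℍ) :
    ‖w v * eisSummand k v z‖ ≤ ‖eisSummand k v z‖ := by
  rw [norm_mul]
  exact mul_le_of_le_one_left (norm_nonneg _) (hw v)

lemma summable_norm_term (hw : ∀ v, ‖w v‖ ≤ 1) (hk : 3 ≤ k) (z : ℍ) :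
    Summable fun v : Fin 2 → ℤ => ‖w v * eisSummand k v z‖ :=
  (summable_norm_eisSummand hk z).of_nonneg_of_le (fun _ => norm_nonneg _)
    (fun v => norm_term_le hw v z)

lemma summable_term (hw : ∀ v, ‖w v‖ ≤ 1) (hk : 3 ≤ k) (z : ℍ) :
    Summable fun v : Fin 2 → ℤ => w v * eisSummand k v z :=
  (summable_norm_term hw hk z).of_norm

/-- The full majorant. -/
def majorant (k : ℤ) (z : ℍ) : ℝ := ∑' v : Fin 2 → ℤ, ‖eisSummand k v z‖

lemma norm_eisW_le (hw : ∀ v, ‖w v‖ ≤ 1) (hk : 3 ≤ k) (z : ℍ) :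
    ‖eisW w k z‖ ≤ majorant k z := by
  unfold eisW majorant
  refine (norm_tsum_le_tsum_norm (summable_norm_term hw hk z)).trans ?_
  exact (summable_norm_term hw hk z).tsum_le_tsum (fun v => norm_term_le hw v z)
    (summable_norm_eisSummand hk z)

/-- Slash action of any element of `SL(2, ℤ)` on a weighted Eisenstein sum. -/
lemma eisW_slash (w : (Fin 2 → ℤ) → ℂ) (k : ℤ) (A : SL(2, ℤ)) :
    eisW w k ∣[k] A = eisW (fun v => w (v ᵥ* A⁻¹.1)) k := by
  ext1 z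
  simp_rw [SL_slash_apply, _root_.zpow_neg,
    mul_inv_eq_iff_eq_mul₀ (zpow_ne_zero _ <| denom_ne_zero _ z), eisW,
    eisSummand_SL2_apply, ← tsum_mul_right]
  have h := (vecMulEquiv A).tsum_eq
    (fun v' => w (v' ᵥ* A⁻¹.1) * eisSummand k v' z * denom A z ^ k)
  rw [← h]
  refine tsum_congr fun v => ?_
  simp only [vecMulEquiv_apply, vecMul_mul_inv]
  ring

/-! ### Holomorphy -/

theorem eisW_tendstoLocallyUniformly (hw : ∀ v, ‖w v‖ ≤ 1) (hk : 3 ≤ k) :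
    TendstoLocallyUniformly
      (fun (s : Finset (Fin 2 → ℤ)) ↦ (∑ x ∈ s, w x * eisSummand k x ·))
      (eisW w k ·) Filter.atTop := by
  have hk' : (2 : ℝ) < k := by norm_cast
  have p_sum : Summable fun x : Fin 2 → ℤ ↦ ‖x‖ ^ (-k) :=
    mod_cast (summable_one_div_norm_rpow hk')
  simp only [tendstoLocallyUniformly_iff_forall_isCompact, eisW]
  intro K hK
  obtain ⟨A, B, hB, HABK⟩ := subset_verticalStrip_of_isCompact hK
  refine (tendstoUniformlyOn_tsum (hu := p_sum.mul_left <| r ⟨⟨A, B⟩, hB⟩ ^ (-k : ℝ))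
    (fun p z hz ↦ ?_)).mono HABK
  refine (norm_term_le hw p z).trans ?_
  simpa only [eisSummand, one_div, ← _root_.zpow_neg, norm_zpow, ← Real.rpow_intCast,
    Int.cast_neg] using summand_bound_of_mem_verticalStrip (by positivity) p hB hz

lemma eisW_tendstoLocallyUniformlyOn (hw : ∀ v, ‖w v‖ ≤ 1) (hk : 3 ≤ k) :
    TendstoLocallyUniformlyOn (fun (s : Finset (Fin 2 → ℤ)) ↦
      ↑ₕ(fun (z : ℍ) ↦ ∑ x ∈ s, w x * eisSummand k x z)) (↑ₕ(eisW w k))
          Filter.atTop {z : ℂ | 0 < z.im} := by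
  rw [← upperHalfPlaneSet, ← range_coe, ← image_univ]
  apply TendstoLocallyUniformlyOn.comp (s := ⊤) _ _ _ (OpenPartialHomeomorph.continuousOn_symm _)
  · simp only [Set.top_eq_univ, tendstoLocallyUniformlyOn_univ]
    apply eisW_tendstoLocallyUniformly hw hk
  · simp only [IsOpenEmbedding.toOpenPartialHomeomorph_target, Set.top_eq_univ, mapsTo_range_iff,
    Set.mem_univ, forall_const]

/-- Weighted Eisenstein sums are holomorphic on the upper half plane. -/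
theorem eisW_mdifferentiable (hw : ∀ v, ‖w v‖ ≤ 1) (hk : 3 ≤ k) : MDiff (eisW w k) := by
  intro τ
  suffices DifferentiableAt ℂ (↑ₕ(eisW w k)) τ.1 by
    convert!
      MDifferentiableAt.comp τ (DifferentiableAt.mdifferentiableAt this) τ.mdifferentiable_coe
    exact funext fun z ↦ (comp_ofComplex (eisW w k) z).symm
  refine DifferentiableOn.differentiableAt ?_ (isOpen_upperHalfPlaneSet.mem_nhds τ.2)
  refine (eisW_tendstoLocallyUniformlyOn hw hk).differentiableOn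
    (Eventually.of_forall fun s ↦ ?_) isOpen_upperHalfPlaneSet
  have h1 : (↑ₕ(fun (z : ℍ) ↦ ∑ x ∈ s, w x * eisSummand k x z)) =
      fun z : ℂ => ∑ x ∈ s, w x * (↑ₕ(eisSummand k x)) z := by
    funext z
    simp
  rw [h1]
  exact DifferentiableOn.fun_sum fun x _ ↦
    (eisSummand_extension_differentiableOn k x).const_mul (w x)

/-! ### Uniform bounds via horizontal translation -/

/-- The shear `(c, d) ↦ (c, c * n + d)` on integer vectors. -/
def shear (n : ℤ) : (Fin 2 → ℤ) ≃ (Fin 2 → ℤ) where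
  toFun v := ![v 0, v 0 * n + v 1]
  invFun v := ![v 0, v 0 * (-n) + v 1]
  left_inv v := by
    ext i
    fin_cases i <;> simp
  right_inv v := by
    ext i
    fin_cases i <;> simp

@[simp] lemma shear_apply_zero (n : ℤ) (v : Fin 2 → ℤ) : shear n v 0 = v 0 := rfl

@[simp] lemma shear_apply_one (n : ℤ) (v : Fin 2 → ℤ) : shear n v 1 = v 0 * n + v 1 := rfl

lemma eisSummand_T_zpow_smul (k n : ℤ) (v : Fin 2 → ℤ) (z : ℍ) :
    eisSummand k v (ModularGroup.T ^ n • z) = eisSummand k (shear n v) z := by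
  simp only [eisSummand, ModularGroup.coe_T_zpow_smul_eq, shear_apply_zero, shear_apply_one,
    Int.cast_add, Int.cast_mul]
  congr 1
  ring

/-- The termwise bound valid on the strip `|re z| ≤ 1`, `1 ≤ im z`. -/
def bnd (k : ℤ) (v : Fin 2 → ℤ) : ℝ :=
  r ⟨⟨1, 1⟩, one_pos⟩ ^ (-(k : ℝ)) * ‖v‖ ^ (-(k : ℝ))

lemma bnd_nonneg (k : ℤ) (v : Fin 2 → ℤ) : 0 ≤ bnd k v := by
  unfold bnd
  have := r_pos ⟨⟨1, 1⟩, one_pos⟩
  positivity

lemma summable_bnd (hk : 3 ≤ k) : Summable (bnd k) := by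
  have hk' : (2 : ℝ) < k := by norm_cast
  exact (summable_one_div_norm_rpow hk').mul_left _

lemma norm_eisSummand_le_bnd (hk : 0 ≤ k) {z : ℍ} (hz : z ∈ verticalStrip 1 1)
    (v : Fin 2 → ℤ) : ‖eisSummand k v z‖ ≤ bnd k v := by
  have hk' : (0 : ℝ) ≤ k := by exact_mod_cast hk
  have := summand_bound_of_mem_verticalStrip hk' v one_pos hz
  simpa only [eisSummand, norm_zpow, ← Real.rpow_intCast, Int.cast_neg, bnd] using this

lemma norm_eisSummand_le_im (hk : 0 ≤ k) (v : Fin 2 → ℤ) (hv : v 0 ≠ 0) (z : ℍ) :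
    ‖eisSummand k v z‖ ≤ z.im ^ (-(k : ℝ)) := by
  have hk' : (0 : ℝ) ≤ k := by exact_mod_cast hk
  have h1 : z.im ≤ ‖(v 0 : ℂ) * (z : ℂ) + v 1‖ := by
    have h2 : ((v 0 : ℂ) * (z : ℂ) + v 1).im = v 0 * z.im := by simp
    have h3 : |((v 0 : ℂ) * (z : ℂ) + v 1).im| ≤ ‖(v 0 : ℂ) * (z : ℂ) + v 1‖ :=
      Complex.abs_im_le_norm _
    rw [h2, abs_mul, abs_of_pos z.im_pos] at h3
    have h4 : (1 : ℝ) ≤ |(v 0 : ℝ)| := by
      have : (1 : ℤ) ≤ |v 0| := Int.one_le_abs hv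
      exact_mod_cast this
    calc z.im = 1 * z.im := (one_mul _).symm
      _ ≤ |(v 0 : ℝ)| * z.im := mul_le_mul_of_nonneg_right h4 z.im_pos.le
      _ ≤ _ := h3
  have h5 := Real.rpow_le_rpow_of_nonpos z.im_pos h1 (neg_nonpos.mpr hk')
  simpa only [eisSummand, norm_zpow, ← Real.rpow_intCast, Int.cast_neg] using h5

/-- Every point with `1 ≤ im z` can be moved into the standard strip by a horizontal integer
translation, which permutes the summands by a shear. -/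
lemma exists_shear (k : ℤ) (z : ℍ) (hz : 1 ≤ z.im) :
    ∃ (e : (Fin 2 → ℤ) ≃ (Fin 2 → ℤ)) (z' : ℍ), z' ∈ verticalStrip 1 1 ∧ z'.im = z.im ∧
      (∀ v, e v 0 = v 0) ∧ ∀ v, eisSummand k v z = eisSummand k (e v) z' := by
  obtain ⟨n, hn⟩ := ModularGroup_T_zpow_mem_verticalStrip z (N := 1) one_pos
  simp only [Nat.cast_one, one_mul] at hn
  refine ⟨(shear n).symm, ModularGroup.T ^ n • z, verticalStrip_anti_right 1 hz hn,
    ModularGroup.im_T_zpow_smul z n, fun v => rfl, fun v => ?_⟩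
  rw [eisSummand_T_zpow_smul, Equiv.apply_symm_apply]

/-- The constant bounding all weighted Eisenstein sums on `1 ≤ im z`. -/
def bndConst (k : ℤ) : ℝ := ∑' v : Fin 2 → ℤ, bnd k v

lemma majorant_le (hk : 3 ≤ k) (z : ℍ) (hz : 1 ≤ z.im) : majorant k z ≤ bndConst k := by
  obtain ⟨e, z', hz', -, -, he⟩ := exists_shear k z hz
  have hk0 : (0 : ℤ) ≤ k := by omega
  unfold majorant bndConst
  rw [← e.tsum_eq (bnd k)]
  refine (summable_norm_eisSummand hk z).tsum_le_tsum (fun v => ?_)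
    ((e.summable_iff).mpr (summable_bnd hk))
  rw [he v]
  exact norm_eisSummand_le_bnd hk0 hz' (e v)

/-- Weighted Eisenstein sums are bounded at `i∞`, uniformly in the weight. -/
lemma norm_eisW_le_bndConst (hw : ∀ v, ‖w v‖ ≤ 1) (hk : 3 ≤ k) (z : ℍ) (hz : 1 ≤ z.im) :
    ‖eisW w k z‖ ≤ bndConst k :=
  (norm_eisW_le hw hk z).trans (majorant_le hk z hz)

lemma isBoundedAtImInfty_eisW (hw : ∀ v, ‖w v‖ ≤ 1) (hk : 3 ≤ k) :
    IsBoundedAtImInfty (eisW w k) := by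
  rw [UpperHalfPlane.isBoundedAtImInfty_iff]
  exact ⟨bndConst k, 1, fun z hz => norm_eisW_le_bndConst hw hk z hz⟩

/-- All `SL(2, ℤ)`-translates of a weighted Eisenstein sum are bounded at `i∞`. -/
theorem isBoundedAtImInfty_eisW_slash (hw : ∀ v, ‖w v‖ ≤ 1) (hk : 3 ≤ k) (A : SL(2, ℤ)) :
    IsBoundedAtImInfty (eisW w k ∣[k] A) := by
  rw [eisW_slash]
  exact isBoundedAtImInfty_eisW (fun v => hw _) hk

/-! ### The value at the cusp `i∞` -/

/-- The limit of a weighted Eisenstein sum at `i∞`: only the vectors `(0, d)` contribute. -/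
def cuspVal (w : (Fin 2 → ℤ) → ℂ) (k : ℤ) : ℂ :=
  ∑' v : Fin 2 → ℤ, if v 0 = 0 then w v * ((v 1 : ℂ)) ^ (-k) else 0

lemma eisSummand_of_zero (k : ℤ) (v : Fin 2 → ℤ) (hv : v 0 = 0) (z : ℍ) :
    eisSummand k v z = ((v 1 : ℂ)) ^ (-k) := by
  simp [eisSummand, hv]

lemma cuspTerm_eq (w : (Fin 2 → ℤ) → ℂ) (k : ℤ) (z : ℍ) (v : Fin 2 → ℤ) :
    (if v 0 = 0 then w v * ((v 1 : ℂ)) ^ (-k) else 0) =
      if v 0 = 0 then w v * eisSummand k v z else 0 := by
  split_ifs with h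
  · rw [eisSummand_of_zero k v h z]
  · rfl

lemma summable_cuspTerm (hw : ∀ v, ‖w v‖ ≤ 1) (hk : 3 ≤ k) (z : ℍ) :
    Summable fun v : Fin 2 → ℤ => if v 0 = 0 then w v * eisSummand k v z else 0 := by
  refine Summable.of_norm ((summable_norm_term hw hk z).of_nonneg_of_le
    (fun _ => norm_nonneg _) fun v => ?_)
  split_ifs
  · exact le_rfl
  · simpa using norm_nonneg (w v * eisSummand k v z)

lemma eisW_sub_cuspVal (hw : ∀ v, ‖w v‖ ≤ 1) (hk : 3 ≤ k) (z : ℍ) :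
    eisW w k z - cuspVal w k =
      ∑' v : Fin 2 → ℤ, if v 0 = 0 then 0 else w v * eisSummand k v z := by
  unfold eisW cuspVal
  rw [tsum_congr (cuspTerm_eq w k z),
    ← (summable_term hw hk z).tsum_sub (summable_cuspTerm hw hk z)]
  refine tsum_congr fun v => ?_
  split_ifs <;> simp

/-- The dominating function for the non-cuspidal part. -/
def tailBound (k : ℤ) (y : ℝ) : ℝ :=
  ∑' v : Fin 2 → ℤ, min (bnd k v) (y ^ (-(k : ℝ)))

lemma tendsto_tailBound (hk : 3 ≤ k) : Tendsto (tailBound k) atTop (𝓝 0) := by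
  have hk' : (0 : ℝ) < k := by exact_mod_cast (by omega : (0 : ℤ) < k)
  have h := tendsto_tsum_of_dominated_convergence (𝓕 := atTop)
    (f := fun (y : ℝ) (v : Fin 2 → ℤ) => min (bnd k v) (y ^ (-(k : ℝ))))
    (g := fun _ => (0 : ℝ)) (bound := bnd k) (summable_bnd hk) (fun v => ?_) ?_
  · have h' : tailBound k = fun y : ℝ => ∑' v : Fin 2 → ℤ, min (bnd k v) (y ^ (-(k : ℝ))) := rfl
    rw [h']
    simpa using h
  · have h1 : Tendsto (fun y : ℝ => y ^ (-(k : ℝ))) atTop (𝓝 0) := tendsto_rpow_neg_atTop hk'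
    have h2 := (tendsto_const_nhds (x := bnd k v)).min h1
    rwa [min_eq_right (bnd_nonneg k v)] at h2
  · filter_upwards [eventually_gt_atTop (0 : ℝ)] with y hy v
    have h0 : (0 : ℝ) ≤ y ^ (-(k : ℝ)) := Real.rpow_nonneg hy.le _
    rw [Real.norm_of_nonneg (le_min (bnd_nonneg k v) h0)]
    exact min_le_left _ _

lemma norm_eisW_sub_cuspVal_le (hw : ∀ v, ‖w v‖ ≤ 1) (hk : 3 ≤ k) (z : ℍ) (hz : 1 ≤ z.im) :
    ‖eisW w k z - cuspVal w k‖ ≤ tailBound k z.im := by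
  have hk0 : (0 : ℤ) ≤ k := by omega
  obtain ⟨e, z', hz', him, he0, he⟩ := exists_shear k z hz
  rw [eisW_sub_cuspVal hw hk z]
  have hsum1 : Summable fun v : Fin 2 → ℤ =>
      ‖(if v 0 = 0 then (0 : ℂ) else w v * eisSummand k v z)‖ := by
    refine (summable_norm_term hw hk z).of_nonneg_of_le (fun _ => norm_nonneg _) fun v => ?_
    split_ifs
    · simpa using norm_nonneg (w v * eisSummand k v z)
    · exact le_rfl
  have hsum2 : Summable fun v : Fin 2 → ℤ => min (bnd k (e v)) (z.im ^ (-(k : ℝ))) := by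
    refine ((e.summable_iff).mpr (summable_bnd hk)).of_nonneg_of_le (fun v => ?_)
      fun v => min_le_left _ _
    exact le_min (bnd_nonneg k _) (Real.rpow_nonneg z.im_pos.le _)
  refine (norm_tsum_le_tsum_norm hsum1).trans ?_
  unfold tailBound
  rw [← e.tsum_eq (fun v => min (bnd k v) (z.im ^ (-(k : ℝ))))]
  refine hsum1.tsum_le_tsum (fun v => ?_) hsum2
  split_ifs with h
  · simpa using le_min (bnd_nonneg k (e v)) (Real.rpow_nonneg z.im_pos.le _)
  · refine (norm_term_le hw v z).trans (le_min ?_ ?_)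
    · rw [he v]
      exact norm_eisSummand_le_bnd hk0 hz' (e v)
    · exact norm_eisSummand_le_im hk0 v h z

/-- A weighted Eisenstein sum tends to its cusp value at `i∞`. -/
theorem tendsto_eisW_atImInfty (hw : ∀ v, ‖w v‖ ≤ 1) (hk : 3 ≤ k) :
    Tendsto (eisW w k) atImInfty (𝓝 (cuspVal w k)) := by
  rw [tendsto_iff_norm_sub_tendsto_zero]
  have h1 : Tendsto (fun z : ℍ => tailBound k z.im) atImInfty (𝓝 0) :=
    (tendsto_tailBound hk).comp tendsto_comap
  have h2 : ∀ᶠ z : ℍ in atImInfty, 1 ≤ z.im := (eventually_ge_atTop (1 : ℝ)).comap _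
  refine squeeze_zero' (Eventually.of_forall fun _ => norm_nonneg _) ?_ h1
  filter_upwards [h2] with z hz
  exact norm_eisW_sub_cuspVal_le hw hk z hz

/-! ### Twisting by a character of a subgroup of `SL(2, ℤ)` -/

/-- The bottom row of a matrix in `SL(2, ℤ)`. -/
def botRow (γ : SL(2, ℤ)) : Fin 2 → ℤ := γ.1 1

lemma botRow_mul (A B : SL(2, ℤ)) : botRow (A * B) = botRow A ᵥ* B.1 := by
  ext i
  simp [botRow, Matrix.mul_apply, vecMul, dotProduct]

lemma botRow_one : botRow 1 = ![0, 1] := by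
  ext i
  fin_cases i <;> simp [botRow]

variable (Γ : Subgroup SL(2, ℤ)) (φ : Γ →* ℂˣ)

open Classical in
/-- The weight on integer vectors attached to a character `φ` of `Γ`: the value `φ(γ)⁻¹` on the
bottom row of `γ ∈ Γ`, and zero on vectors which are not bottom rows of elements of `Γ`. -/
def charWeight (v : Fin 2 → ℤ) : ℂ :=
  if h : ∃ γ : Γ, botRow γ.1 = v then (((φ h.choose)⁻¹ : ℂˣ) : ℂ) else 0

variable {Γ φ}

lemma phi_eq_of_botRow_eq (hpar : ∀ γ : Γ, γ.1.1 1 0 = 0 → φ γ = 1) (γ γ' : Γ)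
    (h : botRow γ.1 = botRow γ'.1) : φ γ = φ γ' := by
  have h1 : botRow (γ' * γ⁻¹).1 = ![0, 1] := by
    rw [Subgroup.coe_mul, botRow_mul, ← h, ← botRow_mul, Subgroup.coe_inv, mul_inv_cancel,
      botRow_one]
  have h2 : (γ' * γ⁻¹).1.1 1 0 = 0 := by
    have := congrFun h1 0
    simpa [botRow] using this
  have h3 := hpar _ h2
  rw [map_mul, map_inv, mul_inv_eq_one] at h3
  exact h3.symm

lemma charWeight_botRow (hpar : ∀ γ : Γ, γ.1.1 1 0 = 0 → φ γ = 1) (γ : Γ) :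
    charWeight Γ φ (botRow γ.1) = (((φ γ)⁻¹ : ℂˣ) : ℂ) := by
  have h : ∃ γ' : Γ, botRow γ'.1 = botRow γ.1 := ⟨γ, rfl⟩
  unfold charWeight
  rw [dif_pos h, phi_eq_of_botRow_eq hpar _ _ h.choose_spec]

lemma charWeight_of_not (v : Fin 2 → ℤ) (h : ¬ ∃ γ : Γ, botRow γ.1 = v) :
    charWeight Γ φ v = 0 := by
  unfold charWeight
  rw [dif_neg h]

lemma norm_charWeight_le (hφ : ∀ γ, ‖(φ γ : ℂ)‖ = 1) (v : Fin 2 → ℤ) :
    ‖charWeight Γ φ v‖ ≤ 1 := by
  unfold charWeight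
  split_ifs with h
  · rw [Units.val_inv_eq_inv_val, norm_inv, hφ, inv_one]
  · simp

lemma charWeight_vecMul_inv (hpar : ∀ γ : Γ, γ.1.1 1 0 = 0 → φ γ = 1) (γ₀ : Γ)
    (v : Fin 2 → ℤ) :
    charWeight Γ φ (v ᵥ* (γ₀.1)⁻¹.1) = (φ γ₀ : ℂ) * charWeight Γ φ v := by
  by_cases h : ∃ γ : Γ, botRow γ.1 = v
  · obtain ⟨γ, rfl⟩ := h
    have h1 : botRow γ.1 ᵥ* (γ₀.1)⁻¹.1 = botRow (γ * γ₀⁻¹).1 := by
      rw [Subgroup.coe_mul, Subgroup.coe_inv, botRow_mul]
    rw [h1, charWeight_botRow hpar, charWeight_botRow hpar, map_mul, map_inv, _root_.mul_inv_rev,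
      inv_inv, Units.val_mul]
  · have h' : ¬ ∃ γ : Γ, botRow γ.1 = v ᵥ* (γ₀.1)⁻¹.1 := by
      rintro ⟨γ, hγ⟩
      refine h ⟨γ * γ₀, ?_⟩
      rw [Subgroup.coe_mul, botRow_mul, hγ, vecMul_inv_mul]
    rw [charWeight_of_not _ h, charWeight_of_not _ h', mul_zero]

variable (Γ φ) in
/-- The Eisenstein series of weight `k` attached to the character `φ` of `Γ`. -/
def eisChar (k : ℤ) : ℍ → ℂ := eisW (charWeight Γ φ) k

/-- The Eisenstein series attached to `φ` transforms under `Γ` with multiplier `φ`. -/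
theorem eisChar_slash (hpar : ∀ γ : Γ, γ.1.1 1 0 = 0 → φ γ = 1) (k : ℤ) (γ₀ : Γ) :
    eisChar Γ φ k ∣[k] γ₀.1 = (φ γ₀ : ℂ) • eisChar Γ φ k := by
  rw [eisChar, eisW_slash]
  ext z
  simp only [charWeight_vecMul_inv hpar, eisW, Pi.smul_apply, smul_eq_mul, mul_assoc,
    tsum_mul_left]

theorem eisChar_mdifferentiable (hφ : ∀ γ, ‖(φ γ : ℂ)‖ = 1) (hk : 3 ≤ k) :
    MDiff (eisChar Γ φ k) :=
  eisW_mdifferentiable (norm_charWeight_le hφ) hk

theorem isBoundedAtImInfty_eisChar_slash (hφ : ∀ γ, ‖(φ γ : ℂ)‖ = 1) (hk : 3 ≤ k)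
    (A : SL(2, ℤ)) : IsBoundedAtImInfty (eisChar Γ φ k ∣[k] A) :=
  isBoundedAtImInfty_eisW_slash (norm_charWeight_le hφ) hk A

theorem tendsto_eisChar_atImInfty (hφ : ∀ γ, ‖(φ γ : ℂ)‖ = 1) (hk : 3 ≤ k) :
    Tendsto (eisChar Γ φ k) atImInfty (𝓝 (cuspVal (charWeight Γ φ) k)) :=
  tendsto_eisW_atImInfty (norm_charWeight_le hφ) hk

/-! ### The cusp value of the character Eisenstein series -/

lemma botRow_one_eq_of_zero (γ : SL(2, ℤ)) (h : γ.1 1 0 = 0) : γ.1 1 1 = 1 ∨ γ.1 1 1 = -1 := by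
  have hdet := γ.2
  rw [Matrix.det_fin_two, h, mul_zero, sub_zero] at hdet
  exact Int.isUnit_iff.mp (IsUnit.of_mul_eq_one _ (by rw [mul_comm]; exact hdet))

lemma cuspVal_charWeight (hpar : ∀ γ : Γ, γ.1.1 1 0 = 0 → φ γ = 1) (hk2 : Even k) :
    cuspVal (charWeight Γ φ) k = 1 ∨ cuspVal (charWeight Γ φ) k = 2 := by
  classical
  have hne : (![0, 1] : Fin 2 → ℤ) ≠ ![0, -1] := by
    intro h
    have := congrFun h 1
    simp at this
  have hsupp : ∀ v ∉ ({![0, 1], ![0, -1]} : Finset (Fin 2 → ℤ)),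
      (if v 0 = 0 then charWeight Γ φ v * ((v 1 : ℂ)) ^ (-k) else 0) = 0 := by
    intro v hv
    split_ifs with h0
    · by_cases hγ : ∃ γ : Γ, botRow γ.1 = v
      · exfalso
        obtain ⟨γ, rfl⟩ := hγ
        apply hv
        have h0' : γ.1.1 1 0 = 0 := h0
        rcases botRow_one_eq_of_zero γ.1 h0' with h1 | h1
        · have : botRow γ.1 = ![0, 1] := by
            ext i
            fin_cases i
            · exact h0'
            · exact h1
          simp [this]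
        · have : botRow γ.1 = ![0, -1] := by
            ext i
            fin_cases i
            · exact h0'
            · exact h1
          simp [this]
      · rw [charWeight_of_not _ hγ, zero_mul]
    · rfl
  have h1 : charWeight Γ φ ![0, 1] = 1 := by
    have := charWeight_botRow hpar (1 : Γ)
    rw [Subgroup.coe_one, botRow_one, map_one, inv_one, Units.val_one] at this
    exact this
  have h2 : charWeight Γ φ ![0, -1] = 0 ∨ charWeight Γ φ ![0, -1] = 1 := by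
    by_cases hγ : ∃ γ : Γ, botRow γ.1 = ![0, -1]
    · right
      obtain ⟨γ, hγ⟩ := hγ
      have h0 : γ.1.1 1 0 = 0 := by
        have := congrFun hγ 0
        simpa [botRow] using this
      rw [← hγ, charWeight_botRow hpar, hpar γ h0, inv_one, Units.val_one]
    · left
      exact charWeight_of_not _ hγ
  have hpow : ((-1 : ℂ)) ^ (-k) = 1 := by
    rw [_root_.zpow_neg, Even.neg_one_zpow hk2, inv_one]
  unfold cuspVal
  rw [tsum_eq_sum hsupp, Finset.sum_pair hne]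
  simp only [Matrix.cons_val_zero, Matrix.cons_val_one, if_true, Int.cast_one,
    Int.cast_neg, _root_.one_zpow, mul_one, hpow, h1]
  rcases h2 with h2 | h2
  · left
    rw [h2, add_zero]
  · right
    rw [h2]
    norm_num

lemma cuspVal_charWeight_ne_zero (hpar : ∀ γ : Γ, γ.1.1 1 0 = 0 → φ γ = 1) (hk2 : Even k) :
    cuspVal (charWeight Γ φ) k ≠ 0 := by
  rcases cuspVal_charWeight (Γ := Γ) (φ := φ) hpar hk2 with h | h <;> rw [h] <;> norm_num

/-- **Eisenstein series with a unitary character** of an arbitrary subgroup `Γ ≤ SL(2, ℤ)`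
(no congruence condition), trivial on the upper triangular elements of `Γ`: a holomorphic
function on `ℍ`, transforming under `Γ` in weight `k` with multiplier `φ`, bounded at every
cusp, and with a nonzero limit at `i∞`. -/
theorem exists_eis_char (Γ : Subgroup SL(2, ℤ)) (φ : Γ →* ℂˣ)
    (hφ : ∀ γ, ‖(φ γ : ℂ)‖ = 1) (hpar : ∀ γ : Γ, γ.1.1 1 0 = 0 → φ γ = 1)
    {k : ℤ} (hk : 3 ≤ k) (hk2 : Even k) :
    ∃ G : ℍ → ℂ, MDiff G ∧ (∀ γ : Γ, G ∣[k] γ.1 = (φ γ : ℂ) • G) ∧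
      (∀ A : SL(2, ℤ), IsBoundedAtImInfty (G ∣[k] A)) ∧
      ∃ c : ℂ, c ≠ 0 ∧ Tendsto G atImInfty (𝓝 c) :=
  ⟨eisChar Γ φ k, eisChar_mdifferentiable hφ hk, eisChar_slash hpar k,
    isBoundedAtImInfty_eisChar_slash hφ hk, cuspVal (charWeight Γ φ) k,
    cuspVal_charWeight_ne_zero hpar hk2, tendsto_eisChar_atImInfty hφ hk⟩

/-! ### Powers: honest modular forms on `Γ` -/

lemma isBoundedAtImInfty_pow {f : ℍ → ℂ} (h : IsBoundedAtImInfty f) (m : ℕ) :
    IsBoundedAtImInfty (fun z => f z ^ m) := by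
  have h1 := Asymptotics.IsBigO.pow h m
  have h2 : (fun z : ℍ => ((1 : ℍ → ℝ) z) ^ m) = (1 : ℍ → ℝ) := by
    funext z
    simp
  rw [h2] at h1
  exact h1

lemma pow_slash_SL (G : ℍ → ℂ) (k : ℤ) (m : ℕ) (A : SL(2, ℤ)) :
    (fun z => G z ^ m) ∣[k * m] A = fun z => (G ∣[k] A) z ^ m := by
  ext z
  rw [SL_slash_apply, SL_slash_apply, mul_pow, ← zpow_natCast (denom _ _ ^ (-k)) m,
    ← _root_.zpow_mul, neg_mul]

lemma norm_eq_one_of_pow_eq_one {φ : Γ →* ℂˣ} {m : ℕ} (hm0 : m ≠ 0) (hm : ∀ γ, φ γ ^ m = 1)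
    (γ : Γ) : ‖(φ γ : ℂ)‖ = 1 := by
  have h1 : ((φ γ : ℂ)) ^ m = 1 := by
    have := congrArg (fun u : ℂˣ => (u : ℂ)) (hm γ)
    simpa using this
  exact Complex.norm_eq_one_of_pow_eq_one h1 hm0

/-- The `m`-th power of the character Eisenstein series, for a character `φ` with `φ ^ m = 1`
on a finite index subgroup `Γ`, as a modular form of weight `k * m` on `Γ`. -/
def eisCharPow (Γ : Subgroup SL(2, ℤ)) [Γ.FiniteIndex] (φ : Γ →* ℂˣ) {m : ℕ} (hm0 : m ≠ 0)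
    (hm : ∀ γ, φ γ ^ m = 1) (hpar : ∀ γ : Γ, γ.1.1 1 0 = 0 → φ γ = 1) {k : ℤ} (hk : 3 ≤ k) :
    ModularForm (Γ : Subgroup (GL (Fin 2) ℝ)) (k * m) where
  toFun := fun z => eisChar Γ φ k z ^ m
  slash_action_eq' A hA := by
    obtain ⟨A, hA, rfl⟩ := hA
    have h1 := pow_slash_SL (eisChar Γ φ k) k m A
    have h2 := eisChar_slash hpar k ⟨A, hA⟩
    simp only at h2
    rw [h2] at h1
    change (fun z => eisChar Γ φ k z ^ m) ∣[k * (m : ℤ)] A = _
    rw [h1]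
    ext z
    have h3 : ((φ ⟨A, hA⟩ : ℂ)) ^ m = 1 := by
      have := congrArg (fun u : ℂˣ => (u : ℂ)) (hm ⟨A, hA⟩)
      simpa using this
    simp only [Pi.smul_apply, smul_eq_mul, mul_pow, h3, one_mul]
  holo' := (eisChar_mdifferentiable (norm_eq_one_of_pow_eq_one hm0 hm) hk).pow m
  bdd_at_cusps' {c} hc := by
    rw [Subgroup.IsArithmetic.isCusp_iff_isCusp_SL2Z] at hc
    rw [OnePoint.isBoundedAt_iff_forall_SL2Z hc]
    intro γ _
    rw [pow_slash_SL]
    exact isBoundedAtImInfty_pow (isBoundedAtImInfty_eisChar_slash (k := k)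
      (norm_eq_one_of_pow_eq_one hm0 hm) hk γ) m

@[simp] lemma eisCharPow_apply (Γ : Subgroup SL(2, ℤ)) [Γ.FiniteIndex] (φ : Γ →* ℂˣ) {m : ℕ}
    (hm0 : m ≠ 0) (hm : ∀ γ, φ γ ^ m = 1) (hpar : ∀ γ : Γ, γ.1.1 1 0 = 0 → φ γ = 1) {k : ℤ}
    (hk : 3 ≤ k) (z : ℍ) :
    eisCharPow Γ φ hm0 hm hpar hk z = eisChar Γ φ k z ^ m := rfl

/-- **Packaged form for finite-order characters.** For a finite index subgroup `Γ ≤ SL(2, ℤ)`
and a character `φ : Γ → μ_m` trivial on the upper triangular elements of `Γ`, there is a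
holomorphic `G` on `ℍ` with `G ∣[k] γ = φ(γ) G`, bounded at all cusps, with nonzero limit at
`i∞`, whose `m`-th power is a modular form of weight `k * m` on `Γ`. -/
theorem exists_eis_char_pow (Γ : Subgroup SL(2, ℤ)) [Γ.FiniteIndex] (φ : Γ →* ℂˣ) {m : ℕ}
    (hm0 : m ≠ 0) (hm : ∀ γ, φ γ ^ m = 1) (hpar : ∀ γ : Γ, γ.1.1 1 0 = 0 → φ γ = 1)
    {k : ℤ} (hk : 3 ≤ k) (hk2 : Even k) :
    ∃ (G : ℍ → ℂ) (F : ModularForm (Γ : Subgroup (GL (Fin 2) ℝ)) (k * m)),
      MDiff G ∧ (∀ γ : Γ, G ∣[k] γ.1 = (φ γ : ℂ) • G) ∧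
      (∀ A : SL(2, ℤ), IsBoundedAtImInfty (G ∣[k] A)) ∧
      (∃ c : ℂ, c ≠ 0 ∧ Tendsto G atImInfty (𝓝 c)) ∧ ∀ z, F z = G z ^ m :=
  have hφ := norm_eq_one_of_pow_eq_one hm0 hm
  ⟨eisChar Γ φ k, eisCharPow Γ φ hm0 hm hpar hk, eisChar_mdifferentiable hφ hk,
    eisChar_slash hpar k, isBoundedAtImInfty_eisChar_slash hφ hk,
    ⟨cuspVal (charWeight Γ φ) k, cuspVal_charWeight_ne_zero hpar hk2,
      tendsto_eisChar_atImInfty hφ hk⟩, fun _ => rfl⟩

end

end Fermat.Agent.Lib.EisCharGen
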