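/-
Level-`M` full-lattice Eisenstein series and their Lipschitz `q`-expansions.

For `b : Fin 2 → ZMod M` and `k ≥ 3`,
`gEis M b k z = ∑_{v ∈ ℤ², v ≡ b (M)} (v₀ z + v₁)^(-k)` (no gcd condition).

* `gEis_slash`  : `gEis M b k ∣[k] γ = gEis M (b ᵥ* γ̄) k` for every `γ ∈ SL(2, ℤ)`;
* `gEisMF`      : `gEis M b k` as a modular form of level `Γ(M)`;
* `gEis_hasSum` : the expansion in `q_M = exp (2 π i z / M)`, every residue class `b`.
-/
import Mathlib
import Fermat.Agent.Lib.EisCharGen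

set_option autoImplicit false

open ModularForm UpperHalfPlane Complex Matrix CongruenceSubgroup Filter Topology
open EisensteinSeries
open scoped MatrixGroups Manifold Real

namespace Fermat.Agent.Lib.EisLevel

noncomputable section

open Fermat.Agent.Lib.EisCharGen

variable (M : ℕ)

/-- Reduction modulo `M` of an integer vector. -/
def red (v : Fin 2 → ℤ) : Fin 2 → ZMod M := fun i => (v i : ZMod M)

/-- Reduction modulo `M` of an element of `SL(2, ℤ)`, as a matrix. -/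
def redSL (γ : SL(2, ℤ)) : Matrix (Fin 2) (Fin 2) (ZMod M) :=
  (γ : Matrix (Fin 2) (Fin 2) ℤ).map (Int.castRingHom (ZMod M))

lemma red_vecMul (v : Fin 2 → ℤ) (γ : SL(2, ℤ)) :
    red M (v ᵥ* (γ : Matrix (Fin 2) (Fin 2) ℤ)) = red M v ᵥ* redSL M γ := by
  funext i
  simp only [red, redSL, Matrix.vecMul, dotProduct, Fin.sum_univ_two, Matrix.map_apply,
    Int.coe_castRingHom]
  push_cast
  ring

lemma redSL_mul (γ δ : SL(2, ℤ)) : redSL M (γ * δ) = redSL M γ * redSL M δ := by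
  ext i j
  simp [redSL, Matrix.mul_apply, Fin.sum_univ_two]

lemma redSL_one : redSL M 1 = 1 := by
  ext i j
  have h1 : ((1 : SL(2, ℤ)) : Matrix (Fin 2) (Fin 2) ℤ) i j = (1 : Matrix (Fin 2) (Fin 2) ℤ) i j :=
    rfl
  simp only [redSL, Matrix.map_apply, h1, Matrix.one_apply, Int.coe_castRingHom]
  split_ifs <;> simp

lemma redSL_mul_inv (γ : SL(2, ℤ)) : redSL M γ * redSL M γ⁻¹ = 1 := by
  rw [← redSL_mul, mul_inv_cancel, redSL_one]

lemma redSL_inv_mul (γ : SL(2, ℤ)) : redSL M γ⁻¹ * redSL M γ = 1 := by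
  rw [← redSL_mul, inv_mul_cancel, redSL_one]

lemma redSL_eq_one_of_mem_Gamma {γ : SL(2, ℤ)} (hγ : γ ∈ CongruenceSubgroup.Gamma M) : redSL M γ = 1 := by
  have h := Gamma_mem'.mp hγ
  have h2 := congrArg (fun g : SL(2, ZMod M) => (g : Matrix (Fin 2) (Fin 2) (ZMod M))) h
  simpa [redSL] using h2

/-- The indicator weight of the residue class `b`. -/
def ind (b : Fin 2 → ZMod M) (v : Fin 2 → ℤ) : ℂ := if red M v = b then 1 else 0

lemma norm_ind_le (b : Fin 2 → ZMod M) (v : Fin 2 → ℤ) : ‖ind M b v‖ ≤ 1 := by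
  unfold ind
  split_ifs <;> simp

/-- The level-`M` full-lattice Eisenstein series of the residue class `b`. -/
def gEis (b : Fin 2 → ZMod M) (k : ℤ) (z : ℍ) : ℂ := eisW (ind M b) k z

/-- The slash action of `SL(2, ℤ)` permutes the residue classes. -/
theorem gEis_slash (b : Fin 2 → ZMod M) (k : ℤ) (γ : SL(2, ℤ)) :
    gEis M b k ∣[k] γ = gEis M (b ᵥ* redSL M γ) k := by
  have h := eisW_slash (ind M b) k γ
  have h2 : (fun v : Fin 2 → ℤ => ind M b (v ᵥ* (γ⁻¹ : SL(2, ℤ)).1)) = ind M (b ᵥ* redSL M γ) := by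
    funext v
    unfold ind
    have h3 : red M (v ᵥ* (γ⁻¹ : SL(2, ℤ)).1) = b ↔ red M v = b ᵥ* redSL M γ := by
      rw [red_vecMul]
      constructor
      · intro h4
        rw [← h4, Matrix.vecMul_vecMul, redSL_inv_mul, Matrix.vecMul_one]
      · intro h4
        rw [h4, Matrix.vecMul_vecMul, redSL_mul_inv, Matrix.vecMul_one]
    simp only [h3]
  show eisW (ind M b) k ∣[k] γ = eisW (ind M (b ᵥ* redSL M γ)) k
  rw [h, h2]

theorem gEis_mdifferentiable (b : Fin 2 → ZMod M) {k : ℤ} (hk : 3 ≤ k) : MDiff (gEis M b k) :=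
  eisW_mdifferentiable (norm_ind_le M b) hk

theorem isBoundedAtImInfty_gEis_slash (b : Fin 2 → ZMod M) {k : ℤ} (hk : 3 ≤ k) (γ : SL(2, ℤ)) :
    IsBoundedAtImInfty (gEis M b k ∣[k] γ) :=
  isBoundedAtImInfty_eisW_slash (norm_ind_le M b) hk γ

/-- `gEis M b k` as a slash invariant form of level `Γ(M)`. -/
def gEisSIF (b : Fin 2 → ZMod M) (k : ℤ) : SlashInvariantForm (CongruenceSubgroup.Gamma M) k where
  toFun := gEis M b k
  slash_action_eq' A hA := by
    obtain ⟨A, (hA : A ∈ CongruenceSubgroup.Gamma M), rfl⟩ := hA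
    have h := gEis_slash M b k A
    rw [redSL_eq_one_of_mem_Gamma M hA, Matrix.vecMul_one] at h
    simpa [SpecialLinearGroup.mapGL, ← SL_slash] using h

/-- `gEis M b k` as a modular form of level `Γ(M)`. -/
def gEisMF [NeZero M] {k : ℤ} (hk : 3 ≤ k) (b : Fin 2 → ZMod M) : ModularForm (CongruenceSubgroup.Gamma M) k where
  toFun := gEisSIF M b k
  slash_action_eq' := (gEisSIF M b k).slash_action_eq'
  holo' := gEis_mdifferentiable M b hk
  bdd_at_cusps' {c} hc := by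
    rw [Subgroup.IsArithmetic.isCusp_iff_isCusp_SL2Z] at hc
    rw [OnePoint.isBoundedAt_iff_forall_SL2Z hc]
    exact fun γ _ ↦ isBoundedAtImInfty_gEis_slash M b hk γ

@[simp] lemma gEisMF_apply [NeZero M] {k : ℤ} (hk : 3 ≤ k) (b : Fin 2 → ZMod M) (z : ℍ) :
    gEisMF M hk b z = gEis M b k z := rfl

/-! ### Regrouping weighted double series -/

/-- Regrouping a weighted double series over `ℕ+ × ℕ+` along the product. -/
theorem summable_prod_weight {r : ℂ} (hr : ‖r‖ < 1) (j : ℕ) (w : ℕ → ℕ → ℂ)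
    (hw : ∀ c m, ‖w c m‖ ≤ 1) :
    Summable (fun p : ℕ+ × ℕ+ => w p.1 p.2 * (p.2 : ℂ) ^ j * r ^ ((p.1 : ℕ) * (p.2 : ℕ))) := by
  have h0 := (summable_prod_mul_pow (𝕜 := ℂ) j hr).norm
  refine Summable.of_norm_bounded h0 (fun p => ?_)
  rw [mul_assoc, norm_mul]
  exact mul_le_of_le_one_left (norm_nonneg _) (hw _ _)

theorem tsum_prod_weight {r : ℂ} (hr : ‖r‖ < 1) (j : ℕ) (w : ℕ → ℕ → ℂ)
    (hw : ∀ c m, ‖w c m‖ ≤ 1) :
    ∑' c : ℕ+, ∑' m : ℕ+, w c m * (m : ℂ) ^ j * r ^ ((c : ℕ) * (m : ℕ)) =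
      ∑' n : ℕ+, (∑ x ∈ (n : ℕ).divisorsAntidiagonal, w x.1 x.2 * (x.2 : ℂ) ^ j) * r ^ (n : ℕ) := by
  let G : ℕ+ × ℕ+ → ℂ := fun p => w p.1 p.2 * (p.2 : ℂ) ^ j * r ^ ((p.1 : ℕ) * (p.2 : ℕ))
  have hsum : Summable G := summable_prod_weight hr j w hw
  have h1 : ∑' c : ℕ+, ∑' m : ℕ+, G (c, m) = ∑' p, G p := hsum.tsum_prod.symm
  have h2 : ∑' p, G p = ∑' s : (Σ n : ℕ+, (n : ℕ).divisorsAntidiagonal),
      G (sigmaAntidiagonalEquivProd s) := (sigmaAntidiagonalEquivProd.tsum_eq G).symm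
  have hsum' : Summable (fun s : (Σ n : ℕ+, (n : ℕ).divisorsAntidiagonal) =>
      G (sigmaAntidiagonalEquivProd s)) := sigmaAntidiagonalEquivProd.summable_iff.mpr hsum
  have h3 := hsum'.tsum_sigma
  have h4 : ∀ n : ℕ+, ∑' x : (n : ℕ).divisorsAntidiagonal, G (sigmaAntidiagonalEquivProd ⟨n, x⟩) =
      (∑ x ∈ (n : ℕ).divisorsAntidiagonal, w x.1 x.2 * (x.2 : ℂ) ^ j) * r ^ (n : ℕ) := by
    intro n
    rw [tsum_fintype, Finset.sum_mul, ← Finset.sum_coe_sort ((n : ℕ).divisorsAntidiagonal)]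
    refine Finset.sum_congr rfl fun x _ => ?_
    have hx := (Nat.mem_divisorsAntidiagonal.mp x.2).1
    simp only [G, sigmaAntidiagonalEquivProd, divisorsAntidiagonalFactors, Equiv.coe_fn_mk,
      PNat.mk_coe]
    rw [hx]
  calc ∑' c : ℕ+, ∑' m : ℕ+, w c m * (m : ℂ) ^ j * r ^ ((c : ℕ) * (m : ℕ))
      = ∑' c : ℕ+, ∑' m : ℕ+, G (c, m) := rfl
    _ = ∑' n : ℕ+, ∑' x : (n : ℕ).divisorsAntidiagonal, G (sigmaAntidiagonalEquivProd ⟨n, x⟩) := by
        rw [h1, h2, h3]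
    _ = _ := tsum_congr h4

theorem summable_sum_weight {r : ℂ} (hr : ‖r‖ < 1) (j : ℕ) (w : ℕ → ℕ → ℂ)
    (hw : ∀ c m, ‖w c m‖ ≤ 1) :
    Summable (fun n : ℕ+ =>
      (∑ x ∈ (n : ℕ).divisorsAntidiagonal, w x.1 x.2 * (x.2 : ℂ) ^ j) * r ^ (n : ℕ)) := by
  let G : ℕ+ × ℕ+ → ℂ := fun p => w p.1 p.2 * (p.2 : ℂ) ^ j * r ^ ((p.1 : ℕ) * (p.2 : ℕ))
  have hsum : Summable G := summable_prod_weight hr j w hw
  have hsum' : Summable (fun s : (Σ n : ℕ+, (n : ℕ).divisorsAntidiagonal) =>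
      G (sigmaAntidiagonalEquivProd s)) := sigmaAntidiagonalEquivProd.summable_iff.mpr hsum
  have h4 : ∀ n : ℕ+, ∑' x : (n : ℕ).divisorsAntidiagonal, G (sigmaAntidiagonalEquivProd ⟨n, x⟩) =
      (∑ x ∈ (n : ℕ).divisorsAntidiagonal, w x.1 x.2 * (x.2 : ℂ) ^ j) * r ^ (n : ℕ) := by
    intro n
    rw [tsum_fintype, Finset.sum_mul, ← Finset.sum_coe_sort ((n : ℕ).divisorsAntidiagonal)]
    refine Finset.sum_congr rfl fun x _ => ?_
    have hx := (Nat.mem_divisorsAntidiagonal.mp x.2).1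
    simp only [G, sigmaAntidiagonalEquivProd, divisorsAntidiagonalFactors, Equiv.coe_fn_mk,
      PNat.mk_coe]
    rw [hx]
  exact (hsum'.sigma).congr h4

/-! ### The Lipschitz formula on a residue class -/

section Lipschitz

variable {M} [NeZero M]

/-- The inner sum over a residue class of the second coordinate. -/
def inner (β : ZMod M) (k : ℕ) (z : ℍ) (c : ℤ) : ℂ :=
  ∑' n : ℤ, if (n : ZMod M) = β then ((c : ℂ) * z + n) ^ (-(k : ℤ)) else 0

/-- The local parameter `q_M = exp (2 π i z / M)`. -/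
def qM (M : ℕ) (z : ℍ) : ℂ := cexp (2 * π * Complex.I * z / M)

lemma norm_qM_lt_one (z : ℍ) : ‖qM M z‖ < 1 := by
  have hM : (0 : ℝ) < M := Nat.cast_pos.mpr (NeZero.pos M)
  have him : 0 < ((z : ℂ) / M).im := by
    rw [Complex.div_natCast_im]
    exact div_pos z.im_pos hM
  have h := UpperHalfPlane.norm_exp_two_pi_I_lt_one ⟨(z : ℂ) / M, him⟩
  have h2 : qM M z = cexp (2 * π * Complex.I * ((⟨(z : ℂ) / M, him⟩ : ℍ) : ℂ)) := by
    unfold qM
    congr 1
    show 2 * (π : ℂ) * Complex.I * z / M = 2 * π * Complex.I * ((z : ℂ) / M)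
    ring
  rw [h2]
  exact h

/-- Lipschitz formula on a residue class, positive first coordinate. -/
theorem inner_pos (β : ZMod M) (k : ℕ) (hk : 2 ≤ k) (z : ℍ) (c : ℕ) (hc : 0 < c) :
    inner β k z (c : ℤ) = (-2 * π * Complex.I) ^ k / ((k - 1).factorial * (M : ℂ) ^ k) *
      ∑' m : ℕ+, (m : ℂ) ^ (k - 1) * ZMod.stdAddChar ((m : ℕ) • β) * qM M z ^ (c * (m : ℕ)) := by
  have hM0 : (M : ℂ) ≠ 0 := Nat.cast_ne_zero.mpr (NeZero.ne M)
  have hMpos : (0 : ℝ) < M := Nat.cast_pos.mpr (NeZero.pos M)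
  set β' : ℤ := (β.val : ℤ) with hβ'
  have hβc : ((β' : ℤ) : ZMod M) = β := by
    rw [hβ']
    simp
  -- the point `w = (c z + β') / M` of the upper half plane
  have hw : 0 < (((c : ℂ) * z + β') / M).im := by
    rw [Complex.div_natCast_im]
    refine div_pos ?_ hMpos
    simp only [Complex.add_im, Complex.mul_im, Complex.natCast_re, Complex.natCast_im, zero_mul,
      add_zero, Complex.intCast_im, UpperHalfPlane.coe_im]
    exact mul_pos (Nat.cast_pos.mpr hc) z.im_pos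
  set w : ℍ := ⟨((c : ℂ) * z + β') / M, hw⟩ with hwdef
  -- reindex the residue class
  have hg : Function.Injective (fun j : ℤ => β' + (M : ℤ) * j) := by
    intro j j' h
    have h2 : (M : ℤ) * j = (M : ℤ) * j' := by simpa using h
    exact mul_left_cancel₀ (Nat.cast_ne_zero.mpr (NeZero.ne M)) h2
  have hsupp : Function.support (fun n : ℤ =>
      if (n : ZMod M) = β then ((c : ℂ) * z + n) ^ (-(k : ℤ)) else 0) ⊆
      Set.range (fun j : ℤ => β' + (M : ℤ) * j) := by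
    intro n hn
    rw [Function.mem_support] at hn
    have hnβ : (n : ZMod M) = β := by
      by_contra h
      exact hn (if_neg h)
    have h3 : ((n - β' : ℤ) : ZMod M) = 0 := by
      rw [Int.cast_sub, hnβ, hβc, sub_self]
    obtain ⟨j, hj⟩ := (ZMod.intCast_zmod_eq_zero_iff_dvd _ M).mp h3
    exact ⟨j, by simp only; rw [← hj]; ring⟩
  unfold inner
  simp only [Int.cast_natCast]
  rw [← hg.tsum_eq hsupp]
  have hterm : ∀ j : ℤ, (if (((β' + (M : ℤ) * j : ℤ)) : ZMod M) = β then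
      ((c : ℂ) * z + ((β' + (M : ℤ) * j : ℤ) : ℂ)) ^ (-(k : ℤ)) else 0) =
      ((M : ℂ) ^ k)⁻¹ * (1 / ((w : ℂ) + j) ^ (k - 1 + 1)) := by
    intro j
    have hcond : (((β' + (M : ℤ) * j : ℤ)) : ZMod M) = β := by
      rw [Int.cast_add, hβc]
      simp
    rw [if_pos hcond]
    have hk1 : k - 1 + 1 = k := by omega
    rw [hk1, _root_.zpow_neg, zpow_natCast]
    have hfac : (c : ℂ) * z + ((β' + (M : ℤ) * j : ℤ) : ℂ) = (M : ℂ) * ((w : ℂ) + j) := by
      show _ = (M : ℂ) * (((c : ℂ) * z + β') / M + j)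
      push_cast
      field_simp
      ring
    rw [hfac, mul_pow, mul_inv, one_div]
  rw [tsum_congr hterm, tsum_mul_left, qExpansion_identity_pnat (k := k - 1) (by omega) w]
  have hk1 : k - 1 + 1 = k := by omega
  rw [hk1]
  have hexp : cexp (2 * π * Complex.I * (w : ℂ)) = qM M z ^ c * ZMod.stdAddChar β := by
    have h1 : (2 * π * Complex.I * (w : ℂ)) = (c : ℂ) * (2 * π * Complex.I * z / M) + 2 * π * Complex.I * β' / M := by
      show 2 * (π : ℂ) * Complex.I * (((c : ℂ) * z + β') / M) = _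
      field_simp
    rw [h1, Complex.exp_add, Complex.exp_nat_mul, ← hβc, ZMod.stdAddChar_coe]
    rfl
  have hsum : ∀ m : ℕ+, ((m : ℕ) : ℂ) ^ (k - 1) * cexp (2 * π * Complex.I * (w : ℂ)) ^ (m : ℕ) =
      (m : ℂ) ^ (k - 1) * ZMod.stdAddChar ((m : ℕ) • β) * qM M z ^ (c * (m : ℕ)) := by
    intro m
    rw [hexp, mul_pow, ← pow_mul, AddChar.map_nsmul_eq_pow]
    ring
  rw [tsum_congr hsum]
  field_simp

omit [NeZero M] in
/-- Negative first coordinate: reflect the residue class. -/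
theorem inner_neg (β : ZMod M) (k : ℕ) (z : ℍ) (c : ℤ) :
    inner β k z (-c) = (-1) ^ k * inner (-β) k z c := by
  unfold inner
  rw [← (Equiv.neg ℤ).tsum_eq, ← tsum_mul_left]
  refine tsum_congr fun n => ?_
  simp only [Equiv.neg_apply, Int.cast_neg]
  have hiff : (-(n : ZMod M) = β) ↔ ((n : ZMod M) = -β) := neg_eq_iff_eq_neg
  by_cases h : (n : ZMod M) = -β
  · rw [if_pos (hiff.mpr h), if_pos h]
    have h1 : -(c : ℂ) * z + -(n : ℂ) = -((c : ℂ) * z + n) := by ring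
    rw [h1, _root_.zpow_neg, _root_.zpow_neg, zpow_natCast, zpow_natCast, neg_pow, mul_inv, ← inv_pow]
    norm_num
  · rw [if_neg (fun h' => h (hiff.mp h')), if_neg h, mul_zero]

/-! ### The `q_M`-expansion -/

omit [NeZero M] in
lemma ind_mul_eisSummand (b : Fin 2 → ZMod M) (k : ℕ) (z : ℍ) (c n : ℤ) :
    ind M b ![c, n] * eisSummand k ![c, n] z =
      if (c : ZMod M) = b 0 then
        (if (n : ZMod M) = b 1 then ((c : ℂ) * z + n) ^ (-(k : ℤ)) else 0) else 0 := by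
  have hred : red M ![c, n] = b ↔ (c : ZMod M) = b 0 ∧ (n : ZMod M) = b 1 := by
    constructor
    · intro h
      exact ⟨by simpa [red] using congrFun h 0, by simpa [red] using congrFun h 1⟩
    · rintro ⟨h0, h1⟩
      funext i
      fin_cases i
      · simpa [red] using h0
      · simpa [red] using h1
  unfold ind eisSummand
  by_cases h0 : (c : ZMod M) = b 0
  · by_cases h1 : (n : ZMod M) = b 1
    · rw [if_pos (hred.mpr ⟨h0, h1⟩), if_pos h0, if_pos h1]
      simp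
    · rw [if_neg (fun h => h1 (hred.mp h).2), if_pos h0, if_neg h1, zero_mul]
  · rw [if_neg (fun h => h0 (hred.mp h).1), if_neg h0, zero_mul]

omit [NeZero M] in
theorem summable_prod_term (b : Fin 2 → ZMod M) (k : ℕ) (hk : 3 ≤ k) (z : ℍ) :
    Summable (fun p : ℤ × ℤ => ind M b ![p.1, p.2] * eisSummand k ![p.1, p.2] z) := by
  have h := summable_term (norm_ind_le M b) (k := (k : ℤ)) (by exact_mod_cast hk) z
  refine (finTwoArrowEquiv ℤ).summable_iff.mp <| h.congr (fun v ↦ ?_)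
  simp [show ![v 0, v 1] = v from List.ofFn_inj.mp rfl]

omit [NeZero M] in
theorem gEis_eq_tsum_inner (b : Fin 2 → ZMod M) (k : ℕ) (hk : 3 ≤ k) (z : ℍ) :
    gEis M b k z = ∑' c : ℤ, if (c : ZMod M) = b 0 then inner (b 1) k z c else 0 := by
  have hs := summable_prod_term b k hk z
  show eisW (ind M b) k z = _
  unfold eisW
  rw [← (finTwoArrowEquiv ℤ).symm.tsum_eq, finTwoArrowEquiv_symm_apply, hs.tsum_prod]
  refine tsum_congr fun c => ?_
  by_cases h0 : (c : ZMod M) = b 0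
  · rw [if_pos h0]
    unfold inner
    refine tsum_congr fun n => ?_
    rw [ind_mul_eisSummand, if_pos h0]
  · rw [if_neg h0]
    have : ∀ n : ℤ, ind M b ![c, n] * eisSummand k ![c, n] z = 0 := by
      intro n
      rw [ind_mul_eisSummand, if_neg h0]
    simp only [this, tsum_zero]

omit [NeZero M] in
theorem summable_inner (b : Fin 2 → ZMod M) (k : ℕ) (hk : 3 ≤ k) (z : ℍ) :
    Summable (fun c : ℤ => if (c : ZMod M) = b 0 then inner (b 1) k z c else 0) := by
  have hs := (summable_prod_term b k hk z).prod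
  refine hs.congr fun c => ?_
  by_cases h0 : (c : ZMod M) = b 0
  · rw [if_pos h0]
    unfold inner
    refine tsum_congr fun n => ?_
    rw [ind_mul_eisSummand, if_pos h0]
  · rw [if_neg h0]
    have : ∀ n : ℤ, ind M b ![c, n] * eisSummand k ![c, n] z = 0 := by
      intro n
      rw [ind_mul_eisSummand, if_neg h0]
    simp only [this, tsum_zero]

/-- The constant term of `gEis M b k`. -/
def gConst (M : ℕ) (k : ℕ) (b : Fin 2 → ZMod M) : ℂ :=
  if b 0 = 0 then ∑' n : ℤ, (if (n : ZMod M) = b 1 then ((n : ℂ) ^ k)⁻¹ else 0) else 0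

/-- The weight of the pair `(c, m)` in the positive half of the expansion. -/
def wPos (M : ℕ) [NeZero M] (b : Fin 2 → ZMod M) (c m : ℕ) : ℂ :=
  if (c : ZMod M) = b 0 then ZMod.stdAddChar (m • b 1) else 0

/-- The weight of the pair `(c, m)` in the negative half of the expansion. -/
def wNeg (M : ℕ) [NeZero M] (b : Fin 2 → ZMod M) (c m : ℕ) : ℂ :=
  if (c : ZMod M) = -b 0 then ZMod.stdAddChar (m • (-b 1)) else 0

lemma norm_wPos_le (b : Fin 2 → ZMod M) (c m : ℕ) : ‖wPos M b c m‖ ≤ 1 := by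
  unfold wPos
  split_ifs
  · rw [ZMod.stdAddChar_apply, Circle.norm_coe]
  · simp

lemma norm_wNeg_le (b : Fin 2 → ZMod M) (c m : ℕ) : ‖wNeg M b c m‖ ≤ 1 := by
  unfold wNeg
  split_ifs
  · rw [ZMod.stdAddChar_apply, Circle.norm_coe]
  · simp

/-- The normalising constant `(-2πi)^k / ((k-1)! M^k)`. -/
def lipConst (M : ℕ) (k : ℕ) : ℂ :=
  (-2 * π * Complex.I) ^ k / ((k - 1).factorial * (M : ℂ) ^ k)

/-- The coefficients of the `q_M`-expansion of `gEis M b k`. -/
def gCoeff (M : ℕ) [NeZero M] (k : ℕ) (b : Fin 2 → ZMod M) (n : ℕ) : ℂ :=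
  if n = 0 then gConst M k b else
    lipConst M k * ∑ x ∈ n.divisorsAntidiagonal,
      (wPos M b x.1 x.2 + (-1) ^ k * wNeg M b x.1 x.2) * (x.2 : ℂ) ^ (k - 1)

theorem gEis_eq_tsum (b : Fin 2 → ZMod M) (k : ℕ) (hk : 3 ≤ k) (z : ℍ) :
    gEis M b k z = gConst M k b + ∑' n : ℕ+, gCoeff M k b n * qM M z ^ (n : ℕ) := by
  have hr := norm_qM_lt_one (M := M) z
  rw [gEis_eq_tsum_inner b k hk z, tsum_int_eq_zero_add_tsum_pnat (summable_inner b k hk z)]
  -- the three pieces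
  have h0 : (if ((0 : ℤ) : ZMod M) = b 0 then inner (b 1) k z 0 else 0) = gConst M k b := by
    unfold gConst inner
    have hb : ((0 : ℤ) : ZMod M) = b 0 ↔ b 0 = 0 := by
      rw [Int.cast_zero]; exact eq_comm
    by_cases h : b 0 = 0
    · rw [if_pos (hb.mpr h), if_pos h]
      refine tsum_congr fun n => ?_
      simp [_root_.zpow_neg]
    · rw [if_neg (fun h' => h (hb.mp h')), if_neg h]
  have hpos : ∀ c : ℕ+, (if (((c : ℕ) : ℤ) : ZMod M) = b 0 then inner (b 1) k z ((c : ℕ) : ℤ)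
      else 0) = lipConst M k *
        ∑' m : ℕ+, wPos M b c m * (m : ℂ) ^ (k - 1) * qM M z ^ ((c : ℕ) * (m : ℕ)) := by
    intro c
    by_cases h : ((c : ℕ) : ZMod M) = b 0
    · rw [if_pos (by simpa using h), inner_pos (b 1) k (by omega) z c c.pos]
      unfold lipConst
      congr 1
      refine tsum_congr fun m => ?_
      unfold wPos
      rw [if_pos h]
      ring
    · rw [if_neg (by simpa using h)]
      have : ∀ m : ℕ+, wPos M b c m * (m : ℂ) ^ (k - 1) * qM M z ^ ((c : ℕ) * (m : ℕ)) = 0 := by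
        intro m
        unfold wPos
        rw [if_neg h, zero_mul, zero_mul]
      simp only [this, tsum_zero, mul_zero]
  have hneg : ∀ c : ℕ+, (if ((-((c : ℕ) : ℤ) : ℤ) : ZMod M) = b 0 then
      inner (b 1) k z (-((c : ℕ) : ℤ)) else 0) = lipConst M k *
        ∑' m : ℕ+, ((-1) ^ k * wNeg M b c m) * (m : ℂ) ^ (k - 1) *
          qM M z ^ ((c : ℕ) * (m : ℕ)) := by
    intro c
    have hiff : ((-((c : ℕ) : ℤ) : ℤ) : ZMod M) = b 0 ↔ ((c : ℕ) : ZMod M) = -b 0 := by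
      rw [Int.cast_neg, Int.cast_natCast]
      exact neg_eq_iff_eq_neg
    by_cases h : ((c : ℕ) : ZMod M) = -b 0
    · rw [if_pos (hiff.mpr h), inner_neg, inner_pos (-b 1) k (by omega) z c c.pos]
      unfold lipConst
      rw [← mul_assoc, mul_comm ((-1 : ℂ) ^ k), mul_assoc, ← tsum_mul_left]
      congr 1
      refine tsum_congr fun m => ?_
      unfold wNeg
      rw [if_pos h]
      ring
    · rw [if_neg (fun h' => h (hiff.mp h'))]
      have : ∀ m : ℕ+, ((-1) ^ k * wNeg M b c m) * (m : ℂ) ^ (k - 1) *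
          qM M z ^ ((c : ℕ) * (m : ℕ)) = 0 := by
        intro m
        unfold wNeg
        rw [if_neg h, mul_zero, zero_mul, zero_mul]
      simp only [this, tsum_zero, mul_zero]
  rw [h0, tsum_congr hpos, tsum_congr hneg, tsum_mul_left, tsum_mul_left]
  have hwn : ∀ c m, ‖(fun c m => (-1 : ℂ) ^ k * wNeg M b c m) c m‖ ≤ 1 := by
    intro c m
    simp only [norm_mul, norm_pow, norm_neg, norm_one, one_pow, one_mul]
    exact norm_wNeg_le b c m
  rw [tsum_prod_weight hr (k - 1) (wPos M b) (norm_wPos_le b),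
    tsum_prod_weight hr (k - 1) (fun c m => (-1 : ℂ) ^ k * wNeg M b c m) hwn]
  rw [add_assoc, ← mul_add, ← (summable_sum_weight hr (k - 1) (wPos M b) (norm_wPos_le b)).tsum_add
    (summable_sum_weight hr (k - 1) (fun c m => (-1 : ℂ) ^ k * wNeg M b c m) hwn), ← tsum_mul_left]
  congr 1
  refine tsum_congr fun n => ?_
  unfold gCoeff
  rw [if_neg n.ne_zero, ← add_mul, ← Finset.sum_add_distrib, mul_assoc]
  congr 2
  refine Finset.sum_congr rfl fun x _ => ?_
  ring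

lemma gCoeff_zero (k : ℕ) (b : Fin 2 → ZMod M) : gCoeff M k b 0 = gConst M k b := by
  unfold gCoeff
  rw [if_pos rfl]

lemma gCoeff_of_ne_zero (k : ℕ) (b : Fin 2 → ZMod M) {n : ℕ} (hn : n ≠ 0) :
    gCoeff M k b n = lipConst M k * ∑ x ∈ n.divisorsAntidiagonal,
      (wPos M b x.1 x.2 + (-1) ^ k * wNeg M b x.1 x.2) * (x.2 : ℂ) ^ (k - 1) := by
  unfold gCoeff
  rw [if_neg hn]

theorem summable_gCoeff (b : Fin 2 → ZMod M) (k : ℕ) (z : ℍ) :
    Summable (fun n : ℕ => gCoeff M k b n * qM M z ^ n) := by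
  have hr := norm_qM_lt_one (M := M) z
  have hwn : ∀ c m, ‖(fun c m => (-1 : ℂ) ^ k * wNeg M b c m) c m‖ ≤ 1 := by
    intro c m
    simp only [norm_mul, norm_pow, norm_neg, norm_one, one_pow, one_mul]
    exact norm_wNeg_le b c m
  have h1 := ((summable_sum_weight hr (k - 1) (wPos M b) (norm_wPos_le b)).add
    (summable_sum_weight hr (k - 1) (fun c m => (-1 : ℂ) ^ k * wNeg M b c m) hwn)).mul_left
    (lipConst M k)
  rw [← summable_pnat_iff_summable_nat (f := fun n : ℕ => gCoeff M k b n * qM M z ^ n)]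
  refine h1.congr fun n => ?_
  rw [gCoeff_of_ne_zero k b n.ne_zero, ← add_mul, ← Finset.sum_add_distrib, mul_assoc]
  congr 2
  refine Finset.sum_congr rfl fun x _ => ?_
  ring

/-- **The level-`M` Lipschitz `q`-expansion**: `gEis M b k z = ∑ₙ gCoeff M k b n · q_Mⁿ`. -/
theorem gEis_hasSum (b : Fin 2 → ZMod M) (k : ℕ) (hk : 3 ≤ k) (z : ℍ) :
    HasSum (fun n : ℕ => gCoeff M k b n * qM M z ^ n) (gEis M b k z) := by
  have hs := summable_gCoeff b k z
  have h := hs.hasSum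
  rw [← tsum_zero_pnat_eq_tsum_nat hs] at h
  rw [gEis_eq_tsum b k hk z]
  simpa [gCoeff_zero] using h

omit [NeZero M] in
lemma qM_eq_qParam (z : ℍ) : qM M z = Function.Periodic.qParam (M : ℝ) (z : ℂ) := by
  unfold qM Function.Periodic.qParam
  push_cast
  rfl

/-- The `q`-expansion of `gEisMF` relative to the period `M`. -/
theorem qExpansion_gEisMF_coeff {k : ℕ} (hk : 3 ≤ k) (b : Fin 2 → ZMod M) (n : ℕ) :
    (qExpansion (M : ℝ) (gEisMF M (k := (k : ℤ)) (by exact_mod_cast hk) b)).coeff n =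
      gCoeff M k b n := by
  have hMpos : (0 : ℝ) < M := Nat.cast_pos.mpr (NeZero.pos M)
  have hper : (M : ℝ) ∈ ((CongruenceSubgroup.Gamma M : Subgroup SL(2, ℤ)) :
      Subgroup (GL (Fin 2) ℝ)).strictPeriods := by
    simp [strictPeriods_Gamma]
  refine (ModularFormClass.qExpansion_coeff_unique (c := gCoeff M k b) hMpos hper
    (f := gEisMF M (k := (k : ℤ)) (by exact_mod_cast hk) b) (fun τ => ?_) n).symm
  have h := gEis_hasSum b k hk τ
  simp only [smul_eq_mul, ← qM_eq_qParam]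
  exact h

end Lipschitz

end

end Fermat.Agent.Lib.EisLevel
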