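/-
`q^(1/M)`-expansions, in the `HasQExpK` vocabulary of `S24/QB`, of Eisenstein series whose weight
function is periodic modulo `M`, and of all their `SL(2, ℤ)`-translates.

* `hasQExpK_gEis`              : `gEis M b k` has the expansion `gSeries M k b` in `exp (2 π i τ / M)`;
* `eisW_eq_sum_gEis`           : `eisW c k = ∑_b c(b) · gEis M b k` for `c` periodic modulo `M`;
* `hasQExpK_eisW`              : the expansion `eisSeries M c k` of `eisW c k`;
* `exists_hasQExpK_eisW_slash` : every `SL(2, ℤ)`-translate `eisW c k ∣[k] γ` has an expansion.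
-/
import Mathlib
import Fermat.Agent.Lib.EisLevel
import Fermat.Agent.S24.QB.QExpK

set_option autoImplicit false

open ModularForm UpperHalfPlane Complex Matrix CongruenceSubgroup Filter Topology
open EisensteinSeries
open scoped MatrixGroups Manifold Real

namespace Fermat.Agent.Lib.EisLevelQ

noncomputable section

open Fermat.Agent.Lib.EisCharGen Fermat.Agent.Lib.EisLevel Fermat.Agent.S24

variable (M : ℕ) [NeZero M]

/-- The formal `q^(1/M)`-expansion of `gEis M b k`. -/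
def gSeries (k : ℕ) (b : Fin 2 → ZMod M) : LaurentSeries ℂ :=
  HahnSeries.ofPowerSeries ℤ ℂ (PowerSeries.mk (gCoeff M k b))

lemma coeff_gSeries (k : ℕ) (b : Fin 2 → ZMod M) (n : ℕ) :
    (gSeries M k b).coeff (n : ℤ) = gCoeff M k b n := by
  rw [gSeries, HahnSeries.ofPowerSeries_apply_coeff, PowerSeries.coeff_mk]

lemma coeff_gSeries_of_neg (k : ℕ) (b : Fin 2 → ZMod M) {n : ℤ} (hn : n < 0) :
    (gSeries M k b).coeff n = 0 :=
  ModularCurve.ofPowerSeries_coeff_of_neg _ hn

/-- **`gEis M b k` has the `q^(1/M)`-expansion `gSeries M k b`.** -/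
theorem hasQExpK_gEis (b : Fin 2 → ZMod M) (k : ℕ) (hk : 3 ≤ k) :
    QB.HasQExpK (RingHom.id ℂ) M (gSeries M k b) (gEis M b (k : ℤ)) := by
  intro τ
  have h := gEis_hasSum b k hk τ
  have hinj : Function.Injective (fun n : ℕ => (n : ℤ)) := Nat.cast_injective
  refine (hinj.hasSum_iff ?_).mp ?_
  · intro n hn
    have hneg : n < 0 := by
      by_contra hcon
      rw [not_lt] at hcon
      exact hn ⟨n.toNat, Int.toNat_of_nonneg hcon⟩
    rw [Puiseux.evalTerm_def, coeff_gSeries_of_neg M k b hneg, map_zero, zero_mul]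
  · have hfun : (Puiseux.evalTerm (RingHom.id ℂ) (gSeries M k b)
          (Complex.exp (2 * Real.pi * Complex.I * (τ : ℂ) / M)) ∘ fun n : ℕ => (n : ℤ)) =
        fun n : ℕ => gCoeff M k b n * qM M τ ^ n := by
      funext n
      simp only [Function.comp_apply, Puiseux.evalTerm_def, coeff_gSeries, RingHom.id_apply,
        zpow_natCast]
      rfl
    rw [hfun]
    exact h

omit [NeZero M] in
/-- Finite sums of `q^(1/M)`-expansions. -/
theorem hasQExpK_sum {κ : Type*} (s : Finset κ) (A : κ → LaurentSeries ℂ) (φ : κ → ℍ → ℂ)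
    (h : ∀ i ∈ s, QB.HasQExpK (RingHom.id ℂ) M (A i) (φ i)) :
    QB.HasQExpK (RingHom.id ℂ) M (∑ i ∈ s, A i) (fun τ => ∑ i ∈ s, φ i τ) := by
  classical
  induction s using Finset.induction_on with
  | empty =>
    simp only [Finset.sum_empty]
    exact QB.hasQExpK_zero (RingHom.id ℂ) M
  | insert a s ha ih =>
    have h1 := h a (Finset.mem_insert_self a s)
    have h2 := ih fun i hi => h i (Finset.mem_insert_of_mem hi)
    rw [Finset.sum_insert ha]
    refine (h1.add h2).congr fun τ => ?_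
    rw [Finset.sum_insert ha]
    rfl

omit [NeZero M] in
/-- Multiplication of a `q^(1/M)`-expansion by a constant. -/
theorem hasQExpK_const_mul (a : ℂ) {A : LaurentSeries ℂ} {φ : ℍ → ℂ}
    (h : QB.HasQExpK (RingHom.id ℂ) M A φ) :
    QB.HasQExpK (RingHom.id ℂ) M (HahnSeries.C a * A) (fun τ => a * φ τ) :=
  ((QB.hasQExpK_C (RingHom.id ℂ) M a).mul h).congr fun _ => rfl

/-- Weight functions on `ℤ²` that are periodic modulo `M`. -/
def PeriodicW (c : (Fin 2 → ℤ) → ℂ) : Prop :=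
  ∀ v v' : Fin 2 → ℤ, red M v = red M v' → c v = c v'

/-- The standard lift of a residue vector. -/
def lift (b : Fin 2 → ZMod M) : Fin 2 → ℤ := fun i => ((b i).val : ℤ)

lemma red_lift (b : Fin 2 → ZMod M) : red M (lift M b) = b := by
  funext i
  simp [red, lift]

variable {M}

lemma PeriodicW.eq_lift {c : (Fin 2 → ℤ) → ℂ} (hc : PeriodicW M c) (v : Fin 2 → ℤ) :
    c v = c (lift M (red M v)) :=
  hc v _ (red_lift M (red M v)).symm

omit [NeZero M] in
lemma PeriodicW.vecMul {c : (Fin 2 → ℤ) → ℂ} (hc : PeriodicW M c) (γ : SL(2, ℤ)) :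
    PeriodicW M (fun v => c (v ᵥ* (γ : Matrix (Fin 2) (Fin 2) ℤ))) := by
  intro v v' h
  apply hc
  rw [red_vecMul, red_vecMul, h]

omit [NeZero M] in
/-- A weight function that factors through reduction modulo `M` is periodic. -/
lemma periodicW_of_factor (W : (Fin 2 → ZMod M) → ℂ) : PeriodicW M (fun v => W (red M v)) := by
  intro v v' h
  show W (red M v) = W (red M v')
  rw [h]

/-- **Decomposition into residue classes.** -/
theorem eisW_eq_sum_gEis {c : (Fin 2 → ℤ) → ℂ} (hc : PeriodicW M c) {k : ℤ} (hk : 3 ≤ k)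
    (z : ℍ) : eisW c k z = ∑ b : Fin 2 → ZMod M, c (lift M b) * gEis M b k z := by
  classical
  have hsum : ∀ b : Fin 2 → ZMod M,
      Summable fun v : Fin 2 → ℤ => c (lift M b) * (ind M b v * eisSummand k v z) :=
    fun b => (summable_term (norm_ind_le M b) hk z).mul_left _
  have h1 : ∀ b : Fin 2 → ZMod M, c (lift M b) * gEis M b k z =
      ∑' v : Fin 2 → ℤ, c (lift M b) * (ind M b v * eisSummand k v z) := by
    intro b
    rw [tsum_mul_left]
    rfl
  simp_rw [h1]
  rw [← Summable.tsum_finsetSum fun b _ => hsum b]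
  unfold eisW
  refine tsum_congr fun v => ?_
  rw [Finset.sum_eq_single (red M v)]
  · rw [← hc.eq_lift v]
    simp [ind]
  · intro b _ hb
    simp [ind, Ne.symm hb]
  · intro h
    exact absurd (Finset.mem_univ _) h

variable (M)

/-- The formal `q^(1/M)`-expansion of `eisW c k`, `c` periodic modulo `M`. -/
def eisSeries (c : (Fin 2 → ℤ) → ℂ) (k : ℕ) : LaurentSeries ℂ :=
  ∑ b : Fin 2 → ZMod M, HahnSeries.C (c (lift M b)) * gSeries M k b

lemma coeff_eisSeries (c : (Fin 2 → ℤ) → ℂ) (k : ℕ) (n : ℕ) :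
    (eisSeries M c k).coeff (n : ℤ) = ∑ b : Fin 2 → ZMod M, c (lift M b) * gCoeff M k b n := by
  rw [eisSeries, HahnSeries.coeff_sum]
  refine Finset.sum_congr rfl fun b _ => ?_
  rw [HahnSeries.C_mul_eq_smul, HahnSeries.coeff_smul, coeff_gSeries, smul_eq_mul]

variable {M}

/-- **`eisW c k` has the `q^(1/M)`-expansion `eisSeries M c k`.** -/
theorem hasQExpK_eisW {c : (Fin 2 → ℤ) → ℂ} (hc : PeriodicW M c) (k : ℕ) (hk : 3 ≤ k) :
    QB.HasQExpK (RingHom.id ℂ) M (eisSeries M c k) (eisW c (k : ℤ)) := by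
  have hk' : (3 : ℤ) ≤ (k : ℤ) := by exact_mod_cast hk
  have h := hasQExpK_sum M (Finset.univ : Finset (Fin 2 → ZMod M))
    (fun b => HahnSeries.C (c (lift M b)) * gSeries M k b)
    (fun b τ => c (lift M b) * gEis M b (k : ℤ) τ)
    (fun b _ => hasQExpK_const_mul M (c (lift M b)) (hasQExpK_gEis M b k hk))
  exact h.congr fun τ => (eisW_eq_sum_gEis hc hk' τ).symm

/-- **Every `SL(2, ℤ)`-translate of `eisW c k` has a `q^(1/M)`-expansion.** -/
theorem hasQExpK_eisW_slash {c : (Fin 2 → ℤ) → ℂ} (hc : PeriodicW M c) (k : ℕ) (hk : 3 ≤ k)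
    (γ : SL(2, ℤ)) :
    QB.HasQExpK (RingHom.id ℂ) M
      (eisSeries M (fun v => c (v ᵥ* ((γ⁻¹ : SL(2, ℤ)) : Matrix (Fin 2) (Fin 2) ℤ))) k)
      (eisW c (k : ℤ) ∣[(k : ℤ)] γ) := by
  rw [eisW_slash]
  exact hasQExpK_eisW (hc.vecMul γ⁻¹) k hk

theorem exists_hasQExpK_eisW_slash {c : (Fin 2 → ℤ) → ℂ} (hc : PeriodicW M c) (k : ℕ)
    (hk : 3 ≤ k) (γ : SL(2, ℤ)) :
    ∃ B : LaurentSeries ℂ, QB.HasQExpK (RingHom.id ℂ) M B (eisW c (k : ℤ) ∣[(k : ℤ)] γ) :=
  ⟨_, hasQExpK_eisW_slash hc k hk γ⟩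

end

end Fermat.Agent.Lib.EisLevelQ
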