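import Mathlib

/-!
# Verified truncated power-series arithmetic on coefficient lists

`toPS l` is the integer power series with coefficient list `l`.  The list operations `addL`,
`smulL`, `mulL`, `expandL` compute exactly; `mulT B` truncates after degree `B`.  The relation
`Cong B f g` (`X ^ (B + 1) ∣ f - g`) is a ring congruence, and the `*_cert` lemmas turn an
evaluation of closed list terms (done by the kernel, `by decide +kernel`) into a statement about the
first `B + 1` coefficients of a power series.
-/

set_option autoImplicit false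

namespace Fermat.Agent.Lib.SeriesCompute

open PowerSeries

/-- The integer power series with coefficient list `l`. -/
noncomputable def toPS : List ℤ → PowerSeries ℤ
  | [] => 0
  | a :: l => C a + X * toPS l

@[simp] lemma toPS_nil : toPS [] = 0 := rfl

@[simp] lemma toPS_cons (a : ℤ) (l : List ℤ) : toPS (a :: l) = C a + X * toPS l := rfl

/-- Coefficientwise sum of two lists. -/
def addL : List ℤ → List ℤ → List ℤ
  | [], l => l
  | a :: l, [] => a :: l
  | a :: l, b :: l' => (a + b) :: addL l l'

/-- Scalar multiple of a list. -/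
def smulL (c : ℤ) : List ℤ → List ℤ
  | [] => []
  | a :: l => (c * a) :: smulL c l

/-- Exact product of two coefficient lists. -/
def mulL : List ℤ → List ℤ → List ℤ
  | [], _ => []
  | a :: l, l' => addL (smulL a l') (0 :: mulL l l')

/-- Truncated product. -/
def mulT (B : ℕ) (l l' : List ℤ) : List ℤ := (mulL l l').take (B + 1)

/-- Truncated sum. -/
def addT (B : ℕ) (l l' : List ℤ) : List ℤ := (addL l l').take (B + 1)

/-- Truncated difference. -/
def subT (B : ℕ) (l l' : List ℤ) : List ℤ := (addL l (smulL (-1) l')).take (B + 1)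

/-- Truncated scalar multiple. -/
def smulT (B : ℕ) (c : ℤ) (l : List ℤ) : List ℤ := (smulL c l).take (B + 1)

/-- `d - 1` zeros in front of a list, preceded by ... (helper for `expandL`). -/
def zerosL : ℕ → List ℤ → List ℤ
  | 0, l => l
  | n + 1, l => 0 :: zerosL n l

/-- The substitution `q ↦ q ^ (e + 1)` on coefficient lists. -/
def expandL (e : ℕ) : List ℤ → List ℤ
  | [] => []
  | a :: l => a :: zerosL e (expandL e l)

/-- Truncated substitution `q ↦ q ^ (e + 1)`. -/
def expandT (B : ℕ) (e : ℕ) (l : List ℤ) : List ℤ := (expandL e l).take (B + 1)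

lemma toPS_addL (l l' : List ℤ) : toPS (addL l l') = toPS l + toPS l' := by
  induction l generalizing l' with
  | nil => simp [addL]
  | cons a l ih =>
    cases l' with
    | nil => simp [addL]
    | cons b l' =>
      simp only [addL, toPS_cons, ih, map_add]
      ring

lemma toPS_smulL (c : ℤ) (l : List ℤ) : toPS (smulL c l) = C c * toPS l := by
  induction l with
  | nil => simp [smulL]
  | cons a l ih =>
    simp only [smulL, toPS_cons, ih, map_mul]
    ring

lemma toPS_mulL (l l' : List ℤ) : toPS (mulL l l') = toPS l * toPS l' := by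
  induction l with
  | nil => simp [mulL]
  | cons a l ih =>
    simp only [mulL, toPS_addL, toPS_smulL, toPS_cons, ih, map_zero]
    ring

lemma toPS_zerosL (n : ℕ) (l : List ℤ) : toPS (zerosL n l) = X ^ n * toPS l := by
  induction n with
  | zero => simp [zerosL]
  | succ n ih =>
    simp only [zerosL, toPS_cons, ih, map_zero]
    ring

lemma toPS_expandL (e : ℕ) (l : List ℤ) :
    toPS (expandL e l) = expand (e + 1) (Nat.succ_ne_zero e) (toPS l) := by
  induction l with
  | nil => simp [expandL]
  | cons a l ih =>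
    simp only [expandL, toPS_cons, toPS_zerosL, ih, map_add, map_mul, expand_C, expand_X]
    ring

/-- Congruence of power series modulo `X ^ (B + 1)`. -/
def Cong (B : ℕ) (f g : PowerSeries ℤ) : Prop := X ^ (B + 1) ∣ f - g

namespace Cong

variable {B : ℕ} {f f' g g' h : PowerSeries ℤ}

lemma refl (f : PowerSeries ℤ) : Cong B f f := by simp [Cong]

lemma of_eq (h : f = g) : Cong B f g := h ▸ refl f

lemma symm (h : Cong B f g) : Cong B g f := by
  have := dvd_neg.mpr h
  rwa [neg_sub] at this

lemma trans (h₁ : Cong B f g) (h₂ : Cong B g h) : Cong B f h := by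
  have := dvd_add h₁ h₂
  rwa [sub_add_sub_cancel] at this

lemma add (h₁ : Cong B f g) (h₂ : Cong B f' g') : Cong B (f + f') (g + g') := by
  have := dvd_add h₁ h₂
  rwa [show f - g + (f' - g') = f + f' - (g + g') by ring] at this

lemma sub (h₁ : Cong B f g) (h₂ : Cong B f' g') : Cong B (f - f') (g - g') := by
  have := dvd_sub h₁ h₂
  rwa [show f - g - (f' - g') = f - f' - (g - g') by ring] at this

lemma mul (h₁ : Cong B f g) (h₂ : Cong B f' g') : Cong B (f * f') (g * g') := by
  have := dvd_add (Dvd.dvd.mul_right h₁ f') (Dvd.dvd.mul_left h₂ g)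
  rwa [show (f - g) * f' + g * (f' - g') = f * f' - g * g' by ring] at this

lemma pow (h₁ : Cong B f g) (n : ℕ) : Cong B (f ^ n) (g ^ n) := by
  induction n with
  | zero => simp [Cong]
  | succ n ih => rw [pow_succ, pow_succ]; exact ih.mul h₁

lemma expand (h₁ : Cong B f g) (d : ℕ) (hd : d ≠ 0) :
    Cong B (PowerSeries.expand d hd f) (PowerSeries.expand d hd g) := by
  obtain ⟨c, hc⟩ := h₁
  refine ⟨X ^ ((d - 1) * (B + 1)) * PowerSeries.expand d hd c, ?_⟩
  rw [← map_sub, hc, map_mul, map_pow, expand_X, ← pow_mul, ← mul_assoc, ← pow_add]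
  congr 2
  obtain ⟨e, rfl⟩ : ∃ e, d = e + 1 := Nat.exists_eq_succ_of_ne_zero hd
  simp only [Nat.add_sub_cancel]
  ring

lemma coeff_eq (h₁ : Cong B f g) {n : ℕ} (hn : n ≤ B) : coeff n f = coeff n g := by
  have h := (X_pow_dvd_iff.mp h₁) n (Nat.lt_succ_of_le hn)
  rwa [map_sub, sub_eq_zero] at h

lemma of_coeff (h₁ : ∀ n, n ≤ B → coeff n f = coeff n g) : Cong B f g := by
  refine X_pow_dvd_iff.mpr fun n hn => ?_
  rw [map_sub, h₁ n (Nat.lt_succ_iff.mp hn), sub_self]

end Cong

lemma cong_take (B : ℕ) (l : List ℤ) : Cong B (toPS (l.take (B + 1))) (toPS l) := by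
  unfold Cong
  generalize B + 1 = n
  induction n generalizing l with
  | zero => simp
  | succ n ih =>
    cases l with
    | nil => simp
    | cons a l =>
      obtain ⟨c, hc⟩ := ih l
      refine ⟨c, ?_⟩
      simp only [List.take_succ_cons, toPS_cons]
      rw [pow_succ, mul_comm (X ^ n) X, mul_assoc, ← hc]
      ring

lemma coeff_toPS (l : List ℤ) (n : ℕ) : coeff n (toPS l) = l.getD n 0 := by
  induction l generalizing n with
  | nil => simp
  | cons a l ih =>
    cases n with
    | zero => simp
    | succ n =>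
      rw [toPS_cons, map_add, coeff_succ_X_mul, ih, coeff_C, if_neg (Nat.succ_ne_zero n),
        zero_add, List.getD_cons_succ]

/-! ### Certificates -/

section Cert

variable {B : ℕ} {f g : PowerSeries ℤ} {l₁ l₂ l₃ : List ℤ}

lemma mul_cert (hf : Cong B f (toPS l₁)) (hg : Cong B g (toPS l₂)) (h : mulT B l₁ l₂ = l₃) :
    Cong B (f * g) (toPS l₃) := by
  subst h
  refine (hf.mul hg).trans ?_
  rw [← toPS_mulL]
  exact (cong_take B _).symm

lemma add_cert (hf : Cong B f (toPS l₁)) (hg : Cong B g (toPS l₂)) (h : addT B l₁ l₂ = l₃) :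
    Cong B (f + g) (toPS l₃) := by
  subst h
  refine (hf.add hg).trans ?_
  rw [← toPS_addL]
  exact (cong_take B _).symm

lemma sub_cert (hf : Cong B f (toPS l₁)) (hg : Cong B g (toPS l₂)) (h : subT B l₁ l₂ = l₃) :
    Cong B (f - g) (toPS l₃) := by
  subst h
  refine (hf.sub hg).trans ?_
  have : toPS l₁ - toPS l₂ = toPS (addL l₁ (smulL (-1) l₂)) := by
    rw [toPS_addL, toPS_smulL]
    simp
    ring
  rw [this]
  exact (cong_take B _).symm

lemma smul_cert (c : ℤ) (hf : Cong B f (toPS l₁)) (h : smulT B c l₁ = l₃) :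
    Cong B (C c * f) (toPS l₃) := by
  subst h
  refine ((Cong.refl (C c)).mul hf).trans ?_
  rw [← toPS_smulL]
  exact (cong_take B _).symm

lemma expand_cert (e : ℕ) (hf : Cong B f (toPS l₁)) (h : expandT B e l₁ = l₃) :
    Cong B (expand (e + 1) (Nat.succ_ne_zero e) f) (toPS l₃) := by
  subst h
  refine (hf.expand (e + 1) (Nat.succ_ne_zero e)).trans ?_
  rw [← toPS_expandL]
  exact (cong_take B _).symm

lemma X_cert : Cong B (X : PowerSeries ℤ) (toPS [0, 1]) := by
  refine Cong.of_eq ?_
  simp

lemma C_cert (c : ℤ) : Cong B (C c : PowerSeries ℤ) (toPS [c]) := by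
  refine Cong.of_eq ?_
  simp

lemma one_cert : Cong B (1 : PowerSeries ℤ) (toPS [1]) := by
  refine Cong.of_eq ?_
  simp

/-- A series congruent to a list of zeros has vanishing low coefficients. -/
lemma coeff_eq_zero_of_cong (hf : Cong B f (toPS l₁)) (h : l₁.all (· == 0) = true) {n : ℕ}
    (hn : n ≤ B) : coeff n f = 0 := by
  rw [hf.coeff_eq hn, coeff_toPS]
  rw [List.all_eq_true] at h
  rcases lt_or_ge n l₁.length with hlt | hge
  · rw [List.getD_eq_getElem _ _ hlt]
    simpa using h _ (List.getElem_mem hlt)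
  · rw [List.getD_eq_default _ _ hge]

/-- Two series congruent to the same list agree in low degree. -/
lemma coeff_eq_of_cong (hf : Cong B f (toPS l₁)) (hg : Cong B g (toPS l₁)) {n : ℕ}
    (hn : n ≤ B) : coeff n f = coeff n g :=
  (hf.trans hg.symm).coeff_eq hn

end Cert

end Fermat.Agent.Lib.SeriesCompute
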