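import Mathlib
import Fermat.Prelude.Def_ModularCurve_X0
import Fermat.Agent.Lib.SeriesCompute

/-!
# Kernel-checked low-order coefficients of polynomial expressions in `E₄(q^d)` and `∏ (1 - qⁿ)`

`Ex` is a small expression language (atoms: `X`, the Euler product `etaProd`, the Eisenstein
series `eisenstein4` of the Prelude); `eval` interprets it in `ℤ⟦X⟧`, `evalL B` computes the first
`B + 1` coefficients on lists.  `coeff_eval_eq` reduces an identity of low-order coefficients to
an equality of closed list terms, which the kernel evaluates.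
-/

set_option autoImplicit false

namespace Fermat.Agent.Lib.EtaCompute

open PowerSeries ModularCurve Fermat.Agent.Lib.SeriesCompute

/-! ### The Euler product -/

open scoped PowerSeries.WithPiTopology in
lemma cong_etaProd (B : ℕ) :
    Cong B etaProd (∏ n ∈ Finset.range B, (1 - X ^ (n + 1) : PowerSeries ℤ)) := by
  refine Cong.of_coeff fun m hm => ?_
  have h1 : HasProd (fun n : ℕ => (1 - X ^ (n + 1) : PowerSeries ℤ)) etaProd :=
    (PowerSeries.WithPiTopology.multipliable_one_sub_X_pow ℤ).hasProd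
  have h2 := ((PowerSeries.WithPiTopology.continuous_coeff ℤ m).tendsto _).comp h1
  rw [nhds_discrete, Filter.tendsto_pure] at h2
  obtain ⟨s, hs, hsB⟩ := (h2.and (Filter.eventually_ge_atTop (Finset.range B))).exists
  simp only [Function.comp_apply] at hs
  rw [← hs]
  have hsB' : Finset.range B ⊆ s := hsB
  have h3 : Cong B (∏ n ∈ s \ Finset.range B, (1 - X ^ (n + 1) : PowerSeries ℤ)) 1 := by
    refine Finset.prod_induction _ (fun f => Cong B f 1) (fun a b ha hb => ?_) (Cong.refl 1)
      (fun n hn => ?_)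
    · simpa using ha.mul hb
    · have hn' : B ≤ n := by
        rw [Finset.mem_sdiff, Finset.mem_range, not_lt] at hn
        exact hn.2
      refine ⟨-X ^ (n - B), ?_⟩
      rw [mul_neg, ← pow_add]
      have : B + 1 + (n - B) = n + 1 := by omega
      rw [this]
      ring
  have h4 : Cong B (∏ n ∈ s, (1 - X ^ (n + 1) : PowerSeries ℤ))
      (∏ n ∈ Finset.range B, (1 - X ^ (n + 1) : PowerSeries ℤ)) := by
    rw [← Finset.prod_sdiff hsB']
    simpa using h3.mul (Cong.refl _)
  exact h4.coeff_eq hm

/-- The truncated partial Euler products, on lists. -/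
def etaL (B : ℕ) : ℕ → List ℤ
  | 0 => [1]
  | m + 1 => mulT B (etaL B m) (1 :: zerosL m [-1])

lemma toPS_oneSub (m : ℕ) : toPS (1 :: zerosL m [-1]) = 1 - X ^ (m + 1) := by
  rw [toPS_cons, toPS_zerosL]
  simp
  ring

lemma cong_finprod_etaL (B m : ℕ) :
    Cong B (∏ n ∈ Finset.range m, (1 - X ^ (n + 1) : PowerSeries ℤ)) (toPS (etaL B m)) := by
  induction m with
  | zero => simpa [etaL] using (Cong.refl (1 : PowerSeries ℤ))
  | succ m ih =>
    rw [Finset.prod_range_succ]
    exact mul_cert ih (Cong.of_eq (toPS_oneSub m).symm) rfl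

lemma cong_etaProd_etaL (B : ℕ) : Cong B etaProd (toPS (etaL B B)) :=
  (cong_etaProd B).trans (cong_finprod_etaL B B)

/-! ### Expressions -/

/-- Polynomial expressions in `X`, `etaProd`, `eisenstein4` and their expansions. -/
inductive Ex : Type
  | X : Ex
  | eta : Ex
  | e4 : Ex
  | c : ℤ → Ex
  | add : Ex → Ex → Ex
  | sub : Ex → Ex → Ex
  | mul : Ex → Ex → Ex
  | pow : Ex → ℕ → Ex
  | exp : ℕ → Ex → Ex

/-- Interpretation in `ℤ⟦X⟧`; `exp e a` is `a(q^(e+1))`. -/
noncomputable def eval : Ex → PowerSeries ℤ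
  | Ex.X => PowerSeries.X
  | Ex.eta => etaProd
  | Ex.e4 => eisenstein4
  | Ex.c n => C n
  | Ex.add a b => eval a + eval b
  | Ex.sub a b => eval a - eval b
  | Ex.mul a b => eval a * eval b
  | Ex.pow a n => eval a ^ n
  | Ex.exp e a => expand (e + 1) (Nat.succ_ne_zero e) (eval a)

/-- Truncated power on lists. -/
def powT (B : ℕ) (l : List ℤ) : ℕ → List ℤ
  | 0 => [1]
  | n + 1 => mulT B (powT B l n) l

/-- Evaluation on coefficient lists, truncated after degree `B`; `LE`, `L4` are the coefficient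
lists of the two atoms. -/
def evalL (B : ℕ) (LE L4 : List ℤ) : Ex → List ℤ
  | Ex.X => [0, 1]
  | Ex.eta => LE
  | Ex.e4 => L4
  | Ex.c n => [n]
  | Ex.add a b => addT B (evalL B LE L4 a) (evalL B LE L4 b)
  | Ex.sub a b => subT B (evalL B LE L4 a) (evalL B LE L4 b)
  | Ex.mul a b => mulT B (evalL B LE L4 a) (evalL B LE L4 b)
  | Ex.pow a n => powT B (evalL B LE L4 a) n
  | Ex.exp e a => expandT B e (evalL B LE L4 a)

lemma pow_cert {B : ℕ} {f : PowerSeries ℤ} {l : List ℤ} (hf : Cong B f (toPS l)) (n : ℕ) :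
    Cong B (f ^ n) (toPS (powT B l n)) := by
  induction n with
  | zero => simpa [powT] using (Cong.refl (1 : PowerSeries ℤ))
  | succ n ih =>
    rw [pow_succ]
    exact mul_cert ih hf rfl

theorem eval_cong {B : ℕ} {LE L4 : List ℤ} (hE : Cong B etaProd (toPS LE))
    (h4 : Cong B eisenstein4 (toPS L4)) (e : Ex) :
    Cong B (eval e) (toPS (evalL B LE L4 e)) := by
  induction e with
  | X => exact X_cert
  | eta => exact hE
  | e4 => exact h4
  | c n => exact C_cert n
  | add a b iha ihb => exact add_cert iha ihb rfl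
  | sub a b iha ihb => exact sub_cert iha ihb rfl
  | mul a b iha ihb => exact mul_cert iha ihb rfl
  | pow a n iha => exact pow_cert iha n
  | exp e a iha => exact expand_cert e iha rfl

/-- Two expressions with the same truncated coefficient lists agree in low degree. -/
theorem coeff_eval_eq {B : ℕ} {LE L4 : List ℤ} (hE : Cong B etaProd (toPS LE))
    (h4 : Cong B eisenstein4 (toPS L4)) (e₁ e₂ : Ex)
    (h : evalL B LE L4 e₁ = evalL B LE L4 e₂) {n : ℕ} (hn : n ≤ B) :
    coeff n (eval e₁) = coeff n (eval e₂) :=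
  coeff_eq_of_cong (eval_cong hE h4 e₁) (h ▸ eval_cong hE h4 e₂) hn

/-- Low coefficients of an expression, read off from the list. -/
theorem coeff_eval {B : ℕ} {LE L4 : List ℤ} (hE : Cong B etaProd (toPS LE))
    (h4 : Cong B eisenstein4 (toPS L4)) (e : Ex) {n : ℕ} (hn : n ≤ B) :
    coeff n (eval e) = (evalL B LE L4 e).getD n 0 := by
  rw [(eval_cong hE h4 e).coeff_eq hn, coeff_toPS]

/-! ### The atoms up to `q ^ 16` -/

/-- coefficients of `∏ (1 - qⁿ)` up to `q ^ 16` (pentagonal numbers) -/
def LE16 : List ℤ := [1, -1, -1, 0, 0, 1, 0, 1, 0, 0, 0, 0, -1, 0, 0, -1, 0]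

/-- coefficients of `E₄` up to `q ^ 16` -/
def L416 : List ℤ := [1, 240, 2160, 6720, 17520, 30240, 60480, 82560, 140400, 181680, 272160,
  319680, 490560, 527520, 743040, 846720, 1123440]

theorem cong_etaProd_16 : Cong 16 etaProd (toPS LE16) := by
  have h : etaL 16 16 = LE16 := by decide +kernel
  exact h ▸ cong_etaProd_etaL 16

theorem cong_eisenstein4_16 : Cong 16 eisenstein4 (toPS L416) := by
  refine Cong.of_coeff fun n hn => ?_
  rw [coeff_toPS, eisenstein4, coeff_mk]
  interval_cases n <;> decide +kernel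

end Fermat.Agent.Lib.EtaCompute
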