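import Mathlib

/-!
# Polynomial functions on a finite set: inverse, conductor, Cramer, Newton, products

Level-free algebra for Program FG (S19).  Author: helper59 (handover #5874); compile-fix and
landing: helper217.  `A` is a commutative ring, `S` a finite set,
`R` a subalgebra of the ring `S → A` of all `A`-valued functions on `S` (think: the
`A`-polynomial functions of finitely many coordinate functions `S → 𝔪_A`).  These lemmas replace
every power-series / completion / Krull / Nakayama argument of the S19 route by statements about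
finitely many points:

* `inv_mem` (L1): a pointwise inverse of an element of `R` lies in `R`;
  `isUnit_of_forall_isUnit`: an element of `R` which is pointwise a unit is a unit of `R`.
* `exists_delta`, `exists_conductor` (L2): if `R` separates the points of `S` and `A` is a domain,
  some `c ≠ 0` has `c • f ∈ R` for every `f : S → A`;
  `mem_of_dvd_sub`: a function which is congruent modulo `c` to an element of `R` lies in `R`.
* `cramer_mem` (L3): the solution of a square linear system over `R` with pointwise unit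
  determinant lies in `R`.
* `newton_mem` (L4): a pointwise root `z` (with values in the maximal ideal of the local ring
  `A`) of a polynomial over `R` with pointwise unit derivative lies in `R`; it is enough that
  `z` is a root modulo the conductor `c`, and that `c` divides a power of every `z s`.
* `exists_sum_mul_of_mem_adjoin` (L5): an element of the subalgebra of functions on `S₁ × S₂`
  generated by the pull-backs of `R₁` and `R₂` is a finite sum `∑ bᵢ(x) cᵢ(y)`.
* `mem_adjoin_range_iff`: `Algebra.adjoin A (range x)` is the set of polynomial functions of the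
  coordinates `x i`.
-/

set_option autoImplicit false

namespace Fermat.Agent.Lib.FinPolyFun

open Polynomial

universe u v

variable {A : Type u} [CommRing A] {S : Type v}

/-! ### (L1) inverses -/

/-- **(L1)** If `a ∈ R` and `a * b = 1` in the ring of functions on a finite set, then
`b ∈ R`. -/
theorem inv_mem [Finite S] (R : Subalgebra A (S → A)) {a b : S → A} (ha : a ∈ R)
    (hab : a * b = 1) : b ∈ R := by
  classical
  cases nonempty_fintype S
  set P : A[X] := ∏ s : S, (1 - C (b s) * X) with hP
  have hP0 : (1 - P).coeff 0 = 0 := by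
    rw [coeff_sub, coeff_one_zero, coeff_zero_eq_eval_zero, hP, eval_prod]
    simp
  have hdiv : 1 - P = divX (1 - P) * X := by
    have h := divX_mul_X_add (1 - P)
    rw [hP0, C_0, add_zero] at h
    exact h.symm
  have haP : aeval a P = 0 := by
    funext s₀
    rw [hP, map_prod, Finset.prod_apply]
    refine Finset.prod_eq_zero (Finset.mem_univ s₀) ?_
    have h1 := congrFun hab s₀
    simp only [Pi.mul_apply, Pi.one_apply] at h1
    simp only [map_sub, map_one, map_mul, aeval_C, aeval_X, Pi.sub_apply, Pi.one_apply,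
      Pi.mul_apply, Pi.algebraMap_apply, Algebra.algebraMap_self, RingHom.id_apply]
    rw [mul_comm, h1, sub_self]
  have h1 : aeval a (divX (1 - P)) * a = 1 := by
    have h := congrArg (aeval a) hdiv
    rw [map_sub, map_one, haP, sub_zero, map_mul, aeval_X] at h
    exact h.symm
  have hb : b = aeval a (divX (1 - P)) := by
    calc b = (aeval a (divX (1 - P)) * a) * b := by rw [h1, one_mul]
      _ = aeval a (divX (1 - P)) * (a * b) := by rw [mul_assoc]
      _ = aeval a (divX (1 - P)) := by rw [hab, mul_one]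
  rw [hb]
  exact Algebra.adjoin_le (Set.singleton_subset_iff.2 ha) (aeval_mem_adjoin_singleton A a)

/-- An element of `R` which is a unit at every point is a unit of `R`. -/
theorem isUnit_of_forall_isUnit [Finite S] (R : Subalgebra A (S → A)) (r : R)
    (h : ∀ s, IsUnit ((r : S → A) s)) : IsUnit r := by
  choose w hw using h
  have hab : (r : S → A) * (fun s => (((w s)⁻¹ : Aˣ) : A)) = 1 := by
    funext s
    rw [Pi.mul_apply, ← hw s, Units.mul_inv, Pi.one_apply]
  have hb : (fun s => (((w s)⁻¹ : Aˣ) : A)) ∈ R := inv_mem R r.2 hab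
  exact IsUnit.of_mul_eq_one (⟨_, hb⟩ : R) (Subtype.ext hab)

/-- The evaluation of an element of `R` at a point, as a ring homomorphism. -/
def evalAt (R : Subalgebra A (S → A)) (s : S) : R →+* A :=
  (Pi.evalRingHom (fun _ : S => A) s).comp R.val.toRingHom

@[simp]
theorem evalAt_apply (R : Subalgebra A (S → A)) (s : S) (r : R) :
    evalAt R s r = (r : S → A) s := rfl

theorem isUnit_iff_forall_isUnit [Finite S] (R : Subalgebra A (S → A)) (r : R) :
    IsUnit r ↔ ∀ s, IsUnit ((r : S → A) s) :=
  ⟨fun h s => h.map (evalAt R s), isUnit_of_forall_isUnit R r⟩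

/-! ### (L2) the conductor -/

/-- If `R` separates the points of the finite set `S` and `A` is a domain, then for every `s`
there is `e ∈ R` vanishing exactly off `s`. -/
theorem exists_delta [Finite S] [IsDomain A] (R : Subalgebra A (S → A))
    (hsep : ∀ s s' : S, s ≠ s' → ∃ f ∈ R, f s ≠ f s') (s : S) :
    ∃ e ∈ R, e s ≠ 0 ∧ ∀ s' : S, s' ≠ s → e s' = 0 := by
  classical
  cases nonempty_fintype S
  have hex : ∀ s' : S, ∃ f ∈ R, (s' ≠ s → f s ≠ 0 ∧ f s' = 0) ∧ (s' = s → f = 1) := by
    intro s'
    by_cases h : s' = s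
    · exact ⟨1, R.one_mem, fun h' => absurd h h', fun _ => rfl⟩
    · obtain ⟨f, hf, hne⟩ := hsep s s' (Ne.symm h)
      refine ⟨f - algebraMap A (S → A) (f s'), R.sub_mem hf (R.algebraMap_mem _), fun _ => ?_,
        fun h' => absurd h' h⟩
      simp only [Pi.sub_apply, Pi.algebraMap_apply, Algebra.algebraMap_self, RingHom.id_apply,
        sub_self, and_true]
      exact sub_ne_zero.2 hne
  choose f hfR hf1 hf2 using hex
  refine ⟨∏ s' : S, f s', R.prod_mem fun s' _ => hfR s', ?_, fun s' hs' => ?_⟩
  · rw [Finset.prod_apply]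
    refine Finset.prod_ne_zero_iff.2 fun s' _ => ?_
    by_cases h : s' = s
    · rw [hf2 s' h]
      exact one_ne_zero
    · exact (hf1 s' h).1
  · rw [Finset.prod_apply]
    exact Finset.prod_eq_zero (Finset.mem_univ s') (hf1 s' hs').2

/-- **(L2)** The conductor: if `R` separates the points of the finite set `S` and `A` is a
domain, there is `c ≠ 0` with `c • f ∈ R` for every function `f`. -/
theorem exists_conductor [Finite S] [IsDomain A] (R : Subalgebra A (S → A))
    (hsep : ∀ s s' : S, s ≠ s' → ∃ f ∈ R, f s ≠ f s') :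
    ∃ c : A, c ≠ 0 ∧ ∀ f : S → A, c • f ∈ R := by
  classical
  cases nonempty_fintype S
  choose e heR he0 heoff using exists_delta R hsep
  refine ⟨∏ s : S, e s s, Finset.prod_ne_zero_iff.2 fun s _ => he0 s, fun f => ?_⟩
  have hsum : (∏ s : S, e s s) • f
      = ∑ s : S, (f s * ∏ t ∈ Finset.univ.erase s, e t t) • e s := by
    funext s₀
    rw [Finset.sum_apply, Pi.smul_apply, smul_eq_mul]
    rw [Finset.sum_eq_single s₀]
    · rw [Pi.smul_apply, smul_eq_mul, mul_assoc, mul_comm (f s₀),
        Finset.prod_erase_mul _ _ (Finset.mem_univ s₀)]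
    · intro s _ hs
      rw [Pi.smul_apply, heoff s s₀ (Ne.symm hs), smul_zero]
    · intro h
      exact absurd (Finset.mem_univ s₀) h
  rw [hsum]
  exact R.sum_mem fun s _ => R.smul_mem (heR s) _

/-- A function congruent modulo the conductor to an element of `R` lies in `R`. -/
theorem mem_of_dvd_sub (R : Subalgebra A (S → A)) {c : A} (hc : ∀ f : S → A, c • f ∈ R)
    {b r : S → A} (hr : r ∈ R) (h : ∀ s, c ∣ b s - r s) : b ∈ R := by
  choose q hq using h
  have hb : b = r + c • q := by
    funext s
    rw [Pi.add_apply, Pi.smul_apply, smul_eq_mul, ← hq s]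
    ring
  rw [hb]
  exact R.add_mem hr (hc q)

/-! ### (L3) Cramer -/

/-- **(L3)** The solution of a square linear system with coefficients in `R` whose determinant
is a unit at every point has its coordinates in `R`. -/
theorem cramer_mem [Finite S] {n : Type*} [Fintype n] [DecidableEq n]
    (R : Subalgebra A (S → A)) (M : Matrix n n (S → A)) (hM : ∀ i j, M i j ∈ R)
    (w x : n → S → A) (hw : ∀ i, w i ∈ R) (hdet : ∀ s, IsUnit (M.det s))
    (hMx : M.mulVec x = w) (i : n) : x i ∈ R := by
  classical
  let M' : Matrix n n R := fun i j => ⟨M i j, hM i j⟩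
  have hMM' : R.val.toRingHom.mapMatrix M' = M := by
    ext i j
    rfl
  have hdetR : M.det ∈ R := by
    rw [← hMM', ← RingHom.map_det]
    exact (M'.det).2
  have hadjR : ∀ i j, M.adjugate i j ∈ R := by
    intro i j
    rw [← hMM', ← RingHom.map_adjugate]
    exact (M'.adjugate i j).2
  -- `det M • x = adjugate M *ᵥ w`
  have h1 : M.det • x = M.adjugate.mulVec w := by
    rw [← hMx, Matrix.mulVec_mulVec, Matrix.adjugate_mul, Matrix.smul_mulVec, Matrix.one_mulVec]
  have h2 : M.det * x i ∈ R := by
    have h3 := congrFun h1 i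
    rw [Pi.smul_apply, smul_eq_mul] at h3
    rw [h3]
    exact R.sum_mem fun j _ => R.mul_mem (hadjR i j) (hw j)
  obtain ⟨d, hd⟩ := isUnit_of_forall_isUnit R ⟨M.det, hdetR⟩ hdet
  have h4 : ((↑d⁻¹ : R) : S → A) * M.det = 1 := by
    have h5 : (↑d⁻¹ : R) * (d : R) = 1 := Units.inv_mul d
    rw [hd] at h5
    exact congrArg Subtype.val h5
  have h6 : x i = ((↑d⁻¹ : R) : S → A) * (M.det * x i) := by
    rw [← mul_assoc, h4, one_mul]
  rw [h6]
  exact R.mul_mem (↑d⁻¹ : R).2 h2

/-! ### (L4) Newton -/

section Newton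

variable [IsLocalRing A]

omit [IsLocalRing A] in
/-- Evaluation commutes with evaluation at a point. -/
theorem evalAt_eval (R : Subalgebra A (S → A)) (s : S) (F : R[X]) (r : R) :
    evalAt R s (F.eval r) = (F.map (evalAt R s)).eval ((r : S → A) s) := by
  rw [← evalAt_apply R s r, eval_map_apply]

/-- **(L4)** Newton's method inside `R`.  Let `c` be a conductor of `R`, `z : S → A` a function
with values in the maximal ideal such that `c` divides a power of every `z s`, and `F` a
polynomial over `R` such that, at every point `s`, `z s` is a root of `F` modulo `c` at which the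
derivative of `F` is a unit.  Then `z ∈ R`. -/
theorem newton_mem [Finite S] (R : Subalgebra A (S → A)) {c : A}
    (hc : ∀ f : S → A, c • f ∈ R) (z : S → A) (hz : ∀ s, z s ∈ IsLocalRing.maximalIdeal A)
    {m : ℕ} (hpow : ∀ s, c ∣ z s ^ m) (F : R[X])
    (hroot : ∀ s, c ∣ (F.map (evalAt R s)).eval (z s))
    (hder : ∀ s, IsUnit ((F.derivative.map (evalAt R s)).eval (z s))) : z ∈ R := by
  by_cases hcu : IsUnit c
  · -- then `R` is everything
    obtain ⟨d, rfl⟩ := hcu
    have h := hc (fun s => (↑d⁻¹ : A) * z s)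
    have e : (d : A) • (fun s => (↑d⁻¹ : A) * z s) = z := by
      funext s
      rw [Pi.smul_apply, smul_eq_mul, ← mul_assoc, Units.mul_inv, one_mul]
    rwa [e] at h
  have hcm : c ∈ IsLocalRing.maximalIdeal A := (IsLocalRing.mem_maximalIdeal c).2 hcu
  -- the Newton iterates
  have key : ∀ k : ℕ, ∃ r ∈ R, ∀ s, ∃ p q : A, z s - r s = c * p + z s ^ (2 ^ k) * q := by
    intro k
    induction k with
    | zero =>
      refine ⟨0, R.zero_mem, fun s => ⟨0, 1, ?_⟩⟩
      simp
    | succ k ih =>
      obtain ⟨r, hr, hrs⟩ := ih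
      choose p q hpq using hrs
      -- `z - r` has values in the maximal ideal
      have hy : ∀ s, z s - r s ∈ IsLocalRing.maximalIdeal A := by
        intro s
        rw [hpq s]
        refine Ideal.add_mem _ (Ideal.mul_mem_right _ _ hcm) (Ideal.mul_mem_right _ _ ?_)
        exact Ideal.pow_mem_of_mem _ (hz s) _ (by positivity)
      -- the derivative at `r` is a unit of `R`
      have hDu : IsUnit (F.derivative.eval (⟨r, hr⟩ : R)) := by
        refine isUnit_of_forall_isUnit R _ fun s => ?_
        have h1 : ((F.derivative.eval (⟨r, hr⟩ : R) : R) : S → A) s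
            = (F.derivative.map (evalAt R s)).eval (r s) := evalAt_eval R s F.derivative ⟨r, hr⟩
        rw [h1]
        by_contra hnu
        have h2 : (F.derivative.map (evalAt R s)).eval (r s) ∈ IsLocalRing.maximalIdeal A :=
          (IsLocalRing.mem_maximalIdeal _).2 hnu
        have h3 : (F.derivative.map (evalAt R s)).eval (z s)
            - (F.derivative.map (evalAt R s)).eval (r s) ∈ IsLocalRing.maximalIdeal A := by
          obtain ⟨t, ht⟩ := sub_dvd_eval_sub (z s) (r s) (F.derivative.map (evalAt R s))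
          rw [ht]
          exact Ideal.mul_mem_right _ _ (hy s)
        have h4 := Ideal.add_mem _ h3 h2
        rw [sub_add_cancel] at h4
        exact (IsLocalRing.mem_maximalIdeal _).1 h4 (hder s)
      obtain ⟨D, hD⟩ := hDu
      refine ⟨((⟨r, hr⟩ : R) - F.eval (⟨r, hr⟩ : R) * (↑D⁻¹ : R) : R), Subtype.property _,
        fun s => ?_⟩
      -- pointwise computation
      obtain ⟨e, he⟩ := hroot s
      set f : A[X] := F.map (evalAt R s) with hf
      obtain ⟨κ, hκ⟩ := binomExpansion f (r s) (z s - r s)
      rw [add_sub_cancel, he] at hκ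
      set δ : A := ((↑D⁻¹ : R) : S → A) s with hδ
      have hfd : eval (r s) (derivative f) * δ = 1 := by
        have h5 : (D : R) * (↑D⁻¹ : R) = 1 := Units.mul_inv D
        rw [hD] at h5
        have h6 := congrArg (evalAt R s) h5
        rw [map_mul, map_one, evalAt_eval, evalAt_apply, ← derivative_map] at h6
        exact h6
      have hfx : ((F.eval (⟨r, hr⟩ : R) : R) : S → A) s = eval (r s) f := evalAt_eval R s F ⟨r, hr⟩
      refine ⟨e * δ - κ * δ * (c * p s ^ 2 + 2 * p s * z s ^ (2 ^ k) * q s),
        - κ * δ * q s ^ 2, ?_⟩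
      have hval : ((((⟨r, hr⟩ : R) - F.eval (⟨r, hr⟩ : R) * (↑D⁻¹ : R) : R) : S → A)) s
          = r s - eval (r s) f * δ := by
        show r s - ((F.eval (⟨r, hr⟩ : R) : R) : S → A) s * δ = _
        rw [hfx]
      rw [hval]
      have hy2 := hpq s
      have hpow2 : z s ^ (2 ^ (k + 1)) = (z s ^ (2 ^ k)) ^ 2 := by
        rw [← pow_mul, pow_succ]
      rw [hpow2]
      linear_combination (-δ) * hκ
        - κ * δ * ((z s - r s) + (c * p s + z s ^ 2 ^ k * q s)) * hy2 - (z s - r s) * hfd
  -- conclude with the conductor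
  obtain ⟨k, hk⟩ : ∃ k : ℕ, m ≤ 2 ^ k := ⟨m, Nat.lt_two_pow_self.le⟩
  obtain ⟨r, hr, hrs⟩ := key k
  refine mem_of_dvd_sub R hc hr fun s => ?_
  obtain ⟨p, q, hpq⟩ := hrs s
  rw [hpq]
  exact dvd_add (Dvd.intro _ rfl) (Dvd.dvd.mul_right ((hpow s).trans (pow_dvd_pow _ hk)) _)

end Newton

/-! ### (L5) products -/

/-- The set of functions on `S₁ × S₂` of the form `∑ᵢ bᵢ(x) cᵢ(y)` with `bᵢ ∈ R₁`, `cᵢ ∈ R₂`. -/
def IsSumMul {S₁ S₂ : Type*} (R₁ : Subalgebra A (S₁ → A)) (R₂ : Subalgebra A (S₂ → A))
    (f : S₁ × S₂ → A) : Prop :=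
  ∃ (n : ℕ) (b : Fin n → S₁ → A) (c : Fin n → S₂ → A), (∀ i, b i ∈ R₁) ∧ (∀ i, c i ∈ R₂) ∧
    ∀ x y, f (x, y) = ∑ i, b i x * c i y

section Prod

variable {S₁ S₂ : Type*} (R₁ : Subalgebra A (S₁ → A)) (R₂ : Subalgebra A (S₂ → A))

theorem IsSumMul.add {f g : S₁ × S₂ → A} (hf : IsSumMul R₁ R₂ f) (hg : IsSumMul R₁ R₂ g) :
    IsSumMul R₁ R₂ (f + g) := by
  obtain ⟨n, b, c, hb, hc, hf⟩ := hf
  obtain ⟨n', b', c', hb', hc', hg⟩ := hg
  refine ⟨n + n', Fin.append b b', Fin.append c c', ?_, ?_, fun x y => ?_⟩
  · intro i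
    induction i using Fin.addCases with
    | left i => rw [Fin.append_left]; exact hb i
    | right i => rw [Fin.append_right]; exact hb' i
  · intro i
    induction i using Fin.addCases with
    | left i => rw [Fin.append_left]; exact hc i
    | right i => rw [Fin.append_right]; exact hc' i
  · rw [Pi.add_apply, hf, hg, Fin.sum_univ_add]
    simp only [Fin.append_left, Fin.append_right]

theorem IsSumMul.mul {f g : S₁ × S₂ → A} (hf : IsSumMul R₁ R₂ f) (hg : IsSumMul R₁ R₂ g) :
    IsSumMul R₁ R₂ (f * g) := by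
  obtain ⟨n, b, c, hb, hc, hf⟩ := hf
  obtain ⟨n', b', c', hb', hc', hg⟩ := hg
  refine ⟨n * n', fun i => b (finProdFinEquiv.symm i).1 * b' (finProdFinEquiv.symm i).2,
    fun i => c (finProdFinEquiv.symm i).1 * c' (finProdFinEquiv.symm i).2,
    fun i => R₁.mul_mem (hb _) (hb' _), fun i => R₂.mul_mem (hc _) (hc' _), fun x y => ?_⟩
  rw [Pi.mul_apply, hf, hg, Finset.sum_mul_sum, ← Finset.sum_product', Finset.univ_product_univ,
    ← Equiv.sum_comp finProdFinEquiv.symm]
  refine Finset.sum_congr rfl fun i _ => ?_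
  simp only [Pi.mul_apply]
  ring

theorem IsSumMul.fst {a : S₁ → A} (ha : a ∈ R₁) : IsSumMul R₁ R₂ (fun p => a p.1) :=
  ⟨1, fun _ => a, fun _ => 1, fun _ => ha, fun _ => R₂.one_mem, fun x y => by simp⟩

theorem IsSumMul.snd {a : S₂ → A} (ha : a ∈ R₂) : IsSumMul R₁ R₂ (fun p => a p.2) :=
  ⟨1, fun _ => 1, fun _ => a, fun _ => R₁.one_mem, fun _ => ha, fun x y => by simp⟩

/-- **(L5)** Every element of the subalgebra of functions on `S₁ × S₂` generated by the
pull-backs of `R₁` and `R₂` is a finite sum of products `b(x) c(y)`, `b ∈ R₁`, `c ∈ R₂`. -/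
theorem exists_sum_mul_of_mem_adjoin {f : S₁ × S₂ → A}
    (hf : f ∈ Algebra.adjoin A ({g : S₁ × S₂ → A | ∃ a ∈ R₁, g = fun p => a p.1} ∪
      {g : S₁ × S₂ → A | ∃ a ∈ R₂, g = fun p => a p.2})) : IsSumMul R₁ R₂ f := by
  induction hf using Algebra.adjoin_induction with
  | mem g hg =>
    rcases hg with ⟨a, ha, rfl⟩ | ⟨a, ha, rfl⟩
    · exact IsSumMul.fst R₁ R₂ ha
    · exact IsSumMul.snd R₁ R₂ ha
  | algebraMap r =>
    have h := IsSumMul.fst R₁ R₂ (R₁.algebraMap_mem r)
    exact h
  | add g g' _ _ hg hg' => exact hg.add R₁ R₂ hg'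
  | mul g g' _ _ hg hg' => exact hg.mul R₁ R₂ hg'

end Prod

/-! ### polynomial functions of coordinates -/

/-- `Algebra.adjoin A (range x)` is the set of `A`-polynomial functions of the coordinate
functions `x i : S → A`. -/
theorem mem_adjoin_range_iff {ι : Type*} (x : ι → S → A) (f : S → A) :
    f ∈ Algebra.adjoin A (Set.range x) ↔
      ∃ P : MvPolynomial ι A, ∀ s, f s = MvPolynomial.eval (fun i => x i s) P := by
  rw [Algebra.adjoin_range_eq_range_aeval]
  have key : ∀ (P : MvPolynomial ι A) (s : S),
      MvPolynomial.aeval x P s = MvPolynomial.eval (fun i => x i s) P := by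
    intro P s
    have h := MvPolynomial.comp_aeval (R := A) (f := x) (Pi.evalAlgHom A (fun _ : S => A) s)
    have h2 := congrArg (fun φ : MvPolynomial ι A →ₐ[A] A => φ P) h
    simp only [AlgHom.comp_apply, Pi.evalAlgHom_apply] at h2
    rw [h2, MvPolynomial.aeval_def, MvPolynomial.eval₂_eq_eval_map]
    simp
  constructor
  · rintro ⟨P, rfl⟩
    exact ⟨P, fun s => key P s⟩
  · rintro ⟨P, hP⟩
    exact ⟨P, funext fun s => (key P s).trans (hP s).symm⟩

end Fermat.Agent.Lib.FinPolyFun
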