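/-
Finite ramification in the Prelude's language (helper228, PROGRAM CFT / S55).

* `exists_finset_forall_inertia_fixes` : an algebraic integer `x` of `ℚ̄` is fixed by every inertia
  group `I_A` (`A` a valuation subring of `ℚ̄` over a prime `q`) for all but finitely many `q`.
* `exists_finset_isUnramifiedOutside` : every finite extension `F` of `ℚ` inside `ℚ̄` is
  unramified outside a FINITE set of primes (`IntermediateField.IsUnramifiedOutside`).
* `exists_superset_isUnramifiedOutside` : the finite set can be taken to contain a given one.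
* `exists_isLevelConstantS₁`, `exists_isLevelConstantS₂` : a full-level cochain of `Gal(ℚ̄/ℚ)` is a
  level-`S'` cochain for some finite `S' ⊇ S`.

Proof of the first statement (no discriminants): `f = minpoly ℤ x`, `γ = f'(x) ≠ 0`,
`c₀ =` constant coefficient of `minpoly ℤ γ` (`≠ 0`, and `γ ∣ c₀` among algebraic integers).
If `σ ∈ I_A` moves `x`, then `0 = f(σ x) - f(x) = (σ x - x)(γ + k (σ x - x))` with `k ∈ A`, so `γ`
is a non-unit of `A`, hence so is `c₀`, hence `q ∣ c₀`.
-/
import Mathlib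
import Fermat.Prelude.Def_GroupCohomology_ContinuousUnramified
import Fermat.Agent.Lib.InertiaBridge
import Fermat.Agent.Lib.ValFrac

set_option autoImplicit false

namespace Fermat.Agent.Lib.FiniteRamification

open Polynomial groupCohomology

local notation "Qb" => AlgebraicClosure ℚ
local notation "Gq" => (AlgebraicClosure ℚ ≃ₐ[ℚ] AlgebraicClosure ℚ)

/-- Algebraic integers lie in every valuation subring. -/
theorem mem_of_isIntegral_int (A : ValuationSubring Qb) {a : Qb}
    (ha : IsIntegral ℤ a) : a ∈ A := by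
  have h : IsIntegral A a := ha.tower_top
  obtain ⟨y, rfl⟩ := IsIntegrallyClosedIn.isIntegral_iff.mp h
  exact y.2

/-- Polynomial expressions with integer coefficients in an algebraic integer are algebraic
integers. -/
theorem isIntegral_aeval {x : Qb} (hx : IsIntegral ℤ x) (g : ℤ[X]) :
    IsIntegral ℤ (aeval x g) := by
  have h1 : aeval x g ∈ Algebra.adjoin ℤ {x} := aeval_mem_adjoin_singleton ℤ x
  have h2 : Algebra.adjoin ℤ {x} ≤ integralClosure ℤ Qb :=
    Algebra.adjoin_le (Set.singleton_subset_iff.2 hx)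
  exact h2 h1

/-- Evaluation of an integer polynomial at a point of a valuation subring, computed in the
subring. -/
theorem coe_eval_map (A : ValuationSubring Qb) (g : ℤ[X]) (z : A) :
    (((g.map (Int.castRingHom A)).eval z : A) : Qb) = aeval (z : Qb) g := by
  rw [eval_map, aeval_def]
  have h := hom_eval₂ g (Int.castRingHom A) A.subtype z
  have hc : A.subtype.comp (Int.castRingHom A) = algebraMap ℤ Qb := RingHom.ext_int _ _
  rw [hc] at h
  exact h

/-- Ring endomorphisms commute with evaluation of integer polynomials. -/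
theorem aeval_ringHom (σ : Qb →+* Qb) (g : ℤ[X]) (x : Qb) :
    aeval (σ x) g = σ (aeval x g) := by
  rw [aeval_def, aeval_def]
  have h := hom_eval₂ g (algebraMap ℤ Qb) σ x
  have hc : σ.comp (algebraMap ℤ Qb) = algebraMap ℤ Qb := RingHom.ext_int _ _
  rw [hc] at h
  exact h.symm

/-- **Key step.** If an automorphism in the inertia group of `A` moves the algebraic integer `x`,
then `f'(x)` is a non-unit of `A`, `f` the minimal polynomial of `x` over `ℤ`. -/
theorem derivative_mem_nonunits (A : ValuationSubring Qb) (σ : Gq)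
    (hσ : σ ∈ A.inertiaSubgroupIn ℚ) {x : Qb} (hx : IsIntegral ℤ x) (hne : σ x ≠ x) :
    aeval x (derivative (minpoly ℤ x)) ∈ A.nonunits := by
  set f : ℤ[X] := minpoly ℤ x with hf
  have hxA : x ∈ A := mem_of_isIntegral_int A hx
  have hδ : σ x - x ∈ A.nonunits :=
    Fermat.Agent.Lib.InertiaBridge.sub_mem_of_mem_inertiaSubgroupIn A σ hσ x hxA
  have hδA : σ x - x ∈ A := A.nonunits_subset hδ
  have hδ0 : σ x - x ≠ 0 := sub_ne_zero.2 hne
  obtain ⟨k, hk⟩ := binomExpansion (f.map (Int.castRingHom A)) (⟨x, hxA⟩ : A) ⟨σ x - x, hδA⟩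
  have hk' : (((eval ((⟨x, hxA⟩ : A) + ⟨σ x - x, hδA⟩) (f.map (Int.castRingHom A))) : A) : Qb)
      = ((eval (⟨x, hxA⟩ : A) (f.map (Int.castRingHom A)) +
      eval (⟨x, hxA⟩ : A) (derivative (f.map (Int.castRingHom A))) * ⟨σ x - x, hδA⟩ +
      k * (⟨σ x - x, hδA⟩ : A) ^ 2 : A) : Qb) := congrArg (fun a : A => (a : Qb)) hk
  have e1 : (((⟨x, hxA⟩ : A) + ⟨σ x - x, hδA⟩ : A) : Qb) = σ x := by
    change x + (σ x - x) = σ x
    ring
  rw [coe_eval_map, e1] at hk'
  have e2 : ((eval (⟨x, hxA⟩ : A) (f.map (Int.castRingHom A)) +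
      eval (⟨x, hxA⟩ : A) (derivative (f.map (Int.castRingHom A))) * ⟨σ x - x, hδA⟩ +
      k * (⟨σ x - x, hδA⟩ : A) ^ 2 : A) : Qb)
      = aeval x f + aeval x (derivative f) * (σ x - x) + (k : Qb) * (σ x - x) ^ 2 := by
    have h1 := coe_eval_map A f (⟨x, hxA⟩ : A)
    have h2 := coe_eval_map A (derivative f) (⟨x, hxA⟩ : A)
    rw [← derivative_map] at h2
    push_cast
    rw [h1, h2]
  rw [e2] at hk'
  have hfx : aeval x f = 0 := minpoly.aeval ℤ x
  have hfσ : aeval (σ x) f = 0 := by
    have h4 : aeval (σ x) f = σ (aeval x f) := aeval_ringHom (σ : Qb →+* Qb) f x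
    rw [h4, hfx, map_zero]
  rw [hfσ, hfx, zero_add] at hk'
  have hγ : aeval x (derivative f) = -((k : Qb) * (σ x - x)) := by
    have h3 : (σ x - x) * (aeval x (derivative f) + (k : Qb) * (σ x - x)) = 0 := by
      rw [hk']; ring
    rcases mul_eq_zero.1 h3 with h | h
    · exact absurd h hδ0
    · exact eq_neg_of_add_eq_zero_left h
  rw [hγ, A.mem_nonunits_iff, Valuation.map_neg, map_mul]
  have hkv : A.valuation (k : Qb) ≤ 1 := (A.valuation_le_one_iff _).2 k.2
  have hδv : A.valuation (σ x - x) < 1 := A.mem_nonunits_iff.1 hδ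
  calc A.valuation (k : Qb) * A.valuation (σ x - x) ≤ 1 * A.valuation (σ x - x) := by
        gcongr
    _ < 1 := by rw [one_mul]; exact hδv

/-- An algebraic integer is fixed by all inertia groups above all but finitely many primes. -/
theorem exists_finset_forall_inertia_fixes (x : Qb) (hx : IsIntegral ℤ x) :
    ∃ T : Finset Nat.Primes, ∀ q : Nat.Primes, q ∉ T → ∀ A : ValuationSubring Qb,
      A.LiesOverPrime (q : ℕ) → ∀ σ ∈ A.inertiaSubgroupIn ℚ, σ x = x := by
  classical
  set f : ℤ[X] := minpoly ℤ x with hf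
  set γ : Qb := aeval x (derivative f) with hγ
  have hxQ : IsIntegral ℚ x := hx.tower_top
  -- `γ ≠ 0` by separability
  have hγ0 : γ ≠ 0 := by
    have hsep : (minpoly ℚ x).Separable := (minpoly.irreducible hxQ).separable
    have h1 := hsep.aeval_derivative_ne_zero (minpoly.aeval ℚ x)
    rw [minpoly.isIntegrallyClosed_eq_field_fractions' ℚ hx, derivative_map,
      aeval_map_algebraMap] at h1
    exact h1
  have hγint : IsIntegral ℤ γ := isIntegral_aeval hx _
  set m : ℤ[X] := minpoly ℤ γ with hm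
  set c₀ : ℤ := m.coeff 0 with hc₀
  have hc₀0 : c₀ ≠ 0 := by
    have h1 := minpoly.coeff_zero_ne_zero (hγint.tower_top : IsIntegral ℚ γ) hγ0
    rw [minpoly.isIntegrallyClosed_eq_field_fractions' ℚ hγint, coeff_map] at h1
    intro h0
    apply h1
    rw [← hm, ← hc₀, h0, map_zero]
  -- `c₀ = -(γ * β)` with `β` an algebraic integer
  set β : Qb := aeval γ m.divX with hβ
  have hβint : IsIntegral ℤ β := isIntegral_aeval hγint _
  have hc₀γ : (c₀ : Qb) = -(γ * β) := by
    have h1 : aeval γ m = 0 := minpoly.aeval ℤ γ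
    rw [← divX_mul_X_add m, map_add, map_mul, aeval_X, aeval_C, ← hβ, ← hc₀] at h1
    have h2 : algebraMap ℤ Qb c₀ = (c₀ : Qb) := rfl
    rw [h2] at h1
    linear_combination h1
  refine ⟨c₀.natAbs.primeFactors.attach.image
    (fun n => (⟨n.1, Nat.prime_of_mem_primeFactors n.2⟩ : Nat.Primes)), fun q hq A hA σ hσ => ?_⟩
  by_contra hne
  have hγn : γ ∈ A.nonunits := derivative_mem_nonunits A σ hσ hx hne
  have hndvd : ¬ ((q : ℕ) : ℤ) ∣ c₀ := by
    intro hdvd
    apply hq
    have hmem : (q : ℕ) ∈ c₀.natAbs.primeFactors :=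
      Nat.mem_primeFactors.2 ⟨q.2, Int.natCast_dvd.1 hdvd, Int.natAbs_ne_zero.2 hc₀0⟩
    exact Finset.mem_image.2 ⟨⟨(q : ℕ), hmem⟩, Finset.mem_attach _ _, Subtype.ext rfl⟩
  have h1 : A.valuation (c₀ : Qb) = 1 :=
    Fermat.Agent.Lib.ValFrac.valuation_intCast_eq_one A (q : ℕ) q.2 hA c₀ hndvd
  have h2 : A.valuation (c₀ : Qb) < 1 := by
    rw [hc₀γ, Valuation.map_neg, map_mul]
    have hβv : A.valuation β ≤ 1 := (A.valuation_le_one_iff _).2 (mem_of_isIntegral_int A hβint)
    have hγv : A.valuation γ < 1 := A.mem_nonunits_iff.1 hγn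
    calc A.valuation γ * A.valuation β ≤ A.valuation γ * 1 := by gcongr
      _ < 1 := by rw [mul_one]; exact hγv
  rw [h1] at h2
  exact lt_irrefl _ h2

/-- Every element of `ℚ̄` is fixed by all inertia groups above all but finitely many primes. -/
theorem exists_finset_forall_inertia_fixes' (x : Qb) :
    ∃ T : Finset Nat.Primes, ∀ q : Nat.Primes, q ∉ T → ∀ A : ValuationSubring Qb,
      A.LiesOverPrime (q : ℕ) → ∀ σ ∈ A.inertiaSubgroupIn ℚ, σ x = x := by
  have halgQ : IsAlgebraic ℚ x := (AlgebraicClosure.isAlgebraic ℚ).isAlgebraic x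
  have halg : IsAlgebraic ℤ x := (IsFractionRing.isAlgebraic_iff ℤ ℚ Qb).mpr halgQ
  obtain ⟨n, hn0, hint⟩ := halg.exists_integral_multiple
  obtain ⟨T, hT⟩ := exists_finset_forall_inertia_fixes (n • x) hint
  refine ⟨T, fun q hq A hA σ hσ => ?_⟩
  have h := hT q hq A hA σ hσ
  rw [zsmul_eq_mul, map_mul, map_intCast] at h
  have hn : ((n : ℤ) : Qb) ≠ 0 := Int.cast_ne_zero.2 hn0
  exact mul_left_cancel₀ hn h

/-- **Finite ramification.** A finite extension of `ℚ` inside `ℚ̄` is unramified outside a finite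
set of primes. -/
theorem exists_finset_isUnramifiedOutside (F : IntermediateField ℚ Qb) [FiniteDimensional ℚ F] :
    ∃ T : Finset Nat.Primes, F.IsUnramifiedOutside T := by
  classical
  let b := Module.finBasis ℚ F
  choose T hT using fun i => exists_finset_forall_inertia_fixes' ((b i : F) : Qb)
  refine ⟨Finset.univ.biUnion T, inferInstance, fun q hq A hA σ hσ => ?_⟩
  have hqT : ∀ i, q ∉ T i := fun i hi => hq (Finset.mem_biUnion.2 ⟨i, Finset.mem_univ i, hi⟩)
  rw [IntermediateField.mem_fixingSubgroup_iff]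
  intro y hy
  have hrepr := b.sum_repr (⟨y, hy⟩ : F)
  have hy' : y = ∑ i, (b.repr ⟨y, hy⟩ i) • ((b i : F) : Qb) := by
    have := congrArg (fun z : F => (z : Qb)) hrepr
    simp only [AddSubmonoidClass.coe_finsetSum, IntermediateField.coe_smul] at this
    exact this.symm
  rw [hy', map_sum]
  refine Finset.sum_congr rfl fun i _ => ?_
  rw [Algebra.smul_def, map_mul, AlgEquiv.commutes, hT i q (hqT i) A hA σ hσ]

/-- The finite set can be chosen to contain a given finite set. -/
theorem exists_superset_isUnramifiedOutside (S : Finset Nat.Primes)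
    (F : IntermediateField ℚ Qb) [FiniteDimensional ℚ F] :
    ∃ S' : Finset Nat.Primes, S ⊆ S' ∧ F.IsUnramifiedOutside S' := by
  classical
  obtain ⟨T, hT⟩ := exists_finset_isUnramifiedOutside F
  exact ⟨S ∪ T, Finset.subset_union_left, hT.mono Finset.subset_union_right⟩

/-- A full-level 1-cochain of `Gal(ℚ̄/ℚ)` is a level-`S'` cochain for some finite `S' ⊇ S`. -/
theorem exists_isLevelConstantS₁ (S : Finset Nat.Primes) {X : Type*} {f : Gq → X}
    (hf : IsLevelConstant₁ (MonoidHom.id Gq) f) :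
    ∃ S' : Finset Nat.Primes, S ⊆ S' ∧ IsLevelConstantS₁ S' f := by
  obtain ⟨F, hF, h⟩ := hf
  have := hF
  obtain ⟨S', hS, hS'⟩ := exists_superset_isUnramifiedOutside S F
  exact ⟨S', hS, F, hS', fun g s hs => h g s hs⟩

/-- A full-level 2-cochain of `Gal(ℚ̄/ℚ)` is a level-`S'` cochain for some finite `S' ⊇ S`. -/
theorem exists_isLevelConstantS₂ (S : Finset Nat.Primes) {X : Type*} {f : Gq × Gq → X}
    (hf : IsLevelConstant₂ (MonoidHom.id Gq) f) :
    ∃ S' : Finset Nat.Primes, S ⊆ S' ∧ IsLevelConstantS₂ S' f := by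
  obtain ⟨F, hF, h⟩ := hf
  have := hF
  obtain ⟨S', hS, hS'⟩ := exists_superset_isUnramifiedOutside S F
  exact ⟨S', hS, F, hS', fun g g' s s' hs hs' => h g g' s s' hs hs'⟩

end Fermat.Agent.Lib.FiniteRamification
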