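import Mathlib
import Fermat.Agent.Lib.DescentSubfieldFin

/-!
# The field fixed by the elements of `I` fixing `b` is `K(b)`, `K` fixed by `I`

Companion of `Lib/DescentSubfieldFin`.  Let `I` be ANY subgroup of `Gal(ℚ̄/ℚ)` (no closedness)
and `b ∈ ℚ̄`.  A number field `K₁` fixed pointwise by the subgroup `{τ ∈ I | τ b = b}` is
contained in `K(b)` for a number field `K` fixed pointwise by all of `I`
(`exists_numberField_sup_adjoin`; Artin's theorem in a finite Galois extension containing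
`K₁` and `b`).  Consequently a `FinCoeff` series fixed coefficientwise by `{τ ∈ I | τ b = b}`
is defined over such a `K(b)` (`exists_numberField_adjoin_of_fixed`).
-/

set_option autoImplicit false

noncomputable section

namespace Fermat.Agent.Lib.DescentSubfield

open HahnSeries ModularCurve AlgebraicCurve
open Fermat.Agent.S30 Fermat.Agent.S30.E4 Fermat.Agent.S36.Descent

local notation "Qb" => AlgebraicClosure ℚ
local notation "Gq" => (AlgebraicClosure ℚ ≃ₐ[ℚ] AlgebraicClosure ℚ)
local notation "LS" => LaurentSeries (AlgebraicClosure ℚ)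

/-- **`ℚ̄^{I ∩ Stab b} = ℚ̄^I (b)` at number-field level.**  If the number field `K₁` is fixed
pointwise by every `τ ∈ I` with `τ b = b`, then `K₁ ⊆ K(b)` for a number field `K` fixed
pointwise by `I`, which may be taken to contain a given number field `K₀` fixed by `I`. -/
theorem exists_numberField_sup_adjoin (I : Subgroup Gq) (b : Qb)
    (K₀ K₁ : IntermediateField ℚ Qb) (hK₀fin : FiniteDimensional ℚ K₀)
    (hK₁fin : FiniteDimensional ℚ K₁) (hK₀ : ∀ τ ∈ I, ∀ y ∈ K₀, τ y = y)
    (hK₁ : ∀ τ ∈ I, τ b = b → ∀ y ∈ K₁, τ y = y) :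
    ∃ K : IntermediateField ℚ Qb, FiniteDimensional ℚ K ∧ K₀ ≤ K ∧
      (∀ τ ∈ I, ∀ y ∈ K, τ y = y) ∧ K₁ ≤ K ⊔ IntermediateField.adjoin ℚ {b} := by
  classical
  -- a finite Galois extension `L / ℚ` containing `K₀`, `K₁` and `b`
  have hbint : IsIntegral ℚ b := (GaussDescent.isAlgebraic_rat_Qb.isAlgebraic b).isIntegral
  have hbfin : FiniteDimensional ℚ (IntermediateField.adjoin ℚ ({b} : Set Qb)) :=
    IntermediateField.adjoin.finiteDimensional hbint
  have h01 : FiniteDimensional ℚ (K₀ ⊔ K₁ : IntermediateField ℚ Qb) :=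
    IntermediateField.finiteDimensional_sup K₀ K₁
  set F : IntermediateField ℚ Qb := K₀ ⊔ K₁ ⊔ IntermediateField.adjoin ℚ {b} with hF
  have hFfin : FiniteDimensional ℚ F := IntermediateField.finiteDimensional_sup (K₀ ⊔ K₁) _
  obtain ⟨L, hFL, hLfin, hLgal⟩ : ∃ L : IntermediateField ℚ Qb,
      F ≤ L ∧ FiniteDimensional ℚ L ∧ IsGalois ℚ L := by
    have halg := GaussDescent.isAlgebraic_rat_Qb
    have hcl : IsAlgClosure ℚ Qb := ⟨inferInstance, GaussDescent.isAlgebraic_rat_Qb⟩
    have hgal : IsGalois ℚ Qb := inferInstance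
    have hn : Normal ℚ Qb := inferInstance
    have hn2 : Normal ℚ (IntermediateField.normalClosure ℚ F Qb) := normalClosure.normal ℚ F Qb
    have hs : Algebra.IsSeparable ℚ (IntermediateField.normalClosure ℚ F Qb) := inferInstance
    exact ⟨IntermediateField.normalClosure ℚ F Qb, IntermediateField.le_normalClosure F,
      inferInstance, ⟨⟩⟩
  have hLnormal : Normal ℚ L := inferInstance
  have hK₀L : K₀ ≤ L := le_trans (le_trans le_sup_left le_sup_left) hFL
  have hK₁L : K₁ ≤ L := le_trans (le_trans le_sup_right le_sup_left) hFL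
  have hbL : b ∈ L :=
    hFL ((le_sup_right : IntermediateField.adjoin ℚ {b} ≤ F)
      (IntermediateField.mem_adjoin_simple_self ℚ b))
  -- the image of `I` in `Gal(L/ℚ)`
  let r : Gq →* (L ≃ₐ[ℚ] L) := AlgEquiv.restrictNormalHom L
  have hr : ∀ (τ : Gq) (x : L), ((r τ x : L) : Qb) = τ (x : Qb) := fun τ x =>
    AlgEquiv.restrictNormal_commutes τ L x
  set Ibar : Subgroup (L ≃ₐ[ℚ] L) := I.map r with hIbar
  set K' : IntermediateField ℚ L := IntermediateField.fixedField Ibar with hK'
  refine ⟨IntermediateField.lift K', ?_, ?_, ?_, ?_⟩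
  · exact FiniteDimensional.of_injective
      (IntermediateField.inclusion (IntermediateField.lift_le K')).toLinearMap
      (IntermediateField.inclusion (IntermediateField.lift_le K')).injective
  · intro y hy
    have hyL : y ∈ L := hK₀L hy
    have hmem : (⟨y, hyL⟩ : L) ∈ K' := by
      rw [hK', IntermediateField.mem_fixedField_iff]
      rintro g ⟨τ, hτ, rfl⟩
      apply Subtype.ext
      rw [hr]
      exact hK₀ τ hτ y hy
    exact (IntermediateField.mem_lift (⟨y, hyL⟩ : L)).2 hmem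
  · intro τ hτ y hy
    have hyL : y ∈ L := IntermediateField.lift_le K' hy
    have hy' : (⟨y, hyL⟩ : L) ∈ K' := (IntermediateField.mem_lift (⟨y, hyL⟩ : L)).1 hy
    have h1 := (IntermediateField.mem_fixedField_iff _ _).1 hy' (r τ) ⟨τ, hτ, rfl⟩
    have h2 := congrArg Subtype.val h1
    rw [hr] at h2
    exact h2
  · intro x hx
    have hxL : x ∈ L := hK₁L hx
    have key : (⟨x, hxL⟩ : L) ∈ K' ⊔ IntermediateField.adjoin ℚ {(⟨b, hbL⟩ : L)} := by
      rw [← IsGalois.fixedField_fixingSubgroup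
        (K' ⊔ IntermediateField.adjoin ℚ {(⟨b, hbL⟩ : L)}), IntermediateField.mem_fixedField_iff]
      intro g hg
      rw [IntermediateField.fixingSubgroup_sup, Subgroup.mem_inf] at hg
      obtain ⟨hg1, hg2⟩ := hg
      rw [hK', IntermediateField.fixingSubgroup_fixedField] at hg1
      obtain ⟨τ, hτ, rfl⟩ := hg1
      have hb : r τ (⟨b, hbL⟩ : L) = ⟨b, hbL⟩ :=
        (IntermediateField.mem_fixingSubgroup_iff _ _).1 hg2 _
          (IntermediateField.mem_adjoin_simple_self ℚ _)
      have hτb : τ b = b := by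
        have h3 := congrArg Subtype.val hb
        rwa [hr] at h3
      apply Subtype.ext
      rw [hr]
      exact hK₁ τ hτ hτb x hx
    have h1 : x ∈ IntermediateField.lift
        (K' ⊔ IntermediateField.adjoin ℚ {(⟨b, hbL⟩ : L)}) :=
      (IntermediateField.mem_lift (⟨x, hxL⟩ : L)).2 key
    have hmap : IntermediateField.lift (K' ⊔ IntermediateField.adjoin ℚ {(⟨b, hbL⟩ : L)}) ≤
        IntermediateField.lift K' ⊔ IntermediateField.adjoin ℚ {b} := by
      refine IntermediateField.map_le_iff_le_comap.2 (sup_le ?_ ?_)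
      · intro y hy
        exact (le_sup_left : IntermediateField.lift K' ≤ _) ((IntermediateField.mem_lift y).2 hy)
      · refine IntermediateField.adjoin_simple_le_iff.2 ?_
        exact (le_sup_right : IntermediateField.adjoin ℚ {b} ≤ _)
          (IntermediateField.mem_adjoin_simple_self ℚ b)
    exact hmap h1

/-- **Field of definition over `K(b)`.**  A `FinCoeff` series fixed coefficientwise by every
`τ ∈ I` with `τ b = b` is defined over `K(b)`, `K` a number field fixed pointwise by `I`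
(containing a given number field `K₀` fixed by `I`). -/
theorem exists_numberField_adjoin_of_fixed (I : Subgroup Gq) (b : Qb)
    (K₀ : IntermediateField ℚ Qb) (hK₀fin : FiniteDimensional ℚ K₀)
    (hK₀ : ∀ τ ∈ I, ∀ y ∈ K₀, τ y = y) {x : LS} (hx : FinCoeff x)
    (hI : ∀ τ ∈ I, τ b = b → act τ x = x) :
    ∃ K : IntermediateField ℚ Qb, FiniteDimensional ℚ K ∧ K₀ ≤ K ∧
      (∀ τ ∈ I, ∀ y ∈ K, τ y = y) ∧
      ∃ z : LaurentSeries ↥(K ⊔ IntermediateField.adjoin ℚ {b}),
        coeffMap (algebraMap ↥(K ⊔ IntermediateField.adjoin ℚ {b}) Qb) z = x := by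
  -- the subgroup of `I` fixing `b`
  let H : Subgroup Gq :=
    { carrier := {τ | τ ∈ I ∧ τ b = b}
      mul_mem' := fun {σ τ} hσ hτ => ⟨I.mul_mem hσ.1 hτ.1, by
        rw [AlgEquiv.mul_apply, hτ.2, hσ.2]⟩
      one_mem' := ⟨I.one_mem, rfl⟩
      inv_mem' := fun {σ} hσ => ⟨I.inv_mem hσ.1, by
        have h := congrArg (σ⁻¹ : Gq) hσ.2
        rw [← AlgEquiv.mul_apply, inv_mul_cancel, AlgEquiv.one_apply] at h
        exact h.symm⟩ }
  obtain ⟨K₁, hK₁fin, hK₁fix, z₁, hz₁⟩ :=
    exists_numberField_of_fixed H hx (fun τ hτ => hI τ hτ.1 hτ.2)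
  obtain ⟨K, hKfin, hK₀K, hKfix, hle⟩ := exists_numberField_sup_adjoin I b K₀ K₁ hK₀fin hK₁fin
    hK₀ (fun τ hτ hτb y hy => hK₁fix τ ⟨hτ, hτb⟩ y hy)
  refine ⟨K, hKfin, hK₀K, hKfix, ?_⟩
  refine Fermat.Agent.Lib.FiniteOrbit.exists_coeffMap_eq_of_coeff_mem
    (Kb := ↥(K ⊔ IntermediateField.adjoin ℚ {b})) (L := Qb) x fun n => ?_
  have hmem : x.coeff n ∈ K₁ := by
    rw [← hz₁, coeffMap_coeff]
    exact (z₁.coeff n).2
  exact ⟨⟨x.coeff n, hle hmem⟩, rfl⟩

end Fermat.Agent.Lib.DescentSubfield
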