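import Mathlib
import Fermat.Prelude.Def_FLTPrelim_GaloisRep

set_option autoImplicit false

/-!
# Galois-fixed elements of `ℚ̄` are rational; Galois-stable finite sets have rational
symmetric functions

`Qb := AlgebraicClosure ℚ`, `Gq := Qb ≃ₐ[ℚ] Qb`.

* `fixed_rational` : an element fixed by all of `Gq` is the cast of a rational number.
* `image_eq_of_stable` : a finite set stable under `Gq` is permuted by every `σ`.
* `prod_rational`, `sum_rational`, `prod_X_sub_C_rational` : its product / sum / the polynomial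
  `∏ (X - x)` are rational.
* point forms (`xcoord_stable`, `prod_xcoord_rational`) : the set of `x`-coordinates of a
  Galois-stable set of points of `E⁄Qb` (`E` over `ℚ`) is Galois-stable, hence the product over a
  finite set of all such `x`-coordinates is rational.
-/

namespace Fermat.Agent.Lib.FixedRational

local notation "Qb" => AlgebraicClosure ℚ
local notation "Gq" => (AlgebraicClosure ℚ ≃ₐ[ℚ] AlgebraicClosure ℚ)

/-- An element of `ℚ̄` fixed by the whole Galois group is rational (`algebraMap` form). -/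
theorem fixed_rational_algebraMap (x : Qb) (hx : ∀ σ : Gq, σ x = x) :
    ∃ r : ℚ, algebraMap ℚ Qb r = x := by
  have : Algebra.IsAlgebraic ℚ Qb := AlgebraicClosure.isAlgebraic ℚ
  have : IsAlgClosure ℚ Qb := AlgebraicClosure.instIsAlgClosure ℚ
  exact (InfiniteGalois.mem_range_algebraMap_iff_fixed (k := ℚ) (K := Qb) x).mpr hx

/-- An element of `ℚ̄` fixed by the whole Galois group is rational (cast form). -/
theorem fixed_rational (x : Qb) (hx : ∀ σ : Gq, σ x = x) : ∃ r : ℚ, (r : Qb) = x := by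
  obtain ⟨r, hr⟩ := fixed_rational_algebraMap x hx
  exact ⟨r, by rw [← hr]; simp⟩

/-- A Galois-stable finite subset of `ℚ̄` is permuted by every automorphism. -/
theorem image_eq_of_stable (S : Finset Qb) (hS : ∀ σ : Gq, ∀ x ∈ S, σ x ∈ S) (σ : Gq) :
    S.image σ = S := by
  apply Finset.eq_of_subset_of_card_le
  · intro y hy
    obtain ⟨x, hx, rfl⟩ := Finset.mem_image.mp hy
    exact hS σ x hx
  · rw [Finset.card_image_of_injective _ σ.injective]

/-- The product over a Galois-stable finite set is Galois-fixed. -/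
theorem prod_fixed (S : Finset Qb) (hS : ∀ σ : Gq, ∀ x ∈ S, σ x ∈ S) (σ : Gq) :
    σ (∏ x ∈ S, x) = ∏ x ∈ S, x := by
  rw [map_prod]
  conv_rhs => rw [← image_eq_of_stable S hS σ]
  rw [Finset.prod_image (fun x _ y _ h => σ.injective h)]

/-- The sum over a Galois-stable finite set is Galois-fixed. -/
theorem sum_fixed (S : Finset Qb) (hS : ∀ σ : Gq, ∀ x ∈ S, σ x ∈ S) (σ : Gq) :
    σ (∑ x ∈ S, x) = ∑ x ∈ S, x := by
  rw [map_sum]
  conv_rhs => rw [← image_eq_of_stable S hS σ]
  rw [Finset.sum_image (fun x _ y _ h => σ.injective h)]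

/-- **The product over a Galois-stable finite subset of `ℚ̄` is rational.** -/
theorem prod_rational (S : Finset Qb) (hS : ∀ σ : Gq, ∀ x ∈ S, σ x ∈ S) :
    ∃ r : ℚ, (r : Qb) = ∏ x ∈ S, x :=
  fixed_rational _ (prod_fixed S hS)

/-- The sum over a Galois-stable finite subset of `ℚ̄` is rational. -/
theorem sum_rational (S : Finset Qb) (hS : ∀ σ : Gq, ∀ x ∈ S, σ x ∈ S) :
    ∃ r : ℚ, (r : Qb) = ∑ x ∈ S, x :=
  fixed_rational _ (sum_fixed S hS)

/-- More generally, the product of `g x` over a Galois-stable finite set is Galois-fixed as soon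
as `g` commutes with the Galois action. -/
theorem prod_map_fixed (S : Finset Qb) (hS : ∀ σ : Gq, ∀ x ∈ S, σ x ∈ S) (g : Qb → Qb) (σ : Gq)
    (hg : ∀ x ∈ S, σ (g x) = g (σ x)) : σ (∏ x ∈ S, g x) = ∏ x ∈ S, g x := by
  rw [map_prod]
  conv_rhs => rw [← image_eq_of_stable S hS σ]
  rw [Finset.prod_image (fun x _ y _ h => σ.injective h)]
  exact Finset.prod_congr rfl hg

open Polynomial in
/-- The polynomial `∏_{x ∈ S} (X - x)` of a Galois-stable finite set has rational coefficients. -/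
theorem prod_X_sub_C_rational (S : Finset Qb) (hS : ∀ σ : Gq, ∀ x ∈ S, σ x ∈ S) :
    ∃ f : ℚ[X], f.map (algebraMap ℚ Qb) = ∏ x ∈ S, (X - C x) := by
  have hfix : ∀ σ : Gq, (∏ x ∈ S, (X - C x)).map (σ : Qb →+* Qb) = ∏ x ∈ S, (X - C x) := by
    intro σ
    rw [Polynomial.map_prod]
    conv_rhs => rw [← image_eq_of_stable S hS σ]
    rw [Finset.prod_image (fun x _ y _ h => σ.injective h)]
    refine Finset.prod_congr rfl fun x _ => ?_
    simp
  have hcoeff : ∀ n, ∃ r : ℚ, algebraMap ℚ Qb r = (∏ x ∈ S, (X - C x)).coeff n := by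
    intro n
    apply fixed_rational_algebraMap
    intro σ
    have := congrArg (fun p => p.coeff n) (hfix σ)
    simpa [Polynomial.coeff_map] using this
  choose c hc using hcoeff
  have hdeg : ∀ n, (∏ x ∈ S, (X - C x)).natDegree < n → c n = 0 := by
    intro n hn
    have h0 : (∏ x ∈ S, (X - C x)).coeff n = 0 := Polynomial.coeff_eq_zero_of_natDegree_lt hn
    have := hc n
    rw [h0] at this
    exact (map_eq_zero (algebraMap ℚ Qb)).mp this
  refine ⟨∑ n ∈ Finset.range ((∏ x ∈ S, (X - C x)).natDegree + 1), Polynomial.monomial n (c n), ?_⟩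
  ext n
  rw [Polynomial.coeff_map, Polynomial.finsetSum_coeff]
  simp only [Polynomial.coeff_monomial]
  rw [Finset.sum_ite_eq']
  split_ifs with h
  · exact hc n
  · rw [Finset.mem_range, not_lt] at h
    rw [map_zero]
    exact (Polynomial.coeff_eq_zero_of_natDegree_lt (by omega)).symm

/-! ### Point forms -/

open WeierstrassCurve WeierstrassCurve.Affine WeierstrassCurve.Affine.Point

variable {E : WeierstrassCurve ℚ}

/-- The Galois action on points, in coordinates. -/
theorem smul_some (σ : Gq) {x y : Qb} (h : (E⁄Qb).Nonsingular x y) :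
    ∃ h' : (E⁄Qb).Nonsingular (σ x) (σ y),
      σ • (Point.some x y h : (E⁄Qb).Point) = Point.some (σ x) (σ y) h' :=
  ⟨_, rfl⟩

/-- The set of `x`-coordinates of a Galois-stable set of points is Galois-stable. -/
theorem xcoord_stable (T : Set (E⁄Qb).Point) (hT : ∀ σ : Gq, ∀ Q ∈ T, σ • Q ∈ T) (σ : Gq)
    {x : Qb} (hx : ∃ Q ∈ T, ∃ (y : Qb) (h : (E⁄Qb).Nonsingular x y), Q = Point.some x y h) :
    ∃ Q ∈ T, ∃ (y : Qb) (h : (E⁄Qb).Nonsingular (σ x) y), Q = Point.some (σ x) y h := by
  obtain ⟨Q, hQ, y, h, rfl⟩ := hx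
  obtain ⟨h', e⟩ := smul_some (E := E) σ h
  exact ⟨_, hT σ _ hQ, σ y, h', e⟩

/-- **Rationality of the product of the `x`-coordinates of a Galois-stable set of points.**
If the finite set `X ⊆ ℚ̄` is exactly the set of `x`-coordinates of the affine points of a
Galois-stable set `T` of points of `E⁄ℚ̄`, then `∏_{x ∈ X} x` is rational. -/
theorem prod_xcoord_rational (T : Set (E⁄Qb).Point) (hT : ∀ σ : Gq, ∀ Q ∈ T, σ • Q ∈ T)
    (X : Finset Qb)
    (hX : ∀ x, x ∈ X ↔ ∃ Q ∈ T, ∃ (y : Qb) (h : (E⁄Qb).Nonsingular x y), Q = Point.some x y h) :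
    ∃ r : ℚ, (r : Qb) = ∏ x ∈ X, x :=
  prod_rational X fun σ x hx => (hX _).mpr (xcoord_stable T hT σ ((hX x).mp hx))

/-- Same, for the polynomial `∏_{x ∈ X} (X - x)`. -/
theorem prod_X_sub_C_xcoord_rational (T : Set (E⁄Qb).Point) (hT : ∀ σ : Gq, ∀ Q ∈ T, σ • Q ∈ T)
    (X : Finset Qb)
    (hX : ∀ x, x ∈ X ↔ ∃ Q ∈ T, ∃ (y : Qb) (h : (E⁄Qb).Nonsingular x y), Q = Point.some x y h) :
    ∃ f : Polynomial ℚ, f.map (algebraMap ℚ Qb) = ∏ x ∈ X, (Polynomial.X - Polynomial.C x) :=
  prod_X_sub_C_rational X fun σ x hx => (hX _).mpr (xcoord_stable T hT σ ((hX x).mp hx))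

/-- A Galois-fixed affine point of `E⁄ℚ̄` has rational coordinates. -/
theorem coords_rational_of_fixed {x y : Qb} (h : (E⁄Qb).Nonsingular x y)
    (hfix : ∀ σ : Gq, σ • (Point.some x y h : (E⁄Qb).Point) = Point.some x y h) :
    ∃ r s : ℚ, (r : Qb) = x ∧ (s : Qb) = y := by
  have hxy : ∀ σ : Gq, σ x = x ∧ σ y = y := by
    intro σ
    obtain ⟨h', e⟩ := smul_some (E := E) σ h
    have := (hfix σ).symm.trans e
    simp only [Point.some.injEq] at this
    exact ⟨this.1.symm, this.2.symm⟩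
  obtain ⟨r, hr⟩ := fixed_rational x fun σ => (hxy σ).1
  obtain ⟨s, hs⟩ := fixed_rational y fun σ => (hxy σ).2
  exact ⟨r, s, hr, hs⟩

end Fermat.Agent.Lib.FixedRational
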