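import Mathlib

set_option autoImplicit false

/-!
# Formal `m`-th roots of power series: rationality of the coefficients

If `P ^ m = W` in `E⟦X⟧` (`E` a field of characteristic zero), the coefficients of `W` lie in a
subfield `S`, and the constant coefficient of `P` is a nonzero element of `S`, then all
coefficients of `P` lie in `S` (`coeff_mem_of_pow_eq`).  Consequently a root of a power series
coming from a subfield `K` itself comes from `K` (`exists_map_eq_of_pow_eq`).
-/

noncomputable section

open PowerSeries

namespace Fermat.Agent.Lib.FormalRoot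

/-- Logarithmic differentiation of `P ^ m = W`. -/
theorem mul_derivative_eq {E : Type*} [CommRing E] {m : ℕ} (hm : m ≠ 0) {P W : PowerSeries E}
    (hP : P ^ m = W) : (m : PowerSeries E) * (W * d⁄dX E P) = P * d⁄dX E W := by
  rw [← hP, derivative_pow]
  have h : P * (↑m * P ^ (m - 1) * d⁄dX E P) = ↑m * (P * P ^ (m - 1) * d⁄dX E P) := by ring
  rw [h, mul_pow_sub_one hm]

/-- The coefficients of a formal `m`-th root lie in any subfield containing the coefficients of
the `m`-th power and the (nonzero) constant coefficient of the root. -/
theorem coeff_mem_of_pow_eq {E : Type*} [Field E] [CharZero E] (S : Subfield E) {m : ℕ}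
    (hm : m ≠ 0) (P W : PowerSeries E) (hP : P ^ m = W) (hW : ∀ n, coeff n W ∈ S)
    (h0 : constantCoeff P ∈ S) (h0' : constantCoeff P ≠ 0) : ∀ n, coeff n P ∈ S := by
  have hid := mul_derivative_eq hm hP
  have hW0 : coeff 0 W ≠ 0 := by
    rw [← hP, coeff_zero_eq_constantCoeff_apply, map_pow]
    exact pow_ne_zero _ h0'
  have hmE : (m : E) ≠ 0 := Nat.cast_ne_zero.mpr hm
  intro n
  induction n using Nat.strong_induction_on with
  | _ n ih =>
    rcases n with _ | n
    · simpa using h0
    · have e1 : coeff n (P * d⁄dX E W) ∈ S := by
        rw [coeff_mul]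
        refine sum_mem fun x hx => ?_
        rw [coeff_derivative]
        have hx1 : x.1 + x.2 = n := Finset.HasAntidiagonal.mem_antidiagonal.mp hx
        exact mul_mem (ih x.1 (by omega))
          (mul_mem (hW _) (add_mem (natCast_mem S _) (one_mem S)))
      have e2 : (m : E) * coeff n (W * d⁄dX E P) = coeff n (P * d⁄dX E W) := by
        rw [← hid, ← map_natCast (C (R := E)) m, coeff_C_mul]
      have e3 : coeff n (W * d⁄dX E P) ∈ S := by
        have h : coeff n (W * d⁄dX E P) = coeff n (P * d⁄dX E W) / (m : E) := by
          rw [← e2, mul_div_cancel_left₀ _ hmE]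
        rw [h]
        exact div_mem e1 (natCast_mem S m)
      have hmem : ((0 : ℕ), n) ∈ Finset.HasAntidiagonal.antidiagonal n := by simp
      have e4 : coeff 0 W * (coeff (n + 1) P * ((n : E) + 1))
          + ∑ x ∈ (Finset.HasAntidiagonal.antidiagonal n).erase (0, n),
              coeff x.1 W * (coeff (x.2 + 1) P * ((x.2 : E) + 1))
          = coeff n (W * d⁄dX E P) := by
        rw [coeff_mul]
        simp only [coeff_derivative]
        exact Finset.add_sum_erase (Finset.HasAntidiagonal.antidiagonal n)
          (fun x => coeff x.1 W * (coeff (x.2 + 1) P * ((x.2 : E) + 1))) hmem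
      have e5 : ∑ x ∈ (Finset.HasAntidiagonal.antidiagonal n).erase (0, n),
          coeff x.1 W * (coeff (x.2 + 1) P * ((x.2 : E) + 1)) ∈ S := by
        refine sum_mem fun x hx => ?_
        have hx' := Finset.mem_erase.mp hx
        have hsum : x.1 + x.2 = n := Finset.HasAntidiagonal.mem_antidiagonal.mp hx'.2
        have hne : x.1 ≠ 0 := by
          intro h0
          apply hx'.1
          ext
          · exact h0
          · simp only
            omega
        exact mul_mem (hW _) (mul_mem (ih (x.2 + 1) (by omega))
          (add_mem (natCast_mem S _) (one_mem S)))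
      have hn1 : ((n : E) + 1) ≠ 0 := by exact_mod_cast Nat.succ_ne_zero n
      have e6 : coeff (n + 1) P = (coeff n (W * d⁄dX E P)
          - ∑ x ∈ (Finset.HasAntidiagonal.antidiagonal n).erase (0, n),
              coeff x.1 W * (coeff (x.2 + 1) P * ((x.2 : E) + 1)))
          / (coeff 0 W * ((n : E) + 1)) := by
        rw [← e4]
        field_simp
        ring
      rw [e6]
      exact div_mem (sub_mem e3 e5)
        (mul_mem (hW 0) (add_mem (natCast_mem S _) (one_mem S)))

/-- A formal `m`-th root of a power series defined over `K` is defined over `K` as soon as its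
constant coefficient is a nonzero element of `K`. -/
theorem exists_map_eq_of_pow_eq {K E : Type*} [Field K] [Field E] [CharZero E] (ι : K →+* E)
    {m : ℕ} (hm : m ≠ 0) (P : PowerSeries E) (V : PowerSeries K)
    (hP : P ^ m = PowerSeries.map ι V) (h0 : constantCoeff P ∈ ι.range)
    (h0' : constantCoeff P ≠ 0) : ∃ Q : PowerSeries K, PowerSeries.map ι Q = P := by
  have key := coeff_mem_of_pow_eq ι.fieldRange hm P (PowerSeries.map ι V) hP
    (fun n => by
      rw [coeff_map]
      exact ⟨_, rfl⟩) h0 h0'
  choose c hc using key
  refine ⟨PowerSeries.mk c, ?_⟩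
  ext n
  rw [coeff_map, coeff_mk, hc]

end Fermat.Agent.Lib.FormalRoot

end
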