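import Fermat.Agent.Lib.FrobeniusDensity.Lift
import Fermat.Agent.Lib.FrobDensity.Count

/-! # Frobenius density theorem, existence form

For a finite extension `L ⊆ ℚ̄` of `ℚ`, a finite set `S` of primes and `g ∈ Gal(ℚ̄/ℚ)` there are a
prime `ℓ ∉ S`, a valuation subring `A` of `ℚ̄` over `ℓ` and a Frobenius element `s` at `A` such
that `s ^ b = g` on `L` for some `b > 0` (and `g ^ c = s` on `L` for some `c`).

The counting half (`Fermat.Agent.Lib.FrobDensity.exists_prime_stabilizer_eq_zpowers`) is due to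
helper269; the lifting half is `Fermat.Agent.Lib.FrobeniusDensity.exists_frobenius_of_stabilizer`.
-/

set_option autoImplicit false

namespace Fermat.Agent.Lib.FrobeniusDensity

local notation "Qb" => AlgebraicClosure ℚ
local notation "Γ" => (AlgebraicClosure ℚ ≃ₐ[ℚ] AlgebraicClosure ℚ)

/-- **Frobenius density, generator form.** -/
theorem exists_frobenius_generator (L : IntermediateField ℚ Qb) [FiniteDimensional ℚ L]
    (S : Finset ℕ) (g : Γ) :
    ∃ (ℓ : ℕ) (A : ValuationSubring Qb) (s : Γ) (b c : ℕ), ℓ.Prime ∧ ℓ ∉ S ∧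
      A.LiesOverPrime ℓ ∧ A.IsFrobeniusAt s ℓ ∧ 0 < b ∧ (∀ x ∈ L, (s ^ b) x = g x) ∧
      (∀ x ∈ L, (g ^ c) x = s x) :=
  exists_frobenius_generator_of
    (fun K _ _ _ σ T => Fermat.Agent.Lib.FrobDensity.exists_prime_stabilizer_eq_zpowers K σ T)
    L S g

/-- **Frobenius density, existence form**: every element of `Gal(ℚ̄/ℚ)` agrees on a given finite
extension `L` with a positive power of a Frobenius element at a prime outside `S`. -/
theorem exists_frobenius_pow_eq (L : IntermediateField ℚ Qb) [FiniteDimensional ℚ L]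
    (S : Finset ℕ) (g : Γ) :
    ∃ (ℓ : ℕ) (A : ValuationSubring Qb) (s : Γ) (b : ℕ), ℓ.Prime ∧ ℓ ∉ S ∧
      A.LiesOverPrime ℓ ∧ A.IsFrobeniusAt s ℓ ∧ 0 < b ∧ ∀ x ∈ L, (s ^ b) x = g x := by
  obtain ⟨ℓ, A, s, b, c, h1, h2, h3, h4, h5, h6, -⟩ := exists_frobenius_generator L S g
  exact ⟨ℓ, A, s, b, h1, h2, h3, h4, h5, h6⟩

end Fermat.Agent.Lib.FrobeniusDensity
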