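import Mathlib
import Fermat.Prelude.Def_ModularCurve_GenusNumerics

set_option autoImplicit false

namespace Fermat.Agent.Lib.Gamma0Cosets

open scoped MatrixGroups
open CongruenceSubgroup ModularGroup Matrix

variable {N : ℕ}

/-- The lower-left entry of `g₁⁻¹ * g₂`. -/
theorem inv_mul_apply_one_zero (g₁ g₂ : SL(2, ℤ)) :
    (g₁⁻¹ * g₂) 1 0 = g₁ 0 0 * g₂ 1 0 - g₁ 1 0 * g₂ 0 0 := by
  simp [Matrix.SpecialLinearGroup.coe_mul, Matrix.SpecialLinearGroup.coe_inv,
    Matrix.adjugate_fin_two, Matrix.mul_apply, Fin.sum_univ_two]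
  ring

/-- Coset criterion, `ZMod` form. -/
theorem inv_mul_mem_Gamma0_iff (g₁ g₂ : SL(2, ℤ)) :
    g₁⁻¹ * g₂ ∈ Gamma0 N ↔
      ((g₁ 0 0 : ℤ) : ZMod N) * ((g₂ 1 0 : ℤ) : ZMod N) =
        ((g₁ 1 0 : ℤ) : ZMod N) * ((g₂ 0 0 : ℤ) : ZMod N) := by
  rw [Gamma0_mem, inv_mul_apply_one_zero]
  push_cast
  exact sub_eq_zero

/-- Coset criterion, divisibility form. -/
theorem inv_mul_mem_Gamma0_iff_dvd (g₁ g₂ : SL(2, ℤ)) :
    g₁⁻¹ * g₂ ∈ Gamma0 N ↔ (N : ℤ) ∣ g₁ 0 0 * g₂ 1 0 - g₁ 1 0 * g₂ 0 0 := by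
  rw [Gamma0_mem, inv_mul_apply_one_zero, ZMod.intCast_zmod_eq_zero_iff_dvd]

theorem mk_eq_mk_iff (g₁ g₂ : SL(2, ℤ)) :
    (g₁ : SL(2, ℤ) ⧸ Gamma0 N) = g₂ ↔
      ((g₁ 0 0 : ℤ) : ZMod N) * ((g₂ 1 0 : ℤ) : ZMod N) =
        ((g₁ 1 0 : ℤ) : ZMod N) * ((g₂ 0 0 : ℤ) : ZMod N) := by
  rw [QuotientGroup.eq, inv_mul_mem_Gamma0_iff]

/-- The determinant relation in `ZMod N`. -/
theorem det_cast (g : SL(2, ℤ)) :
    ((g 0 0 : ℤ) : ZMod N) * ((g 1 1 : ℤ) : ZMod N) -
      ((g 0 1 : ℤ) : ZMod N) * ((g 1 0 : ℤ) : ZMod N) = 1 := by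
  have h := g.det_coe
  rw [Matrix.det_fin_two] at h
  have := congrArg (Int.cast : ℤ → ZMod N) h
  push_cast at this
  exact this

/-- The matrix `[[l, -1], [1, 0]]`. -/
def colMat (l : ℤ) : SL(2, ℤ) :=
  ⟨!![l, -1; 1, 0], by simp [Matrix.det_fin_two_of]⟩

@[simp] theorem colMat_zero_zero (l : ℤ) : colMat l 0 0 = l := rfl
@[simp] theorem colMat_one_zero (l : ℤ) : colMat l 1 0 = 1 := rfl

theorem mul_apply_col (h g : SL(2, ℤ)) (i : Fin 2) :
    (h * g) i 0 = h i 0 * g 0 0 + h i 1 * g 1 0 := by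
  simp [Matrix.SpecialLinearGroup.coe_mul, Matrix.mul_apply, Fin.sum_univ_two]

theorem S_mul_apply_zero_zero (g : SL(2, ℤ)) : (S * g) 0 0 = - g 1 0 := by
  rw [mul_apply_col]; simp [coe_S]

theorem S_mul_apply_one_zero (g : SL(2, ℤ)) : (S * g) 1 0 = g 0 0 := by
  rw [mul_apply_col]; simp [coe_S]

theorem T_mul_apply_zero_zero (g : SL(2, ℤ)) : (T * g) 0 0 = g 0 0 + g 1 0 := by
  rw [mul_apply_col]; simp [coe_T]

theorem T_mul_apply_one_zero (g : SL(2, ℤ)) : (T * g) 1 0 = g 1 0 := by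
  rw [mul_apply_col]; simp [coe_T]

/-- `⟦g⟧` is fixed by `S` iff `a² + c² ≡ 0 mod N`. -/
theorem S_smul_mk_eq_iff (g : SL(2, ℤ)) :
    S • (g : SL(2, ℤ) ⧸ Gamma0 N) = g ↔
      ((g 0 0 : ℤ) : ZMod N) ^ 2 + ((g 1 0 : ℤ) : ZMod N) ^ 2 = 0 := by
  rw [MulAction.Quotient.smul_mk, smul_eq_mul, mk_eq_mk_iff, S_mul_apply_zero_zero,
    S_mul_apply_one_zero]
  push_cast
  constructor
  · intro h; linear_combination -h
  · intro h; linear_combination -h

/-- `⟦g⟧` is fixed by `S * T` iff `a² + a c + c² ≡ 0 mod N`. -/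
theorem ST_smul_mk_eq_iff (g : SL(2, ℤ)) :
    (S * T) • (g : SL(2, ℤ) ⧸ Gamma0 N) = g ↔
      ((g 0 0 : ℤ) : ZMod N) ^ 2 + ((g 0 0 : ℤ) : ZMod N) * ((g 1 0 : ℤ) : ZMod N)
        + ((g 1 0 : ℤ) : ZMod N) ^ 2 = 0 := by
  rw [MulAction.Quotient.smul_mk, smul_eq_mul, mk_eq_mk_iff, mul_assoc, S_mul_apply_zero_zero,
    S_mul_apply_one_zero, T_mul_apply_zero_zero, T_mul_apply_one_zero]
  push_cast
  constructor
  · intro h; linear_combination -h
  · intro h; linear_combination -h

/-- If `a² + c² ≡ 0` or `a² + ac + c² ≡ 0`, then `c` is a unit mod `N`; more precisely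
`c * u = 1` for the explicit `u` below, given `a = -c * t`. -/
theorem exists_inv_of_eq_neg_mul (g : SL(2, ℤ)) (t : ZMod N)
    (h : ((g 0 0 : ℤ) : ZMod N) = -((g 1 0 : ℤ) : ZMod N) * t) :
    ((g 1 0 : ℤ) : ZMod N) * (-(t * ((g 1 1 : ℤ) : ZMod N)) - ((g 0 1 : ℤ) : ZMod N)) = 1 := by
  have hdet := det_cast (N := N) g
  linear_combination hdet - ((g 1 1 : ℤ) : ZMod N) * h

theorem card_fixedBy_S [NeZero N] :
    Nat.card (MulAction.fixedBy (SL(2, ℤ) ⧸ Gamma0 N) S) = ModularCurve.nuTwo N := by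
  rw [ModularCurve.nuTwo]
  symm
  apply Nat.card_congr
  refine Equiv.ofBijective
    (fun x => ⟨(colMat (x.1.cast : ℤ) : SL(2, ℤ) ⧸ Gamma0 N), ?_⟩) ⟨?_, ?_⟩
  · rw [MulAction.mem_fixedBy, S_smul_mk_eq_iff]
    simp only [colMat_zero_zero, colMat_one_zero, ZMod.intCast_cast, ZMod.cast_id', id_eq,
      Int.cast_one, one_pow]
    exact x.2
  · intro x y hxy
    have h := congrArg Subtype.val hxy
    simp only at h
    rw [mk_eq_mk_iff] at h
    simp only [colMat_zero_zero, colMat_one_zero, ZMod.intCast_cast, ZMod.cast_id', id_eq,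
      Int.cast_one, mul_one, one_mul] at h
    exact Subtype.ext h
  · rintro ⟨x, hx⟩
    induction x using QuotientGroup.induction_on with
    | H g =>
      rw [MulAction.mem_fixedBy, S_smul_mk_eq_iff] at hx
      set a : ZMod N := ((g 0 0 : ℤ) : ZMod N) with ha
      set c : ZMod N := ((g 1 0 : ℤ) : ZMod N) with hc
      set b : ZMod N := ((g 0 1 : ℤ) : ZMod N) with hb
      set d : ZMod N := ((g 1 1 : ℤ) : ZMod N) with hd
      have hdet : a * d - b * c = 1 := det_cast (N := N) g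
      -- a = -c * (c * d + a * b)
      have hac : a = -c * (c * d + a * b) := by
        linear_combination (-a) * hdet + d * hx
      have hu : c * (-((c * d + a * b) * d) - b) = 1 :=
        exists_inv_of_eq_neg_mul g (c * d + a * b) hac
      set u : ZMod N := -((c * d + a * b) * d) - b with hu_def
      refine ⟨⟨a * u, ?_⟩, ?_⟩
      · linear_combination (u ^ 2) * hx - (c * u + 1) * hu
      · apply Subtype.ext
        simp only
        rw [mk_eq_mk_iff]
        simp only [colMat_zero_zero, colMat_one_zero, ZMod.intCast_cast, ZMod.cast_id', id_eq,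
          Int.cast_one, one_mul]
        linear_combination a * hu

theorem card_fixedBy_ST [NeZero N] :
    Nat.card (MulAction.fixedBy (SL(2, ℤ) ⧸ Gamma0 N) (S * T)) = ModularCurve.nuThree N := by
  rw [ModularCurve.nuThree]
  symm
  apply Nat.card_congr
  refine Equiv.ofBijective
    (fun x => ⟨(colMat (x.1.cast : ℤ) : SL(2, ℤ) ⧸ Gamma0 N), ?_⟩) ⟨?_, ?_⟩
  · rw [MulAction.mem_fixedBy, ST_smul_mk_eq_iff]
    simp only [colMat_zero_zero, colMat_one_zero, ZMod.intCast_cast, ZMod.cast_id', id_eq,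
      Int.cast_one, one_pow, mul_one]
    exact x.2
  · intro x y hxy
    have h := congrArg Subtype.val hxy
    simp only at h
    rw [mk_eq_mk_iff] at h
    simp only [colMat_zero_zero, colMat_one_zero, ZMod.intCast_cast, ZMod.cast_id', id_eq,
      Int.cast_one, mul_one, one_mul] at h
    exact Subtype.ext h
  · rintro ⟨x, hx⟩
    induction x using QuotientGroup.induction_on with
    | H g =>
      rw [MulAction.mem_fixedBy, ST_smul_mk_eq_iff] at hx
      set a : ZMod N := ((g 0 0 : ℤ) : ZMod N) with ha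
      set c : ZMod N := ((g 1 0 : ℤ) : ZMod N) with hc
      set b : ZMod N := ((g 0 1 : ℤ) : ZMod N) with hb
      set d : ZMod N := ((g 1 1 : ℤ) : ZMod N) with hd
      have hdet : a * d - b * c = 1 := det_cast (N := N) g
      have hac : a = -c * (a * d + c * d + a * b) := by
        linear_combination (-a) * hdet + d * hx
      have hu : c * (-((a * d + c * d + a * b) * d) - b) = 1 :=
        exists_inv_of_eq_neg_mul g (a * d + c * d + a * b) hac
      set u : ZMod N := -((a * d + c * d + a * b) * d) - b with hu_def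
      refine ⟨⟨a * u, ?_⟩, ?_⟩
      · linear_combination (u ^ 2) * hx - (a * u + 1 + c * u) * hu
      · apply Subtype.ext
        simp only
        rw [mk_eq_mk_iff]
        simp only [colMat_zero_zero, colMat_one_zero, ZMod.intCast_cast, ZMod.cast_id', id_eq,
          Int.cast_one, one_mul]
        linear_combination a * hu

/-! ### The index of `Gamma0 N` -/

theorem mem_Gamma0_iff_dvd (g : SL(2, ℤ)) : g ∈ Gamma0 N ↔ (N : ℤ) ∣ g 1 0 := by
  rw [Gamma0_mem, ZMod.intCast_zmod_eq_zero_iff_dvd]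

theorem Gamma0_le_of_dvd {M : ℕ} (h : N ∣ M) : Gamma0 M ≤ Gamma0 N := by
  intro g hg
  rw [mem_Gamma0_iff_dvd] at hg ⊢
  exact (Int.natCast_dvd_natCast.mpr h).trans hg

/-- The matrix `[[1, 0], [c, 1]]`. -/
def lowMat (c : ℤ) : SL(2, ℤ) :=
  ⟨!![1, 0; c, 1], by simp [Matrix.det_fin_two_of]⟩

@[simp] theorem lowMat_zero_zero (c : ℤ) : lowMat c 0 0 = 1 := rfl
@[simp] theorem lowMat_one_zero (c : ℤ) : lowMat c 1 0 = c := rfl

theorem lowMat_mem (c : ℤ) : lowMat ((N : ℤ) * c) ∈ Gamma0 N := by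
  rw [mem_Gamma0_iff_dvd, lowMat_one_zero]
  exact dvd_mul_right _ _

theorem relQuot_eq_iff {M : ℕ} (g₁ g₂ : Gamma0 N) :
    (QuotientGroup.mk g₁ : Gamma0 N ⧸ (Gamma0 M).subgroupOf (Gamma0 N)) = QuotientGroup.mk g₂ ↔
      (M : ℤ) ∣ g₁.1 0 0 * g₂.1 1 0 - g₁.1 1 0 * g₂.1 0 0 := by
  rw [QuotientGroup.eq, Subgroup.mem_subgroupOf, Subgroup.coe_mul, Subgroup.coe_inv,
    inv_mul_mem_Gamma0_iff_dvd]

theorem relIndex_Gamma0_mul_prime [NeZero N] {p : ℕ} (hp : p.Prime) :
    (Gamma0 (N * p)).relIndex (Gamma0 N) = if p ∣ N then p else p + 1 := by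
  have : NeZero p := ⟨hp.ne_zero⟩
  have : Fact p.Prime := ⟨hp⟩
  have hN0 : (N : ℤ) ≠ 0 := by exact_mod_cast NeZero.ne N
  have hpcast : ((N * p : ℕ) : ℤ) = (N : ℤ) * (p : ℤ) := by push_cast; ring
  rw [Subgroup.relIndex, Subgroup.index]
  -- the common part of the parametrisation
  let f : ZMod p → Gamma0 N ⧸ (Gamma0 (N * p)).subgroupOf (Gamma0 N) :=
    fun t => QuotientGroup.mk ⟨lowMat ((N : ℤ) * (t.cast : ℤ)), lowMat_mem _⟩
  have hf_inj : Function.Injective f := by
    intro t₁ t₂ h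
    simp only [f] at h
    rw [relQuot_eq_iff] at h
    simp only [lowMat_zero_zero, lowMat_one_zero, one_mul, mul_one, hpcast] at h
    have hl₁ : (((t₁.cast : ℤ)) : ZMod p) = t₁ := ZMod.intCast_zmod_cast t₁
    have hl₂ : (((t₂.cast : ℤ)) : ZMod p) = t₂ := ZMod.intCast_zmod_cast t₂
    generalize (t₁.cast : ℤ) = l₁ at hl₁ h
    generalize (t₂.cast : ℤ) = l₂ at hl₂ h
    have h2 : (p : ℤ) ∣ l₂ - l₁ := by
      have h3 : ((N : ℤ) * (p : ℤ)) ∣ (N : ℤ) * (l₂ - l₁) := by
        convert h using 1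
        ring
      exact (mul_dvd_mul_iff_left hN0).mp h3
    have h4 := (ZMod.intCast_zmod_eq_zero_iff_dvd _ p).mpr h2
    rw [Int.cast_sub, hl₁, hl₂] at h4
    exact (sub_eq_zero.mp h4).symm
  split_ifs with hpN
  · -- `p ∣ N`: the quotient is `ZMod p`
    have hf_surj : Function.Surjective f := by
      intro x
      induction x using QuotientGroup.induction_on with
      | H g =>
        obtain ⟨g, hg⟩ := g
        have hc : (N : ℤ) ∣ g 1 0 := (mem_Gamma0_iff_dvd g).mp hg
        obtain ⟨c', hc'⟩ := hc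
        have hdet := det_cast (N := p) g
        have hcp : ((g 1 0 : ℤ) : ZMod p) = 0 := by
          rw [ZMod.intCast_zmod_eq_zero_iff_dvd]
          exact (Int.natCast_dvd_natCast.mpr hpN).trans ⟨c', hc'⟩
        set τ : ZMod p := (c' : ZMod p) * ((g 1 1 : ℤ) : ZMod p) with hτ
        refine ⟨τ, ?_⟩
        simp only [f]
        rw [relQuot_eq_iff]
        simp only [lowMat_zero_zero, lowMat_one_zero, one_mul, hpcast]
        have hl : (((τ.cast : ℤ)) : ZMod p) = τ := ZMod.intCast_zmod_cast τ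
        generalize (τ.cast : ℤ) = l at hl ⊢
        have key : (p : ℤ) ∣ c' - l * g 0 0 := by
          rw [← ZMod.intCast_zmod_eq_zero_iff_dvd, Int.cast_sub, Int.cast_mul, hl, hτ]
          rw [hcp] at hdet
          linear_combination (-(c' : ZMod p)) * hdet
        obtain ⟨m, hm⟩ := key
        refine ⟨m, ?_⟩
        rw [hc']
        linear_combination (N : ℤ) * hm
    rw [← Nat.card_congr (Equiv.ofBijective f ⟨hf_inj, hf_surj⟩), Nat.card_zmod]
  · -- `p ∤ N`: the quotient is `Option (ZMod p)`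
    have hcop : IsCoprime (p : ℤ) (N : ℤ) := by
      rw [Int.isCoprime_iff_gcd_eq_one, Int.gcd_natCast_natCast]
      exact (Nat.Prime.coprime_iff_not_dvd hp).mpr hpN
    obtain ⟨ginf, hinf0, hinf1⟩ := hcop.exists_SL2_col 0
    have hginf : ginf ∈ Gamma0 N := by
      rw [mem_Gamma0_iff_dvd, hinf1]
    let F : Option (ZMod p) → Gamma0 N ⧸ (Gamma0 (N * p)).subgroupOf (Gamma0 N) :=
      fun o => o.elim (QuotientGroup.mk ⟨ginf, hginf⟩) f
    have hne : ∀ t : ZMod p, f t ≠ QuotientGroup.mk ⟨ginf, hginf⟩ := by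
      intro t h
      simp only [f] at h
      rw [relQuot_eq_iff] at h
      simp only [lowMat_zero_zero, lowMat_one_zero, one_mul, hinf0, hinf1, hpcast] at h
      generalize (t.cast : ℤ) = l at h
      have h3 : ((N : ℤ) * (p : ℤ)) ∣ (N : ℤ) * (1 - l * p) := by
        convert h using 1
        ring
      have h4 : (p : ℤ) ∣ 1 - l * p := (mul_dvd_mul_iff_left hN0).mp h3
      have h5 : (p : ℤ) ∣ 1 := by
        have := dvd_add h4 (dvd_mul_left (p : ℤ) l)
        simpa using this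
      have h6 : (p : ℤ) = 1 ∨ (p : ℤ) = -1 := Int.isUnit_iff.mp (isUnit_of_dvd_one h5)
      have hp2 := hp.two_le
      omega
    have hF_inj : Function.Injective F := by
      intro o₁ o₂ h
      cases o₁ with
      | none =>
        cases o₂ with
        | none => rfl
        | some t₂ => exact absurd h.symm (hne t₂)
      | some t₁ =>
        cases o₂ with
        | none => exact absurd h (hne t₁)
        | some t₂ => exact congrArg some (hf_inj h)
    have hF_surj : Function.Surjective F := by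
      intro x
      induction x using QuotientGroup.induction_on with
      | H g =>
        obtain ⟨g, hg⟩ := g
        have hc : (N : ℤ) ∣ g 1 0 := (mem_Gamma0_iff_dvd g).mp hg
        obtain ⟨c', hc'⟩ := hc
        by_cases hpa : (p : ℤ) ∣ g 0 0
        · refine ⟨none, ?_⟩
          simp only [F, Option.elim_none]
          rw [relQuot_eq_iff]
          simp only [hinf0, hinf1, hpcast]
          obtain ⟨a', ha'⟩ := hpa
          refine ⟨c' - a', ?_⟩
          rw [hc', ha']
          ring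
        · have ha0 : ((g 0 0 : ℤ) : ZMod p) ≠ 0 := by
            rwa [Ne, ZMod.intCast_zmod_eq_zero_iff_dvd]
          set τ : ZMod p := (c' : ZMod p) * ((g 0 0 : ℤ) : ZMod p)⁻¹ with hτ
          refine ⟨some τ, ?_⟩
          simp only [F, Option.elim_some, f]
          rw [relQuot_eq_iff]
          simp only [lowMat_zero_zero, lowMat_one_zero, one_mul, hpcast]
          have hl : (((τ.cast : ℤ)) : ZMod p) = τ := ZMod.intCast_zmod_cast τ
          generalize (τ.cast : ℤ) = l at hl ⊢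
          have key : (p : ℤ) ∣ c' - l * g 0 0 := by
            rw [← ZMod.intCast_zmod_eq_zero_iff_dvd, Int.cast_sub, Int.cast_mul, hl, hτ,
              mul_assoc, inv_mul_cancel₀ ha0, mul_one, sub_self]
          obtain ⟨m, hm⟩ := key
          refine ⟨m, ?_⟩
          rw [hc']
          linear_combination (N : ℤ) * hm
    rw [← Nat.card_congr (Equiv.ofBijective F ⟨hF_inj, hF_surj⟩), Nat.card_eq_fintype_card,
      Fintype.card_option, ZMod.card]

theorem squarefree_dvd_of_dvd_mul_prime {N p d : ℕ} (hp : p.Prime) (hpN : p ∣ N)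
    (hd : Squarefree d) (h : d ∣ N * p) : d ∣ N := by
  by_cases hpd : p ∣ d
  · obtain ⟨d', rfl⟩ := hpd
    have hcop : p.Coprime d' := (Nat.squarefree_mul_iff.mp hd).1
    have hd' : d' ∣ N := by
      have h' : d' * p ∣ N * p := by rwa [mul_comm d' p]
      exact Nat.dvd_of_mul_dvd_mul_right hp.pos h'
    exact Nat.Coprime.mul_dvd_of_dvd_of_dvd hcop hpN hd'
  · have hcop : d.Coprime p := ((Nat.Prime.coprime_iff_not_dvd hp).mpr hpd).symm
    exact hcop.dvd_of_dvd_mul_right h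

theorem dedekindPsi_mul_prime {N p : ℕ} (hN : N ≠ 0) (hp : p.Prime) :
    ModularCurve.dedekindPsi (N * p) =
      (if p ∣ N then p else p + 1) * ModularCurve.dedekindPsi N := by
  have hNp : N * p ≠ 0 := Nat.mul_ne_zero hN hp.ne_zero
  unfold ModularCurve.dedekindPsi
  split_ifs with hpN
  · have hset : (N * p).divisors.filter Squarefree = N.divisors.filter Squarefree := by
      ext d
      simp only [Finset.mem_filter, Nat.mem_divisors]
      constructor
      · rintro ⟨⟨hd, -⟩, hsq⟩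
        exact ⟨⟨squarefree_dvd_of_dvd_mul_prime hp hpN hsq hd, hN⟩, hsq⟩
      · rintro ⟨⟨hd, -⟩, hsq⟩
        exact ⟨⟨hd.mul_right p, hNp⟩, hsq⟩
    rw [hset, Finset.mul_sum]
    refine Finset.sum_congr rfl fun d hd => ?_
    simp only [Finset.mem_filter, Nat.mem_divisors] at hd
    obtain ⟨e, rfl⟩ := hd.1.1
    have hd0 : 0 < d := Nat.pos_of_ne_zero (by rintro rfl; simp at hN)
    rw [mul_assoc, Nat.mul_div_cancel_left _ hd0, Nat.mul_div_cancel_left _ hd0, mul_comm]
  · rw [← Finset.sum_filter_add_sum_filter_not ((N * p).divisors.filter Squarefree) (fun d => p ∣ d)]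
    have hset1 : ((N * p).divisors.filter Squarefree).filter (fun d => ¬ p ∣ d) =
        N.divisors.filter Squarefree := by
      ext d
      simp only [Finset.mem_filter, Nat.mem_divisors]
      constructor
      · rintro ⟨⟨⟨hd, -⟩, hsq⟩, hpd⟩
        have hcop : d.Coprime p := ((Nat.Prime.coprime_iff_not_dvd hp).mpr hpd).symm
        exact ⟨⟨hcop.dvd_of_dvd_mul_right hd, hN⟩, hsq⟩
      · rintro ⟨⟨hd, -⟩, hsq⟩
        exact ⟨⟨⟨hd.mul_right p, hNp⟩, hsq⟩, fun hpd => hpN (hpd.trans hd)⟩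
    have hset2 : ((N * p).divisors.filter Squarefree).filter (fun d => p ∣ d) =
        (N.divisors.filter Squarefree).image (fun d => d * p) := by
      ext d
      simp only [Finset.mem_filter, Nat.mem_divisors, Finset.mem_image]
      constructor
      · rintro ⟨⟨⟨hd, -⟩, hsq⟩, ⟨d', rfl⟩⟩
        refine ⟨d', ⟨⟨?_, hN⟩, ?_⟩, mul_comm _ _⟩
        · have h' : d' * p ∣ N * p := by rwa [mul_comm d' p]
          exact Nat.dvd_of_mul_dvd_mul_right hp.pos h'
        · exact (Nat.squarefree_mul_iff.mp hsq).2.2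
      · rintro ⟨d', ⟨⟨hd', -⟩, hsq'⟩, rfl⟩
        refine ⟨⟨⟨Nat.mul_dvd_mul_right hd' p, hNp⟩, ?_⟩, dvd_mul_left p d'⟩
        have hcop : d'.Coprime p :=
          ((Nat.Prime.coprime_iff_not_dvd hp).mpr fun hpd => hpN (hpd.trans hd')).symm
        exact Nat.squarefree_mul_iff.mpr ⟨hcop, hsq', hp.squarefree⟩
    rw [hset1, hset2, Finset.sum_image (fun x _ y _ h => Nat.eq_of_mul_eq_mul_right hp.pos h),
      add_mul, one_mul, Finset.mul_sum, add_comm]
    congr 1
    · refine Finset.sum_congr rfl fun d hd => ?_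
      simp only [Finset.mem_filter, Nat.mem_divisors] at hd
      obtain ⟨e, rfl⟩ := hd.1.1
      have hd0 : 0 < d := Nat.pos_of_ne_zero (by rintro rfl; simp at hN)
      rw [mul_assoc, Nat.mul_div_cancel_left _ hd0, Nat.mul_div_cancel_left _ hd0, mul_comm]
    · refine Finset.sum_congr rfl fun d hd => ?_
      exact Nat.mul_div_mul_right N d hp.pos

theorem Gamma0_one_eq_top : Gamma0 1 = ⊤ := by
  ext g
  simp only [Gamma0_mem, Subgroup.mem_top, iff_true]
  exact Subsingleton.elim _ _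

theorem index_Gamma0_of_ne_zero : ∀ N : ℕ, N ≠ 0 →
    (Gamma0 N).index = ModularCurve.dedekindPsi N := by
  intro N
  induction N using Nat.strong_induction_on with
  | _ N ih =>
    intro hN
    by_cases h1 : N = 1
    · subst h1
      rw [Gamma0_one_eq_top, Subgroup.index_top, ModularCurve.dedekindPsi_one]
    · have hp : (N.minFac).Prime := Nat.minFac_prime h1
      have hNeq : N / N.minFac * N.minFac = N := Nat.div_mul_cancel (Nat.minFac_dvd N)
      have hM0 : N / N.minFac ≠ 0 := by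
        intro h0
        rw [h0, zero_mul] at hNeq
        exact hN hNeq.symm
      have hlt : N / N.minFac < N := Nat.div_lt_self (Nat.pos_of_ne_zero hN) hp.one_lt
      have : NeZero (N / N.minFac) := ⟨hM0⟩
      have key := Subgroup.relIndex_mul_index
        (Gamma0_le_of_dvd (N := N / N.minFac) (M := N / N.minFac * N.minFac)
          (dvd_mul_right _ _))
      rw [relIndex_Gamma0_mul_prime hp, ih _ hlt hM0, ← dedekindPsi_mul_prime hM0 hp,
        hNeq] at key
      exact key.symm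

/-- The index of `Gamma0 N` in `SL(2, ℤ)` is the Dedekind psi function. -/
theorem index_Gamma0 (N : ℕ) [NeZero N] :
    (Gamma0 N).index = ModularCurve.dedekindPsi N :=
  index_Gamma0_of_ne_zero N (NeZero.ne N)

theorem card_quotient_Gamma0 (N : ℕ) [NeZero N] :
    Nat.card (SL(2, ℤ) ⧸ Gamma0 N) = ModularCurve.dedekindPsi N :=
  index_Gamma0 N

end Fermat.Agent.Lib.Gamma0Cosets
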