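import Mathlib.NumberTheory.ModularForms.CongruenceSubgroups
import Mathlib.Data.ZMod.Units
import Fermat.Prelude.Def_ModularCurve_GenusNumerics

set_option autoImplicit false

namespace Fermat.Agent.Lib.Gamma0Count

open Matrix MatrixGroups CongruenceSubgroup ModularGroup

/-- Lower-left entry of `g⁻¹ * g'`. -/
theorem inv_mul_apply_one_zero (g g' : SL(2, ℤ)) :
    (g⁻¹ * g') 1 0 = g 0 0 * g' 1 0 - g' 0 0 * g 1 0 := by
  have h : (g⁻¹ * g').1 = g.1.adjugate * g'.1 := by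
    simp [SpecialLinearGroup.coe_inv]
  show (g⁻¹ * g').1 1 0 = _
  rw [h, Matrix.adjugate_fin_two, Matrix.mul_apply, Fin.sum_univ_two]
  simp
  ring

/-- Two left cosets of `Γ₀(N)` agree iff the first columns are proportional mod `N`. -/
theorem mk_eq_mk_iff (N : ℕ) (g g' : SL(2, ℤ)) :
    (QuotientGroup.mk g : SL(2, ℤ) ⧸ Gamma0 N) = QuotientGroup.mk g' ↔
      (N : ℤ) ∣ g 0 0 * g' 1 0 - g' 0 0 * g 1 0 := by
  rw [QuotientGroup.eq, Gamma0_mem, inv_mul_apply_one_zero,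
    ZMod.intCast_zmod_eq_zero_iff_dvd]

/-- First column of `S * g`. -/
theorem S_mul_apply_zero_zero (g : SL(2, ℤ)) : (S * g) 0 0 = - g 1 0 := by
  show (S * g).1 0 0 = _
  rw [SpecialLinearGroup.coe_mul, coe_S, Matrix.mul_apply, Fin.sum_univ_two]
  simp

theorem S_mul_apply_one_zero (g : SL(2, ℤ)) : (S * g) 1 0 = g 0 0 := by
  show (S * g).1 1 0 = _
  rw [SpecialLinearGroup.coe_mul, coe_S, Matrix.mul_apply, Fin.sum_univ_two]
  simp

theorem T_zpow_mul_apply_zero_zero (n : ℤ) (g : SL(2, ℤ)) :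
    (T ^ n * g) 0 0 = g 0 0 + n * g 1 0 := by
  show (T ^ n * g).1 0 0 = _
  rw [SpecialLinearGroup.coe_mul, coe_T_zpow, Matrix.mul_apply, Fin.sum_univ_two]
  simp

theorem T_zpow_mul_apply_one_zero (n : ℤ) (g : SL(2, ℤ)) :
    (T ^ n * g) 1 0 = g 1 0 := by
  show (T ^ n * g).1 1 0 = _
  rw [SpecialLinearGroup.coe_mul, coe_T_zpow, Matrix.mul_apply, Fin.sum_univ_two]
  simp

theorem T_mul_apply_zero_zero (g : SL(2, ℤ)) : (T * g) 0 0 = g 0 0 + g 1 0 := by
  have h := T_zpow_mul_apply_zero_zero 1 g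
  rwa [zpow_one, one_mul] at h

theorem T_mul_apply_one_zero (g : SL(2, ℤ)) : (T * g) 1 0 = g 1 0 := by
  have h := T_zpow_mul_apply_one_zero 1 g
  rwa [zpow_one] at h

/-- If `a, c` are coprime and `N ∣ a * a + c * m`, then `c` is coprime to `N`. -/
theorem isCoprime_of_dvd_sq_add {N a c m : ℤ} (hac : IsCoprime a c) (h : N ∣ a * a + c * m) :
    IsCoprime c N := by
  obtain ⟨q, hq⟩ := h
  have h1 : IsCoprime c (a * a) := hac.symm.mul_right hac.symm
  have h2 : IsCoprime c (a * a + c * m) := h1.add_mul_left_right m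
  rw [hq] at h2
  exact h2.of_mul_right_left

/-- The matrix with first column `(x, 1)`. -/
def colOne (x : ℤ) : SL(2, ℤ) := ⟨!![x, -1; 1, 0], by simp [Matrix.det_fin_two_of]⟩

@[simp] theorem colOne_apply_zero_zero (x : ℤ) : colOne x 0 0 = x := rfl
@[simp] theorem colOne_apply_one_zero (x : ℤ) : colOne x 1 0 = 1 := rfl

theorem ST_zpow_mul_apply_zero_zero (k : ℤ) (g : SL(2, ℤ)) :
    (S * T ^ k * g) 0 0 = - g 1 0 := by
  rw [mul_assoc, S_mul_apply_zero_zero, T_zpow_mul_apply_one_zero]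

theorem ST_zpow_mul_apply_one_zero (k : ℤ) (g : SL(2, ℤ)) :
    (S * T ^ k * g) 1 0 = g 0 0 + k * g 1 0 := by
  rw [mul_assoc, S_mul_apply_one_zero, T_zpow_mul_apply_zero_zero]

/-- The coset of `g` is fixed by `S * T ^ k` iff `N ∣ a (a + k c) + c ^ 2`. -/
theorem smul_mk_eq_iff (N : ℕ) (k : ℤ) (g : SL(2, ℤ)) :
    (S * T ^ k) • (QuotientGroup.mk g : SL(2, ℤ) ⧸ Gamma0 N) = QuotientGroup.mk g ↔
      (N : ℤ) ∣ g 0 0 * (g 0 0 + k * g 1 0) + g 1 0 * g 1 0 := by
  rw [MulAction.Quotient.smul_mk, eq_comm, mk_eq_mk_iff, smul_eq_mul,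
    ST_zpow_mul_apply_zero_zero, ST_zpow_mul_apply_one_zero]
  constructor <;> intro h <;> convert h using 1 <;> ring

theorem card_fixedBy_S_mul_T_zpow (N : ℕ) (k : ℤ) :
    Nat.card (MulAction.fixedBy (SL(2, ℤ) ⧸ Gamma0 N) (S * T ^ k)) =
      Nat.card {x : ZMod N // x ^ 2 + (k : ZMod N) * x + 1 = 0} := by
  symm
  have key : ∀ x : ZMod N, x ^ 2 + (k : ZMod N) * x + 1 = 0 →
      (QuotientGroup.mk (colOne (ZMod.cast x : ℤ)) : SL(2, ℤ) ⧸ Gamma0 N) ∈
        MulAction.fixedBy (SL(2, ℤ) ⧸ Gamma0 N) (S * T ^ k) := by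
    intro x hx
    rw [MulAction.mem_fixedBy, smul_mk_eq_iff]
    rw [← ZMod.intCast_zmod_eq_zero_iff_dvd]
    simp only [colOne_apply_zero_zero, colOne_apply_one_zero]
    push_cast
    rw [← hx]; ring
  refine Nat.card_eq_of_bijective
    (fun x : {x : ZMod N // x ^ 2 + (k : ZMod N) * x + 1 = 0} =>
      (⟨QuotientGroup.mk (colOne (ZMod.cast x.1 : ℤ)), key x.1 x.2⟩ :
        MulAction.fixedBy (SL(2, ℤ) ⧸ Gamma0 N) (S * T ^ k))) ⟨?_, ?_⟩
  · rintro ⟨x, hx⟩ ⟨y, hy⟩ hxy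
    have h := congrArg Subtype.val hxy
    simp only at h
    rw [mk_eq_mk_iff] at h
    simp only [colOne_apply_zero_zero, colOne_apply_one_zero] at h
    rw [← ZMod.intCast_zmod_eq_zero_iff_dvd] at h
    push_cast at h
    apply Subtype.ext
    simpa [sub_eq_zero] using h
  · rintro ⟨q, hq⟩
    induction q using QuotientGroup.induction_on with
    | H g =>
      rw [MulAction.mem_fixedBy, smul_mk_eq_iff] at hq
      have hc : IsCoprime (g 1 0) (N : ℤ) :=
        isCoprime_of_dvd_sq_add (m := k * g 0 0 + g 1 0) (g.isCoprime_col 0)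
          (by convert hq using 1; ring)
      have hu : IsUnit ((g 1 0 : ℤ) : ZMod N) :=
        (ZMod.coe_int_isUnit_iff_isCoprime _ _).mpr hc.symm
      obtain ⟨u, hu'⟩ := hu
      have hq' : ((g 0 0 : ℤ) : ZMod N) * ((g 0 0 : ℤ) + k * (g 1 0 : ℤ)) +
          ((g 1 0 : ℤ) : ZMod N) * (g 1 0 : ℤ) = 0 := by
        have := (ZMod.intCast_zmod_eq_zero_iff_dvd _ N).mpr hq
        push_cast at this
        exact this
      set x : ZMod N := ((g 0 0 : ℤ) : ZMod N) * (↑u⁻¹ : ZMod N) with hxdef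
      have hxc : x * ((g 1 0 : ℤ) : ZMod N) = ((g 0 0 : ℤ) : ZMod N) := by
        rw [hxdef, ← hu', mul_assoc, Units.inv_mul, mul_one]
      have hx : x ^ 2 + (k : ZMod N) * x + 1 = 0 := by
        have h1 : (x ^ 2 + (k : ZMod N) * x + 1) * ((u : ZMod N) * (u : ZMod N)) = 0 := by
          rw [hu']
          have : (x ^ 2 + (k : ZMod N) * x + 1) * (((g 1 0 : ℤ) : ZMod N) * ((g 1 0 : ℤ) : ZMod N))
              = (x * ((g 1 0 : ℤ) : ZMod N)) * ((x * ((g 1 0 : ℤ) : ZMod N)) +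
                  k * ((g 1 0 : ℤ) : ZMod N)) + ((g 1 0 : ℤ) : ZMod N) * ((g 1 0 : ℤ) : ZMod N) := by
            ring
          rw [this, hxc, hq']
        have h2 : IsUnit ((u : ZMod N) * (u : ZMod N)) := (u * u).isUnit
        exact (h2.mul_left_eq_zero).mp h1
      refine ⟨⟨x, hx⟩, ?_⟩
      apply Subtype.ext
      simp only
      rw [mk_eq_mk_iff]
      simp only [colOne_apply_zero_zero, colOne_apply_one_zero]
      rw [← ZMod.intCast_zmod_eq_zero_iff_dvd]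
      push_cast
      rw [hxc]
      ring

theorem card_fixedBy_S (N : ℕ) :
    Nat.card (MulAction.fixedBy (SL(2, ℤ) ⧸ Gamma0 N) S) = ModularCurve.nuTwo N := by
  have h := card_fixedBy_S_mul_T_zpow N 0
  rw [zpow_zero, mul_one] at h
  rw [h, ModularCurve.nuTwo]
  refine Nat.card_congr (Equiv.subtypeEquivRight fun x => ?_)
  simp

theorem card_fixedBy_ST (N : ℕ) :
    Nat.card (MulAction.fixedBy (SL(2, ℤ) ⧸ Gamma0 N) (S * T)) = ModularCurve.nuThree N := by
  have h := card_fixedBy_S_mul_T_zpow N 1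
  rw [zpow_one] at h
  rw [h, ModularCurve.nuThree]
  refine Nat.card_congr (Equiv.subtypeEquivRight fun x => ?_)
  simp

end Fermat.Agent.Lib.Gamma0Count
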