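/-
Counting on the cosets of `Gamma0 N` in `SL(2, ℤ)` (the projective line over `ZMod N`):
index, fixed points of `S` and `S * T`, and orbits of `T`.
-/
import Mathlib
import Fermat.Prelude.Def_ModularCurve_GenusNumerics

set_option autoImplicit false
set_option linter.unusedSectionVars false
set_option linter.style.haveILetI false

open CongruenceSubgroup
open scoped MatrixGroups

namespace Fermat.Agent.Lib.Gamma0Counts

section Fixed

variable (N : ℕ)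

/-- coset equality criterion in terms of first columns -/
theorem mk_eq_mk_iff (g g' : SL(2, ℤ)) :
    ((g : SL(2, ℤ) ⧸ Gamma0 N) = (g' : SL(2, ℤ) ⧸ Gamma0 N)) ↔
      ((g 0 0 * g' 1 0 - g' 0 0 * g 1 0 : ℤ) : ZMod N) = 0 := by
  rw [QuotientGroup.eq, Gamma0_mem]
  have h1 : (g⁻¹ : SL(2, ℤ)) 1 0 = - g 1 0 := by
    rw [Matrix.SpecialLinearGroup.SL2_inv_expl]; rfl
  have h2 : (g⁻¹ : SL(2, ℤ)) 1 1 = g 0 0 := by
    rw [Matrix.SpecialLinearGroup.SL2_inv_expl]; rfl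
  have h : ((g⁻¹ * g' : SL(2, ℤ)) 1 0 : ℤ) = g 0 0 * g' 1 0 - g' 0 0 * g 1 0 := by
    rw [Matrix.SpecialLinearGroup.coe_mul, Matrix.mul_apply, Fin.sum_univ_two, h1, h2]
    ring
  rw [h]

theorem det_eq (g : SL(2, ℤ)) : g 0 0 * g 1 1 - g 0 1 * g 1 0 = 1 := by
  have := g.det_coe
  rw [Matrix.det_fin_two] at this
  exact this

theorem isUnit_of_quad (t : ℤ) (g : SL(2, ℤ))
    (h : ((g 0 0 ^ 2 + t * (g 0 0 * g 1 0) + g 1 0 ^ 2 : ℤ) : ZMod N) = 0) :
    IsUnit ((g 1 0 : ℤ) : ZMod N) := by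
  have hdet := det_eq g
  refine IsUnit.of_mul_eq_one
    (((-((t * g 0 0 + g 1 0) * g 1 1 + g 0 0 * g 0 1) * g 1 1 - g 0 1 : ℤ)) : ZMod N) ?_
  have key : (g 1 0 * (-((t * g 0 0 + g 1 0) * g 1 1 + g 0 0 * g 0 1) * g 1 1 - g 0 1) : ℤ)
      = 1 - (g 0 0 ^ 2 + t * (g 0 0 * g 1 0) + g 1 0 ^ 2) * g 1 1 ^ 2 := by
    linear_combination (g 0 0 * g 1 1 + 1) * hdet
  have := congrArg (Int.cast : ℤ → ZMod N) key
  push_cast at this h ⊢
  rw [this]
  linear_combination (-(g 1 1 : ZMod N) ^ 2) * h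

theorem card_fixedBy_generic (σ : SL(2, ℤ)) (t : ℤ)
    (hσ : ∀ g : SL(2, ℤ), σ • (g : SL(2, ℤ) ⧸ Gamma0 N) = (g : SL(2, ℤ) ⧸ Gamma0 N) ↔
      ((g 0 0 ^ 2 + t * (g 0 0 * g 1 0) + g 1 0 ^ 2 : ℤ) : ZMod N) = 0) :
    Nat.card (MulAction.fixedBy (SL(2, ℤ) ⧸ Gamma0 N) σ)
      = Nat.card {x : ZMod N // x ^ 2 + (t : ZMod N) * x + 1 = 0} := by
  classical
  have hfix : ∀ x : MulAction.fixedBy (SL(2, ℤ) ⧸ Gamma0 N) σ,
      ((x.1.out 0 0 ^ 2 + t * (x.1.out 0 0 * x.1.out 1 0) + x.1.out 1 0 ^ 2 : ℤ) : ZMod N) = 0 := by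
    intro x
    rw [← hσ]
    have := x.2
    rw [MulAction.mem_fixedBy] at this
    rw [QuotientGroup.out_eq']
    exact this
  have hunit : ∀ x : MulAction.fixedBy (SL(2, ℤ) ⧸ Gamma0 N) σ,
      IsUnit ((x.1.out 1 0 : ℤ) : ZMod N) := fun x => isUnit_of_quad N t _ (hfix x)
  let f : MulAction.fixedBy (SL(2, ℤ) ⧸ Gamma0 N) σ → {x : ZMod N // x ^ 2 + (t : ZMod N) * x + 1 = 0} :=
    fun x => ⟨((x.1.out 0 0 : ℤ) : ZMod N) * ((x.1.out 1 0 : ℤ) : ZMod N)⁻¹, by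
      have h := hfix x
      have hu := ZMod.mul_inv_of_unit _ (hunit x)
      push_cast at h
      generalize ((x.1.out 0 0 : ℤ) : ZMod N) = a at *
      generalize ((x.1.out 1 0 : ℤ) : ZMod N) = c at *
      linear_combination (c⁻¹) ^ 2 * h - ((t : ZMod N) * a * c⁻¹ + 1 + c * c⁻¹) * hu ⟩
  refine Nat.card_eq_of_bijective f ⟨?_, ?_⟩
  · intro x y hxy
    have hxy' : ((x.1.out 0 0 : ℤ) : ZMod N) * ((x.1.out 1 0 : ℤ) : ZMod N)⁻¹
        = ((y.1.out 0 0 : ℤ) : ZMod N) * ((y.1.out 1 0 : ℤ) : ZMod N)⁻¹ := congrArg Subtype.val hxy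
    have hu := ZMod.mul_inv_of_unit _ (hunit x)
    have hv := ZMod.mul_inv_of_unit _ (hunit y)
    apply Subtype.ext
    rw [← QuotientGroup.out_eq' x.1, ← QuotientGroup.out_eq' y.1, mk_eq_mk_iff]
    push_cast
    generalize ((x.1.out 0 0 : ℤ) : ZMod N) = a at *
    generalize ((x.1.out 1 0 : ℤ) : ZMod N) = c at *
    generalize ((y.1.out 0 0 : ℤ) : ZMod N) = a' at *
    generalize ((y.1.out 1 0 : ℤ) : ZMod N) = c' at *
    linear_combination (c * c') * hxy' - a * c' * hu + a' * c * hv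
  · rintro ⟨u, hu⟩
    obtain ⟨w, rfl⟩ := ZMod.intCast_surjective u
    let g : SL(2, ℤ) := ⟨!![w, -1; 1, 0], by simp [Matrix.det_fin_two_of]⟩
    have hg00 : g 0 0 = w := rfl
    have hg10 : g 1 0 = 1 := rfl
    have hgfix : σ • (g : SL(2, ℤ) ⧸ Gamma0 N) = (g : SL(2, ℤ) ⧸ Gamma0 N) := by
      rw [hσ, hg00, hg10]
      push_cast
      linear_combination hu
    refine ⟨⟨(g : SL(2, ℤ) ⧸ Gamma0 N), hgfix⟩, ?_⟩
    apply Subtype.ext
    show (((g : SL(2, ℤ) ⧸ Gamma0 N).out 0 0 : ℤ) : ZMod N)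
      * (((g : SL(2, ℤ) ⧸ Gamma0 N).out 1 0 : ℤ) : ZMod N)⁻¹ = (w : ZMod N)
    have h1 := (mk_eq_mk_iff N ((g : SL(2, ℤ) ⧸ Gamma0 N).out) g).mp (QuotientGroup.out_eq' _)
    rw [hg00, hg10] at h1
    have hu' := ZMod.mul_inv_of_unit _ (hunit ⟨(g : SL(2, ℤ) ⧸ Gamma0 N), hgfix⟩)
    push_cast at h1
    generalize (((g : SL(2, ℤ) ⧸ Gamma0 N).out 0 0 : ℤ) : ZMod N) = a at *
    generalize (((g : SL(2, ℤ) ⧸ Gamma0 N).out 1 0 : ℤ) : ZMod N) = c at *
    linear_combination c⁻¹ * h1 + (w : ZMod N) * hu'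

theorem S_smul_mk_eq_iff (g : SL(2, ℤ)) :
    (ModularGroup.S • (g : SL(2, ℤ) ⧸ Gamma0 N) = (g : SL(2, ℤ) ⧸ Gamma0 N)) ↔
      ((g 0 0 ^ 2 + g 1 0 ^ 2 : ℤ) : ZMod N) = 0 := by
  rw [show ModularGroup.S • (g : SL(2, ℤ) ⧸ Gamma0 N)
      = ((ModularGroup.S * g : SL(2, ℤ)) : SL(2, ℤ) ⧸ Gamma0 N) from rfl, mk_eq_mk_iff]
  have h : ((ModularGroup.S * g : SL(2, ℤ)) 0 0 * g 1 0
      - g 0 0 * (ModularGroup.S * g : SL(2, ℤ)) 1 0 : ℤ) = - (g 0 0 ^ 2 + g 1 0 ^ 2) := by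
    rw [Matrix.SpecialLinearGroup.coe_mul]
    simp [ModularGroup.S, Matrix.mul_apply, Fin.sum_univ_two]
    ring
  rw [h]
  push_cast
  rw [neg_eq_zero]

theorem ST_smul_mk_eq_iff (g : SL(2, ℤ)) :
    ((ModularGroup.S * ModularGroup.T) • (g : SL(2, ℤ) ⧸ Gamma0 N)
        = (g : SL(2, ℤ) ⧸ Gamma0 N)) ↔
      ((g 0 0 ^ 2 + g 0 0 * g 1 0 + g 1 0 ^ 2 : ℤ) : ZMod N) = 0 := by
  rw [show (ModularGroup.S * ModularGroup.T) • (g : SL(2, ℤ) ⧸ Gamma0 N)
      = ((ModularGroup.S * ModularGroup.T * g : SL(2, ℤ)) : SL(2, ℤ) ⧸ Gamma0 N) from rfl,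
    mk_eq_mk_iff]
  have h : ((ModularGroup.S * ModularGroup.T * g : SL(2, ℤ)) 0 0 * g 1 0
      - g 0 0 * (ModularGroup.S * ModularGroup.T * g : SL(2, ℤ)) 1 0 : ℤ)
      = - (g 0 0 ^ 2 + g 0 0 * g 1 0 + g 1 0 ^ 2) := by
    rw [Matrix.SpecialLinearGroup.coe_mul, Matrix.SpecialLinearGroup.coe_mul]
    simp [ModularGroup.S, ModularGroup.T, Matrix.mul_apply, Fin.sum_univ_two]
    ring
  rw [h]
  push_cast
  rw [neg_eq_zero]

/-- The number of cosets of `Gamma0 N` fixed by `S` is `nuTwo N`. -/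
theorem card_fixedBy_S :
    Nat.card (MulAction.fixedBy (SL(2, ℤ) ⧸ Gamma0 N) ModularGroup.S) = ModularCurve.nuTwo N := by
  rw [card_fixedBy_generic N ModularGroup.S 0 (fun g => by
    rw [S_smul_mk_eq_iff]; simp), ModularCurve.nuTwo]
  exact Nat.card_congr (Equiv.subtypeEquivRight (fun x => by simp))

/-- The number of cosets of `Gamma0 N` fixed by `S * T` is `nuThree N`. -/
theorem card_fixedBy_ST :
    Nat.card (MulAction.fixedBy (SL(2, ℤ) ⧸ Gamma0 N) (ModularGroup.S * ModularGroup.T))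
      = ModularCurve.nuThree N := by
  rw [card_fixedBy_generic N (ModularGroup.S * ModularGroup.T) 1 (fun g => by
    rw [ST_smul_mk_eq_iff]; simp), ModularCurve.nuThree]
  exact Nat.card_congr (Equiv.subtypeEquivRight (fun x => by simp))

end Fixed


theorem dedekindPsi_mul_prime_of_dvd {N p : ℕ} (hN : N ≠ 0) (hp : p.Prime) (hpN : p ∣ N) :
    ModularCurve.dedekindPsi (N * p) = ModularCurve.dedekindPsi N * p := by
  unfold ModularCurve.dedekindPsi
  have hfilter : (N * p).divisors.filter Squarefree = N.divisors.filter Squarefree := by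
    ext d
    simp only [Finset.mem_filter, Nat.mem_divisors]
    constructor
    · rintro ⟨⟨hd, _⟩, hsq⟩
      refine ⟨⟨?_, hN⟩, hsq⟩
      have : d ∣ N ^ 2 := hd.trans (by rw [sq]; exact mul_dvd_mul_left N hpN)
      exact (hsq.dvd_pow_iff_dvd (by norm_num)).mp this
    · rintro ⟨⟨hd, _⟩, hsq⟩
      exact ⟨⟨hd.mul_right p, mul_ne_zero hN hp.ne_zero⟩, hsq⟩
  rw [hfilter, Finset.sum_mul]
  refine Finset.sum_congr rfl (fun d hd => ?_)
  have hdN : d ∣ N := (Nat.mem_divisors.mp (Finset.mem_filter.mp hd).1).1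
  exact Nat.mul_div_right_comm hdN p

theorem dedekindPsi_mul_prime_of_not_dvd {N p : ℕ} (hN : N ≠ 0) (hp : p.Prime) (hpN : ¬ p ∣ N) :
    ModularCurve.dedekindPsi (N * p) = ModularCurve.dedekindPsi N * (p + 1) := by
  unfold ModularCurve.dedekindPsi
  have hdiv : (N * p).divisors = N.divisors ∪ N.divisors.image (· * p) := by
    ext d
    simp only [Finset.mem_union, Finset.mem_image, Nat.mem_divisors]
    constructor
    · rintro ⟨hd, hne⟩
      by_cases hpd : p ∣ d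
      · right
        obtain ⟨e, rfl⟩ := hpd
        refine ⟨e, ⟨?_, hN⟩, mul_comm _ _⟩
        rw [mul_comm p e] at hd
        exact Nat.dvd_of_mul_dvd_mul_right hp.pos hd
      · left
        exact ⟨(Nat.Coprime.dvd_mul_right ((Nat.Prime.coprime_iff_not_dvd hp).mpr hpd).symm).mp hd, hN⟩
    · rintro (⟨hd, _⟩ | ⟨e, ⟨he, _⟩, rfl⟩)
      · exact ⟨hd.mul_right p, mul_ne_zero hN hp.ne_zero⟩
      · exact ⟨mul_dvd_mul_right he p, mul_ne_zero hN hp.ne_zero⟩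
  have hdisj : Disjoint (N.divisors.filter Squarefree)
      ((N.divisors.image (· * p)).filter Squarefree) := by
    rw [Finset.disjoint_left]
    intro d hd hd'
    simp only [Finset.mem_filter, Finset.mem_image, Nat.mem_divisors] at hd hd'
    obtain ⟨⟨e, _, rfl⟩, _⟩ := hd'
    exact hpN ((dvd_mul_left p e).trans hd.1.1)
  rw [hdiv, Finset.filter_union, Finset.sum_union hdisj, Finset.filter_image,
    Finset.sum_image (fun x _ y _ h => Nat.eq_of_mul_eq_mul_right hp.pos h), mul_add, mul_one,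
    Finset.sum_mul]
  have hfilter : N.divisors.filter (fun d => Squarefree (d * p)) = N.divisors.filter Squarefree := by
    ext d
    simp only [Finset.mem_filter, Nat.mem_divisors]
    constructor
    · rintro ⟨h1, h2⟩
      exact ⟨h1, (Nat.squarefree_mul_iff.mp h2).2.1⟩
    · rintro ⟨h1, h2⟩
      refine ⟨h1, Nat.squarefree_mul_iff.mpr ⟨?_, h2, hp.squarefree⟩⟩
      exact ((Nat.Prime.coprime_iff_not_dvd hp).mpr (fun h => hpN (h.trans h1.1))).symm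
  rw [hfilter]
  congr 1
  · refine Finset.sum_congr rfl (fun d hd => ?_)
    have hdN : d ∣ N := (Nat.mem_divisors.mp (Finset.mem_filter.mp hd).1).1
    exact Nat.mul_div_right_comm hdN p
  · refine Finset.sum_congr rfl (fun d hd => ?_)
    exact Nat.mul_div_mul_right N d hp.pos

theorem mem_Gamma0_iff_dvd (N : ℕ) (g : SL(2, ℤ)) : g ∈ Gamma0 N ↔ (N : ℤ) ∣ g 1 0 := by
  rw [Gamma0_mem, ZMod.intCast_zmod_eq_zero_iff_dvd]

theorem inv_mul_apply_one_zero (g g' : SL(2, ℤ)) :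
    ((g⁻¹ * g' : SL(2, ℤ)) 1 0 : ℤ) = g 0 0 * g' 1 0 - g' 0 0 * g 1 0 := by
  have h1 : (g⁻¹ : SL(2, ℤ)) 1 0 = - g 1 0 := by
    rw [Matrix.SpecialLinearGroup.SL2_inv_expl]; rfl
  have h2 : (g⁻¹ : SL(2, ℤ)) 1 1 = g 0 0 := by
    rw [Matrix.SpecialLinearGroup.SL2_inv_expl]; rfl
  rw [Matrix.SpecialLinearGroup.coe_mul, Matrix.mul_apply, Fin.sum_univ_two, h1, h2]
  ring

/-- explicit element of `SL(2, ℤ)` -/
def mk2 (a b c d : ℤ) (h : a * d - b * c = 1) : SL(2, ℤ) :=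
  ⟨!![a, b; c, d], by rw [Matrix.det_fin_two_of]; exact h⟩

theorem mk2_zero_zero (a b c d : ℤ) (h : a * d - b * c = 1) : (mk2 a b c d h) 0 0 = a := rfl
theorem mk2_one_zero (a b c d : ℤ) (h : a * d - b * c = 1) : (mk2 a b c d h) 1 0 = c := rfl
theorem mk2_zero_one (a b c d : ℤ) (h : a * d - b * c = 1) : (mk2 a b c d h) 0 1 = b := rfl
theorem mk2_one_one (a b c d : ℤ) (h : a * d - b * c = 1) : (mk2 a b c d h) 1 1 = d := rfl

section RelIndex

variable (N p : ℕ) [NeZero N] [Fact p.Prime]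

/-- invariant of a coset of `Gamma0 (N * p)` inside `Gamma0 N` -/
noncomputable def phi (g : SL(2, ℤ)) : Option (ZMod p) :=
  if ((g 0 0 : ℤ) : ZMod p) = 0 then none
  else some (((g 1 0 / (N : ℤ) : ℤ) : ZMod p) * ((g 0 0 : ℤ) : ZMod p)⁻¹)

theorem phi_nondeg {g : SL(2, ℤ)} (hg : g ∈ Gamma0 N) :
    ¬ (((g 0 0 : ℤ) : ZMod p) = 0 ∧ ((g 1 0 / (N : ℤ) : ℤ) : ZMod p) = 0) := by
  rintro ⟨h1, h2⟩
  obtain ⟨γ, hγ⟩ := (mem_Gamma0_iff_dvd N g).mp hg
  have hN : (N : ℤ) ≠ 0 := by exact_mod_cast NeZero.ne N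
  have hdiv : g 1 0 / (N : ℤ) = γ := by rw [hγ, Int.mul_ediv_cancel_left _ hN]
  rw [hdiv] at h2
  have hdet := det_eq g
  rw [hγ] at hdet
  have := congrArg (Int.cast : ℤ → ZMod p) hdet
  push_cast at this
  rw [h1, h2] at this
  simp at this

theorem inv_mul_mem_iff {g g' : SL(2, ℤ)} (hg : g ∈ Gamma0 N) (hg' : g' ∈ Gamma0 N) :
    g⁻¹ * g' ∈ Gamma0 (N * p) ↔ phi N p g = phi N p g' := by
  obtain ⟨γ, hγ⟩ := (mem_Gamma0_iff_dvd N g).mp hg
  obtain ⟨γ', hγ'⟩ := (mem_Gamma0_iff_dvd N g').mp hg'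
  have hN : (N : ℤ) ≠ 0 := by exact_mod_cast NeZero.ne N
  have hdiv : g 1 0 / (N : ℤ) = γ := by rw [hγ, Int.mul_ediv_cancel_left _ hN]
  have hdiv' : g' 1 0 / (N : ℤ) = γ' := by rw [hγ', Int.mul_ediv_cancel_left _ hN]
  have hnd := phi_nondeg N p hg
  have hnd' := phi_nondeg N p hg'
  rw [hdiv] at hnd
  rw [hdiv'] at hnd'
  have key : g⁻¹ * g' ∈ Gamma0 (N * p) ↔
      ((g 0 0 : ℤ) : ZMod p) * ((γ' : ℤ) : ZMod p) - ((g' 0 0 : ℤ) : ZMod p) * ((γ : ℤ) : ZMod p) = 0 := by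
    rw [mem_Gamma0_iff_dvd, inv_mul_apply_one_zero, hγ, hγ']
    have : g 0 0 * ((N : ℤ) * γ') - g' 0 0 * ((N : ℤ) * γ) = (N : ℤ) * (g 0 0 * γ' - g' 0 0 * γ) := by ring
    rw [this]
    push_cast
    rw [mul_dvd_mul_iff_left hN, ← ZMod.intCast_zmod_eq_zero_iff_dvd]
    push_cast
    rfl
  rw [key]
  unfold phi
  rw [hdiv, hdiv']
  generalize ((g 0 0 : ℤ) : ZMod p) = a at *
  generalize ((g' 0 0 : ℤ) : ZMod p) = a' at *
  generalize ((γ : ℤ) : ZMod p) = c at *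
  generalize ((γ' : ℤ) : ZMod p) = c' at *
  by_cases ha : a = 0
  · by_cases ha' : a' = 0
    · simp [ha, ha']
    · have hc : c ≠ 0 := fun h => hnd ⟨ha, h⟩
      simp [ha, ha', hc]
  · by_cases ha' : a' = 0
    · have hc' : c' ≠ 0 := fun h => hnd' ⟨ha', h⟩
      simp [ha, ha', hc']
    · simp only [ha, ha', if_false, Option.some.injEq]
      constructor
      · intro h
        field_simp
        linear_combination -h
      · intro h
        field_simp at h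
        linear_combination -h

theorem Gamma0_mul_le : Gamma0 (N * p) ≤ Gamma0 N := by
  intro g hg
  rw [mem_Gamma0_iff_dvd] at hg ⊢
  exact (Dvd.intro _ (by push_cast; rfl)).trans hg

/-- lower unipotent element of `Gamma0 N` -/
def lowerElt (t : ℤ) : SL(2, ℤ) := mk2 1 0 ((N : ℤ) * t) 1 (by ring)

theorem lowerElt_mem (t : ℤ) : lowerElt N t ∈ Gamma0 N := by
  rw [mem_Gamma0_iff_dvd]
  exact Dvd.intro _ rfl

theorem phi_lowerElt (t : ℤ) : phi N p (lowerElt N t) = some (t : ZMod p) := by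
  have hN : (N : ℤ) ≠ 0 := by exact_mod_cast NeZero.ne N
  have h00 : (lowerElt N t) 0 0 = 1 := rfl
  have h10 : (lowerElt N t) 1 0 = (N : ℤ) * t := rfl
  unfold phi
  rw [h00, h10, Int.mul_ediv_cancel_left _ hN]
  simp

theorem exists_phi_eq_none (hpN : ¬ p ∣ N) : ∃ g ∈ Gamma0 N, phi N p g = none := by
  have hp : p.Prime := Fact.out
  have hcop : IsCoprime (p : ℤ) (N : ℤ) := by
    rw [Int.isCoprime_iff_gcd_eq_one, Int.gcd_natCast_natCast]
    exact (Nat.Prime.coprime_iff_not_dvd hp).mpr hpN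
  obtain ⟨u, v, huv⟩ := hcop
  -- u * p + v * N = 1
  refine ⟨mk2 (p : ℤ) (-v) (N : ℤ) u (by linear_combination huv), ?_, ?_⟩
  · rw [mem_Gamma0_iff_dvd, mk2_one_zero]
  · unfold phi
    rw [mk2_zero_zero]
    simp

theorem phi_ne_none_of_dvd (hpN : p ∣ N) {g : SL(2, ℤ)} (hg : g ∈ Gamma0 N) :
    phi N p g ≠ none := by
  unfold phi
  have : ((g 0 0 : ℤ) : ZMod p) ≠ 0 := by
    intro h
    obtain ⟨γ, hγ⟩ := (mem_Gamma0_iff_dvd N g).mp hg
    have hdet := det_eq g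
    rw [hγ] at hdet
    have := congrArg (Int.cast : ℤ → ZMod p) hdet
    push_cast at this
    rw [h, (ZMod.natCast_eq_zero_iff N p).mpr hpN] at this
    simp at this
  simp [this]

theorem relIndex_Gamma0_mul_prime :
    (Gamma0 (N * p)).relIndex (Gamma0 N) = if p ∣ N then p else p + 1 := by
  classical
  have hp : p.Prime := Fact.out
  have : NeZero p := ⟨hp.ne_zero⟩
  rw [Subgroup.relIndex, Subgroup.index]
  set Q := (Gamma0 N) ⧸ (Gamma0 (N * p)).subgroupOf (Gamma0 N) with hQ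
  let f : Q → Option (ZMod p) := fun x => phi N p (x.out : SL(2, ℤ))
  have hmk : ∀ g g' : Gamma0 N, ((g : Q) = (g' : Q)) ↔ phi N p g = phi N p g' := by
    intro g g'
    rw [QuotientGroup.eq, Subgroup.mem_subgroupOf, ← inv_mul_mem_iff N p g.2 g'.2]
    rfl
  have hf : ∀ g : Gamma0 N, f (g : Q) = phi N p g := by
    intro g
    exact (hmk _ _).mp (QuotientGroup.out_eq' (g : Q))
  have hinj : Function.Injective f := by
    intro x y hxy
    rw [← QuotientGroup.out_eq' x, ← QuotientGroup.out_eq' y]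
    exact (hmk _ _).mpr hxy
  have hsome : ∀ t : ZMod p, some t ∈ Set.range f := by
    intro t
    obtain ⟨w, rfl⟩ := ZMod.intCast_surjective t
    exact ⟨((⟨lowerElt N w, lowerElt_mem N w⟩ : Gamma0 N) : Q), by rw [hf]; exact phi_lowerElt N p w⟩
  rw [← Nat.card_range_of_injective hinj]
  split_ifs with hpN
  · have hrange : Set.range f = Set.range (some : ZMod p → Option (ZMod p)) := by
      ext v
      constructor
      · rintro ⟨x, rfl⟩
        have := phi_ne_none_of_dvd N p hpN (x.out).2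
        cases h : f x with
        | none => exact absurd h this
        | some t => exact ⟨t, rfl⟩
      · rintro ⟨t, rfl⟩
        exact hsome t
    rw [hrange, Nat.card_range_of_injective (Option.some_injective _), Nat.card_eq_fintype_card,
      ZMod.card]
  · have hrange : Set.range f = Set.univ := by
      ext v
      simp only [Set.mem_univ, iff_true]
      cases v with
      | none =>
        obtain ⟨g, hg, hgn⟩ := exists_phi_eq_none N p hpN
        exact ⟨((⟨g, hg⟩ : Gamma0 N) : Q), by rw [hf]; exact hgn⟩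
      | some t => exact hsome t
    rw [hrange, Nat.card_eq_fintype_card]
    simp [Fintype.card_option, ZMod.card]

end RelIndex

/-- The index of `Gamma0 N` in `SL(2, ℤ)` is the Dedekind psi function. -/
theorem index_Gamma0_aux : ∀ N : ℕ, N ≠ 0 → (Gamma0 N).index = ModularCurve.dedekindPsi N := by
  intro N
  induction N using Nat.strong_induction_on with
  | _ N ih =>
    intro hN
    by_cases h1 : N = 1
    · subst h1
      have htop : Gamma0 1 = ⊤ := by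
        ext g
        simp only [Subgroup.mem_top, iff_true]
        rw [Gamma0_mem]
        exact Subsingleton.elim _ _
      rw [htop, Subgroup.index_top, ModularCurve.dedekindPsi_one]
    · have hp : (N.minFac).Prime := Nat.minFac_prime h1
      have hdvd : N.minFac ∣ N := Nat.minFac_dvd N
      have hNeq : N = (N / N.minFac) * N.minFac := (Nat.div_mul_cancel hdvd).symm
      set p := N.minFac with hpdef
      set M := N / p with hMdef
      have hM0 : M ≠ 0 := fun h => hN (by rw [hNeq, h, zero_mul])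
      have hMlt : M < N := Nat.div_lt_self (Nat.pos_of_ne_zero hN) hp.one_lt
      have hihM := ih M hMlt hM0
      have : NeZero M := ⟨hM0⟩
      have : Fact p.Prime := ⟨hp⟩
      have hrel := relIndex_Gamma0_mul_prime M p
      have hmul := Subgroup.relIndex_mul_index (Gamma0_mul_le M p)
      rw [hNeq, ← hmul, hrel, hihM]
      split_ifs with hpM
      · rw [dedekindPsi_mul_prime_of_dvd hM0 hp hpM, mul_comm]
      · rw [dedekindPsi_mul_prime_of_not_dvd hM0 hp hpM, mul_comm]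

/-- The index of `Gamma0 N` in `SL(2, ℤ)` is the Dedekind psi function. -/
theorem index_Gamma0 (N : ℕ) [NeZero N] : (Gamma0 N).index = ModularCurve.dedekindPsi N :=
  index_Gamma0_aux N (NeZero.ne N)

/-- The number of cosets of `Gamma0 N` is the Dedekind psi function. -/
theorem card_quotient (N : ℕ) [NeZero N] :
    Nat.card (SL(2, ℤ) ⧸ Gamma0 N) = ModularCurve.dedekindPsi N :=
  index_Gamma0 N

theorem nt_gcd_dvd {N : ℕ} {a c a' c' n : ℤ} (h : IsCoprime a c)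
    (hdvd : (N : ℤ) ∣ (a + n * c) * c' - a' * c) : Int.gcd c N ∣ Int.gcd c' N := by
  apply Int.dvd_gcd _ (Int.gcd_dvd_right c N)
  have h1 : ((Int.gcd c N : ℕ) : ℤ) ∣ c := Int.gcd_dvd_left c N
  have h2 : ((Int.gcd c N : ℕ) : ℤ) ∣ (N : ℤ) := Int.gcd_dvd_right c N
  have h3 : ((Int.gcd c N : ℕ) : ℤ) ∣ (a + n * c) * c' := by
    have := (h2.trans hdvd)
    have h4 : ((Int.gcd c N : ℕ) : ℤ) ∣ a' * c := h1.mul_left a'
    have := dvd_add this h4
    simpa using this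
  have hcop : IsCoprime ((Int.gcd c N : ℕ) : ℤ) (a + n * c) :=
    ((h.add_mul_right_left n).of_isCoprime_of_dvd_right h1).symm
  exact hcop.dvd_of_dvd_mul_left h3

theorem nt_gcd_eq {N : ℕ} {a c a' c' n : ℤ} (h : IsCoprime a c) (h' : IsCoprime a' c')
    (hdvd : (N : ℤ) ∣ (a + n * c) * c' - a' * c) : Int.gcd c N = Int.gcd c' N := by
  apply Nat.dvd_antisymm (nt_gcd_dvd h hdvd)
  -- symmetric: N ∣ (a' + 0 * c') * c - a * c' - n c c' ... use direct argument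
  apply Int.dvd_gcd _ (Int.gcd_dvd_right c' N)
  have h1 : ((Int.gcd c' N : ℕ) : ℤ) ∣ c' := Int.gcd_dvd_left c' N
  have h2 : ((Int.gcd c' N : ℕ) : ℤ) ∣ (N : ℤ) := Int.gcd_dvd_right c' N
  have h3 : ((Int.gcd c' N : ℕ) : ℤ) ∣ a' * c := by
    have h4 : ((Int.gcd c' N : ℕ) : ℤ) ∣ (a + n * c) * c' := h1.mul_left _
    have := dvd_sub h4 (h2.trans hdvd)
    simpa using this
  have hcop : IsCoprime ((Int.gcd c' N : ℕ) : ℤ) a' := (h'.of_isCoprime_of_dvd_right h1).symm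
  exact hcop.dvd_of_dvd_mul_left h3

theorem nt_crit {N : ℕ} (hN : N ≠ 0) {a c a' c' : ℤ} {δ : ℕ}
    (hδ : Int.gcd c N = δ) (hδ' : Int.gcd c' N = δ) :
    (∃ n : ℤ, (N : ℤ) ∣ (a + n * c) * c' - a' * c) ↔
      ((Nat.gcd δ (N / δ) : ℕ) : ℤ) ∣ a * (c' / δ) - a' * (c / δ) := by
  have hδN : δ ∣ N := by rw [← hδ]; exact Int.natCast_dvd_natCast.mp (Int.gcd_dvd_right c N)
  have hδ0 : δ ≠ 0 := fun h => hN (by rw [h] at hδN; exact Nat.eq_zero_of_zero_dvd hδN)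
  have hδ0' : (δ : ℤ) ≠ 0 := by exact_mod_cast hδ0
  obtain ⟨M, hM⟩ := hδN
  have hM0 : M ≠ 0 := fun h => hN (by rw [hM, h, mul_zero])
  have hdivM : N / δ = M := by rw [hM, Nat.mul_div_cancel_left _ (Nat.pos_of_ne_zero hδ0)]
  obtain ⟨γ, hγ⟩ : (δ : ℤ) ∣ c := by rw [← hδ]; exact Int.gcd_dvd_left c N
  obtain ⟨γ', hγ'⟩ : (δ : ℤ) ∣ c' := by rw [← hδ']; exact Int.gcd_dvd_left c' N
  have hcγ : c / δ = γ := by rw [hγ, Int.mul_ediv_cancel_left _ hδ0']
  have hcγ' : c' / δ = γ' := by rw [hγ', Int.mul_ediv_cancel_left _ hδ0']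
  have hcopγ : IsCoprime γ (M : ℤ) := by
    rw [Int.isCoprime_iff_gcd_eq_one]
    have h := Int.gcd_div_gcd_div_gcd (i := c) (j := (N : ℤ)) (by rw [hδ]; exact Nat.pos_of_ne_zero hδ0)
    rw [hδ, hcγ] at h
    have : (N : ℤ) / (δ : ℤ) = (M : ℤ) := by
      rw [hM]; push_cast; rw [Int.mul_ediv_cancel_left _ hδ0']
    rwa [this] at h
  have hcopγ' : IsCoprime γ' (M : ℤ) := by
    rw [Int.isCoprime_iff_gcd_eq_one]
    have h := Int.gcd_div_gcd_div_gcd (i := c') (j := (N : ℤ)) (by rw [hδ']; exact Nat.pos_of_ne_zero hδ0)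
    rw [hδ', hcγ'] at h
    have : (N : ℤ) / (δ : ℤ) = (M : ℤ) := by
      rw [hM]; push_cast; rw [Int.mul_ediv_cancel_left _ hδ0']
    rwa [this] at h
  rw [hcγ, hcγ', hdivM]
  have hkey : ∀ n : ℤ, (N : ℤ) ∣ (a + n * c) * c' - a' * c ↔
      (M : ℤ) ∣ (a * γ' - a' * γ) + n * (δ * γ * γ') := by
    intro n
    have : (a + n * c) * c' - a' * c = (δ : ℤ) * ((a * γ' - a' * γ) + n * (δ * γ * γ')) := by
      rw [hγ, hγ']; ring
    rw [this, hM]
    push_cast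
    exact mul_dvd_mul_iff_left hδ0'
  have hm1 : ((Nat.gcd δ M : ℕ) : ℤ) ∣ (M : ℤ) := Int.natCast_dvd_natCast.mpr (Nat.gcd_dvd_right δ M)
  have hm2 : ((Nat.gcd δ M : ℕ) : ℤ) ∣ (δ : ℤ) := Int.natCast_dvd_natCast.mpr (Nat.gcd_dvd_left δ M)
  constructor
  · rintro ⟨n, hn⟩
    rw [hkey] at hn
    have h1 := hm1.trans hn
    have h2 : ((Nat.gcd δ M : ℕ) : ℤ) ∣ n * (δ * γ * γ') :=
      Dvd.dvd.mul_left (Dvd.dvd.mul_right (Dvd.dvd.mul_right hm2 γ) γ') n
    have := dvd_sub h1 h2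
    simpa using this
  · rintro ⟨k, hk⟩
    obtain ⟨s, t, hst⟩ : IsCoprime (γ * γ') (M : ℤ) := hcopγ.mul_left hcopγ'
    have hbez := Nat.gcd_eq_gcd_ab δ M
    set u := Nat.gcdA δ M
    set v := Nat.gcdB δ M
    refine ⟨-(u * s * k), ?_⟩
    rw [hkey, hk]
    refine ⟨k * (u * δ * t + v), ?_⟩
    rw [hbez]
    linear_combination (-(k * u * δ)) * hst

theorem nt_unit {m : ℕ} {a γ a' γ' : ℤ} (hγ : IsCoprime (m : ℤ) γ) (hγ' : IsCoprime (m : ℤ) γ') :
    ((a : ZMod m) * (γ : ZMod m)⁻¹ = (a' : ZMod m) * (γ' : ZMod m)⁻¹) ↔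
      (m : ℤ) ∣ a * γ' - a' * γ := by
  have hu := ZMod.mul_inv_of_unit _ ((ZMod.coe_int_isUnit_iff_isCoprime γ m).mpr hγ)
  have hu' := ZMod.mul_inv_of_unit _ ((ZMod.coe_int_isUnit_iff_isCoprime γ' m).mpr hγ')
  rw [← ZMod.intCast_zmod_eq_zero_iff_dvd]
  push_cast
  generalize (γ : ZMod m) = x at *
  generalize (γ' : ZMod m) = x' at *
  generalize (a : ZMod m) = y at *
  generalize (a' : ZMod m) = y' at *
  constructor
  · intro h
    linear_combination (x * x') * h - y * x' * hu + y' * x * hu'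
  · intro h
    linear_combination (x⁻¹ * x'⁻¹) * h - y * x⁻¹ * hu' + y' * x'⁻¹ * hu


theorem isCoprime_col (g : SL(2, ℤ)) : IsCoprime (g 0 0) (g 1 0) :=
  ⟨g 1 1, - g 0 1, by linear_combination det_eq g⟩

theorem mk_eq_mk_iff' (N : ℕ) (g g' : SL(2, ℤ)) :
    ((g : SL(2, ℤ) ⧸ Gamma0 N) = (g' : SL(2, ℤ) ⧸ Gamma0 N)) ↔
      (N : ℤ) ∣ g 0 0 * g' 1 0 - g' 0 0 * g 1 0 := by
  rw [QuotientGroup.eq, Gamma0_mem, ZMod.intCast_zmod_eq_zero_iff_dvd]
  have h1 : (g⁻¹ : SL(2, ℤ)) 1 0 = - g 1 0 := by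
    rw [Matrix.SpecialLinearGroup.SL2_inv_expl]; rfl
  have h2 : (g⁻¹ : SL(2, ℤ)) 1 1 = g 0 0 := by
    rw [Matrix.SpecialLinearGroup.SL2_inv_expl]; rfl
  have h : ((g⁻¹ * g' : SL(2, ℤ)) 1 0 : ℤ) = g 0 0 * g' 1 0 - g' 0 0 * g 1 0 := by
    rw [Matrix.SpecialLinearGroup.coe_mul, Matrix.mul_apply, Fin.sum_univ_two, h1, h2]
    ring
  rw [h]

theorem T_zpow_mul_apply (n : ℤ) (g : SL(2, ℤ)) :
    (ModularGroup.T ^ n * g : SL(2, ℤ)) 0 0 = g 0 0 + n * g 1 0 ∧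
    (ModularGroup.T ^ n * g : SL(2, ℤ)) 1 0 = g 1 0 := by
  rw [Matrix.SpecialLinearGroup.coe_mul, ModularGroup.coe_T_zpow]
  simp [Matrix.mul_apply, Fin.sum_univ_two]

section Cusps

variable (N : ℕ)

/-- the divisor invariant of a cusp -/
def cdelta (g : SL(2, ℤ)) : ℕ := Int.gcd (g 1 0) N

/-- the unit invariant with explicit modulus -/
noncomputable def cunitAt (m δ : ℕ) (g : SL(2, ℤ)) : ZMod m :=
  ((g 0 0 : ℤ) : ZMod m) * ((g 1 0 / (δ : ℤ) : ℤ) : ZMod m)⁻¹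

/-- the full cusp invariant -/
noncomputable def cinv (g : SL(2, ℤ)) : (_ : ℕ) × ℕ :=
  ⟨cdelta N g, (cunitAt (Nat.gcd (cdelta N g) (N / cdelta N g)) (cdelta N g) g).val⟩

/-- index set for cusps -/
def cuspIndexSet : Finset ((_ : ℕ) × ℕ) :=
  N.divisors.sigma (fun δ => (Finset.range (Nat.gcd δ (N / δ))).filter
    (Nat.Coprime (Nat.gcd δ (N / δ))))

theorem card_cuspIndexSet : (cuspIndexSet N).card = ModularCurve.cuspCount N := by
  rw [cuspIndexSet, Finset.card_sigma, ModularCurve.cuspCount]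
  exact Finset.sum_congr rfl (fun δ _ => (Nat.totient_eq_card_coprime _).symm)

variable [NeZero N]

theorem cdelta_dvd (g : SL(2, ℤ)) : cdelta N g ∣ N :=
  Int.natCast_dvd_natCast.mp (Int.gcd_dvd_right (g 1 0) N)

theorem cdelta_ne_zero (g : SL(2, ℤ)) : cdelta N g ≠ 0 := fun h => by
  have := cdelta_dvd N g
  rw [h] at this
  exact NeZero.ne N (Nat.eq_zero_of_zero_dvd this)

theorem cmod_ne_zero (g : SL(2, ℤ)) : Nat.gcd (cdelta N g) (N / cdelta N g) ≠ 0 :=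
  fun h => cdelta_ne_zero N g (Nat.eq_zero_of_gcd_eq_zero_left h)

/-- `c / δ` is coprime to the modulus -/
theorem isCoprime_cmod_div (g : SL(2, ℤ)) :
    IsCoprime ((Nat.gcd (cdelta N g) (N / cdelta N g) : ℕ) : ℤ) (g 1 0 / (cdelta N g : ℤ)) := by
  have hδ0 := cdelta_ne_zero N g
  have h := Int.gcd_div_gcd_div_gcd (i := g 1 0) (j := (N : ℤ)) (Nat.pos_of_ne_zero hδ0)
  rw [← Int.isCoprime_iff_gcd_eq_one] at h
  have h2 : ((Nat.gcd (cdelta N g) (N / cdelta N g) : ℕ) : ℤ) ∣ (N : ℤ) / (Int.gcd (g 1 0) N : ℤ) := by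
    have : (N : ℤ) / (Int.gcd (g 1 0) N : ℤ) = ((N / cdelta N g : ℕ) : ℤ) := by
      rw [cdelta]; push_cast; rfl
    rw [this]
    exact Int.natCast_dvd_natCast.mpr (Nat.gcd_dvd_right _ _)
  exact (h.of_isCoprime_of_dvd_right h2).symm

theorem isCoprime_cmod_a (g : SL(2, ℤ)) :
    IsCoprime ((Nat.gcd (cdelta N g) (N / cdelta N g) : ℕ) : ℤ) (g 0 0) := by
  have h1 : ((Nat.gcd (cdelta N g) (N / cdelta N g) : ℕ) : ℤ) ∣ g 1 0 :=
    (Int.natCast_dvd_natCast.mpr (Nat.gcd_dvd_left _ _)).trans (Int.gcd_dvd_left (g 1 0) N)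
  exact ((isCoprime_col g).of_isCoprime_of_dvd_right h1).symm

theorem cinv_mem (g : SL(2, ℤ)) : cinv N g ∈ cuspIndexSet N := by
  have hm := cmod_ne_zero N g
  have : NeZero (Nat.gcd (cdelta N g) (N / cdelta N g)) := ⟨hm⟩
  rw [cuspIndexSet, Finset.mem_sigma]
  refine ⟨Nat.mem_divisors.mpr ⟨cdelta_dvd N g, NeZero.ne N⟩, ?_⟩
  rw [Finset.mem_filter, Finset.mem_range]
  refine ⟨ZMod.val_lt _, ?_⟩
  have hu : IsUnit (cunitAt (Nat.gcd (cdelta N g) (N / cdelta N g)) (cdelta N g) g) := by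
    unfold cunitAt
    refine IsUnit.mul ((ZMod.coe_int_isUnit_iff_isCoprime _ _).mpr (isCoprime_cmod_a N g)) ?_
    have h2 := (ZMod.coe_int_isUnit_iff_isCoprime _ _).mpr (isCoprime_cmod_div N g)
    exact IsUnit.of_mul_eq_one _ (ZMod.inv_mul_of_unit _ h2)
  obtain ⟨u, hu⟩ := hu
  show Nat.Coprime _ (cunitAt (Nat.gcd (cdelta N g) (N / cdelta N g)) (cdelta N g) g).val
  rw [← hu]
  exact (ZMod.val_coe_unit_coprime u).symm

/-- two elements are in the same `T`-orbit modulo `Gamma0 N` iff their invariants agree -/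
theorem exists_T_zpow_iff (g g' : SL(2, ℤ)) :
    (∃ n : ℤ, ((ModularGroup.T ^ n * g : SL(2, ℤ)) : SL(2, ℤ) ⧸ Gamma0 N) = g') ↔
      cinv N g = cinv N g' := by
  have hstep : (∃ n : ℤ, ((ModularGroup.T ^ n * g : SL(2, ℤ)) : SL(2, ℤ) ⧸ Gamma0 N) = g') ↔
      ∃ n : ℤ, (N : ℤ) ∣ (g 0 0 + n * g 1 0) * g' 1 0 - g' 0 0 * g 1 0 := by
    refine exists_congr (fun n => ?_)
    rw [mk_eq_mk_iff', (T_zpow_mul_apply n g).1, (T_zpow_mul_apply n g).2]
  rw [hstep]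
  constructor
  · rintro ⟨n, hn⟩
    have hδ : cdelta N g = cdelta N g' := nt_gcd_eq (isCoprime_col g) (isCoprime_col g') hn
    have hcrit := (nt_crit (NeZero.ne N) (a := g 0 0) (a' := g' 0 0) (δ := cdelta N g') hδ rfl).mp ⟨n, hn⟩
    have hm := cmod_ne_zero N g'
    have : NeZero (Nat.gcd (cdelta N g') (N / cdelta N g')) := ⟨hm⟩
    unfold cinv
    rw [hδ]
    congr 1
    refine congrArg ZMod.val ?_
    unfold cunitAt
    have h1 := isCoprime_cmod_div N g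
    rw [hδ] at h1
    exact (nt_unit h1 (isCoprime_cmod_div N g')).mpr hcrit
  · intro h
    have hδ : cdelta N g = cdelta N g' := congrArg Sigma.fst h
    have hm := cmod_ne_zero N g'
    have : NeZero (Nat.gcd (cdelta N g') (N / cdelta N g')) := ⟨hm⟩
    unfold cinv at h
    rw [hδ] at h
    have h2 := ZMod.val_injective _ (eq_of_heq (Sigma.mk.inj h).2)
    unfold cunitAt at h2
    have h1 := isCoprime_cmod_div N g
    rw [hδ] at h1
    exact (nt_crit (NeZero.ne N) (δ := cdelta N g') hδ rfl).mpr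
      ((nt_unit h1 (isCoprime_cmod_div N g')).mp h2)

theorem exists_cinv_eq {s : (_ : ℕ) × ℕ} (hs : s ∈ cuspIndexSet N) : ∃ g : SL(2, ℤ), cinv N g = s := by
  obtain ⟨δ, ρ⟩ := s
  rw [cuspIndexSet, Finset.mem_sigma, Finset.mem_filter, Finset.mem_range] at hs
  obtain ⟨hδ, hρlt, hρcop⟩ := hs
  simp only at hδ hρlt hρcop
  have hδN : δ ∣ N := (Nat.mem_divisors.mp hδ).1
  have hδ0 : δ ≠ 0 := fun h => NeZero.ne N (by rw [h] at hδN; exact Nat.eq_zero_of_zero_dvd hδN)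
  have : NeZero δ := ⟨hδ0⟩
  set m := Nat.gcd δ (N / δ) with hm
  have hmδ : m ∣ δ := Nat.gcd_dvd_left _ _
  have hm0 : m ≠ 0 := fun h => hδ0 (Nat.eq_zero_of_gcd_eq_zero_left h)
  have : NeZero m := ⟨hm0⟩
  obtain ⟨u, hu⟩ := ZMod.unitsMap_surjective hmδ (ZMod.unitOfCoprime ρ hρcop.symm)
  have hcop : IsCoprime (((u : ZMod δ).val : ℕ) : ℤ) (δ : ℤ) := by
    rw [Int.isCoprime_iff_gcd_eq_one, Int.gcd_natCast_natCast]
    exact ZMod.val_coe_unit_coprime u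
  obtain ⟨x, y, hxy⟩ := hcop
  -- x * a + y * δ = 1
  let g : SL(2, ℤ) := ⟨!![(((u : ZMod δ).val : ℕ) : ℤ), -y; (δ : ℤ), x], by
    rw [Matrix.det_fin_two_of]; linear_combination hxy⟩
  have hg00 : g 0 0 = (((u : ZMod δ).val : ℕ) : ℤ) := rfl
  have hg10 : g 1 0 = (δ : ℤ) := rfl
  have hcd : cdelta N g = δ := by
    rw [cdelta, hg10, Int.gcd_natCast_natCast]
    exact Nat.gcd_eq_left hδN
  refine ⟨g, ?_⟩
  unfold cinv
  rw [hcd]
  congr 1
  unfold cunitAt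
  rw [hg00, hg10, Int.ediv_self (by exact_mod_cast hδ0)]
  have hval : (((u : ZMod δ).val : ℕ) : ZMod m) = (ρ : ZMod m) := by
    have h1 := congrArg (fun v : (ZMod m)ˣ => (v : ZMod m)) hu
    simp only [ZMod.unitsMap_val, ZMod.coe_unitOfCoprime] at h1
    rw [← h1, ZMod.cast_eq_val]
  simp only [Int.cast_natCast, Int.cast_one]
  rw [ZMod.inv_one, mul_one, hval, ZMod.val_natCast_of_lt hρlt]

/-- The number of orbits of `T` on the cosets of `Gamma0 N` is `cuspCount N`. -/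
theorem card_orbits_T :
    Nat.card (MulAction.orbitRel.Quotient (Subgroup.zpowers ModularGroup.T) (SL(2, ℤ) ⧸ Gamma0 N))
      = ModularCurve.cuspCount N := by
  classical
  set Q := MulAction.orbitRel.Quotient (Subgroup.zpowers ModularGroup.T) (SL(2, ℤ) ⧸ Gamma0 N)
  let mk : SL(2, ℤ) → Q := fun g => Quotient.mk'' (g : SL(2, ℤ) ⧸ Gamma0 N)
  have hmk : ∀ g g' : SL(2, ℤ), mk g = mk g' ↔ cinv N g = cinv N g' := by
    intro g g'
    rw [eq_comm (a := cinv N g), ← exists_T_zpow_iff]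
    show (Quotient.mk'' (g : SL(2, ℤ) ⧸ Gamma0 N) : Q) = Quotient.mk'' (g' : SL(2, ℤ) ⧸ Gamma0 N) ↔ _
    rw [Quotient.eq'', MulAction.orbitRel_apply, MulAction.mem_orbit_iff]
    constructor
    · rintro ⟨⟨h, hh⟩, hx⟩
      obtain ⟨k, rfl⟩ := Subgroup.mem_zpowers_iff.mp hh
      exact ⟨k, hx⟩
    · rintro ⟨n, hn⟩
      exact ⟨⟨ModularGroup.T ^ n, Subgroup.zpow_mem_zpowers _ n⟩, hn⟩
  have hout : ∀ q : Q, mk (q.out.out) = q := by
    intro q
    show (Quotient.mk'' ((q.out.out : SL(2, ℤ)) : SL(2, ℤ) ⧸ Gamma0 N) : Q) = q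
    rw [QuotientGroup.out_eq']
    exact Quotient.out_eq' q
  let f : Q → (_ : ℕ) × ℕ := fun q => cinv N (q.out.out)
  have hinj : Function.Injective f := by
    intro q q' h
    rw [← hout q, ← hout q']
    exact (hmk _ _).mpr h
  have hrange : Set.range f = (cuspIndexSet N : Set ((_ : ℕ) × ℕ)) := by
    ext s
    constructor
    · rintro ⟨q, rfl⟩
      exact cinv_mem N _
    · intro hs
      obtain ⟨g, hg⟩ := exists_cinv_eq N hs
      refine ⟨mk g, ?_⟩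
      show cinv N ((mk g).out.out) = s
      rw [← hg]
      exact (hmk _ _).mp (hout (mk g))
  rw [← Nat.card_range_of_injective hinj, hrange, ← card_cuspIndexSet]
  simp

end Cusps

end Fermat.Agent.Lib.Gamma0Counts
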