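import Fermat.Agent.Lib.Gamma0Count

set_option autoImplicit false

namespace Fermat.Agent.Lib.Gamma0Count

open Matrix MatrixGroups CongruenceSubgroup ModularGroup

/-! ### Number theory on pairs -/

/-- `gcd (c, N)` only depends on the coset. -/
theorem gcd_eq_of_dvd {N : ℕ} {a c a' c' : ℤ} (h : IsCoprime a c) (h' : IsCoprime a' c')
    (hN : (N : ℤ) ∣ a * c' - a' * c) : Int.gcd c N = Int.gcd c' N := by
  have key : ∀ {a c a' c' : ℤ}, IsCoprime a c → (N : ℤ) ∣ a * c' - a' * c →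
      Int.gcd c N ∣ Int.gcd c' N := by
    intro a c a' c' h hN
    have h1 : (Int.gcd c N : ℤ) ∣ (N : ℤ) := Int.gcd_dvd_right _ _
    have h2 : (Int.gcd c N : ℤ) ∣ c := Int.gcd_dvd_left _ _
    have h3 : (Int.gcd c N : ℤ) ∣ a * c' := by
      have := dvd_add (h1.trans hN) (h2.mul_left a')
      simpa using this
    have h4 : IsCoprime (Int.gcd c N : ℤ) a := (h.of_isCoprime_of_dvd_right h2).symm
    have h5 : (Int.gcd c N : ℤ) ∣ c' := h4.dvd_of_dvd_mul_left h3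
    exact Int.natCast_dvd_natCast.mp (Int.dvd_coe_gcd h5 h1)
  refine Nat.dvd_antisymm (key h hN) (key (a := a') (c := c') (a' := a) (c' := c) h' ?_)
  have : a' * c - a * c' = -(a * c' - a' * c) := by ring
  rw [this]
  exact (dvd_neg).mpr hN

/-- Bezout-type solvability. -/
theorem exists_dvd_add_mul {d e : ℕ} {r m : ℤ} (hm : IsCoprime m (e : ℤ)) :
    (∃ n : ℤ, (e : ℤ) ∣ r + n * ((d : ℤ) * m)) ↔ ((Nat.gcd d e : ℕ) : ℤ) ∣ r := by
  constructor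
  · rintro ⟨n, hn⟩
    have h1 : ((Nat.gcd d e : ℕ) : ℤ) ∣ (e : ℤ) := Int.natCast_dvd_natCast.mpr (Nat.gcd_dvd_right d e)
    have h2 : ((Nat.gcd d e : ℕ) : ℤ) ∣ (d : ℤ) := Int.natCast_dvd_natCast.mpr (Nat.gcd_dvd_left d e)
    have h3 := dvd_sub (h1.trans hn) ((h2.mul_right m).mul_left n)
    simpa using h3
  · rintro ⟨t, rfl⟩
    obtain ⟨u, w, huw⟩ := hm
    have hb : ((Nat.gcd d e : ℕ) : ℤ) = (d : ℤ) * Int.gcdA d e + (e : ℤ) * Int.gcdB d e := by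
      have := Int.gcd_eq_gcd_ab (d : ℤ) (e : ℤ)
      rwa [Int.gcd_natCast_natCast] at this
    refine ⟨-(t * Int.gcdA d e * u), ?_⟩
    rw [hb]
    refine ⟨t * Int.gcdB d e + t * Int.gcdA d e * d * w, ?_⟩
    linear_combination (-(t * Int.gcdA d e * d)) * huw

theorem val_mul_inv_eq_iff (g : ℕ) [NeZero g] (a a' γ γ' : ℤ) (hγ : IsCoprime γ (g : ℤ))
    (hγ' : IsCoprime γ' (g : ℤ)) :
    ((a : ZMod g) * (γ : ZMod g)⁻¹).val = ((a' : ZMod g) * (γ' : ZMod g)⁻¹).val ↔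
      (g : ℤ) ∣ a * γ' - a' * γ := by
  rw [(ZMod.val_injective g).eq_iff, ← ZMod.intCast_zmod_eq_zero_iff_dvd]
  have hu : IsUnit (γ : ZMod g) := (ZMod.coe_int_isUnit_iff_isCoprime γ g).mpr hγ.symm
  have hu' : IsUnit (γ' : ZMod g) := (ZMod.coe_int_isUnit_iff_isCoprime γ' g).mpr hγ'.symm
  have h1 : (γ : ZMod g) * (γ : ZMod g)⁻¹ = 1 := ZMod.mul_inv_of_unit _ hu
  have h2 : (γ' : ZMod g) * (γ' : ZMod g)⁻¹ = 1 := ZMod.mul_inv_of_unit _ hu'
  push_cast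
  constructor
  · intro h
    linear_combination ((γ : ZMod g) * (γ' : ZMod g)) * h - ((a : ZMod g) * (γ' : ZMod g)) * h1 +
      ((a' : ZMod g) * (γ : ZMod g)) * h2
  · intro h
    linear_combination ((γ : ZMod g)⁻¹ * (γ' : ZMod g)⁻¹) * h -
      ((a : ZMod g) * (γ : ZMod g)⁻¹) * h2 + ((a' : ZMod g) * (γ' : ZMod g)⁻¹) * h1

/-- `d = gcd (c, N)`. -/
def cuspD (N : ℕ) (c : ℤ) : ℕ := Int.gcd c N

/-- `gcd (d, N / d)`. -/
def cuspG (N : ℕ) (c : ℤ) : ℕ := Nat.gcd (cuspD N c) (N / cuspD N c)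

/-- The unit `a * (c / d)⁻¹` modulo `gcd (d, N / d)`, as a natural number. -/
def cuspV (N : ℕ) (a c : ℤ) : ℕ :=
  ((a : ZMod (cuspG N c)) * ((c / (cuspD N c : ℤ) : ℤ) : ZMod (cuspG N c))⁻¹).val

/-- The cusp invariant of a primitive vector `(a, c)`. -/
def cuspInv (N : ℕ) (a c : ℤ) : ℕ × ℕ := (cuspD N c, cuspV N a c)

theorem cuspD_pos {N : ℕ} (hN : N ≠ 0) (c : ℤ) : 0 < cuspD N c :=
  Int.gcd_pos_of_ne_zero_right _ (by exact_mod_cast hN)

theorem cuspD_dvd (N : ℕ) (c : ℤ) : cuspD N c ∣ N :=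
  Int.natCast_dvd_natCast.mp (Int.gcd_dvd_right c N)

theorem cuspD_dvd_left (N : ℕ) (c : ℤ) : (cuspD N c : ℤ) ∣ c := Int.gcd_dvd_left c N

theorem cuspG_pos {N : ℕ} (hN : N ≠ 0) (c : ℤ) : 0 < cuspG N c :=
  Nat.gcd_pos_of_pos_left _ (cuspD_pos hN c)

theorem cuspD_mul_div (N : ℕ) (c : ℤ) : cuspD N c * (N / cuspD N c) = N :=
  Nat.mul_div_cancel' (cuspD_dvd N c)

theorem cuspD_mul_ediv (N : ℕ) (c : ℤ) : (cuspD N c : ℤ) * (c / (cuspD N c : ℤ)) = c :=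
  Int.mul_ediv_cancel' (cuspD_dvd_left N c)

theorem isCoprime_ediv_cuspD {N : ℕ} (hN : N ≠ 0) (c : ℤ) :
    IsCoprime (c / (cuspD N c : ℤ)) ((N / cuspD N c : ℕ) : ℤ) := by
  have h := Int.gcd_div_gcd_div_gcd (i := c) (j := (N : ℤ)) (cuspD_pos hN c)
  rw [Int.isCoprime_iff_gcd_eq_one]
  have e : ((N / cuspD N c : ℕ) : ℤ) = (N : ℤ) / (Int.gcd c N : ℤ) := by
    rw [cuspD]; exact Int.natCast_div _ _
  rw [e]
  exact h

theorem isCoprime_ediv_cuspG {N : ℕ} (hN : N ≠ 0) (c : ℤ) :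
    IsCoprime (c / (cuspD N c : ℤ)) (cuspG N c : ℤ) :=
  (isCoprime_ediv_cuspD hN c).of_isCoprime_of_dvd_right
    (Int.natCast_dvd_natCast.mpr (Nat.gcd_dvd_right _ _))

theorem exists_dvd_iff_of_cuspD_eq {N : ℕ} (hN : N ≠ 0) {a c a' c' : ℤ}
    (hd : cuspD N c = cuspD N c') :
    (∃ n : ℤ, (N : ℤ) ∣ (a + n * c) * c' - a' * c) ↔
      (cuspG N c : ℤ) ∣ a * (c' / (cuspD N c' : ℤ)) - a' * (c / (cuspD N c : ℤ)) := by
  have hc : (cuspD N c : ℤ) * (c / (cuspD N c : ℤ)) = c := cuspD_mul_ediv N c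
  have hc' : (cuspD N c : ℤ) * (c' / (cuspD N c' : ℤ)) = c' := by
    rw [hd]; exact cuspD_mul_ediv N c'
  have hNde : ((cuspD N c : ℕ) : ℤ) * ((N / cuspD N c : ℕ) : ℤ) = (N : ℤ) := by
    exact_mod_cast cuspD_mul_div N c
  have hd0 : (cuspD N c : ℤ) ≠ 0 := by exact_mod_cast (cuspD_pos hN c).ne'
  have hcop : IsCoprime ((c / (cuspD N c : ℤ)) * (c' / (cuspD N c' : ℤ)))
      ((N / cuspD N c : ℕ) : ℤ) := by
    refine IsCoprime.mul_left (isCoprime_ediv_cuspD hN c) ?_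
    have := isCoprime_ediv_cuspD hN c'
    have e : N / cuspD N c' = N / cuspD N c := by rw [hd]
    rwa [e] at this
  show _ ↔ ((Nat.gcd (cuspD N c) (N / cuspD N c) : ℕ) : ℤ) ∣ _
  rw [← exists_dvd_add_mul (d := cuspD N c) (e := N / cuspD N c) hcop]
  set γ := c / (cuspD N c : ℤ) with hγ
  set γ' := c' / (cuspD N c' : ℤ) with hγ'
  refine exists_congr fun n => ?_
  have e1 : (a + n * c) * c' - a' * c =
      (cuspD N c : ℤ) * (a * γ' - a' * γ + n * ((cuspD N c : ℤ) * (γ * γ'))) := by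
    linear_combination (-a - n * c) * hc' + (a' - n * (cuspD N c : ℤ) * γ') * hc
  rw [e1, ← hNde]
  exact mul_dvd_mul_iff_left hd0

theorem cuspInv_eq_iff {N : ℕ} (hN : N ≠ 0) {a c a' c' : ℤ} (h : IsCoprime a c)
    (h' : IsCoprime a' c') :
    cuspInv N a c = cuspInv N a' c' ↔ ∃ n : ℤ, (N : ℤ) ∣ (a + n * c) * c' - a' * c := by
  have hNe : NeZero (cuspG N c) := ⟨(cuspG_pos hN c).ne'⟩
  have hval : ∀ hd : cuspD N c = cuspD N c', (cuspV N a c = cuspV N a' c' ↔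
      (cuspG N c : ℤ) ∣ a * (c' / (cuspD N c' : ℤ)) - a' * (c / (cuspD N c : ℤ))) := by
    intro hd
    have hG : cuspG N c' = cuspG N c := by unfold cuspG; rw [hd]
    have h1 := isCoprime_ediv_cuspG hN c
    have h2 := isCoprime_ediv_cuspG hN c'
    rw [hG] at h2
    unfold cuspV
    rw [hG]
    exact val_mul_inv_eq_iff (cuspG N c) a a' _ _ h1 h2
  constructor
  · intro heq
    have hd : cuspD N c = cuspD N c' := congrArg Prod.fst heq
    have hv : cuspV N a c = cuspV N a' c' := congrArg Prod.snd heq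
    exact (exists_dvd_iff_of_cuspD_eq hN hd).mpr ((hval hd).mp hv)
  · rintro ⟨n, hn⟩
    have hd : cuspD N c = cuspD N c' :=
      gcd_eq_of_dvd (h.add_mul_right_left n) h' hn
    have hv := (hval hd).mpr ((exists_dvd_iff_of_cuspD_eq hN hd).mp ⟨n, hn⟩)
    exact Prod.ext hd hv

/-! ### The invariant takes values in the expected finite set -/

theorem cuspV_lt {N : ℕ} (hN : N ≠ 0) (a c : ℤ) : cuspV N a c < cuspG N c := by
  have : NeZero (cuspG N c) := ⟨(cuspG_pos hN c).ne'⟩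
  exact ZMod.val_lt _

theorem cuspV_coprime {N : ℕ} (hN : N ≠ 0) {a c : ℤ} (h : IsCoprime a c) :
    Nat.Coprime (cuspG N c) (cuspV N a c) := by
  have : NeZero (cuspG N c) := ⟨(cuspG_pos hN c).ne'⟩
  have hgc : (cuspG N c : ℤ) ∣ c :=
    (Int.natCast_dvd_natCast.mpr (Nat.gcd_dvd_left _ _)).trans (cuspD_dvd_left N c)
  have h1 : IsUnit ((a : ℤ) : ZMod (cuspG N c)) :=
    (ZMod.coe_int_isUnit_iff_isCoprime a _).mpr (h.of_isCoprime_of_dvd_right hgc).symm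
  have h2 : IsUnit (((c / (cuspD N c : ℤ) : ℤ)) : ZMod (cuspG N c)) :=
    (ZMod.coe_int_isUnit_iff_isCoprime _ _).mpr (isCoprime_ediv_cuspG hN c).symm
  have h3 : IsUnit ((a : ZMod (cuspG N c)) *
      ((c / (cuspD N c : ℤ) : ℤ) : ZMod (cuspG N c))⁻¹) := h1.mul (ZMod.isUnit_inv h2)
  obtain ⟨u, hu⟩ := h3
  unfold cuspV
  rw [← hu]
  exact (ZMod.val_coe_unit_coprime u).symm

/-- The finite set of cusp invariants. -/
def cuspSet (N : ℕ) : Finset (ℕ × ℕ) :=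
  (N.divisors.sigma (fun d => (Finset.range (Nat.gcd d (N / d))).filter
    (fun w => (Nat.gcd d (N / d)).Coprime w))).map (Equiv.sigmaEquivProd ℕ ℕ).toEmbedding

theorem mem_cuspSet {N : ℕ} {p : ℕ × ℕ} :
    p ∈ cuspSet N ↔ p.1 ∈ N.divisors ∧ p.2 < Nat.gcd p.1 (N / p.1) ∧
      (Nat.gcd p.1 (N / p.1)).Coprime p.2 := by
  obtain ⟨d, w⟩ := p
  simp only [cuspSet, Finset.mem_map, Finset.mem_sigma, Finset.mem_filter, Finset.mem_range,
    Equiv.coe_toEmbedding, Equiv.sigmaEquivProd_apply, Sigma.exists, Prod.mk.injEq]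
  constructor
  · rintro ⟨d', w', h, rfl, rfl⟩
    exact h
  · intro h
    exact ⟨d, w, h, rfl, rfl⟩

theorem card_cuspSet (N : ℕ) : (cuspSet N).card = ModularCurve.cuspCount N := by
  rw [cuspSet, Finset.card_map, Finset.card_sigma, ModularCurve.cuspCount]
  refine Finset.sum_congr rfl fun d _ => ?_
  rw [Nat.totient_eq_card_coprime]

theorem cuspInv_mem {N : ℕ} (hN : N ≠ 0) {a c : ℤ} (h : IsCoprime a c) :
    cuspInv N a c ∈ cuspSet N := by
  rw [mem_cuspSet]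
  exact ⟨Nat.mem_divisors.mpr ⟨cuspD_dvd N c, hN⟩, cuspV_lt hN a c, cuspV_coprime hN h⟩

theorem exists_cuspInv_eq {N : ℕ} (hN : N ≠ 0) {p : ℕ × ℕ} (hp : p ∈ cuspSet N) :
    ∃ a c : ℤ, IsCoprime a c ∧ cuspInv N a c = p := by
  obtain ⟨d, w⟩ := p
  rw [mem_cuspSet] at hp
  obtain ⟨hd, hw, hcop⟩ := hp
  simp only at hd hw hcop
  have hdN : d ∣ N := (Nat.mem_divisors.mp hd).1
  have hd0 : d ≠ 0 := fun h0 => hN (by rw [h0] at hdN; exact Nat.eq_zero_of_zero_dvd hdN)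
  have : NeZero d := ⟨hd0⟩
  have hgd : Nat.gcd d (N / d) ∣ d := Nat.gcd_dvd_left _ _
  have hg0 : Nat.gcd d (N / d) ≠ 0 := Nat.gcd_ne_zero_left hd0
  have : NeZero (Nat.gcd d (N / d)) := ⟨hg0⟩
  obtain ⟨u, hu⟩ := ZMod.unitsMap_surjective hgd (ZMod.unitOfCoprime w hcop.symm)
  have hD : cuspD N (d : ℤ) = d := by
    rw [cuspD, Int.gcd_natCast_natCast]
    exact Nat.gcd_eq_left hdN
  have hG : cuspG N (d : ℤ) = Nat.gcd d (N / d) := by rw [cuspG, hD]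
  refine ⟨((u : ZMod d).val : ℤ), (d : ℤ), ?_, ?_⟩
  · rw [Int.isCoprime_iff_gcd_eq_one, Int.gcd_natCast_natCast]
    exact ZMod.val_coe_unit_coprime u
  · refine Prod.ext hD ?_
    show cuspV N _ _ = w
    unfold cuspV
    rw [hD, Int.ediv_self (by exact_mod_cast hd0), hG]
    have hu' : ((u : ZMod d).cast : ZMod (Nat.gcd d (N / d))) = (w : ZMod (Nat.gcd d (N / d))) := by
      have := congrArg Units.val hu
      rwa [ZMod.unitsMap_val, ZMod.coe_unitOfCoprime] at this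
    have e : (((u : ZMod d).val : ℤ) : ZMod (Nat.gcd d (N / d))) = (w : ZMod (Nat.gcd d (N / d))) := by
      rw [← hu']
      push_cast
      exact ZMod.natCast_val _
    have h1 : (1 : ZMod (Nat.gcd d (N / d)))⁻¹ = 1 := by
      have := ZMod.mul_inv_of_unit (1 : ZMod (Nat.gcd d (N / d))) isUnit_one
      rwa [one_mul] at this
    rw [e, Int.cast_one, h1, mul_one]
    exact ZMod.val_natCast_of_lt hw

/-! ### Cosets and `T`-orbits -/

/-- The cusp invariant of a coset `g Γ₀(N)`. -/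
def cosetCuspInv (N : ℕ) (hN : N ≠ 0) : SL(2, ℤ) ⧸ Gamma0 N → ℕ × ℕ :=
  Quotient.lift (fun g : SL(2, ℤ) => cuspInv N (g 0 0) (g 1 0)) (by
    intro g g' hgg'
    have h1 : (QuotientGroup.mk g : SL(2, ℤ) ⧸ Gamma0 N) = QuotientGroup.mk g' :=
      QuotientGroup.eq.mpr (QuotientGroup.leftRel_apply.mp hgg')
    rw [mk_eq_mk_iff] at h1
    refine (cuspInv_eq_iff hN (g.isCoprime_col 0) (g'.isCoprime_col 0)).mpr ⟨0, ?_⟩
    simpa using h1)

theorem cosetCuspInv_mk (N : ℕ) (hN : N ≠ 0) (g : SL(2, ℤ)) :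
    cosetCuspInv N hN (QuotientGroup.mk g) = cuspInv N (g 0 0) (g 1 0) := rfl

theorem cosetCuspInv_eq_iff (N : ℕ) (hN : N ≠ 0) (x y : SL(2, ℤ) ⧸ Gamma0 N) :
    cosetCuspInv N hN x = cosetCuspInv N hN y ↔ ∃ n : ℤ, T ^ n • x = y := by
  induction x using QuotientGroup.induction_on with
  | H g =>
    induction y using QuotientGroup.induction_on with
    | H g' =>
      rw [cosetCuspInv_mk, cosetCuspInv_mk,
        cuspInv_eq_iff hN (g.isCoprime_col 0) (g'.isCoprime_col 0)]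
      refine exists_congr fun n => ?_
      rw [MulAction.Quotient.smul_mk, smul_eq_mul, mk_eq_mk_iff,
        T_zpow_mul_apply_zero_zero, T_zpow_mul_apply_one_zero]

theorem cosetCuspInv_mem (N : ℕ) (hN : N ≠ 0) (x : SL(2, ℤ) ⧸ Gamma0 N) :
    cosetCuspInv N hN x ∈ cuspSet N := by
  induction x using QuotientGroup.induction_on with
  | H g => exact cuspInv_mem hN (g.isCoprime_col 0)

theorem range_cosetCuspInv (N : ℕ) (hN : N ≠ 0) :
    Set.range (cosetCuspInv N hN) = (cuspSet N : Set (ℕ × ℕ)) := by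
  ext p
  constructor
  · rintro ⟨x, rfl⟩
    exact cosetCuspInv_mem N hN x
  · intro hp
    obtain ⟨a, c, hac, rfl⟩ := exists_cuspInv_eq hN (Finset.mem_coe.mp hp)
    obtain ⟨g, hg0, hg1⟩ := hac.exists_SL2_col 0
    exact ⟨QuotientGroup.mk g, by rw [cosetCuspInv_mk, hg0, hg1]⟩

theorem orbitRel_zpowers_T_iff (N : ℕ) (x y : SL(2, ℤ) ⧸ Gamma0 N) :
    MulAction.orbitRel (Subgroup.zpowers T) (SL(2, ℤ) ⧸ Gamma0 N) x y ↔ ∃ n : ℤ, T ^ n • y = x := by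
  rw [MulAction.orbitRel_apply, MulAction.mem_orbit_iff]
  constructor
  · rintro ⟨⟨h, hh⟩, e⟩
    obtain ⟨n, rfl⟩ := Subgroup.mem_zpowers_iff.mp hh
    exact ⟨n, e⟩
  · rintro ⟨n, e⟩
    exact ⟨⟨T ^ n, Subgroup.zpow_mem_zpowers T n⟩, e⟩

/-- The number of `T`-orbits on `SL(2, ℤ) ⧸ Γ₀(N)` is the number of cusps of `Γ₀(N)`. -/
theorem card_orbits_T (N : ℕ) (hN : N ≠ 0) :
    Nat.card (MulAction.orbitRel.Quotient (Subgroup.zpowers T) (SL(2, ℤ) ⧸ Gamma0 N)) =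
      ModularCurve.cuspCount N := by
  have hker : MulAction.orbitRel (Subgroup.zpowers T) (SL(2, ℤ) ⧸ Gamma0 N) =
      Setoid.ker (cosetCuspInv N hN) := by
    ext x y
    rw [Setoid.ker_def, orbitRel_zpowers_T_iff, eq_comm, cosetCuspInv_eq_iff]
  have e1 : Nat.card (MulAction.orbitRel.Quotient (Subgroup.zpowers T) (SL(2, ℤ) ⧸ Gamma0 N)) =
      Nat.card (Set.range (cosetCuspInv N hN)) := by
    unfold MulAction.orbitRel.Quotient
    rw [hker]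
    exact Nat.card_congr (Setoid.quotientKerEquivRange _)
  rw [e1, range_cosetCuspInv, ← card_cuspSet]
  simp

/-- `T ^ N` acts trivially on `SL(2, ℤ) ⧸ Γ₀(N)`. -/
theorem T_zpow_level_smul (N : ℕ) (x : SL(2, ℤ) ⧸ Gamma0 N) : T ^ (N : ℤ) • x = x := by
  induction x using QuotientGroup.induction_on with
  | H g =>
    rw [MulAction.Quotient.smul_mk, smul_eq_mul, mk_eq_mk_iff,
      T_zpow_mul_apply_zero_zero, T_zpow_mul_apply_one_zero]
    refine ⟨g 1 0 * g 1 0, ?_⟩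
    ring

/-- Orbit relation of the cyclic group generated by `T`, in terms of the invariant. -/
theorem orbitRel_zpowers_T_iff_cosetCuspInv (N : ℕ) (hN : N ≠ 0) (x y : SL(2, ℤ) ⧸ Gamma0 N) :
    MulAction.orbitRel (Subgroup.zpowers T) (SL(2, ℤ) ⧸ Gamma0 N) x y ↔
      cosetCuspInv N hN x = cosetCuspInv N hN y := by
  rw [orbitRel_zpowers_T_iff, eq_comm, cosetCuspInv_eq_iff]

end Fermat.Agent.Lib.Gamma0Count
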