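import Fermat.Agent.Lib.Gamma0Count

set_option autoImplicit false

namespace Fermat.Agent.Lib.Gamma0Count

open Matrix MatrixGroups CongruenceSubgroup ModularGroup

theorem Gamma0_le_of_dvd {M N : ℕ} (h : M ∣ N) : Gamma0 N ≤ Gamma0 M := by
  intro g hg
  rw [Gamma0_mem, ZMod.intCast_zmod_eq_zero_iff_dvd] at hg ⊢
  exact (Int.natCast_dvd_natCast.mpr h).trans hg

theorem mem_Gamma0_iff_dvd (N : ℕ) (g : SL(2, ℤ)) : g ∈ Gamma0 N ↔ (N : ℤ) ∣ g 1 0 := by
  rw [Gamma0_mem, ZMod.intCast_zmod_eq_zero_iff_dvd]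

/-- The matrix with first column `(1, m)`. -/
def lowOne (m : ℤ) : SL(2, ℤ) := ⟨!![1, 0; m, 1], by simp [Matrix.det_fin_two_of]⟩

@[simp] theorem lowOne_apply_zero_zero (m : ℤ) : lowOne m 0 0 = 1 := rfl
@[simp] theorem lowOne_apply_one_zero (m : ℤ) : lowOne m 1 0 = m := rfl

theorem lowOne_mem (M : ℕ) (t : ℤ) : lowOne ((M : ℤ) * t) ∈ Gamma0 M := by
  rw [mem_Gamma0_iff_dvd, lowOne_apply_one_zero]
  exact dvd_mul_right _ _

theorem mk_subgroupOf_eq_iff (M p : ℕ) (k k' : Gamma0 M) :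
    (QuotientGroup.mk k : Gamma0 M ⧸ (Gamma0 (M * p)).subgroupOf (Gamma0 M)) =
        QuotientGroup.mk k' ↔
      ((M * p : ℕ) : ℤ) ∣ (k : SL(2, ℤ)) 0 0 * (k' : SL(2, ℤ)) 1 0 -
        (k' : SL(2, ℤ)) 0 0 * (k : SL(2, ℤ)) 1 0 := by
  rw [QuotientGroup.eq, Subgroup.mem_subgroupOf, Subgroup.coe_mul, Subgroup.coe_inv,
    mem_Gamma0_iff_dvd, inv_mul_apply_one_zero]

theorem mk_subgroupOf_eq_iff' (M p : ℕ) (hM : M ≠ 0) (k k' : Gamma0 M) (γ γ' : ℤ)
    (hγ : (k : SL(2, ℤ)) 1 0 = M * γ) (hγ' : (k' : SL(2, ℤ)) 1 0 = M * γ') :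
    (QuotientGroup.mk k : Gamma0 M ⧸ (Gamma0 (M * p)).subgroupOf (Gamma0 M)) =
        QuotientGroup.mk k' ↔
      (p : ℤ) ∣ (k : SL(2, ℤ)) 0 0 * γ' - (k' : SL(2, ℤ)) 0 0 * γ := by
  rw [mk_subgroupOf_eq_iff, hγ, hγ']
  have hM' : (M : ℤ) ≠ 0 := by exact_mod_cast hM
  have e : (k : SL(2, ℤ)) 0 0 * ((M : ℤ) * γ') - (k' : SL(2, ℤ)) 0 0 * ((M : ℤ) * γ) =
      (M : ℤ) * ((k : SL(2, ℤ)) 0 0 * γ' - (k' : SL(2, ℤ)) 0 0 * γ) := by ring
  rw [e, Nat.cast_mul]
  exact mul_dvd_mul_iff_left hM'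

theorem relIndex_Gamma0_mul_prime_of_dvd (M p : ℕ) (hM : M ≠ 0) (hp : p.Prime) (hpM : p ∣ M) :
    (Gamma0 (M * p)).relIndex (Gamma0 M) = p := by
  have : Fact p.Prime := ⟨hp⟩
  have hcard : Nat.card (ZMod p) = p := Nat.card_zmod p
  refine Eq.trans (Eq.symm ?_) hcard
  show Nat.card (ZMod p) = Nat.card (Gamma0 M ⧸ (Gamma0 (M * p)).subgroupOf (Gamma0 M))
  refine Nat.card_eq_of_bijective
    (fun t : ZMod p => (QuotientGroup.mk (⟨lowOne ((M : ℤ) * (ZMod.cast t : ℤ)), lowOne_mem M _⟩ :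
      Gamma0 M) : Gamma0 M ⧸ (Gamma0 (M * p)).subgroupOf (Gamma0 M))) ⟨?_, ?_⟩
  · intro t t' h
    simp only at h
    rw [mk_subgroupOf_eq_iff' M p hM _ _ (ZMod.cast t : ℤ) (ZMod.cast t' : ℤ) rfl rfl] at h
    simp only [lowOne_apply_zero_zero] at h
    rw [← ZMod.intCast_zmod_eq_zero_iff_dvd] at h
    push_cast at h
    have : t' - t = 0 := by simpa using h
    exact (sub_eq_zero.mp this).symm
  · intro q
    induction q using QuotientGroup.induction_on with
    | H k =>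
      obtain ⟨γ, hγ⟩ : ∃ γ : ℤ, (k : SL(2, ℤ)) 1 0 = M * γ := (mem_Gamma0_iff_dvd M _).mp k.2
      have hcop : IsCoprime ((k : SL(2, ℤ)) 0 0) (p : ℤ) := by
        have h1 : IsCoprime ((k : SL(2, ℤ)) 0 0) ((k : SL(2, ℤ)) 1 0) :=
          (k : SL(2, ℤ)).isCoprime_col 0
        have h2 : (p : ℤ) ∣ (k : SL(2, ℤ)) 1 0 := by
          rw [hγ]
          exact (Int.natCast_dvd_natCast.mpr hpM).mul_right _
        exact h1.of_isCoprime_of_dvd_right h2
      have hu : IsUnit (((k : SL(2, ℤ)) 0 0 : ℤ) : ZMod p) :=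
        (ZMod.coe_int_isUnit_iff_isCoprime _ _).mpr hcop.symm
      have ha : (((k : SL(2, ℤ)) 0 0 : ℤ) : ZMod p) ≠ 0 := hu.ne_zero
      refine ⟨(γ : ZMod p) * (((k : SL(2, ℤ)) 0 0 : ℤ) : ZMod p)⁻¹, ?_⟩
      simp only
      rw [mk_subgroupOf_eq_iff' M p hM _ _ _ γ rfl hγ]
      simp only [lowOne_apply_zero_zero]
      rw [← ZMod.intCast_zmod_eq_zero_iff_dvd]
      push_cast
      field_simp
      ring

theorem relIndex_Gamma0_mul_prime_of_not_dvd (M p : ℕ) (hM : M ≠ 0) (hp : p.Prime)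
    (hpM : ¬ p ∣ M) : (Gamma0 (M * p)).relIndex (Gamma0 M) = p + 1 := by
  have : Fact p.Prime := ⟨hp⟩
  have hcard : Nat.card (Option (ZMod p)) = p + 1 := by
    rw [Nat.card_eq_fintype_card, Fintype.card_option, ZMod.card]
  refine Eq.trans (Eq.symm ?_) hcard
  have hcop : IsCoprime (p : ℤ) (M : ℤ) := by
    rw [Int.isCoprime_iff_gcd_eq_one, Int.gcd_natCast_natCast]
    exact (Nat.Prime.coprime_iff_not_dvd hp).mpr hpM
  obtain ⟨g₀, hg₀0, hg₀1⟩ := hcop.exists_SL2_col 0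
  have hg₀mem : g₀ ∈ Gamma0 M := by rw [mem_Gamma0_iff_dvd, hg₀1]
  have hg₀γ : ((⟨g₀, hg₀mem⟩ : Gamma0 M) : SL(2, ℤ)) 1 0 = (M : ℤ) * 1 := by
    rw [mul_one]; exact hg₀1
  have hp1 : ¬ (p : ℤ) ∣ 1 := by
    intro h
    have := Int.natCast_dvd_natCast.mp (by simpa using h : ((p : ℕ) : ℤ) ∣ ((1 : ℕ) : ℤ))
    exact hp.one_lt.ne' (Nat.dvd_one.mp this)
  show Nat.card (Option (ZMod p)) =
    Nat.card (Gamma0 M ⧸ (Gamma0 (M * p)).subgroupOf (Gamma0 M))
  let f : Option (ZMod p) → Gamma0 M ⧸ (Gamma0 (M * p)).subgroupOf (Gamma0 M) := fun o =>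
    match o with
    | none => QuotientGroup.mk (⟨g₀, hg₀mem⟩ : Gamma0 M)
    | some t => QuotientGroup.mk
        (⟨lowOne ((M : ℤ) * (ZMod.cast t : ℤ)), lowOne_mem M _⟩ : Gamma0 M)
  have hsome : ∀ t t' : ZMod p, f (some t) = f (some t') → t = t' := by
    intro t t' h
    simp only [f] at h
    rw [mk_subgroupOf_eq_iff' M p hM _ _ (ZMod.cast t : ℤ) (ZMod.cast t' : ℤ) rfl rfl] at h
    simp only [lowOne_apply_zero_zero] at h
    rw [← ZMod.intCast_zmod_eq_zero_iff_dvd] at h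
    push_cast at h
    have : t' - t = 0 := by simpa using h
    exact (sub_eq_zero.mp this).symm
  have hnone : ∀ t : ZMod p, f none ≠ f (some t) := by
    intro t h
    simp only [f] at h
    rw [mk_subgroupOf_eq_iff' M p hM _ _ 1 (ZMod.cast t : ℤ) hg₀γ rfl] at h
    simp only [lowOne_apply_zero_zero] at h
    rw [hg₀0] at h
    have h2 : (p : ℤ) ∣ 1 := by
      have h3 : (p : ℤ) ∣ (p : ℤ) * (ZMod.cast t : ℤ) := dvd_mul_right _ _
      have := dvd_sub h3 h
      simpa using this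
    exact hp1 h2
  refine Nat.card_eq_of_bijective f ⟨?_, ?_⟩
  · intro o o' h
    cases o with
    | none =>
      cases o' with
      | none => rfl
      | some t' => exact absurd h (hnone t')
    | some t =>
      cases o' with
      | none => exact absurd h.symm (hnone t)
      | some t' => rw [hsome t t' h]
  · intro q
    induction q using QuotientGroup.induction_on with
    | H k =>
      obtain ⟨γ, hγ⟩ : ∃ γ : ℤ, (k : SL(2, ℤ)) 1 0 = M * γ := (mem_Gamma0_iff_dvd M _).mp k.2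
      by_cases hpa : (p : ℤ) ∣ (k : SL(2, ℤ)) 0 0
      · refine ⟨none, ?_⟩
        simp only [f]
        rw [mk_subgroupOf_eq_iff' M p hM _ _ 1 γ hg₀γ hγ]
        simp only
        rw [hg₀0]
        exact dvd_sub (dvd_mul_right _ _) (hpa.mul_right _)
      · have ha : (((k : SL(2, ℤ)) 0 0 : ℤ) : ZMod p) ≠ 0 := by
          rwa [Ne, ZMod.intCast_zmod_eq_zero_iff_dvd]
        refine ⟨some ((γ : ZMod p) * (((k : SL(2, ℤ)) 0 0 : ℤ) : ZMod p)⁻¹), ?_⟩
        simp only [f]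
        rw [mk_subgroupOf_eq_iff' M p hM _ _ _ γ rfl hγ]
        simp only [lowOne_apply_zero_zero]
        rw [← ZMod.intCast_zmod_eq_zero_iff_dvd]
        push_cast
        field_simp
        ring

theorem relIndex_Gamma0_mul_prime (M p : ℕ) (hM : M ≠ 0) (hp : p.Prime) :
    (Gamma0 (M * p)).relIndex (Gamma0 M) = if p ∣ M then p else p + 1 := by
  split_ifs with h
  · exact relIndex_Gamma0_mul_prime_of_dvd M p hM hp h
  · exact relIndex_Gamma0_mul_prime_of_not_dvd M p hM hp h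

theorem index_Gamma0_mul_prime (M p : ℕ) (hM : M ≠ 0) (hp : p.Prime) :
    (Gamma0 (M * p)).index = (if p ∣ M then p else p + 1) * (Gamma0 M).index := by
  rw [← relIndex_Gamma0_mul_prime M p hM hp]
  exact (Subgroup.relIndex_mul_index (Gamma0_le_of_dvd (Dvd.intro p rfl))).symm

theorem dvd_of_squarefree_of_dvd_mul_prime {d M p : ℕ} (hp : p.Prime) (hd : Squarefree d)
    (h : d ∣ M * p) (hpM : p ∣ M) : d ∣ M := by
  by_cases hpd : p ∣ d
  · obtain ⟨e, rfl⟩ := hpd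
    have hcop : Nat.Coprime p e := (Nat.squarefree_mul_iff.mp hd).1
    have he : e ∣ M := by
      rw [mul_comm M p] at h
      exact Nat.dvd_of_mul_dvd_mul_left hp.pos h
    exact Nat.Coprime.mul_dvd_of_dvd_of_dvd hcop hpM he
  · have hcop : Nat.Coprime d p := ((Nat.Prime.coprime_iff_not_dvd hp).mpr hpd).symm
    exact hcop.dvd_of_dvd_mul_right h

theorem dedekindPsi_mul_prime_of_dvd (M p : ℕ) (hM : M ≠ 0) (hp : p.Prime) (hpM : p ∣ M) :
    ModularCurve.dedekindPsi (M * p) = p * ModularCurve.dedekindPsi M := by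
  unfold ModularCurve.dedekindPsi
  have hset : (M * p).divisors.filter Squarefree = M.divisors.filter Squarefree := by
    ext d
    simp only [Finset.mem_filter, Nat.mem_divisors]
    constructor
    · rintro ⟨⟨h1, _⟩, h3⟩
      exact ⟨⟨dvd_of_squarefree_of_dvd_mul_prime hp h3 h1 hpM, hM⟩, h3⟩
    · rintro ⟨⟨h1, _⟩, h3⟩
      exact ⟨⟨h1.mul_right p, mul_ne_zero hM hp.ne_zero⟩, h3⟩
  rw [hset, Finset.mul_sum]
  refine Finset.sum_congr rfl fun d hd => ?_
  have hdM : d ∣ M := (Nat.mem_divisors.mp (Finset.mem_filter.mp hd).1).1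
  rw [mul_comm M p, Nat.mul_div_assoc p hdM]

theorem dedekindPsi_mul_prime_of_not_dvd (M p : ℕ) (hM : M ≠ 0) (hp : p.Prime)
    (hpM : ¬ p ∣ M) :
    ModularCurve.dedekindPsi (M * p) = (p + 1) * ModularCurve.dedekindPsi M := by
  unfold ModularCurve.dedekindPsi
  have hset : (M * p).divisors.filter Squarefree =
      M.divisors.filter Squarefree ∪ (M.divisors.filter Squarefree).image (· * p) := by
    ext d
    simp only [Finset.mem_filter, Nat.mem_divisors, Finset.mem_union, Finset.mem_image]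
    constructor
    · rintro ⟨⟨h1, _⟩, h3⟩
      by_cases hpd : p ∣ d
      · right
        obtain ⟨e, rfl⟩ := hpd
        refine ⟨e, ⟨⟨?_, hM⟩, ?_⟩, mul_comm e p⟩
        · rw [mul_comm M p] at h1
          exact Nat.dvd_of_mul_dvd_mul_left hp.pos h1
        · exact (Nat.squarefree_mul_iff.mp h3).2.2
      · left
        have hcop : Nat.Coprime d p := ((Nat.Prime.coprime_iff_not_dvd hp).mpr hpd).symm
        exact ⟨⟨hcop.dvd_of_dvd_mul_right h1, hM⟩, h3⟩
    · rintro (⟨⟨h1, _⟩, h3⟩ | ⟨e, ⟨⟨h1, _⟩, h3⟩, rfl⟩)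
      · exact ⟨⟨h1.mul_right p, mul_ne_zero hM hp.ne_zero⟩, h3⟩
      · refine ⟨⟨Nat.mul_dvd_mul_right h1 p, mul_ne_zero hM hp.ne_zero⟩, ?_⟩
        have hpe : ¬ p ∣ e := fun h => hpM (h.trans h1)
        have hcop : Nat.Coprime e p := ((Nat.Prime.coprime_iff_not_dvd hp).mpr hpe).symm
        exact Nat.squarefree_mul_iff.mpr ⟨hcop, h3, hp.squarefree⟩
  have hdisj : Disjoint (M.divisors.filter Squarefree)
      ((M.divisors.filter Squarefree).image (· * p)) := by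
    rw [Finset.disjoint_left]
    intro d hd hd'
    simp only [Finset.mem_filter, Nat.mem_divisors, Finset.mem_image] at hd hd'
    obtain ⟨e, -, rfl⟩ := hd'
    exact hpM ((dvd_mul_left p e).trans hd.1.1)
  rw [hset, Finset.sum_union hdisj, Finset.sum_image
    (fun x _ y _ h => Nat.eq_of_mul_eq_mul_right hp.pos h), add_mul, one_mul, Finset.mul_sum]
  congr 1
  · refine Finset.sum_congr rfl fun d hd => ?_
    have hdM : d ∣ M := (Nat.mem_divisors.mp (Finset.mem_filter.mp hd).1).1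
    rw [mul_comm M p, Nat.mul_div_assoc p hdM]
  · refine Finset.sum_congr rfl fun d hd => ?_
    exact Nat.mul_div_mul_right M d hp.pos

theorem dedekindPsi_mul_prime (M p : ℕ) (hM : M ≠ 0) (hp : p.Prime) :
    ModularCurve.dedekindPsi (M * p) =
      (if p ∣ M then p else p + 1) * ModularCurve.dedekindPsi M := by
  split_ifs with h
  · exact dedekindPsi_mul_prime_of_dvd M p hM hp h
  · exact dedekindPsi_mul_prime_of_not_dvd M p hM hp h

theorem Gamma0_one_eq_top : Gamma0 1 = ⊤ := by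
  ext g
  simp [Gamma0_mem, eq_iff_true_of_subsingleton]

/-- The index of `Γ₀(N)` in `SL(2, ℤ)` is the Dedekind psi function. -/
theorem index_Gamma0 (N : ℕ) (hN : N ≠ 0) : (Gamma0 N).index = ModularCurve.dedekindPsi N := by
  induction N using Nat.strong_induction_on with
  | _ N ih =>
    by_cases h1 : N = 1
    · subst h1
      rw [Gamma0_one_eq_top, Subgroup.index_top, ModularCurve.dedekindPsi_one]
    · have hp : (N.minFac).Prime := Nat.minFac_prime h1
      obtain ⟨M, hM⟩ : N.minFac ∣ N := Nat.minFac_dvd N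
      have hM0 : M ≠ 0 := by
        rintro rfl
        exact hN (by rw [hM, mul_zero])
      have hNM : N = M * N.minFac := by rw [mul_comm]; exact hM
      have hlt : M < N := by
        conv_rhs => rw [hNM]
        exact lt_mul_of_one_lt_right (Nat.pos_of_ne_zero hM0) hp.one_lt
      have key := ih M hlt hM0
      have e1 := index_Gamma0_mul_prime M N.minFac hM0 hp
      have e2 := dedekindPsi_mul_prime M N.minFac hM0 hp
      rw [← hNM] at e1 e2
      rw [e1, e2, key]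

theorem card_quotient_Gamma0 (N : ℕ) (hN : N ≠ 0) :
    Nat.card (SL(2, ℤ) ⧸ Gamma0 N) = ModularCurve.dedekindPsi N :=
  index_Gamma0 N hN

end Fermat.Agent.Lib.Gamma0Count
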