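import Fermat.Agent.Lib.Gamma0Cosets

set_option autoImplicit false

namespace Fermat.Agent.Lib.Gamma0Cosets

open scoped MatrixGroups
open CongruenceSubgroup ModularGroup Matrix

variable {N : ℕ}

theorem T_zpow_mul_apply_zero_zero (k : ℤ) (g : SL(2, ℤ)) :
    (T ^ k * g) 0 0 = g 0 0 + k * g 1 0 := by
  rw [mul_apply_col]; simp [coe_T_zpow]

theorem T_zpow_mul_apply_one_zero (k : ℤ) (g : SL(2, ℤ)) : (T ^ k * g) 1 0 = g 1 0 := by
  rw [mul_apply_col]; simp [coe_T_zpow]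

theorem isCoprime_col (g : SL(2, ℤ)) : IsCoprime (g 0 0) (g 1 0) := by
  have h := g.det_coe
  rw [Matrix.det_fin_two] at h
  exact ⟨g 1 1, -g 0 1, by linarith⟩

/-- `⟦g₂⟧` lies in the `⟨T⟩`-orbit of `⟦g₁⟧`. -/
theorem mem_orbit_T_iff (g₁ g₂ : SL(2, ℤ)) :
    (g₂ : SL(2, ℤ) ⧸ Gamma0 N) ∈ MulAction.orbit (Subgroup.zpowers T) (g₁ : SL(2, ℤ) ⧸ Gamma0 N) ↔
      ∃ k : ℤ, (N : ℤ) ∣ (g₁ 0 0 + k * g₁ 1 0) * g₂ 1 0 - g₁ 1 0 * g₂ 0 0 := by
  rw [MulAction.mem_orbit_iff]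
  constructor
  · rintro ⟨⟨t, ht⟩, h⟩
    obtain ⟨k, rfl⟩ := Subgroup.mem_zpowers_iff.mp ht
    refine ⟨k, ?_⟩
    change T ^ k • (g₁ : SL(2, ℤ) ⧸ Gamma0 N) = g₂ at h
    rw [MulAction.Quotient.smul_mk, smul_eq_mul, QuotientGroup.eq,
      inv_mul_mem_Gamma0_iff_dvd, T_zpow_mul_apply_zero_zero, T_zpow_mul_apply_one_zero] at h
    exact h
  · rintro ⟨k, hk⟩
    refine ⟨⟨T ^ k, Subgroup.mem_zpowers_iff.mpr ⟨k, rfl⟩⟩, ?_⟩
    change T ^ k • (g₁ : SL(2, ℤ) ⧸ Gamma0 N) = g₂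
    rw [MulAction.Quotient.smul_mk, smul_eq_mul, QuotientGroup.eq,
      inv_mul_mem_Gamma0_iff_dvd, T_zpow_mul_apply_zero_zero, T_zpow_mul_apply_one_zero]
    exact hk

/-- Lifting lemma: a residue `r` mod `e` prime to `gcd e d` has a representative prime to `d`. -/
theorem exists_coprime_add_mul (r e d : ℕ) (hd : d ≠ 0) (h : Nat.Coprime r (Nat.gcd e d)) :
    ∃ k : ℕ, Nat.Coprime (r + k * e) d := by
  let ps : Finset ℕ := {p ∈ d.primeFactors | ¬p ∣ r}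
  refine ⟨ps.prod id, ?_⟩
  apply Nat.coprime_of_dvd
  intro p pp hp hpd
  by_cases hpr : p ∣ r
  · have h1 : p ∣ ps.prod id * e := (Nat.dvd_add_right hpr).mp hp
    rcases pp.dvd_mul.mp h1 with h2 | h2
    · obtain ⟨q, hq, hq'⟩ := (pp.prime.dvd_finsetProd_iff id).mp h2
      rw [Finset.mem_filter, Nat.mem_primeFactors] at hq
      have : p = q := (Nat.prime_dvd_prime_iff_eq pp hq.1.1).mp hq'
      exact hq.2 (this ▸ hpr)
    · have : p ∣ Nat.gcd r (Nat.gcd e d) := Nat.dvd_gcd hpr (Nat.dvd_gcd h2 hpd)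
      rw [h] at this
      exact pp.one_lt.ne' (Nat.dvd_one.mp this)
  · have pps : p ∈ ps := Finset.mem_filter.mpr ⟨Nat.mem_primeFactors.mpr ⟨pp, hpd, hd⟩, hpr⟩
    have h1 : p ∣ ps.prod id * e := (Finset.dvd_prod_of_mem id pps).mul_right e
    exact hpr ((Nat.dvd_add_left h1).mp hp)

/-- Orbit invariants: injectivity core. -/
theorem orbit_inj_core (hN : N ≠ 0) {d d' : ℕ} (hd : d ∣ N) (hd' : d' ∣ N) {a a' k : ℤ}
    (ha : IsCoprime a (d : ℤ)) (ha' : IsCoprime a' (d' : ℤ))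
    (h : (N : ℤ) ∣ (a + k * d) * d' - d * a') :
    d = d' ∧ ((Nat.gcd d (N / d) : ℕ) : ℤ) ∣ a - a' := by
  have hdN : (d : ℤ) ∣ (N : ℤ) := Int.natCast_dvd_natCast.mpr hd
  have hd'N : (d' : ℤ) ∣ (N : ℤ) := Int.natCast_dvd_natCast.mpr hd'
  have h1 : (d : ℤ) ∣ (d' : ℤ) := by
    have h2 : (d : ℤ) ∣ (d' : ℤ) * a := by
      obtain ⟨m, hm⟩ := hdN.trans h
      exact ⟨m - (k * d' - a'), by linear_combination hm⟩
    exact ha.symm.dvd_of_dvd_mul_right h2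
  have h1' : (d' : ℤ) ∣ (d : ℤ) := by
    have h2 : (d' : ℤ) ∣ (d : ℤ) * a' := by
      obtain ⟨m, hm⟩ := hd'N.trans h
      exact ⟨(a + k * d) - m, by linear_combination -hm⟩
    exact ha'.symm.dvd_of_dvd_mul_right h2
  have hdd : d = d' :=
    Nat.dvd_antisymm (Int.natCast_dvd_natCast.mp h1) (Int.natCast_dvd_natCast.mp h1')
  subst hdd
  refine ⟨rfl, ?_⟩
  have hd0 : (d : ℤ) ≠ 0 := by
    intro h0
    have : d = 0 := by exact_mod_cast h0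
    rw [this] at hd
    exact hN (Nat.eq_zero_of_zero_dvd hd)
  have hNde : (N : ℤ) = (d : ℤ) * ((N / d : ℕ) : ℤ) := by
    rw [← Nat.cast_mul, Nat.mul_div_cancel' hd]
  have h6 : ((N / d : ℕ) : ℤ) ∣ a + k * d - a' := by
    have h7 : (d : ℤ) * ((N / d : ℕ) : ℤ) ∣ (d : ℤ) * (a + k * d - a') := by
      rw [← hNde]
      convert h using 1
      ring
    exact (mul_dvd_mul_iff_left hd0).mp h7
  have hg1 : ((Nat.gcd d (N / d) : ℕ) : ℤ) ∣ ((N / d : ℕ) : ℤ) :=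
    Int.natCast_dvd_natCast.mpr (Nat.gcd_dvd_right _ _)
  have hg2 : ((Nat.gcd d (N / d) : ℕ) : ℤ) ∣ (d : ℤ) :=
    Int.natCast_dvd_natCast.mpr (Nat.gcd_dvd_left _ _)
  obtain ⟨m, hm⟩ := hg1.trans h6
  obtain ⟨m', hm'⟩ := hg2
  exact ⟨m - k * m', by linear_combination hm - k * hm'⟩

/-- Orbit invariants: surjectivity core. -/
theorem orbit_surj_core (hN : N ≠ 0) {a c : ℤ} (hac : IsCoprime a c) :
    ∃ r : ℕ, r < Nat.gcd (Int.gcd c N) (N / Int.gcd c N) ∧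
      Nat.Coprime (Nat.gcd (Int.gcd c N) (N / Int.gcd c N)) r ∧
      ∀ a' : ℤ, ((Nat.gcd (Int.gcd c N) (N / Int.gcd c N) : ℕ) : ℤ) ∣ a' - r →
        ∃ k : ℤ, (N : ℤ) ∣ (a' + k * ((Int.gcd c N : ℕ) : ℤ)) * c - ((Int.gcd c N : ℕ) : ℤ) * a := by
  have hN0 : (N : ℤ) ≠ 0 := by exact_mod_cast hN
  set d : ℕ := Int.gcd c N with hd
  have hdpos : 0 < d := Int.gcd_pos_of_ne_zero_right c hN0
  have hd0 : (d : ℤ) ≠ 0 := by exact_mod_cast hdpos.ne'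
  have hdN : d ∣ N := Int.natCast_dvd_natCast.mp (Int.gcd_dvd_right c N)
  set e : ℕ := N / d with he
  have hNde : (N : ℤ) = (d : ℤ) * (e : ℤ) := by
    rw [← Nat.cast_mul, Nat.mul_div_cancel' hdN]
  obtain ⟨c₁, hc⟩ : (d : ℤ) ∣ c := Int.gcd_dvd_left c N
  -- Bezout for `c₁` and `e`
  obtain ⟨x, y, h1⟩ : ∃ x y : ℤ, (d : ℤ) = c * x + (N : ℤ) * y :=
    ⟨_, _, Int.gcd_eq_gcd_ab c N⟩
  have hxy : c₁ * x + (e : ℤ) * y = 1 := by
    have h2 : (d : ℤ) * (c₁ * x + (e : ℤ) * y) = (d : ℤ) * 1 := by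
      linear_combination (-1 : ℤ) * h1 - x * hc - y * hNde
    exact mul_left_cancel₀ hd0 h2
  set g : ℕ := Nat.gcd d e with hg
  have hgpos : 0 < g := Nat.gcd_pos_of_pos_left e hdpos
  have hg0 : (g : ℤ) ≠ 0 := by exact_mod_cast hgpos.ne'
  obtain ⟨u, v, hgb⟩ : ∃ u v : ℤ, (g : ℤ) = (d : ℤ) * u + (e : ℤ) * v :=
    ⟨_, _, Nat.gcd_eq_gcd_ab d e⟩
  have hgd : (g : ℤ) ∣ (d : ℤ) := Int.natCast_dvd_natCast.mpr (Nat.gcd_dvd_left d e)
  have hge : (g : ℤ) ∣ (e : ℤ) := Int.natCast_dvd_natCast.mpr (Nat.gcd_dvd_right d e)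
  -- the residue
  have hdiv : (g : ℤ) * ((a * x) / (g : ℤ)) + (a * x) % (g : ℤ) = a * x := Int.mul_ediv_add_emod _ _
  have hnn : 0 ≤ (a * x) % (g : ℤ) := Int.emod_nonneg _ hg0
  have hlt : (a * x) % (g : ℤ) < (g : ℤ) := Int.emod_lt_of_pos _ (by exact_mod_cast hgpos)
  set q : ℤ := (a * x) / (g : ℤ) with hq
  obtain ⟨r, hr⟩ := Int.eq_ofNat_of_zero_le hnn
  rw [hr] at hdiv hlt
  refine ⟨r, by exact_mod_cast hlt, ?_, ?_⟩
  · -- coprimality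
    have h1 : IsCoprime a (g : ℤ) :=
      hac.of_isCoprime_of_dvd_right (hgd.trans ⟨c₁, hc⟩)
    have h2 : IsCoprime x (e : ℤ) := ⟨c₁, y, by linear_combination hxy⟩
    have h3 : IsCoprime (a * x) (g : ℤ) := h1.mul_left (h2.of_isCoprime_of_dvd_right hge)
    have h4 : IsCoprime (a * x + (g : ℤ) * (-q)) (g : ℤ) := h3.add_mul_left_left (-q)
    have h5 : a * x + (g : ℤ) * (-q) = (r : ℤ) := by linear_combination -hdiv
    rw [h5] at h4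
    exact Nat.isCoprime_iff_coprime.mp h4.symm
  · intro a' ha'
    obtain ⟨m₀, hm₀⟩ := ha'
    refine ⟨-u * (m₀ - q), (m₀ - q) * v * c₁ - a * y, ?_⟩
    have ha'' : a' = a * x + (g : ℤ) * (m₀ - q) := by linear_combination hm₀ + hdiv
    linear_combination c * ha'' + (a * x + (g : ℤ) * (m₀ - q) + (-u * (m₀ - q)) * (d : ℤ)) * hc
      - ((m₀ - q) * v * c₁ - a * y) * hNde + ((d : ℤ) * a) * hxy
      + ((d : ℤ) * (m₀ - q) * c₁) * hgb

/-- Index set for the `⟨T⟩`-orbits (cusps): pairs `(d, r)` with `d ∣ N`, `r` a reduced residue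
modulo `gcd d (N / d)`. -/
def cuspIndex (N : ℕ) : Finset (Σ _ : ℕ, ℕ) :=
  N.divisors.sigma (fun d => (Finset.range (Nat.gcd d (N / d))).filter
    (fun r => (Nat.gcd d (N / d)).Coprime r))

theorem card_cuspIndex (N : ℕ) : (cuspIndex N).card = ModularCurve.cuspCount N := by
  rw [cuspIndex, Finset.card_sigma, ModularCurve.cuspCount]
  refine Finset.sum_congr rfl fun d _ => ?_
  rw [Nat.totient_eq_card_coprime]

theorem mem_cuspIndex {x : Σ _ : ℕ, ℕ} :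
    x ∈ cuspIndex N ↔ (x.1 ∣ N ∧ N ≠ 0) ∧ x.2 < Nat.gcd x.1 (N / x.1) ∧
      (Nat.gcd x.1 (N / x.1)).Coprime x.2 := by
  simp [cuspIndex, Finset.mem_sigma]

theorem exists_cuspRep (hN : N ≠ 0) {d r : ℕ} (hd : d ∣ N)
    (hr : (Nat.gcd d (N / d)).Coprime r) :
    ∃ M : SL(2, ℤ), M 1 0 = (d : ℤ) ∧ ((Nat.gcd d (N / d) : ℕ) : ℤ) ∣ M 0 0 - r := by
  have hd0 : d ≠ 0 := by
    rintro rfl
    exact hN (Nat.eq_zero_of_zero_dvd hd)
  have h1 : Nat.Coprime r (Nat.gcd (Nat.gcd d (N / d)) d) := by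
    rw [Nat.gcd_eq_left (Nat.gcd_dvd_left d (N / d))]
    exact hr.symm
  obtain ⟨k, hk⟩ := exists_coprime_add_mul r (Nat.gcd d (N / d)) d hd0 h1
  have h2 : IsCoprime ((r + k * Nat.gcd d (N / d) : ℕ) : ℤ) (d : ℤ) :=
    Nat.isCoprime_iff_coprime.mpr hk
  obtain ⟨M, hM0, hM1⟩ := h2.exists_SL2_col 0
  refine ⟨M, hM1, k, ?_⟩
  rw [hM0]
  push_cast
  ring

/-- A chosen representative of the cusp with index `x`. -/
noncomputable def cuspRep (N : ℕ) (x : Σ _ : ℕ, ℕ) : SL(2, ℤ) :=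
  open Classical in
  if h : ∃ M : SL(2, ℤ), M 1 0 = (x.1 : ℤ) ∧
      ((Nat.gcd x.1 (N / x.1) : ℕ) : ℤ) ∣ M 0 0 - x.2 then Classical.choose h else 1

theorem cuspRep_spec {x : Σ _ : ℕ, ℕ} (hx : x ∈ cuspIndex N) :
    cuspRep N x 1 0 = (x.1 : ℤ) ∧ ((Nat.gcd x.1 (N / x.1) : ℕ) : ℤ) ∣ cuspRep N x 0 0 - x.2 := by
  rw [mem_cuspIndex] at hx
  have h := exists_cuspRep hx.1.2 hx.1.1 hx.2.2
  rw [cuspRep, dif_pos h]
  exact Classical.choose_spec h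

/-- The number of `⟨T⟩`-orbits on `SL(2, ℤ) ⧸ Gamma0 N` (the number of cusps of `Γ₀(N)`). -/
theorem card_orbits_T (N : ℕ) [NeZero N] :
    Nat.card (MulAction.orbitRel.Quotient (Subgroup.zpowers T) (SL(2, ℤ) ⧸ Gamma0 N)) =
      ModularCurve.cuspCount N := by
  have hN : N ≠ 0 := NeZero.ne N
  rw [← card_cuspIndex, ← Fintype.card_coe, ← Nat.card_eq_fintype_card]
  symm
  apply Nat.card_congr
  refine Equiv.ofBijective
    (fun x : cuspIndex N => (Quotient.mk'' (QuotientGroup.mk (cuspRep N x.1)) :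
      MulAction.orbitRel.Quotient (Subgroup.zpowers T) (SL(2, ℤ) ⧸ Gamma0 N))) ⟨?_, ?_⟩
  · rintro ⟨x, hx⟩ ⟨y, hy⟩ h
    have h' := Quotient.eq''.mp h
    rw [MulAction.orbitRel_apply, mem_orbit_T_iff] at h'
    obtain ⟨k, hk⟩ := h'
    obtain ⟨hx1, hx2⟩ := cuspRep_spec hx
    obtain ⟨hy1, hy2⟩ := cuspRep_spec hy
    have hmx := mem_cuspIndex.mp hx
    have hmy := mem_cuspIndex.mp hy
    have hcx : IsCoprime (cuspRep N x 0 0) (x.1 : ℤ) := hx1 ▸ isCoprime_col (cuspRep N x)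
    have hcy : IsCoprime (cuspRep N y 0 0) (y.1 : ℤ) := hy1 ▸ isCoprime_col (cuspRep N y)
    simp only at hk
    rw [hx1, hy1] at hk
    obtain ⟨hdd, hdvd⟩ := orbit_inj_core hN hmy.1.1 hmx.1.1 hcy hcx hk
    obtain ⟨d, r⟩ := x
    obtain ⟨d', r'⟩ := y
    simp only at hdd hdvd hx2 hy2 hmx hmy
    subst hdd
    have h3 : ((Nat.gcd d' (N / d') : ℕ) : ℤ) ∣ (r' : ℤ) - (r : ℤ) := by
      obtain ⟨m1, hm1⟩ := hdvd
      obtain ⟨m2, hm2⟩ := hx2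
      obtain ⟨m3, hm3⟩ := hy2
      exact ⟨m2 + m1 - m3, by linear_combination hm2 + hm1 - hm3⟩
    have h4 : (r : ℤ) ≡ (r' : ℤ) [ZMOD ((Nat.gcd d' (N / d') : ℕ) : ℤ)] :=
      (Int.modEq_iff_dvd).mpr h3
    have h5 : r ≡ r' [MOD Nat.gcd d' (N / d')] := Int.natCast_modEq_iff.mp h4
    have h6 : r = r' := Nat.ModEq.eq_of_lt_of_lt h5 hmx.2.1 hmy.2.1
    subst h6
    rfl
  · intro z
    induction z using Quotient.inductionOn' with
    | h z =>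
      induction z using QuotientGroup.induction_on with
      | H g =>
        obtain ⟨r, hr1, hr2, hr3⟩ := orbit_surj_core hN (isCoprime_col g)
        have hdN : Int.gcd (g 1 0) N ∣ N := Int.natCast_dvd_natCast.mp (Int.gcd_dvd_right _ _)
        have hmem : (⟨Int.gcd (g 1 0) N, r⟩ : Σ _ : ℕ, ℕ) ∈ cuspIndex N :=
          mem_cuspIndex.mpr ⟨⟨hdN, hN⟩, hr1, hr2⟩
        refine ⟨⟨_, hmem⟩, ?_⟩
        obtain ⟨hs1, hs2⟩ := cuspRep_spec hmem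
        simp only at hs1 hs2
        obtain ⟨k, hk⟩ := hr3 _ hs2
        symm
        apply Quotient.eq''.mpr
        rw [MulAction.orbitRel_apply, mem_orbit_T_iff]
        refine ⟨k, ?_⟩
        simp only
        rw [hs1]
        exact hk

end Fermat.Agent.Lib.Gamma0Cosets
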