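/-
Lib: the relative index of `Γ₁(M p)` in `Γ₁(M)` for a prime `p ∤ M`, and its `±`-version.

* `relIndex_Gamma1_mul_prime` : `[Γ₁(M) : Γ₁(M p)] = p² - 1` for a prime `p ∤ M`
  (cosets ↔ first columns modulo `p` = the nonzero vectors of `𝔽_p²`; explicit representatives).
* `relIndex_eq_two_of_pm` : a subgroup `H` of `G ≤ SL(2, ℤ)` with `G = H ∪ -H`, `-1 ∉ H`, has
  index `2` in `G`.
* `card_quotient_pm_mul_prime` : `[SL(2, ℤ) : ±Γ₁(M p)] = [SL(2, ℤ) : ±Γ₁(M)] · (p² - 1)` for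
  `M ≥ 3`, stated for any subgroups `G`, `G'` which are "`±Γ₁`" in the elementwise sense.

Use: degree ratio of the auxiliary levels `M ↦ 2 M`, `3 M` (`3`, resp. `8`) in the level descent
of the Kummer statement `(K1)` for the function fields of `Γ₁(M)` at residue characteristic
`3`, resp. `2`.
-/
import Mathlib

set_option autoImplicit false

namespace Fermat.Agent.Lib.Gamma1Index

open Matrix MatrixGroups CongruenceSubgroup

/-! ### Membership -/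

theorem det_eq_one (g : SL(2, ℤ)) : g 0 0 * g 1 1 - g 0 1 * g 1 0 = 1 := by
  have h := g.det_coe
  rw [Matrix.det_fin_two] at h
  exact h

/-- Membership in `Γ₁(N)` by divisibility (first column). -/
theorem mem_Gamma1_iff (N : ℕ) (g : SL(2, ℤ)) :
    g ∈ Gamma1 N ↔ (N : ℤ) ∣ g 0 0 - 1 ∧ (N : ℤ) ∣ g 1 0 := by
  rw [Gamma1_mem]
  constructor
  · rintro ⟨h1, -, h3⟩
    refine ⟨?_, (ZMod.intCast_zmod_eq_zero_iff_dvd _ _).mp h3⟩
    rw [← ZMod.intCast_zmod_eq_zero_iff_dvd]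
    push_cast
    rw [h1, sub_self]
  · rintro ⟨h1, h3⟩
    have h1' : ((g 0 0 : ℤ) : ZMod N) = 1 := by
      have h := (ZMod.intCast_zmod_eq_zero_iff_dvd _ _).mpr h1
      push_cast at h
      exact sub_eq_zero.mp h
    have h3' : ((g 1 0 : ℤ) : ZMod N) = 0 := (ZMod.intCast_zmod_eq_zero_iff_dvd _ _).mpr h3
    refine ⟨h1', ?_, h3'⟩
    have h := congrArg (Int.cast : ℤ → ZMod N) (det_eq_one g)
    push_cast at h
    rw [h1', h3', mul_zero, sub_zero, one_mul] at h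
    exact h

theorem Gamma1_le_of_dvd {M N : ℕ} (h : M ∣ N) : Gamma1 N ≤ Gamma1 M := by
  intro g hg
  rw [mem_Gamma1_iff] at hg ⊢
  have hMN : (M : ℤ) ∣ (N : ℤ) := Int.natCast_dvd_natCast.mpr h
  exact ⟨hMN.trans hg.1, hMN.trans hg.2⟩

theorem neg_one_not_mem_Gamma1 {N : ℕ} (hN : 3 ≤ N) : (-1 : SL(2, ℤ)) ∉ Gamma1 N := by
  intro h
  rw [mem_Gamma1_iff] at h
  have h1 : ((-1 : SL(2, ℤ)) : Matrix (Fin 2) (Fin 2) ℤ) 0 0 = -1 := by
    simp [Matrix.SpecialLinearGroup.coe_neg]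
  have h2 : (N : ℤ) ∣ -2 := by
    have := h.1
    rw [h1] at this
    norm_num at this
    exact (dvd_neg).mpr this
  have h3 : (N : ℤ) ≤ 2 := Int.le_of_dvd (by norm_num) ((dvd_neg).mp h2)
  omega

/-- For `g ∈ Γ₁(M)` and `p` prime to `M`: `g ∈ Γ₁(M p)` iff the first column of `g` is
`(1, 0)` modulo `p`. -/
theorem mem_Gamma1_mul_iff {M p : ℕ} (hcop : Nat.Coprime M p) {g : SL(2, ℤ)}
    (hg : g ∈ Gamma1 M) :
    g ∈ Gamma1 (M * p) ↔ (p : ℤ) ∣ g 0 0 - 1 ∧ (p : ℤ) ∣ g 1 0 := by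
  rw [mem_Gamma1_iff] at hg
  rw [mem_Gamma1_iff, Nat.cast_mul]
  have hc : IsCoprime (M : ℤ) (p : ℤ) := Nat.isCoprime_iff_coprime.mpr hcop
  constructor
  · rintro ⟨h1, h2⟩
    exact ⟨dvd_of_mul_left_dvd h1, dvd_of_mul_left_dvd h2⟩
  · rintro ⟨h1, h2⟩
    exact ⟨hc.mul_dvd hg.1 h1, hc.mul_dvd hg.2 h2⟩

/-! ### Cosets and first columns -/

theorem inv_mul_apply_zero_zero (k k' : SL(2, ℤ)) :
    (k⁻¹ * k') 0 0 = k 1 1 * k' 0 0 - k 0 1 * k' 1 0 := by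
  rw [Matrix.SpecialLinearGroup.coe_mul, Matrix.SpecialLinearGroup.coe_inv,
    Matrix.adjugate_fin_two, Matrix.mul_apply, Fin.sum_univ_two]
  simp
  ring

theorem inv_mul_apply_one_zero (k k' : SL(2, ℤ)) :
    (k⁻¹ * k') 1 0 = - (k 1 0 * k' 0 0) + k 0 0 * k' 1 0 := by
  rw [Matrix.SpecialLinearGroup.coe_mul, Matrix.SpecialLinearGroup.coe_inv,
    Matrix.adjugate_fin_two, Matrix.mul_apply, Fin.sum_univ_two]
  simp

/-- Two elements of `Γ₁(M)` lie in the same left coset of `Γ₁(M p)` iff their first columns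
agree modulo `p`. -/
theorem mk_subgroupOf_eq_iff {M p : ℕ} (hcop : Nat.Coprime M p) (k k' : Gamma1 M) :
    (QuotientGroup.mk k : Gamma1 M ⧸ (Gamma1 (M * p)).subgroupOf (Gamma1 M)) =
        QuotientGroup.mk k' ↔
      (p : ℤ) ∣ (k : SL(2, ℤ)) 0 0 - (k' : SL(2, ℤ)) 0 0 ∧
        (p : ℤ) ∣ (k : SL(2, ℤ)) 1 0 - (k' : SL(2, ℤ)) 1 0 := by
  have hmem : ((k⁻¹ * k' : Gamma1 M) : SL(2, ℤ)) ∈ Gamma1 M := (k⁻¹ * k').2
  rw [QuotientGroup.eq, Subgroup.mem_subgroupOf, mem_Gamma1_mul_iff hcop hmem, Subgroup.coe_mul,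
    Subgroup.coe_inv, inv_mul_apply_zero_zero, inv_mul_apply_one_zero]
  have hd := det_eq_one (k : SL(2, ℤ))
  set a := (k : SL(2, ℤ)) 0 0
  set b := (k : SL(2, ℤ)) 0 1
  set c := (k : SL(2, ℤ)) 1 0
  set d := (k : SL(2, ℤ)) 1 1
  set a' := (k' : SL(2, ℤ)) 0 0
  set c' := (k' : SL(2, ℤ)) 1 0
  constructor
  · rintro ⟨hA, hB⟩
    have e1 : a - a' = -(a * (d * a' - b * c' - 1) + b * (-(c * a') + a * c')) := by
      linear_combination a' * hd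
    have e2 : c - c' = -(c * (d * a' - b * c' - 1) + d * (-(c * a') + a * c')) := by
      linear_combination c' * hd
    rw [e1, e2]
    exact ⟨(dvd_neg).mpr (dvd_add (hA.mul_left _) (hB.mul_left _)),
      (dvd_neg).mpr (dvd_add (hA.mul_left _) (hB.mul_left _))⟩
  · rintro ⟨hα, hβ⟩
    have e1 : d * a' - b * c' - 1 = -(d * (a - a')) + b * (c - c') := by
      linear_combination hd
    have e2 : -(c * a') + a * c' = c * (a - a') - a * (c - c') := by ring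
    rw [e1, e2]
    exact ⟨dvd_add ((dvd_neg).mpr (hα.mul_left _)) (hβ.mul_left _),
      dvd_sub (hα.mul_left _) (hβ.mul_left _)⟩

/-! ### Explicit representatives -/

/-- The matrix `(1 0; M s₂ 1) (1 t; 0 1) (1 0; M s 1)`. -/
def word (M : ℕ) (t s s₂ : ℤ) : SL(2, ℤ) :=
  ⟨!![1 + t * (M * s), t; M * s₂ * (1 + t * (M * s)) + M * s, M * s₂ * t + 1], by
    rw [Matrix.det_fin_two_of]
    ring⟩

@[simp] theorem word_apply_zero_zero (M : ℕ) (t s s₂ : ℤ) :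
    word M t s s₂ 0 0 = 1 + t * (M * s) := rfl

@[simp] theorem word_apply_one_zero (M : ℕ) (t s s₂ : ℤ) :
    word M t s s₂ 1 0 = M * s₂ * (1 + t * (M * s)) + M * s := rfl

theorem word_mem (M : ℕ) (t s s₂ : ℤ) : word M t s s₂ ∈ Gamma1 M := by
  rw [mem_Gamma1_iff, word_apply_zero_zero, word_apply_one_zero]
  refine ⟨⟨t * s, by ring⟩, ⟨s₂ * (1 + t * (M * s)) + s, by ring⟩⟩

/-- Every nonzero vector of `𝔽_p²` is the first column modulo `p` of an element of `Γ₁(M)`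
(`p ∤ M`). -/
theorem exists_rep {M p : ℕ} [Fact p.Prime] (hpM : ¬ p ∣ M) (v : ZMod p × ZMod p)
    (hv : v ≠ 0) :
    ∃ k : Gamma1 M, (((k : SL(2, ℤ)) 0 0 : ℤ) : ZMod p) = v.1 ∧
      (((k : SL(2, ℤ)) 1 0 : ℤ) : ZMod p) = v.2 := by
  obtain ⟨x, y⟩ := v
  have hm : ((M : ℕ) : ZMod p) ≠ 0 := by
    rwa [Ne, ZMod.natCast_eq_zero_iff]
  by_cases hy : y = 0
  · -- `y = 0`, `x ≠ 0`
    have hx : x ≠ 0 := by
      intro hx
      apply hv
      rw [hx, hy]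
      rfl
    refine ⟨⟨word M ((x - 1 : ZMod p).cast) ((((M : ℕ) : ZMod p)⁻¹ : ZMod p).cast)
      ((-(((M : ℕ) : ZMod p) * x)⁻¹ : ZMod p).cast), word_mem M _ _ _⟩, ?_, ?_⟩
    · show ((word M _ _ _ 0 0 : ℤ) : ZMod p) = x
      rw [word_apply_zero_zero]
      push_cast
      rw [mul_inv_cancel₀ hm]
      ring
    · show ((word M _ _ _ 1 0 : ℤ) : ZMod p) = y
      rw [word_apply_one_zero, hy]
      push_cast
      rw [mul_inv_cancel₀ hm, mul_one, mul_inv, mul_neg, neg_mul]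
      have e : 1 + (x - 1) = x := by ring
      rw [e, mul_assoc, mul_assoc, inv_mul_cancel₀ hx, mul_one, mul_inv_cancel₀ hm]
      ring
  · refine ⟨⟨word M (((x - 1) * y⁻¹ : ZMod p).cast) ((y * ((M : ℕ) : ZMod p)⁻¹ : ZMod p).cast) 0,
      word_mem M _ _ _⟩, ?_, ?_⟩
    · show ((word M _ _ _ 0 0 : ℤ) : ZMod p) = x
      rw [word_apply_zero_zero]
      push_cast
      have e : ((M : ℕ) : ZMod p) * (y * ((M : ℕ) : ZMod p)⁻¹) = y := by
        rw [mul_comm y, ← mul_assoc, mul_inv_cancel₀ hm, one_mul]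
      rw [e, mul_assoc, inv_mul_cancel₀ hy]
      ring
    · show ((word M _ _ _ 1 0 : ℤ) : ZMod p) = y
      rw [word_apply_one_zero]
      push_cast
      have e : ((M : ℕ) : ZMod p) * (y * ((M : ℕ) : ZMod p)⁻¹) = y := by
        rw [mul_comm y, ← mul_assoc, mul_inv_cancel₀ hm, one_mul]
      rw [e, mul_zero, zero_mul, zero_add]

/-! ### The relative index -/

/-- **`[Γ₁(M) : Γ₁(M p)] = p² - 1`** for a prime `p ∤ M`. -/
theorem relIndex_Gamma1_mul_prime (M p : ℕ) (hp : p.Prime) (hpM : ¬ p ∣ M) :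
    (Gamma1 (M * p)).relIndex (Gamma1 M) = p ^ 2 - 1 := by
  classical
  have : Fact p.Prime := ⟨hp⟩
  have hcop : Nat.Coprime M p := Nat.Coprime.symm ((Nat.Prime.coprime_iff_not_dvd hp).mpr hpM)
  have hcard : Nat.card {v : ZMod p × ZMod p // v ≠ 0} = p ^ 2 - 1 := by
    rw [Nat.card_eq_fintype_card, Fintype.card_subtype_compl, Fintype.card_prod, ZMod.card,
      Fintype.card_unique, sq]
  refine Eq.trans (Eq.symm ?_) hcard
  show Nat.card {v : ZMod p × ZMod p // v ≠ 0} =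
    Nat.card (Gamma1 M ⧸ (Gamma1 (M * p)).subgroupOf (Gamma1 M))
  have hcast : ∀ z w : ℤ, ((z : ZMod p) = (w : ZMod p)) ↔ (p : ℤ) ∣ z - w := by
    intro z w
    rw [← ZMod.intCast_zmod_eq_zero_iff_dvd, Int.cast_sub, sub_eq_zero]
  choose rep hrep0 hrep1 using fun v : {v : ZMod p × ZMod p // v ≠ 0} =>
    exists_rep (M := M) hpM v.1 v.2
  refine Nat.card_eq_of_bijective (fun v => (QuotientGroup.mk (rep v) :
    Gamma1 M ⧸ (Gamma1 (M * p)).subgroupOf (Gamma1 M))) ⟨?_, ?_⟩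
  · intro v v' h
    simp only at h
    rw [mk_subgroupOf_eq_iff hcop] at h
    apply Subtype.ext
    apply Prod.ext
    · rw [← hrep0 v, ← hrep0 v']
      exact (hcast _ _).mpr h.1
    · rw [← hrep1 v, ← hrep1 v']
      exact (hcast _ _).mpr h.2
  · intro q
    induction q using QuotientGroup.induction_on with
    | H k =>
      have hv : (((((k : SL(2, ℤ)) 0 0 : ℤ) : ZMod p)), ((((k : SL(2, ℤ)) 1 0 : ℤ) : ZMod p)))
          ≠ (0 : ZMod p × ZMod p) := by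
        intro h0
        have h1 : ((((k : SL(2, ℤ)) 0 0 : ℤ) : ZMod p)) = 0 := congrArg Prod.fst h0
        have h2 : ((((k : SL(2, ℤ)) 1 0 : ℤ) : ZMod p)) = 0 := congrArg Prod.snd h0
        have h := congrArg (Int.cast : ℤ → ZMod p) (det_eq_one (k : SL(2, ℤ)))
        push_cast at h
        rw [h1, h2, zero_mul, mul_zero, sub_zero] at h
        exact zero_ne_one h
      refine ⟨⟨_, hv⟩, ?_⟩
      simp only
      rw [mk_subgroupOf_eq_iff hcop]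
      exact ⟨(hcast _ _).mp (hrep0 ⟨_, hv⟩), (hcast _ _).mp (hrep1 ⟨_, hv⟩)⟩

/-- **`[SL(2, ℤ) : Γ₁(M p)] = (p² - 1) [SL(2, ℤ) : Γ₁(M)]`** for a prime `p ∤ M`. -/
theorem index_Gamma1_mul_prime (M p : ℕ) (hp : p.Prime) (hpM : ¬ p ∣ M) :
    (Gamma1 (M * p)).index = (p ^ 2 - 1) * (Gamma1 M).index := by
  rw [← relIndex_Gamma1_mul_prime M p hp hpM]
  exact (Subgroup.relIndex_mul_index (Gamma1_le_of_dvd (Dvd.intro p rfl))).symm

/-! ### The `±`-version -/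

set_option linter.unusedVariables false in
/-- A subgroup `H ≤ G` of `SL(2, ℤ)` with `G = H ∪ -H` and `-1 ∈ G`, `-1 ∉ H` has index `2`
in `G`. -/
theorem relIndex_eq_two_of_pm (H G : Subgroup SL(2, ℤ)) (hHG : H ≤ G)
    (hG : (-1 : SL(2, ℤ)) ∈ G) (hH : (-1 : SL(2, ℤ)) ∉ H)
    (hpm : ∀ g ∈ G, g ∈ H ∨ -g ∈ H) : H.relIndex G = 2 := by
  rw [Subgroup.relIndex, Subgroup.index_eq_two_iff]
  refine ⟨⟨-1, hG⟩, fun b => ?_⟩
  have hb : ((b * ⟨-1, hG⟩ : G) : SL(2, ℤ)) = -(b : SL(2, ℤ)) := by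
    rw [Subgroup.coe_mul]
    show (b : SL(2, ℤ)) * -1 = -(b : SL(2, ℤ))
    rw [mul_neg, mul_one]
  rw [Subgroup.mem_subgroupOf, Subgroup.mem_subgroupOf, hb]
  have hnot : ¬ ((b : SL(2, ℤ)) ∈ H ∧ -(b : SL(2, ℤ)) ∈ H) := by
    rintro ⟨h1, h2⟩
    apply hH
    have h3 : -(b : SL(2, ℤ)) * (b : SL(2, ℤ))⁻¹ ∈ H := H.mul_mem h2 (H.inv_mem h1)
    rwa [neg_mul, mul_inv_cancel] at h3
  rcases hpm b b.2 with h | h
  · exact Or.inr ⟨h, fun h' => hnot ⟨h, h'⟩⟩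
  · exact Or.inl ⟨h, fun h' => hnot ⟨h', h⟩⟩

/-- **`[SL(2, ℤ) : ±Γ₁(M p)] = [SL(2, ℤ) : ±Γ₁(M)] · (p² - 1)`** for `M ≥ 3` and a prime
`p ∤ M`; `G`, `G'` are any subgroups which are `±Γ₁(M)`, `±Γ₁(M p)` elementwise. -/
theorem card_quotient_pm_mul_prime (M p : ℕ) (hM : 3 ≤ M) (hp : p.Prime) (hpM : ¬ p ∣ M)
    (G G' : Subgroup SL(2, ℤ))
    (h1 : Gamma1 M ≤ G) (h2 : (-1 : SL(2, ℤ)) ∈ G)
    (h3 : ∀ g ∈ G, g ∈ Gamma1 M ∨ -g ∈ Gamma1 M)
    (h1' : Gamma1 (M * p) ≤ G') (h2' : (-1 : SL(2, ℤ)) ∈ G')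
    (h3' : ∀ g ∈ G', g ∈ Gamma1 (M * p) ∨ -g ∈ Gamma1 (M * p)) :
    Nat.card (SL(2, ℤ) ⧸ G') = Nat.card (SL(2, ℤ) ⧸ G) * (p ^ 2 - 1) := by
  have hMp : 3 ≤ M * p := le_trans hM (Nat.le_mul_of_pos_right M hp.pos)
  have e1 : 2 * G.index = (Gamma1 M).index := by
    have h := Subgroup.relIndex_mul_index h1
    rw [relIndex_eq_two_of_pm (Gamma1 M) G h1 h2 (neg_one_not_mem_Gamma1 hM) h3] at h
    exact h
  have e2 : 2 * G'.index = (Gamma1 (M * p)).index := by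
    have h := Subgroup.relIndex_mul_index h1'
    rw [relIndex_eq_two_of_pm (Gamma1 (M * p)) G' h1' h2' (neg_one_not_mem_Gamma1 hMp) h3'] at h
    exact h
  have e3 := index_Gamma1_mul_prime M p hp hpM
  rw [← e1, ← e2] at e3
  show G'.index = G.index * (p ^ 2 - 1)
  have e4 : 2 * G'.index = 2 * (G.index * (p ^ 2 - 1)) := by
    rw [e3]
    ring
  exact Nat.eq_of_mul_eq_mul_left (by norm_num) e4

end Fermat.Agent.Lib.Gamma1Index
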