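import Mathlib.RingTheory.Valuation.ValuationSubring
import Mathlib.Algebra.Polynomial.Roots
import Mathlib.Algebra.Polynomial.Splits
import Mathlib.Algebra.Polynomial.EraseLead
import Mathlib.FieldTheory.IsAlgClosed.Basic
import Mathlib.FieldTheory.IsAlgClosed.AlgebraicClosure
import Mathlib.Tactic

set_option autoImplicit false

/-!
# Gauss-norm / Newton-polygon bounds for polynomials over a valued field

Pure valuation theory, no elliptic curves:

* `coeff_int_of_mul`: division by a polynomial with integral coefficients and unit leading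
  coefficient preserves integrality of the coefficients.
* `newton_bound`, `newton_bound_roots`, `newton_bound_finset`: if `F` has integral coefficients
  then `v (leading coefficient) * ∏ v ρ ≤ 1`, the product over any family of roots with `1 < v ρ`.
* `rat_val_ge`: a rational number with `1 < v r` at a place over `p` has `1 ≤ v r * v p`.
-/

namespace Fermat.Agent.Lib.GaussBound

open Polynomial

variable {K : Type*} [Field K] {Γ₀ : Type*} [LinearOrderedCommGroupWithZero Γ₀]
  (v : Valuation K Γ₀)

/-- All coefficients of `f` are `v`-integral. -/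
def IntCoeff (f : K[X]) : Prop := ∀ n, v (f.coeff n) ≤ 1

variable {v}

lemma IntCoeff.zero : IntCoeff v (0 : K[X]) := fun n => by simp

lemma IntCoeff.add {f g : K[X]} (hf : IntCoeff v f) (hg : IntCoeff v g) : IntCoeff v (f + g) :=
  fun n => by
    rw [coeff_add]
    exact (v.map_add _ _).trans (max_le (hf n) (hg n))

lemma IntCoeff.neg {f : K[X]} (hf : IntCoeff v f) : IntCoeff v (-f) := fun n => by
  rw [coeff_neg, Valuation.map_neg]
  exact hf n

lemma IntCoeff.sub {f g : K[X]} (hf : IntCoeff v f) (hg : IntCoeff v g) : IntCoeff v (f - g) := by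
  rw [sub_eq_add_neg]
  exact hf.add hg.neg

lemma IntCoeff.C {a : K} (ha : v a ≤ 1) : IntCoeff v (C a) := fun n => by
  rw [coeff_C]
  split_ifs
  · exact ha
  · simp

lemma IntCoeff.X : IntCoeff v (X : K[X]) := fun n => by
  rw [coeff_X]
  split_ifs <;> simp

lemma IntCoeff.monomial {a : K} (ha : v a ≤ 1) (m : ℕ) : IntCoeff v (monomial m a) := fun n => by
  rw [coeff_monomial]
  split_ifs
  · exact ha
  · simp

lemma IntCoeff.mul {f g : K[X]} (hf : IntCoeff v f) (hg : IntCoeff v g) : IntCoeff v (f * g) :=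
  fun n => by
    rw [coeff_mul]
    refine v.map_sum_le fun x _ => ?_
    rw [v.map_mul]
    exact mul_le_one' (hf _) (hg _)

lemma IntCoeff.pow {f : K[X]} (hf : IntCoeff v f) (n : ℕ) : IntCoeff v (f ^ n) := by
  induction n with
  | zero => rw [pow_zero]; exact IntCoeff.C (by simp)
  | succ n ih => rw [pow_succ]; exact ih.mul hf

lemma IntCoeff.natCast (n : ℕ) : IntCoeff v (n : K[X]) := by
  induction n with
  | zero => simpa using IntCoeff.zero (v := v)
  | succ n ih =>
    rw [Nat.cast_succ]
    exact ih.add (by simpa using IntCoeff.C (v := v) (a := 1) (by simp))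

/-- Division by a polynomial with integral coefficients and unit leading coefficient preserves
integrality. -/
theorem coeff_int_of_mul (f g : K[X]) (hg : IntCoeff v g) (hlc : v g.leadingCoeff = 1)
    (hfg : IntCoeff v (f * g)) : IntCoeff v f := by
  have hg0 : g ≠ 0 := by
    rintro rfl
    simp at hlc
  induction hn : f.support.card using Nat.strong_induction_on generalizing f with
  | _ n ih =>
    by_cases hf0 : f = 0
    · subst hf0
      exact IntCoeff.zero
    · have hlead : v f.leadingCoeff ≤ 1 := by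
        have h := hfg (f.natDegree + g.natDegree)
        rw [coeff_mul_degree_add_degree, v.map_mul, hlc, mul_one] at h
        exact h
      have hmon : IntCoeff v (monomial f.natDegree f.leadingCoeff) := IntCoeff.monomial hlead _
      have hsplit : f = f.eraseLead + monomial f.natDegree f.leadingCoeff :=
        (eraseLead_add_monomial_natDegree_leadingCoeff f).symm
      have hcard : f.eraseLead.support.card < n := by
        rw [← hn]
        exact eraseLead_support_card_lt hf0
      have hel : IntCoeff v (f.eraseLead * g) := by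
        have : f.eraseLead * g = f * g - monomial f.natDegree f.leadingCoeff * g := by
          conv_rhs => rw [hsplit]
          simp only [eraseLead_add_monomial_natDegree_leadingCoeff]
          rw [← sub_mul]
          congr 1
          rw [← self_sub_monomial_natDegree_leadingCoeff]
        rw [this]
        exact hfg.sub (hmon.mul hg)
      have := ih _ hcard f.eraseLead hel rfl
      rw [hsplit]
      exact this.add hmon

/-- Peeling an integral root. -/
lemma intCoeff_of_X_sub_C_mul {ρ : K} (hρ : v ρ ≤ 1) {g : K[X]}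
    (h : IntCoeff v ((X - C ρ) * g)) : IntCoeff v g := by
  refine coeff_int_of_mul g (X - C ρ) (IntCoeff.X.sub (IntCoeff.C hρ)) ?_ (by rwa [mul_comm])
  rw [leadingCoeff_X_sub_C]
  simp

/-- Peeling a non-integral root. -/
lemma intCoeff_C_mul_of_X_sub_C_mul {ρ : K} (hρ : 1 < v ρ) {g : K[X]}
    (h : IntCoeff v ((X - C ρ) * g)) : IntCoeff v (C ρ * g) := by
  have h0 : ∀ n, ((X - C ρ) * g).coeff (n + 1) = g.coeff n - ρ * g.coeff (n + 1) := by
    intro n
    rw [sub_mul, coeff_sub, coeff_X_mul, coeff_C_mul]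
  intro n
  rw [coeff_C_mul]
  induction n with
  | zero =>
    have := h 0
    rw [sub_mul, coeff_sub, coeff_C_mul, mul_comm X g, coeff_mul_X_zero, zero_sub,
      Valuation.map_neg] at this
    exact this
  | succ n ih =>
    have e : ρ * g.coeff (n + 1) = g.coeff n - ((X - C ρ) * g).coeff (n + 1) := by
      rw [h0]; ring
    rw [e]
    refine (v.map_sub _ _).trans (max_le ?_ (h _))
    refine le_trans ?_ ih
    rw [v.map_mul]
    calc v (g.coeff n) = 1 * v (g.coeff n) := (one_mul _).symm
      _ ≤ v ρ * v (g.coeff n) := mul_le_mul_left hρ.le _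

/-- Peeling all roots: the product of the non-integral roots times `g` is integral. -/
theorem intCoeff_prod_filter_mul (s : Multiset K) [DecidablePred fun ρ : K => 1 < v ρ] :
    ∀ g : K[X], IntCoeff v (g * (s.map fun ρ => X - C ρ).prod) →
      IntCoeff v (C (s.filter fun ρ => 1 < v ρ).prod * g) := by
  induction s using Multiset.induction_on with
  | empty =>
    intro g hg
    simpa using hg
  | cons ρ s ih =>
    intro g hg
    rw [Multiset.map_cons, Multiset.prod_cons] at hg
    have hg' : IntCoeff v ((X - C ρ) * (g * (s.map fun ρ => X - C ρ).prod)) := by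
      rw [show (X - C ρ) * (g * (s.map fun ρ => X - C ρ).prod) =
        g * ((X - C ρ) * (s.map fun ρ => X - C ρ).prod) by ring]
      exact hg
    by_cases hρ : 1 < v ρ
    · rw [Multiset.filter_cons_of_pos (p := fun ρ => 1 < v ρ) s hρ, Multiset.prod_cons]
      have h1 := intCoeff_C_mul_of_X_sub_C_mul hρ hg'
      have h2 := ih (C ρ * g) (by rw [mul_assoc]; exact h1)
      rw [C_mul, show C ρ * C (Multiset.filter (fun ρ => 1 < v ρ) s).prod * g =
        C (Multiset.filter (fun ρ => 1 < v ρ) s).prod * (C ρ * g) by ring]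
      exact h2
    · rw [Multiset.filter_cons_of_neg (p := fun ρ => 1 < v ρ) s hρ]
      exact ih g (intCoeff_of_X_sub_C_mul (not_lt.mp hρ) hg')

/-- **Newton bound.** If `C c * ∏_{ρ ∈ s} (X - ρ)` has integral coefficients then
`v c * ∏ v ρ ≤ 1`, the product taken over any sub-multiset `t` of non-integral roots. -/
theorem newton_bound (c : K) (s : Multiset K)
    (hf : IntCoeff v (C c * (s.map fun ρ => X - C ρ).prod))
    (t : Multiset K) (ht : t ≤ s) (h1 : ∀ ρ ∈ t, 1 < v ρ) :
    v c * (t.map v).prod ≤ 1 := by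
  classical
  have h := intCoeff_prod_filter_mul s (C c) hf 0
  rw [← C_mul, coeff_C_zero, v.map_mul] at h
  have hle : t ≤ s.filter fun ρ => 1 < v ρ := by
    rw [Multiset.le_filter]
    exact ⟨ht, h1⟩
  obtain ⟨u, hu⟩ := Multiset.le_iff_exists_add.mp hle
  have hu1 : ∀ ρ ∈ u, 1 < v ρ := by
    intro ρ hρ
    have : ρ ∈ s.filter fun ρ => 1 < v ρ := by
      rw [hu]
      exact Multiset.mem_add.mpr (Or.inr hρ)
    exact (Multiset.mem_filter.mp this).2
  have hprod : v (s.filter fun ρ => 1 < v ρ).prod = (t.map v).prod * (u.map v).prod := by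
    rw [hu, Multiset.prod_add, v.map_mul, map_multiset_prod, map_multiset_prod]
  have hone : (1 : Γ₀) ≤ (u.map v).prod := by
    apply Multiset.one_le_prod_of_one_le
    intro x hx
    obtain ⟨ρ, hρ, rfl⟩ := Multiset.mem_map.mp hx
    exact (hu1 ρ hρ).le
  calc v c * (t.map v).prod = v c * (t.map v).prod * 1 := (mul_one _).symm
    _ ≤ v c * (t.map v).prod * (u.map v).prod := mul_le_mul_right hone _
    _ = v (s.filter fun ρ => 1 < v ρ).prod * v c := by rw [hprod, mul_assoc, mul_comm]
    _ ≤ 1 := h

/-- Newton bound for a polynomial that splits (e.g. over an algebraically closed field). -/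
theorem newton_bound_roots (F : K[X]) (hsplit : F.Splits) (hF : IntCoeff v F)
    (t : Multiset K) (ht : t ≤ F.roots) (h1 : ∀ ρ ∈ t, 1 < v ρ) :
    v F.leadingCoeff * (t.map v).prod ≤ 1 := by
  refine newton_bound F.leadingCoeff F.roots ?_ t ht h1
  rw [← hsplit.eq_prod_roots]
  exact hF

/-- Newton bound, `Finset` form: distinct non-integral roots of an integral polynomial. -/
theorem newton_bound_finset [IsAlgClosed K] (F : K[X]) (hF0 : F ≠ 0) (hF : IntCoeff v F)
    (T : Finset K) (hT : ∀ ρ ∈ T, F.eval ρ = 0 ∧ 1 < v ρ) :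
    v F.leadingCoeff * ∏ ρ ∈ T, v ρ ≤ 1 := by
  have h := newton_bound_roots F (IsAlgClosed.splits F) hF T.val
    ((Multiset.le_iff_subset T.nodup).mpr fun ρ hρ => (mem_roots hF0).mpr (hT ρ hρ).1)
    (fun ρ hρ => (hT ρ hρ).2)
  exact h

section Rat

variable {L : Type*} [Field L] {Γ : Type*} [LinearOrderedCommGroupWithZero Γ]
  (w : Valuation L Γ)

lemma val_natCast_le_one (n : ℕ) : w (n : L) ≤ 1 := by
  induction n with
  | zero => simp
  | succ n ih =>
    rw [Nat.cast_succ]
    exact (w.map_add _ _).trans (max_le ih (by simp))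

lemma val_intCast_le_one (n : ℤ) : w (n : L) ≤ 1 := by
  rcases Int.natAbs_eq n with h | h
  · rw [h, Int.cast_natCast]
    exact val_natCast_le_one w _
  · rw [h, Int.cast_neg, Int.cast_natCast, Valuation.map_neg]
    exact val_natCast_le_one w _

variable {w}

/-- Integers prime to `p` are units at a place above `p`. -/
lemma val_natCast_eq_one_of_not_dvd {p : ℕ} (hp : p.Prime) (hvp : w (p : L) < 1) {n : ℕ}
    (hn : ¬ p ∣ n) : w (n : L) = 1 := by
  refine le_antisymm (val_natCast_le_one w n) (not_lt.mp fun hlt => ?_)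
  have hcop : IsCoprime (n : ℤ) (p : ℤ) :=
    Nat.isCoprime_iff_coprime.mpr ((Nat.Prime.coprime_iff_not_dvd hp).mpr hn).symm
  obtain ⟨a, b, hab⟩ := hcop
  have h1 : (a : L) * (n : L) + (b : L) * (p : L) = 1 := by
    have := congrArg (Int.cast : ℤ → L) hab
    push_cast at this
    exact this
  have h2 : w ((a : L) * (n : L) + (b : L) * (p : L)) < 1 := by
    refine lt_of_le_of_lt (w.map_add _ _) (max_lt ?_ ?_)
    · rw [w.map_mul]
      exact lt_of_le_of_lt (mul_le_of_le_one_left' (val_intCast_le_one w a)) hlt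
    · rw [w.map_mul]
      exact lt_of_le_of_lt (mul_le_of_le_one_left' (val_intCast_le_one w b)) hvp
  rw [h1, w.map_one] at h2
  exact lt_irrefl _ h2

lemma val_natCast_eq_pow {p : ℕ} (hp : p.Prime) (hvp : w (p : L) < 1) {n : ℕ} (hn : n ≠ 0) :
    ∃ k : ℕ, w (n : L) = w (p : L) ^ k := by
  obtain ⟨e, n', hn', rfl⟩ := Nat.exists_eq_pow_mul_and_not_dvd hn p hp.ne_one
  refine ⟨e, ?_⟩
  rw [Nat.cast_mul, Nat.cast_pow, w.map_mul, w.map_pow,
    val_natCast_eq_one_of_not_dvd hp hvp hn', mul_one]

/-- The value of a nonzero rational number at a place above `p` is an integral power of the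
value of `p`. -/
theorem rat_val_eq_zpow [CharZero L] {p : ℕ} (hp : p.Prime) (hvp : w (p : L) < 1) (r : ℚ)
    (hr : r ≠ 0) : ∃ k : ℤ, w (r : L) = w (p : L) ^ k := by
  have hp0 : w (p : L) ≠ 0 := by
    rw [Ne, Valuation.zero_iff]
    exact_mod_cast hp.ne_zero
  have hnum : r.num.natAbs ≠ 0 := by
    rw [Ne, Int.natAbs_eq_zero, Rat.num_eq_zero]
    exact hr
  obtain ⟨k₁, hk₁⟩ := val_natCast_eq_pow hp hvp hnum
  obtain ⟨k₂, hk₂⟩ := val_natCast_eq_pow (w := w) hp hvp r.den_nz
  have hnum' : w (r.num : L) = w (p : L) ^ k₁ := by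
    rw [← hk₁]
    rcases Int.natAbs_eq r.num with h | h
    · conv_lhs => rw [h, Int.cast_natCast]
    · conv_lhs => rw [h, Int.cast_neg, Int.cast_natCast, Valuation.map_neg]
  refine ⟨(k₁ : ℤ) - k₂, ?_⟩
  rw [Rat.cast_def, map_div₀, hnum', hk₂, zpow_sub₀ hp0, zpow_natCast, zpow_natCast]

/-- A rational number which is not integral at a place above `p` has a denominator divisible by
`p`: `1 ≤ v r * v p`. -/
theorem rat_val_ge [CharZero L] {p : ℕ} (hp : p.Prime) (hvp : w (p : L) < 1) (r : ℚ)
    (h : 1 < w (r : L)) : 1 ≤ w (r : L) * w (p : L) := by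
  have hp0 : w (p : L) ≠ 0 := by
    rw [Ne, Valuation.zero_iff]
    exact_mod_cast hp.ne_zero
  have hr : r ≠ 0 := by
    rintro rfl
    simp at h
  obtain ⟨k, hk⟩ := rat_val_eq_zpow hp hvp r hr
  rw [hk] at h ⊢
  have hk0 : k < 0 := by
    by_contra hk0
    rw [not_lt] at hk0
    obtain ⟨m, rfl⟩ := Int.eq_ofNat_of_zero_le hk0
    rw [zpow_natCast] at h
    exact absurd h (not_lt.mpr (pow_le_one' hvp.le m))
  obtain ⟨m, hm⟩ : ∃ m : ℕ, k + 1 = -(m : ℤ) := ⟨(-(k + 1)).toNat, by omega⟩
  have e : w (p : L) ^ k * w (p : L) = w (p : L) ^ (k + 1) := by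
    rw [zpow_add_one₀ hp0]
  rw [e, hm, zpow_neg, zpow_natCast]
  exact (one_le_inv₀ (pow_pos (zero_lt_iff.mpr hp0) m)).mpr (pow_le_one' hvp.le m)

end Rat

end Fermat.Agent.Lib.GaussBound
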