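import Mathlib

/-!
# Charts of a Gauss ring (level-free, Mathlib only)

Program FG (S19), Route C, brick `PHI` (local roots, gluing, the cocycle): the VOCABULARY.

`K` is a field (the function field of the curve), `𝒪 ⊆ K` a valuation ring whose maximal ideal
is generated by `π` (the Gauss valuation ring of the special fibre), and a *chart* is a subring
`B ⊆ 𝒪` together with a family of local rings `R i ⊆ 𝒪` (the localisations of `B` at the closed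
points of the special fibre) satisfying the elementary chart facts:

* (F1) `R i ∩ π𝒪 = π R i`, `B ∩ π𝒪 = π B`;
* `π` lies in the maximal ideal of each `R i`;
* each `R i` and its reduction modulo `π` are integrally closed (for pure equations `x ^ n = r`);
* every element of `𝒪` lies in `R i` for all but finitely many `i`;
* principal parts modulo `π` can be prescribed at finitely many `i` (CRT in the Dedekind
  domain `B / π`);
* (F2) `⋂ i, (R i + π𝒪) = B + π𝒪`.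

Everything is stated elementwise inside `K`, so that an instance needs no quotient ring.

Main definitions: `IsUnitIn`, `GaussRing`, `GaussChart`.
Main results: the group `1 + π𝒪` (`GaussRing.isUnitIn_one_add`, `GaussRing.inv_one_add`, ...),
`GaussRing.isUnitIn_of_pow`, (F1) and (F2) at every level (`GaussChart.loc_inter_pow`,
`GaussChart.chart_inter_pow`, `GaussChart.glue_pow`), `GaussChart.isUnitIn_one_add_loc`,
`GaussChart.isUnitIn_of_red`.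
-/

set_option autoImplicit false

namespace Fermat.Agent.Lib.ChartRoots

variable {K : Type*} [Field K]

/-- `x` is a unit of the subring `S` of the field `K`. -/
def IsUnitIn (S : Subring K) (x : K) : Prop := x ≠ 0 ∧ x ∈ S ∧ x⁻¹ ∈ S

theorem IsUnitIn.ne_zero {S : Subring K} {x : K} (hx : IsUnitIn S x) : x ≠ 0 := hx.1

theorem IsUnitIn.mem {S : Subring K} {x : K} (hx : IsUnitIn S x) : x ∈ S := hx.2.1

theorem IsUnitIn.inv_mem {S : Subring K} {x : K} (hx : IsUnitIn S x) : x⁻¹ ∈ S := hx.2.2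

theorem IsUnitIn.mul {S : Subring K} {x y : K} (hx : IsUnitIn S x) (hy : IsUnitIn S y) :
    IsUnitIn S (x * y) :=
  ⟨mul_ne_zero hx.1 hy.1, S.mul_mem hx.2.1 hy.2.1, by rw [mul_inv]; exact S.mul_mem hx.2.2 hy.2.2⟩

theorem IsUnitIn.inv {S : Subring K} {x : K} (hx : IsUnitIn S x) : IsUnitIn S x⁻¹ :=
  ⟨inv_ne_zero hx.1, hx.2.2, by rw [inv_inv]; exact hx.2.1⟩

theorem IsUnitIn.pow {S : Subring K} {x : K} (hx : IsUnitIn S x) (n : ℕ) : IsUnitIn S (x ^ n) :=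
  ⟨pow_ne_zero n hx.1, S.pow_mem hx.2.1 n, by rw [← inv_pow]; exact S.pow_mem hx.2.2 n⟩

theorem IsUnitIn.div {S : Subring K} {x y : K} (hx : IsUnitIn S x) (hy : IsUnitIn S y) :
    IsUnitIn S (x / y) := by
  rw [div_eq_mul_inv]; exact hx.mul hy.inv

theorem isUnitIn_one (S : Subring K) : IsUnitIn S 1 :=
  ⟨one_ne_zero, S.one_mem, by rw [inv_one]; exact S.one_mem⟩

theorem IsUnitIn.mono {S T : Subring K} (h : S ≤ T) {x : K} (hx : IsUnitIn S x) : IsUnitIn T x :=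
  ⟨hx.1, h hx.2.1, h hx.2.2⟩

/-- `𝒪` is a valuation ring of `K` whose maximal ideal is generated by `π`. -/
structure GaussRing (𝒪 : Subring K) (π : K) : Prop where
  pi_mem : π ∈ 𝒪
  inv_pi_notMem : π⁻¹ ∉ 𝒪
  mem_or_inv_mem : ∀ x : K, x ∈ 𝒪 ∨ x⁻¹ ∈ 𝒪
  exists_eq_pi_mul : ∀ x ∈ 𝒪, x⁻¹ ∉ 𝒪 → ∃ h ∈ 𝒪, x = π * h

/-- A chart of the Gauss ring `(𝒪, π)`: a subring `B` with the local rings `R i` at the closed
points of its special fibre. -/
structure GaussChart (𝒪 : Subring K) (π : K) (B : Subring K) {ι : Type*} (R : ι → Subring K) :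
    Prop where
  pi_mem : π ∈ B
  chart_le : B ≤ 𝒪
  le_loc : ∀ i, B ≤ R i
  loc_le : ∀ i, R i ≤ 𝒪
  /-- (F1) `R i ∩ π𝒪 = π R i`. -/
  loc_inter : ∀ i, ∀ h ∈ 𝒪, π * h ∈ R i → h ∈ R i
  /-- (F1) `B ∩ π𝒪 = π B`. -/
  chart_inter : ∀ h ∈ 𝒪, π * h ∈ B → h ∈ B
  /-- `π` lies in the maximal ideal of the local ring `R i`. -/
  loc_inv : ∀ i, ∀ r ∈ R i, (1 + π * r)⁻¹ ∈ R i
  /-- `R i` is integrally closed in `K` (pure equations). -/
  loc_root : ∀ i (n : ℕ) (x : K), 0 < n → x ^ n ∈ R i → x ∈ R i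
  /-- The reduction of `R i` modulo `π` is integrally closed in `𝒪 / π` (pure equations). -/
  red_root : ∀ i (n : ℕ), 0 < n → ∀ y ∈ 𝒪, (∃ r ∈ R i, ∃ h ∈ 𝒪, y ^ n = r + π * h) →
    ∃ r ∈ R i, ∃ h ∈ 𝒪, y = r + π * h
  /-- Every element of `𝒪` lies in all but finitely many `R i`. -/
  finite_notMem : ∀ h ∈ 𝒪, {i | h ∉ R i}.Finite
  /-- Principal parts modulo `π` at finitely many points. -/
  exists_pp : ∀ (T : Finset ι) (a : ι → K), (∀ i ∈ T, a i ∈ 𝒪) →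
    ∃ b ∈ 𝒪, (∀ i ∈ T, ∃ r ∈ R i, ∃ h ∈ 𝒪, b - a i = r + π * h) ∧
      ∀ i ∉ T, ∃ r ∈ R i, ∃ h ∈ 𝒪, b = r + π * h
  /-- (F2) at level one: `⋂ i, (R i + π𝒪) = B + π𝒪`. -/
  glue : ∀ x ∈ 𝒪, (∀ i, ∃ r ∈ R i, ∃ h ∈ 𝒪, x = r + π * h) → ∃ c ∈ B, ∃ h ∈ 𝒪, x = c + π * h

namespace GaussRing

variable {𝒪 : Subring K} {π : K} (hG : GaussRing 𝒪 π)

include hG

theorem pi_ne_zero : π ≠ 0 := by
  rintro rfl
  exact hG.inv_pi_notMem (by rw [inv_zero]; exact 𝒪.zero_mem)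

theorem pi_pow_mem (n : ℕ) : π ^ n ∈ 𝒪 := 𝒪.pow_mem hG.pi_mem n

/-- A unit of `𝒪` is not divisible by `π`. -/
theorem ne_pi_mul {x : K} (hx : IsUnitIn 𝒪 x) {h : K} (hh : h ∈ 𝒪) : x ≠ π * h := by
  intro e
  apply hG.inv_pi_notMem
  have hπ := hG.pi_ne_zero
  have h0 : h ≠ 0 := by
    rintro rfl
    exact hx.1 (by rw [e, mul_zero])
  have e' : π⁻¹ = h * x⁻¹ := by rw [e]; field_simp
  rw [e']
  exact 𝒪.mul_mem hh hx.2.2

theorem one_add_ne_zero {h : K} (hh : h ∈ 𝒪) : 1 + π * h ≠ 0 := by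
  intro e
  apply hG.inv_pi_notMem
  have e1 : π * -h = 1 := by linear_combination -e
  rw [← eq_inv_of_mul_eq_one_right e1]
  exact 𝒪.neg_mem hh

/-- `1 + π𝒪 ⊆ 𝒪ˣ`. -/
theorem isUnitIn_one_add {h : K} (hh : h ∈ 𝒪) : IsUnitIn 𝒪 (1 + π * h) := by
  have hmem : 1 + π * h ∈ 𝒪 := 𝒪.add_mem 𝒪.one_mem (𝒪.mul_mem hG.pi_mem hh)
  refine ⟨hG.one_add_ne_zero hh, hmem, ?_⟩
  by_contra hinv
  obtain ⟨h', hh', e⟩ := hG.exists_eq_pi_mul _ hmem hinv
  apply hG.inv_pi_notMem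
  have e1 : π * (h' - h) = 1 := by linear_combination -e
  rw [← eq_inv_of_mul_eq_one_right e1]
  exact 𝒪.sub_mem hh' hh

theorem inv_one_add {h : K} (hh : h ∈ 𝒪) : ∃ h' ∈ 𝒪, (1 + π * h)⁻¹ = 1 + π * h' := by
  have hu := hG.isUnitIn_one_add hh
  refine ⟨-h * (1 + π * h)⁻¹, 𝒪.mul_mem (𝒪.neg_mem hh) hu.2.2, ?_⟩
  have := hu.1
  field_simp
  ring

theorem mul_one_add {h h' : K} (hh : h ∈ 𝒪) (hh' : h' ∈ 𝒪) :
    ∃ h'' ∈ 𝒪, (1 + π * h) * (1 + π * h') = 1 + π * h'' :=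
  ⟨h + h' + π * h * h', 𝒪.add_mem (𝒪.add_mem hh hh') (𝒪.mul_mem (𝒪.mul_mem hG.pi_mem hh) hh'),
    by ring⟩

omit hG in
theorem pi_pow_mul_eq {N : ℕ} (hN : 0 < N) (h : K) : π ^ N * h = π * (π ^ (N - 1) * h) := by
  obtain ⟨n, rfl⟩ := Nat.exists_eq_succ_of_ne_zero hN.ne'
  rw [Nat.succ_sub_one, pow_succ]
  ring

theorem isUnitIn_one_add_pow {N : ℕ} (hN : 0 < N) {h : K} (hh : h ∈ 𝒪) :
    IsUnitIn 𝒪 (1 + π ^ N * h) := by
  rw [pi_pow_mul_eq hN]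
  exact hG.isUnitIn_one_add (𝒪.mul_mem (hG.pi_pow_mem _) hh)

theorem inv_one_add_pow {N : ℕ} (hN : 0 < N) {h : K} (hh : h ∈ 𝒪) :
    ∃ h' ∈ 𝒪, (1 + π ^ N * h)⁻¹ = 1 + π ^ N * h' := by
  have hu := hG.isUnitIn_one_add_pow hN hh
  refine ⟨-h * (1 + π ^ N * h)⁻¹, 𝒪.mul_mem (𝒪.neg_mem hh) hu.2.2, ?_⟩
  have := hu.1
  field_simp
  ring

theorem mul_one_add_pow (N : ℕ) {h h' : K} (hh : h ∈ 𝒪) (hh' : h' ∈ 𝒪) :
    ∃ h'' ∈ 𝒪, (1 + π ^ N * h) * (1 + π ^ N * h') = 1 + π ^ N * h'' :=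
  ⟨h + h' + π ^ N * h * h',
    𝒪.add_mem (𝒪.add_mem hh hh') (𝒪.mul_mem (𝒪.mul_mem (hG.pi_pow_mem _) hh) hh'), by ring⟩

/-- `𝒪` is integrally closed (pure equations, units). -/
theorem isUnitIn_of_pow {n : ℕ} (hn : 0 < n) {y : K} (hy : IsUnitIn 𝒪 (y ^ n)) :
    IsUnitIn 𝒪 y := by
  have hy0 : y ≠ 0 := by
    rintro rfl
    exact hy.1 (zero_pow hn.ne')
  obtain ⟨k, rfl⟩ := Nat.exists_eq_succ_of_ne_zero hn.ne'
  have e1 : y = (y⁻¹) ^ k * y ^ (k + 1) := by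
    rw [pow_succ, inv_pow]
    field_simp
  have e2 : y⁻¹ = y ^ k * (y ^ (k + 1))⁻¹ := by
    rw [pow_succ]
    field_simp
  rcases hG.mem_or_inv_mem y with h | h
  · exact ⟨hy0, h, by rw [e2]; exact 𝒪.mul_mem (𝒪.pow_mem h k) hy.2.2⟩
  · exact ⟨hy0, by rw [e1]; exact 𝒪.mul_mem (𝒪.pow_mem h k) hy.2.1, h⟩

end GaussRing

namespace GaussChart

variable {𝒪 : Subring K} {π : K} {B : Subring K} {ι : Type*} {R : ι → Subring K}
  (hG : GaussRing 𝒪 π) (hB : GaussChart 𝒪 π B R)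

include hB

theorem pi_mem_loc (i : ι) : π ∈ R i := hB.le_loc i hB.pi_mem

include hG in
/-- (F1) at every level for the local rings. -/
theorem loc_inter_pow (i : ι) (n : ℕ) {h : K} (hh : h ∈ 𝒪) (hm : π ^ n * h ∈ R i) : h ∈ R i := by
  induction n with
  | zero => simpa using hm
  | succ n ih =>
    apply ih
    apply hB.loc_inter i _ (𝒪.mul_mem (hG.pi_pow_mem n) hh)
    rw [← mul_assoc, ← pow_succ']
    exact hm

include hG in
/-- (F1) at every level for the chart. -/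
theorem chart_inter_pow (n : ℕ) {h : K} (hh : h ∈ 𝒪) (hm : π ^ n * h ∈ B) : h ∈ B := by
  induction n with
  | zero => simpa using hm
  | succ n ih =>
    apply ih
    apply hB.chart_inter _ (𝒪.mul_mem (hG.pi_pow_mem n) hh)
    rw [← mul_assoc, ← pow_succ']
    exact hm

include hG in
/-- `1 + π R i ⊆ (R i)ˣ`. -/
theorem isUnitIn_one_add_loc (i : ι) {r : K} (hr : r ∈ R i) : IsUnitIn (R i) (1 + π * r) :=
  ⟨hG.one_add_ne_zero (hB.loc_le i hr),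
    (R i).add_mem (R i).one_mem ((R i).mul_mem (hB.pi_mem_loc i) hr), hB.loc_inv i r hr⟩

include hG in
theorem inv_one_add_loc (i : ι) {r : K} (hr : r ∈ R i) :
    ∃ r' ∈ R i, (1 + π * r)⁻¹ = 1 + π * r' := by
  have hu := hB.isUnitIn_one_add_loc hG i hr
  refine ⟨-r * (1 + π * r)⁻¹, (R i).mul_mem ((R i).neg_mem hr) hu.2.2, ?_⟩
  have := hu.1
  field_simp
  ring

theorem mul_one_add_loc (i : ι) {r r' : K} (hr : r ∈ R i) (hr' : r' ∈ R i) :
    ∃ r'' ∈ R i, (1 + π * r) * (1 + π * r') = 1 + π * r'' :=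
  ⟨r + r' + π * r * r',
    (R i).add_mem ((R i).add_mem hr hr') ((R i).mul_mem ((R i).mul_mem (hB.pi_mem_loc i) hr) hr'),
    by ring⟩

/-- `R i ∩ (1 + π𝒪) = 1 + π R i`. -/
theorem mem_loc_of_one_add (i : ι) {h : K} (hh : h ∈ 𝒪) (ht : 1 + π * h ∈ R i) : h ∈ R i := by
  apply hB.loc_inter i h hh
  have e : π * h = (1 + π * h) - 1 := by ring
  rw [e]
  exact (R i).sub_mem ht (R i).one_mem

/-- `B ∩ (1 + π𝒪) = 1 + π B`. -/
theorem mem_chart_of_one_add {h : K} (hh : h ∈ 𝒪) (ht : 1 + π * h ∈ B) : h ∈ B := by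
  apply hB.chart_inter h hh
  have e : π * h = (1 + π * h) - 1 := by ring
  rw [e]
  exact B.sub_mem ht B.one_mem

include hG in
/-- (F2) at every level: `⋂ i, (R i + π ^ N 𝒪) = B + π ^ N 𝒪`. -/
theorem glue_pow (N : ℕ) {x : K} (hx : x ∈ 𝒪)
    (h : ∀ i, ∃ r ∈ R i, ∃ h ∈ 𝒪, x = r + π ^ N * h) :
    ∃ c ∈ B, ∃ h ∈ 𝒪, x = c + π ^ N * h := by
  induction N with
  | zero => exact ⟨0, B.zero_mem, x, hx, by simp⟩
  | succ N ih =>
    obtain ⟨c, hc, h0, hh0, e0⟩ := ih (fun i => by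
      obtain ⟨r, hr, h1, hh1, e1⟩ := h i
      exact ⟨r, hr, π * h1, 𝒪.mul_mem hG.pi_mem hh1, by rw [e1, pow_succ]; ring⟩)
    have key : ∀ i, ∃ r ∈ R i, ∃ h ∈ 𝒪, h0 = r + π * h := by
      intro i
      obtain ⟨r, hr, h1, hh1, e1⟩ := h i
      have hmem : π ^ N * (h0 - π * h1) ∈ R i := by
        have e : π ^ N * (h0 - π * h1) = r - c := by
          linear_combination e1 - e0
        rw [e]
        exact (R i).sub_mem hr (hB.le_loc i hc)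
      have h2 := hB.loc_inter_pow hG i N (𝒪.sub_mem hh0 (𝒪.mul_mem hG.pi_mem hh1)) hmem
      exact ⟨h0 - π * h1, h2, h1, hh1, by ring⟩
    obtain ⟨c', hc', h', hh', e'⟩ := hB.glue h0 hh0 key
    exact ⟨c + π ^ N * c', B.add_mem hc (B.mul_mem (B.pow_mem hB.pi_mem N) hc'), h', hh',
      by rw [e0, e', pow_succ]; ring⟩

include hG in
/-- An element of `R i` whose reduction is a unit of the reduction of `R i` is a unit. -/
theorem isUnitIn_of_red (i : ι) {y r r' h h' : K} (hy : IsUnitIn 𝒪 y) (hr : r ∈ R i)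
    (hr' : r' ∈ R i) (hh : h ∈ 𝒪) (hh' : h' ∈ 𝒪) (e : y = r + π * h) (e' : y⁻¹ = r' + π * h') :
    IsUnitIn (R i) r := by
  have hy0 := hy.1
  have hs : -(h' * y + h * y⁻¹ - π * h * h') ∈ 𝒪 :=
    𝒪.neg_mem (𝒪.sub_mem (𝒪.add_mem (𝒪.mul_mem hh' hy.2.1) (𝒪.mul_mem hh hy.2.2))
      (𝒪.mul_mem (𝒪.mul_mem hG.pi_mem hh) hh'))
  have e1 : r * r' = 1 + π * -(h' * y + h * y⁻¹ - π * h * h') := by
    have hr_eq : r = y - π * h := by rw [e]; ring
    have hr'_eq : r' = y⁻¹ - π * h' := by rw [e']; ring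
    rw [hr_eq, hr'_eq]
    have hyy : y * y⁻¹ = 1 := mul_inv_cancel₀ hy0
    linear_combination hyy
  have hsR := hB.mem_loc_of_one_add i hs (by rw [← e1]; exact (R i).mul_mem hr hr')
  have hu := hB.isUnitIn_one_add_loc hG i hsR
  rw [← e1] at hu
  have hr0 : r ≠ 0 := left_ne_zero_of_mul hu.1
  have hr'0 : r' ≠ 0 := right_ne_zero_of_mul hu.1
  refine ⟨hr0, hr, ?_⟩
  have e2 : r⁻¹ = r' * (r * r')⁻¹ := by field_simp
  rw [e2]
  exact (R i).mul_mem hr' hu.2.2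

end GaussChart

end Fermat.Agent.Lib.ChartRoots
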