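import Mathlib

/-!
# Two-chart normal form (level-free, Mathlib only)

Program FG (S19), brick `NF`.  Data: a commutative ring `R`, an `R`-algebra `𝒞` (the overlap
chart), two subalgebras `C0`, `Cinf` (the two charts) and finitely many elements `e i : 𝒞` with

* `Dec`  : `𝒞 = C0 + Cinf + ∑ R • e i`   (the `e i` span `H¹ = 𝒞 / (C0 + Cinf)`),
* `Uniq` : `c0 + c1 + ∑ a i • e i = 0 → a = 0 ∧ c0 ∈ R`  (they are a basis and `H⁰ = R`).

For an ideal `𝔫` of `R`, `NormalForm 𝔫 N g z` says that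
`g ≡ w0 * w1 * ∏ i, (1 - z i • e i)  mod 𝔫 ^ N 𝒞` with `w0 ∈ 1 + 𝔫 C0`, `w1 ∈ 1 + 𝔫 Cinf`.

* `exists_normalForm` (E): under `Dec`, every `g ∈ 1 + 𝔫 𝒞` has a normal form with `z i ∈ 𝔫`,
  for every `N` and EVERY ideal `𝔫` (in particular the ideal of the variables of a polynomial
  ring over `R`: this is what makes the group law of the coordinates a polynomial).
* `normalForm_unique` (U): for `𝔫 = (t)` with `t` a nonzerodivisor on `𝒞`, under `Dec` and `Uniq`,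
  the coordinates `z` are unique modulo `t ^ N`.
* `NormalForm.mul`, `NormalForm.map`: products, and transport along a semilinear ring map.
-/

set_option autoImplicit false

namespace Fermat.Agent.Lib.TwoChartNormalForm

open scoped BigOperators

section Prod

variable {A : Type*} [CommRing A]

/-- Perturbing a product of elements `≡ 1 mod J1` by elements of `Jn`, modulo `Jn1 ⊇ J1 Jn, Jn²`:
`∏ (x i + a i) ≡ ∏ x i + ∑ a i`. -/
theorem prod_add_sub_mem {ι : Type*} (s : Finset ι) (J1 Jn Jn1 : Ideal A)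
    (h1n : J1 * Jn ≤ Jn1) (hnn : Jn * Jn ≤ Jn1) (x a : ι → A)
    (hx : ∀ i ∈ s, x i - 1 ∈ J1) (ha : ∀ i ∈ s, a i ∈ Jn) :
    ∏ i ∈ s, (x i + a i) - ∏ i ∈ s, x i - ∑ i ∈ s, a i ∈ Jn1 ∧ ∏ i ∈ s, x i - 1 ∈ J1 := by
  classical
  induction s using Finset.induction_on with
  | empty => simp
  | insert j s hj ih =>
    have hx' : ∀ i ∈ s, x i - 1 ∈ J1 := fun i hi => hx i (Finset.mem_insert_of_mem hi)
    have ha' : ∀ i ∈ s, a i ∈ Jn := fun i hi => ha i (Finset.mem_insert_of_mem hi)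
    obtain ⟨ih1, ih2⟩ := ih hx' ha'
    have hxj := hx j (Finset.mem_insert_self j s)
    have haj := ha j (Finset.mem_insert_self j s)
    have hS : ∑ i ∈ s, a i ∈ Jn := Ideal.sum_mem _ ha'
    rw [Finset.prod_insert hj, Finset.prod_insert hj, Finset.sum_insert hj]
    constructor
    · have e : (x j + a j) * ∏ i ∈ s, (x i + a i) - x j * ∏ i ∈ s, x i - (a j + ∑ i ∈ s, a i)
          = (x j - 1) * ∑ i ∈ s, a i
            + (x j + a j) * (∏ i ∈ s, (x i + a i) - ∏ i ∈ s, x i - ∑ i ∈ s, a i)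
            + (∏ i ∈ s, x i - 1) * a j + a j * ∑ i ∈ s, a i := by ring
      rw [e]
      refine Jn1.add_mem (Jn1.add_mem (Jn1.add_mem ?_ ?_) ?_) ?_
      · exact h1n (Ideal.mul_mem_mul hxj hS)
      · exact Jn1.mul_mem_left _ ih1
      · exact h1n (Ideal.mul_mem_mul ih2 haj)
      · exact hnn (Ideal.mul_mem_mul haj hS)
    · have e : x j * ∏ i ∈ s, x i - 1 = (x j - 1) * ∏ i ∈ s, x i + (∏ i ∈ s, x i - 1) := by ring
      rw [e]
      exact J1.add_mem (J1.mul_mem_right _ hxj) ih2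

/-- The computation behind the induction step of uniqueness. -/
theorem core_step (τ r a b P P' S y x ρ p v1 : A) (j k : ℕ)
    (E1 : (r + τ ^ (j + 1) * a) * v1 * P - P' = τ ^ (j + 1 + 1) * τ ^ k * x)
    (E2 : v1 * r = 1 + τ ^ (j + 1) * b)
    (E3 : P' - P + τ ^ (j + 1) * S = τ ^ (j + 1 + 1) * y)
    (hr : r = 1 + τ * ρ) (hP : P = 1 + τ * p) :
    τ ^ (j + 1) * (a + b + S - τ * (r * y + r * τ ^ k * x - a * p - b * (ρ * (1 + τ * p) + p)
      - τ ^ j * a * b * P - ρ * S)) = 0 := by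
  subst hr hP
  linear_combination (1 + τ * ρ) * E1 - ((1 + τ * ρ) + τ ^ (j + 1) * a) * (1 + τ * p) * E2
    + (1 + τ * ρ) * E3

end Prod

section Main

variable {R 𝒞 : Type*} [CommRing R] [CommRing 𝒞] [Algebra R 𝒞]

theorem mem_smul_top_iff (I : Ideal R) (x : 𝒞) :
    x ∈ I • (⊤ : Submodule R 𝒞) ↔ x ∈ I.map (algebraMap R 𝒞) := by
  rw [Ideal.smul_top_eq_map]; rfl

theorem mem_span_singleton_smul_iff (t : R) (N : Submodule R 𝒞) (x : 𝒞) :
    x ∈ Ideal.span {t} • N ↔ ∃ b ∈ N, x = algebraMap R 𝒞 t * b := by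
  rw [Submodule.ideal_span_singleton_smul, Submodule.mem_smul_pointwise_iff_exists]
  constructor
  · rintro ⟨b, hb, rfl⟩; exact ⟨b, hb, Algebra.smul_def t b⟩
  · rintro ⟨b, hb, rfl⟩; exact ⟨b, hb, Algebra.smul_def t b⟩

variable (C0 Cinf : Subalgebra R 𝒞) {d : ℕ} (e : Fin d → 𝒞)

/-- (DEC): the `e i` span `𝒞` modulo `C0 + Cinf`. -/
def Dec : Prop :=
  ∀ c : 𝒞, ∃ c0 ∈ C0, ∃ c1 ∈ Cinf, ∃ a : Fin d → R, c = c0 + c1 + ∑ i, a i • e i

/-- (UNIQ): the `e i` are independent modulo `C0 + Cinf`, and `C0 ∩ Cinf = R`. -/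
def Uniq : Prop :=
  ∀ c0 ∈ C0, ∀ c1 ∈ Cinf, ∀ a : Fin d → R, c0 + c1 + ∑ i, a i • e i = 0 →
    (∀ i, a i = 0) ∧ ∃ r : R, c0 = algebraMap R 𝒞 r

/-- `g ≡ w0 * w1 * ∏ (1 - z i • e i)  mod 𝔫 ^ N`, with `w0 ∈ 1 + 𝔫 C0`, `w1 ∈ 1 + 𝔫 Cinf`. -/
def NormalForm (𝔫 : Ideal R) (N : ℕ) (g : 𝒞) (z : Fin d → R) : Prop :=
  ∃ w0 w1 : 𝒞, w0 - 1 ∈ 𝔫 • Subalgebra.toSubmodule C0 ∧
    w1 - 1 ∈ 𝔫 • Subalgebra.toSubmodule Cinf ∧
    g - w0 * w1 * ∏ i, (1 - z i • e i) ∈ 𝔫 ^ N • (⊤ : Submodule R 𝒞)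

variable {C0 Cinf e}

theorem exists_split (hdec : Dec C0 Cinf e) (I : Ideal R) (δ : 𝒞)
    (hδ : δ ∈ I • (⊤ : Submodule R 𝒞)) :
    ∃ α ∈ I • Subalgebra.toSubmodule C0, ∃ β ∈ I • Subalgebra.toSubmodule Cinf,
      ∃ μ : Fin d → R, (∀ i, μ i ∈ I) ∧ δ = α + β + ∑ i, μ i • e i := by
  have htop : (⊤ : Submodule R 𝒞) = Subalgebra.toSubmodule C0 ⊔ Subalgebra.toSubmodule Cinf ⊔
      Submodule.span R (Set.range e) := by
    refine le_antisymm (fun c _ => ?_) le_top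
    obtain ⟨c0, h0, c1, h1, a, rfl⟩ := hdec c
    refine Submodule.add_mem _ (Submodule.add_mem _
      (Submodule.mem_sup_left (Submodule.mem_sup_left h0))
      (Submodule.mem_sup_left (Submodule.mem_sup_right h1))) (Submodule.mem_sup_right ?_)
    exact Submodule.sum_mem _ fun i _ => Submodule.smul_mem _ _ (Submodule.subset_span ⟨i, rfl⟩)
  rw [htop, Submodule.smul_sup, Submodule.smul_sup] at hδ
  obtain ⟨y, hy, s, hs, rfl⟩ := Submodule.mem_sup.1 hδ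
  obtain ⟨α, hα, β, hβ, rfl⟩ := Submodule.mem_sup.1 hy
  obtain ⟨a, ha, rfl⟩ := (Submodule.mem_ideal_smul_span_iff_exists_sum I e s).1 hs
  refine ⟨α, hα, β, hβ, fun i => a i, ha, ?_⟩
  rw [Finsupp.sum_fintype]
  intro i; simp

theorem smul_le_smul_top (I : Ideal R) (S : Subalgebra R 𝒞) :
    I • Subalgebra.toSubmodule S ≤ I • (⊤ : Submodule R 𝒞) :=
  Submodule.smul_mono le_rfl le_top

/-- **(E) Existence of the normal form**, for every ideal `𝔫` and every level `N`. -/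
theorem exists_normalForm (hdec : Dec C0 Cinf e) (𝔫 : Ideal R) (N : ℕ) (g : 𝒞)
    (hg : g - 1 ∈ 𝔫 • (⊤ : Submodule R 𝒞)) :
    ∃ z : Fin d → R, (∀ i, z i ∈ 𝔫) ∧ NormalForm C0 Cinf e 𝔫 N g z := by
  induction N with
  | zero =>
    refine ⟨0, fun _ => 𝔫.zero_mem, 1, 1, by simp, by simp, ?_⟩
    rw [pow_zero, Ideal.one_eq_top, Submodule.top_smul]
    exact Submodule.mem_top
  | succ n ih =>
    rcases Nat.eq_zero_or_pos n with rfl | hn
    · refine ⟨0, fun _ => 𝔫.zero_mem, 1, 1, by simp, by simp, ?_⟩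
      simpa using hg
    · obtain ⟨z, hz, w0, w1, hw0, hw1, hδ⟩ := ih
      obtain ⟨α, hα, β, hβ, μ, hμ, hsplit⟩ := exists_split hdec (𝔫 ^ n) _ hδ
      have hnle : 𝔫 ^ n ≤ 𝔫 := Ideal.pow_le_self hn.ne'
      refine ⟨fun i => z i - μ i, fun i => 𝔫.sub_mem (hz i) (hnle (hμ i)), w0 + α, w1 + β, ?_, ?_, ?_⟩
      · have : w0 + α - 1 = (w0 - 1) + α := by ring
        rw [this]
        exact Submodule.add_mem _ hw0 (Submodule.smul_mono hnle le_rfl hα)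
      · have : w1 + β - 1 = (w1 - 1) + β := by ring
        rw [this]
        exact Submodule.add_mem _ hw1 (Submodule.smul_mono hnle le_rfl hβ)
      · -- ideals of `𝒞`
        set J1 : Ideal 𝒞 := 𝔫.map (algebraMap R 𝒞) with hJ1
        set Jn : Ideal 𝒞 := (𝔫 ^ n).map (algebraMap R 𝒞) with hJn
        set Jn1 : Ideal 𝒞 := (𝔫 ^ (n + 1)).map (algebraMap R 𝒞) with hJn1
        have h1n : J1 * Jn ≤ Jn1 := by
          rw [hJ1, hJn, hJn1, ← Ideal.map_mul, ← pow_succ']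
        have hnn : Jn * Jn ≤ Jn1 := by
          rw [hJn, hJn1, ← Ideal.map_mul, ← pow_add]
          exact Ideal.map_mono (Ideal.pow_le_pow_right (by omega))
        have hn1 : Jn1 ≤ J1 := Ideal.map_mono (Ideal.pow_le_self (by omega))
        have hnJ1 : Jn ≤ J1 := Ideal.map_mono hnle
        have hαJ : α ∈ Jn := (mem_smul_top_iff _ _).1 (smul_le_smul_top _ _ hα)
        have hβJ : β ∈ Jn := (mem_smul_top_iff _ _).1 (smul_le_smul_top _ _ hβ)
        have hw0J : w0 - 1 ∈ J1 := (mem_smul_top_iff _ _).1 (smul_le_smul_top _ _ hw0)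
        have hw1J : w1 - 1 ∈ J1 := (mem_smul_top_iff _ _).1 (smul_le_smul_top _ _ hw1)
        have hμe : ∀ i, μ i • e i ∈ Jn := fun i =>
          (mem_smul_top_iff _ _).1 (Submodule.smul_mem_smul (hμ i) Submodule.mem_top)
        have hze : ∀ i, (1 - z i • e i) - 1 ∈ J1 := fun i => by
          have : (1 - z i • e i) - 1 = -(z i • e i) := by ring
          rw [this]
          exact J1.neg_mem
            ((mem_smul_top_iff _ _).1 (Submodule.smul_mem_smul (hz i) Submodule.mem_top))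
        obtain ⟨hB, hP1⟩ := prod_add_sub_mem Finset.univ J1 Jn Jn1 h1n hnn
          (fun i => 1 - z i • e i) (fun i => μ i • e i) (fun i _ => hze i) (fun i _ => hμe i)
        set P : 𝒞 := ∏ i, (1 - z i • e i) with hP
        set S : 𝒞 := ∑ i, μ i • e i with hS
        have hSJ : S ∈ Jn := Ideal.sum_mem _ fun i _ => hμe i
        have hP'eq : ∏ i, (1 - (z i - μ i) • e i) = ∏ i, ((1 - z i • e i) + μ i • e i) :=
          Finset.prod_congr rfl fun i _ => by rw [sub_smul]; ring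
        rw [hP'eq]
        set P' : 𝒞 := ∏ i, ((1 - z i • e i) + μ i • e i) with hP'
        have hP'1 : P' - 1 ∈ J1 := by
          have : P' - 1 = (P' - P - S) + (P - 1) + S := by ring
          rw [this]
          exact J1.add_mem (J1.add_mem (hn1 hB) hP1) (hnJ1 hSJ)
        have hsplit' : g - w0 * w1 * P - (α + β + S) = 0 := sub_eq_zero.2 hsplit
        have e1 : g - (w0 + α) * (w1 + β) * P' =
            (g - w0 * w1 * P - (α + β + S)) - (w0 * w1 - 1) * S - w0 * w1 * (P' - P - S)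
              - (w1 * P' - 1) * α - (w0 * P' - 1) * β - α * β * P' := by ring
        rw [mem_smul_top_iff, e1, hsplit', zero_sub]
        have hw01 : w0 * w1 - 1 ∈ J1 := by
          have : w0 * w1 - 1 = (w0 - 1) * w1 + (w1 - 1) := by ring
          rw [this]; exact J1.add_mem (J1.mul_mem_right _ hw0J) hw1J
        have hw1P : w1 * P' - 1 ∈ J1 := by
          have : w1 * P' - 1 = (w1 - 1) * P' + (P' - 1) := by ring
          rw [this]; exact J1.add_mem (J1.mul_mem_right _ hw1J) hP'1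
        have hw0P : w0 * P' - 1 ∈ J1 := by
          have : w0 * P' - 1 = (w0 - 1) * P' + (P' - 1) := by ring
          rw [this]; exact J1.add_mem (J1.mul_mem_right _ hw0J) hP'1
        refine Jn1.sub_mem (Jn1.sub_mem (Jn1.sub_mem (Jn1.sub_mem (Jn1.neg_mem ?_) ?_) ?_) ?_) ?_
        · exact h1n (Ideal.mul_mem_mul hw01 hSJ)
        · exact Jn1.mul_mem_left _ hB
        · exact h1n (Ideal.mul_mem_mul hw1P hαJ)
        · exact h1n (Ideal.mul_mem_mul hw0P hβJ)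
        · exact Jn1.mul_mem_right _ (hnn (Ideal.mul_mem_mul hαJ hβJ))


/-! ### Products and transport -/

theorem smul_toSubmodule_mul_mem (𝔫 : Ideal R) (S : Subalgebra R 𝒞) {x s : 𝒞}
    (hx : x ∈ 𝔫 • Subalgebra.toSubmodule S) (hs : s ∈ S) :
    x * s ∈ 𝔫 • Subalgebra.toSubmodule S := by
  refine Submodule.smul_induction_on hx (fun r hr n hn => ?_) (fun a b ha hb => ?_)
  · rw [smul_mul_assoc]
    exact Submodule.smul_mem_smul hr (S.mul_mem hn hs)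
  · rw [add_mul]; exact Submodule.add_mem _ ha hb

theorem mem_of_sub_one_mem (𝔫 : Ideal R) (S : Subalgebra R 𝒞) {a : 𝒞}
    (ha : a - 1 ∈ 𝔫 • Subalgebra.toSubmodule S) : a ∈ S := by
  have h1 : a - 1 ∈ Subalgebra.toSubmodule S := Submodule.smul_le_right ha
  have : a = (a - 1) + 1 := by ring
  rw [this]; exact S.add_mem h1 S.one_mem

/-- `1 + 𝔫 S` is closed under multiplication. -/
theorem mul_sub_one_mem (𝔫 : Ideal R) (S : Subalgebra R 𝒞) {a b : 𝒞}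
    (ha : a - 1 ∈ 𝔫 • Subalgebra.toSubmodule S) (hb : b - 1 ∈ 𝔫 • Subalgebra.toSubmodule S) :
    a * b - 1 ∈ 𝔫 • Subalgebra.toSubmodule S := by
  have : a * b - 1 = (a - 1) * b + (b - 1) := by ring
  rw [this]
  exact Submodule.add_mem _ (smul_toSubmodule_mul_mem 𝔫 S ha (mem_of_sub_one_mem 𝔫 S hb)) hb

/-- The trivial normal form. -/
theorem normalForm_prod (𝔫 : Ideal R) (N : ℕ) (z : Fin d → R) :
    NormalForm C0 Cinf e 𝔫 N (∏ i, (1 - z i • e i)) z :=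
  ⟨1, 1, by simp, by simp, by simp⟩

/-- Normal forms multiply, given the normal form of the product of the two standard
representatives. -/
theorem NormalForm.mul_of {𝔫 : Ideal R} {N : ℕ} {g g' : 𝒞} {z z' z'' : Fin d → R}
    (h : NormalForm C0 Cinf e 𝔫 N g z) (h' : NormalForm C0 Cinf e 𝔫 N g' z')
    (hgen : NormalForm C0 Cinf e 𝔫 N ((∏ i, (1 - z i • e i)) * ∏ i, (1 - z' i • e i)) z'') :
    NormalForm C0 Cinf e 𝔫 N (g * g') z'' := by
  obtain ⟨w0, w1, hw0, hw1, hg⟩ := h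
  obtain ⟨w0', w1', hw0', hw1', hg'⟩ := h'
  obtain ⟨W0, W1, hW0, hW1, hG⟩ := hgen
  refine ⟨w0 * w0' * W0, w1 * w1' * W1, mul_sub_one_mem 𝔫 C0 (mul_sub_one_mem 𝔫 C0 hw0 hw0') hW0,
    mul_sub_one_mem 𝔫 Cinf (mul_sub_one_mem 𝔫 Cinf hw1 hw1') hW1, ?_⟩
  rw [mem_smul_top_iff] at hg hg' hG ⊢
  set J : Ideal 𝒞 := (𝔫 ^ N).map (algebraMap R 𝒞)
  have e1 : g * g' - w0 * w0' * W0 * (w1 * w1' * W1) * ∏ i, (1 - z'' i • e i) =
      (g - w0 * w1 * ∏ i, (1 - z i • e i)) * g'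
      + w0 * w1 * (∏ i, (1 - z i • e i)) * (g' - w0' * w1' * ∏ i, (1 - z' i • e i))
      + w0 * w1 * w0' * w1' * ((∏ i, (1 - z i • e i)) * (∏ i, (1 - z' i • e i))
          - W0 * W1 * ∏ i, (1 - z'' i • e i)) := by ring
  rw [e1]
  exact J.add_mem (J.add_mem (J.mul_mem_right _ hg) (J.mul_mem_left _ hg')) (J.mul_mem_left _ hG)

section Map

variable {R₂ 𝒞₂ : Type*} [CommRing R₂] [CommRing 𝒞₂] [Algebra R₂ 𝒞₂]
  {C0₂ Cinf₂ : Subalgebra R₂ 𝒞₂} {e₂ : Fin d → 𝒞₂}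

theorem map_mem_smul (φ : 𝒞 →+* 𝒞₂) (ψ : R →+* R₂)
    (hφψ : ∀ (r : R) (c : 𝒞), φ (r • c) = ψ r • φ c)
    {I : Ideal R} {I₂ : Ideal R₂} (hI : ∀ r ∈ I, ψ r ∈ I₂)
    {M : Submodule R 𝒞} {M₂ : Submodule R₂ 𝒞₂} (hM : ∀ c ∈ M, φ c ∈ M₂)
    {x : 𝒞} (hx : x ∈ I • M) : φ x ∈ I₂ • M₂ := by
  refine Submodule.smul_induction_on hx (fun r hr n hn => ?_) (fun a b ha hb => ?_)
  · rw [hφψ]; exact Submodule.smul_mem_smul (hI r hr) (hM n hn)
  · rw [map_add]; exact Submodule.add_mem _ ha hb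

/-- Transport of a normal form along a semilinear ring map respecting the two charts and the
`e i` (e.g. evaluation of polynomial coefficients, or a Galois automorphism). -/
theorem NormalForm.map (φ : 𝒞 →+* 𝒞₂) (ψ : R →+* R₂)
    (hφψ : ∀ (r : R) (c : 𝒞), φ (r • c) = ψ r • φ c)
    (h0 : ∀ c ∈ C0, φ c ∈ C0₂) (h1 : ∀ c ∈ Cinf, φ c ∈ Cinf₂) (he : ∀ i, φ (e i) = e₂ i)
    {𝔫 : Ideal R} {𝔫₂ : Ideal R₂} (h𝔫 : ∀ r ∈ 𝔫, ψ r ∈ 𝔫₂) {N : ℕ} {g : 𝒞} {z : Fin d → R}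
    (h : NormalForm C0 Cinf e 𝔫 N g z) :
    NormalForm C0₂ Cinf₂ e₂ 𝔫₂ N (φ g) (fun i => ψ (z i)) := by
  obtain ⟨w0, w1, hw0, hw1, hg⟩ := h
  have hpow : ∀ r ∈ 𝔫 ^ N, ψ r ∈ 𝔫₂ ^ N := by
    intro r hr
    have h1 : ψ r ∈ (𝔫 ^ N).map ψ := Ideal.mem_map_of_mem ψ hr
    rw [Ideal.map_pow] at h1
    exact Ideal.pow_right_mono (Ideal.map_le_iff_le_comap.2 fun x hx => h𝔫 x hx) N h1
  refine ⟨φ w0, φ w1, ?_, ?_, ?_⟩
  · have := map_mem_smul φ ψ hφψ h𝔫 (M := Subalgebra.toSubmodule C0)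
      (M₂ := Subalgebra.toSubmodule C0₂) h0 hw0
    rwa [map_sub, map_one] at this
  · have := map_mem_smul φ ψ hφψ h𝔫 (M := Subalgebra.toSubmodule Cinf)
      (M₂ := Subalgebra.toSubmodule Cinf₂) h1 hw1
    rwa [map_sub, map_one] at this
  · have := map_mem_smul φ ψ hφψ hpow (M := ⊤) (M₂ := ⊤) (fun _ _ => Submodule.mem_top) hg
    rw [map_sub, map_mul, map_mul, map_prod] at this
    have hterm : ∀ i, φ (1 - z i • e i) = 1 - ψ (z i) • e₂ i := fun i => by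
      rw [map_sub, map_one, hφψ, he]
    simpa only [hterm] using this

end Map

/-! ### Uniqueness -/

/-- Inverse of `1 + t c` modulo `t ^ N`, inside a subalgebra. -/
theorem exists_inv_mod (S : Subalgebra R 𝒞) (t : R) (N : ℕ) (w : 𝒞)
    (hw : ∃ c ∈ S, w = 1 + algebraMap R 𝒞 t * c) :
    ∃ w' : 𝒞, (∃ c ∈ S, w' = 1 + algebraMap R 𝒞 t * c) ∧
      ∃ c ∈ S, w * w' = 1 + algebraMap R 𝒞 t ^ N * c := by
  obtain ⟨c, hc, rfl⟩ := hw
  have hτS : ∀ x ∈ S, algebraMap R 𝒞 t * x ∈ S := fun x hx => by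
    rw [← Algebra.smul_def]; exact S.smul_mem hx t
  have hyS : -(algebraMap R 𝒞 t * c) ∈ S := S.neg_mem (hτS c hc)
  refine ⟨∑ i ∈ Finset.range (N + 1), (-(algebraMap R 𝒞 t * c)) ^ i,
    ⟨-(c * ∑ i ∈ Finset.range N, (-(algebraMap R 𝒞 t * c)) ^ i), ?_, ?_⟩,
    ⟨-(algebraMap R 𝒞 t * (-c) ^ (N + 1)), ?_, ?_⟩⟩
  · exact S.neg_mem (S.mul_mem hc (S.sum_mem fun i _ => S.pow_mem hyS i))
  · rw [geom_sum_succ]; ring
  · exact S.neg_mem (hτS _ (S.pow_mem (S.neg_mem hc) _))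
  · have h1 : (1 + algebraMap R 𝒞 t * c) = 1 - (-(algebraMap R 𝒞 t * c)) := by ring
    rw [h1, mul_neg_geom_sum]; ring

/-- Core of uniqueness: `v0 * v1 * ∏ (1 - z i e i) ≡ ∏ (1 - z' i e i) mod t ^ N` forces
`z' ≡ z mod t ^ N`. -/
theorem core_unique (hdec : Dec C0 Cinf e) (huniq : Uniq C0 Cinf e) (t : R)
    (ht : ∀ c : 𝒞, algebraMap R 𝒞 t * c = 0 → c = 0) (N : ℕ) (z z' : Fin d → R)
    (hz : ∀ i, ∃ ζ, z i = t * ζ) (hz' : ∀ i, ∃ ζ, z' i = t * ζ)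
    (v0 v1 : 𝒞) (hv0 : ∃ a ∈ C0, v0 = 1 + algebraMap R 𝒞 t * a)
    (hv1 : ∃ a ∈ Cinf, v1 = 1 + algebraMap R 𝒞 t * a)
    (h : ∃ x, v0 * v1 * ∏ i, (1 - z i • e i) - ∏ i, (1 - z' i • e i) =
      algebraMap R 𝒞 t ^ N * x) :
    ∀ i, ∃ μ, z' i = z i + t ^ N * μ := by
  set τ : 𝒞 := algebraMap R 𝒞 t with hτ
  have hreg : ∀ (j : ℕ) (c : 𝒞), τ ^ j * c = 0 → c = 0 := by
    intro j
    induction j with
    | zero => intro c hc; simpa using hc
    | succ j ih =>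
      intro c hc
      exact ht c (ih (τ * c) (by rw [← mul_assoc, ← pow_succ]; exact hc))
  have hτmem0 : ∀ x ∈ C0, τ * x ∈ C0 := fun x hx => by
    rw [hτ, ← Algebra.smul_def]; exact C0.smul_mem hx t
  have hτmem1 : ∀ x ∈ Cinf, τ * x ∈ Cinf := fun x hx => by
    rw [hτ, ← Algebra.smul_def]; exact Cinf.smul_mem hx t
  rcases Nat.eq_zero_or_pos N with rfl | hN
  · intro i; exact ⟨z' i - z i, by ring⟩
  obtain ⟨a1, ha1, hv1eq⟩ := hv1
  choose ζ hζ using hz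
  have claim : ∀ j, 1 ≤ j → j ≤ N → ∃ r : R, (∃ ρ, r = 1 + t * ρ) ∧
      (∃ a ∈ C0, v0 = algebraMap R 𝒞 r + τ ^ j * a) ∧
      (∃ b ∈ Cinf, v1 * algebraMap R 𝒞 r = 1 + τ ^ j * b) ∧
      ∃ μ : Fin d → R, ∀ i, z' i = z i + t ^ j * μ i := by
    intro j hj
    induction j, hj using Nat.le_induction with
    | base =>
      intro _
      obtain ⟨a0, ha0, hv0eq⟩ := hv0
      choose ζ' hζ' using hz'
      refine ⟨1, ⟨0, by ring⟩, ⟨a0, ha0, by rw [hv0eq]; simp⟩, ⟨a1, ha1, by rw [hv1eq]; simp⟩,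
        fun i => ζ' i - ζ i, fun i => ?_⟩
      rw [hζ i, hζ' i]; ring
    | succ j hj ih =>
      intro hjN
      obtain ⟨r, ⟨ρ, hr⟩, ⟨a, ha, hv0j⟩, ⟨b, hb, hv1j⟩, μ, hμ⟩ := ih (by omega)
      obtain ⟨j', rfl⟩ : ∃ j', j = j' + 1 := ⟨j - 1, by omega⟩
      obtain ⟨k, hk⟩ : ∃ k, N = j' + 1 + 1 + k := ⟨N - (j' + 1 + 1), by omega⟩
      obtain ⟨x, hx⟩ := h
      have h1n : Ideal.span {τ} * Ideal.span {τ ^ (j' + 1)} ≤ Ideal.span {τ ^ (j' + 1 + 1)} := by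
        rw [Ideal.span_singleton_mul_span_singleton, ← pow_succ']
      have hnn : Ideal.span {τ ^ (j' + 1)} * Ideal.span {τ ^ (j' + 1)} ≤
          Ideal.span {τ ^ (j' + 1 + 1)} := by
        rw [Ideal.span_singleton_mul_span_singleton, Ideal.span_singleton_le_span_singleton]
        exact ⟨τ ^ j', by ring⟩
      obtain ⟨hB, hP1⟩ := prod_add_sub_mem Finset.univ _ _ _ h1n hnn
        (fun i => 1 - z i • e i) (fun i => -(τ ^ (j' + 1) * (μ i • e i)))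
        (fun i _ => by
          show (1 - z i • e i) - 1 ∈ Ideal.span {τ}
          refine Ideal.mem_span_singleton.2 ⟨-(algebraMap R 𝒞 (ζ i) * e i), ?_⟩
          rw [hζ i, Algebra.smul_def, map_mul]; ring)
        (fun i _ => by
          show -(τ ^ (j' + 1) * (μ i • e i)) ∈ Ideal.span {τ ^ (j' + 1)}
          exact Ideal.mem_span_singleton.2 ⟨-(μ i • e i), by ring⟩)
      have hP'eq : ∏ i, (1 - z' i • e i) =
          ∏ i, ((1 - z i • e i) + -(τ ^ (j' + 1) * (μ i • e i))) :=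
        Finset.prod_congr rfl fun i _ => by
          rw [hμ i, add_smul, mul_smul, Algebra.smul_def (t ^ (j' + 1)), map_pow]; ring
      rw [hP'eq] at hx
      have hsum : ∑ i, -(τ ^ (j' + 1) * (μ i • e i)) = -(τ ^ (j' + 1) * ∑ i, μ i • e i) := by
        rw [Finset.sum_neg_distrib, ← Finset.mul_sum]
      rw [hsum] at hB
      generalize (∏ i, (1 - z i • e i) : 𝒞) = P at hB hP1 hx
      generalize (∏ i, ((1 - z i • e i) + -(τ ^ (j' + 1) * (μ i • e i))) : 𝒞) = P' at hB hx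
      obtain ⟨y, hy⟩ := Ideal.mem_span_singleton.1 hB
      obtain ⟨p, hp⟩ := Ideal.mem_span_singleton.1 hP1
      have E1 : (algebraMap R 𝒞 r + τ ^ (j' + 1) * a) * v1 * P - P' =
          τ ^ (j' + 1 + 1) * τ ^ k * x := by
        rw [← hv0j, hx, hk, pow_add]
      have E3 : P' - P + τ ^ (j' + 1) * ∑ i, μ i • e i = τ ^ (j' + 1 + 1) * y := by
        rw [← hy]; ring
      have hr' : algebraMap R 𝒞 r = 1 + τ * algebraMap R 𝒞 ρ := by
        rw [hr, map_add, map_one, map_mul]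
      have hP' : P = 1 + τ * p := by rw [← hp]; ring
      have key := hreg _ _ (core_step τ (algebraMap R 𝒞 r) a b P P' (∑ i, μ i • e i) y x
        (algebraMap R 𝒞 ρ) p v1 j' k E1 hv1j E3 hr' hP')
      obtain ⟨c0, hc0, c1, hc1, ρ', hY⟩ := hdec (algebraMap R 𝒞 r * y + algebraMap R 𝒞 r * τ ^ k * x
        - a * p - b * (algebraMap R 𝒞 ρ * (1 + τ * p) + p) - τ ^ j' * a * b * P
        - algebraMap R 𝒞 ρ * ∑ i, μ i • e i)
      rw [hY] at key
      have hU : (a - τ * c0) + (b - τ * c1) + ∑ i, (μ i - t * ρ' i) • e i = 0 := by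
        have : ∑ i, (μ i - t * ρ' i) • e i = ∑ i, μ i • e i - τ * ∑ i, ρ' i • e i := by
          rw [Finset.mul_sum, ← Finset.sum_sub_distrib]
          refine Finset.sum_congr rfl fun i _ => ?_
          rw [sub_smul, mul_smul, Algebra.smul_def t]
        rw [this]
        linear_combination key
      obtain ⟨hμ0, s, hs⟩ := huniq _ (C0.sub_mem ha (hτmem0 _ hc0)) _
        (Cinf.sub_mem hb (hτmem1 _ hc1)) _ hU
      have hb' : b - τ * c1 = -algebraMap R 𝒞 s := by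
        have h0 : ∑ i, (μ i - t * ρ' i) • e i = 0 :=
          Finset.sum_eq_zero fun i _ => by rw [hμ0 i, zero_smul]
        rw [h0, add_zero, hs] at hU
        linear_combination hU
      refine ⟨r + t ^ (j' + 1) * s, ⟨ρ + t ^ j' * s, by rw [hr]; ring⟩, ⟨c0, hc0, ?_⟩,
        ⟨c1 + algebraMap R 𝒞 s * a1, ?_, ?_⟩, ρ', fun i => ?_⟩
      · rw [hv0j, map_add, map_mul, map_pow]
        linear_combination τ ^ (j' + 1) * hs
      · exact Cinf.add_mem hc1 (by rw [← Algebra.smul_def]; exact Cinf.smul_mem ha1 s)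
      · rw [map_add, map_mul, map_pow]
        linear_combination hv1j + τ ^ (j' + 1) * hb' + τ ^ (j' + 1) * algebraMap R 𝒞 s * hv1eq
      · rw [hμ i]
        have h0 := hμ0 i
        linear_combination t ^ (j' + 1) * h0
  obtain ⟨r, -, -, -, μ, hμ⟩ := claim N hN le_rfl
  exact fun i => ⟨μ i, hμ i⟩

/-- **(U) Uniqueness of the normal form** modulo `t ^ N`, for a principal ideal `(t)` with `t` a
nonzerodivisor on `𝒞`. -/
theorem normalForm_unique (hdec : Dec C0 Cinf e) (huniq : Uniq C0 Cinf e) (t : R)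
    (ht : ∀ c : 𝒞, algebraMap R 𝒞 t * c = 0 → c = 0) (N : ℕ) (g : 𝒞) (z z' : Fin d → R)
    (hz : ∀ i, z i ∈ Ideal.span {t}) (hz' : ∀ i, z' i ∈ Ideal.span {t})
    (h : NormalForm C0 Cinf e (Ideal.span {t}) N g z)
    (h' : NormalForm C0 Cinf e (Ideal.span {t}) N g z') :
    ∀ i, z' i - z i ∈ Ideal.span {t ^ N} := by
  obtain ⟨w0, w1, hw0, hw1, hg⟩ := h
  obtain ⟨w0', w1', hw0', hw1', hg'⟩ := h'
  have hex : ∀ (S : Subalgebra R 𝒞) (w : 𝒞), w - 1 ∈ Ideal.span {t} • Subalgebra.toSubmodule S →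
      ∃ c ∈ S, w = 1 + algebraMap R 𝒞 t * c := by
    intro S w hw
    obtain ⟨c, hc, h⟩ := (mem_span_singleton_smul_iff t _ _).1 hw
    exact ⟨c, hc, by rw [← h]; ring⟩
  have hmulex : ∀ (S : Subalgebra R 𝒞) (a b : 𝒞), (∃ c ∈ S, a = 1 + algebraMap R 𝒞 t * c) →
      (∃ c ∈ S, b = 1 + algebraMap R 𝒞 t * c) → ∃ c ∈ S, a * b = 1 + algebraMap R 𝒞 t * c := by
    rintro S a b ⟨c, hc, rfl⟩ ⟨c', hc', rfl⟩
    refine ⟨c + c' + algebraMap R 𝒞 t * (c * c'), S.add_mem (S.add_mem hc hc') ?_, by ring⟩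
    rw [← Algebra.smul_def]; exact S.smul_mem (S.mul_mem hc hc') t
  rw [Ideal.span_singleton_pow, mem_span_singleton_smul_iff] at hg hg'
  obtain ⟨x, -, hx⟩ := hg
  obtain ⟨x', -, hx'⟩ := hg'
  rw [map_pow] at hx hx'
  obtain ⟨u0, hu0, c0, hc0, hu0eq⟩ := exists_inv_mod C0 t N w0' (hex C0 w0' hw0')
  obtain ⟨u1, hu1, c1, hc1, hu1eq⟩ := exists_inv_mod Cinf t N w1' (hex Cinf w1' hw1')
  have key := core_unique hdec huniq t ht N z z'
    (fun i => Ideal.mem_span_singleton.1 (hz i)) (fun i => Ideal.mem_span_singleton.1 (hz' i))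
    (w0 * u0) (w1 * u1) (hmulex C0 _ _ (hex C0 w0 hw0) hu0) (hmulex Cinf _ _ (hex Cinf w1 hw1) hu1)
    ⟨(x' - x) * u0 * u1 + (c0 + c1 + algebraMap R 𝒞 t ^ N * c0 * c1) * ∏ i, (1 - z' i • e i), by
      linear_combination (u0 * u1) * hx' - (u0 * u1) * hx
        + (∏ i, (1 - z' i • e i)) * (w1' * u1) * hu0eq
        + (∏ i, (1 - z' i • e i)) * (1 + algebraMap R 𝒞 t ^ N * c0) * hu1eq⟩
  intro i
  obtain ⟨μ, hμ⟩ := key i
  exact Ideal.mem_span_singleton.2 ⟨μ, by rw [hμ]; ring⟩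

end Main

end Fermat.Agent.Lib.TwoChartNormalForm
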