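import Fermat.Agent.Lib.GaussChartMap
import Fermat.Agent.Lib.TwoChartNormalForm

/-!
# Cocycle representatives in the overlap ring (level-free, Mathlib only)

Program FG (S19), Route C, brick `PHI`: the seam with the Čech machine.

Setting: `R` a commutative ring, `𝒞` an `R`-algebra (the overlap chart ring) with subalgebras
`C0`, `Cinf` (the two charts), `t : R`; a ring map `j : 𝒞 →+* K` into a field (the function
field), a Gauss ring `𝒪 ⊆ K` with uniformiser `π = j t`, and the three charts `j C0`, `j Cinf`,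
`j 𝒞` of `𝒪` in the sense of `Lib/GaussChart` (`TwoChartEmb`).

`IsCocRep t j 𝒪 R0 R1 m N f g` : `g ∈ 1 + t𝒞` represents the level-`N` cocycle class of the
function `f` (`j g * (1 + π ^ N * h)` is a quotient `ψ0 / ψ1` of level-`N` `m`-th roots of `f`
on the two charts).

* `cocEq_of_mul_eq` : the truncated-inverse lemma producing the relation `CocEq` of the machine;
* `exists_isCocRep` : existence from (STAR) on both charts;
* `IsCocRep.cocEq_mul`, `IsCocRep.cocEq_const` : multiplicativity and independence of the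
  normalised function, in the literal shape of `CocEq`;
* `IsCocRep.map` : transport along a pair of compatible ring maps of `𝒞` and `K`
  (on top of `IsRootRel.map` of `Lib/GaussChartMap`);
* `IsCocRep.exists_roots` : a representative which is `CocEq` to `1` at level `n` gives roots on
  the two charts which agree modulo `π ^ n`.
-/

set_option autoImplicit false

namespace Fermat.Agent.Lib.ChartRoots

open Fermat.Agent.Lib.TwoChartNormalForm (mem_span_singleton_smul_iff)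

section Trunc

variable {R 𝒞 : Type*} [CommRing R] [CommRing 𝒞] [Algebra R 𝒞]

/-- **Truncated inverse.**  From `a * (1 + t c1) = b * (1 + t c0) + t ^ N z` with `c0 ∈ C0`,
`c1 ∈ Cinf` to `a ≡ b * w0 * w1 mod t ^ N`, `w0 ∈ 1 + t C0`, `w1 ∈ 1 + t Cinf` (the body of the
relation `CocEq` of the Čech machine). -/
theorem cocEq_of_mul_eq (C0 Cinf : Subalgebra R 𝒞) (t : R) (N : ℕ) {a b c0 c1 z : 𝒞}
    (hc0 : c0 ∈ C0) (hc1 : c1 ∈ Cinf)
    (h : a * (1 + algebraMap R 𝒞 t * c1) = b * (1 + algebraMap R 𝒞 t * c0) +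
      algebraMap R 𝒞 t ^ N * z) :
    ∃ w0 w1 : 𝒞, w0 - 1 ∈ Ideal.span {t} • Subalgebra.toSubmodule C0 ∧
      w1 - 1 ∈ Ideal.span {t} • Subalgebra.toSubmodule Cinf ∧
      a - b * w0 * w1 ∈ Ideal.span {t} ^ N • (⊤ : Submodule R 𝒞) := by
  rcases Nat.eq_zero_or_pos N with rfl | hN
  · refine ⟨1, 1, by simp, by simp, ?_⟩
    rw [pow_zero, Ideal.one_eq_top, Submodule.top_smul]
    exact Submodule.mem_top
  · obtain ⟨n, rfl⟩ : ∃ n, N = n + 1 := ⟨N - 1, by omega⟩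
    obtain ⟨x, hx⟩ : ∃ x : 𝒞, x = -(algebraMap R 𝒞 t * c1) := ⟨_, rfl⟩
    have hxC : x ∈ Cinf := by
      rw [hx, ← Algebra.smul_def]
      exact Cinf.neg_mem (Cinf.smul_mem hc1 t)
    have hgeom : (1 - x) * ∑ k ∈ Finset.range (n + 1), x ^ k = 1 - x ^ (n + 1) :=
      mul_neg_geom_sum x (n + 1)
    refine ⟨1 + algebraMap R 𝒞 t * c0, ∑ k ∈ Finset.range (n + 1), x ^ k, ?_, ?_, ?_⟩
    · exact (mem_span_singleton_smul_iff t _ _).2 ⟨c0, hc0, by ring⟩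
    · refine (mem_span_singleton_smul_iff t _ _).2
        ⟨-(c1 * ∑ k ∈ Finset.range n, x ^ k),
          Cinf.neg_mem (Cinf.mul_mem hc1 (Cinf.sum_mem fun k _ => Cinf.pow_mem hxC k)), ?_⟩
      rw [Finset.sum_range_succ', pow_zero, add_sub_cancel_right]
      simp only [pow_succ]
      rw [← Finset.sum_mul, hx]
      ring
    · rw [Ideal.span_singleton_pow]
      refine (mem_span_singleton_smul_iff (t ^ (n + 1)) _ _).2
        ⟨z * (∑ k ∈ Finset.range (n + 1), x ^ k) + a * (-c1) ^ (n + 1), Submodule.mem_top, ?_⟩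
      rw [map_pow]
      have hx1 : x ^ (n + 1) = algebraMap R 𝒞 t ^ (n + 1) * (-c1) ^ (n + 1) := by
        rw [hx, ← mul_pow]
        ring
      have hx2 : 1 - x = 1 + algebraMap R 𝒞 t * c1 := by rw [hx]; ring
      rw [hx2, hx1] at hgeom
      linear_combination (∑ k ∈ Finset.range (n + 1), x ^ k) * h - a * hgeom

end Trunc

section OneChart

variable {K : Type*} [Field K] {𝒪 : Subring K} {π : K} {B : Subring K} {ι : Type*}
  {R : ι → Subring K}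

/-- Multiplying a root by an element of `1 + π B`. -/
theorem IsRootRel.mul_one_add (hG : GaussRing 𝒪 π) (hB : GaussChart 𝒪 π B R) {m N : ℕ}
    {ρ : ι → K} {f ψ c : K} (h : IsRootRel 𝒪 π R m N ρ f ψ) (hc : c ∈ B) :
    IsRootRel 𝒪 π R m N ρ f (ψ * (1 + π * c)) := by
  obtain ⟨⟨a, ha, hψ⟩, hloc⟩ := h
  refine ⟨?_, fun i => ?_⟩
  · obtain ⟨b, hb, e⟩ := hG.mul_one_add ha (hB.chart_le hc)
    exact ⟨b, hb, by rw [hψ, e]⟩
  · obtain ⟨h1, hh1, hε⟩ := hloc i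
    have hu := hB.isUnitIn_one_add_loc hG i (hB.le_loc i hc)
    refine ⟨h1, hh1, ?_⟩
    have key : f * ((ρ i * (ψ * (1 + π * c)))⁻¹ * (1 + π ^ N * h1)) ^ m =
        f * ((ρ i * ψ)⁻¹ * (1 + π ^ N * h1)) ^ m * ((1 + π * c)⁻¹) ^ m := by
      simp only [mul_inv, mul_pow]
      ring
    rw [key]
    exact hε.mul (hu.inv.pow m)

/-- Dividing a root by an element of `1 + π B`. -/
theorem IsRootRel.mul_inv_one_add (hG : GaussRing 𝒪 π) (hB : GaussChart 𝒪 π B R) {m N : ℕ}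
    {ρ : ι → K} {f ψ c : K} (h : IsRootRel 𝒪 π R m N ρ f ψ) (hc : c ∈ B) :
    IsRootRel 𝒪 π R m N ρ f (ψ * (1 + π * c)⁻¹) := by
  obtain ⟨⟨a, ha, hψ⟩, hloc⟩ := h
  refine ⟨?_, fun i => ?_⟩
  · obtain ⟨b', hb', e'⟩ := hG.inv_one_add (hB.chart_le hc)
    obtain ⟨b, hb, e⟩ := hG.mul_one_add ha hb'
    exact ⟨b, hb, by rw [hψ, e', e]⟩
  · obtain ⟨h1, hh1, hε⟩ := hloc i
    have hu := hB.isUnitIn_one_add_loc hG i (hB.le_loc i hc)
    refine ⟨h1, hh1, ?_⟩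
    have key : f * ((ρ i * (ψ * (1 + π * c)⁻¹))⁻¹ * (1 + π ^ N * h1)) ^ m =
        f * ((ρ i * ψ)⁻¹ * (1 + π ^ N * h1)) ^ m * (1 + π * c) ^ m := by
      simp only [mul_inv, mul_pow, inv_inv]
      ring
    rw [key]
    exact hε.mul (hu.pow m)

end OneChart

section Rep

variable {R 𝒞 : Type*} [CommRing R] [CommRing 𝒞] [Algebra R 𝒞] {K : Type*} [Field K]

/-- `g ∈ 1 + t𝒞` represents the level-`N` cocycle class of `f`. -/
def IsCocRep (t : R) (j : 𝒞 →+* K) (𝒪 : Subring K) {ι0 ι1 : Type*} (R0 : ι0 → Subring K)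
    (R1 : ι1 → Subring K) (m N : ℕ) (f : K) (g : 𝒞) : Prop :=
  g - 1 ∈ Ideal.span {t} • (⊤ : Submodule R 𝒞) ∧
    ∃ h ∈ 𝒪, IsCocycle 𝒪 (j (algebraMap R 𝒞 t)) R0 R1 m N (fun _ => 1) (fun _ => 1) f
      (j g * (1 + j (algebraMap R 𝒞 t) ^ N * h))

/-- The two charts and their overlap, embedded in the function field, are charts of the Gauss
ring `𝒪`, with matching local rings. -/
structure TwoChartEmb (C0 Cinf : Subalgebra R 𝒞) (t : R) (j : 𝒞 →+* K) (𝒪 : Subring K)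
    {ι0 ι1 ιc : Type*} (R0 : ι0 → Subring K) (R1 : ι1 → Subring K) (Rc : ιc → Subring K) :
    Prop where
  inj : Function.Injective j
  gauss : GaussRing 𝒪 (j (algebraMap R 𝒞 t))
  chart0 : GaussChart 𝒪 (j (algebraMap R 𝒞 t)) (C0.toSubring.map j) R0
  chart1 : GaussChart 𝒪 (j (algebraMap R 𝒞 t)) (Cinf.toSubring.map j) R1
  chartc : GaussChart 𝒪 (j (algebraMap R 𝒞 t)) j.range Rc
  ref0 : ∀ k, ∃ i, Rc k = R0 i
  ref1 : ∀ k, ∃ i, Rc k = R1 i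

variable {C0 Cinf : Subalgebra R 𝒞} {t : R} {j : 𝒞 →+* K} {𝒪 : Subring K}
  {ι0 ι1 ιc : Type*} {R0 : ι0 → Subring K} {R1 : ι1 → Subring K} {Rc : ιc → Subring K}

/-- **Existence of a representative** of the cocycle class of `f ∈ 1 + π𝒪` satisfying (STAR)
on both charts. -/
theorem exists_isCocRep (H : TwoChartEmb C0 Cinf t j 𝒪 R0 R1 Rc) {m N : ℕ} (hm : 0 < m)
    (hN : 0 < N) (f : K) (hf : ∃ h ∈ 𝒪, f = 1 + j (algebraMap R 𝒞 t) * h)
    (hstar0 : ∀ i, ∃ y : K, IsUnitIn (R0 i) (y ^ m * f))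
    (hstar1 : ∀ i, ∃ y : K, IsUnitIn (R1 i) (y ^ m * f)) :
    ∃ g, IsCocRep t j 𝒪 R0 R1 m N f g := by
  obtain ⟨γ, hγ⟩ := exists_isCocycle H.gauss H.chart0 H.chart1 hm N f hf hstar0 hstar1
  obtain ⟨c, hc, h, hh, e⟩ := hγ.mem H.gauss H.chartc hm hN (ρc := fun _ => 1)
    (fun k => by obtain ⟨i, hi⟩ := H.ref0 k; exact ⟨i, hi, rfl⟩)
    (fun k => by obtain ⟨i, hi⟩ := H.ref1 k; exact ⟨i, hi, rfl⟩)
  obtain ⟨c', rfl⟩ := hc
  refine ⟨1 + algebraMap R 𝒞 t * c', ?_, h, hh, ?_⟩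
  · exact (mem_span_singleton_smul_iff t _ _).2 ⟨c', Submodule.mem_top, by ring⟩
  · have e' : j (1 + algebraMap R 𝒞 t * c') * (1 + j (algebraMap R 𝒞 t) ^ N * h) = γ := by
      rw [e, map_add, map_one, map_mul]
    rw [e']
    exact hγ

/-- Two representatives of the same class are related by `CocEq`. -/
theorem cocEq_of_isCocycle (H : TwoChartEmb C0 Cinf t j 𝒪 R0 R1 Rc) {m N : ℕ} (hm : 0 < m)
    (hN : 0 < N) {F : K} {γ γ' : 𝒞} {h h' : K} (hh : h ∈ 𝒪) (hh' : h' ∈ 𝒪)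
    (a1 : IsCocycle 𝒪 (j (algebraMap R 𝒞 t)) R0 R1 m N (fun _ => 1) (fun _ => 1) F
      (j γ * (1 + j (algebraMap R 𝒞 t) ^ N * h)))
    (a2 : IsCocycle 𝒪 (j (algebraMap R 𝒞 t)) R0 R1 m N (fun _ => 1) (fun _ => 1) F
      (j γ' * (1 + j (algebraMap R 𝒞 t) ^ N * h'))) :
    ∃ w0 w1 : 𝒞, w0 - 1 ∈ Ideal.span {t} • Subalgebra.toSubmodule C0 ∧
      w1 - 1 ∈ Ideal.span {t} • Subalgebra.toSubmodule Cinf ∧
      γ' - γ * w0 * w1 ∈ Ideal.span {t} ^ N • (⊤ : Submodule R 𝒞) := by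
  have hG := H.gauss
  obtain ⟨c0, hc0, c1, hc1, k, hk, e⟩ := a1.unique hG H.chart0 H.chart1 hm hN a2
  obtain ⟨c0', hc0', rfl⟩ := hc0
  obtain ⟨c1', hc1', rfl⟩ := hc1
  -- the unit `U = (1 + π^N h)(1 + π^N k)(1 + π^N h')⁻¹ = 1 + π^N h4`
  obtain ⟨k', hk', ek'⟩ := hG.inv_one_add_pow hN hh'
  obtain ⟨h3, hh3, e3⟩ := hG.mul_one_add_pow N hh hk
  obtain ⟨h4, hh4, e4⟩ := hG.mul_one_add_pow N hh3 hk'
  have hu' := (hG.isUnitIn_one_add_pow hN hh').1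
  have hγO : j γ ∈ 𝒪 := H.chartc.chart_le ⟨γ, rfl⟩
  have hc0O : j c0' ∈ 𝒪 := H.chart0.chart_le ⟨c0', hc0', rfl⟩
  -- the difference is divisible by `π ^ N` in `𝒪`, hence in the overlap ring
  have hD : j (algebraMap R 𝒞 t) ^ N * (j γ * (1 + j (algebraMap R 𝒞 t) * j c0') * h4) =
      j (γ' * (1 + algebraMap R 𝒞 t * c1') - γ * (1 + algebraMap R 𝒞 t * c0')) := by
    have e5 : j γ' * (1 + j (algebraMap R 𝒞 t) * j c1') =
        j γ * (1 + j (algebraMap R 𝒞 t) * j c0') * (1 + j (algebraMap R 𝒞 t) ^ N * h4) := by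
      rw [← e4, ← e3, ← ek']
      field_simp
      linear_combination e
    simp only [map_sub, map_mul, map_add, map_one]
    linear_combination -e5
  have hyO : j γ * (1 + j (algebraMap R 𝒞 t) * j c0') * h4 ∈ 𝒪 :=
    𝒪.mul_mem (𝒪.mul_mem hγO (𝒪.add_mem 𝒪.one_mem (𝒪.mul_mem hG.pi_mem hc0O))) hh4
  obtain ⟨z, hz⟩ := H.chartc.chart_inter_pow hG N hyO (by rw [hD]; exact ⟨_, rfl⟩)
  refine cocEq_of_mul_eq C0 Cinf t N hc0' hc1' (z := z) ?_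
  apply H.inj
  have hD' := hD
  rw [← hz] at hD'
  simp only [map_sub, map_mul, map_add, map_one, map_pow] at hD' ⊢
  linear_combination -hD'

/-- **Multiplicativity** of representatives, in the literal shape of `CocEq`. -/
theorem IsCocRep.cocEq_mul (H : TwoChartEmb C0 Cinf t j 𝒪 R0 R1 Rc) {m N : ℕ} (hm : 0 < m)
    (hN : 0 < N) {f f' a v : K} {g g' g'' : 𝒞} (hg : IsCocRep t j 𝒪 R0 R1 m N f g)
    (hg' : IsCocRep t j 𝒪 R0 R1 m N f' g')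
    (hg'' : IsCocRep t j 𝒪 R0 R1 m N (a * v ^ m * (f * f')) g'')
    (ha0 : ∀ i, IsUnitIn (R0 i) a) (ha1 : ∀ i, IsUnitIn (R1 i) a)
    (hv : ∃ h ∈ 𝒪, v = 1 + j (algebraMap R 𝒞 t) * h) :
    ∃ w0 w1 : 𝒞, w0 - 1 ∈ Ideal.span {t} • Subalgebra.toSubmodule C0 ∧
      w1 - 1 ∈ Ideal.span {t} • Subalgebra.toSubmodule Cinf ∧
      g'' - g * g' * w0 * w1 ∈ Ideal.span {t} ^ N • (⊤ : Submodule R 𝒞) := by
  obtain ⟨-, h, hh, c⟩ := hg
  obtain ⟨-, h', hh', c'⟩ := hg'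
  obtain ⟨-, h'', hh'', c''⟩ := hg''
  have cm := c.mul H.gauss c'
  simp only [mul_one] at cm
  have cc := cm.const_mul_pow H.gauss ha0 ha1 hv
  obtain ⟨h3, hh3, e3⟩ := H.gauss.mul_one_add_pow N hh hh'
  have e : j g * (1 + j (algebraMap R 𝒞 t) ^ N * h) *
      (j g' * (1 + j (algebraMap R 𝒞 t) ^ N * h')) =
      j (g * g') * (1 + j (algebraMap R 𝒞 t) ^ N * h3) := by
    rw [map_mul, ← e3]
    ring
  rw [e] at cc
  exact cocEq_of_isCocycle H hm hN hh3 hh'' cc c''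

/-- **Independence of the normalised function**: `f` and `a * v ^ m * f` have `CocEq`
representatives. -/
theorem IsCocRep.cocEq_const (H : TwoChartEmb C0 Cinf t j 𝒪 R0 R1 Rc) {m N : ℕ} (hm : 0 < m)
    (hN : 0 < N) {f a v : K} {g g' : 𝒞} (hg : IsCocRep t j 𝒪 R0 R1 m N f g)
    (hg' : IsCocRep t j 𝒪 R0 R1 m N (a * v ^ m * f) g')
    (ha0 : ∀ i, IsUnitIn (R0 i) a) (ha1 : ∀ i, IsUnitIn (R1 i) a)
    (hv : ∃ h ∈ 𝒪, v = 1 + j (algebraMap R 𝒞 t) * h) :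
    ∃ w0 w1 : 𝒞, w0 - 1 ∈ Ideal.span {t} • Subalgebra.toSubmodule C0 ∧
      w1 - 1 ∈ Ideal.span {t} • Subalgebra.toSubmodule Cinf ∧
      g' - g * w0 * w1 ∈ Ideal.span {t} ^ N • (⊤ : Submodule R 𝒞) := by
  obtain ⟨-, h, hh, c⟩ := hg
  obtain ⟨-, h', hh', c'⟩ := hg'
  exact cocEq_of_isCocycle H hm hN hh hh' (c.const_mul_pow H.gauss ha0 ha1 hv) c'

/-- **Transport** of a representative along compatible ring maps of `𝒞` and `K`. -/
theorem IsCocRep.map (s : K →+* K) (φ : 𝒞 →+* 𝒞) (hjφ : ∀ c, j (φ c) = s (j c))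
    (h𝒪 : ∀ x ∈ 𝒪, s x ∈ 𝒪) (hR0 : ∀ i, ∀ x ∈ R0 i, s x ∈ R0 i)
    (hR1 : ∀ i, ∀ x ∈ R1 i, s x ∈ R1 i)
    (hπ : ∃ w ∈ 𝒪, s (j (algebraMap R 𝒞 t)) = j (algebraMap R 𝒞 t) * w)
    (hφt : ∀ c : 𝒞, φ (algebraMap R 𝒞 t * c) ∈ Ideal.span {t} • (⊤ : Submodule R 𝒞))
    {m N : ℕ} {f : K} {g : 𝒞} (h : IsCocRep t j 𝒪 R0 R1 m N f g) :
    IsCocRep t j 𝒪 R0 R1 m N (s f) (φ g) := by
  obtain ⟨h1, h2, hh2, ψ0, ψ1, a0, a1, e⟩ := h
  obtain ⟨w, hw, ew⟩ := hπ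
  refine ⟨?_, w ^ N * s h2, 𝒪.mul_mem (𝒪.pow_mem hw N) (h𝒪 h2 hh2), s ψ0, s ψ1, ?_, ?_, ?_⟩
  · obtain ⟨b, -, hb⟩ := (mem_span_singleton_smul_iff t _ _).1 h1
    have e1 : φ g - 1 = φ (algebraMap R 𝒞 t * b) := by rw [← hb, map_sub, map_one]
    rw [e1]
    exact hφt b
  · have := a0.map s h𝒪 hw ew hR0
    simpa only [map_one] using this
  · have := a1.map s h𝒪 hw ew hR1
    simpa only [map_one] using this
  · rw [hjφ, ← map_div₀, ← e, map_mul, map_add, map_one, map_mul, map_pow, ew]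
    ring

/-- **Trivial class at level `n`**: roots on the two charts which agree modulo `π ^ n`. -/
theorem IsCocRep.exists_roots (H : TwoChartEmb C0 Cinf t j 𝒪 R0 R1 Rc) {m N n : ℕ}
    (hn : n ≤ N) {f : K} {g : 𝒞} (hg : IsCocRep t j 𝒪 R0 R1 m N f g)
    (h1 : ∃ w0 w1 : 𝒞, w0 - 1 ∈ Ideal.span {t} • Subalgebra.toSubmodule C0 ∧
      w1 - 1 ∈ Ideal.span {t} • Subalgebra.toSubmodule Cinf ∧
      g - 1 * w0 * w1 ∈ Ideal.span {t} ^ n • (⊤ : Submodule R 𝒞)) :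
    ∃ ψ0 ψ1, IsRootRel 𝒪 (j (algebraMap R 𝒞 t)) R0 m N (fun _ => 1) f ψ0 ∧
      IsRootRel 𝒪 (j (algebraMap R 𝒞 t)) R1 m N (fun _ => 1) f ψ1 ∧
      ∃ h ∈ 𝒪, ψ0 = ψ1 * (1 + j (algebraMap R 𝒞 t) ^ n * h) := by
  have hG := H.gauss
  obtain ⟨-, h, hh, ψ0, ψ1, a0, a1, e⟩ := hg
  obtain ⟨w0, w1, hw0, hw1, hz⟩ := h1
  obtain ⟨b0, hb0, eb0⟩ := (mem_span_singleton_smul_iff t _ _).1 hw0
  obtain ⟨b1, hb1, eb1⟩ := (mem_span_singleton_smul_iff t _ _).1 hw1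
  rw [Ideal.span_singleton_pow] at hz
  obtain ⟨z, -, ez⟩ := (mem_span_singleton_smul_iff (t ^ n) _ _).1 hz
  have hb0' : j b0 ∈ C0.toSubring.map j := ⟨b0, hb0, rfl⟩
  have hb1' : j b1 ∈ Cinf.toSubring.map j := ⟨b1, hb1, rfl⟩
  have hw0j : j w0 = 1 + j (algebraMap R 𝒞 t) * j b0 := by
    have : w0 = 1 + algebraMap R 𝒞 t * b0 := by rw [← eb0]; ring
    rw [this, map_add, map_one, map_mul]
  have hw1j : j w1 = 1 + j (algebraMap R 𝒞 t) * j b1 := by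
    have : w1 = 1 + algebraMap R 𝒞 t * b1 := by rw [← eb1]; ring
    rw [this, map_add, map_one, map_mul]
  have hgj : j g = j w0 * j w1 + j (algebraMap R 𝒞 t) ^ n * j z := by
    have : g = w0 * w1 + algebraMap R 𝒞 (t ^ n) * z := by rw [← ez]; ring
    rw [this, map_add, map_mul, map_mul, map_pow, map_pow]
  have hu0 := hG.isUnitIn_one_add (H.chart0.chart_le hb0')
  have hu1 := hG.isUnitIn_one_add (H.chart1.chart_le hb1')
  have hψ1 := a1.ne_zero hG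
  refine ⟨ψ0 * (1 + j (algebraMap R 𝒞 t) * j b0)⁻¹, ψ1 * (1 + j (algebraMap R 𝒞 t) * j b1),
    a0.mul_inv_one_add hG H.chart0 hb0', a1.mul_one_add hG H.chart1 hb1', ?_⟩
  -- `ψ0 = ψ1 * j g * (1 + π^N h)`
  have e0 : ψ0 = ψ1 * (j g * (1 + j (algebraMap R 𝒞 t) ^ N * h)) := by
    rw [e]
    field_simp
  obtain ⟨d, rfl⟩ := Nat.exists_eq_add_of_le hn
  have hzO : j z ∈ 𝒪 := H.chartc.chart_le ⟨z, rfl⟩
  refine ⟨j z * (1 + j (algebraMap R 𝒞 t) * j b0)⁻¹ * (1 + j (algebraMap R 𝒞 t) * j b1)⁻¹ +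
      j (algebraMap R 𝒞 t) ^ d * h +
      j (algebraMap R 𝒞 t) ^ (n + d) * (j z * (1 + j (algebraMap R 𝒞 t) * j b0)⁻¹ *
        (1 + j (algebraMap R 𝒞 t) * j b1)⁻¹ * h), ?_, ?_⟩
  · exact 𝒪.add_mem (𝒪.add_mem (𝒪.mul_mem (𝒪.mul_mem hzO hu0.2.2) hu1.2.2)
      (𝒪.mul_mem (hG.pi_pow_mem d) hh))
      (𝒪.mul_mem (hG.pi_pow_mem _) (𝒪.mul_mem (𝒪.mul_mem (𝒪.mul_mem hzO hu0.2.2) hu1.2.2) hh))
  · rw [e0, hgj, hw0j, hw1j]
    have := hu0.1
    have := hu1.1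
    field_simp
    ring

end Rep

end Fermat.Agent.Lib.ChartRoots
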