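import Fermat.Agent.Lib.GaussChartCoc

/-!
# Coset constants: canonical references and the twist rule (level-free, Mathlib only)

Program FG (S19), Route C, brick `COS`.  Vocabulary of `Lib/GaussChart.lean` and
`Lib/GaussChartRoots.lean`.

For a Gauss unit `f` which is not `≡ 1 mod π` (the Kummer function of a coset representative)
the local roots of `f` exist only relative to *references* `ρ i` (`f / (ρ i * u) ^ m ∈ (R i)ˣ`
with `u ∈ 1 + π𝒪`).  This file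

* chooses the references canonically as a function of the local ring alone
  (`cosetRef 𝒪 π P m f S`: `1` if `f` is a unit of `S`, otherwise a chosen admissible reference
  satisfying the predicate `P`, e.g. "fixed by inertia"), so that the references on two charts
  agree automatically at common points (`cosetRef` depends on `R i` only);
* produces the relative root and the relative cocycle (`exists_isRootRel_cosetRef`,
  `exists_isCocycle_cosetRef`) from `exists_isRootRel`;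
* produces admissible references from (STAR) and a reference uniformiser
  (`exists_isRefAt_of_star`);
* proves the **twist rule** `IsCocycle.twist`: if `σ` fixes the references and
  `σ f / f = a * v ^ m * f'`, then `σ γ / γ` and any cocycle `γ'` of `f'` (references `1`)
  agree up to `(1 + π C0)(1 + π C1)(1 + π ^ N 𝒪)` — this is `σ(p_c) = p_c · Φ_N(σ x_c - x_c)`;
* transfers everything to representatives in the overlap ring `𝒞` (setting `TwoChartEmb` of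
  `Lib/GaussChartCoc.lean`): `IsCosetRep` (a representative `p ∈ 1 + t𝒞` of the coset cocycle
  relative to the canonical references), `exists_isCosetRep`, `cocEq_of_rel` (a relation
  `j a (1 + π c1) = j b (1 + π c0)(1 + π ^ N h)` in `K` gives `a ≡ b * w0 * w1 mod t ^ N 𝒞`
  with `w0 ∈ 1 + t C0`, `w1 ∈ 1 + t Cinf`) and `IsCosetRep.cocEq_twist` (the twist rule for
  representatives, in the literal form of the relation `CocEq` of `S19/Cech/Machine.lean`: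
  clause `(peq)` of the Čech machine).
-/

set_option autoImplicit false

namespace Fermat.Agent.Lib.ChartRoots

variable {K : Type*} [Field K]

section Ref

variable (𝒪 : Subring K) (π : K)

/-- `ρ` is an admissible reference of `f` at the local ring `S`: it is nonzero, satisfies `P`,
and `f / (ρ * u) ^ m` is a unit of `S` for some `u ∈ 1 + π𝒪`. -/
def IsRefAt (P : K → Prop) (m : ℕ) (f : K) (S : Subring K) (ρ : K) : Prop :=
  ρ ≠ 0 ∧ P ρ ∧ ∃ u, (∃ h ∈ 𝒪, u = 1 + π * h) ∧ IsUnitIn S (f * ((ρ * u)⁻¹) ^ m)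

/-- `τ` is a reference uniformiser of the local ring `S`: every unit of `𝒪` is a power of `τ`
times a unit of `S` times an element of `1 + π𝒪` (the reduction of `S` is a discrete valuation
ring of the residue field of `𝒪`, with uniformiser the reduction of `τ`). -/
def IsRefUnif (S : Subring K) (τ : K) : Prop :=
  ∀ c : K, IsUnitIn 𝒪 c → ∃ n : ℤ, ∃ r : K, IsUnitIn S r ∧ ∃ h ∈ 𝒪, c = τ ^ n * r * (1 + π * h)

open Classical in
/-- The canonical reference of `f` at the local ring `S`: `1` if `f` is a unit of `S`,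
otherwise a chosen admissible reference (and `1` if there is none).  It depends on the local
ring only, not on the chart or the index of the point. -/
noncomputable def cosetRef (P : K → Prop) (m : ℕ) (f : K) (S : Subring K) : K :=
  if IsUnitIn S f then 1
  else if h : ∃ ρ, IsRefAt 𝒪 π P m f S ρ then Classical.choose h else 1

variable {𝒪 π}

theorem cosetRef_of_isUnitIn {P : K → Prop} {m : ℕ} {f : K} {S : Subring K}
    (h : IsUnitIn S f) : cosetRef 𝒪 π P m f S = 1 := by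
  unfold cosetRef
  rw [if_pos h]

theorem cosetRef_ne_zero (P : K → Prop) (m : ℕ) (f : K) (S : Subring K) :
    cosetRef 𝒪 π P m f S ≠ 0 := by
  unfold cosetRef
  split_ifs with h1 h2
  · exact one_ne_zero
  · exact (Classical.choose_spec h2).1
  · exact one_ne_zero

theorem cosetRef_prop {P : K → Prop} (hP1 : P 1) (m : ℕ) (f : K) (S : Subring K) :
    P (cosetRef 𝒪 π P m f S) := by
  unfold cosetRef
  split_ifs with h1 h2
  · exact hP1
  · exact (Classical.choose_spec h2).2.1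
  · exact hP1

/-- The canonical reference has a local root as soon as some admissible reference exists. -/
theorem cosetRef_loc {P : K → Prop} {m : ℕ} {f : K} {S : Subring K}
    (hex : ∃ ρ, IsRefAt 𝒪 π P m f S ρ) :
    ∃ u, (∃ h ∈ 𝒪, u = 1 + π * h) ∧ IsUnitIn S (f * ((cosetRef 𝒪 π P m f S * u)⁻¹) ^ m) := by
  by_cases h1 : IsUnitIn S f
  · refine ⟨1, ⟨0, 𝒪.zero_mem, by ring⟩, ?_⟩
    rw [cosetRef_of_isUnitIn h1, mul_one, inv_one, one_pow, mul_one]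
    exact h1
  · have e : cosetRef 𝒪 π P m f S = Classical.choose hex := by
      unfold cosetRef
      rw [if_neg h1, dif_pos hex]
    rw [e]
    exact (Classical.choose_spec hex).2.2

/-- An admissible reference from (STAR) and a reference uniformiser: `ρ = τ ^ n`. -/
theorem exists_isRefAt_of_star (hG : GaussRing 𝒪 π) {P : K → Prop} {m : ℕ} (hm : 0 < m)
    {f : K} (hf : IsUnitIn 𝒪 f) {S : Subring K} (hS : S ≤ 𝒪)
    (hstar : ∃ y : K, IsUnitIn S (y ^ m * f)) {τ : K} (hτ0 : τ ≠ 0) (hτ : IsRefUnif 𝒪 π S τ)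
    (hP : ∀ n : ℤ, P (τ ^ n)) : ∃ ρ, IsRefAt 𝒪 π P m f S ρ := by
  obtain ⟨y, hy⟩ := hstar
  have hy0 : y ≠ 0 := by
    rintro rfl
    exact hy.1 (by rw [zero_pow hm.ne', zero_mul])
  have hf0 : f ≠ 0 := hf.1
  -- `c = y⁻¹` is a unit of `𝒪`
  have hcm : IsUnitIn 𝒪 (y⁻¹ ^ m) := by
    have e : y⁻¹ ^ m = f * (y ^ m * f)⁻¹ := by
      rw [inv_pow]
      field_simp
    rw [e]
    exact hf.mul (hy.inv.mono hS)
  have hc : IsUnitIn 𝒪 y⁻¹ := hG.isUnitIn_of_pow hm hcm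
  obtain ⟨n, r, hr, h, hh, e⟩ := hτ y⁻¹ hc
  have hu0 : 1 + π * h ≠ 0 := hG.one_add_ne_zero hh
  have hτn : τ ^ n ≠ 0 := zpow_ne_zero n hτ0
  refine ⟨τ ^ n, hτn, hP n, 1 + π * h, ⟨h, hh, rfl⟩, ?_⟩
  have e2 : f * ((τ ^ n * (1 + π * h))⁻¹) ^ m = r ^ m * (y ^ m * f) := by
    have e3 : (τ ^ n * (1 + π * h))⁻¹ = r * y := by
      have hr0 := hr.1
      have e4 : τ ^ n * (1 + π * h) = y⁻¹ * r⁻¹ := by
        rw [e]
        field_simp
      rw [e4, mul_inv, inv_inv, inv_inv, mul_comm]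
    rw [e3, mul_pow]
    ring
  rw [e2]
  exact (hr.pow m).mul hy

end Ref

section OneChart

variable {𝒪 : Subring K} {π : K} {B : Subring K} {ι : Type*} {R : ι → Subring K}

/-- The level-`N` root of a Gauss unit `f` relative to the canonical references. -/
theorem exists_isRootRel_cosetRef (hG : GaussRing 𝒪 π) (hB : GaussChart 𝒪 π B R)
    (P : K → Prop) (m N : ℕ) {f : K} (hf : IsUnitIn 𝒪 f)
    (hex : ∀ i, ∃ ρ, IsRefAt 𝒪 π P m f (R i) ρ) :
    ∃ ψ, IsRootRel 𝒪 π R m N (fun i => cosetRef 𝒪 π P m f (R i)) f ψ := by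
  refine exists_isRootRel hG hB m N _ f (fun i => cosetRef_loc (hex i)) ?_
  refine ((hB.finite_notMem f hf.mem).union (hB.finite_notMem f⁻¹ hf.inv_mem)).subset ?_
  intro i hi
  by_contra hcon
  simp only [Set.mem_union, Set.mem_ofPred_eq, not_or, not_not] at hcon
  have hu : IsUnitIn (R i) f := ⟨hf.1, hcon.1, hcon.2⟩
  apply hi
  show IsUnitIn (R i) (f * ((cosetRef 𝒪 π P m f (R i))⁻¹) ^ m)
  rw [cosetRef_of_isUnitIn hu, inv_one, one_pow, mul_one]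
  exact hu

end OneChart

section TwoCharts

variable {𝒪 : Subring K} {π : K} {ι0 ι1 : Type*} {R0 : ι0 → Subring K} {R1 : ι1 → Subring K}
  {C0 C1 : Subring K}

/-- **The coset cocycle**: a Gauss unit `f` with admissible references at every point of both
charts has a level-`N` cocycle relative to the canonical references. -/
theorem exists_isCocycle_cosetRef (hG : GaussRing 𝒪 π) (h0 : GaussChart 𝒪 π C0 R0)
    (h1 : GaussChart 𝒪 π C1 R1) (P : K → Prop) (m N : ℕ) {f : K} (hf : IsUnitIn 𝒪 f)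
    (hex0 : ∀ i, ∃ ρ, IsRefAt 𝒪 π P m f (R0 i) ρ)
    (hex1 : ∀ j, ∃ ρ, IsRefAt 𝒪 π P m f (R1 j) ρ) :
    ∃ g, IsCocycle 𝒪 π R0 R1 m N (fun i => cosetRef 𝒪 π P m f (R0 i))
      (fun j => cosetRef 𝒪 π P m f (R1 j)) f g := by
  obtain ⟨ψ0, a0⟩ := exists_isRootRel_cosetRef hG h0 P m N hf hex0
  obtain ⟨ψ1, a1⟩ := exists_isRootRel_cosetRef hG h1 P m N hf hex1
  exact ⟨ψ0 / ψ1, ψ0, ψ1, a0, a1, rfl⟩

/-- **The twist rule** (`σ(p_c) = p_c · Φ_N(σ x_c - x_c)` at the level of the function field).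
Let `γ` be a cocycle of `f` relative to nonzero `σ`-fixed references, let `γ'` be a cocycle of
`f'` with references `1`, and `σ f / f = a * v ^ m * f'` with `a` a unit of every local ring of
both charts and `v ∈ 1 + π𝒪`.  Then `σ γ / γ` and `γ'` agree up to
`(1 + π C0)(1 + π C1)(1 + π ^ N 𝒪)`. -/
theorem IsCocycle.twist (hG : GaussRing 𝒪 π) (h0 : GaussChart 𝒪 π C0 R0)
    (h1 : GaussChart 𝒪 π C1 R1) {m N : ℕ} (hm : 0 < m) (hN : 0 < N)
    (σ : K →+* K) (hσ𝒪 : ∀ x ∈ 𝒪, σ x ∈ 𝒪) {ε : K} (hε : ε ∈ 𝒪) (hσπ : σ π = π * ε)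
    (hσ0 : ∀ i, ∀ x ∈ R0 i, σ x ∈ R0 i) (hσ1 : ∀ j, ∀ x ∈ R1 j, σ x ∈ R1 j)
    {ρ0 : ι0 → K} {ρ1 : ι1 → K} (hρ0 : ∀ i, σ (ρ0 i) = ρ0 i) (hρ1 : ∀ j, σ (ρ1 j) = ρ1 j)
    (hρ0' : ∀ i, ρ0 i ≠ 0) (hρ1' : ∀ j, ρ1 j ≠ 0) {f γ f' γ' a v : K}
    (h : IsCocycle 𝒪 π R0 R1 m N ρ0 ρ1 f γ)
    (h' : IsCocycle 𝒪 π R0 R1 m N (fun _ => 1) (fun _ => 1) f' γ')
    (ha0 : ∀ i, IsUnitIn (R0 i) a) (ha1 : ∀ j, IsUnitIn (R1 j) a)
    (hv : ∃ h ∈ 𝒪, v = 1 + π * h) (hf : σ f / f = a * v ^ m * f') :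
    ∃ c0 ∈ C0, ∃ c1 ∈ C1, ∃ h ∈ 𝒪,
      σ γ / γ * (1 + π * c1) = γ' * (1 + π * c0) * (1 + π ^ N * h) := by
  have hσ := h.map_of_fixed σ hσ𝒪 hε hσπ hσ0 hσ1 hρ0 hρ1
  have hdiv := hσ.div hG hN h
  have e0 : (fun i => ρ0 i / ρ0 i) = fun _ => (1 : K) := funext fun i => div_self (hρ0' i)
  have e1 : (fun j => ρ1 j / ρ1 j) = fun _ => (1 : K) := funext fun j => div_self (hρ1' j)
  rw [e0, e1, hf] at hdiv
  exact (h'.const_mul_pow hG ha0 ha1 hv).unique hG h0 h1 hm hN hdiv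

end TwoCharts

section Rep

open Fermat.Agent.Lib.TwoChartNormalForm (mem_span_singleton_smul_iff)

variable {R 𝒞 : Type*} [CommRing R] [CommRing 𝒞] [Algebra R 𝒞] {C0 Cinf : Subalgebra R 𝒞}
  {t : R} {j : 𝒞 →+* K} {𝒪 : Subring K} {ι0 ι1 ιc : Type*}
  {R0 : ι0 → Subring K} {R1 : ι1 → Subring K} {Rc : ιc → Subring K}

/-- From a relation in the function field to the relation `CocEq` of the Čech machine:
`j a * (1 + π c1) = j b * (1 + π c0) * (1 + π ^ N h)` with `c0 ∈ C0`, `c1 ∈ Cinf`, `h ∈ 𝒪`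
gives `a - b * w0 * w1 ∈ t ^ N 𝒞` with `w0 ∈ 1 + t C0`, `w1 ∈ 1 + t Cinf`. -/
theorem cocEq_of_rel (H : TwoChartEmb C0 Cinf t j 𝒪 R0 R1 Rc) (N : ℕ) {a b c0 c1 : 𝒞}
    (hc0 : c0 ∈ C0) (hc1 : c1 ∈ Cinf) {h : K} (hh : h ∈ 𝒪)
    (e : j a * (1 + j (algebraMap R 𝒞 t) * j c1) =
      j b * (1 + j (algebraMap R 𝒞 t) * j c0) * (1 + j (algebraMap R 𝒞 t) ^ N * h)) :
    ∃ w0 w1 : 𝒞, w0 - 1 ∈ Ideal.span {t} • Subalgebra.toSubmodule C0 ∧
      w1 - 1 ∈ Ideal.span {t} • Subalgebra.toSubmodule Cinf ∧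
      a - b * w0 * w1 ∈ Ideal.span {t} ^ N • (⊤ : Submodule R 𝒞) := by
  have hG := H.gauss
  have hO : ∀ c : 𝒞, j c ∈ 𝒪 := fun c => H.chartc.chart_le ⟨c, rfl⟩
  -- the difference is divisible by `t ^ N` in `𝒞`
  have hh' : j b * (1 + j (algebraMap R 𝒞 t) * j c0) * h ∈ 𝒪 :=
    𝒪.mul_mem (𝒪.mul_mem (hO b) (𝒪.add_mem 𝒪.one_mem (𝒪.mul_mem (hO _) (hO c0)))) hh
  have ex : j (a * (1 + algebraMap R 𝒞 t * c1) - b * (1 + algebraMap R 𝒞 t * c0)) =
      j (algebraMap R 𝒞 t) ^ N * (j b * (1 + j (algebraMap R 𝒞 t) * j c0) * h) := by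
    simp only [map_sub, map_mul, map_add, map_one]
    linear_combination e
  obtain ⟨y, hy⟩ := H.chartc.chart_inter_pow hG N hh' (by rw [← ex]; exact ⟨_, rfl⟩)
  refine cocEq_of_mul_eq C0 Cinf t N hc0 hc1 (z := y) ?_
  apply H.inj
  rw [← hy] at ex
  simp only [map_sub, map_mul, map_add, map_one, map_pow] at ex ⊢
  linear_combination ex

/-- `p ∈ 1 + t𝒞` represents the level-`N` coset cocycle of the Gauss unit `f`, relative to the
canonical references with property `P`: `j p * (1 + π ^ N * h)` is a quotient `ψ0 / ψ1` of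
level-`N` `m`-th roots of `f` relative to `cosetRef` on the two charts. -/
def IsCosetRep (t : R) (j : 𝒞 →+* K) (𝒪 : Subring K) {ι0 ι1 : Type*} (R0 : ι0 → Subring K)
    (R1 : ι1 → Subring K) (P : K → Prop) (m N : ℕ) (f : K) (p : 𝒞) : Prop :=
  p - 1 ∈ Ideal.span {t} • (⊤ : Submodule R 𝒞) ∧
    ∃ h ∈ 𝒪, IsCocycle 𝒪 (j (algebraMap R 𝒞 t)) R0 R1 m N
      (fun i => cosetRef 𝒪 (j (algebraMap R 𝒞 t)) P m f (R0 i))
      (fun i => cosetRef 𝒪 (j (algebraMap R 𝒞 t)) P m f (R1 i)) f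
      (j p * (1 + j (algebraMap R 𝒞 t) ^ N * h))

/-- **Existence of the coset constant**: a Gauss unit `f` with admissible references at every
point of both charts has a representative `p ∈ 1 + t𝒞` of its coset cocycle. -/
theorem exists_isCosetRep (H : TwoChartEmb C0 Cinf t j 𝒪 R0 R1 Rc) (P : K → Prop) {m N : ℕ}
    (hm : 0 < m) (hN : 0 < N) {f : K} (hf : IsUnitIn 𝒪 f)
    (hex0 : ∀ i, ∃ ρ, IsRefAt 𝒪 (j (algebraMap R 𝒞 t)) P m f (R0 i) ρ)
    (hex1 : ∀ i, ∃ ρ, IsRefAt 𝒪 (j (algebraMap R 𝒞 t)) P m f (R1 i) ρ) :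
    ∃ p, IsCosetRep t j 𝒪 R0 R1 P m N f p := by
  obtain ⟨γ, hγ⟩ := exists_isCocycle_cosetRef H.gauss H.chart0 H.chart1 P m N hf hex0 hex1
  obtain ⟨c, hc, h, hh, e⟩ := hγ.mem H.gauss H.chartc hm hN
    (ρc := fun k => cosetRef 𝒪 (j (algebraMap R 𝒞 t)) P m f (Rc k))
    (fun k => by obtain ⟨i, hi⟩ := H.ref0 k; exact ⟨i, hi, by rw [hi]⟩)
    (fun k => by obtain ⟨i, hi⟩ := H.ref1 k; exact ⟨i, hi, by rw [hi]⟩)
  obtain ⟨c', rfl⟩ := hc
  refine ⟨1 + algebraMap R 𝒞 t * c', ?_, h, hh, ?_⟩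
  · exact (mem_span_singleton_smul_iff t _ _).2 ⟨c', Submodule.mem_top, by ring⟩
  · have e' : j (1 + algebraMap R 𝒞 t * c') * (1 + j (algebraMap R 𝒞 t) ^ N * h) = γ := by
      rw [e, map_add, map_one, map_mul]
    rw [e']
    exact hγ

/-- **The twist rule for representatives** = clause `(peq)` of the Čech machine.  `p` is a coset
representative of `f` (canonical references with a property `P` implying `s`-invariance), `g` a
representative of the cocycle class of `f'`, `φ` the restriction of `s` to the overlap ring, and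
`s f / f = a * v ^ m * f'` with `a` a unit of every local ring and `v ∈ 1 + π𝒪`.  Then
`φ p ≡ p * g * w0 * w1 mod t ^ N 𝒞` with `w0 ∈ 1 + t C0`, `w1 ∈ 1 + t Cinf`, i.e.
`CocEq C0 Cinf t N (φ p) (p * g)`. -/
theorem IsCosetRep.cocEq_twist (H : TwoChartEmb C0 Cinf t j 𝒪 R0 R1 Rc) {m N : ℕ}
    (hm : 0 < m) (hN : 0 < N) (s : K →+* K) (φ : 𝒞 →+* 𝒞) (hjφ : ∀ c, j (φ c) = s (j c))
    (h𝒪 : ∀ x ∈ 𝒪, s x ∈ 𝒪) (hR0 : ∀ i, ∀ x ∈ R0 i, s x ∈ R0 i)
    (hR1 : ∀ i, ∀ x ∈ R1 i, s x ∈ R1 i)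
    (hπ : ∃ w ∈ 𝒪, s (j (algebraMap R 𝒞 t)) = j (algebraMap R 𝒞 t) * w)
    {P : K → Prop} (hP1 : P 1) (hPs : ∀ x, P x → s x = x) {f f' a v : K} {p g : 𝒞}
    (hp : IsCosetRep t j 𝒪 R0 R1 P m N f p) (hg : IsCocRep t j 𝒪 R0 R1 m N f' g)
    (ha0 : ∀ i, IsUnitIn (R0 i) a) (ha1 : ∀ i, IsUnitIn (R1 i) a)
    (hv : ∃ h ∈ 𝒪, v = 1 + j (algebraMap R 𝒞 t) * h) (hf : s f / f = a * v ^ m * f') :
    ∃ w0 w1 : 𝒞, w0 - 1 ∈ Ideal.span {t} • Subalgebra.toSubmodule C0 ∧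
      w1 - 1 ∈ Ideal.span {t} • Subalgebra.toSubmodule Cinf ∧
      φ p - p * g * w0 * w1 ∈ Ideal.span {t} ^ N • (⊤ : Submodule R 𝒞) := by
  have hG := H.gauss
  obtain ⟨ε, hε, hσπ⟩ := hπ
  obtain ⟨-, k1, hk1, hp'⟩ := hp
  obtain ⟨-, k2, hk2, hg'⟩ := hg
  obtain ⟨c0, hc0, c1, hc1, k, hk, e⟩ := hp'.twist hG H.chart0 H.chart1 hm hN s h𝒪 hε hσπ
    hR0 hR1 (fun i => hPs _ (cosetRef_prop hP1 m f (R0 i)))
    (fun i => hPs _ (cosetRef_prop hP1 m f (R1 i)))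
    (fun i => cosetRef_ne_zero P m f (R0 i)) (fun i => cosetRef_ne_zero P m f (R1 i))
    hg' ha0 ha1 hv hf
  obtain ⟨c0', hc0', rfl⟩ := hc0
  obtain ⟨c1', hc1', rfl⟩ := hc1
  -- the cocycle value is nonzero
  have hγ0 : j p * (1 + j (algebraMap R 𝒞 t) ^ N * k1) ≠ 0 := by
    obtain ⟨ψ0, ψ1, a0, a1, eγ⟩ := hp'
    rw [eγ]
    exact div_ne_zero (a0.ne_zero hG) (a1.ne_zero hG)
  -- `s` of the cocycle value
  have eσ : s (j p * (1 + j (algebraMap R 𝒞 t) ^ N * k1)) =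
      j (φ p) * (1 + j (algebraMap R 𝒞 t) ^ N * (ε ^ N * s k1)) := by
    rw [map_mul, map_add, map_one, map_mul, map_pow, hσπ, hjφ]
    ring
  have hk1' : ε ^ N * s k1 ∈ 𝒪 := 𝒪.mul_mem (𝒪.pow_mem hε N) (h𝒪 k1 hk1)
  -- merge the factors of `1 + π ^ N 𝒪`
  obtain ⟨q1, hq1, eq1⟩ := hG.inv_one_add_pow hN hk1'
  obtain ⟨q2, hq2, eq2⟩ := hG.mul_one_add_pow N hk1 hk2
  obtain ⟨q3, hq3, eq3⟩ := hG.mul_one_add_pow N hq2 hk
  obtain ⟨q4, hq4, eq4⟩ := hG.mul_one_add_pow N hq3 hq1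
  have hu : 1 + j (algebraMap R 𝒞 t) ^ N * (ε ^ N * s k1) ≠ 0 :=
    (hG.isUnitIn_one_add_pow hN hk1').1
  rw [eσ, div_mul_eq_mul_div, div_eq_iff hγ0] at e
  have key : j (φ p) * (1 + j (algebraMap R 𝒞 t) * j c1') =
      j (p * g) * (1 + j (algebraMap R 𝒞 t) * j c0') *
        (1 + j (algebraMap R 𝒞 t) ^ N * q4) := by
    rw [← eq4, ← eq3, ← eq2, ← eq1, map_mul]
    have hU : (1 + j (algebraMap R 𝒞 t) ^ N * (ε ^ N * s k1)) *
        (1 + j (algebraMap R 𝒞 t) ^ N * (ε ^ N * s k1))⁻¹ = 1 := mul_inv_cancel₀ hu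
    generalize (1 + j (algebraMap R 𝒞 t) ^ N * (ε ^ N * s k1))⁻¹ = V at hU ⊢
    linear_combination V * e - (j (φ p) * (1 + j (algebraMap R 𝒞 t) * j c1')) * hU
  exact cocEq_of_rel H N hc0' hc1' hq4 key

end Rep

end Fermat.Agent.Lib.ChartRoots
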