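import Fermat.Agent.Lib.GaussChart

/-!
# Gluing local data on a chart of a Gauss ring: (LR) (level-free, Mathlib only)

Program FG (S19), Route C, brick `PHI`.  Vocabulary of `Lib/GaussChart.lean`.

`exists_glue` (**LR**): given a family `u i ∈ 1 + π𝒪`, with `u i ∈ 1 + π R i` for all but
finitely many `i`, and a level `N`, there is `ψ ∈ 1 + π𝒪` with
`ψ ∈ u i * (1 + π R i) * (1 + π ^ N 𝒪)` for every `i`.
(Successive approximation; each step prescribes finitely many principal parts modulo `π`.)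
-/

set_option autoImplicit false

namespace Fermat.Agent.Lib.ChartRoots

variable {K : Type*} [Field K] {𝒪 : Subring K} {π : K} {B : Subring K} {ι : Type*}
  {R : ι → Subring K}

/-- The algebra of one approximation step. -/
theorem glue_step_aux {π u r h b r' k ψ ρi : K} (n : ℕ)
    (e : ψ = u * (1 + π * r) * (1 + π ^ (n + 1) * h)) (hb : b - h = r' + π * k)
    (hρ : (1 + π * -(π ^ n * r')) * ρi = 1) :
    ψ * (1 - π ^ (n + 1) * b) =
      u * ((1 + π * r) * (1 + π * -(π ^ n * r'))) *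
        (1 + π ^ (n + 1 + 1) * (-(k + π ^ n * h * b) * ρi)) := by
  have hb' : b = h + r' + π * k := by linear_combination hb
  rw [e, hb']
  linear_combination (u * (1 + π * r) * π ^ (n + 1 + 1) * (k + π ^ n * h * (h + r' + π * k))) * hρ

/-- **(LR)** gluing of a family of local elements of `1 + π𝒪` up to `(1 + π R i)(1 + π ^ N 𝒪)`. -/
theorem exists_glue (hG : GaussRing 𝒪 π) (hB : GaussChart 𝒪 π B R) (u : ι → K)
    (hu : ∀ i, ∃ h ∈ 𝒪, u i = 1 + π * h)
    (hfin : {i | ¬ ∃ r ∈ R i, u i = 1 + π * r}.Finite) (N : ℕ) :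
    ∃ ψ, (∃ h ∈ 𝒪, ψ = 1 + π * h) ∧
      ∀ i, ∃ r ∈ R i, ∃ h ∈ 𝒪, ψ = u i * (1 + π * r) * (1 + π ^ N * h) := by
  classical
  have hu0 : ∀ i, u i ≠ 0 := fun i => by
    obtain ⟨h, hh, e⟩ := hu i
    rw [e]
    exact hG.one_add_ne_zero hh
  induction N with
  | zero =>
    refine ⟨1, ⟨0, 𝒪.zero_mem, by simp⟩, fun i => ?_⟩
    obtain ⟨h, hh, e⟩ := hu i
    have hui : (u i)⁻¹ ∈ 𝒪 := by
      rw [e]
      exact (hG.isUnitIn_one_add hh).2.2
    refine ⟨0, (R i).zero_mem, (u i)⁻¹ - 1, 𝒪.sub_mem hui 𝒪.one_mem, ?_⟩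
    have := hu0 i
    field_simp
    ring
  | succ N ih =>
    rcases Nat.eq_zero_or_pos N with rfl | hN
    · refine ⟨1, ⟨0, 𝒪.zero_mem, by simp⟩, fun i => ?_⟩
      obtain ⟨h, hh, e⟩ := hu i
      obtain ⟨h', hh', e'⟩ := hG.inv_one_add hh
      refine ⟨0, (R i).zero_mem, h', hh', ?_⟩
      rw [zero_add, pow_one, ← e', ← e, mul_zero, add_zero, mul_one, mul_inv_cancel₀ (hu0 i)]
    · obtain ⟨n, rfl⟩ := Nat.exists_eq_succ_of_ne_zero hN.ne'
      obtain ⟨ψ, ⟨a, ha, hψ⟩, hloc⟩ := ih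
      -- the finite set of bad points
      have hTfin : ({i | a ∉ R i} ∪ {i | ¬ ∃ r ∈ R i, u i = 1 + π * r}).Finite :=
        (hB.finite_notMem a ha).union hfin
      set T : Finset ι := hTfin.toFinset with hT
      -- a uniform family of errors, zero outside `T`
      have hfam : ∀ i, ∃ h ∈ 𝒪, (i ∉ T → h = 0) ∧
          ∃ r ∈ R i, ψ = u i * (1 + π * r) * (1 + π ^ (n + 1) * h) := by
        intro i
        by_cases hi : i ∈ T
        · obtain ⟨r, hr, h, hh, e⟩ := hloc i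
          exact ⟨h, hh, fun h' => absurd hi h', r, hr, e⟩
        · have hi' : ¬ (a ∉ R i ∨ ¬ ∃ r ∈ R i, u i = 1 + π * r) := by
            intro h'
            apply hi
            rw [hT, Set.Finite.mem_toFinset]
            exact h'
          have haR : a ∈ R i := by_contra fun h' => hi' (Or.inl h')
          obtain ⟨r0, hr0, e0⟩ : ∃ r ∈ R i, u i = 1 + π * r :=
            by_contra fun h' => hi' (Or.inr h')
          obtain ⟨r0', hr0', e0'⟩ := hB.inv_one_add_loc hG i hr0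
          obtain ⟨r1, hr1, e1⟩ := hB.mul_one_add_loc i haR hr0'
          refine ⟨0, 𝒪.zero_mem, fun _ => rfl, r1, hr1, ?_⟩
          rw [mul_zero, add_zero, mul_one, ← e1, ← e0', hψ, e0]
          have := hG.one_add_ne_zero (hB.loc_le i hr0)
          field_simp
      choose h hh hzero hrest using hfam
      obtain ⟨b, hb, hbT, hbN⟩ := hB.exists_pp T h (fun i _ => hh i)
      have hball : ∀ i, ∃ r' ∈ R i, ∃ k ∈ 𝒪, b - h i = r' + π * k := by
        intro i
        by_cases hi : i ∈ T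
        · exact hbT i hi
        · obtain ⟨r', hr', k, hk, e⟩ := hbN i hi
          exact ⟨r', hr', k, hk, by rw [hzero i hi, sub_zero, e]⟩
      refine ⟨ψ * (1 - π ^ (n + 1) * b), ?_, fun i => ?_⟩
      · obtain ⟨c, hc, e⟩ := hG.mul_one_add ha (𝒪.neg_mem (𝒪.mul_mem (hG.pi_pow_mem n) hb))
        refine ⟨c, hc, ?_⟩
        rw [← e, hψ]
        ring
      · obtain ⟨r, hr, e⟩ := hrest i
        obtain ⟨r', hr', k, hk, e'⟩ := hball i
        have hr'' : -(π ^ n * r') ∈ R i :=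
          (R i).neg_mem ((R i).mul_mem ((R i).pow_mem (hB.pi_mem_loc i) n) hr')
        have hρu := hB.isUnitIn_one_add_loc hG i hr''
        obtain ⟨r2, hr2, e2⟩ := hB.mul_one_add_loc i hr hr''
        refine ⟨r2, hr2, -(k + π ^ n * h i * b) * (1 + π * -(π ^ n * r'))⁻¹, ?_, ?_⟩
        · exact 𝒪.mul_mem (𝒪.neg_mem (𝒪.add_mem hk
            (𝒪.mul_mem (𝒪.mul_mem (hG.pi_pow_mem n) (hh i)) hb))) (hB.loc_le i hρu.2.2)
        · rw [← e2]
          exact glue_step_aux n e e' (mul_inv_cancel₀ hρu.1)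

end Fermat.Agent.Lib.ChartRoots
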