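import Fermat.Agent.Lib.GaussChartRoots

/-!
# Transport of local roots and of the two-chart cocycle along a ring endomorphism

Program FG (S19), Route C: the level-free half of the equivariance clauses (eqv) / (peq).
Vocabulary of `Lib/GaussChart.lean` / `Lib/GaussChartRoots.lean` (helper3).

`σ : K →+* K` is a ring endomorphism of the function field (a Galois automorphism acting
coefficientwise) which preserves the Gauss ring `𝒪`, multiplies `π` by an element of `𝒪`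
(`σ π = π * ε`; `ε = 1` if `π` is fixed) and preserves every local ring `R i` (an inertia
automorphism fixes every closed point of the special fibre).

* `IsUnitIn.map`     : units of `S` go to units of `S`;
* `IsRootRel.map`    : a level-`N` root `ψ` of `f` relative to `ρ` goes to a level-`N` root `σ ψ` of
  `σ f` relative to `σ ∘ ρ`;
* `IsCocycle.map`    : the same for the cocycle `g = ψ0 / ψ1`;
* `IsCocycle.map_of_fixed` : if the references are `σ`-fixed;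
* `IsCocycle.map_const_mul_pow` : if moreover `σ f = a * v ^ m * f'` with `a` a unit of every
  local ring and `v ∈ 1 + π𝒪`, then `σ g` is a cocycle of `f'`  (`Φ_N(σ x) = σ Φ_N(x)`).
-/

set_option autoImplicit false

namespace Fermat.Agent.Lib.ChartRoots

variable {K : Type*} [Field K]

theorem IsUnitIn.map (σ : K →+* K) {S : Subring K} (hσS : ∀ x ∈ S, σ x ∈ S) {x : K}
    (hx : IsUnitIn S x) : IsUnitIn S (σ x) := by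
  refine ⟨fun h => hx.1 ((map_eq_zero σ).1 h), hσS x hx.2.1, ?_⟩
  rw [← map_inv₀]
  exact hσS _ hx.2.2

section OneChart

variable {𝒪 : Subring K} {π : K} {ι : Type*} {R : ι → Subring K}

/-- Transport of a level-`N` root along `σ`. -/
theorem IsRootRel.map (σ : K →+* K) (hσ𝒪 : ∀ x ∈ 𝒪, σ x ∈ 𝒪) {ε : K} (hε : ε ∈ 𝒪)
    (hσπ : σ π = π * ε) (hσR : ∀ i, ∀ x ∈ R i, σ x ∈ R i) {m N : ℕ} {ρ : ι → K} {f ψ : K}
    (h : IsRootRel 𝒪 π R m N ρ f ψ) :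
    IsRootRel 𝒪 π R m N (fun i => σ (ρ i)) (σ f) (σ ψ) := by
  obtain ⟨⟨b, hb, hψ⟩, hloc⟩ := h
  refine ⟨⟨ε * σ b, 𝒪.mul_mem hε (hσ𝒪 b hb), ?_⟩, fun i => ?_⟩
  · rw [hψ, map_add, map_one, map_mul, hσπ]; ring
  · obtain ⟨h1, hh1, hu⟩ := hloc i
    refine ⟨ε ^ N * σ h1, 𝒪.mul_mem (𝒪.pow_mem hε N) (hσ𝒪 h1 hh1), ?_⟩
    have key : σ f * ((σ (ρ i) * σ ψ)⁻¹ * (1 + π ^ N * (ε ^ N * σ h1))) ^ m =
        σ (f * ((ρ i * ψ)⁻¹ * (1 + π ^ N * h1)) ^ m) := by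
      simp only [map_mul, map_pow, map_inv₀, map_add, map_one, hσπ]
      ring
    rw [key]
    exact hu.map σ (hσR i)

end OneChart

section TwoCharts

variable {𝒪 : Subring K} {π : K} {ι0 ι1 : Type*} {R0 : ι0 → Subring K} {R1 : ι1 → Subring K}

/-- Transport of the two-chart cocycle along `σ`. -/
theorem IsCocycle.map (σ : K →+* K) (hσ𝒪 : ∀ x ∈ 𝒪, σ x ∈ 𝒪) {ε : K} (hε : ε ∈ 𝒪)
    (hσπ : σ π = π * ε) (hσ0 : ∀ i, ∀ x ∈ R0 i, σ x ∈ R0 i) (hσ1 : ∀ j, ∀ x ∈ R1 j, σ x ∈ R1 j)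
    {m N : ℕ} {ρ0 : ι0 → K} {ρ1 : ι1 → K} {f g : K}
    (h : IsCocycle 𝒪 π R0 R1 m N ρ0 ρ1 f g) :
    IsCocycle 𝒪 π R0 R1 m N (fun i => σ (ρ0 i)) (fun j => σ (ρ1 j)) (σ f) (σ g) := by
  obtain ⟨ψ0, ψ1, a0, a1, rfl⟩ := h
  exact ⟨σ ψ0, σ ψ1, a0.map σ hσ𝒪 hε hσπ hσ0, a1.map σ hσ𝒪 hε hσπ hσ1, map_div₀ σ ψ0 ψ1⟩

/-- Transport along `σ` when the references are `σ`-fixed. -/
theorem IsCocycle.map_of_fixed (σ : K →+* K) (hσ𝒪 : ∀ x ∈ 𝒪, σ x ∈ 𝒪) {ε : K} (hε : ε ∈ 𝒪)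
    (hσπ : σ π = π * ε) (hσ0 : ∀ i, ∀ x ∈ R0 i, σ x ∈ R0 i) (hσ1 : ∀ j, ∀ x ∈ R1 j, σ x ∈ R1 j)
    {m N : ℕ} {ρ0 : ι0 → K} {ρ1 : ι1 → K} (hρ0 : ∀ i, σ (ρ0 i) = ρ0 i)
    (hρ1 : ∀ j, σ (ρ1 j) = ρ1 j) {f g : K} (h : IsCocycle 𝒪 π R0 R1 m N ρ0 ρ1 f g) :
    IsCocycle 𝒪 π R0 R1 m N ρ0 ρ1 (σ f) (σ g) := by
  have h' := h.map σ hσ𝒪 hε hσπ hσ0 hσ1
  have e0 : (fun i => σ (ρ0 i)) = ρ0 := funext hρ0
  have e1 : (fun j => σ (ρ1 j)) = ρ1 := funext hρ1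
  rwa [e0, e1] at h'

/-- **Equivariance of the cocycle class**: if `σ f = a * v ^ m * f'` with `a` a unit of every
local ring of both charts and `v ∈ 1 + π𝒪`, then `σ g` is a cocycle of `f'`
(with the `σ`-transported references). -/
theorem IsCocycle.map_const_mul_pow (hG : GaussRing 𝒪 π) (σ : K →+* K)
    (hσ𝒪 : ∀ x ∈ 𝒪, σ x ∈ 𝒪) {ε : K} (hε : ε ∈ 𝒪)
    (hσπ : σ π = π * ε) (hσ0 : ∀ i, ∀ x ∈ R0 i, σ x ∈ R0 i) (hσ1 : ∀ j, ∀ x ∈ R1 j, σ x ∈ R1 j)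
    {m N : ℕ} {ρ0 : ι0 → K} {ρ1 : ι1 → K} {f f' g a v : K}
    (h : IsCocycle 𝒪 π R0 R1 m N ρ0 ρ1 f g)
    (ha0 : ∀ i, IsUnitIn (R0 i) a) (ha1 : ∀ j, IsUnitIn (R1 j) a)
    (ha : a ≠ 0) (hv : ∃ h ∈ 𝒪, v = 1 + π * h) (hf : a * v ^ m * f' = σ f) :
    IsCocycle 𝒪 π R0 R1 m N (fun i => σ (ρ0 i)) (fun j => σ (ρ1 j)) f' (σ g) := by
  have h' := h.map σ hσ𝒪 hε hσπ hσ0 hσ1
  obtain ⟨w, hw, hvw⟩ := hv
  have hv0 : v ≠ 0 := by rw [hvw]; exact hG.one_add_ne_zero hw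
  obtain ⟨w', hw', hvw'⟩ := hG.inv_one_add hw
  have h'' := h'.const_mul_pow hG (a := a⁻¹) (v := v⁻¹) (fun i => (ha0 i).inv)
    (fun j => (ha1 j).inv) ⟨w', hw', by rw [← hvw', hvw]⟩
  have e : a⁻¹ * v⁻¹ ^ m * σ f = f' := by
    rw [← hf, inv_pow]
    field_simp
  rwa [e] at h''

end TwoCharts

end Fermat.Agent.Lib.ChartRoots
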