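import Mathlib

/-!
# Localisations at a prime element inside a field: saturation and a local–global principle

Level-free chart lemmas (Program FG, Route C, brick `CH`).  `C` is a commutative ring inside a
field `K` (a chart ring inside the function field) and `p : C` a prime element (the uniformiser
of the base).

Vocabulary, as predicates on `K`:

* `InLoc Q x`      : `x ∈ R_Q`, the localisation of `C` at the ideal `Q`;
* `InGauss p x`    : `x ∈ 𝒪 = C_(p)`, the localisation at the prime ideal `(p)`;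
* `InLocAdd p Q x` : `x ∈ R_Q + p 𝒪`;

and as `C`-subalgebras of `K`: `locSub M` (`= M⁻¹C`), `gauss hp` (`= 𝒪`), `atPrime Q` (`= R_Q`),
with `mem_gauss`, `mem_atPrime` (both `Iff.rfl`).

Statements:

* (F1) `InLoc.of_pow_mul` : `R_Q ∩ p^n 𝒪 = p^n R_Q`; `exists_eq_of_pow_mul_eq` :
  `C ∩ p^n 𝒪 = p^n C`, equivalently `C[1/p] ∩ 𝒪 = C`; `mem_locSub_of_pow_mul_mem` : the same for
  every localisation `M⁻¹C`.
* (F2) `exists_add_pow_of_forall_maximal` : `⋂_Q (R_Q + p^N 𝒪) = C + p^N 𝒪`, `Q` running over the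
  maximal ideals containing `p`; `exists_mem_add_pow_of_forall_maximal` is the same for a
  `C`-submodule of `K` in place of `C`.
* (F2ˣ) `exists_one_add_mul_of_forall_maximal` :
  `⋂_Q (1 + p R_Q)(1 + p^N 𝒪) = (1 + p C)(1 + p^N 𝒪)`.
* units: `InLoc.inv_one_add_mul`, `InGauss.inv_one_add_mul`, `one_add_mul_ne_zero`,
  `InLoc.exists_inv_one_add_mul`, `InGauss.exists_inv_one_add_pow_mul`.
* (IC) `mem_locSub_of_pow_mem`, `InLoc.of_pow`, `InGauss.of_pow` : if `C` is integrally closed in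
  `K`, then `x ^ m ∈ M⁻¹C` (`m > 0`) implies `x ∈ M⁻¹C`.
-/

set_option autoImplicit false

namespace Fermat.Agent.Lib.PrimeLocGlobal

section Conductor

variable {C V : Type*} [CommRing C] [AddCommGroup V] [Module C V]

/-- **Local–global principle for membership in a submodule** (conductor argument): if for every
maximal ideal `Q` some `s ∉ Q` carries `x` into `W`, then `x ∈ W`. -/
theorem mem_of_forall_maximal (W : Submodule C V) (x : V)
    (h : ∀ Q : Ideal C, Q.IsMaximal → ∃ s : C, s ∉ Q ∧ s • x ∈ W) : x ∈ W := by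
  let J : Ideal C :=
    { carrier := {s | s • x ∈ W}
      add_mem' := fun {a b} ha hb => by
        show (a + b) • x ∈ W
        rw [add_smul]; exact W.add_mem ha hb
      zero_mem' := by
        show (0 : C) • x ∈ W
        rw [zero_smul]; exact W.zero_mem
      smul_mem' := fun c a ha => by
        show (c • a) • x ∈ W
        rw [smul_eq_mul, mul_smul]; exact W.smul_mem c ha }
  by_contra hx
  have hJ : J ≠ ⊤ := by
    intro h1
    have h2 : (1 : C) ∈ J := by rw [h1]; exact Submodule.mem_top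
    have h3 : (1 : C) • x ∈ W := h2
    rw [one_smul] at h3
    exact hx h3
  obtain ⟨Q, hQ, hJQ⟩ := Ideal.exists_le_maximal J hJ
  obtain ⟨s, hs, hsx⟩ := h Q hQ
  exact hs (hJQ hsx)

/-- The same with the maximal ideals containing `p` only, when some power of `p` carries `x`
into `W`. -/
theorem mem_of_forall_maximal_of_pow (W : Submodule C V) (x : V) (p : C) (N : ℕ)
    (hpN : p ^ N • x ∈ W)
    (h : ∀ Q : Ideal C, Q.IsMaximal → p ∈ Q → ∃ s : C, s ∉ Q ∧ s • x ∈ W) : x ∈ W := by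
  refine mem_of_forall_maximal W x fun Q hQ => ?_
  by_cases hpQ : p ∈ Q
  · exact h Q hQ hpQ
  · exact ⟨p ^ N, fun hmem => hpQ (hQ.isPrime.mem_of_pow_mem N hmem), hpN⟩

end Conductor

variable {C K : Type*} [CommRing C] [Field K] [Algebra C K]

/-! ### Vocabulary -/

/-- `x ∈ R_Q`: the element `x` of `K` lies in the localisation of `C` at `Q`. -/
def InLoc (Q : Ideal C) (x : K) : Prop :=
  ∃ s : C, s ∉ Q ∧ ∃ c : C, algebraMap C K s * x = algebraMap C K c

/-- `x ∈ 𝒪`: the element `x` of `K` lies in the localisation of `C` at the prime `(p)`. -/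
def InGauss (p : C) (x : K) : Prop :=
  ∃ t : C, ¬ p ∣ t ∧ ∃ c : C, algebraMap C K t * x = algebraMap C K c

/-- `x ∈ R_Q + p 𝒪`. -/
def InLocAdd (p : C) (Q : Ideal C) (x : K) : Prop :=
  ∃ r y : K, InLoc Q r ∧ InGauss p y ∧ x = r + algebraMap C K p * y

/-- The localisation of `C` at the submonoid `M`, inside the field `K`: all `x` with
`s * x ∈ C` for some `s ∈ M`. -/
def locSub (M : Submonoid C) : Subalgebra C K where
  carrier := {x | ∃ s ∈ M, ∃ c : C, algebraMap C K s * x = algebraMap C K c}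
  mul_mem' := by
    rintro x y ⟨s, hs, c, hc⟩ ⟨s', hs', c', hc'⟩
    exact ⟨s * s', M.mul_mem hs hs', c * c', by rw [map_mul, map_mul, ← hc, ← hc']; ring⟩
  add_mem' := by
    rintro x y ⟨s, hs, c, hc⟩ ⟨s', hs', c', hc'⟩
    exact ⟨s * s', M.mul_mem hs hs', s' * c + s * c', by
      rw [map_mul, map_add, map_mul, map_mul, ← hc, ← hc']; ring⟩
  algebraMap_mem' := fun c => ⟨1, M.one_mem, c, by rw [map_one, one_mul]⟩

theorem mem_locSub {M : Submonoid C} {x : K} :
    x ∈ locSub (K := K) M ↔ ∃ s ∈ M, ∃ c : C, algebraMap C K s * x = algebraMap C K c :=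
  Iff.rfl

theorem locSub_mono {M M' : Submonoid C} (h : M ≤ M') : locSub (K := K) M ≤ locSub (K := K) M' :=
  fun _ ⟨s, hs, c, hc⟩ => ⟨s, h hs, c, hc⟩

/-- The elements not divisible by a prime element. -/
def notDvd {p : C} (hp : Prime p) : Submonoid C where
  carrier := {t | ¬ p ∣ t}
  mul_mem' := fun ha hb h => (hp.dvd_or_dvd h).elim ha hb
  one_mem' := hp.not_dvd_one

theorem mem_notDvd {p : C} (hp : Prime p) {t : C} : t ∈ notDvd hp ↔ ¬ p ∣ t := Iff.rfl

/-- `𝒪 = C_(p)`: the localisation of `C` at the prime ideal generated by the prime element `p`,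
as a `C`-subalgebra of `K`. -/
abbrev gauss {p : C} (hp : Prime p) : Subalgebra C K := locSub (notDvd hp)

/-- `R_Q`: the localisation of `C` at the prime ideal `Q`, as a `C`-subalgebra of `K`. -/
abbrev atPrime (Q : Ideal C) [Q.IsPrime] : Subalgebra C K := locSub Q.primeCompl

theorem mem_gauss {p : C} (hp : Prime p) {x : K} : x ∈ gauss (K := K) hp ↔ InGauss p x :=
  Iff.rfl

theorem mem_atPrime {Q : Ideal C} [Q.IsPrime] {x : K} : x ∈ atPrime (K := K) Q ↔ InLoc Q x :=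
  Iff.rfl

/-! ### Closure properties of the predicates -/

theorem inGauss_zero {p : C} (hp : Prime p) : InGauss p (0 : K) :=
  (mem_gauss hp).1 (zero_mem _)

theorem inGauss_one {p : C} (hp : Prime p) : InGauss p (1 : K) :=
  (mem_gauss hp).1 (one_mem _)

theorem inGauss_algebraMap {p : C} (hp : Prime p) (c : C) : InGauss p (algebraMap C K c) :=
  (mem_gauss hp).1 (Subalgebra.algebraMap_mem _ c)

theorem InGauss.add {p : C} (hp : Prime p) {x y : K} (hx : InGauss p x) (hy : InGauss p y) :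
    InGauss p (x + y) :=
  (mem_gauss hp).1 (add_mem ((mem_gauss hp).2 hx) ((mem_gauss hp).2 hy))

theorem InGauss.neg {p : C} (hp : Prime p) {x : K} (hx : InGauss p x) : InGauss p (-x) :=
  (mem_gauss hp).1 (neg_mem ((mem_gauss hp).2 hx))

theorem InGauss.sub {p : C} (hp : Prime p) {x y : K} (hx : InGauss p x) (hy : InGauss p y) :
    InGauss p (x - y) :=
  (mem_gauss hp).1 (sub_mem ((mem_gauss hp).2 hx) ((mem_gauss hp).2 hy))

theorem InGauss.mul {p : C} (hp : Prime p) {x y : K} (hx : InGauss p x) (hy : InGauss p y) :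
    InGauss p (x * y) :=
  (mem_gauss hp).1 (mul_mem ((mem_gauss hp).2 hx) ((mem_gauss hp).2 hy))

theorem InGauss.pow {p : C} (hp : Prime p) {x : K} (hx : InGauss p x) (n : ℕ) :
    InGauss p (x ^ n) :=
  (mem_gauss hp).1 (pow_mem ((mem_gauss hp).2 hx) n)

theorem inLoc_zero (Q : Ideal C) [Q.IsPrime] : InLoc Q (0 : K) :=
  mem_atPrime.1 (zero_mem _)

theorem inLoc_one (Q : Ideal C) [Q.IsPrime] : InLoc Q (1 : K) :=
  mem_atPrime.1 (one_mem _)

theorem inLoc_of_algebraMap (Q : Ideal C) [Q.IsPrime] (c : C) : InLoc Q (algebraMap C K c) :=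
  mem_atPrime.1 (Subalgebra.algebraMap_mem _ c)

theorem InLoc.add {Q : Ideal C} [Q.IsPrime] {x y : K} (hx : InLoc Q x) (hy : InLoc Q y) :
    InLoc Q (x + y) :=
  mem_atPrime.1 (add_mem (mem_atPrime.2 hx) (mem_atPrime.2 hy))

theorem InLoc.neg {Q : Ideal C} [Q.IsPrime] {x : K} (hx : InLoc Q x) : InLoc Q (-x) :=
  mem_atPrime.1 (neg_mem (mem_atPrime.2 hx))

theorem InLoc.sub {Q : Ideal C} [Q.IsPrime] {x y : K} (hx : InLoc Q x) (hy : InLoc Q y) :
    InLoc Q (x - y) :=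
  mem_atPrime.1 (sub_mem (mem_atPrime.2 hx) (mem_atPrime.2 hy))

theorem InLoc.mul {Q : Ideal C} [Q.IsPrime] {x y : K} (hx : InLoc Q x) (hy : InLoc Q y) :
    InLoc Q (x * y) :=
  mem_atPrime.1 (mul_mem (mem_atPrime.2 hx) (mem_atPrime.2 hy))

theorem InLoc.pow {Q : Ideal C} [Q.IsPrime] {x : K} (hx : InLoc Q x) (n : ℕ) :
    InLoc Q (x ^ n) :=
  mem_atPrime.1 (pow_mem (mem_atPrime.2 hx) n)

/-- `R_Q ⊆ 𝒪` for `p ∈ Q`. -/
theorem InLoc.inGauss {p : C} {Q : Ideal C} (hpQ : p ∈ Q) {x : K} (hx : InLoc Q x) :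
    InGauss p x := by
  obtain ⟨s, hs, c, hc⟩ := hx
  exact ⟨s, fun hps => hs (Ideal.mem_of_dvd Q hps hpQ), c, hc⟩

/-- `R_Q ⊆ R_Q + p 𝒪`. -/
theorem InLoc.inLocAdd {p : C} (hp : Prime p) {Q : Ideal C} {x : K} (hx : InLoc Q x) :
    InLocAdd p Q x :=
  ⟨x, 0, hx, inGauss_zero hp, by rw [mul_zero, add_zero]⟩

/-- `p 𝒪 ⊆ R_Q + p 𝒪`. -/
theorem InGauss.mul_inLocAdd {p : C} (Q : Ideal C) [Q.IsPrime] {y : K} (hy : InGauss p y) :
    InLocAdd p Q (algebraMap C K p * y) :=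
  ⟨0, y, inLoc_zero Q, hy, by rw [zero_add]⟩

/-- `R_Q + p 𝒪 ⊆ 𝒪` for `p ∈ Q`. -/
theorem InLocAdd.inGauss {p : C} (hp : Prime p) {Q : Ideal C} (hpQ : p ∈ Q) {x : K}
    (hx : InLocAdd p Q x) : InGauss p x := by
  obtain ⟨r, y, hr, hy, rfl⟩ := hx
  exact (hr.inGauss hpQ).add hp ((inGauss_algebraMap hp p).mul hp hy)

theorem InLocAdd.add {p : C} (hp : Prime p) {Q : Ideal C} [Q.IsPrime] {x y : K}
    (hx : InLocAdd p Q x) (hy : InLocAdd p Q y) : InLocAdd p Q (x + y) := by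
  obtain ⟨r, z, hr, hz, rfl⟩ := hx
  obtain ⟨r', z', hr', hz', rfl⟩ := hy
  exact ⟨r + r', z + z', hr.add hr', hz.add hp hz', by ring⟩

theorem InLocAdd.neg {p : C} (hp : Prime p) {Q : Ideal C} [Q.IsPrime] {x : K}
    (hx : InLocAdd p Q x) : InLocAdd p Q (-x) := by
  obtain ⟨r, z, hr, hz, rfl⟩ := hx
  exact ⟨-r, -z, hr.neg, hz.neg hp, by ring⟩

theorem InLocAdd.sub {p : C} (hp : Prime p) {Q : Ideal C} [Q.IsPrime] {x y : K}
    (hx : InLocAdd p Q x) (hy : InLocAdd p Q y) : InLocAdd p Q (x - y) := by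
  obtain ⟨r, z, hr, hz, rfl⟩ := hx
  obtain ⟨r', z', hr', hz', rfl⟩ := hy
  exact ⟨r - r', z - z', hr.sub hr', hz.sub hp hz', by ring⟩

/-- `R_Q ⊆ 𝒪` for `p ∈ Q`, subalgebra form. -/
theorem atPrime_le_gauss {p : C} (hp : Prime p) (Q : Ideal C) [Q.IsPrime] (hpQ : p ∈ Q) :
    atPrime (K := K) Q ≤ gauss (K := K) hp :=
  fun _ hx => (mem_gauss hp).2 ((mem_atPrime.1 hx).inGauss hpQ)

/-- There is a maximal ideal containing the prime element `p`. -/
theorem exists_maximal_mem {p : C} (hp : Prime p) : ∃ Q : Ideal C, Q.IsMaximal ∧ p ∈ Q := by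
  obtain ⟨Q, hQ, hpQ⟩ := Ideal.exists_le_maximal (Ideal.span {p})
    (fun htop => hp.not_isUnit (Ideal.span_singleton_eq_top.mp htop))
  exact ⟨Q, hQ, hpQ (Ideal.mem_span_singleton_self p)⟩

/-! ### (F1) saturation -/

/-- The computation behind (F1): a denominator `s` of `p^n * y` is a denominator of `y`, for
`y ∈ 𝒪`. -/
theorem exists_mul_eq_of_pow_mul (hinj : Function.Injective (algebraMap C K)) {p : C}
    (hp : Prime p) (n : ℕ) {y : K} (hy : InGauss p y) {s a : C}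
    (ha : algebraMap C K s * (algebraMap C K p ^ n * y) = algebraMap C K a) :
    ∃ a' : C, algebraMap C K s * y = algebraMap C K a' := by
  have : IsDomain C := hinj.isDomain _
  obtain ⟨t, ht, b, hb⟩ := hy
  have h1 : a * t = p ^ n * (s * b) := by
    apply hinj
    simp only [map_mul, map_pow]
    rw [← ha, ← hb]; ring
  obtain ⟨a', rfl⟩ : p ^ n ∣ a := hp.pow_dvd_of_dvd_mul_right n ht ⟨s * b, h1⟩
  refine ⟨a', ?_⟩
  have hpK : algebraMap C K p ^ n ≠ 0 :=
    pow_ne_zero _ fun h => hp.ne_zero (hinj (by rw [h, map_zero]))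
  apply mul_left_cancel₀ hpK
  rw [map_mul, map_pow] at ha
  rw [← ha]; ring

/-- **(F1)** `R_Q ∩ p^n 𝒪 = p^n R_Q` (`Q` any ideal). -/
theorem InLoc.of_pow_mul (hinj : Function.Injective (algebraMap C K)) {p : C} (hp : Prime p)
    {Q : Ideal C} (n : ℕ) {y : K} (hy : InGauss p y)
    (hx : InLoc Q (algebraMap C K p ^ n * y)) : InLoc Q y := by
  obtain ⟨s, hs, a, ha⟩ := hx
  obtain ⟨a', ha'⟩ := exists_mul_eq_of_pow_mul hinj hp n hy ha
  exact ⟨s, hs, a', ha'⟩

/-- (F1) for an arbitrary localisation: `M⁻¹C ∩ p^n 𝒪 = p^n M⁻¹C`. -/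
theorem mem_locSub_of_pow_mul_mem (hinj : Function.Injective (algebraMap C K)) {p : C}
    (hp : Prime p) (M : Submonoid C) (n : ℕ) {y : K} (hy : InGauss p y)
    (hx : algebraMap C K p ^ n * y ∈ locSub (K := K) M) : y ∈ locSub (K := K) M := by
  obtain ⟨s, hs, a, ha⟩ := hx
  obtain ⟨a', ha'⟩ := exists_mul_eq_of_pow_mul hinj hp n hy ha
  exact ⟨s, hs, a', ha'⟩

/-- (F1) for `C` itself: `C ∩ p^n 𝒪 = p^n C`; read with `y = a / p^n` it is also
`C[1/p] ∩ 𝒪 = C`. -/
theorem exists_eq_of_pow_mul_eq (hinj : Function.Injective (algebraMap C K)) {p : C}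
    (hp : Prime p) (n : ℕ) {y : K} (hy : InGauss p y) (a : C)
    (hx : algebraMap C K p ^ n * y = algebraMap C K a) : ∃ c : C, y = algebraMap C K c := by
  obtain ⟨a', ha'⟩ := exists_mul_eq_of_pow_mul hinj hp n hy (s := 1) (a := a)
    (by rw [map_one, one_mul, hx])
  exact ⟨a', by rw [← ha', map_one, one_mul]⟩

/-- (F1) for `R_Q`, subalgebra form. -/
theorem mem_atPrime_of_pow_mul_mem (hinj : Function.Injective (algebraMap C K)) {p : C}
    (hp : Prime p) (Q : Ideal C) [Q.IsPrime] (n : ℕ) {y : K} (hy : y ∈ gauss (K := K) hp)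
    (hx : algebraMap C K p ^ n * y ∈ atPrime (K := K) Q) : y ∈ atPrime (K := K) Q :=
  mem_locSub_of_pow_mul_mem hinj hp _ n hy hx

/-- (F1) for `C[1/p]`: `C[1/p] ∩ 𝒪 = C`. -/
theorem exists_eq_of_mem_powers (hinj : Function.Injective (algebraMap C K)) {p : C}
    (hp : Prime p) {y : K} (hy : InGauss p y)
    (hx : y ∈ locSub (K := K) (Submonoid.powers p)) : ∃ c : C, y = algebraMap C K c := by
  obtain ⟨_, ⟨n, rfl⟩, a, ha⟩ := hx
  exact exists_eq_of_pow_mul_eq hinj hp n hy a (by rw [← ha, map_pow])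

/-! ### (IC) integral closedness passes to the localisations, power form -/

/-- The computation behind (IC): if `C` is integrally closed in `K`, a denominator `s` of `x ^ m`
(`m > 0`) is a denominator of `x`. -/
theorem exists_mul_eq_of_pow (hic : ∀ x : K, IsIntegral C x → ∃ c : C, algebraMap C K c = x)
    {x : K} {m : ℕ} (hm : 0 < m) {s c : C}
    (hc : algebraMap C K s * x ^ m = algebraMap C K c) :
    ∃ c' : C, algebraMap C K s * x = algebraMap C K c' := by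
  obtain ⟨k, rfl⟩ : ∃ k, m = k + 1 := ⟨m - 1, by omega⟩
  have e : (algebraMap C K s * x) ^ (k + 1) = algebraMap C K (s ^ k * c) := by
    rw [map_mul, map_pow, ← hc]; ring
  have hint : IsIntegral C (algebraMap C K s * x) := by
    refine IsIntegral.of_pow hm ?_
    rw [e]
    exact isIntegral_algebraMap
  obtain ⟨c', hc'⟩ := hic _ hint
  exact ⟨c', hc'.symm⟩

/-- **(IC)** if `C` is integrally closed in `K`, then `x ^ m ∈ M⁻¹C` (`m > 0`) implies
`x ∈ M⁻¹C`. -/
theorem mem_locSub_of_pow_mem (hic : ∀ x : K, IsIntegral C x → ∃ c : C, algebraMap C K c = x)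
    (M : Submonoid C) {x : K} {m : ℕ} (hm : 0 < m) (h : x ^ m ∈ locSub (K := K) M) :
    x ∈ locSub (K := K) M := by
  obtain ⟨s, hs, c, hc⟩ := h
  obtain ⟨c', hc'⟩ := exists_mul_eq_of_pow hic hm hc
  exact ⟨s, hs, c', hc'⟩

/-- (IC) for `R_Q` (`Q` any ideal). -/
theorem InLoc.of_pow (hic : ∀ x : K, IsIntegral C x → ∃ c : C, algebraMap C K c = x)
    {Q : Ideal C} {x : K} {m : ℕ} (hm : 0 < m) (h : InLoc Q (x ^ m)) : InLoc Q x := by
  obtain ⟨s, hs, c, hc⟩ := h
  obtain ⟨c', hc'⟩ := exists_mul_eq_of_pow hic hm hc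
  exact ⟨s, hs, c', hc'⟩

/-- (IC) for `𝒪`. -/
theorem InGauss.of_pow (hic : ∀ x : K, IsIntegral C x → ∃ c : C, algebraMap C K c = x)
    {p : C} {x : K} {m : ℕ} (hm : 0 < m) (h : InGauss p (x ^ m)) : InGauss p x := by
  obtain ⟨s, hs, c, hc⟩ := h
  obtain ⟨c', hc'⟩ := exists_mul_eq_of_pow hic hm hc
  exact ⟨s, hs, c', hc'⟩

/-! ### (F2) local–global -/

/-- **(F2) for submodules**: let `B` be a `C`-submodule of `K` and `x ∈ 𝒪`.  If for every
maximal ideal `Q ∋ p` some `s ∉ Q` carries `x` into `B + p^N 𝒪`, then `x ∈ B + p^N 𝒪`. -/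
theorem exists_mem_add_pow_of_forall_maximal {p : C} (hp : Prime p) (B : Submodule C K) (N : ℕ)
    (x : K) (hx : InGauss p x)
    (h : ∀ Q : Ideal C, Q.IsMaximal → p ∈ Q → ∃ s : C, s ∉ Q ∧ ∃ b ∈ B, ∃ y : K,
      InGauss p y ∧ algebraMap C K s * x = b + algebraMap C K p ^ N * y) :
    ∃ b ∈ B, ∃ y : K, InGauss p y ∧ x = b + algebraMap C K p ^ N * y := by
  let W : Submodule C K :=
    { carrier := {x | ∃ b ∈ B, ∃ y : K, InGauss p y ∧ x = b + algebraMap C K p ^ N * y}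
      add_mem' := by
        rintro _ _ ⟨b, hb, y, hy, rfl⟩ ⟨b', hb', y', hy', rfl⟩
        exact ⟨b + b', B.add_mem hb hb', y + y', hy.add hp hy', by ring⟩
      zero_mem' := ⟨0, B.zero_mem, 0, inGauss_zero hp, by simp⟩
      smul_mem' := by
        rintro a _ ⟨b, hb, y, hy, rfl⟩
        exact ⟨a • b, B.smul_mem a hb, algebraMap C K a * y,
          (inGauss_algebraMap hp a).mul hp hy, by
            rw [Algebra.smul_def, Algebra.smul_def]; ring⟩ }
  have hmem : x ∈ W := by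
    refine mem_of_forall_maximal_of_pow W x p N ?_ ?_
    · exact ⟨0, B.zero_mem, x, hx, by rw [Algebra.smul_def, map_pow, zero_add]⟩
    · intro Q hQ hpQ
      obtain ⟨s, hs, b, hb, y, hy, e⟩ := h Q hQ hpQ
      exact ⟨s, hs, b, hb, y, hy, by rw [Algebra.smul_def, e]⟩
  exact hmem

/-- **(F2)** `⋂_Q (R_Q + p^N 𝒪) = C + p^N 𝒪`, the intersection over the maximal ideals
`Q ∋ p`. -/
theorem exists_add_pow_of_forall_maximal {p : C} (hp : Prime p) (N : ℕ) (x : K)
    (h : ∀ Q : Ideal C, Q.IsMaximal → p ∈ Q → ∃ r y : K, InLoc Q r ∧ InGauss p y ∧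
      x = r + algebraMap C K p ^ N * y) :
    ∃ c : C, ∃ y : K, InGauss p y ∧ x = algebraMap C K c + algebraMap C K p ^ N * y := by
  have hx : InGauss p x := by
    obtain ⟨Q, hQ, hpQ⟩ := exists_maximal_mem hp
    obtain ⟨r, y, hr, hy, rfl⟩ := h Q hQ hpQ
    exact (hr.inGauss hpQ).add hp (((inGauss_algebraMap hp p).pow hp N).mul hp hy)
  obtain ⟨b, ⟨c, rfl⟩, y, hy, e⟩ := exists_mem_add_pow_of_forall_maximal hp
    (LinearMap.range (Algebra.linearMap C K)) N x hx (by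
      intro Q hQ hpQ
      obtain ⟨r, y, ⟨s, hs, c, hc⟩, hy, rfl⟩ := h Q hQ hpQ
      refine ⟨s, hs, algebraMap C K c, ⟨c, rfl⟩, algebraMap C K s * y,
        (inGauss_algebraMap hp s).mul hp hy, ?_⟩
      rw [mul_add, hc]; ring)
  exact ⟨c, y, hy, e⟩

/-- (F2) at level one, in the `InLocAdd` vocabulary: `⋂_Q (R_Q + p 𝒪) = C + p 𝒪`. -/
theorem exists_add_mul_of_forall_inLocAdd {p : C} (hp : Prime p) (x : K)
    (h : ∀ Q : Ideal C, Q.IsMaximal → p ∈ Q → InLocAdd p Q x) :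
    ∃ c : C, ∃ y : K, InGauss p y ∧ x = algebraMap C K c + algebraMap C K p * y := by
  obtain ⟨c, y, hy, e⟩ := exists_add_pow_of_forall_maximal hp 1 x (fun Q hQ hpQ => by
    obtain ⟨r, y, hr, hy, e⟩ := h Q hQ hpQ
    exact ⟨r, y, hr, hy, by rw [pow_one]; exact e⟩)
  exact ⟨c, y, hy, by rw [e, pow_one]⟩

/-! ### Units `1 + p r` -/

/-- `1 + p R_Q ⊆ R_Qˣ` for `p ∈ Q`. -/
theorem InLoc.inv_one_add_mul {p : C} {Q : Ideal C} (hpQ : p ∈ Q) {r : K} (hr : InLoc Q r) :
    InLoc Q (1 + algebraMap C K p * r)⁻¹ := by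
  obtain ⟨s, hs, c, hc⟩ := hr
  by_cases h0 : (1 + algebraMap C K p * r : K) = 0
  · rw [h0, inv_zero]
    exact ⟨s, hs, 0, by rw [mul_zero, map_zero]⟩
  · refine ⟨s + p * c, fun hmem => ?_, s, ?_⟩
    · have h := Q.sub_mem hmem (Q.mul_mem_right c hpQ)
      rw [add_sub_cancel_right] at h
      exact hs h
    · have e : algebraMap C K (s + p * c) = algebraMap C K s * (1 + algebraMap C K p * r) := by
        rw [map_add, map_mul, ← hc]; ring
      rw [e, mul_assoc, mul_inv_cancel₀ h0, mul_one]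

/-- `1 + p 𝒪 ⊆ 𝒪ˣ`. -/
theorem InGauss.inv_one_add_mul {p : C} {y : K} (hy : InGauss p y) :
    InGauss p (1 + algebraMap C K p * y)⁻¹ := by
  obtain ⟨s, hs, c, hc⟩ := hy
  by_cases h0 : (1 + algebraMap C K p * y : K) = 0
  · rw [h0, inv_zero]
    exact ⟨s, hs, 0, by rw [mul_zero, map_zero]⟩
  · refine ⟨s + p * c, fun hdvd => hs ((dvd_add_left (dvd_mul_right p c)).mp hdvd), s, ?_⟩
    have e : algebraMap C K (s + p * c) = algebraMap C K s * (1 + algebraMap C K p * y) := by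
      rw [map_add, map_mul, ← hc]; ring
    rw [e, mul_assoc, mul_inv_cancel₀ h0, mul_one]

/-- `1 + p y ≠ 0` for `y ∈ 𝒪`. -/
theorem one_add_mul_ne_zero (hinj : Function.Injective (algebraMap C K)) {p : C} {y : K}
    (hy : InGauss p y) : 1 + algebraMap C K p * y ≠ 0 := by
  obtain ⟨t, ht, c, hc⟩ := hy
  intro h0
  apply ht
  refine ⟨-c, hinj ?_⟩
  have h1 : algebraMap C K p * y = -1 := by linear_combination h0
  rw [map_mul, map_neg, ← hc]
  linear_combination (algebraMap C K t) * h1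

/-- `1 + p R_Q` is stable under inverses (`p ∈ Q`). -/
theorem InLoc.exists_inv_one_add_mul (hinj : Function.Injective (algebraMap C K)) {p : C}
    {Q : Ideal C} [Q.IsPrime] (hpQ : p ∈ Q) {r : K} (hr : InLoc Q r) :
    ∃ r' : K, InLoc Q r' ∧ (1 + algebraMap C K p * r)⁻¹ = 1 + algebraMap C K p * r' := by
  have hne := one_add_mul_ne_zero hinj (hr.inGauss hpQ)
  refine ⟨-(r * (1 + algebraMap C K p * r)⁻¹), (hr.mul (hr.inv_one_add_mul hpQ)).neg, ?_⟩
  field_simp
  ring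

/-- `1 + p^N 𝒪` is stable under inverses (`N ≥ 1`). -/
theorem InGauss.exists_inv_one_add_pow_mul (hinj : Function.Injective (algebraMap C K)) {p : C}
    (hp : Prime p) (N : ℕ) (hN : 1 ≤ N) {y : K} (hy : InGauss p y) :
    ∃ y' : K, InGauss p y' ∧
      (1 + algebraMap C K p ^ N * y)⁻¹ = 1 + algebraMap C K p ^ N * y' := by
  obtain ⟨k, rfl⟩ : ∃ k, N = k + 1 := ⟨N - 1, by omega⟩
  have hy' : InGauss p (algebraMap C K p ^ k * y) :=
    ((inGauss_algebraMap hp p).pow hp k).mul hp hy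
  have e : (1 + algebraMap C K p ^ (k + 1) * y : K) =
      1 + algebraMap C K p * (algebraMap C K p ^ k * y) := by ring
  have hne := one_add_mul_ne_zero hinj hy'
  have hinv := hy'.inv_one_add_mul
  rw [← e] at hne hinv
  refine ⟨-(y * (1 + algebraMap C K p ^ (k + 1) * y)⁻¹), (hy.mul hp hinv).neg hp, ?_⟩
  field_simp
  ring

/-- `1 + p R_Q ⊆ R_Qˣ` for `p ∈ Q`, subalgebra form. -/
theorem inv_one_add_mul_mem_atPrime {p : C} {Q : Ideal C} [Q.IsPrime] (hpQ : p ∈ Q) {r : K}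
    (hr : r ∈ atPrime (K := K) Q) : (1 + algebraMap C K p * r)⁻¹ ∈ atPrime (K := K) Q :=
  mem_atPrime.2 ((mem_atPrime.1 hr).inv_one_add_mul hpQ)

/-- `1 + p 𝒪 ⊆ 𝒪ˣ`, subalgebra form. -/
theorem inv_one_add_mul_mem_gauss {p : C} (hp : Prime p) {y : K} (hy : y ∈ gauss (K := K) hp) :
    (1 + algebraMap C K p * y)⁻¹ ∈ gauss (K := K) hp :=
  (mem_gauss hp).2 ((mem_gauss hp).1 hy).inv_one_add_mul

/-! ### (F2ˣ) multiplicative local–global -/

/-- **(F2ˣ)** `⋂_Q (1 + p R_Q)(1 + p^N 𝒪) = (1 + p C)(1 + p^N 𝒪)` for `N ≥ 1`, the intersection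
over the maximal ideals `Q ∋ p`. -/
theorem exists_one_add_mul_of_forall_maximal (hinj : Function.Injective (algebraMap C K)) {p : C}
    (hp : Prime p) (N : ℕ) (hN : 1 ≤ N) (g : K)
    (h : ∀ Q : Ideal C, Q.IsMaximal → p ∈ Q → ∃ r y : K, InLoc Q r ∧ InGauss p y ∧
      g = (1 + algebraMap C K p * r) * (1 + algebraMap C K p ^ N * y)) :
    ∃ c : C, ∃ y : K, InGauss p y ∧
      g = (1 + algebraMap C K p * algebraMap C K c) * (1 + algebraMap C K p ^ N * y) := by
  have hpO : InGauss p (algebraMap C K p) := inGauss_algebraMap hp p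
  obtain ⟨k, rfl⟩ : ∃ k, N = k + 1 := ⟨N - 1, by omega⟩
  -- additive form
  obtain ⟨c0, y0, hy0, e0⟩ := exists_add_pow_of_forall_maximal hp (k + 1) g (by
    intro Q hQ hpQ
    have : Q.IsPrime := hQ.isPrime
    obtain ⟨r, y, hr, hy, e⟩ := h Q hQ hpQ
    refine ⟨1 + algebraMap C K p * r, (1 + algebraMap C K p * r) * y,
      (inLoc_one Q).add ((inLoc_of_algebraMap Q p).mul hr),
      ((inGauss_one hp).add hp (hpO.mul hp (hr.inGauss hpQ))).mul hp hy, ?_⟩
    rw [e]; ring)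
  -- `g ≡ 1 mod p 𝒪`
  obtain ⟨z, hz, ez⟩ : ∃ z : K, InGauss p z ∧ g = 1 + algebraMap C K p * z := by
    obtain ⟨Q, hQ, hpQ⟩ := exists_maximal_mem hp
    obtain ⟨r, y, hr, hy, e⟩ := h Q hQ hpQ
    have hr' : InGauss p r := hr.inGauss hpQ
    refine ⟨r + algebraMap C K p ^ k * y + algebraMap C K p ^ (k + 1) * (r * y),
      (hr'.add hp ((hpO.pow hp k).mul hp hy)).add hp ((hpO.pow hp (k + 1)).mul hp (hr'.mul hp hy)),
      ?_⟩
    rw [e]; ring
  -- `c0 ≡ 1 mod p C`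
  have hc0g : algebraMap C K c0 = g - algebraMap C K p ^ (k + 1) * y0 := by rw [e0]; ring
  obtain ⟨c, hc⟩ := exists_eq_of_pow_mul_eq hinj hp 1
    (y := z - algebraMap C K p ^ k * y0) (hz.sub hp ((hpO.pow hp k).mul hp hy0)) (c0 - 1) (by
      rw [map_sub, map_one, hc0g, ez]; ring)
  have hc0 : algebraMap C K c0 = 1 + algebraMap C K p * algebraMap C K c := by
    rw [hc0g, ez, ← hc]; ring
  have hcO : InGauss p (algebraMap C K c) := inGauss_algebraMap hp c
  have hne : (1 + algebraMap C K p * algebraMap C K c : K) ≠ 0 := one_add_mul_ne_zero hinj hcO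
  refine ⟨c, (1 + algebraMap C K p * algebraMap C K c)⁻¹ * y0, hcO.inv_one_add_mul.mul hp hy0, ?_⟩
  rw [e0, hc0]
  field_simp

end Fermat.Agent.Lib.PrimeLocGlobal
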