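import Mathlib
import Fermat.Agent.Lib.PrimeLocGlobal

/-!
# The Gauss ring of a prime element is a valuation ring; reductions of the local rings are normal

Program FG (S19), Route C, brick `CH`, literals (X2).  `C` is a commutative ring inside a field
`K`, `p : C` a prime element; vocabulary `InLoc`, `InGauss`, `InLocAdd` of `Lib/PrimeLocGlobal`.

* `InLocAdd.of_pow` : if `C ⧸ (p)` is a Dedekind domain (an integrally closed domain suffices:
  `inLocAdd_of_pow`), `y ∈ 𝒪` and `y ^ n ∈ R_Q + p 𝒪` (`n > 0`), then `y ∈ R_Q + p 𝒪`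
  (the reduction of `R_Q` is integrally closed for pure equations);
* `not_inGauss_inv` : `p⁻¹ ∉ 𝒪`;
* `exists_eq_mul_of_not_inv` : a non-unit of `𝒪` is divisible by `p`;
* `inGauss_or_inv` : `𝒪` is a valuation ring of `K`, if `K` is the fraction field of `C` and
  `C` is a `WfDvdMonoid` (e.g. Noetherian); `inGauss_or_inv_of_pow` : the same if no nonzero
  element of `C` is divisible by all powers of `p`.
-/

set_option autoImplicit false

namespace Fermat.Agent.Lib.PrimeLocRed

open Fermat.Agent.Lib.PrimeLocGlobal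

variable {C K : Type*} [CommRing C] [Field K] [Algebra C K]

/-! ### The reduction of `R_Q` is integrally closed -/

/-- The local step: if `s * a = d * t + p * z` with `s ∉ Q`, `p ∈ Q`, `p ∤ t`, then
`y = a / t = d / s + p * (z / (s * t)) ∈ R_Q + p 𝒪`. -/
theorem inLocAdd_of_mul_eq (hinj : Function.Injective (algebraMap C K)) {p : C} (hp : Prime p)
    {Q : Ideal C} (hpQ : p ∈ Q) {t : C} (hpt : ¬ p ∣ t) {s a d z : C} (hs : s ∉ Q)
    (h : s * a = d * t + p * z) {y : K} (hy : algebraMap C K t * y = algebraMap C K a) :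
    InLocAdd p Q y := by
  have hs0 : algebraMap C K s ≠ 0 := by
    intro h0
    have : s = 0 := hinj (by rw [h0, map_zero])
    exact hs (this ▸ Q.zero_mem)
  have ht0 : algebraMap C K t ≠ 0 := by
    intro h0
    have : t = 0 := hinj (by rw [h0, map_zero])
    exact hpt (this ▸ dvd_zero p)
  have hps : ¬ p ∣ s := fun hd => hs (Ideal.mem_of_dvd Q hd hpQ)
  have hK : algebraMap C K s * algebraMap C K a =
      algebraMap C K d * algebraMap C K t + algebraMap C K p * algebraMap C K z := by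
    rw [← map_mul, ← map_mul, ← map_mul, ← map_add, h]
  refine ⟨algebraMap C K d / algebraMap C K s,
    algebraMap C K z / (algebraMap C K s * algebraMap C K t), ⟨s, hs, d, by field_simp⟩,
    ⟨s * t, fun hd => (hp.dvd_or_dvd hd).elim hps hpt, z, by rw [map_mul]; field_simp⟩, ?_⟩
  have hy' : y = algebraMap C K a / algebraMap C K t := by
    rw [← hy]; field_simp
  rw [hy']
  field_simp
  linear_combination hK

/-- `red_root`, general form: if `C ⧸ (p)` is an integrally closed domain, `y ∈ 𝒪` and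
`y ^ n ∈ R_Q + p 𝒪` with `n > 0`, then `y ∈ R_Q + p 𝒪`. -/
theorem inLocAdd_of_pow (hinj : Function.Injective (algebraMap C K)) {p : C} (hp : Prime p)
    [IsDomain (C ⧸ Ideal.span {p})] [IsIntegrallyClosed (C ⧸ Ideal.span {p})]
    {Q : Ideal C} (hpQ : p ∈ Q) {n : ℕ} (hn : 0 < n) {y : K} (hy : InGauss p y)
    (h : InLocAdd p Q (y ^ n)) : InLocAdd p Q y := by
  obtain ⟨t, ht, a, ha⟩ := hy
  obtain ⟨r, h', ⟨s, hs, c, hc⟩, ⟨t', ht', e, he⟩, hyn⟩ := h
  -- `s * a ^ n ≡ t ^ n * c` modulo `p`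
  have h1 : t' * (s * a ^ n - t ^ n * c) = p * (s * t ^ n * e) := by
    apply hinj
    simp only [map_mul, map_sub, map_pow]
    rw [← ha, ← hc, ← he, mul_pow, hyn]
    ring
  have h2 : p ∣ s * a ^ n - t ^ n * c :=
    (hp.dvd_or_dvd ⟨_, h1⟩).resolve_left ht'
  -- in the quotient
  let mk : C →+* C ⧸ Ideal.span {p} := Ideal.Quotient.mk (Ideal.span {p})
  have hmk0 : ∀ x : C, mk x = 0 ↔ p ∣ x := fun x => by
    rw [Ideal.Quotient.eq_zero_iff_mem, Ideal.mem_span_singleton]
  have h3 : mk s * mk a ^ n = mk t ^ n * mk c := by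
    have := (hmk0 _).2 h2
    rw [map_sub, map_mul, map_mul, map_pow, map_pow, sub_eq_zero] at this
    exact this
  obtain ⟨k, rfl⟩ : ∃ k, n = k + 1 := ⟨n - 1, by omega⟩
  have h4 : mk t ^ (k + 1) ∣ (mk s * mk a) ^ (k + 1) :=
    ⟨mk s ^ k * mk c, by rw [mul_pow, pow_succ (mk s) k]; linear_combination (mk s ^ k) * h3⟩
  obtain ⟨dbar, hd⟩ := (IsIntegrallyClosed.pow_dvd_pow_iff (Nat.succ_ne_zero k)).1 h4
  obtain ⟨d, rfl⟩ := Ideal.Quotient.mk_surjective dbar
  have h5 : p ∣ s * a - d * t := by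
    rw [← hmk0, map_sub, map_mul, map_mul, hd]
    ring
  obtain ⟨z, hz⟩ := h5
  exact inLocAdd_of_mul_eq hinj hp hpQ ht hs (d := d) (z := z) (by rw [← hz]; ring) ha

/-- **`red_root`**: if `C ⧸ (p)` is a Dedekind domain, `y ∈ 𝒪` and `y ^ n ∈ R_Q + p 𝒪` with
`n > 0`, then `y ∈ R_Q + p 𝒪`. -/
theorem InLocAdd.of_pow (hinj : Function.Injective (algebraMap C K)) {p : C} (hp : Prime p)
    [IsDedekindDomain (C ⧸ Ideal.span {p})] {Q : Ideal C} (hpQ : p ∈ Q) {n : ℕ} (hn : 0 < n)
    {y : K} (hy : InGauss p y) (h : InLocAdd p Q (y ^ n)) : InLocAdd p Q y :=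
  inLocAdd_of_pow hinj hp hpQ hn hy h

/-! ### `𝒪` is a valuation ring with maximal ideal `(p)` -/

/-- `p⁻¹ ∉ 𝒪`. -/
theorem not_inGauss_inv (hinj : Function.Injective (algebraMap C K)) {p : C} (hp : Prime p) :
    ¬ InGauss p (algebraMap C K p)⁻¹ := by
  have hpK : algebraMap C K p ≠ 0 := fun h0 => hp.ne_zero (hinj (by rw [h0, map_zero]))
  rintro ⟨t, ht, c, hc⟩
  apply ht
  refine ⟨c, hinj ?_⟩
  rw [map_mul, ← hc]
  field_simp

/-- A non-unit of `𝒪` is divisible by `p`. -/
theorem exists_eq_mul_of_not_inv (hinj : Function.Injective (algebraMap C K)) {p : C}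
    (hp : Prime p) {x : K} (hx : InGauss p x) (hinv : ¬ InGauss p x⁻¹) :
    ∃ h : K, InGauss p h ∧ x = algebraMap C K p * h := by
  have hpK : algebraMap C K p ≠ 0 := fun h0 => hp.ne_zero (hinj (by rw [h0, map_zero]))
  obtain ⟨t, ht, c, hc⟩ := hx
  have hx0 : x ≠ 0 := by
    rintro rfl
    apply hinv
    rw [inv_zero]
    exact inGauss_zero hp
  have hpc : p ∣ c := by
    by_contra hpc
    apply hinv
    refine ⟨c, hpc, t, ?_⟩
    rw [← hc]
    field_simp
  obtain ⟨c', rfl⟩ := hpc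
  refine ⟨x / algebraMap C K p, ⟨t, ht, c', ?_⟩, by field_simp⟩
  rw [map_mul] at hc
  field_simp
  linear_combination hc

/-- `𝒪` is a valuation ring of `K`, from a factorisation `a = p ^ m * a'`, `p ∤ a'` of the
nonzero elements of `C`. -/
theorem inGauss_or_inv_of_factor (hinj : Function.Injective (algebraMap C K)) {p : C}
    (hp : Prime p)
    (hfac : ∀ a : C, a ≠ 0 → ∃ (m : ℕ) (a' : C), ¬ p ∣ a' ∧ a = p ^ m * a')
    (hfrac : ∀ x : K, ∃ a b : C, b ≠ 0 ∧ algebraMap C K b * x = algebraMap C K a) (x : K) :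
    InGauss p x ∨ InGauss p x⁻¹ := by
  have hne : ∀ c : C, c ≠ 0 → algebraMap C K c ≠ 0 := fun c hc h0 =>
    hc (hinj (by rw [h0, map_zero]))
  have hpK : algebraMap C K p ≠ 0 := hne p hp.ne_zero
  obtain ⟨a, b, hb, hab⟩ := hfrac x
  by_cases ha : a = 0
  · left
    have hx : x = 0 := by
      rw [ha, map_zero] at hab
      exact (mul_eq_zero.mp hab).resolve_left (hne b hb)
    rw [hx]
    exact inGauss_zero hp
  · obtain ⟨m, a', ha', rfl⟩ := hfac a ha
    obtain ⟨n, b', hb', rfl⟩ := hfac b hb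
    have hx0 : x ≠ 0 := by
      rintro rfl
      rw [mul_zero] at hab
      exact hne _ ha hab.symm
    rw [map_mul, map_mul, map_pow, map_pow] at hab
    rcases le_total n m with hnm | hmn
    · left
      obtain ⟨k, rfl⟩ := Nat.exists_eq_add_of_le hnm
      refine ⟨b', hb', p ^ k * a', ?_⟩
      rw [map_mul, map_pow]
      have hpn : algebraMap C K p ^ n ≠ 0 := pow_ne_zero _ hpK
      apply mul_left_cancel₀ hpn
      rw [pow_add] at hab
      linear_combination hab
    · right
      obtain ⟨k, rfl⟩ := Nat.exists_eq_add_of_le hmn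
      refine ⟨a', ha', p ^ k * b', ?_⟩
      rw [map_mul, map_pow]
      have hpm : algebraMap C K p ^ m ≠ 0 := pow_ne_zero _ hpK
      apply mul_left_cancel₀ hpm
      apply mul_right_cancel₀ hx0
      rw [pow_add] at hab
      have e1 : algebraMap C K p ^ m * (algebraMap C K a' * x⁻¹) * x =
          algebraMap C K p ^ m * algebraMap C K a' := by
        field_simp
      rw [e1]
      linear_combination -hab

/-- Splitting off the exact power of `p`, if no nonzero element is divisible by all powers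
of `p`. -/
theorem exists_eq_pow_mul_not_dvd {p : C} (hpow : ∀ a : C, a ≠ 0 → ∃ n : ℕ, ¬ p ^ n ∣ a) {a : C}
    (ha : a ≠ 0) : ∃ (m : ℕ) (a' : C), ¬ p ∣ a' ∧ a = p ^ m * a' := by
  classical
  have hex := hpow a ha
  have hpos : Nat.find hex ≠ 0 := by
    intro h0
    have h1 := Nat.find_spec hex
    rw [h0, pow_zero] at h1
    exact h1 (one_dvd a)
  obtain ⟨m, hm⟩ : ∃ m, Nat.find hex = m + 1 := ⟨Nat.find hex - 1, by omega⟩
  have hdvd : p ^ m ∣ a := by
    by_contra hnd
    have h1 := Nat.find_min' hex hnd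
    omega
  obtain ⟨a', rfl⟩ := hdvd
  refine ⟨m, a', fun hpa => ?_, rfl⟩
  have h1 := Nat.find_spec hex
  rw [hm] at h1
  apply h1
  obtain ⟨b, rfl⟩ := hpa
  exact ⟨b, by rw [pow_succ]; ring⟩

/-- `𝒪` is a valuation ring of `K`, if `K` is the fraction field of `C` and no nonzero element
of `C` is divisible by all powers of `p`. -/
theorem inGauss_or_inv_of_pow (hinj : Function.Injective (algebraMap C K)) {p : C}
    (hp : Prime p) (hpow : ∀ a : C, a ≠ 0 → ∃ n : ℕ, ¬ p ^ n ∣ a)
    (hfrac : ∀ x : K, ∃ a b : C, b ≠ 0 ∧ algebraMap C K b * x = algebraMap C K a) (x : K) :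
    InGauss p x ∨ InGauss p x⁻¹ :=
  inGauss_or_inv_of_factor hinj hp (fun _ ha => exists_eq_pow_mul_not_dvd hpow ha) hfrac x

/-- **`𝒪` is a valuation ring of `K`**, if `K` is the fraction field of `C` and `C` is a
`WfDvdMonoid` (e.g. a Noetherian domain). -/
theorem inGauss_or_inv (hinj : Function.Injective (algebraMap C K)) {p : C} (hp : Prime p)
    [WfDvdMonoid C]
    (hfrac : ∀ x : K, ∃ a b : C, b ≠ 0 ∧ algebraMap C K b * x = algebraMap C K a) (x : K) :
    InGauss p x ∨ InGauss p x⁻¹ := by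
  have : IsDomain C := hinj.isDomain _
  exact inGauss_or_inv_of_factor hinj hp
    (fun a ha => WfDvdMonoid.max_power_factor ha hp.irreducible) hfrac x

end Fermat.Agent.Lib.PrimeLocRed
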