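import Mathlib
import Fermat.Agent.Lib.GaussChart
import Fermat.Agent.Lib.PrimeLocGlobal
import Fermat.Agent.Lib.PrimeLocRed

/-!
# A ring with a prime element is a chart of its Gauss ring

Program FG (S19), Route C, brick `CH`: the level-free instance of the vocabulary of
`Lib/GaussChart` (`ChartRoots.GaussRing`, `ChartRoots.GaussChart`).

`C` is a commutative ring inside a field `K`, `p : C` a prime element.  With `𝒪 = C_(p)`
(`gaussRing hp`), `B = ` the image of `C` in `K` (`chartRing C K`), and `R Q = C_Q` (`locRing Q`)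
for `Q : Pt p` running over ALL maximal ideals of `C` containing `p`:

* `gaussRing_of_chart` : `GaussRing 𝒪 p`, if `K` is the fraction field of `C` and `C` is a
  `WfDvdMonoid` (`gaussRing_of_chart_of_pow` : or no nonzero element of `C` is divisible by all
  powers of `p`);
* `gaussChart_of_chart_of` : `GaussChart 𝒪 p B R`, if `C` is integrally closed in `K`,
  `C ⧸ (p)` is an integrally closed domain, and the two facts about the special fibre
  `C ⧸ (p)` hold: principal parts (`hpp`, = `Lib/PrincipalParts.exists_principal_part`) and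
  finiteness of the set of poles (`hfs`, = `Lib/PrincipalParts.finite_not_inLoc`).
-/

set_option autoImplicit false

namespace Fermat.Agent.Lib.GaussChartOfPrime

open Fermat.Agent.Lib.PrimeLocGlobal Fermat.Agent.Lib.PrimeLocRed Fermat.Agent.Lib.ChartRoots

variable {C K : Type*} [CommRing C] [Field K] [Algebra C K] {p : C}

/-- `𝒪 = C_(p)` as a subring of `K`. -/
abbrev gaussRing (hp : Prime p) : Subring K := (gauss (K := K) hp).toSubring

theorem mem_gaussRing (hp : Prime p) {x : K} : x ∈ gaussRing (K := K) hp ↔ InGauss p x :=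
  Iff.rfl

/-- The image of `C` in `K`, as a subring. -/
abbrev chartRing (C K : Type*) [CommRing C] [Field K] [Algebra C K] : Subring K :=
  (algebraMap C K).range

theorem mem_chartRing {x : K} : x ∈ chartRing C K ↔ ∃ c : C, algebraMap C K c = x := Iff.rfl

/-- The closed points of the special fibre: the maximal ideals of `C` containing `p`. -/
abbrev Pt (p : C) : Type _ := {Q : Ideal C // Q.IsMaximal ∧ p ∈ Q}

/-- `R_Q = C_Q` as a subring of `K`, for `Q` a maximal ideal of `C` containing `p`. -/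
def locRing (Q : Pt p) : Subring K :=
  haveI : Q.1.IsPrime := Q.2.1.isPrime
  (atPrime (K := K) Q.1).toSubring

theorem mem_locRing {Q : Pt p} {x : K} : x ∈ locRing (K := K) Q ↔ InLoc Q.1 x := Iff.rfl

/-! ### The Gauss ring -/

/-- **`C_(p)` is a Gauss ring**, from `𝒪` being a valuation ring. -/
theorem gaussRing_of_valuation (hinj : Function.Injective (algebraMap C K)) (hp : Prime p)
    (hval : ∀ x : K, InGauss p x ∨ InGauss p x⁻¹) :
    GaussRing (gaussRing (K := K) hp) (algebraMap C K p) :=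
  ⟨inGauss_algebraMap hp p, not_inGauss_inv hinj hp, hval, fun _ hx hinv => by
    obtain ⟨h, hh, e⟩ := exists_eq_mul_of_not_inv hinj hp hx hinv
    exact ⟨h, hh, e⟩⟩

/-- **`C_(p)` is a Gauss ring** (a valuation ring of `K` with maximal ideal generated by `p`),
if `K` is the fraction field of `C` and `C` is a `WfDvdMonoid` (e.g. a Noetherian domain). -/
theorem gaussRing_of_chart (hinj : Function.Injective (algebraMap C K)) (hp : Prime p)
    [WfDvdMonoid C]
    (hfrac : ∀ x : K, ∃ a b : C, b ≠ 0 ∧ algebraMap C K b * x = algebraMap C K a) :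
    GaussRing (gaussRing (K := K) hp) (algebraMap C K p) :=
  gaussRing_of_valuation hinj hp (inGauss_or_inv hinj hp hfrac)

/-- **`C_(p)` is a Gauss ring**, if `K` is the fraction field of `C` and no nonzero element of
`C` is divisible by all powers of `p`. -/
theorem gaussRing_of_chart_of_pow (hinj : Function.Injective (algebraMap C K)) (hp : Prime p)
    (hpow : ∀ a : C, a ≠ 0 → ∃ n : ℕ, ¬ p ^ n ∣ a)
    (hfrac : ∀ x : K, ∃ a b : C, b ≠ 0 ∧ algebraMap C K b * x = algebraMap C K a) :
    GaussRing (gaussRing (K := K) hp) (algebraMap C K p) :=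
  gaussRing_of_valuation hinj hp (inGauss_or_inv_of_pow hinj hp hpow hfrac)

/-! ### The chart -/

/-- **A chart ring is a `GaussChart` of its Gauss ring**, given principal parts (`hpp`) and the
finiteness of poles (`hfs`) on the special fibre.  The index set is the set `Pt p` of ALL
maximal ideals of `C` containing `p`. -/
theorem gaussChart_of_chart_of (hinj : Function.Injective (algebraMap C K))
    (hic : ∀ x : K, IsIntegral C x → ∃ c : C, algebraMap C K c = x) (hp : Prime p)
    [IsDomain (C ⧸ Ideal.span {p})] [IsIntegrallyClosed (C ⧸ Ideal.span {p})]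
    (hpp : ∀ (S : Finset (Ideal C)), (∀ Q ∈ S, Q.IsMaximal ∧ p ∈ Q) → ∀ a : Ideal C → K,
      (∀ Q ∈ S, InGauss p (a Q)) → ∃ b : K, InGauss p b ∧ (∀ Q ∈ S, InLocAdd p Q (b - a Q)) ∧
        ∀ Q : Ideal C, Q.IsMaximal → p ∈ Q → Q ∉ S → InLocAdd p Q b)
    (hfs : ∀ x : K, InGauss p x → {Q : Ideal C | Q.IsMaximal ∧ p ∈ Q ∧ ¬ InLoc Q x}.Finite) :
    GaussChart (gaussRing (K := K) hp) (algebraMap C K p) (chartRing C K)
      (fun Q : Pt p => locRing (K := K) Q) := by
  classical
  have hprime : ∀ Q : Pt p, Q.1.IsPrime := fun Q => Q.2.1.isPrime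
  refine
    { pi_mem := ⟨p, rfl⟩
      chart_le := ?_
      le_loc := ?_
      loc_le := ?_
      loc_inter := ?_
      chart_inter := ?_
      loc_inv := ?_
      loc_root := ?_
      red_root := ?_
      finite_notMem := ?_
      exists_pp := ?_
      glue := ?_ }
  · rintro _ ⟨c, rfl⟩
    exact inGauss_algebraMap hp c
  · rintro Q _ ⟨c, rfl⟩
    have := hprime Q
    exact inLoc_of_algebraMap Q.1 c
  · intro Q x hx
    exact (mem_locRing.1 hx).inGauss Q.2.2
  · intro Q h hh hm
    exact InLoc.of_pow_mul hinj hp 1 hh (by rw [pow_one]; exact hm)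
  · rintro h hh ⟨a, ha⟩
    obtain ⟨c, hc⟩ := exists_eq_of_pow_mul_eq hinj hp 1 hh a (by rw [pow_one, ha])
    exact ⟨c, hc.symm⟩
  · intro Q r hr
    exact InLoc.inv_one_add_mul Q.2.2 hr
  · intro Q n x hn hx
    exact InLoc.of_pow hic hn hx
  · rintro Q n hn y hy ⟨r, hr, h, hh, e⟩
    obtain ⟨r', h', hr', hh', e'⟩ := inLocAdd_of_pow hinj hp Q.2.2 hn hy ⟨r, h, hr, hh, e⟩
    exact ⟨r', hr', h', hh', e'⟩
  · intro h hh
    have hfin := hfs h hh
    refine Set.Finite.subset (hfin.preimage (Subtype.val_injective.injOn)) ?_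
    intro Q hQ
    exact ⟨Q.2.1, Q.2.2, hQ⟩
  · intro T a ha
    obtain ⟨b, hb, h1, h2⟩ := hpp (T.image Subtype.val)
      (fun Q hQ => by
        obtain ⟨i, -, rfl⟩ := Finset.mem_image.mp hQ
        exact i.2)
      (fun Q => if h : Q.IsMaximal ∧ p ∈ Q then a ⟨Q, h⟩ else 0)
      (fun Q hQ => by
        obtain ⟨i, hi, rfl⟩ := Finset.mem_image.mp hQ
        rw [dif_pos i.2]
        exact ha i hi)
    refine ⟨b, hb, fun i hi => ?_, fun i hi => ?_⟩
    · have h3 := h1 i.1 (Finset.mem_image_of_mem _ hi)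
      rw [dif_pos i.2] at h3
      obtain ⟨r, h, hr, hh, e⟩ := h3
      exact ⟨r, hr, h, hh, e⟩
    · have hnot : i.1 ∉ T.image Subtype.val := by
        intro hmem
        obtain ⟨j, hj, hji⟩ := Finset.mem_image.mp hmem
        exact hi (Subtype.ext hji ▸ hj)
      obtain ⟨r, h, hr, hh, e⟩ := h2 i.1 i.2.1 i.2.2 hnot
      exact ⟨r, hr, h, hh, e⟩
  · intro x _ hx
    obtain ⟨c, y, hy, e⟩ := exists_add_mul_of_forall_inLocAdd hp x (fun Q hQ hpQ => by
      obtain ⟨r, hr, h, hh, e⟩ := hx ⟨Q, hQ, hpQ⟩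
      exact ⟨r, h, hr, hh, e⟩)
    exact ⟨algebraMap C K c, ⟨c, rfl⟩, y, hy, e⟩

end Fermat.Agent.Lib.GaussChartOfPrime
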