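import Mathlib
import Fermat.Agent.Lib.PrimeLocGlobal

/-!
# The overlap of two charts: localisation away from an element, inside a field (level-free)

Program FG (S19), Route C, brick `CH`, lemma package (OV).  Vocabulary of
`Lib/PrimeLocGlobal`: `C` a commutative ring inside a field `K`, `p : C` a prime element,
`gauss hp = C_(p)`, `atPrime Q = C_Q` (subalgebras of `K`).

Here `D = C[1/u]` is a second ring inside `K`, given by a ring homomorphism `ι : C →+* D`
compatible with the two embeddings into `K`, such that `ι u` is a unit and every element of `D`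
is carried into `ι C` by a power of `ι u` (`IsAway K ι u`).  In the application `C` is a chart
ring of the model, `D` the overlap chart ring, `u` the chart function (or its inverse).

* `IsAway.prime_map`       : (a) `p` prime in `C`, `p ∤ u`  ⟹  `ι p` prime in `D`;
* `IsAway.mem_gauss_iff`   : (b) the Gauss ring of `D` at `ι p` is the Gauss ring of `C` at `p`;
* `IsAway.mem_atPrime_iff` : (c) `D_Q = C_{ι⁻¹ Q}` for every prime `Q` of `D`;
* `IsAway.isMaximal_comap` : (d) if `C ⧸ (p)` has dimension `≤ 1` and some maximal ideal of `C`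
  contains `p` but not `u`, then `ι⁻¹ Q` is maximal for every maximal ideal `Q ∋ ι p` of `D`;
* `IsAway.not_mem_comap`   : `u ∉ ι⁻¹ Q` for a proper ideal `Q`;
* `IsAway.exists_comap_eq` : conversely every prime `Q₀ ∌ u` of `C` is `ι⁻¹ Q` for a prime `Q` of
  `D`, maximal when `Q₀` is.
-/

set_option autoImplicit false

namespace Fermat.Agent.Lib.PrimeLocOverlap

open Fermat.Agent.Lib.PrimeLocGlobal

/-- `D = C[1/u]` inside the field `K`, along `ι : C →+* D`. -/
structure IsAway {C D : Type*} (K : Type*) [CommRing C] [CommRing D] [Field K] [Algebra C K]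
    [Algebra D K] (ι : C →+* D) (u : C) : Prop where
  /-- `ι` is compatible with the embeddings into `K`. -/
  map_eq : ∀ c : C, algebraMap D K (ι c) = algebraMap C K c
  /-- `u` becomes a unit of `D`. -/
  isUnit : IsUnit (ι u)
  /-- every element of `D` is carried into `ι C` by a power of `ι u`. -/
  exists_pow_mul : ∀ w : D, ∃ (n : ℕ) (c : C), ι u ^ n * w = ι c

namespace IsAway

variable {C D K : Type*} [CommRing C] [CommRing D] [Field K] [Algebra C K] [Algebra D K]
  {ι : C →+* D} {u : C}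

theorem injective (h : IsAway K ι u) (hC : Function.Injective (algebraMap C K)) :
    Function.Injective ι := by
  intro a b hab
  apply hC
  rw [← h.map_eq, ← h.map_eq, hab]

/-- Divisibility by `p` descends from `D` to `C` when `p ∤ u`. -/
theorem dvd_of_map_dvd (h : IsAway K ι u) (hC : Function.Injective (algebraMap C K)) {p : C}
    (hp : Prime p) (hpu : ¬ p ∣ u) {c : C} (hd : ι p ∣ ι c) : p ∣ c := by
  obtain ⟨w, hw⟩ := hd
  obtain ⟨n, d, hd⟩ := h.exists_pow_mul w
  have e : u ^ n * c = p * d := by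
    apply h.injective hC
    rw [map_mul, map_mul, map_pow, hw, ← hd]
    ring
  rcases hp.dvd_or_dvd (⟨d, e⟩ : p ∣ u ^ n * c) with h1 | h1
  · exact absurd (hp.dvd_of_dvd_pow h1) hpu
  · exact h1

/-- Divisibility by `ι p` of `ι u ^ n * x` is divisibility of `x`. -/
theorem dvd_of_dvd_pow_mul (h : IsAway K ι u) {a x : D} {n : ℕ} (hd : a ∣ ι u ^ n * x) :
    a ∣ x :=
  ((h.isUnit.pow n).dvd_mul_left).mp hd

/-- **(a)** `p` prime in `C`, `p ∤ u`: then `ι p` is prime in `D = C[1/u]`. -/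
theorem prime_map (h : IsAway K ι u) (hC : Function.Injective (algebraMap C K)) {p : C}
    (hp : Prime p) (hpu : ¬ p ∣ u) : Prime (ι p) := by
  refine ⟨?_, ?_, ?_⟩
  · intro h0
    exact hp.ne_zero (h.injective hC (by rw [h0, map_zero]))
  · intro hunit
    have h1 : ι p ∣ ι 1 := by
      rw [map_one]
      exact hunit.dvd
    exact hp.not_dvd_one (h.dvd_of_map_dvd hC hp hpu h1)
  · intro x y hxy
    obtain ⟨a, cx, hx⟩ := h.exists_pow_mul x
    obtain ⟨b, cy, hy⟩ := h.exists_pow_mul y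
    have hdvd : ι p ∣ ι (cx * cy) := by
      rw [map_mul, ← hx, ← hy]
      have e : ι u ^ a * x * (ι u ^ b * y) = (ι u ^ a * ι u ^ b) * (x * y) := by ring
      rw [e]
      exact Dvd.dvd.mul_left hxy _
    rcases hp.dvd_or_dvd (h.dvd_of_map_dvd hC hp hpu hdvd) with h1 | h1
    · left
      have h2 : ι p ∣ ι u ^ a * x := by
        rw [hx]
        exact map_dvd ι h1
      exact h.dvd_of_dvd_pow_mul h2
    · right
      have h2 : ι p ∣ ι u ^ b * y := by
        rw [hy]
        exact map_dvd ι h1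
      exact h.dvd_of_dvd_pow_mul h2

/-- A fraction with denominator in `D` is a fraction with denominator in `C`: if
`s * x = d` in `K` with `s, d ∈ D`, there are `s₀, d₀ ∈ C` and `a b : ℕ` with
`ι u ^ a * s = ι s₀`, `ι u ^ b * d = ι d₀` and `(u ^ b * s₀) * x = u ^ a * d₀` in `K`. -/
theorem exists_frac (h : IsAway K ι u) {s d : D} {x : K}
    (e : algebraMap D K s * x = algebraMap D K d) :
    ∃ (a b : ℕ) (s₀ d₀ : C), ι u ^ a * s = ι s₀ ∧ ι u ^ b * d = ι d₀ ∧
      algebraMap C K (u ^ b * s₀) * x = algebraMap C K (u ^ a * d₀) := by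
  obtain ⟨a, s₀, hs₀⟩ := h.exists_pow_mul s
  obtain ⟨b, d₀, hd₀⟩ := h.exists_pow_mul d
  refine ⟨a, b, s₀, d₀, hs₀, hd₀, ?_⟩
  have e1 : algebraMap C K (u ^ b * s₀) =
      algebraMap D K (ι u) ^ b * (algebraMap D K (ι u) ^ a * algebraMap D K s) := by
    rw [← h.map_eq, map_mul, map_pow, ← hs₀, map_mul, map_mul, map_pow, map_pow]
  have e2 : algebraMap C K (u ^ a * d₀) =
      algebraMap D K (ι u) ^ a * (algebraMap D K (ι u) ^ b * algebraMap D K d) := by
    rw [← h.map_eq, map_mul, map_pow, ← hd₀, map_mul, map_mul, map_pow, map_pow]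
  rw [e1, e2, ← e]
  ring

/-- **(b)** The Gauss ring of `D = C[1/u]` at `ι p` is the Gauss ring of `C` at `p`. -/
theorem mem_gauss_iff (h : IsAway K ι u) (hC : Function.Injective (algebraMap C K)) {p : C}
    (hp : Prime p) (hpu : ¬ p ∣ u) (hp' : Prime (ι p)) {x : K} :
    x ∈ gauss (K := K) hp' ↔ x ∈ gauss (K := K) hp := by
  constructor
  · rintro ⟨t, ht, d, hd⟩
    obtain ⟨a, b, t₀, d₀, ht₀, -, e⟩ := h.exists_frac hd
    refine ⟨u ^ b * t₀, ?_, u ^ a * d₀, e⟩
    intro hdvd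
    rcases hp.dvd_or_dvd hdvd with h1 | h1
    · exact hpu (hp.dvd_of_dvd_pow h1)
    · apply ht
      have h2 : ι p ∣ ι u ^ a * t := by
        rw [ht₀]
        exact map_dvd ι h1
      exact h.dvd_of_dvd_pow_mul h2
  · rintro ⟨t, ht, c, hc⟩
    refine ⟨ι t, fun hdvd => ht (h.dvd_of_map_dvd hC hp hpu hdvd), ι c, ?_⟩
    rw [h.map_eq, h.map_eq, hc]

/-- **(c)** `D_Q = C_{ι⁻¹ Q}` for every prime ideal `Q` of `D = C[1/u]`. -/
theorem mem_atPrime_iff (h : IsAway K ι u) (Q : Ideal D) [Q.IsPrime] {x : K} :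
    x ∈ atPrime (K := K) Q ↔ x ∈ atPrime (K := K) (Q.comap ι) := by
  constructor
  · rintro ⟨s, hs, d, hd⟩
    obtain ⟨a, b, s₀, d₀, hs₀, -, e⟩ := h.exists_frac hd
    refine ⟨u ^ b * s₀, ?_, u ^ a * d₀, e⟩
    show u ^ b * s₀ ∉ Q.comap ι
    rw [Ideal.mem_comap, map_mul, map_pow, ← hs₀, ← mul_assoc]
    intro hmem
    exact hs ((Ideal.unit_mul_mem_iff_mem Q ((h.isUnit.pow b).mul (h.isUnit.pow a))).mp hmem)
  · rintro ⟨s, hs, c, hc⟩
    exact ⟨ι s, fun hmem => hs hmem, ι c, by rw [h.map_eq, h.map_eq, hc]⟩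

/-- `u` lies in no contraction of a proper ideal of `D = C[1/u]`. -/
theorem not_mem_comap (h : IsAway K ι u) (Q : Ideal D) (hQ : Q ≠ ⊤) : u ∉ Q.comap ι :=
  fun hu => hQ (Ideal.eq_top_of_isUnit_mem Q hu h.isUnit)

/-- **(d)** Maximal ideals of the overlap contract to maximal ideals of the chart: if
`C ⧸ (p)` has dimension `≤ 1` and some maximal ideal of `C` contains `p` but not `u`, then for
every maximal ideal `Q ∋ ι p` of `D = C[1/u]` the contraction `ι⁻¹ Q` is maximal. -/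
theorem isMaximal_comap (h : IsAway K ι u) {p : C} [Ring.DimensionLEOne (C ⧸ Ideal.span {p})]
    (hex : ∃ Q₀ : Ideal C, Q₀.IsMaximal ∧ p ∈ Q₀ ∧ u ∉ Q₀)
    (Q : Ideal D) [hQ : Q.IsMaximal] (hpQ : ι p ∈ Q) : (Q.comap ι).IsMaximal := by
  have hmk : Function.Surjective (Ideal.Quotient.mk (Ideal.span {p})) :=
    Ideal.Quotient.mk_surjective
  have hQ'prime : (Q.comap ι).IsPrime := inferInstance
  have hpQ' : p ∈ Q.comap ι := hpQ
  have hker : RingHom.ker (Ideal.Quotient.mk (Ideal.span {p})) ≤ Q.comap ι := by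
    intro x hx
    rw [RingHom.mem_ker, Ideal.Quotient.eq_zero_iff_mem, Ideal.mem_span_singleton] at hx
    exact Ideal.mem_of_dvd _ hx hpQ'
  have hcomap : Ideal.comap (Ideal.Quotient.mk (Ideal.span {p}))
      (Ideal.map (Ideal.Quotient.mk (Ideal.span {p})) (Q.comap ι)) = Q.comap ι := by
    rw [Ideal.comap_map_of_surjective _ hmk, ← RingHom.ker_eq_comap_bot]
    exact sup_eq_left.2 hker
  have hmapprime : (Ideal.map (Ideal.Quotient.mk (Ideal.span {p})) (Q.comap ι)).IsPrime :=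
    Ideal.map_isPrime_of_surjective hmk hker
  by_cases hbot : Ideal.map (Ideal.Quotient.mk (Ideal.span {p})) (Q.comap ι) = ⊥
  · -- the contraction is `(p)`: it equals the maximal ideal `Q₀`
    obtain ⟨Q₀, hQ₀, hpQ₀, huQ₀⟩ := hex
    have hle : Q.comap ι ≤ Q₀ := by
      intro x hx
      have h1 : Ideal.Quotient.mk (Ideal.span {p}) x ∈
          Ideal.map (Ideal.Quotient.mk (Ideal.span {p})) (Q.comap ι) :=
        Ideal.mem_map_of_mem _ hx
      rw [hbot, Ideal.mem_bot, Ideal.Quotient.eq_zero_iff_mem, Ideal.mem_span_singleton] at h1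
      exact Ideal.mem_of_dvd _ h1 hpQ₀
    have hge : Q₀ ≤ Q.comap ι := by
      intro y hy
      by_contra hyQ
      have hyQ' : ι y ∉ Q := hyQ
      obtain ⟨w, i, hi, hwi⟩ := hQ.exists_inv hyQ'
      obtain ⟨n, d, hd⟩ := h.exists_pow_mul w
      have h2 : u ^ n - d * y ∈ Q.comap ι := by
        rw [Ideal.mem_comap, map_sub, map_mul, map_pow, ← hd]
        have e : ι u ^ n - ι u ^ n * w * ι y = ι u ^ n * i := by
          linear_combination (-(ι u ^ n)) * hwi
        rw [e]
        exact Q.mul_mem_left _ hi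
      have h3 : u ^ n ∈ Q₀ := by
        have h4 := Q₀.add_mem (hle h2) (Q₀.mul_mem_left d hy)
        rwa [sub_add_cancel] at h4
      exact huQ₀ (hQ₀.isPrime.mem_of_pow_mem n h3)
    rw [le_antisymm hle hge]
    exact hQ₀
  · have hmax : (Ideal.map (Ideal.Quotient.mk (Ideal.span {p})) (Q.comap ι)).IsMaximal :=
      Ring.DimensionLEOne.maximalOfPrime hbot hmapprime
    rw [← hcomap]
    exact Ideal.comap_isMaximal_of_surjective _ hmk

/-- Conversely, every prime ideal `Q₀ ∌ u` of `C` is the contraction of a prime ideal of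
`D = C[1/u]`, maximal when `Q₀` is. -/
theorem exists_comap_eq (h : IsAway K ι u) (hC : Function.Injective (algebraMap C K))
    (Q₀ : Ideal C) [hQ₀ : Q₀.IsPrime] (hu : u ∉ Q₀) :
    ∃ Q : Ideal D, Q.IsPrime ∧ Q.comap ι = Q₀ ∧ (Q₀.IsMaximal → Q.IsMaximal) := by
  -- the extension `{w | ∃ n, ∃ c ∈ Q₀, ι u ^ n * w = ι c}`
  have key : ∀ (n m : ℕ) (c c' : C) (w : D), ι u ^ n * w = ι c → ι u ^ m * w = ι c' →
      c ∈ Q₀ → c' ∈ Q₀ := by
    intro n m c c' w e e' hc
    have e2 : u ^ n * c' = u ^ m * c := by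
      apply h.injective hC
      rw [map_mul, map_mul, map_pow, map_pow, ← e, ← e']
      ring
    have h1 : u ^ n * c' ∈ Q₀ := by
      rw [e2]
      exact Q₀.mul_mem_left _ hc
    rcases hQ₀.mem_or_mem h1 with h2 | h2
    · exact absurd (hQ₀.mem_of_pow_mem n h2) hu
    · exact h2
  let Q : Ideal D :=
    { carrier := {w | ∃ (n : ℕ) (c : C), c ∈ Q₀ ∧ ι u ^ n * w = ι c}
      add_mem' := by
        rintro x y ⟨n, c, hc, e⟩ ⟨m, c', hc', e'⟩
        refine ⟨n + m, u ^ m * c + u ^ n * c',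
          Q₀.add_mem (Q₀.mul_mem_left _ hc) (Q₀.mul_mem_left _ hc'), ?_⟩
        rw [map_add, map_mul, map_mul, map_pow, map_pow, ← e, ← e']
        ring
      zero_mem' := ⟨0, 0, Q₀.zero_mem, by simp⟩
      smul_mem' := by
        rintro a x ⟨n, c, hc, e⟩
        obtain ⟨m, a', ha'⟩ := h.exists_pow_mul a
        refine ⟨m + n, a' * c, Q₀.mul_mem_left _ hc, ?_⟩
        rw [map_mul, ← ha', ← e, smul_eq_mul]
        ring }
  have hmemQ : ∀ w : D, w ∈ Q ↔ ∃ (n : ℕ) (c : C), c ∈ Q₀ ∧ ι u ^ n * w = ι c := fun _ => Iff.rfl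
  have hcomap : Q.comap ι = Q₀ := by
    ext c
    rw [Ideal.mem_comap, hmemQ]
    constructor
    · rintro ⟨n, c', hc', e⟩
      exact key n 0 c' c (ι c) e (by rw [pow_zero, one_mul]) hc'
    · intro hc
      exact ⟨0, c, hc, by rw [pow_zero, one_mul]⟩
  have hne : Q ≠ ⊤ := by
    intro htop
    have h1 : (1 : D) ∈ Q := by
      rw [htop]
      exact Submodule.mem_top
    have h2 : (1 : C) ∈ Q.comap ι := by
      rw [Ideal.mem_comap, map_one]
      exact h1
    rw [hcomap] at h2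
    exact hQ₀.ne_top ((Ideal.eq_top_iff_one Q₀).2 h2)
  have hprime : Q.IsPrime := by
    refine ⟨hne, ?_⟩
    intro x y hxy
    obtain ⟨n, c, hc, e⟩ := (hmemQ _).1 hxy
    obtain ⟨a, cx, hx⟩ := h.exists_pow_mul x
    obtain ⟨b, cy, hy⟩ := h.exists_pow_mul y
    have e2 : u ^ n * (cx * cy) = u ^ (a + b) * c := by
      apply h.injective hC
      rw [map_mul, map_mul, map_mul, map_pow, map_pow, ← hx, ← hy, ← e]
      ring
    have h1 : u ^ n * (cx * cy) ∈ Q₀ := by
      rw [e2]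
      exact Q₀.mul_mem_left _ hc
    rcases hQ₀.mem_or_mem h1 with h2 | h2
    · exact absurd (hQ₀.mem_of_pow_mem n h2) hu
    · rcases hQ₀.mem_or_mem h2 with h3 | h3
      · exact Or.inl ((hmemQ _).2 ⟨a, cx, h3, hx⟩)
      · exact Or.inr ((hmemQ _).2 ⟨b, cy, h3, hy⟩)
  refine ⟨Q, hprime, hcomap, fun hmax => ?_⟩
  -- maximality: an ideal strictly containing `Q` contracts to `⊤`
  refine Ideal.isMaximal_iff.2 ⟨fun h1 => hne ((Ideal.eq_top_iff_one Q).2 h1), ?_⟩
  intro J x hQJ hxQ hxJ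
  obtain ⟨a, cx, hx⟩ := h.exists_pow_mul x
  have hcx : cx ∉ Q₀ := fun hcx => hxQ ((hmemQ _).2 ⟨a, cx, hcx, hx⟩)
  have hcxJ : cx ∈ J.comap ι := by
    rw [Ideal.mem_comap, ← hx]
    exact J.mul_mem_left _ hxJ
  have hle : Q₀ ≤ J.comap ι := by
    intro c hc
    rw [Ideal.mem_comap]
    exact hQJ ((hmemQ _).2 ⟨0, c, hc, by rw [pow_zero, one_mul]⟩)
  have htop : J.comap ι = ⊤ := by
    by_contra hJ
    exact hcx ((hmax.eq_of_le hJ hle) ▸ hcxJ)
  have h1 : (1 : C) ∈ J.comap ι := by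
    rw [htop]
    exact Submodule.mem_top
  rw [Ideal.mem_comap, map_one] at h1
  exact h1

end IsAway

end Fermat.Agent.Lib.PrimeLocOverlap
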