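import Mathlib
import Fermat.Agent.Lib.GaussChart
import Fermat.Agent.Lib.PrimeLocGlobal
import Fermat.Agent.Lib.GaussChartOfPrime
import Fermat.Agent.Lib.PrimeLocOverlap

/-!
# The chart lemmas on the overlap of two charts (level-free)

Program FG (S19), Route C, brick `CH`: the overlap part of the chart instance of
`Lib/GaussChart`, in the vocabulary of `Lib/GaussChartOfPrime` (`gaussRing`, `chartRing`, `Pt`,
`locRing`) and `Lib/PrimeLocOverlap` (`IsAway K ι u`: `D = C[1/u]` inside `K`).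

* `inGauss_map_iff`, `gaussRing_eq_of_isAway` : the Gauss ring of the overlap is the Gauss ring
  of the chart; two charts with a common overlap have the same Gauss ring;
* `ptComap`, `ptComap_injective`, `not_mem_ptComap`, `locRing_ptComap` : every closed point `Q`
  of the special fibre of the overlap contracts to a closed point of the chart, off the divisor
  `u = 0`, with THE SAME local ring (an equality of subrings of `K`);
* `gaussChart_of_isAway` : a `GaussChart` structure on `C` induces one on the overlap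
  `D = C[1/u]`, with the Gauss ring of `C`;
* `exists_gaussCharts_of_isAway` : the package for a two-chart cover.
-/

set_option autoImplicit false

namespace Fermat.Agent.Lib.GaussChartOverlap

open Fermat.Agent.Lib.PrimeLocGlobal Fermat.Agent.Lib.ChartRoots Fermat.Agent.Lib.PrimeLocOverlap
  Fermat.Agent.Lib.GaussChartOfPrime

section Overlap

variable {C D K : Type*} [CommRing C] [CommRing D] [Field K] [Algebra C K] [Algebra D K]
  {ι : C →+* D} {u : C}

/-- The Gauss ring of the overlap at `ι p` is the Gauss ring of the chart at `p`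
(predicate form of `IsAway.mem_gauss_iff`). -/
theorem inGauss_map_iff (h : IsAway K ι u) (hC : Function.Injective (algebraMap C K)) {p : C}
    (hp : Prime p) (hpu : ¬ p ∣ u) {x : K} : InGauss (ι p) x ↔ InGauss p x :=
  h.mem_gauss_iff hC hp hpu (h.prime_map hC hp hpu)

/-- Two charts with a common overlap have the same Gauss ring. -/
theorem gaussRing_eq_of_isAway {C' : Type*} [CommRing C'] [Algebra C' K] {ι' : C' →+* D}
    {u' : C'} (h : IsAway K ι u) (h' : IsAway K ι' u')
    (hC : Function.Injective (algebraMap C K)) (hC' : Function.Injective (algebraMap C' K))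
    {p : C} (hp : Prime p) (hpu : ¬ p ∣ u) {p' : C'} (hp' : Prime p') (hpu' : ¬ p' ∣ u')
    (e : ι p = ι' p') : gaussRing (K := K) hp = gaussRing (K := K) hp' := by
  ext x
  rw [mem_gaussRing, mem_gaussRing, ← inGauss_map_iff h hC hp hpu,
    ← inGauss_map_iff h' hC' hp' hpu', e]

/-- An ideal of the overlap is determined by its contraction. -/
theorem comap_injective_of_isAway (h : IsAway K ι u) {Q Q' : Ideal D}
    (e : Q.comap ι = Q'.comap ι) : Q = Q' := by
  have key : ∀ J J' : Ideal D, J.comap ι = J'.comap ι → J ≤ J' := by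
    intro J J' e w hw
    obtain ⟨n, c, hc⟩ := h.exists_pow_mul w
    have h1 : c ∈ J.comap ι := by
      rw [Ideal.mem_comap, ← hc]
      exact J.mul_mem_left _ hw
    rw [e, Ideal.mem_comap, ← hc] at h1
    exact (Ideal.unit_mul_mem_iff_mem J' (h.isUnit.pow n)).mp h1
  exact le_antisymm (key Q Q' e) (key Q' Q e.symm)

/-- The contraction of a closed point of the special fibre of the overlap `D = C[1/u]` to the
chart `C`. -/
def ptComap (h : IsAway K ι u) {p : C} [Ring.DimensionLEOne (C ⧸ Ideal.span {p})]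
    (hex : ∃ Q₀ : Ideal C, Q₀.IsMaximal ∧ p ∈ Q₀ ∧ u ∉ Q₀) (Q : Pt (ι p)) : Pt p :=
  ⟨Q.1.comap ι, by
    have : Q.1.IsMaximal := Q.2.1
    exact h.isMaximal_comap hex Q.1 Q.2.2, Q.2.2⟩

theorem ptComap_val (h : IsAway K ι u) {p : C} [Ring.DimensionLEOne (C ⧸ Ideal.span {p})]
    (hex : ∃ Q₀ : Ideal C, Q₀.IsMaximal ∧ p ∈ Q₀ ∧ u ∉ Q₀) (Q : Pt (ι p)) :
    (ptComap h hex Q).1 = Q.1.comap ι := rfl

theorem ptComap_injective (h : IsAway K ι u) {p : C} [Ring.DimensionLEOne (C ⧸ Ideal.span {p})]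
    (hex : ∃ Q₀ : Ideal C, Q₀.IsMaximal ∧ p ∈ Q₀ ∧ u ∉ Q₀) :
    Function.Injective (ptComap h hex) := by
  intro Q Q' e
  exact Subtype.ext (comap_injective_of_isAway h (congrArg Subtype.val e))

/-- The chart function does not vanish at the contraction of a point of the overlap. -/
theorem not_mem_ptComap (h : IsAway K ι u) {p : C} [Ring.DimensionLEOne (C ⧸ Ideal.span {p})]
    (hex : ∃ Q₀ : Ideal C, Q₀.IsMaximal ∧ p ∈ Q₀ ∧ u ∉ Q₀) (Q : Pt (ι p)) :
    u ∉ (ptComap h hex Q).1 :=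
  h.not_mem_comap Q.1 Q.2.1.ne_top

/-- **Refinement**: the local ring of the overlap at `Q` is the local ring of the chart at the
contraction of `Q` (an equality of subrings of `K`). -/
theorem locRing_ptComap (h : IsAway K ι u) {p : C} [Ring.DimensionLEOne (C ⧸ Ideal.span {p})]
    (hex : ∃ Q₀ : Ideal C, Q₀.IsMaximal ∧ p ∈ Q₀ ∧ u ∉ Q₀) (Q : Pt (ι p)) :
    locRing (K := K) Q = locRing (K := K) (ptComap h hex Q) := by
  ext x
  have : Q.1.IsPrime := Q.2.1.isPrime
  exact h.mem_atPrime_iff Q.1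

/-- **The chart lemmas on the overlap** `D = C[1/u]`, with the Gauss ring of `C`: a `GaussChart`
structure on the chart `C` (local rings at all closed points of its special fibre) induces one
on the overlap. -/
theorem gaussChart_of_isAway (h : IsAway K ι u) (hC : Function.Injective (algebraMap C K))
    (hD : Function.Injective (algebraMap D K)) {p : C} (hp : Prime p) (hpu : ¬ p ∣ u)
    [Ring.DimensionLEOne (C ⧸ Ideal.span {p})]
    (hex : ∃ Q₀ : Ideal C, Q₀.IsMaximal ∧ p ∈ Q₀ ∧ u ∉ Q₀)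
    (hicD : ∀ x : K, IsIntegral D x → ∃ d : D, algebraMap D K d = x)
    (hchart : GaussChart (gaussRing (K := K) hp) (algebraMap C K p) (chartRing C K)
      (fun Q : Pt p => locRing (K := K) Q)) :
    GaussChart (gaussRing (K := K) hp) (algebraMap C K p) (chartRing D K)
      (fun Q : Pt (ι p) => locRing (K := K) Q) := by
  have hp' : Prime (ι p) := h.prime_map hC hp hpu
  have hG : ∀ {x : K}, InGauss (ι p) x ↔ InGauss p x := inGauss_map_iff h hC hp hpu
  have hπ : algebraMap D K (ι p) = algebraMap C K p := h.map_eq p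
  have hloc : ∀ Q : Pt (ι p), locRing (K := K) Q = locRing (K := K) (ptComap h hex Q) :=
    locRing_ptComap h hex
  refine
    { pi_mem := ⟨ι p, hπ⟩
      chart_le := ?_
      le_loc := ?_
      loc_le := fun Q _ hx => hG.1 (InLoc.inGauss Q.2.2 hx)
      loc_inter := ?_
      chart_inter := ?_
      loc_inv := ?_
      loc_root := fun _ _ _ hn hx => InLoc.of_pow hicD hn hx
      red_root := ?_
      finite_notMem := ?_
      exists_pp := ?_
      glue := ?_ }
  · rintro _ ⟨d, rfl⟩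
    exact hG.1 (inGauss_algebraMap hp' d)
  · intro Q
    rintro _ ⟨d, rfl⟩
    have : Q.1.IsPrime := Q.2.1.isPrime
    exact inLoc_of_algebraMap Q.1 d
  · intro Q x hx hπx
    have hπ' : InLoc Q.1 (algebraMap D K (ι p) ^ 1 * x) := by
      rw [pow_one, hπ]
      exact hπx
    exact InLoc.of_pow_mul hD hp' 1 (hG.2 hx) hπ'
  · intro x hx hπx
    obtain ⟨a, ha⟩ := hπx
    obtain ⟨c, hc⟩ := exists_eq_of_pow_mul_eq hD hp' 1 (hG.2 hx) a
      (by rw [pow_one, hπ]; exact ha.symm)
    exact ⟨c, hc.symm⟩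
  · intro Q r hr
    have h1 := InLoc.inv_one_add_mul Q.2.2 hr
    rw [hπ] at h1
    exact h1
  · intro Q n hn y hy hpow
    obtain ⟨r, hr, x, hx, e⟩ := hpow
    rw [hloc Q] at hr
    obtain ⟨r', hr', x', hx', e'⟩ := hchart.red_root (ptComap h hex Q) n hn y hy ⟨r, hr, x, hx, e⟩
    rw [← hloc Q] at hr'
    exact ⟨r', hr', x', hx', e'⟩
  · intro x hx
    refine Set.Finite.of_finite_image (f := ptComap h hex)
      ((hchart.finite_notMem x hx).subset ?_) (ptComap_injective h hex).injOn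
    rintro _ ⟨Q, hQ, rfl⟩
    show x ∉ locRing (K := K) (ptComap h hex Q)
    rw [← hloc Q]
    exact hQ
  · intro T a ha
    classical
    let a₀ : Pt p → K := fun Q₀ =>
      if hQ : ∃ Q : Pt (ι p), ptComap h hex Q = Q₀ then a hQ.choose else 0
    have ha₀ : ∀ Q : Pt (ι p), a₀ (ptComap h hex Q) = a Q := by
      intro Q
      have hex' : ∃ Q' : Pt (ι p), ptComap h hex Q' = ptComap h hex Q := ⟨Q, rfl⟩
      simp only [a₀]
      rw [dif_pos hex', ptComap_injective h hex hex'.choose_spec]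
    obtain ⟨b, hb, h1, h2⟩ := hchart.exists_pp (T.image (ptComap h hex)) a₀ (by
      intro Q₀ hQ₀
      obtain ⟨Q, hQ, rfl⟩ := Finset.mem_image.1 hQ₀
      rw [ha₀ Q]
      exact ha Q hQ)
    refine ⟨b, hb, fun Q hQ => ?_, fun Q hQ => ?_⟩
    · obtain ⟨r, hr, x, hx, e⟩ := h1 (ptComap h hex Q) (Finset.mem_image_of_mem _ hQ)
      rw [ha₀ Q] at e
      rw [← hloc Q] at hr
      exact ⟨r, hr, x, hx, e⟩
    · obtain ⟨r, hr, x, hx, e⟩ := h2 (ptComap h hex Q) (fun hmem => by
        obtain ⟨Q', hQ', e⟩ := Finset.mem_image.1 hmem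
        exact hQ (ptComap_injective h hex e ▸ hQ'))
      rw [← hloc Q] at hr
      exact ⟨r, hr, x, hx, e⟩
  · intro x _ hx
    obtain ⟨c, y, hy, e⟩ := exists_add_mul_of_forall_inLocAdd hp' x (fun Q hQ hpQ => by
      obtain ⟨r, hr, y, hy, e⟩ := hx ⟨Q, hQ, hpQ⟩
      exact ⟨r, y, hr, hG.2 hy, by rw [hπ]; exact e⟩)
    exact ⟨algebraMap D K c, ⟨c, rfl⟩, y, hG.1 hy, by rw [← hπ]; exact e⟩

end Overlap

/-! ### Two charts with a common overlap -/

section TwoCharts

variable {C₀ C₁ D K : Type*} [CommRing C₀] [CommRing C₁] [CommRing D] [Field K]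
  [Algebra C₀ K] [Algebra C₁ K] [Algebra D K]

/-- **The chart package of a two-chart cover**: two charts `C₀`, `C₁` of `K` with common overlap
`D = C₀[1/u₀] = C₁[1/u₁]`, a prime element (`p₀` in `C₀`, `p₁` in `C₁`, the same element `q` of
`D`), each chart a `GaussChart` of its own Gauss ring.  Then ONE Gauss ring `𝒪 = (C₀)_(p₀)` and
ONE uniformiser serve the three rings, each of them is a `GaussChart` of it, and every local
ring of the overlap is a local ring of each chart (refinement maps `r₀`, `r₁`, injective, with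
values off the divisors `u₀ = 0`, `u₁ = 0`). -/
theorem exists_gaussCharts_of_isAway {ι₀ : C₀ →+* D} {ι₁ : C₁ →+* D} {u₀ : C₀} {u₁ : C₁}
    (h₀ : IsAway K ι₀ u₀) (h₁ : IsAway K ι₁ u₁)
    (hC₀ : Function.Injective (algebraMap C₀ K)) (hC₁ : Function.Injective (algebraMap C₁ K))
    (hD : Function.Injective (algebraMap D K))
    {p₀ : C₀} {p₁ : C₁} (hp₀ : Prime p₀) (hp₁ : Prime p₁) (hpu₀ : ¬ p₀ ∣ u₀) (hpu₁ : ¬ p₁ ∣ u₁)
    {q : D} (e₀ : ι₀ p₀ = q) (e₁ : ι₁ p₁ = q)
    [Ring.DimensionLEOne (C₀ ⧸ Ideal.span {p₀})] [Ring.DimensionLEOne (C₁ ⧸ Ideal.span {p₁})]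
    (hex₀ : ∃ Q : Ideal C₀, Q.IsMaximal ∧ p₀ ∈ Q ∧ u₀ ∉ Q)
    (hex₁ : ∃ Q : Ideal C₁, Q.IsMaximal ∧ p₁ ∈ Q ∧ u₁ ∉ Q)
    (hicD : ∀ x : K, IsIntegral D x → ∃ d : D, algebraMap D K d = x)
    (hchart₀ : GaussChart (gaussRing (K := K) hp₀) (algebraMap C₀ K p₀) (chartRing C₀ K)
      (fun Q : Pt p₀ => locRing (K := K) Q))
    (hchart₁ : GaussChart (gaussRing (K := K) hp₁) (algebraMap C₁ K p₁) (chartRing C₁ K)
      (fun Q : Pt p₁ => locRing (K := K) Q)) :
    ∃ (r₀ : Pt q → Pt p₀) (r₁ : Pt q → Pt p₁),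
      GaussChart (gaussRing (K := K) hp₀) (algebraMap C₀ K p₀) (chartRing C₁ K)
        (fun Q : Pt p₁ => locRing (K := K) Q) ∧
      GaussChart (gaussRing (K := K) hp₀) (algebraMap C₀ K p₀) (chartRing D K)
        (fun Q : Pt q => locRing (K := K) Q) ∧
      (∀ k : Pt q, locRing (K := K) k = locRing (K := K) (r₀ k)) ∧
      (∀ k : Pt q, locRing (K := K) k = locRing (K := K) (r₁ k)) ∧
      Function.Injective r₀ ∧ Function.Injective r₁ ∧
      (∀ k : Pt q, u₀ ∉ (r₀ k).1) ∧ (∀ k : Pt q, u₁ ∉ (r₁ k).1) := by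
  subst e₀
  -- the two Gauss rings agree, and so do the two uniformisers
  have hO : gaussRing (K := K) hp₁ = gaussRing (K := K) hp₀ :=
    gaussRing_eq_of_isAway h₁ h₀ hC₁ hC₀ hp₁ hpu₁ hp₀ hpu₀ e₁
  have hπ : algebraMap C₁ K p₁ = algebraMap C₀ K p₀ := by
    rw [← h₁.map_eq, ← h₀.map_eq, e₁]
  rw [hO, hπ] at hchart₁
  -- the points of the overlap, seen from the second chart
  let cast₁ : Pt (ι₀ p₀) → Pt (ι₁ p₁) := fun Q => ⟨Q.1, Q.2.1, by rw [e₁]; exact Q.2.2⟩
  have hcast₁ : ∀ Q : Pt (ι₀ p₀), locRing (K := K) (cast₁ Q) = locRing (K := K) Q := fun _ => rfl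
  refine ⟨ptComap h₀ hex₀, fun Q => ptComap h₁ hex₁ (cast₁ Q), hchart₁,
    gaussChart_of_isAway h₀ hC₀ hD hp₀ hpu₀ hex₀ hicD hchart₀, locRing_ptComap h₀ hex₀,
    fun k => ?_, ptComap_injective h₀ hex₀, ?_, not_mem_ptComap h₀ hex₀,
    fun k => not_mem_ptComap h₁ hex₁ (cast₁ k)⟩
  · rw [← hcast₁ k]
    exact locRing_ptComap h₁ hex₁ (cast₁ k)
  · intro Q Q' e
    have h1 : cast₁ Q = cast₁ Q' := ptComap_injective h₁ hex₁ e
    have h2 : (cast₁ Q).1 = (cast₁ Q').1 := congrArg Subtype.val h1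
    exact Subtype.ext h2

end TwoCharts

end Fermat.Agent.Lib.GaussChartOverlap
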