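import Fermat.Agent.Lib.GaussChartRefFix

/-!
# The coset-reference clause `hcos` of the cocycle machine, on a chart of primes

Program FG (S19), row COS, instance glue (helper295).  Level-free.

The integrator's call `Fermat.Agent.S19.Cech.CocRep.hcoc_of_twoChartEmb` asks, for each of the
two charts, for invariant local references of the Kummer functions of the coset
representatives:

  `hcos : ∀ c i, ∃ ρ, (∀ σ, I σ → s σ ρ = ρ) ∧ ∃ u, (∃ h ∈ 𝒪, u = 1 + π * h) ∧
            IsUnitIn (R i) (F (rep c) * ((ρ * u)⁻¹) ^ m)`.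

This file produces that literal on a chart `C` with prime `p` (Gauss ring `gaussRing hp`, local
rings `locRing Q`, `Q : Pt p`) from

* (E) the congruence `C = C^I + p C` (every element of the chart is congruent modulo `p` to an
  element whose image is fixed by the acting maps),
* (D) no closed point of the special fibre is `(p)` itself,
* (STAR) at every point, for the Gauss unit in question,

through `exists_isRefAt_of_fixed`.

* `exists_fixed_ref`      : one Gauss unit, one point;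
* `hcos_of_fixed`         : the clause for a family `F : G → K` and any section `rep`;
* `hcos_of_fixed_of_eq`   : the same with the Gauss ring, the parameter and the family of local
  rings given up to equality (the shape in which the instance meets the second chart).
-/

set_option autoImplicit false

namespace Fermat.Agent.Lib.GaussChartRefUnif

open Fermat.Agent.Lib.PrimeLocGlobal Fermat.Agent.Lib.ChartRoots
  Fermat.Agent.Lib.GaussChartOfPrime

variable {C K : Type*} [CommRing C] [Field K] [Algebra C K] {p : C}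

/-- **An invariant reference at one point.**  A Gauss unit `f` with (STAR) at the closed point
`Q` has a reference `ρ`, fixed by all the maps `s σ` (`I σ`), such that `f / (ρ u) ^ m` is a
unit of the local ring of `Q` for some `u ∈ 1 + p 𝒪`. -/
theorem exists_fixed_ref (hinj : Function.Injective (algebraMap C K)) (hp : Prime p)
    [IsDedekindDomain (C ⧸ Ideal.span {p})]
    (hG : GaussRing (gaussRing (K := K) hp) (algebraMap C K p)) (Q : Pt p)
    (hne : ∃ x ∈ Q.1, ¬ p ∣ x) {Γ : Type*} (I : Γ → Prop) (s : Γ → K →+* K)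
    (hE : ∀ x : C, ∃ τ : C,
      (∀ σ, I σ → s σ (algebraMap C K τ) = algebraMap C K τ) ∧ p ∣ x - τ)
    {m : ℕ} (hm : 0 < m) {f : K} (hf : IsUnitIn (gaussRing (K := K) hp) f)
    (hstar : ∃ y : K, IsUnitIn (locRing (K := K) Q) (y ^ m * f)) :
    ∃ ρ : K, (∀ σ, I σ → s σ ρ = ρ) ∧
      ∃ u, (∃ h ∈ gaussRing (K := K) hp, u = 1 + algebraMap C K p * h) ∧
        IsUnitIn (locRing (K := K) Q) (f * ((ρ * u)⁻¹) ^ m) := by
  obtain ⟨ρ, -, hρ, hu⟩ := exists_isRefAt_of_fixed hinj hp hG Q hne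
    (F := fun τ : C => ∀ σ, I σ → s σ (algebraMap C K τ) = algebraMap C K τ) hE
    (P := fun ρ : K => ∀ σ, I σ → s σ ρ = ρ)
    (fun τ hτ n σ hσ => by rw [map_zpow₀, hτ σ hσ]) hm hf hstar
  exact ⟨ρ, hρ, hu⟩

/-- **The clause `hcos` on a chart of primes**, in the literal of
`CocRep.hcoc_of_twoChartEmb`. -/
theorem hcos_of_fixed (hinj : Function.Injective (algebraMap C K)) (hp : Prime p)
    [IsDedekindDomain (C ⧸ Ideal.span {p})]
    (hG : GaussRing (gaussRing (K := K) hp) (algebraMap C K p))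
    (hne : ∀ Q : Pt p, ∃ x ∈ Q.1, ¬ p ∣ x) {Γ : Type*} (I : Γ → Prop) (s : Γ → K →+* K)
    (hE : ∀ x : C, ∃ τ : C,
      (∀ σ, I σ → s σ (algebraMap C K τ) = algebraMap C K τ) ∧ p ∣ x - τ)
    {m : ℕ} (hm : 0 < m) {G X : Type*} (F : G → K) (rep : X → G)
    (hFu : ∀ c, IsUnitIn (gaussRing (K := K) hp) (F (rep c)))
    (hstar : ∀ c, ∀ Q : Pt p, ∃ y : K, IsUnitIn (locRing (K := K) Q) (y ^ m * F (rep c))) :
    ∀ (c : X) (Q : Pt p), ∃ ρ : K, (∀ σ, I σ → s σ ρ = ρ) ∧
      ∃ u, (∃ h ∈ gaussRing (K := K) hp, u = 1 + algebraMap C K p * h) ∧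
        IsUnitIn (locRing (K := K) Q) (F (rep c) * ((ρ * u)⁻¹) ^ m) :=
  fun c Q => exists_fixed_ref hinj hp hG Q (hne Q) I s hE hm (hFu c) (hstar c Q)

/-- The clause `hcos` with the Gauss ring `𝒪`, the parameter `π` and the family of local rings
`R` given up to equality: `𝒪 = gaussRing hp`, `π = algebraMap C K p`, `R i = locRing (e i)`. -/
theorem hcos_of_fixed_of_eq (hinj : Function.Injective (algebraMap C K)) (hp : Prime p)
    [IsDedekindDomain (C ⧸ Ideal.span {p})]
    (hG : GaussRing (gaussRing (K := K) hp) (algebraMap C K p))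
    (hne : ∀ Q : Pt p, ∃ x ∈ Q.1, ¬ p ∣ x) {Γ : Type*} (I : Γ → Prop) (s : Γ → K →+* K)
    (hE : ∀ x : C, ∃ τ : C,
      (∀ σ, I σ → s σ (algebraMap C K τ) = algebraMap C K τ) ∧ p ∣ x - τ)
    {m : ℕ} (hm : 0 < m) {G X : Type*} (F : G → K) (rep : X → G)
    {𝒪 : Subring K} (h𝒪 : 𝒪 = gaussRing (K := K) hp) {π : K} (hπ : π = algebraMap C K p)
    {ι : Type*} {R : ι → Subring K} (e : ι → Pt p) (hR : ∀ i, R i = locRing (K := K) (e i))
    (hFu : ∀ c, IsUnitIn 𝒪 (F (rep c)))
    (hstar : ∀ c i, ∃ y : K, IsUnitIn (R i) (y ^ m * F (rep c))) :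
    ∀ (c : X) (i : ι), ∃ ρ : K, (∀ σ, I σ → s σ ρ = ρ) ∧
      ∃ u, (∃ h ∈ 𝒪, u = 1 + π * h) ∧ IsUnitIn (R i) (F (rep c) * ((ρ * u)⁻¹) ^ m) := by
  subst h𝒪 hπ
  intro c i
  rw [hR i]
  exact exists_fixed_ref hinj hp hG (e i) (hne (e i)) I s hE hm (hFu c)
    (by have h := hstar c i; rwa [hR i] at h)

end Fermat.Agent.Lib.GaussChartRefUnif
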