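import Fermat.Agent.Lib.GaussChartRefUnif

/-!
# Existence of (fixed) reference uniformisers (level-free, Mathlib only)

Program FG (S19), Route C, brick `COS`; sequel of `Lib/GaussChartRefUnif.lean`.

`C` a ring inside a field `K`, `p : C` prime, `C ⧸ (p)` a Dedekind domain, `Q` a maximal ideal of
`C` containing `p` and strictly larger than `(p)`.

* `exists_notMem_sq` : there is `τ ∈ Q` outside `Q ^ 2 + (p)`;
* `exists_fixed_notMem_sq` : if every element of `C` is congruent modulo `p` to an element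
  satisfying a predicate `F` ("fixed by inertia"), such a `τ` can be chosen with `F τ`;
* `exists_isRefAt_of_fixed` : hence a Gauss unit `f` with (STAR) at `Q` has an admissible
  reference (`ChartRoots.IsRefAt`) satisfying any predicate `P` which holds for all integral
  powers of the images of the `F`-elements.

So the only input about the Galois action which the coset constants need is the congruence
`C = C^F + p C`.
-/

set_option autoImplicit false

namespace Fermat.Agent.Lib.GaussChartRefUnif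

open Fermat.Agent.Lib.PrimeLocGlobal Fermat.Agent.Lib.ChartRoots
  Fermat.Agent.Lib.GaussChartOfPrime

variable {C K : Type*} [CommRing C] [Field K] [Algebra C K] {p : C}

/-- A maximal ideal `Q ∋ p` strictly larger than `(p)` of a chart with Dedekind special fibre
contains an element outside `Q ^ 2 + (p)`. -/
theorem exists_notMem_sq [IsDedekindDomain (C ⧸ Ideal.span {p})] {Q : Ideal C}
    (hQ : Q.IsMaximal) (hpQ : p ∈ Q) (hne : ∃ x ∈ Q, ¬ p ∣ x) :
    ∃ τ ∈ Q, τ ∉ Q ^ 2 ⊔ Ideal.span {p} := by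
  set mk := Ideal.Quotient.mk (Ideal.span {p}) with hmk
  have hsurj : Function.Surjective mk := Ideal.Quotient.mk_surjective
  have hmkp : mk p = 0 := Ideal.Quotient.eq_zero_iff_mem.2 (Ideal.mem_span_singleton_self p)
  set 𝔮 : Ideal (C ⧸ Ideal.span {p}) := Q.map mk with h𝔮
  have hspan : Ideal.span {p} ≤ Q := (Ideal.span_singleton_le_iff_mem Q).2 hpQ
  have hone : (1 : C) ∉ Q := (Ideal.ne_top_iff_one Q).1 hQ.ne_top
  have h𝔮top : 𝔮 ≠ ⊤ := by
    intro h
    have h1 : mk 1 ∈ 𝔮 := by rw [h]; exact Submodule.mem_top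
    obtain ⟨z, hz, e⟩ := (Ideal.mem_map_iff_of_surjective mk hsurj).1 h1
    have h2 : (1 : C) - z ∈ Ideal.span {p} := Ideal.Quotient.eq.1 e.symm
    have h3 : (1 : C) = z + (1 - z) := by ring
    exact hone (h3 ▸ Q.add_mem hz (hspan h2))
  have h𝔮max : 𝔮.IsMaximal :=
    (Ideal.map_eq_top_or_isMaximal_of_surjective mk hsurj hQ).resolve_left h𝔮top
  have : 𝔮.IsPrime := h𝔮max.isPrime
  have h𝔮bot : 𝔮 ≠ ⊥ := by
    obtain ⟨x, hx, hpx⟩ := hne
    intro h
    have h1 : mk x ∈ 𝔮 := Ideal.mem_map_of_mem mk hx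
    rw [h, Ideal.mem_bot] at h1
    exact hpx (Ideal.mem_span_singleton.1 (Ideal.Quotient.eq_zero_iff_mem.1 h1))
  have hlt : 𝔮 ^ (1 + 1) < 𝔮 ^ 1 := Ideal.pow_succ_lt_pow h𝔮bot 1
  obtain ⟨τbar, hτ1, hτ2⟩ := SetLike.exists_of_lt hlt
  rw [pow_one] at hτ1
  obtain ⟨τ, hτQ, rfl⟩ := (Ideal.mem_map_iff_of_surjective mk hsurj).1 hτ1
  refine ⟨τ, hτQ, fun h => hτ2 ?_⟩
  obtain ⟨z, hz, w, hw, e⟩ := Submodule.mem_sup.1 h
  have hw0 : mk w = 0 := Ideal.Quotient.eq_zero_iff_mem.2 hw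
  have e' : mk τ = mk z := by rw [← e, map_add, hw0, add_zero]
  rw [e', h𝔮, ← Ideal.map_pow]
  exact Ideal.mem_map_of_mem mk hz

/-- If `C = C^F + p C`, the element outside `Q ^ 2 + (p)` can be chosen with property `F`. -/
theorem exists_fixed_notMem_sq [IsDedekindDomain (C ⧸ Ideal.span {p})] {Q : Ideal C}
    (hQ : Q.IsMaximal) (hpQ : p ∈ Q) (hne : ∃ x ∈ Q, ¬ p ∣ x) {F : C → Prop}
    (hF : ∀ x : C, ∃ τ : C, F τ ∧ p ∣ x - τ) :
    ∃ τ ∈ Q, F τ ∧ τ ∉ Q ^ 2 ⊔ Ideal.span {p} := by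
  obtain ⟨τ0, hτ0Q, hτ0⟩ := exists_notMem_sq hQ hpQ hne
  obtain ⟨τ, hFτ, d, hd⟩ := hF τ0
  have e : τ = τ0 - p * d := by rw [← hd]; ring
  have hpd : p * d ∈ Ideal.span {p} := Ideal.mul_mem_right _ _ (Ideal.mem_span_singleton_self p)
  have hspan : Ideal.span {p} ≤ Q := (Ideal.span_singleton_le_iff_mem Q).2 hpQ
  refine ⟨τ, ?_, hFτ, fun h => hτ0 ?_⟩
  · rw [e]
    exact Q.sub_mem hτ0Q (hspan hpd)
  · have e' : τ0 = τ + p * d := by rw [e]; ring
    rw [e']
    exact Ideal.add_mem _ h (Ideal.mem_sup_right hpd)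

/-- **Admissible references from the congruence `C = C^F + p C`.**  A Gauss unit `f` with (STAR)
at a closed point `Q` (strictly larger than `(p)`) of a chart with Dedekind special fibre has an
admissible reference satisfying `P`, if `P` holds for all integral powers of the images of the
`F`-elements of `C`. -/
theorem exists_isRefAt_of_fixed (hinj : Function.Injective (algebraMap C K)) (hp : Prime p)
    [IsDedekindDomain (C ⧸ Ideal.span {p})]
    (hG : GaussRing (gaussRing (K := K) hp) (algebraMap C K p)) (Q : Pt p)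
    (hne : ∃ x ∈ Q.1, ¬ p ∣ x) {F : C → Prop} (hF : ∀ x : C, ∃ τ : C, F τ ∧ p ∣ x - τ)
    {P : K → Prop} (hP : ∀ τ : C, F τ → ∀ n : ℤ, P (algebraMap C K τ ^ n)) {m : ℕ}
    (hm : 0 < m) {f : K} (hf : IsUnitIn (gaussRing (K := K) hp) f)
    (hstar : ∃ y : K, IsUnitIn (locRing (K := K) Q) (y ^ m * f)) :
    ∃ ρ, IsRefAt (gaussRing (K := K) hp) (algebraMap C K p) P m f (locRing (K := K) Q) ρ := by
  obtain ⟨τ, hτQ, hFτ, hτ2⟩ := exists_fixed_notMem_sq Q.2.1 Q.2.2 hne hF
  exact exists_isRefAt_of_notMem_sq hinj hp hG Q hτQ hτ2 (hP τ hFτ) hm hf hstar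

end Fermat.Agent.Lib.GaussChartRefUnif
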