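import Fermat.Agent.Lib.GaussChartOfPrime
import Fermat.Agent.Lib.GaussChartCoset

/-!
# Reference uniformisers at the closed points of a chart (level-free, Mathlib only)

Program FG (S19), Route C, brick `COS`: the instance fact behind `ChartRoots.IsRefUnif`, in the
vocabulary of `Lib/GaussChartOfPrime` (`C` a ring inside a field `K`, `p : C` prime,
`𝒪 = C_(p) = gaussRing hp`, `R_Q = C_Q = locRing Q` for `Q : Pt p`).

If the maximal ideal of `C_Q` is generated by `p` and `τ` (elementwise in `C`: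
`∀ x ∈ Q, ∃ s ∉ Q, ∃ y d, s * x = τ * y + p * d`), and `C ⧸ (p)` is a Noetherian domain, then

* `exists_pow_mul_unit` : every `a : C` with `p ∤ a` is `τ ^ n * (unit of C_Q)` modulo `p`
  (`s * a = τ ^ n * u + p * d` with `s, u ∉ Q`) — Krull's intersection theorem on `C ⧸ (p)`;
* `isRefUnif_of_gen` : `τ` is a reference uniformiser of `locRing Q`: every unit of `𝒪` is
  `τ ^ n * r * (1 + p * h)` with `n : ℤ`, `r` a unit of `C_Q`, `h ∈ 𝒪`.

If `C ⧸ (p)` is a Dedekind domain, the generator property holds for every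
`τ ∈ Q`, `τ ∉ Q ^ 2 ⊔ (p)` (`exists_gen_of_notMem_sq`), whence `isRefUnif_of_notMem_sq` and
`exists_isRefAt_of_notMem_sq` (an admissible reference `τ ^ n` for a Gauss unit `f` with (STAR)
at `Q`).
-/

set_option autoImplicit false

namespace Fermat.Agent.Lib.GaussChartRefUnif

open Fermat.Agent.Lib.PrimeLocGlobal Fermat.Agent.Lib.ChartRoots
  Fermat.Agent.Lib.GaussChartOfPrime

variable {C K : Type*} [CommRing C] [Field K] [Algebra C K] {p : C}

/-- **Discrete valuation at `Q` modulo `p`.**  If `Q C_Q = (p, τ)` and `C ⧸ (p)` is a Noetherian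
domain, every `a` not divisible by `p` is `τ ^ n` times a unit of `C_Q`, modulo `p`. -/
theorem exists_pow_mul_unit [IsDomain (C ⧸ Ideal.span {p})]
    [IsNoetherianRing (C ⧸ Ideal.span {p})] {Q : Ideal C} (hQ : Q.IsMaximal) (hpQ : p ∈ Q)
    {τ : C} (hτQ : τ ∈ Q) (hgen : ∀ x ∈ Q, ∃ s, s ∉ Q ∧ ∃ y d : C, s * x = τ * y + p * d)
    (a : C) (ha : ¬ p ∣ a) :
    ∃ n : ℕ, ∃ s u d : C, s ∉ Q ∧ u ∉ Q ∧ s * a = τ ^ n * u + p * d := by
  have hprime : Q.IsPrime := hQ.isPrime
  set mk := Ideal.Quotient.mk (Ideal.span {p}) with hmk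
  have hmkp : mk p = 0 := Ideal.Quotient.eq_zero_iff_mem.2 (Ideal.mem_span_singleton_self p)
  have hsurj : Function.Surjective mk := Ideal.Quotient.mk_surjective
  set 𝔮 : Ideal (C ⧸ Ideal.span {p}) := Q.map mk with h𝔮
  have hone : (1 : C) ∉ Q := (Ideal.ne_top_iff_one Q).1 hQ.ne_top
  have hspan : Ideal.span {p} ≤ Q := (Ideal.span_singleton_le_iff_mem Q).2 hpQ
  -- membership in `𝔮` pulls back to `Q`
  have hmem : ∀ x : C, mk x ∈ 𝔮 → x ∈ Q := by
    intro x hx
    obtain ⟨z, hz, e⟩ := (Ideal.mem_map_iff_of_surjective mk hsurj).1 hx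
    have : x - z ∈ Ideal.span {p} := Ideal.Quotient.eq.1 e.symm
    have h2 : x = z + (x - z) := by ring
    rw [h2]
    exact Q.add_mem hz (hspan this)
  have h𝔮top : 𝔮 ≠ ⊤ := by
    intro h
    have h1 : mk 1 ∈ 𝔮 := by rw [h]; exact Submodule.mem_top
    exact hone (hmem 1 h1)
  have hkrull : ⨅ i : ℕ, 𝔮 ^ i = ⊥ := Ideal.iInf_pow_eq_bot_of_isDomain 𝔮 h𝔮top
  have ha0 : mk a ≠ 0 := by
    intro h
    exact ha (Ideal.mem_span_singleton.1 (Ideal.Quotient.eq_zero_iff_mem.1 h))
  obtain ⟨N, hN⟩ : ∃ N : ℕ, mk a ∉ 𝔮 ^ N := by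
    by_contra hcon
    push Not at hcon
    apply ha0
    have : mk a ∈ ⨅ i : ℕ, 𝔮 ^ i := (Submodule.mem_iInf _).2 hcon
    rwa [hkrull, Submodule.mem_bot] at this
  -- induction on the exponent `N`
  clear ha0 ha
  induction N generalizing a with
  | zero =>
    exfalso
    apply hN
    rw [pow_zero, Ideal.one_eq_top]
    exact Submodule.mem_top
  | succ N ih =>
    by_cases haQ : a ∈ Q
    · obtain ⟨s, hs, y, d, e⟩ := hgen a haQ
      have hy : mk y ∉ 𝔮 ^ N := by
        intro hyN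
        apply hN
        have e1 : mk s * mk a = mk τ * mk y := by
          rw [← map_mul, e, map_add, map_mul, map_mul, hmkp, zero_mul, add_zero]
        have h1 : mk s * mk a ∈ 𝔮 ^ (N + 1) := by
          rw [e1, pow_succ']
          exact Ideal.mul_mem_mul (Ideal.mem_map_of_mem mk hτQ) hyN
        -- `mk s` is invertible modulo `𝔮 ^ (N + 1)`
        obtain ⟨y', i, hi, e2⟩ := hQ.exists_inv hs
        have hsup : 𝔮 ⊔ Ideal.span {mk s} = ⊤ := by
          rw [Ideal.eq_top_iff_one]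
          have e3 : (1 : C ⧸ Ideal.span {p}) = mk i + mk y' * mk s := by
            rw [← map_mul, ← map_add, ← map_one mk, ← e2]
            congr 1
            ring
          rw [e3]
          exact Submodule.add_mem_sup (Ideal.mem_map_of_mem mk hi)
            (Ideal.mul_mem_left _ _ (Ideal.mem_span_singleton_self _))
        have hsup' : 𝔮 ^ (N + 1) ⊔ Ideal.span {mk s} = ⊤ := Ideal.pow_sup_eq_top hsup
        obtain ⟨e1', he1', c1, hc1, e4⟩ := Submodule.mem_sup.1
          ((Ideal.eq_top_iff_one _).1 hsup')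
        obtain ⟨c2, rfl⟩ := Ideal.mem_span_singleton'.1 hc1
        have e5 : mk a = e1' * mk a + c2 * (mk s * mk a) := by
          have : mk a = (e1' + c2 * mk s) * mk a := by rw [e4, one_mul]
          linear_combination this
        rw [e5]
        exact Ideal.add_mem _ (Ideal.mul_mem_right _ _ he1') (Ideal.mul_mem_left _ _ h1)
      obtain ⟨n, s', u, d', hs', hu, e'⟩ := ih y hy
      refine ⟨n + 1, s' * s, u, τ * d' + s' * d, ?_, hu, ?_⟩
      · intro h
        rcases hprime.mem_or_mem h with h | h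
        · exact hs' h
        · exact hs h
      · linear_combination s' * e + τ * e'
    · exact ⟨0, 1, a, 0, hone, haQ, by ring⟩

/-- **A generator of `Q C_Q` modulo `p` is a reference uniformiser**: every unit of
`𝒪 = C_(p)` is `τ ^ n * r * (1 + p * h)` with `r` a unit of `C_Q` and `h ∈ 𝒪`. -/
theorem isRefUnif_of_gen (hinj : Function.Injective (algebraMap C K)) (hp : Prime p)
    [IsDomain (C ⧸ Ideal.span {p})] [IsNoetherianRing (C ⧸ Ideal.span {p})]
    (hG : GaussRing (gaussRing (K := K) hp) (algebraMap C K p)) (Q : Pt p) {τ : C}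
    (hτ0 : τ ≠ 0) (hτQ : τ ∈ Q.1)
    (hgen : ∀ x ∈ Q.1, ∃ s, s ∉ Q.1 ∧ ∃ y d : C, s * x = τ * y + p * d) :
    IsRefUnif (gaussRing (K := K) hp) (algebraMap C K p) (locRing (K := K) Q)
      (algebraMap C K τ) := by
  intro c hc
  have hQ := Q.2.1
  have hpQ := Q.2.2
  have hprime : Q.1.IsPrime := hQ.isPrime
  have hne : ∀ x : C, x ≠ 0 → algebraMap C K x ≠ 0 := fun x hx h0 =>
    hx (hinj (by rw [h0, map_zero]))
  have hneQ : ∀ x : C, x ∉ Q.1 → algebraMap C K x ≠ 0 := fun x hx =>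
    hne x (fun h => hx (h ▸ Q.1.zero_mem))
  obtain ⟨t, ht, a, hta⟩ := hc.2.1
  obtain ⟨t', ht', a', hta'⟩ := hc.2.2
  have ht0 : algebraMap C K t ≠ 0 := hne t (fun h => ht (h ▸ dvd_zero p))
  -- `p ∤ a`
  have ha : ¬ p ∣ a := by
    intro hd
    have e : t * t' = a * a' := by
      apply hinj
      rw [map_mul, map_mul, ← hta, ← hta']
      have := hc.1
      field_simp
    have : p ∣ t * t' := by rw [e]; exact Dvd.dvd.mul_right hd a'
    rcases hp.dvd_or_dvd this with h | h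
    · exact ht h
    · exact ht' h
  obtain ⟨n, s, u, d, hs, hu, e⟩ := exists_pow_mul_unit hQ hpQ hτQ hgen a ha
  obtain ⟨n', s', u', d', hs', hu', e'⟩ := exists_pow_mul_unit hQ hpQ hτQ hgen t ht
  have hτK : algebraMap C K τ ≠ 0 := hne τ hτ0
  have hsK := hneQ s hs
  have hs'K := hneQ s' hs'
  have huK := hneQ u hu
  have hu'K := hneQ u' hu'
  -- `p ∤ τ ^ n * u`, `p ∤ τ ^ n' * u'`
  have hps : ∀ x : C, x ∉ Q.1 → ¬ p ∣ x := fun x hx hd => hx (Ideal.mem_of_dvd _ hd hpQ)
  have hX : ¬ p ∣ τ ^ n * u := by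
    intro hd
    have : p ∣ s * a := by rw [e]; exact dvd_add hd (dvd_mul_right p d)
    rcases hp.dvd_or_dvd this with h | h
    · exact hps s hs h
    · exact ha h
  have hY : ¬ p ∣ τ ^ n' * u' := by
    intro hd
    have : p ∣ s' * t := by rw [e']; exact dvd_add hd (dvd_mul_right p d')
    rcases hp.dvd_or_dvd this with h | h
    · exact hps s' hs' h
    · exact ht h
  have eK : algebraMap C K s * algebraMap C K a =
      algebraMap C K τ ^ n * algebraMap C K u + algebraMap C K p * algebraMap C K d := by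
    rw [← map_mul, e, map_add, map_mul, map_mul, map_pow]
  have eK' : algebraMap C K s' * algebraMap C K t =
      algebraMap C K τ ^ n' * algebraMap C K u' + algebraMap C K p * algebraMap C K d' := by
    rw [← map_mul, e', map_add, map_mul, map_mul, map_pow]
  have hXK : algebraMap C K τ ^ n * algebraMap C K u ≠ 0 := mul_ne_zero (pow_ne_zero n hτK) huK
  have hYK : algebraMap C K τ ^ n' * algebraMap C K u' ≠ 0 :=
    mul_ne_zero (pow_ne_zero n' hτK) hu'K
  -- the two correction terms lie in `𝒪`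
  have hh1 : algebraMap C K d / (algebraMap C K τ ^ n * algebraMap C K u) ∈
      gaussRing (K := K) hp :=
    ⟨τ ^ n * u, hX, d, by rw [map_mul, map_pow]; field_simp⟩
  have hh2 : algebraMap C K d' / (algebraMap C K τ ^ n' * algebraMap C K u') ∈
      gaussRing (K := K) hp :=
    ⟨τ ^ n' * u', hY, d', by rw [map_mul, map_pow]; field_simp⟩
  obtain ⟨h2', hh2', e2'⟩ := hG.inv_one_add hh2
  obtain ⟨h, hh, eh⟩ := hG.mul_one_add hh1 hh2'
  have e1 : 1 + algebraMap C K p *
      (algebraMap C K d / (algebraMap C K τ ^ n * algebraMap C K u)) =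
      algebraMap C K s * algebraMap C K a / (algebraMap C K τ ^ n * algebraMap C K u) := by
    rw [eK]
    field_simp
  have e2 : 1 + algebraMap C K p *
      (algebraMap C K d' / (algebraMap C K τ ^ n' * algebraMap C K u')) =
      algebraMap C K s' * algebraMap C K t / (algebraMap C K τ ^ n' * algebraMap C K u') := by
    rw [eK']
    field_simp
  refine ⟨(n : ℤ) - n', algebraMap C K u * algebraMap C K s' /
    (algebraMap C K u' * algebraMap C K s), ⟨?_, ?_, ?_⟩, h, hh, ?_⟩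
  · exact div_ne_zero (mul_ne_zero huK hs'K) (mul_ne_zero hu'K hsK)
  · refine ⟨u' * s, fun hmem => ?_, u * s', ?_⟩
    · rcases hprime.mem_or_mem hmem with h | h
      · exact hu' h
      · exact hs h
    · rw [map_mul, map_mul]
      field_simp
  · refine ⟨u * s', fun hmem => ?_, u' * s, ?_⟩
    · rcases hprime.mem_or_mem hmem with h | h
      · exact hu h
      · exact hs' h
    · rw [map_mul, map_mul, inv_div]
      field_simp
  · have hc' : c = algebraMap C K a / algebraMap C K t := by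
      rw [← hta]
      field_simp
    have ha0 : algebraMap C K a ≠ 0 := hne a (fun h0 => ha (h0 ▸ dvd_zero p))
    rw [← eh, ← e2', e1, e2, zpow_sub₀ hτK, zpow_natCast, zpow_natCast, hc']
    field_simp

/-- In a chart whose special fibre is a Dedekind domain, every `τ ∈ Q` outside `Q ^ 2 + (p)`
generates `Q C_Q` modulo `p`. -/
theorem exists_gen_of_notMem_sq [IsDedekindDomain (C ⧸ Ideal.span {p})] {Q : Ideal C}
    {τ : C} (hτQ : τ ∈ Q) (hτ2 : τ ∉ Q ^ 2 ⊔ Ideal.span {p}) :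
    ∀ x ∈ Q, ∃ s, s ∉ Q ∧ ∃ y d : C, s * x = τ * y + p * d := by
  set mk := Ideal.Quotient.mk (Ideal.span {p}) with hmk
  have hsurj : Function.Surjective mk := Ideal.Quotient.mk_surjective
  set 𝔮 : Ideal (C ⧸ Ideal.span {p}) := Q.map mk with h𝔮
  have hτ𝔮 : mk τ ∈ 𝔮 := Ideal.mem_map_of_mem mk hτQ
  have hτ𝔮2 : mk τ ∉ 𝔮 ^ 2 := by
    intro h
    rw [h𝔮, ← Ideal.map_pow] at h
    obtain ⟨z, hz, e⟩ := (Ideal.mem_map_iff_of_surjective mk hsurj).1 h
    have h1 : τ - z ∈ Ideal.span {p} := Ideal.Quotient.eq.1 e.symm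
    apply hτ2
    have h2 : τ = z + (τ - z) := by ring
    rw [h2]
    exact Submodule.add_mem_sup hz h1
  obtain ⟨J, hJ⟩ : 𝔮 ∣ Ideal.span {mk τ} :=
    Ideal.dvd_iff_le.2 ((Ideal.span_singleton_le_iff_mem 𝔮).2 hτ𝔮)
  have hJ𝔮 : ¬ J ≤ 𝔮 := by
    intro h
    apply hτ𝔮2
    have h1 : mk τ ∈ 𝔮 * J := by rw [← hJ]; exact Ideal.mem_span_singleton_self _
    rw [pow_two]
    exact Ideal.mul_mono_right h h1
  obtain ⟨sbar, hsJ, hs𝔮⟩ := SetLike.not_le_iff_exists.1 hJ𝔮
  obtain ⟨s, rfl⟩ := hsurj sbar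
  intro x hx
  refine ⟨s, fun h => hs𝔮 (Ideal.mem_map_of_mem mk h), ?_⟩
  have h1 : mk x * mk s ∈ Ideal.span {mk τ} := by
    rw [hJ]
    exact Ideal.mul_mem_mul (Ideal.mem_map_of_mem mk hx) hsJ
  obtain ⟨ybar, hy⟩ := Ideal.mem_span_singleton'.1 h1
  obtain ⟨y, rfl⟩ := hsurj ybar
  have h2 : s * x - τ * y ∈ Ideal.span {p} := by
    apply Ideal.Quotient.eq.1
    rw [map_mul, map_mul, mul_comm (mk s), ← hy, mul_comm]
  obtain ⟨d, hd⟩ := Ideal.mem_span_singleton'.1 h2
  exact ⟨y, d, by linear_combination -hd⟩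

/-- **Reference uniformisers on a chart with Dedekind special fibre**: every `τ ∈ Q` outside
`Q ^ 2 + (p)` is a (nonzero) reference uniformiser of `locRing Q`. -/
theorem isRefUnif_of_notMem_sq (hinj : Function.Injective (algebraMap C K)) (hp : Prime p)
    [IsDedekindDomain (C ⧸ Ideal.span {p})]
    (hG : GaussRing (gaussRing (K := K) hp) (algebraMap C K p)) (Q : Pt p) {τ : C}
    (hτQ : τ ∈ Q.1) (hτ2 : τ ∉ Q.1 ^ 2 ⊔ Ideal.span {p}) :
    algebraMap C K τ ≠ 0 ∧
      IsRefUnif (gaussRing (K := K) hp) (algebraMap C K p) (locRing (K := K) Q)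
        (algebraMap C K τ) := by
  have hτ0 : τ ≠ 0 := by
    rintro rfl
    exact hτ2 (Ideal.zero_mem _)
  refine ⟨fun h0 => hτ0 (hinj (by rw [h0, map_zero])), ?_⟩
  exact isRefUnif_of_gen hinj hp hG Q hτ0 hτQ (exists_gen_of_notMem_sq hτQ hτ2)

/-- **Admissible references at a closed point**: a Gauss unit `f` with (STAR) at `Q` has the
admissible reference `τ ^ n`, for any `τ ∈ Q` outside `Q ^ 2 + (p)` all of whose powers satisfy
`P`. -/
theorem exists_isRefAt_of_notMem_sq (hinj : Function.Injective (algebraMap C K)) (hp : Prime p)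
    [IsDedekindDomain (C ⧸ Ideal.span {p})]
    (hG : GaussRing (gaussRing (K := K) hp) (algebraMap C K p)) (Q : Pt p) {τ : C}
    (hτQ : τ ∈ Q.1) (hτ2 : τ ∉ Q.1 ^ 2 ⊔ Ideal.span {p}) {P : K → Prop}
    (hP : ∀ n : ℤ, P (algebraMap C K τ ^ n)) {m : ℕ} (hm : 0 < m) {f : K}
    (hf : IsUnitIn (gaussRing (K := K) hp) f)
    (hstar : ∃ y : K, IsUnitIn (locRing (K := K) Q) (y ^ m * f)) :
    ∃ ρ, IsRefAt (gaussRing (K := K) hp) (algebraMap C K p) P m f (locRing (K := K) Q) ρ := by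
  obtain ⟨hτK, hτ⟩ := isRefUnif_of_notMem_sq hinj hp hG Q hτQ hτ2
  exact exists_isRefAt_of_star hG hm hf (fun x hx => (mem_locRing.1 hx).inGauss Q.2.2) hstar
    hτK hτ hP

end Fermat.Agent.Lib.GaussChartRefUnif
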