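import Fermat.Agent.Lib.GaussChartGlue

/-!
# Local roots, their gluing, and the two-chart cocycle (level-free, Mathlib only)

Program FG (S19), Route C, brick `PHI`.  Vocabulary of `Lib/GaussChart.lean`.

`f ∈ K` is a function which is locally an `m`-th power times a unit at every closed point of the
special fibre ((STAR)).  `IsRootRel 𝒪 π R m N ρ f ψ` says that `ψ ∈ 1 + π𝒪` is, at every point
`i` and up to `1 + π ^ N 𝒪`, an `m`-th root of `f` relative to the reference `ρ i`: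
`f * ((ρ i * ψ)⁻¹ * (1 + π ^ N * h)) ^ m ∈ (R i)ˣ` for some `h ∈ 𝒪`.

* `exists_isRootRel` : existence from local roots ((LR) `exists_glue`);
* `exists_isRoot_of_star` : the case `f ∈ 1 + π𝒪`, `ρ = 1`, from (STAR) alone;
* `IsRootRel.unique` : `ψ` is unique up to `(1 + π B)(1 + π ^ N 𝒪)`;
* `IsRootRel.mul`, `IsRootRel.div`, `IsRootRel.const_mul_pow`, `IsRootRel.of_refine`;
* `IsCocycle`, `exists_isCocycle`, `IsCocycle.mem`, `IsCocycle.unique`, `IsCocycle.mul`,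
  `IsCocycle.div`, `IsCocycle.const_mul_pow` : the class `ψ0 / ψ∞` of the roots on two charts in
  `(1 + π C)(1 + π ^ N 𝒪)` modulo `(1 + π C0)(1 + π C∞)(1 + π ^ N 𝒪)`.
-/

set_option autoImplicit false

namespace Fermat.Agent.Lib.ChartRoots

variable {K : Type*} [Field K]

/-- `ψ ∈ 1 + π𝒪` is a level-`N` `m`-th root of `f` relative to the references `ρ`, at every
point of the chart with local rings `R`. -/
def IsRootRel (𝒪 : Subring K) (π : K) {ι : Type*} (R : ι → Subring K) (m N : ℕ) (ρ : ι → K)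
    (f ψ : K) : Prop :=
  (∃ h ∈ 𝒪, ψ = 1 + π * h) ∧
    ∀ i, ∃ h ∈ 𝒪, IsUnitIn (R i) (f * ((ρ i * ψ)⁻¹ * (1 + π ^ N * h)) ^ m)

section OneChart

variable {𝒪 : Subring K} {π : K} {B : Subring K} {ι : Type*} {R : ι → Subring K}

theorem IsRootRel.ne_zero (hG : GaussRing 𝒪 π) {m N : ℕ} {ρ : ι → K} {f ψ : K}
    (h : IsRootRel 𝒪 π R m N ρ f ψ) : ψ ≠ 0 := by
  obtain ⟨⟨a, ha, rfl⟩, -⟩ := h
  exact hG.one_add_ne_zero ha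

/-- Existence of a level-`N` root from local roots. -/
theorem exists_isRootRel (hG : GaussRing 𝒪 π) (hB : GaussChart 𝒪 π B R) (m N : ℕ)
    (ρ : ι → K) (f : K)
    (hloc : ∀ i, ∃ u, (∃ h ∈ 𝒪, u = 1 + π * h) ∧ IsUnitIn (R i) (f * ((ρ i * u)⁻¹) ^ m))
    (hfin : {i | ¬ IsUnitIn (R i) (f * ((ρ i)⁻¹) ^ m)}.Finite) :
    ∃ ψ, IsRootRel 𝒪 π R m N ρ f ψ := by
  classical
  choose u₀ hu₀1 hu₀2 using hloc
  obtain ⟨u, hu⟩ : ∃ u : ι → K, ∀ i, u i =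
      if IsUnitIn (R i) (f * ((ρ i)⁻¹) ^ m) then 1 else u₀ i := ⟨_, fun _ => rfl⟩
  have hu1 : ∀ i, ∃ h ∈ 𝒪, u i = 1 + π * h := by
    intro i
    by_cases hi : IsUnitIn (R i) (f * ((ρ i)⁻¹) ^ m)
    · exact ⟨0, 𝒪.zero_mem, by rw [hu i, if_pos hi, mul_zero, add_zero]⟩
    · obtain ⟨h, hh, e⟩ := hu₀1 i
      exact ⟨h, hh, by rw [hu i, if_neg hi, e]⟩
  have hu2 : ∀ i, IsUnitIn (R i) (f * ((ρ i * u i)⁻¹) ^ m) := by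
    intro i
    by_cases hi : IsUnitIn (R i) (f * ((ρ i)⁻¹) ^ m)
    · rw [hu i, if_pos hi, mul_one]
      exact hi
    · rw [hu i, if_neg hi]
      exact hu₀2 i
  have hfin' : {i | ¬ ∃ r ∈ R i, u i = 1 + π * r}.Finite := by
    refine hfin.subset fun i hi hunit => hi ⟨0, (R i).zero_mem, ?_⟩
    rw [hu i, if_pos hunit, mul_zero, add_zero]
  obtain ⟨ψ, hψ, hglue⟩ := exists_glue hG hB u hu1 hfin' N
  refine ⟨ψ, hψ, fun i => ?_⟩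
  obtain ⟨r, hr, h, hh, e⟩ := hglue i
  have hψ0 : ψ ≠ 0 := by
    obtain ⟨a, ha, rfl⟩ := hψ
    exact hG.one_add_ne_zero ha
  have hN0 : 1 + π ^ N * h ≠ 0 := by
    intro h0
    rw [h0, mul_zero] at e
    exact hψ0 e
  have hur := hB.isUnitIn_one_add_loc hG i hr
  refine ⟨h, hh, ?_⟩
  have key : f * ((ρ i * ψ)⁻¹ * (1 + π ^ N * h)) ^ m =
      f * ((ρ i * u i)⁻¹) ^ m * ((1 + π * r)⁻¹) ^ m := by
    have e1 : (ρ i * ψ)⁻¹ * (1 + π ^ N * h) = (ρ i * u i)⁻¹ * (1 + π * r)⁻¹ := by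
      rw [e, mul_inv, mul_inv, mul_inv, mul_inv]
      field_simp
    rw [e1, mul_pow, mul_assoc]
  rw [key]
  exact (hu2 i).mul (hur.inv.pow m)

/-- Existence of a level-`N` root of `f ∈ 1 + π𝒪` from (STAR). -/
theorem exists_isRoot_of_star (hG : GaussRing 𝒪 π) (hB : GaussChart 𝒪 π B R) {m : ℕ}
    (hm : 0 < m) (N : ℕ) (f : K) (hf : ∃ h ∈ 𝒪, f = 1 + π * h)
    (hstar : ∀ i, ∃ y : K, IsUnitIn (R i) (y ^ m * f)) :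
    ∃ ψ, IsRootRel 𝒪 π R m N (fun _ => 1) f ψ := by
  obtain ⟨hf, hhf, rfl⟩ := hf
  have hfu := hG.isUnitIn_one_add hhf
  refine exists_isRootRel hG hB m N (fun _ => 1) _ (fun i => ?_) ?_
  · obtain ⟨y, hy⟩ := hstar i
    -- `y ^ m` is a unit of `𝒪`
    have hym : IsUnitIn 𝒪 (y ^ m) := by
      have e : y ^ m = y ^ m * (1 + π * hf) * (1 + π * hf)⁻¹ := by
        have := hfu.1
        field_simp
      rw [e]
      exact (hy.mono (hB.loc_le i)).mul hfu.inv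
    have hyu : IsUnitIn 𝒪 y := hG.isUnitIn_of_pow hm hym
    have hy0 := hyu.1
    -- reductions of `y` and `y⁻¹`
    obtain ⟨h', hh', e'⟩ := hG.inv_one_add hhf
    obtain ⟨r, hr, h1, hh1, e1⟩ := hB.red_root i m hm y hyu.2.1
      ⟨y ^ m * (1 + π * hf), hy.2.1, y ^ m * (1 + π * hf) * h',
        𝒪.mul_mem (hB.loc_le i hy.2.1) hh', by
          have := hfu.1
          have e2 : y ^ m = y ^ m * (1 + π * hf) * (1 + π * hf)⁻¹ := by field_simp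
          rw [e'] at e2
          linear_combination e2⟩
    obtain ⟨r', hr', h2, hh2, e2⟩ := hB.red_root i m hm y⁻¹ hyu.2.2
      ⟨(y ^ m * (1 + π * hf))⁻¹, hy.2.2, (y ^ m * (1 + π * hf))⁻¹ * hf,
        𝒪.mul_mem (hB.loc_le i hy.2.2) hhf, by
          have e3 : y⁻¹ ^ m = (y ^ m * (1 + π * hf))⁻¹ * (1 + π * hf) := by
            rw [mul_inv, inv_pow, mul_assoc, inv_mul_cancel₀ hfu.1, mul_one]
          rw [e3]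
          ring⟩
    have hru : IsUnitIn (R i) r := hB.isUnitIn_of_red hG i hyu hr hr' hh1 hh2 e1 e2
    have hr0 := hru.1
    refine ⟨r * y⁻¹, ⟨-h1 * y⁻¹, 𝒪.mul_mem (𝒪.neg_mem hh1) hyu.2.2, ?_⟩, ?_⟩
    · have hr_eq : r = y - π * h1 := by rw [e1]; ring
      rw [hr_eq]
      field_simp
      ring
    · have key : (1 + π * hf) * ((1 * (r * y⁻¹))⁻¹) ^ m = y ^ m * (1 + π * hf) * (r⁻¹) ^ m := by
        rw [one_mul, mul_inv, inv_inv, mul_pow]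
        ring
      rw [key]
      exact hy.mul (hru.inv.pow m)
  · refine (hB.finite_notMem hf hhf).subset fun i hi hmem => hi ?_
    have h2 := hB.isUnitIn_one_add_loc hG i hmem
    rw [inv_one, one_pow, mul_one]
    exact h2

/-- Uniqueness of the level-`N` root up to `(1 + π B)(1 + π ^ N 𝒪)`. -/
theorem IsRootRel.unique (hG : GaussRing 𝒪 π) (hB : GaussChart 𝒪 π B R) {m N : ℕ}
    (hm : 0 < m) (hN : 0 < N) {ρ : ι → K} {f ψ ψ' : K} (h : IsRootRel 𝒪 π R m N ρ f ψ)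
    (h' : IsRootRel 𝒪 π R m N ρ f ψ') :
    ∃ c ∈ B, ∃ h ∈ 𝒪, ψ' = ψ * (1 + π * c) * (1 + π ^ N * h) := by
  have hψ0 := h.ne_zero hG
  have hψ'0 := h'.ne_zero hG
  obtain ⟨⟨a, ha, hψ⟩, hloc⟩ := h
  obtain ⟨⟨a', ha', hψ'⟩, hloc'⟩ := h'
  -- `x = ψ' / ψ ∈ 1 + π𝒪`
  obtain ⟨b, hb, hψinv⟩ := hG.inv_one_add ha
  obtain ⟨x₁, hx₁, ex₁⟩ := hG.mul_one_add ha' hb
  have hx : ψ' * ψ⁻¹ = 1 + π * x₁ := by rw [hψ', hψ, hψinv, ex₁]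
  have hxO : ψ' * ψ⁻¹ ∈ 𝒪 := by
    rw [hx]; exact (hG.isUnitIn_one_add hx₁).2.1
  -- local statement
  have key : ∀ i, ∃ r ∈ R i, ∃ h ∈ 𝒪, ψ' * ψ⁻¹ = r + π ^ N * h := by
    intro i
    obtain ⟨h1, hh1, hε⟩ := hloc i
    obtain ⟨h2, hh2, hε'⟩ := hloc' i
    have hu1 := hG.isUnitIn_one_add_pow hN hh1
    have hu2 := hG.isUnitIn_one_add_pow hN hh2
    have hf0 : f ≠ 0 := left_ne_zero_of_mul hε.1
    have hρ0 : ρ i ≠ 0 := by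
      rintro hρ
      apply hε.1
      rw [hρ, zero_mul, inv_zero, zero_mul, zero_pow hm.ne', mul_zero]
    obtain ⟨t, ht⟩ : ∃ t : K, t = ψ' * ψ⁻¹ * (1 + π ^ N * h1) * (1 + π ^ N * h2)⁻¹ :=
      ⟨_, rfl⟩
    have htm : t ^ m = (f * ((ρ i * ψ)⁻¹ * (1 + π ^ N * h1)) ^ m) /
        (f * ((ρ i * ψ')⁻¹ * (1 + π ^ N * h2)) ^ m) := by
      have e1 : (ρ i * ψ)⁻¹ * (1 + π ^ N * h1) =
          t * ((ρ i * ψ')⁻¹ * (1 + π ^ N * h2)) := by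
        rw [ht]
        have := hu2.1
        field_simp
      have h3 : ((ρ i * ψ')⁻¹ * (1 + π ^ N * h2)) ^ m ≠ 0 :=
        pow_ne_zero m (mul_ne_zero (inv_ne_zero (mul_ne_zero hρ0 hψ'0)) hu2.1)
      rw [e1, mul_pow, eq_div_iff (mul_ne_zero hf0 h3)]
      ring
    have htR : t ∈ R i := hB.loc_root i m t hm (by rw [htm]; exact (hε.div hε').2.1)
    -- `t ∈ 1 + π𝒪`
    obtain ⟨k2, hk2, e2⟩ := hG.inv_one_add_pow hN hh2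
    obtain ⟨k3, hk3, e3⟩ := hG.mul_one_add_pow N hh1 hk2
    have ht1 : t = 1 + π * (x₁ + π ^ (N - 1) * k3 + π * x₁ * (π ^ (N - 1) * k3)) := by
      have e4 : t = (1 + π * x₁) * (1 + π ^ N * k3) := by
        rw [ht, hx, ← e3, e2]; ring
      rw [e4, GaussRing.pi_pow_mul_eq hN]
      ring
    have hsO : x₁ + π ^ (N - 1) * k3 + π * x₁ * (π ^ (N - 1) * k3) ∈ 𝒪 :=
      𝒪.add_mem (𝒪.add_mem hx₁ (𝒪.mul_mem (hG.pi_pow_mem _) hk3))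
        (𝒪.mul_mem (𝒪.mul_mem hG.pi_mem hx₁) (𝒪.mul_mem (hG.pi_pow_mem _) hk3))
    -- `ψ' ψ⁻¹ = t * (1 + π^N h2) * (1 + π^N h1)⁻¹`
    obtain ⟨k1, hk1, e1⟩ := hG.inv_one_add_pow hN hh1
    obtain ⟨k4, hk4, e4⟩ := hG.mul_one_add_pow N hh2 hk1
    refine ⟨t, htR, t * k4, 𝒪.mul_mem (hB.loc_le i htR) hk4, ?_⟩
    have e5 : ψ' * ψ⁻¹ = t * ((1 + π ^ N * h2) * (1 + π ^ N * h1)⁻¹) := by
      rw [ht]
      have := hu1.1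
      have := hu2.1
      field_simp
    rw [e5, e1, e4]
    ring
  obtain ⟨c', hc', h4, hh4, e⟩ := hB.glue_pow hG N hxO key
  -- `c' ∈ 1 + π B`
  have hc1 : c' = 1 + π * (x₁ - π ^ (N - 1) * h4) := by
    have e6 : c' = ψ' * ψ⁻¹ - π ^ N * h4 := by rw [e]; ring
    rw [e6, hx, GaussRing.pi_pow_mul_eq hN]
    ring
  have hcO : x₁ - π ^ (N - 1) * h4 ∈ 𝒪 := 𝒪.sub_mem hx₁ (𝒪.mul_mem (hG.pi_pow_mem _) hh4)
  have hcB : x₁ - π ^ (N - 1) * h4 ∈ B :=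
    hB.mem_chart_of_one_add hcO (by rw [← hc1]; exact hc')
  have hcu := hG.isUnitIn_one_add hcO
  refine ⟨x₁ - π ^ (N - 1) * h4, hcB, h4 * (1 + π * (x₁ - π ^ (N - 1) * h4))⁻¹,
    𝒪.mul_mem hh4 hcu.2.2, ?_⟩
  have e7 : ψ' = ψ * (ψ' * ψ⁻¹) := by field_simp
  rw [e7, e, hc1]
  have := hcu.1
  field_simp

theorem IsRootRel.mul (hG : GaussRing 𝒪 π) {m N : ℕ} {ρ ρ' : ι → K} {f f' ψ ψ' : K}
    (h : IsRootRel 𝒪 π R m N ρ f ψ) (h' : IsRootRel 𝒪 π R m N ρ' f' ψ') :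
    IsRootRel 𝒪 π R m N (fun i => ρ i * ρ' i) (f * f') (ψ * ψ') := by
  obtain ⟨⟨a, ha, hψ⟩, hloc⟩ := h
  obtain ⟨⟨a', ha', hψ'⟩, hloc'⟩ := h'
  refine ⟨?_, fun i => ?_⟩
  · obtain ⟨b, hb, e⟩ := hG.mul_one_add ha ha'
    exact ⟨b, hb, by rw [hψ, hψ', e]⟩
  · obtain ⟨h1, hh1, hε⟩ := hloc i
    obtain ⟨h2, hh2, hε'⟩ := hloc' i
    obtain ⟨h3, hh3, e3⟩ := hG.mul_one_add_pow N hh1 hh2
    refine ⟨h3, hh3, ?_⟩
    have key : f * f' * ((ρ i * ρ' i * (ψ * ψ'))⁻¹ * (1 + π ^ N * h3)) ^ m =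
        (f * ((ρ i * ψ)⁻¹ * (1 + π ^ N * h1)) ^ m) *
          (f' * ((ρ' i * ψ')⁻¹ * (1 + π ^ N * h2)) ^ m) := by
      rw [← e3]
      simp only [mul_inv, mul_pow]
      ring
    rw [key]
    exact hε.mul hε'

theorem IsRootRel.div (hG : GaussRing 𝒪 π) {m N : ℕ} (hN : 0 < N) {ρ ρ' : ι → K}
    {f f' ψ ψ' : K} (h : IsRootRel 𝒪 π R m N ρ f ψ) (h' : IsRootRel 𝒪 π R m N ρ' f' ψ') :
    IsRootRel 𝒪 π R m N (fun i => ρ i / ρ' i) (f / f') (ψ / ψ') := by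
  obtain ⟨⟨a, ha, hψ⟩, hloc⟩ := h
  obtain ⟨⟨a', ha', hψ'⟩, hloc'⟩ := h'
  refine ⟨?_, fun i => ?_⟩
  · obtain ⟨b', hb', e'⟩ := hG.inv_one_add ha'
    obtain ⟨b, hb, e⟩ := hG.mul_one_add ha hb'
    exact ⟨b, hb, by rw [hψ, hψ', div_eq_mul_inv, e', e]⟩
  · obtain ⟨h1, hh1, hε⟩ := hloc i
    obtain ⟨h2, hh2, hε'⟩ := hloc' i
    obtain ⟨k2, hk2, e2⟩ := hG.inv_one_add_pow hN hh2
    obtain ⟨h3, hh3, e3⟩ := hG.mul_one_add_pow N hh1 hk2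
    refine ⟨h3, hh3, ?_⟩
    have key : f / f' * ((ρ i / ρ' i * (ψ / ψ'))⁻¹ * (1 + π ^ N * h3)) ^ m =
        (f * ((ρ i * ψ)⁻¹ * (1 + π ^ N * h1)) ^ m) /
          (f' * ((ρ' i * ψ')⁻¹ * (1 + π ^ N * h2)) ^ m) := by
      rw [← e3, ← e2]
      simp only [div_eq_mul_inv, mul_inv, mul_pow, inv_inv, inv_pow]
      ring
    rw [key]
    exact hε.div hε'

/-- Changing `f` by a constant unit and the `m`-th power of an element of `1 + π𝒪`. -/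
theorem IsRootRel.const_mul_pow (hG : GaussRing 𝒪 π) {m N : ℕ} {ρ : ι → K} {f ψ a v : K}
    (h : IsRootRel 𝒪 π R m N ρ f ψ) (ha : ∀ i, IsUnitIn (R i) a) (hv : ∃ h ∈ 𝒪, v = 1 + π * h) :
    IsRootRel 𝒪 π R m N ρ (a * v ^ m * f) (v * ψ) := by
  obtain ⟨⟨b, hb, hψ⟩, hloc⟩ := h
  obtain ⟨w, hw, hv⟩ := hv
  have hv0 : v ≠ 0 := by rw [hv]; exact hG.one_add_ne_zero hw
  refine ⟨?_, fun i => ?_⟩
  · obtain ⟨c, hc, e⟩ := hG.mul_one_add hw hb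
    exact ⟨c, hc, by rw [hv, hψ, e]⟩
  · obtain ⟨h1, hh1, hε⟩ := hloc i
    refine ⟨h1, hh1, ?_⟩
    have key : a * v ^ m * f * ((ρ i * (v * ψ))⁻¹ * (1 + π ^ N * h1)) ^ m =
        a * (f * ((ρ i * ψ)⁻¹ * (1 + π ^ N * h1)) ^ m) := by
      have hvm : v ^ m * (v⁻¹) ^ m = 1 := by
        rw [← mul_pow, mul_inv_cancel₀ hv0, one_pow]
      simp only [mul_inv, mul_pow]
      linear_combination (a * f * (ρ i)⁻¹ ^ m * ψ⁻¹ ^ m * (1 + π ^ N * h1) ^ m) * hvm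
    rw [key]
    exact (ha i).mul hε

/-- Restriction to a family of local rings which all occur in `R`. -/
theorem IsRootRel.of_refine {κ : Type*} {R' : κ → Subring K} {m N : ℕ} {ρ : ι → K}
    {ρ' : κ → K} {f ψ : K} (h : IsRootRel 𝒪 π R m N ρ f ψ)
    (href : ∀ k, ∃ i, R' k = R i ∧ ρ' k = ρ i) : IsRootRel 𝒪 π R' m N ρ' f ψ := by
  refine ⟨h.1, fun k => ?_⟩
  obtain ⟨i, hR, hρ⟩ := href k
  rw [hR, hρ]
  exact h.2 i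

end OneChart

section TwoCharts

variable (𝒪 : Subring K) (π : K) {ι0 ι1 : Type*} (R0 : ι0 → Subring K) (R1 : ι1 → Subring K)

/-- `g = ψ0 / ψ1` for level-`N` roots `ψ0`, `ψ1` of `f` on the two charts. -/
def IsCocycle (m N : ℕ) (ρ0 : ι0 → K) (ρ1 : ι1 → K) (f g : K) : Prop :=
  ∃ ψ0 ψ1, IsRootRel 𝒪 π R0 m N ρ0 f ψ0 ∧ IsRootRel 𝒪 π R1 m N ρ1 f ψ1 ∧ g = ψ0 / ψ1

variable {𝒪 π R0 R1} {C0 C1 C : Subring K} {ιc : Type*} {Rc : ιc → Subring K}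

/-- The cocycle lies in `(1 + π C)(1 + π ^ N 𝒪)`, `C` the overlap chart. -/
theorem IsCocycle.mem (hG : GaussRing 𝒪 π) (hC : GaussChart 𝒪 π C Rc) {m N : ℕ} (hm : 0 < m)
    (hN : 0 < N) {ρ0 : ι0 → K} {ρ1 : ι1 → K} {ρc : ιc → K}
    (href0 : ∀ k, ∃ i, Rc k = R0 i ∧ ρc k = ρ0 i) (href1 : ∀ k, ∃ j, Rc k = R1 j ∧ ρc k = ρ1 j)
    {f g : K} (h : IsCocycle 𝒪 π R0 R1 m N ρ0 ρ1 f g) :
    ∃ c ∈ C, ∃ h ∈ 𝒪, g = (1 + π * c) * (1 + π ^ N * h) := by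
  obtain ⟨ψ0, ψ1, a0, a1, rfl⟩ := h
  have hψ1 := a1.ne_zero hG
  obtain ⟨c, hc, h, hh, e⟩ := (a1.of_refine href1).unique hG hC hm hN (a0.of_refine href0)
  refine ⟨c, hc, h, hh, ?_⟩
  rw [e]
  field_simp

/-- The cocycle is unique up to `(1 + π C0)(1 + π C1)(1 + π ^ N 𝒪)`. -/
theorem IsCocycle.unique (hG : GaussRing 𝒪 π) (h0 : GaussChart 𝒪 π C0 R0)
    (h1 : GaussChart 𝒪 π C1 R1) {m N : ℕ} (hm : 0 < m) (hN : 0 < N) {ρ0 : ι0 → K}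
    {ρ1 : ι1 → K} {f g g' : K} (h : IsCocycle 𝒪 π R0 R1 m N ρ0 ρ1 f g)
    (h' : IsCocycle 𝒪 π R0 R1 m N ρ0 ρ1 f g') :
    ∃ c0 ∈ C0, ∃ c1 ∈ C1, ∃ h ∈ 𝒪,
      g' * (1 + π * c1) = g * (1 + π * c0) * (1 + π ^ N * h) := by
  obtain ⟨ψ0, ψ1, a0, a1, rfl⟩ := h
  obtain ⟨ψ0', ψ1', a0', a1', rfl⟩ := h'
  have hψ1 := a1.ne_zero hG
  obtain ⟨c0, hc0, k0, hk0, e0⟩ := a0.unique hG h0 hm hN a0'
  obtain ⟨c1, hc1, k1, hk1, e1⟩ := a1.unique hG h1 hm hN a1'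
  obtain ⟨k1', hk1', e1'⟩ := hG.inv_one_add_pow hN hk1
  obtain ⟨k, hk, ek⟩ := hG.mul_one_add_pow N hk0 hk1'
  refine ⟨c0, hc0, c1, hc1, k, hk, ?_⟩
  have hu1 := (hG.isUnitIn_one_add_pow hN hk1).1
  have hc1u := (hG.isUnitIn_one_add (h1.chart_le hc1)).1
  rw [← ek, ← e1', e0, e1]
  field_simp

theorem IsCocycle.mul (hG : GaussRing 𝒪 π) {m N : ℕ} {ρ0 ρ0' : ι0 → K} {ρ1 ρ1' : ι1 → K}
    {f f' g g' : K} (h : IsCocycle 𝒪 π R0 R1 m N ρ0 ρ1 f g)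
    (h' : IsCocycle 𝒪 π R0 R1 m N ρ0' ρ1' f' g') :
    IsCocycle 𝒪 π R0 R1 m N (fun i => ρ0 i * ρ0' i) (fun j => ρ1 j * ρ1' j) (f * f')
      (g * g') := by
  obtain ⟨ψ0, ψ1, a0, a1, rfl⟩ := h
  obtain ⟨ψ0', ψ1', a0', a1', rfl⟩ := h'
  exact ⟨ψ0 * ψ0', ψ1 * ψ1', a0.mul hG a0', a1.mul hG a1', div_mul_div_comm _ _ _ _⟩

theorem IsCocycle.div (hG : GaussRing 𝒪 π) {m N : ℕ} (hN : 0 < N) {ρ0 ρ0' : ι0 → K}
    {ρ1 ρ1' : ι1 → K} {f f' g g' : K} (h : IsCocycle 𝒪 π R0 R1 m N ρ0 ρ1 f g)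
    (h' : IsCocycle 𝒪 π R0 R1 m N ρ0' ρ1' f' g') :
    IsCocycle 𝒪 π R0 R1 m N (fun i => ρ0 i / ρ0' i) (fun j => ρ1 j / ρ1' j) (f / f')
      (g / g') := by
  obtain ⟨ψ0, ψ1, a0, a1, rfl⟩ := h
  obtain ⟨ψ0', ψ1', a0', a1', rfl⟩ := h'
  exact ⟨ψ0 / ψ0', ψ1 / ψ1', a0.div hG hN a0', a1.div hG hN a1', div_div_div_comm _ _ _ _⟩

theorem IsCocycle.const_mul_pow (hG : GaussRing 𝒪 π) {m N : ℕ} {ρ0 : ι0 → K} {ρ1 : ι1 → K}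
    {f g a v : K} (h : IsCocycle 𝒪 π R0 R1 m N ρ0 ρ1 f g) (ha0 : ∀ i, IsUnitIn (R0 i) a)
    (ha1 : ∀ j, IsUnitIn (R1 j) a) (hv : ∃ h ∈ 𝒪, v = 1 + π * h) :
    IsCocycle 𝒪 π R0 R1 m N ρ0 ρ1 (a * v ^ m * f) g := by
  obtain ⟨ψ0, ψ1, a0, a1, rfl⟩ := h
  have hv0 : v ≠ 0 := by
    obtain ⟨w, hw, rfl⟩ := hv
    exact hG.one_add_ne_zero hw
  exact ⟨v * ψ0, v * ψ1, a0.const_mul_pow hG ha0 hv, a1.const_mul_pow hG ha1 hv,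
    (mul_div_mul_left _ _ hv0).symm⟩

/-- **Existence of the cocycle** of a function `f ∈ 1 + π𝒪` satisfying (STAR) on both charts. -/
theorem exists_isCocycle (hG : GaussRing 𝒪 π) (h0 : GaussChart 𝒪 π C0 R0)
    (h1 : GaussChart 𝒪 π C1 R1) {m : ℕ} (hm : 0 < m) (N : ℕ) (f : K)
    (hf : ∃ h ∈ 𝒪, f = 1 + π * h) (hstar0 : ∀ i, ∃ y : K, IsUnitIn (R0 i) (y ^ m * f))
    (hstar1 : ∀ j, ∃ y : K, IsUnitIn (R1 j) (y ^ m * f)) :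
    ∃ g, IsCocycle 𝒪 π R0 R1 m N (fun _ => 1) (fun _ => 1) f g := by
  obtain ⟨ψ0, a0⟩ := exists_isRoot_of_star hG h0 hm N f hf hstar0
  obtain ⟨ψ1, a1⟩ := exists_isRoot_of_star hG h1 hm N f hf hstar1
  exact ⟨ψ0 / ψ1, ψ0, ψ1, a0, a1, rfl⟩

end TwoCharts

end Fermat.Agent.Lib.ChartRoots
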