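import Mathlib
import Fermat.Agent.Lib.GaussChartOfPrime

/-!
# Endomorphisms that are the identity modulo the prime element of a chart
# (level-free, Mathlib only)

Program FG (S19), Route C, brick `EQ`, "(F4) for the inertia group".  Vocabulary of
`Lib/PrimeLocGlobal` (`InGauss`, `InLoc`) and `Lib/GaussChartOfPrime` (`gaussRing`, `locRing`,
`Pt`).

`C` is a chart ring inside the function field `K`, `p : C` a prime element, and `s : K →+* K`
a ring endomorphism of `K`.  `TrivOn p s` says that `s` restricts to `C` and is the identity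
modulo `p` there:  `s c = c + p * d`, `d ∈ C`  (the elementwise form of the landed
`S34.ToricInertia.TrivMod`; in the application `s` is the coefficientwise action of an element of
the inertia group).  Then `s`

* preserves the Gauss ring `𝒪 = C_(p)`            (`TrivOn.map_mem_gaussRing`),
* preserves the local ring `R_Q = C_Q` of EVERY prime ideal `Q ∋ p` of `C`
                                                    (`TrivOn.inLoc`, `TrivOn.map_mem_locRing`),
* multiplies `p` by an element of `𝒪`             (`TrivOn.exists_map_pi`),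
* is the identity modulo `p 𝒪` on `𝒪`             (`TrivOn.exists_eq_add`).

The first three are verbatim the hypotheses `hσ𝒪`, `hσR` (`hσ0`, `hσ1`), `hε`/`hσπ` of
`ChartRoots.IsRootRel.map` / `IsCocycle.map` (`Lib/GaussChartMap`) at the instance
`Lib/GaussChartOfPrime` of the vocabulary.
-/

set_option autoImplicit false

namespace Fermat.Agent.Lib.GaussChartTriv

open Fermat.Agent.Lib.PrimeLocGlobal Fermat.Agent.Lib.GaussChartOfPrime

variable {C K : Type*} [CommRing C] [Field K] [Algebra C K] {p : C}

/-- `s` restricts to the chart ring `C` and is the identity modulo `p` on it. -/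
def TrivOn (p : C) (s : K →+* K) : Prop :=
  ∀ c : C, ∃ d : C, s (algebraMap C K c) = algebraMap C K (c + p * d)

namespace TrivOn

variable {s : K →+* K}

/-- `s` preserves the Gauss ring `C_(p)`. -/
theorem inGauss (hs : TrivOn p s) {x : K} (hx : InGauss p x) : InGauss p (s x) := by
  obtain ⟨t, ht, c, hc⟩ := hx
  obtain ⟨d, hd⟩ := hs t
  obtain ⟨d', hd'⟩ := hs c
  refine ⟨t + p * d, fun h => ht ((dvd_add_left (dvd_mul_right p d)).mp h), c + p * d', ?_⟩
  rw [← hd, ← hd', ← hc, map_mul]

/-- `s` preserves the localisation of `C` at every ideal containing `p`. -/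
theorem inLoc (hs : TrivOn p s) {Q : Ideal C} (hpQ : p ∈ Q) {x : K} (hx : InLoc Q x) :
    InLoc Q (s x) := by
  obtain ⟨t, ht, c, hc⟩ := hx
  obtain ⟨d, hd⟩ := hs t
  obtain ⟨d', hd'⟩ := hs c
  refine ⟨t + p * d, fun h => ht ?_, c + p * d', ?_⟩
  · have e : t = (t + p * d) - p * d := by ring
    rw [e]
    exact Q.sub_mem h (Q.mul_mem_right d hpQ)
  · rw [← hd, ← hd', ← hc, map_mul]

/-- `s` preserves the Gauss ring (`Subring` form). -/
theorem map_mem_gaussRing (hp : Prime p) (hs : TrivOn p s) :
    ∀ x ∈ gaussRing (K := K) hp, s x ∈ gaussRing (K := K) hp :=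
  fun _ hx => hs.inGauss hx

/-- `s` preserves the local ring of every closed point of the special fibre. -/
theorem map_mem_locRing (hs : TrivOn p s) (Q : Pt p) :
    ∀ x ∈ locRing (K := K) Q, s x ∈ locRing (K := K) Q :=
  fun _ hx => hs.inLoc Q.2.2 hx

/-- `s` multiplies the prime element by an element of the chart ring (so of the Gauss ring). -/
theorem exists_map_pi (hp : Prime p) (hs : TrivOn p s) :
    ∃ ε ∈ gaussRing (K := K) hp, s (algebraMap C K p) = algebraMap C K p * ε := by
  obtain ⟨d, hd⟩ := hs p
  refine ⟨algebraMap C K (1 + d), inGauss_algebraMap hp (1 + d), ?_⟩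
  rw [hd, ← map_mul]
  congr 1
  ring

/-- `s` is the identity modulo `p 𝒪` on the Gauss ring `𝒪 = C_(p)`. -/
theorem exists_eq_add (hinj : Function.Injective (algebraMap C K)) (hp : Prime p)
    (hs : TrivOn p s) {x : K} (hx : InGauss p x) :
    ∃ h : K, InGauss p h ∧ s x = x + algebraMap C K p * h := by
  obtain ⟨t, ht, c, hc⟩ := hx
  obtain ⟨d, hd⟩ := hs t
  obtain ⟨d', hd'⟩ := hs c
  have ht' : ¬ p ∣ t + p * d := fun h => ht ((dvd_add_left (dvd_mul_right p d)).mp h)
  have ht0 : algebraMap C K (t + p * d) ≠ 0 := by
    intro h0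
    have : t + p * d = 0 := hinj (by rw [h0, map_zero])
    exact ht' (this ▸ dvd_zero p)
  have hsx : algebraMap C K (t + p * d) * s x = algebraMap C K (c + p * d') := by
    rw [← hd, ← hd', ← hc, map_mul]
  refine ⟨(algebraMap C K d' - algebraMap C K d * x) * (algebraMap C K (t + p * d))⁻¹, ?_, ?_⟩
  · refine ⟨(t + p * d) * t, fun h => (hp.dvd_or_dvd h).elim ht' ht, d' * t - d * c, ?_⟩
    rw [map_mul, map_sub, map_mul, map_mul, ← hc]
    field_simp
  · have e1 : s x = algebraMap C K (c + p * d') * (algebraMap C K (t + p * d))⁻¹ := by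
      rw [← hsx]
      field_simp
    rw [e1]
    have e2 : algebraMap C K (c + p * d') =
        algebraMap C K (t + p * d) * x + algebraMap C K p * (algebraMap C K d' -
          algebraMap C K d * x) := by
      rw [map_add, map_add, map_mul, map_mul, ← hc]
      ring
    rw [e2]
    field_simp

end TrivOn

end Fermat.Agent.Lib.GaussChartTriv
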