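import Mathlib
import Fermat.Agent.Lib.GaussChartCoset
import Fermat.Agent.Lib.GaussChartOfPrime

/-!
# Uniformisers at the closed points of the special fibre are reference uniformisers

Program FG (S19), Route C, bricks `CH` / `COS`.  `C` a commutative ring inside a field `K`,
`p : C` a prime element with `C ⧸ (p)` a Dedekind domain, `Q` a maximal ideal of `C` containing
`p`, and `τ ∈ Q` with `τ ∉ Q ^ 2 + (p)` (the reduction of `τ` is a uniformiser of the discrete
valuation ring `(C ⧸ (p))_Q`).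

* `exists_mul_eq_pow_mul_of_dedekind` : in a Dedekind domain `D` with a prime `P` and
  `t ∈ P ∖ P ^ 2`, every nonzero `a` satisfies `s * a = t ^ n * x` with `s, x ∉ P`;
* `exists_mul_eq_pow_mul` : every `a : C` not divisible by `p` is, modulo `p` and up to elements
  outside `Q`, a power of `τ`:  `s * a = τ ^ n * x + p * z` with `s, x ∉ Q`;
* `isRefUnif_of_not_mem_sq` : `ChartRoots.IsRefUnif (gaussRing hp) p (locRing Q) τ`, i.e. every
  unit of `𝒪 = C_(p)` is `τ ^ n * r * (1 + p * h)` with `n : ℤ`, `r` a unit of `R_Q`, `h ∈ 𝒪`.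
-/

set_option autoImplicit false

namespace Fermat.Agent.Lib.GaussChartUnif

open Fermat.Agent.Lib.PrimeLocGlobal Fermat.Agent.Lib.ChartRoots
open Fermat.Agent.Lib.GaussChartOfPrime

/-- In a Dedekind domain, up to elements outside the prime `P`, every nonzero `a` is a power of
an element `t ∈ P ∖ P ^ 2`. -/
theorem exists_mul_eq_pow_mul_of_dedekind {D : Type*} [CommRing D] [IsDedekindDomain D]
    (P : Ideal D) (hPprime : P.IsPrime) (t : D) (htP : t ∈ P) (ht : t ∉ P ^ 2) (a : D)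
    (ha : a ≠ 0) :
    ∃ (n : ℕ) (s x : D), s ∉ P ∧ x ∉ P ∧ s * a = t ^ n * x := by
  classical
  have ht0 : t ≠ 0 := fun h0 => ht (h0 ▸ (P ^ 2).zero_mem)
  have hP0 : P ≠ ⊥ := by
    intro hbot
    rw [hbot, Ideal.mem_bot] at htP
    exact ht0 htP
  have hPp : Prime P := Ideal.prime_of_isPrime hP0 hPprime
  -- the factorisation of `(t)`
  have hspant : Ideal.span {t} ≠ (⊥ : Ideal D) := by
    rw [Ne, Ideal.span_singleton_eq_bot]
    exact ht0
  obtain ⟨m, J', hJ', hfact⟩ := WfDvdMonoid.max_power_factor hspant hPp.irreducible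
  have hm1 : m = 1 := by
    have hm0 : m ≠ 0 := by
      rintro rfl
      rw [pow_zero, one_mul] at hfact
      apply hJ'
      rw [← hfact, Ideal.dvd_iff_le, Ideal.span_singleton_le_iff_mem]
      exact htP
    have hm2 : m < 2 := by
      by_contra hge
      have h2 : 2 ≤ m := by omega
      apply ht
      have h4 : Ideal.span {t} ≤ P ^ 2 := by
        rw [hfact]
        exact le_trans Ideal.mul_le_left (Ideal.pow_le_pow_right h2)
      exact h4 (Ideal.mem_span_singleton_self _)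
    omega
  rw [hm1, pow_one] at hfact
  obtain ⟨j, hjJ', hjP⟩ := SetLike.not_le_iff_exists.1
    (fun hle => hJ' (Ideal.dvd_iff_le.2 hle))
  -- the factorisation of `(a)`
  have hspana : Ideal.span {a} ≠ (⊥ : Ideal D) := by
    rw [Ne, Ideal.span_singleton_eq_bot]
    exact ha
  obtain ⟨n, J, hJ, hfaca⟩ := WfDvdMonoid.max_power_factor hspana hPp.irreducible
  -- `a * j ^ n ∈ (t ^ n)`
  have haPn : a ∈ P ^ n := by
    have h1 : a ∈ Ideal.span {a} := Ideal.mem_span_singleton_self _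
    rw [hfaca] at h1
    exact Ideal.mul_le_left h1
  have hmem : a * j ^ n ∈ Ideal.span {t ^ n} := by
    have e : Ideal.span {t ^ n} = P ^ n * J' ^ n := by
      rw [← Ideal.span_singleton_pow, hfact, mul_pow]
    rw [e]
    exact Ideal.mul_mem_mul haPn (Ideal.pow_mem_pow hjJ' n)
  obtain ⟨x, hx⟩ := Ideal.mem_span_singleton'.1 hmem
  -- `x ∉ P`
  have hxP : x ∉ P := by
    intro hxP
    have h0 : t ^ n * x ∈ P ^ n * P := Ideal.mul_mem_mul (Ideal.pow_mem_pow htP n) hxP
    have h1 : Ideal.span {a * j ^ n} ≤ P ^ n * P := by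
      rw [Ideal.span_singleton_le_iff_mem, ← hx, mul_comm x (t ^ n)]
      exact h0
    have h2 : Ideal.span {a * j ^ n} = P ^ n * (J * Ideal.span {j ^ n}) := by
      rw [← Ideal.span_singleton_mul_span_singleton, hfaca, mul_assoc]
    have h3 : P ^ n * P ∣ P ^ n * (J * Ideal.span {j ^ n}) := by
      rw [← h2]
      exact Ideal.dvd_iff_le.2 h1
    have h4 : P ∣ J * Ideal.span {j ^ n} :=
      (mul_dvd_mul_iff_left (pow_ne_zero n hP0)).1 h3
    rcases hPp.dvd_or_dvd h4 with h5 | h5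
    · exact hJ h5
    · rw [Ideal.dvd_iff_le, Ideal.span_singleton_le_iff_mem] at h5
      exact hjP (hPprime.mem_of_pow_mem n h5)
  refine ⟨n, j ^ n, x, fun h => hjP (hPprime.mem_of_pow_mem n h), hxP, ?_⟩
  rw [mul_comm (j ^ n) a, ← hx, mul_comm x (t ^ n)]

variable {C K : Type*} [CommRing C] [Field K] [Algebra C K] {p : C}

/-- Transport of `exists_mul_eq_pow_mul_of_dedekind` along a surjection `f : C → D` with kernel
`(p)`. -/
theorem exists_mul_eq_pow_mul_of_surjective {D : Type*} [CommRing D] [IsDedekindDomain D]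
    (f : C →+* D) (hf : Function.Surjective f) (hf0 : ∀ x : C, f x = 0 ↔ p ∣ x)
    (Q : Ideal C) (hQ : Q.IsPrime) (hpQ : p ∈ Q) (τ : C) (hτQ : τ ∈ Q)
    (hτ : τ ∉ Q ^ 2 ⊔ Ideal.span {p}) (a : C) (ha : ¬ p ∣ a) :
    ∃ (n : ℕ) (s x z : C), s ∉ Q ∧ x ∉ Q ∧ s * a = τ ^ n * x + p * z := by
  have hkereq : RingHom.ker f = Ideal.span {p} :=
    Ideal.ext fun x => by rw [RingHom.mem_ker, hf0, Ideal.mem_span_singleton]
  have hpQ' : Ideal.span {p} ≤ Q := by
    rw [Ideal.span_singleton_le_iff_mem]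
    exact hpQ
  have hker : RingHom.ker f ≤ Q := by
    rw [hkereq]
    exact hpQ'
  have hPprime : (Ideal.map f Q).IsPrime := Ideal.map_isPrime_of_surjective hf hker
  have hcomap : ∀ I : Ideal C, Ideal.comap f (Ideal.map f I) = I ⊔ Ideal.span {p} := by
    intro I
    rw [Ideal.comap_map_of_surjective f hf, ← RingHom.ker_eq_comap_bot, hkereq]
  have hcomapQ : Ideal.comap f (Ideal.map f Q) = Q := by
    rw [hcomap]
    exact sup_eq_left.2 hpQ'
  have hmemQ : ∀ x : C, f x ∈ Ideal.map f Q → x ∈ Q := by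
    intro x hx
    have h1 : x ∈ Ideal.comap f (Ideal.map f Q) := hx
    rw [hcomapQ] at h1
    exact h1
  have hτP : f τ ∈ Ideal.map f Q := Ideal.mem_map_of_mem f hτQ
  have hτ2 : f τ ∉ Ideal.map f Q ^ 2 := by
    intro h3
    apply hτ
    rw [← Ideal.map_pow] at h3
    have h5 : τ ∈ Ideal.comap f (Ideal.map f (Q ^ 2)) := h3
    rw [hcomap] at h5
    exact h5
  have ha0 : f a ≠ 0 := fun h0 => ha ((hf0 a).1 h0)
  obtain ⟨n, sbar, xbar, hsP, hxP, e⟩ :=
    exists_mul_eq_pow_mul_of_dedekind (Ideal.map f Q) hPprime (f τ) hτP hτ2 (f a) ha0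
  obtain ⟨s, rfl⟩ := hf sbar
  obtain ⟨x, rfl⟩ := hf xbar
  have hs : s ∉ Q := fun h => hsP (Ideal.mem_map_of_mem f h)
  have hxQ : x ∉ Q := fun h => hxP (Ideal.mem_map_of_mem f h)
  have hz : p ∣ s * a - τ ^ n * x := by
    rw [← hf0, map_sub, map_mul, map_mul, map_pow, sub_eq_zero]
    exact e
  obtain ⟨z, hz⟩ := hz
  exact ⟨n, s, x, z, hs, hxQ, by rw [← hz]; ring⟩

/-- Modulo `p` and up to elements outside `Q`, every `a` with `p ∤ a` is a power of `τ`. -/
theorem exists_mul_eq_pow_mul [IsDedekindDomain (C ⧸ Ideal.span {p})]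
    (Q : Ideal C) (hQ : Q.IsMaximal) (hpQ : p ∈ Q) (τ : C) (hτQ : τ ∈ Q)
    (hτ : τ ∉ Q ^ 2 ⊔ Ideal.span {p}) (a : C) (ha : ¬ p ∣ a) :
    ∃ (n : ℕ) (s x z : C), s ∉ Q ∧ x ∉ Q ∧ s * a = τ ^ n * x + p * z :=
  exists_mul_eq_pow_mul_of_surjective (Ideal.Quotient.mk (Ideal.span {p}))
    Ideal.Quotient.mk_surjective
    (fun x => by rw [Ideal.Quotient.eq_zero_iff_mem, Ideal.mem_span_singleton])
    Q hQ.isPrime hpQ τ hτQ hτ a ha

/-- The field identity behind `isRefUnif_of_not_mem_sq`. -/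
theorem refUnif_field_identity {F : Type*} [Field F] (T P a t s x z s' x' z' y' c : F)
    (n m : ℕ) (hT : T ≠ 0) (hx : x ≠ 0) (hx' : x' ≠ 0) (hs : s ≠ 0) (hs' : s' ≠ 0) (ht : t ≠ 0)
    (e2 : s * a = T ^ n * x + P * z) (e3 : s' * t = T ^ m * x' + P * z')
    (ey : (1 + P * (z' / (T ^ m * x')))⁻¹ = 1 + P * y') (hc : t * c = a) :
    c = T ^ ((n : ℤ) - (m : ℤ)) * (x * s' / (x' * s)) *
      (1 + P * (z / (T ^ n * x) + y' + P * (z / (T ^ n * x)) * y')) := by
  have hA : T ^ n * x ≠ 0 := mul_ne_zero (pow_ne_zero n hT) hx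
  have hB : T ^ m * x' ≠ 0 := mul_ne_zero (pow_ne_zero m hT) hx'
  have hTn : T ^ n ≠ 0 := pow_ne_zero n hT
  have hTm : T ^ m ≠ 0 := pow_ne_zero m hT
  have hU1 : 1 + P * (z / (T ^ n * x)) = s * a / (T ^ n * x) := by
    rw [e2, add_div, div_self hA, mul_div_assoc]
  have hU2 : 1 + P * (z' / (T ^ m * x')) = s' * t / (T ^ m * x') := by
    rw [e3, add_div, div_self hB, mul_div_assoc]
  have e5 : 1 + P * (z / (T ^ n * x) + y' + P * (z / (T ^ n * x)) * y') =
      (1 + P * (z / (T ^ n * x))) * (1 + P * (z' / (T ^ m * x')))⁻¹ := by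
    rw [ey]; ring
  have hcc : c = a / t := by rw [← hc, mul_div_cancel_left₀ c ht]
  rw [e5, hU1, hU2, hcc, zpow_sub₀ hT, zpow_natCast, zpow_natCast]
  field_simp

/-- **A uniformiser at a closed point of the special fibre is a reference uniformiser.** -/
theorem isRefUnif_of_not_mem_sq (hinj : Function.Injective (algebraMap C K)) (hp : Prime p)
    [IsDedekindDomain (C ⧸ Ideal.span {p})] (Q : Pt p) (τ : C) (hτQ : τ ∈ Q.1)
    (hτ : τ ∉ Q.1 ^ 2 ⊔ Ideal.span {p}) :
    IsRefUnif (gaussRing (K := K) hp) (algebraMap C K p) (locRing (K := K) Q)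
      (algebraMap C K τ) := by
  have hQprime : Q.1.IsPrime := Q.2.1.isPrime
  have hne : ∀ c : C, c ≠ 0 → algebraMap C K c ≠ 0 := fun c hc h0 =>
    hc (hinj (by rw [h0, map_zero]))
  have hneQ : ∀ c : C, c ∉ Q.1 → algebraMap C K c ≠ 0 := fun c hc =>
    hne c (fun h0 => hc (by rw [h0]; exact Q.1.zero_mem))
  have hnep : ∀ c : C, ¬ p ∣ c → algebraMap C K c ≠ 0 := fun c hc =>
    hne c (fun h0 => hc (by rw [h0]; exact dvd_zero p))
  have hpτ : ¬ p ∣ τ := fun hd =>
    hτ (Ideal.mem_sup_right (Ideal.mem_span_singleton.mpr hd))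
  have hpQ : ∀ c : C, c ∉ Q.1 → ¬ p ∣ c := fun c hc hd => hc (Ideal.mem_of_dvd Q.1 hd Q.2.2)
  have hτK : algebraMap C K τ ≠ 0 := hnep τ hpτ
  intro c hc
  have hc0 : c ≠ 0 := hc.1
  obtain ⟨t, ht, a, hta⟩ : InGauss p c := hc.2.1
  obtain ⟨t', ht', b, htb⟩ : InGauss p c⁻¹ := hc.2.2
  have htK : algebraMap C K t ≠ 0 := hnep t ht
  -- `p ∤ a`
  have ha : ¬ p ∣ a := by
    intro hd
    have h1 : t * t' = b * a := by
      apply hinj
      have h2 : algebraMap C K t' * c⁻¹ * (algebraMap C K t * c) =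
          algebraMap C K t * algebraMap C K t' * (c⁻¹ * c) := by ring
      rw [map_mul, map_mul, ← hta, ← htb, h2, inv_mul_cancel₀ hc0, mul_one]
    have h3 : p ∣ t * t' := by
      rw [h1]
      exact Dvd.dvd.mul_left hd b
    exact (hp.dvd_or_dvd h3).elim ht ht'
  obtain ⟨n, s, x, z, hs, hx, e2⟩ := exists_mul_eq_pow_mul Q.1 Q.2.1 Q.2.2 τ hτQ hτ a ha
  obtain ⟨m, s', x', z', hs', hx', e3⟩ := exists_mul_eq_pow_mul Q.1 Q.2.1 Q.2.2 τ hτQ hτ t ht
  have hsK := hneQ s hs
  have hxK := hneQ x hx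
  have hs'K := hneQ s' hs'
  have hx'K := hneQ x' hx'
  have hA : algebraMap C K τ ^ n * algebraMap C K x ≠ 0 := mul_ne_zero (pow_ne_zero n hτK) hxK
  have hB : algebraMap C K τ ^ m * algebraMap C K x' ≠ 0 := mul_ne_zero (pow_ne_zero m hτK) hx'K
  have e2K : algebraMap C K s * algebraMap C K a =
      algebraMap C K τ ^ n * algebraMap C K x + algebraMap C K p * algebraMap C K z := by
    rw [← map_mul, e2, map_add, map_mul, map_mul, map_pow]
  have e3K : algebraMap C K s' * algebraMap C K t =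
      algebraMap C K τ ^ m * algebraMap C K x' + algebraMap C K p * algebraMap C K z' := by
    rw [← map_mul, e3, map_add, map_mul, map_mul, map_pow]
  -- the two elements of `𝒪`
  have hnd : ∀ (k : ℕ) (y : C), y ∉ Q.1 → ¬ p ∣ τ ^ k * y := fun k y hy hd =>
    (hp.dvd_or_dvd hd).elim (fun h => hpτ (hp.dvd_of_dvd_pow h)) (hpQ y hy)
  have hh1 : InGauss p (algebraMap C K z / (algebraMap C K τ ^ n * algebraMap C K x)) :=
    ⟨τ ^ n * x, hnd n x hx, z, by rw [map_mul, map_pow]; exact mul_div_cancel₀ _ hA⟩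
  have hh2 : InGauss p (algebraMap C K z' / (algebraMap C K τ ^ m * algebraMap C K x')) :=
    ⟨τ ^ m * x', hnd m x' hx', z', by rw [map_mul, map_pow]; exact mul_div_cancel₀ _ hB⟩
  obtain ⟨y', hy', ey'⟩ := InGauss.exists_inv_one_add_pow_mul hinj hp 1 le_rfl hh2
  rw [pow_one] at ey'
  have hr1 : InLoc Q.1 (algebraMap C K x * algebraMap C K s' /
      (algebraMap C K x' * algebraMap C K s)) :=
    ⟨x' * s, fun h => (hQprime.mem_or_mem h).elim hx' hs, x * s', by
      rw [map_mul, map_mul]; exact mul_div_cancel₀ _ (mul_ne_zero hx'K hsK)⟩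
  have hr2 : InLoc Q.1 (algebraMap C K x * algebraMap C K s' /
      (algebraMap C K x' * algebraMap C K s))⁻¹ :=
    ⟨x * s', fun h => (hQprime.mem_or_mem h).elim hx hs', x' * s, by
      rw [map_mul, map_mul, inv_div]; exact mul_div_cancel₀ _ (mul_ne_zero hxK hs'K)⟩
  have hh : InGauss p (algebraMap C K z / (algebraMap C K τ ^ n * algebraMap C K x) + y' +
      algebraMap C K p * (algebraMap C K z / (algebraMap C K τ ^ n * algebraMap C K x)) * y') :=
    (hh1.add hp hy').add hp (((inGauss_algebraMap hp p).mul hp hh1).mul hp hy')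
  exact ⟨(n : ℤ) - (m : ℤ),
    algebraMap C K x * algebraMap C K s' / (algebraMap C K x' * algebraMap C K s),
    ⟨div_ne_zero (mul_ne_zero hxK hs'K) (mul_ne_zero hx'K hsK), mem_locRing.2 hr1,
      mem_locRing.2 hr2⟩,
    algebraMap C K z / (algebraMap C K τ ^ n * algebraMap C K x) + y' +
      algebraMap C K p * (algebraMap C K z / (algebraMap C K τ ^ n * algebraMap C K x)) * y',
    (mem_gaussRing hp).2 hh,
    refUnif_field_identity (algebraMap C K τ) (algebraMap C K p) (algebraMap C K a)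
      (algebraMap C K t) (algebraMap C K s) (algebraMap C K x) (algebraMap C K z)
      (algebraMap C K s') (algebraMap C K x') (algebraMap C K z') y' c n m hτK hxK hx'K hsK hs'K
      htK e2K e3K ey' hta⟩

end Fermat.Agent.Lib.GaussChartUnif
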