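import Fermat.Agent.Lib.GaussChart

/-!
# Uniqueness of the Gauss ring (level-free, Mathlib only)

Program FG (S19), Route C.  Vocabulary of `Lib/GaussChart.lean`.

A valuation ring of `K` with principal maximal ideal `(π)` is determined by any subring which is
itself such a valuation ring with the same uniformiser:

* `GaussRing.eq_of_le_of_mul` : `GaussRing 𝒪 π`, `GaussRing 𝒪' π'`, `𝒪 ≤ 𝒪'`, `π' = π * ε` with
  `ε⁻¹ ∈ 𝒪'` ⟹ `𝒪 = 𝒪'`;
* `GaussRing.eq_of_le` : the case `π' = π`;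
* `GaussRing.mem_iff_of_le` : elementwise form.

It identifies the Gauss rings `C_(π)` of the three chart rings (`C0`, `C∞`, overlap) with each
other and with the `q`-expansion Gauss ring (pulled back from `GaussDVR.V`).
-/

set_option autoImplicit false

namespace Fermat.Agent.Lib.ChartRoots

variable {K : Type*} [Field K]

/-- Two Gauss rings, one inside the other, whose uniformisers differ by a factor `ε` with
`ε⁻¹` in the larger one, are equal. -/
theorem GaussRing.eq_of_le_of_mul {𝒪 𝒪' : Subring K} {π π' ε : K} (h : GaussRing 𝒪 π)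
    (h' : GaussRing 𝒪' π') (hle : 𝒪 ≤ 𝒪') (hε : ε⁻¹ ∈ 𝒪') (hπ : π' = π * ε) : 𝒪 = 𝒪' := by
  refine le_antisymm hle fun x hx' => ?_
  by_contra hx
  have hxi : x⁻¹ ∈ 𝒪 := (h.mem_or_inv_mem x).resolve_left hx
  have hxii : (x⁻¹)⁻¹ ∉ 𝒪 := by rwa [inv_inv]
  obtain ⟨y, hy, e⟩ := h.exists_eq_pi_mul x⁻¹ hxi hxii
  have hx0 : x ≠ 0 := fun h0 => hx (h0 ▸ 𝒪.zero_mem)
  have h1 : x * (π * y) = 1 := by rw [← e, mul_inv_cancel₀ hx0]
  have hπu : π⁻¹ ∈ 𝒪' := by
    have : π⁻¹ = x * y := by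
      have : π * (x * y) = 1 := by rw [← h1]; ring
      exact inv_eq_of_mul_eq_one_right this
    rw [this]; exact 𝒪'.mul_mem hx' (hle hy)
  apply h'.inv_pi_notMem
  rw [hπ, mul_inv]
  exact 𝒪'.mul_mem hπu hε

/-- Two Gauss rings with the same uniformiser, one inside the other, are equal. -/
theorem GaussRing.eq_of_le {𝒪 𝒪' : Subring K} {π : K} (h : GaussRing 𝒪 π)
    (h' : GaussRing 𝒪' π) (hle : 𝒪 ≤ 𝒪') : 𝒪 = 𝒪' :=
  h.eq_of_le_of_mul (ε := 1) h' hle (by rw [inv_one]; exact 𝒪'.one_mem) (mul_one π).symm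

theorem GaussRing.mem_iff_of_le {𝒪 𝒪' : Subring K} {π : K} (h : GaussRing 𝒪 π)
    (h' : GaussRing 𝒪' π) (hle : 𝒪 ≤ 𝒪') (x : K) : x ∈ 𝒪 ↔ x ∈ 𝒪' := by
  rw [h.eq_of_le h' hle]

end Fermat.Agent.Lib.ChartRoots
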