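import Mathlib
import Fermat.Agent.S28.SturmMF
import Fermat.Agent.Lib.Gamma0Index
import Fermat.Agent.Lib.EtaCompute

/-!
# Explicit Hauptmoduln of `Γ₀(2)` and `Γ₀(3)` as formal `q`-series

All statements are identities in `LaurentSeries ℚ` about the Prelude series `jq` (the `q`-expansion
of `j`) and `qExpand ℚ d jq` (`= j(q^d)`).

* `t2 = Δ(q)/Δ(q²) = q⁻¹ - 24 + ⋯`:
  `jq * t2 ^ 2 = (t2 + 256) ^ 3`, `qExpand ℚ 2 jq * t2 = (t2 + 16) ^ 3`,
  `t2 ∈ modularFunctionField 2`, `ℚ⟮t2⟯ = modularFunctionField 2`.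
* `t3 = q⁻¹ ∏ ((1 - qⁿ)/(1 - q³ⁿ))¹² = q⁻¹ - 12 + ⋯` (`t3 ^ 2 = Δ(q)/Δ(q³)`):
  `jq * t3 ^ 3 = (t3 + 27) * (t3 + 243) ^ 3`, `qExpand ℚ 3 jq * t3 = (t3 + 27) * (t3 + 3) ^ 3`,
  `t3 ∈ modularFunctionField 3`, `ℚ⟮t3⟯ = modularFunctionField 3`.
* both are `q⁻¹` times a power series with integer coefficients and constant term `1`
  (`t2_eq`, `t3_eq`), and their inverses are integral power series (`t2_inv_eq`, `t3_inv_eq`).

The identities are proved with the Sturm bound of the Prelude for `Γ₀(2)`, `Γ₀(3)` (through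
`S28.SturmMF.mfGraded`) applied to polynomial identities of weight `36` resp. `48` in `E₄(q^d)`,
`Δ(q^d)`; the finitely many coefficients are evaluated by the kernel (`Lib.EtaCompute`).
-/

set_option autoImplicit false

noncomputable section

namespace Fermat.Agent.Lib.Hauptmodul

open PowerSeries ModularCurve CongruenceSubgroup
open Fermat.Agent.Lib.SeriesCompute Fermat.Agent.Lib.EtaCompute
open Fermat.Agent.S28.SturmMF Fermat.Agent.S28.SturmDep

/-! ### Bridges between the expression language and the rational series of `S28.SturmMF` -/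

/-- change of coefficients `ℤ → ℚ` -/
abbrev toQ : PowerSeries ℤ →+* PowerSeries ℚ := PowerSeries.map (Int.castRingHom ℚ)

lemma toQ_injective : Function.Injective toQ :=
  PowerSeries.map_injective _ Int.cast_injective

lemma pexp_toQ (e : ℕ) (a : PowerSeries ℤ) :
    pexp (e + 1) (toQ a) = toQ (expand (e + 1) (Nat.succ_ne_zero e) a) := by
  ext n
  simp only [coeff_pexp, toQ, coeff_map, coeff_expand]
  split_ifs <;> simp

/-- `Δ = q ∏ (1 - qⁿ)²⁴` as an expression. -/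
def dE : Ex := Ex.mul Ex.X (Ex.pow Ex.eta 24)

lemma toQ_eval_e4 : toQ (eval Ex.e4) = e4Q := rfl

lemma toQ_eval_dE : toQ (eval dE) = deltaQ := by
  simp [dE, eval, deltaQ, dedekindEtaUnit]

lemma toQ_eval_exp (e : ℕ) (a : Ex) : toQ (eval (Ex.exp e a)) = pexp (e + 1) (toQ (eval a)) := by
  rw [pexp_toQ]; rfl

lemma toQ_eval_mul (a b : Ex) : toQ (eval (Ex.mul a b)) = toQ (eval a) * toQ (eval b) := by
  simp [eval]

lemma toQ_eval_add (a b : Ex) : toQ (eval (Ex.add a b)) = toQ (eval a) + toQ (eval b) := by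
  simp [eval]

lemma toQ_eval_sub (a b : Ex) : toQ (eval (Ex.sub a b)) = toQ (eval a) - toQ (eval b) := by
  simp [eval]

lemma toQ_eval_pow (a : Ex) (n : ℕ) : toQ (eval (Ex.pow a n)) = toQ (eval a) ^ n := by
  simp [eval]

lemma toQ_eval_c (n : ℕ) : toQ (eval (Ex.c (n : ℤ))) = (n : PowerSeries ℚ) := by
  simp [eval]

lemma toQ_eval_X : toQ (eval Ex.X) = PowerSeries.X := by
  simp [eval]

/-- **Sturm comparison**: two elements of the weight-`k` piece on `Γ₀(N)` given by expressions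
with the same coefficients up to `q ^ 16` are equal, provided `k [SL₂(ℤ) : Γ₀(N)] / 12 ≤ 16`. -/
theorem eq_of_evalL {N : ℕ} [NeZero N] {k : ℕ} (hk : k * (Gamma0 N).index / 12 ≤ 16)
    {F G : PowerSeries ℚ} (hF : F ∈ (mfGraded N).M k) (hG : G ∈ (mfGraded N).M k)
    (e₁ e₂ : Ex) (h₁ : toQ (eval e₁) = F) (h₂ : toQ (eval e₂) = G)
    (h : evalL 16 LE16 L416 e₁ = evalL 16 LE16 L416 e₂) : F = G := by
  rw [← sub_eq_zero]
  refine (mfGraded N).sturm k (F - G) (Submodule.sub_mem _ hF hG) fun m hm => ?_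
  rw [map_sub, ← h₁, ← h₂, toQ, coeff_map, coeff_map,
    coeff_eval_eq cong_etaProd_16 cong_eisenstein4_16 e₁ e₂ h (hm.trans hk), sub_self]

lemma index_Gamma0_two : (Gamma0 2).index = 3 := by
  rw [Fermat.Agent.Lib.Gamma0Count.index_Gamma0 2 (by norm_num)]
  unfold dedekindPsi
  decide +kernel

lemma index_Gamma0_three : (Gamma0 3).index = 4 := by
  rw [Fermat.Agent.Lib.Gamma0Count.index_Gamma0 3 (by norm_num)]
  unfold dedekindPsi
  decide +kernel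

lemma num_mul_mem {S : Submodule ℚ (PowerSeries ℚ)} (n : ℕ) {y : PowerSeries ℚ} (hy : y ∈ S) :
    (n : PowerSeries ℚ) * y ∈ S := by
  rw [← nsmul_eq_mul]
  exact S.nsmul_mem hy n

/-! ### Generalities on the embedding into Laurent series -/

/-- the embedding `ℚ⟦q⟧ → ℚ((q))` -/
abbrev emb : PowerSeries ℚ →+* LaurentSeries ℚ := HahnSeries.ofPowerSeries ℤ ℚ

lemma emb_X_ne_zero : emb (PowerSeries.X : PowerSeries ℚ) ≠ 0 :=
  Graded.emb_ne_zero PowerSeries.X_ne_zero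

lemma single_neg_one_mul_emb_X :
    HahnSeries.single (-1 : ℤ) (1 : ℚ) * emb (PowerSeries.X : PowerSeries ℚ) = 1 := by
  rw [HahnSeries.ofPowerSeries_X, HahnSeries.single_mul_single]
  simp

lemma emb_deltaQ_ne_zero : emb deltaQ ≠ 0 := Graded.emb_ne_zero deltaQ_ne_zero

lemma emb_pexp_deltaQ_ne_zero (d : ℕ) [NeZero d] : emb (pexp d deltaQ) ≠ 0 :=
  Graded.emb_ne_zero (pexp_ne_zero d deltaQ_ne_zero)

/-- `j(q^d) Δ(q^d) = E₄(q^d)³`. -/
lemma qExpand_jq_mul (d : ℕ) [NeZero d] :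
    qExpand ℚ d jq * emb (pexp d deltaQ) = emb (pexp d e4Q) ^ 3 := by
  have h := congrArg (qExpand ℚ d) jq_mul_emb_deltaQ
  rw [map_mul, map_pow] at h
  rw [emb_pexp, emb_pexp]
  exact h

/-- `j · q = 1 + 744 q + ⋯` as a power series. -/
lemma jq_mul_emb_X : jq * emb (PowerSeries.X : PowerSeries ℚ) = emb jNumQ := by
  rw [jq, mul_right_comm, single_neg_one_mul_emb_X, one_mul]

/-- `j(q^d) · q^d` is the power series `jNumQ(q^d)`. -/
lemma qExpand_jq_mul_emb_X_pow (d : ℕ) [NeZero d] :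
    qExpand ℚ d jq * emb (PowerSeries.X : PowerSeries ℚ) ^ d = emb (pexp d jNumQ) := by
  have h := congrArg (qExpand ℚ d) jq_mul_emb_X
  rw [map_mul, HahnSeries.ofPowerSeries_X, qExpand_single, ← emb_pexp] at h
  rw [← h, HahnSeries.ofPowerSeries_X, HahnSeries.single_pow]
  simp

lemma constantCoeff_pexp_jNumQ (d : ℕ) : PowerSeries.constantCoeff (pexp d jNumQ) = 1 := by
  rw [← PowerSeries.coeff_zero_eq_constantCoeff_apply, coeff_pexp, if_pos (dvd_zero d),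
    Nat.zero_div, PowerSeries.coeff_zero_eq_constantCoeff_apply, constantCoeff_jNumQ]

/-! ### Level 2 -/

/-- `E₄(q)³ Δ(q) Δ(q²) = (Δ(q) + 256 Δ(q²))³`. -/
theorem level2_identity_one :
    e4Q ^ 3 * deltaQ * pexp 2 deltaQ = (deltaQ + 256 * pexp 2 deltaQ) ^ 3 := by
  have hk : 36 * (Gamma0 2).index / 12 ≤ 16 := by rw [index_Gamma0_two]; norm_num
  have hD := deltaQ_mem 2
  have hD2 := pexp_deltaQ_mem 2 (d := 2) dvd_rfl
  have hE := e4Q_mem 2
  refine eq_of_evalL hk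
    ((mfGraded 2).cast_mem (by norm_num)
      ((mfGraded 2).mul_mem ((mfGraded 2).mul_mem ((mfGraded 2).pow_mem hE 3) hD) hD2))
    ((mfGraded 2).cast_mem (by norm_num)
      ((mfGraded 2).pow_mem (Submodule.add_mem _ hD (by simpa using num_mul_mem 256 hD2)) 3))
    (Ex.mul (Ex.mul (Ex.pow Ex.e4 3) dE) (Ex.exp 1 dE))
    (Ex.pow (Ex.add dE (Ex.mul (Ex.c (256 : ℕ)) (Ex.exp 1 dE))) 3) ?_ ?_ (by decide +kernel)
  · rw [toQ_eval_mul, toQ_eval_mul, toQ_eval_pow, toQ_eval_exp, toQ_eval_dE, toQ_eval_e4]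
  · rw [toQ_eval_pow, toQ_eval_add, toQ_eval_mul, toQ_eval_c, toQ_eval_exp, toQ_eval_dE]
    simp

/-- `E₄(q²)³ Δ(q) Δ(q²) = (Δ(q) + 16 Δ(q²))³`. -/
theorem level2_identity_two :
    pexp 2 e4Q ^ 3 * deltaQ * pexp 2 deltaQ = (deltaQ + 16 * pexp 2 deltaQ) ^ 3 := by
  have hk : 36 * (Gamma0 2).index / 12 ≤ 16 := by rw [index_Gamma0_two]; norm_num
  have hD := deltaQ_mem 2
  have hD2 := pexp_deltaQ_mem 2 (d := 2) dvd_rfl
  have hE := pexp_e4Q_mem 2 (d := 2) dvd_rfl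
  refine eq_of_evalL hk
    ((mfGraded 2).cast_mem (by norm_num)
      ((mfGraded 2).mul_mem ((mfGraded 2).mul_mem ((mfGraded 2).pow_mem hE 3) hD) hD2))
    ((mfGraded 2).cast_mem (by norm_num)
      ((mfGraded 2).pow_mem (Submodule.add_mem _ hD (by simpa using num_mul_mem 16 hD2)) 3))
    (Ex.mul (Ex.mul (Ex.pow (Ex.exp 1 Ex.e4) 3) dE) (Ex.exp 1 dE))
    (Ex.pow (Ex.add dE (Ex.mul (Ex.c (16 : ℕ)) (Ex.exp 1 dE))) 3) ?_ ?_ (by decide +kernel)
  · rw [toQ_eval_mul, toQ_eval_mul, toQ_eval_pow, toQ_eval_exp, toQ_eval_exp, toQ_eval_dE,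
      toQ_eval_e4]
  · rw [toQ_eval_pow, toQ_eval_add, toQ_eval_mul, toQ_eval_c, toQ_eval_exp, toQ_eval_dE]
    simp

/-- The Hauptmodul of `Γ₀(2)`: `t₂ = Δ(q)/Δ(q²) = q⁻¹ - 24 + 276 q - ⋯`. -/
def t2 : LaurentSeries ℚ := emb deltaQ / emb (pexp 2 deltaQ)

lemma t2_ne_zero : t2 ≠ 0 :=
  div_ne_zero emb_deltaQ_ne_zero (emb_pexp_deltaQ_ne_zero 2)

/-- `j = (t₂ + 256)³ / t₂²`. -/
theorem jq_mul_t2_sq : jq * t2 ^ 2 = (t2 + 256) ^ 3 := by
  have h1 := congrArg emb level2_identity_one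
  have h2 := jq_mul_emb_deltaQ
  have hD2 := emb_pexp_deltaQ_ne_zero 2
  simp only [map_mul, map_pow, map_add, map_ofNat] at h1
  rw [← h2] at h1
  rw [t2]
  field_simp
  linear_combination h1

/-- `j(q²) = (t₂ + 16)³ / t₂`. -/
theorem jq2_mul_t2 : qExpand ℚ 2 jq * t2 = (t2 + 16) ^ 3 := by
  have h1 := congrArg emb level2_identity_two
  have h2 := qExpand_jq_mul 2
  have hD2 := emb_pexp_deltaQ_ne_zero 2
  simp only [map_mul, map_pow, map_add, map_ofNat] at h1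
  rw [← h2] at h1
  rw [t2]
  field_simp
  linear_combination h1

/-- The linear relation giving `t₂` rationally in terms of `j` and `j(q²)`. -/
lemma rel_two {L : Type*} [Field L] (t j k : L) (ht : t ≠ 0)
    (hP : j * t ^ 2 = (t + 256) ^ 3) (hQ : k * t = (t + 16) ^ 3) :
    t * (j * k - 720 * j - 720 * k - 16250625) = k ^ 2 + 195120 * k + 4095 * j + 660960000 := by
  have hj : j = (t + 256) ^ 3 / t ^ 2 := by rw [eq_div_iff (pow_ne_zero 2 ht)]; exact hP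
  have hk : k = (t + 16) ^ 3 / t := by rw [eq_div_iff ht]; exact hQ
  rw [hj, hk]
  field_simp
  ring

lemma den_two_ne_zero :
    jq * qExpand ℚ 2 jq - 720 * jq - 720 * qExpand ℚ 2 jq - 16250625 ≠ 0 := by
  intro h
  have h1 := jq_mul_emb_X
  have h2 := qExpand_jq_mul_emb_X_pow 2
  have h3 : emb (jNumQ * pexp 2 jNumQ - 720 * jNumQ * PowerSeries.X ^ 2
      - 720 * pexp 2 jNumQ * PowerSeries.X - 16250625 * PowerSeries.X ^ 3) = 0 := by
    simp only [map_sub, map_mul, map_pow, map_ofNat]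
    rw [← h1, ← h2]
    linear_combination (emb (PowerSeries.X : PowerSeries ℚ)) ^ 3 * h
  have h4 := Graded.emb_injective (h3.trans (map_zero _).symm)
  have h5 := congrArg PowerSeries.constantCoeff h4
  simp [constantCoeff_pexp_jNumQ] at h5

/-- `t₂ ∈ ℚ(j, j(q²))`. -/
theorem t2_mem : t2 ∈ modularFunctionField 2 := by
  have hj : jq ∈ modularFunctionField 2 := jq_mem 2
  have hk : qExpand ℚ 2 jq ∈ modularFunctionField 2 := jqN_mem 2
  have h := rel_two t2 jq (qExpand ℚ 2 jq) t2_ne_zero jq_mul_t2_sq jq2_mul_t2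
  have h' : t2 = (qExpand ℚ 2 jq ^ 2 + 195120 * qExpand ℚ 2 jq + 4095 * jq + 660960000) /
      (jq * qExpand ℚ 2 jq - 720 * jq - 720 * qExpand ℚ 2 jq - 16250625) := by
    rw [eq_div_iff den_two_ne_zero]; exact h
  rw [h']
  refine div_mem (add_mem (add_mem (add_mem (pow_mem hk 2) (mul_mem (ofNat_mem _ _) hk))
    (mul_mem (ofNat_mem _ _) hj)) (ofNat_mem _ _)) (sub_mem (sub_mem (sub_mem (mul_mem hj hk)
    (mul_mem (ofNat_mem _ _) hj)) (mul_mem (ofNat_mem _ _) hk)) (ofNat_mem _ _))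

/-- `ℚ(t₂) = ℚ(j, j(q²))`. -/
theorem adjoin_t2 : IntermediateField.adjoin ℚ {t2} = modularFunctionField 2 := by
  apply le_antisymm
  · rw [IntermediateField.adjoin_le_iff]
    rintro x rfl
    exact t2_mem
  · rw [modularFunctionField, IntermediateField.adjoin_le_iff]
    have ht : t2 ∈ IntermediateField.adjoin ℚ ({t2} : Set (LaurentSeries ℚ)) :=
      IntermediateField.subset_adjoin ℚ _ rfl
    rintro x (rfl | rfl)
    · have h : jq = (t2 + 256) ^ 3 / t2 ^ 2 := by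
        rw [eq_div_iff (pow_ne_zero 2 t2_ne_zero)]; exact jq_mul_t2_sq
      rw [h]
      exact div_mem (pow_mem (add_mem ht (ofNat_mem _ _)) 3) (pow_mem ht 2)
    · have h : qExpand ℚ 2 jq = (t2 + 16) ^ 3 / t2 := by
        rw [eq_div_iff t2_ne_zero]; exact jq2_mul_t2
      rw [h]
      exact div_mem (pow_mem (add_mem ht (ofNat_mem _ _)) 3) ht


/-! #### Integrality of `t₂` -/

lemma emb_div_unit (a b : PowerSeries ℤ) (hb : PowerSeries.constantCoeff b = 1) :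
    emb (toQ a) / emb (toQ b) = emb (toQ (a * b.invOfUnit 1)) := by
  have h : b * b.invOfUnit 1 = 1 := PowerSeries.mul_invOfUnit b 1 (by rw [hb]; rfl)
  have h' : emb (toQ b) * emb (toQ (b.invOfUnit 1)) = 1 := by
    rw [← map_mul, ← map_mul, h, map_one, map_one]
  have hb0 : emb (toQ b) ≠ 0 := left_ne_zero_of_mul_eq_one h'
  rw [div_eq_iff hb0, map_mul, map_mul, mul_assoc, mul_comm (emb (toQ (b.invOfUnit 1))), h',
    mul_one]

lemma constantCoeff_etaProd_pow (k : ℕ) : PowerSeries.constantCoeff (etaProd ^ k) = 1 := by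
  rw [map_pow, constantCoeff_etaProd, one_pow]

lemma constantCoeff_expand_etaProd_pow (d : ℕ) (hd : d ≠ 0) (k : ℕ) :
    PowerSeries.constantCoeff (expand d hd (etaProd ^ k)) = 1 := by
  rw [constantCoeff_expand, constantCoeff_etaProd_pow]

lemma constantCoeff_mul_invOfUnit (a b : PowerSeries ℤ) (ha : PowerSeries.constantCoeff a = 1) :
    PowerSeries.constantCoeff (a * b.invOfUnit 1) = 1 := by
  rw [map_mul, ha, PowerSeries.constantCoeff_invOfUnit]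
  simp

lemma single_neg_one_eq : HahnSeries.single (-1 : ℤ) (1 : ℚ)
    = (emb (PowerSeries.X : PowerSeries ℚ))⁻¹ :=
  eq_inv_of_mul_eq_one_left single_neg_one_mul_emb_X

lemma deltaQ_eq (k : ℕ) (hk : 2 * k = 24) :
    deltaQ = PowerSeries.X * toQ (etaProd ^ k) ^ 2 := by
  rw [← map_pow, ← pow_mul, mul_comm k 2, hk]
  simp [deltaQ, dedekindEtaUnit]

lemma pexp_deltaQ_eq (e k : ℕ) (hk : 2 * k = 24) :
    pexp (e + 1) deltaQ = PowerSeries.X ^ (e + 1) *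
      toQ (expand (e + 1) (Nat.succ_ne_zero e) (etaProd ^ k)) ^ 2 := by
  rw [← toQ_eval_dE, pexp_toQ, ← map_pow, ← map_pow, ← pow_mul, mul_comm k 2, hk]
  simp [dE, eval]

lemma emb_deltaQ_eq : emb deltaQ = emb PowerSeries.X * emb (toQ (etaProd ^ 24)) := by
  rw [← map_mul]
  congr 1

lemma emb_pexp_two_deltaQ_eq : emb (pexp 2 deltaQ) = emb PowerSeries.X ^ 2 *
    emb (toQ (expand 2 two_ne_zero (etaProd ^ 24))) := by
  rw [← map_pow, ← map_mul]
  congr 1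
  have h := pexp_deltaQ_eq 1 12 (by norm_num)
  rw [← map_pow, ← map_pow, ← pow_mul] at h
  exact h

lemma emb_toQ_etaProd_pow_ne_zero (k : ℕ) : emb (toQ (etaProd ^ k)) ≠ 0 := by
  refine Graded.emb_ne_zero fun h0 => ?_
  have h := congrArg PowerSeries.constantCoeff h0
  rw [← PowerSeries.coeff_zero_eq_constantCoeff_apply, toQ, coeff_map,
    PowerSeries.coeff_zero_eq_constantCoeff_apply, constantCoeff_etaProd_pow] at h
  simp at h

/-- the integral unit part of `t₂` -/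
def u2 : PowerSeries ℤ := etaProd ^ 24 * (expand 2 two_ne_zero (etaProd ^ 24)).invOfUnit 1

/-- the integral power series `1 / t₂ = q + 24 q² + ⋯` -/
def w2 : PowerSeries ℤ :=
  PowerSeries.X * (expand 2 two_ne_zero (etaProd ^ 24) * (etaProd ^ 24).invOfUnit 1)

theorem constantCoeff_u2 : PowerSeries.constantCoeff u2 = 1 :=
  constantCoeff_mul_invOfUnit _ _ (constantCoeff_etaProd_pow 24)

/-- `t₂ = q⁻¹ · u₂` with `u₂ ∈ 1 + q ℤ⟦q⟧`. -/
theorem t2_eq : t2 = HahnSeries.single (-1 : ℤ) (1 : ℚ) * emb (toQ u2) := by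
  have hx := emb_X_ne_zero
  rw [t2, emb_deltaQ_eq, emb_pexp_two_deltaQ_eq, u2,
    ← emb_div_unit _ _ (constantCoeff_expand_etaProd_pow 2 two_ne_zero 24), single_neg_one_eq]
  field_simp

/-- `1 / t₂` is the integral power series `w₂ = q + 24 q² + ⋯`. -/
theorem t2_inv_eq : t2⁻¹ = emb (toQ w2) := by
  have hx := emb_X_ne_zero
  have h3 := emb_div_unit (expand 2 two_ne_zero (etaProd ^ 24)) (etaProd ^ 24)
    (constantCoeff_etaProd_pow 24)
  have hne := emb_toQ_etaProd_pow_ne_zero 24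
  rw [t2, emb_deltaQ_eq, emb_pexp_two_deltaQ_eq, w2, map_mul, map_mul, ← h3, map_X]
  field_simp


/-! ### Level 3 -/

/-- `U₁ = E₄³ - 756 Δ - 19131876 Δ(q³)` as an expression. -/
def u1E : Ex :=
  Ex.sub (Ex.sub (Ex.pow Ex.e4 3) (Ex.mul (Ex.c (756 : ℕ)) dE))
    (Ex.mul (Ex.c (19131876 : ℕ)) (Ex.exp 2 dE))

/-- `V₁ = Δ² + 196830 Δ Δ(q³) + 387420489 Δ(q³)²` as an expression. -/
def v1E : Ex :=
  Ex.add (Ex.add (Ex.pow dE 2) (Ex.mul (Ex.c (196830 : ℕ)) (Ex.mul dE (Ex.exp 2 dE))))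
    (Ex.mul (Ex.c (387420489 : ℕ)) (Ex.pow (Ex.exp 2 dE) 2))

/-- `U₂ = E₄(q³)³ - 36 Δ - 756 Δ(q³)` as an expression. -/
def u2E : Ex :=
  Ex.sub (Ex.sub (Ex.pow (Ex.exp 2 Ex.e4) 3) (Ex.mul (Ex.c (36 : ℕ)) dE))
    (Ex.mul (Ex.c (756 : ℕ)) (Ex.exp 2 dE))

/-- `V₂ = Δ² + 270 Δ Δ(q³) + 729 Δ(q³)²` as an expression. -/
def v2E : Ex :=
  Ex.add (Ex.add (Ex.pow dE 2) (Ex.mul (Ex.c (270 : ℕ)) (Ex.mul dE (Ex.exp 2 dE))))
    (Ex.mul (Ex.c (729 : ℕ)) (Ex.pow (Ex.exp 2 dE) 2))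

lemma toQ_eval_u1E : toQ (eval u1E) = e4Q ^ 3 - 756 * deltaQ - 19131876 * pexp 3 deltaQ := by
  simp only [u1E, toQ_eval_sub, toQ_eval_pow, toQ_eval_mul, toQ_eval_c, toQ_eval_exp,
    toQ_eval_dE, toQ_eval_e4]
  simp

lemma toQ_eval_v1E : toQ (eval v1E) =
    deltaQ ^ 2 + 196830 * (deltaQ * pexp 3 deltaQ) + 387420489 * pexp 3 deltaQ ^ 2 := by
  simp only [v1E, toQ_eval_add, toQ_eval_pow, toQ_eval_mul, toQ_eval_c, toQ_eval_exp,
    toQ_eval_dE]
  simp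

lemma toQ_eval_u2E : toQ (eval u2E) = pexp 3 e4Q ^ 3 - 36 * deltaQ - 756 * pexp 3 deltaQ := by
  simp only [u2E, toQ_eval_sub, toQ_eval_pow, toQ_eval_mul, toQ_eval_c, toQ_eval_exp,
    toQ_eval_dE, toQ_eval_e4]
  simp

lemma toQ_eval_v2E : toQ (eval v2E) =
    deltaQ ^ 2 + 270 * (deltaQ * pexp 3 deltaQ) + 729 * pexp 3 deltaQ ^ 2 := by
  simp only [v2E, toQ_eval_add, toQ_eval_pow, toQ_eval_mul, toQ_eval_c, toQ_eval_exp,
    toQ_eval_dE]
  simp

/-- weight-48 identity on `Γ₀(3)`: `Δ Δ(q³) U₁² = V₁²`. -/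
theorem level3_sq_one :
    deltaQ * pexp 3 deltaQ * (e4Q ^ 3 - 756 * deltaQ - 19131876 * pexp 3 deltaQ) ^ 2 =
      (deltaQ ^ 2 + 196830 * (deltaQ * pexp 3 deltaQ) + 387420489 * pexp 3 deltaQ ^ 2) ^ 2 := by
  have hk : 48 * (Gamma0 3).index / 12 ≤ 16 := by rw [index_Gamma0_three]
  have hD := deltaQ_mem 3
  have hD3 := pexp_deltaQ_mem 3 (d := 3) dvd_rfl
  have hE : e4Q ^ 3 ∈ (mfGraded 3).M 12 :=
    (mfGraded 3).cast_mem (by norm_num) ((mfGraded 3).pow_mem (e4Q_mem 3) 3)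
  have hDD3 : deltaQ * pexp 3 deltaQ ∈ (mfGraded 3).M 24 :=
    (mfGraded 3).cast_mem (by norm_num) ((mfGraded 3).mul_mem hD hD3)
  have hD3sq : pexp 3 deltaQ ^ 2 ∈ (mfGraded 3).M 24 :=
    (mfGraded 3).cast_mem (by norm_num) ((mfGraded 3).pow_mem hD3 2)
  have hU : e4Q ^ 3 - 756 * deltaQ - 19131876 * pexp 3 deltaQ ∈ (mfGraded 3).M 12 :=
    Submodule.sub_mem _ (Submodule.sub_mem _ hE (by simpa using num_mul_mem 756 hD))
      (by simpa using num_mul_mem 19131876 hD3)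
  have hV : deltaQ ^ 2 + 196830 * (deltaQ * pexp 3 deltaQ) + 387420489 * pexp 3 deltaQ ^ 2
      ∈ (mfGraded 3).M 24 :=
    Submodule.add_mem _ (Submodule.add_mem _
      ((mfGraded 3).cast_mem (by norm_num) ((mfGraded 3).pow_mem hD 2))
      (by simpa using num_mul_mem 196830 hDD3))
      (by simpa using num_mul_mem 387420489 hD3sq)
  refine eq_of_evalL hk
    ((mfGraded 3).cast_mem (by norm_num) ((mfGraded 3).mul_mem hDD3 ((mfGraded 3).pow_mem hU 2)))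
    ((mfGraded 3).cast_mem (by norm_num) ((mfGraded 3).pow_mem hV 2))
    (Ex.mul (Ex.mul dE (Ex.exp 2 dE)) (Ex.pow u1E 2)) (Ex.pow v1E 2) ?_ ?_ (by decide +kernel)
  · rw [toQ_eval_mul, toQ_eval_mul, toQ_eval_pow, toQ_eval_exp, toQ_eval_dE, toQ_eval_u1E]
  · rw [toQ_eval_pow, toQ_eval_v1E]

/-- weight-48 identity on `Γ₀(3)`: `Δ Δ(q³) U₂² = V₂²`. -/
theorem level3_sq_two :
    deltaQ * pexp 3 deltaQ * (pexp 3 e4Q ^ 3 - 36 * deltaQ - 756 * pexp 3 deltaQ) ^ 2 =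
      (deltaQ ^ 2 + 270 * (deltaQ * pexp 3 deltaQ) + 729 * pexp 3 deltaQ ^ 2) ^ 2 := by
  have hk : 48 * (Gamma0 3).index / 12 ≤ 16 := by rw [index_Gamma0_three]
  have hD := deltaQ_mem 3
  have hD3 := pexp_deltaQ_mem 3 (d := 3) dvd_rfl
  have hE : pexp 3 e4Q ^ 3 ∈ (mfGraded 3).M 12 :=
    (mfGraded 3).cast_mem (by norm_num)
      ((mfGraded 3).pow_mem (pexp_e4Q_mem 3 (d := 3) dvd_rfl) 3)
  have hDD3 : deltaQ * pexp 3 deltaQ ∈ (mfGraded 3).M 24 :=
    (mfGraded 3).cast_mem (by norm_num) ((mfGraded 3).mul_mem hD hD3)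
  have hD3sq : pexp 3 deltaQ ^ 2 ∈ (mfGraded 3).M 24 :=
    (mfGraded 3).cast_mem (by norm_num) ((mfGraded 3).pow_mem hD3 2)
  have hU : pexp 3 e4Q ^ 3 - 36 * deltaQ - 756 * pexp 3 deltaQ ∈ (mfGraded 3).M 12 :=
    Submodule.sub_mem _ (Submodule.sub_mem _ hE (by simpa using num_mul_mem 36 hD))
      (by simpa using num_mul_mem 756 hD3)
  have hV : deltaQ ^ 2 + 270 * (deltaQ * pexp 3 deltaQ) + 729 * pexp 3 deltaQ ^ 2
      ∈ (mfGraded 3).M 24 :=
    Submodule.add_mem _ (Submodule.add_mem _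
      ((mfGraded 3).cast_mem (by norm_num) ((mfGraded 3).pow_mem hD 2))
      (by simpa using num_mul_mem 270 hDD3))
      (by simpa using num_mul_mem 729 hD3sq)
  refine eq_of_evalL hk
    ((mfGraded 3).cast_mem (by norm_num) ((mfGraded 3).mul_mem hDD3 ((mfGraded 3).pow_mem hU 2)))
    ((mfGraded 3).cast_mem (by norm_num) ((mfGraded 3).pow_mem hV 2))
    (Ex.mul (Ex.mul dE (Ex.exp 2 dE)) (Ex.pow u2E 2)) (Ex.pow v2E 2) ?_ ?_ (by decide +kernel)
  · rw [toQ_eval_mul, toQ_eval_mul, toQ_eval_pow, toQ_eval_exp, toQ_eval_dE, toQ_eval_u2E]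
  · rw [toQ_eval_pow, toQ_eval_v2E]


/-- `∏ (1 - qⁿ)¹²` as an expression. -/
def aE : Ex := Ex.pow Ex.eta 12

/-- `q ∏ (1 - q³ⁿ)¹²` as an expression. -/
def bE : Ex := Ex.mul Ex.X (Ex.pow (Ex.exp 2 Ex.eta) 12)

/-- `a = ∏ (1 - qⁿ)¹²` (so `η(τ)¹² = q^(1/2) a`). -/
def aQ : PowerSeries ℚ := toQ (eval aE)

/-- `b = q ∏ (1 - q³ⁿ)¹²` (so `η(3τ)¹² = q^(1/2) b`). -/
def bQ : PowerSeries ℚ := toQ (eval bE)

lemma aQ_eq : aQ = toQ (etaProd ^ 12) := rfl

lemma bQ_eq : bQ = PowerSeries.X * toQ (expand 3 three_ne_zero (etaProd ^ 12)) := by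
  simp [bQ, bE, eval]

lemma deltaQ_eq_aQ : deltaQ = PowerSeries.X * aQ ^ 2 := deltaQ_eq 12 (by norm_num)

lemma pexp_three_deltaQ_eq_bQ : pexp 3 deltaQ = PowerSeries.X * bQ ^ 2 := by
  have h := pexp_deltaQ_eq 2 12 (by norm_num)
  rw [bQ_eq]
  refine h.trans ?_
  ring

lemma bQ_ne_zero : bQ ≠ 0 := by
  intro h
  have h3 := pexp_ne_zero 3 deltaQ_ne_zero
  rw [pexp_three_deltaQ_eq_bQ, h] at h3
  simp at h3

/-- the "plus" combination `q a b U + V`, nonzero for either of the two identities -/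
lemma plus_ne_zero (uE vE : Ex)
    (h : (evalL 16 LE16 L416 (Ex.add (Ex.mul (Ex.mul (Ex.mul Ex.X aE) bE) uE) vE)).getD 2 0 = 2) :
    PowerSeries.X * aQ * bQ * toQ (eval uE) + toQ (eval vE) ≠ 0 := by
  intro h0
  have h1 : toQ (eval (Ex.add (Ex.mul (Ex.mul (Ex.mul Ex.X aE) bE) uE) vE)) = 0 := by
    rw [toQ_eval_add, toQ_eval_mul, toQ_eval_mul, toQ_eval_mul, toQ_eval_X]
    exact h0
  have h2 := congrArg (PowerSeries.coeff 2) h1
  rw [toQ, coeff_map, coeff_eval cong_etaProd_16 cong_eisenstein4_16 _ (by norm_num : 2 ≤ 16),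
    h] at h2
  simp at h2

/-- `E₄³ a b = q (a + 27 b) (a + 243 b)³`, where `a = ∏ (1 - qⁿ)¹²`, `b = q ∏ (1 - q³ⁿ)¹²`. -/
theorem level3_identity_one :
    aQ * bQ * e4Q ^ 3 = PowerSeries.X * (aQ + 27 * bQ) * (aQ + 243 * bQ) ^ 3 := by
  have h := level3_sq_one
  rw [pexp_three_deltaQ_eq_bQ, deltaQ_eq_aQ] at h
  have hS := plus_ne_zero u1E v1E (by decide +kernel)
  rw [toQ_eval_u1E, toQ_eval_v1E, pexp_three_deltaQ_eq_bQ, deltaQ_eq_aQ] at hS
  have hprod : PowerSeries.X * (aQ * bQ * e4Q ^ 3 -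
      PowerSeries.X * (aQ + 27 * bQ) * (aQ + 243 * bQ) ^ 3) *
      (PowerSeries.X * aQ * bQ * (e4Q ^ 3 - 756 * (PowerSeries.X * aQ ^ 2)
        - 19131876 * (PowerSeries.X * bQ ^ 2)) + ((PowerSeries.X * aQ ^ 2) ^ 2
        + 196830 * (PowerSeries.X * aQ ^ 2 * (PowerSeries.X * bQ ^ 2))
        + 387420489 * (PowerSeries.X * bQ ^ 2) ^ 2)) = 0 := by
    linear_combination h
  rcases mul_eq_zero.mp hprod with h1 | h1
  · rcases mul_eq_zero.mp h1 with h2 | h2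
    · exact absurd h2 PowerSeries.X_ne_zero
    · exact sub_eq_zero.mp h2
  · exact absurd h1 hS

/-- `E₄(q³)³ a b = q (a + 27 b) (a + 3 b)³`. -/
theorem level3_identity_two :
    aQ * bQ * pexp 3 e4Q ^ 3 = PowerSeries.X * (aQ + 27 * bQ) * (aQ + 3 * bQ) ^ 3 := by
  have h := level3_sq_two
  rw [pexp_three_deltaQ_eq_bQ, deltaQ_eq_aQ] at h
  have hS := plus_ne_zero u2E v2E (by decide +kernel)
  rw [toQ_eval_u2E, toQ_eval_v2E, pexp_three_deltaQ_eq_bQ, deltaQ_eq_aQ] at hS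
  have hprod : PowerSeries.X * (aQ * bQ * pexp 3 e4Q ^ 3 -
      PowerSeries.X * (aQ + 27 * bQ) * (aQ + 3 * bQ) ^ 3) *
      (PowerSeries.X * aQ * bQ * (pexp 3 e4Q ^ 3 - 36 * (PowerSeries.X * aQ ^ 2)
        - 756 * (PowerSeries.X * bQ ^ 2)) + ((PowerSeries.X * aQ ^ 2) ^ 2
        + 270 * (PowerSeries.X * aQ ^ 2 * (PowerSeries.X * bQ ^ 2))
        + 729 * (PowerSeries.X * bQ ^ 2) ^ 2)) = 0 := by
    linear_combination h
  rcases mul_eq_zero.mp hprod with h1 | h1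
  · rcases mul_eq_zero.mp h1 with h2 | h2
    · exact absurd h2 PowerSeries.X_ne_zero
    · exact sub_eq_zero.mp h2
  · exact absurd h1 hS

/-- The Hauptmodul of `Γ₀(3)`: `t₃ = (η(τ)/η(3τ))¹² = q⁻¹ - 12 + 54 q - ⋯`. -/
def t3 : LaurentSeries ℚ := emb aQ / emb bQ

lemma emb_bQ_ne_zero : emb bQ ≠ 0 := Graded.emb_ne_zero bQ_ne_zero

lemma emb_aQ_ne_zero : emb aQ ≠ 0 := emb_toQ_etaProd_pow_ne_zero 12

lemma t3_ne_zero : t3 ≠ 0 := div_ne_zero emb_aQ_ne_zero emb_bQ_ne_zero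

/-- `j = (t₃ + 27)(t₃ + 243)³ / t₃³`. -/
theorem jq_mul_t3_cube : jq * t3 ^ 3 = (t3 + 27) * (t3 + 243) ^ 3 := by
  have h1 := congrArg emb level3_identity_one
  have h2 := jq_mul_emb_deltaQ
  have hb := emb_bQ_ne_zero
  rw [deltaQ_eq_aQ] at h2
  simp only [map_mul, map_pow, map_add, map_ofNat] at h1 h2
  rw [← h2] at h1
  have key : jq * emb aQ ^ 3 * emb bQ = (emb aQ + 27 * emb bQ) * (emb aQ + 243 * emb bQ) ^ 3 :=
    mul_left_cancel₀ emb_X_ne_zero (by linear_combination h1)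
  rw [t3]
  field_simp
  linear_combination key

/-- `j(q³) = (t₃ + 27)(t₃ + 3)³ / t₃`. -/
theorem jq3_mul_t3 : qExpand ℚ 3 jq * t3 = (t3 + 27) * (t3 + 3) ^ 3 := by
  have h1 := congrArg emb level3_identity_two
  have h2 := qExpand_jq_mul 3
  have hb := emb_bQ_ne_zero
  rw [pexp_three_deltaQ_eq_bQ] at h2
  simp only [map_mul, map_pow, map_add, map_ofNat] at h1 h2
  rw [← h2] at h1
  have key : qExpand ℚ 3 jq * emb aQ * emb bQ ^ 3 =
      (emb aQ + 27 * emb bQ) * (emb aQ + 3 * emb bQ) ^ 3 :=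
    mul_left_cancel₀ emb_X_ne_zero (by linear_combination h1)
  rw [t3]
  field_simp
  linear_combination key

/-- `t₃² = Δ(q)/Δ(q³)`. -/
theorem t3_sq : t3 ^ 2 = emb deltaQ / emb (pexp 3 deltaQ) := by
  have hb := emb_bQ_ne_zero
  have hx := emb_X_ne_zero
  rw [t3, pexp_three_deltaQ_eq_bQ, deltaQ_eq_aQ]
  simp only [map_mul, map_pow]
  field_simp


/-- The linear relation giving `t₃` rationally in terms of `j` and `j(q³)`. -/
lemma rel_three {L : Type*} [Field L] (t j k : L) (ht : t ≠ 0)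
    (hP : j * t ^ 3 = (t + 27) * (t + 243) ^ 3) (hQ : k * t = (t + 27) * (t + 3) ^ 3) :
    t * (-3623878656000000000 + 276373831680000 * k - 103456080 * k ^ 2 + k ^ 3
        + 14229831680000 * j + 18821147040 * j * k + 196830 * j * k ^ 2 - 524880 * j ^ 2
        + 729 * j ^ 2 * k) =
      97844723712000000000 - 14204206448640000 * k + 23150726640 * k ^ 2 - 756 * k ^ 3
        - 48430448640000 * j + 76509442080 * j * k + 19129644 * j * k ^ 2 + j * k ^ 3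
        + 531440 * j ^ 2 := by
  have hj : j = (t + 27) * (t + 243) ^ 3 / t ^ 3 := by
    rw [eq_div_iff (pow_ne_zero 3 ht)]; exact hP
  have hk : k = (t + 27) * (t + 3) ^ 3 / t := by rw [eq_div_iff ht]; exact hQ
  rw [hj, hk]
  field_simp
  ring

lemma den_three_ne_zero :
    -3623878656000000000 + 276373831680000 * qExpand ℚ 3 jq - 103456080 * qExpand ℚ 3 jq ^ 2
      + qExpand ℚ 3 jq ^ 3 + 14229831680000 * jq + 18821147040 * jq * qExpand ℚ 3 jq
      + 196830 * jq * qExpand ℚ 3 jq ^ 2 - 524880 * jq ^ 2 + 729 * jq ^ 2 * qExpand ℚ 3 jq ≠ 0 := by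
  intro h
  have h1 := jq_mul_emb_X
  have h2 := qExpand_jq_mul_emb_X_pow 3
  have h3 : emb (-3623878656000000000 * PowerSeries.X ^ 9
      + 276373831680000 * pexp 3 jNumQ * PowerSeries.X ^ 6
      - 103456080 * pexp 3 jNumQ ^ 2 * PowerSeries.X ^ 3 + pexp 3 jNumQ ^ 3
      + 14229831680000 * jNumQ * PowerSeries.X ^ 8
      + 18821147040 * jNumQ * pexp 3 jNumQ * PowerSeries.X ^ 5
      + 196830 * jNumQ * pexp 3 jNumQ ^ 2 * PowerSeries.X ^ 2
      - 524880 * jNumQ ^ 2 * PowerSeries.X ^ 7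
      + 729 * jNumQ ^ 2 * pexp 3 jNumQ * PowerSeries.X ^ 4) = 0 := by
    simp only [map_sub, map_add, map_mul, map_pow, map_neg, map_ofNat]
    rw [← h1, ← h2]
    linear_combination (emb (PowerSeries.X : PowerSeries ℚ)) ^ 9 * h
  have h4 := Graded.emb_injective (h3.trans (map_zero _).symm)
  have h5 := congrArg PowerSeries.constantCoeff h4
  simp [constantCoeff_pexp_jNumQ] at h5

/-- `t₃ ∈ ℚ(j, j(q³))`. -/
theorem t3_mem : t3 ∈ modularFunctionField 3 := by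
  have hj : jq ∈ modularFunctionField 3 := jq_mem 3
  have hk : qExpand ℚ 3 jq ∈ modularFunctionField 3 := jqN_mem 3
  have h := rel_three t3 jq (qExpand ℚ 3 jq) t3_ne_zero jq_mul_t3_cube jq3_mul_t3
  rw [← eq_div_iff den_three_ne_zero] at h
  rw [h]
  refine div_mem ?_ ?_
  · exact add_mem (add_mem (add_mem (add_mem (sub_mem (sub_mem (add_mem (sub_mem (ofNat_mem _ _)
      (mul_mem (ofNat_mem _ _) hk)) (mul_mem (ofNat_mem _ _) (pow_mem hk 2)))
      (mul_mem (ofNat_mem _ _) (pow_mem hk 3))) (mul_mem (ofNat_mem _ _) hj))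
      (mul_mem (mul_mem (ofNat_mem _ _) hj) hk)) (mul_mem (mul_mem (ofNat_mem _ _) hj)
      (pow_mem hk 2))) (mul_mem hj (pow_mem hk 3))) (mul_mem (ofNat_mem _ _) (pow_mem hj 2))
  · exact add_mem (sub_mem (add_mem (add_mem (add_mem (add_mem (sub_mem (add_mem
      (neg_mem (ofNat_mem _ _)) (mul_mem (ofNat_mem _ _) hk))
      (mul_mem (ofNat_mem _ _) (pow_mem hk 2))) (pow_mem hk 3)) (mul_mem (ofNat_mem _ _) hj))
      (mul_mem (mul_mem (ofNat_mem _ _) hj) hk)) (mul_mem (mul_mem (ofNat_mem _ _) hj)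
      (pow_mem hk 2))) (mul_mem (ofNat_mem _ _) (pow_mem hj 2)))
      (mul_mem (mul_mem (ofNat_mem _ _) (pow_mem hj 2)) hk)

/-- `ℚ(t₃) = ℚ(j, j(q³))`. -/
theorem adjoin_t3 : IntermediateField.adjoin ℚ {t3} = modularFunctionField 3 := by
  apply le_antisymm
  · rw [IntermediateField.adjoin_le_iff]
    rintro x rfl
    exact t3_mem
  · rw [modularFunctionField, IntermediateField.adjoin_le_iff]
    have ht : t3 ∈ IntermediateField.adjoin ℚ ({t3} : Set (LaurentSeries ℚ)) :=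
      IntermediateField.subset_adjoin ℚ _ rfl
    rintro x (rfl | rfl)
    · have h : jq = (t3 + 27) * (t3 + 243) ^ 3 / t3 ^ 3 := by
        rw [eq_div_iff (pow_ne_zero 3 t3_ne_zero)]; exact jq_mul_t3_cube
      rw [h]
      exact div_mem (mul_mem (add_mem ht (ofNat_mem _ _)) (pow_mem (add_mem ht (ofNat_mem _ _)) 3))
        (pow_mem ht 3)
    · have h : qExpand ℚ 3 jq = (t3 + 27) * (t3 + 3) ^ 3 / t3 := by
        rw [eq_div_iff t3_ne_zero]; exact jq3_mul_t3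
      rw [h]
      exact div_mem (mul_mem (add_mem ht (ofNat_mem _ _)) (pow_mem (add_mem ht (ofNat_mem _ _)) 3))
        ht

/-! #### Integrality of `t₃` -/

/-- the integral unit part of `t₃` -/
def u3 : PowerSeries ℤ := etaProd ^ 12 * (expand 3 three_ne_zero (etaProd ^ 12)).invOfUnit 1

/-- the integral power series `1 / t₃ = q + 12 q² + ⋯` -/
def w3 : PowerSeries ℤ :=
  PowerSeries.X * (expand 3 three_ne_zero (etaProd ^ 12) * (etaProd ^ 12).invOfUnit 1)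

theorem constantCoeff_u3 : PowerSeries.constantCoeff u3 = 1 :=
  constantCoeff_mul_invOfUnit _ _ (constantCoeff_etaProd_pow 12)

/-- `t₃ = q⁻¹ · u₃` with `u₃ ∈ 1 + q ℤ⟦q⟧`. -/
theorem t3_eq : t3 = HahnSeries.single (-1 : ℤ) (1 : ℚ) * emb (toQ u3) := by
  have hx := emb_X_ne_zero
  rw [t3, aQ_eq, bQ_eq, map_mul, u3,
    ← emb_div_unit _ _ (constantCoeff_expand_etaProd_pow 3 three_ne_zero 12), single_neg_one_eq]
  field_simp

/-- `1 / t₃` is the integral power series `w₃ = q + 12 q² + ⋯`. -/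
theorem t3_inv_eq : t3⁻¹ = emb (toQ w3) := by
  have hx := emb_X_ne_zero
  have h3 := emb_div_unit (expand 3 three_ne_zero (etaProd ^ 12)) (etaProd ^ 12)
    (constantCoeff_etaProd_pow 12)
  have hne := emb_toQ_etaProd_pow_ne_zero 12
  rw [t3, aQ_eq, bQ_eq, w3, map_mul, map_mul, map_mul, ← h3, map_X]
  field_simp

end Fermat.Agent.Lib.Hauptmodul
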