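import Mathlib
import Fermat.Agent.Lib.Hauptmodul
import Fermat.Agent.S30.Haupt.Two
import Fermat.Agent.S30.Haupt.Three

/-!
# Bridge between `Lib.Hauptmodul` (`t₂`, `t₃`) and `S30.Haupt` (`s₂ = 1/t₂`, `s₃ = 1/t₃`)

In particular `s₃ ∈ ℚ(j, j(q³))` (membership for level 3), from `Lib.Hauptmodul.t3_mem`.
-/

set_option autoImplicit false

noncomputable section

namespace Fermat.Agent.Lib.HauptBridge

open PowerSeries ModularCurve
open Fermat.Agent.S28.SturmMF Fermat.Agent.S28.SturmDep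
open Fermat.Agent.Lib.Hauptmodul

/-- `s₂ = 1 / t₂`. -/
theorem s2_eq_inv : Fermat.Agent.S30.Haupt.Two.s2 = t2⁻¹ := by
  rw [Fermat.Agent.S30.Haupt.Two.s2, t2, inv_div, emb_pexp]

/-- `s₃ = 1 / t₃`. -/
theorem s3_eq_inv : Fermat.Agent.S30.Haupt.Three.s3 = t3⁻¹ := by
  rw [t3_inv_eq, Fermat.Agent.S30.Haupt.Three.s3, Fermat.Agent.S30.Haupt.Three.s3Q]
  congr 2
  rw [Fermat.Agent.S30.Haupt.Three.s3Z, w3, Fermat.Agent.S30.Haupt.Three.eta12Inv, map_pow]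
  congr 3
  ext n
  rw [coeff_pexp, coeff_expand]

/-- `t₂ = 1 / s₂`. -/
theorem t2_eq_inv : t2 = (Fermat.Agent.S30.Haupt.Two.s2)⁻¹ := by
  rw [s2_eq_inv, inv_inv]

/-- `t₃ = 1 / s₃`. -/
theorem t3_eq_inv : t3 = (Fermat.Agent.S30.Haupt.Three.s3)⁻¹ := by
  rw [s3_eq_inv, inv_inv]

/-- `s₃ ∈ ℚ(j, j(q³))`. -/
theorem s3_mem : Fermat.Agent.S30.Haupt.Three.s3 ∈ modularFunctionField 3 := by
  rw [s3_eq_inv]
  exact inv_mem t3_mem

/-- `s₃ ∈ F_M` for `3 ∣ M`. -/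
theorem s3_mem_full (M : ℕ) [NeZero M] (h : 3 ∣ M) :
    Fermat.Agent.S30.Haupt.Three.s3 ∈ modularFunctionFieldFull M :=
  full_degeneracy_le h (modularFunctionField_le_full 3 s3_mem)

/-- `t₂ ∈ F_M` for `2 ∣ M`. -/
theorem t2_mem_full (M : ℕ) [NeZero M] (h : 2 ∣ M) : t2 ∈ modularFunctionFieldFull M :=
  full_degeneracy_le h (modularFunctionField_le_full 2 t2_mem)

/-- `t₃ ∈ F_M` for `3 ∣ M`. -/
theorem t3_mem_full (M : ℕ) [NeZero M] (h : 3 ∣ M) : t3 ∈ modularFunctionFieldFull M :=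
  full_degeneracy_le h (modularFunctionField_le_full 3 t3_mem)

end Fermat.Agent.Lib.HauptBridge
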