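import Fermat.Agent.Lib.HerbrandInduced

/-!
# Herbrand quotients: semilocal Shapiro lemma (helper176, PROGRAM CFT)

`G = ⟨σ⟩` finite cyclic acting on `B`.  If `B = ⨁_{i < d} σ^i • A₀` for a subgroup `A₀` stable
under `σ^d` (with `d * m = |G|`), then the Herbrand indices of `B` for `(σ - 1, N_G)` equal those
of `A₀` for `(σ^d - 1, ∑_{j < m} σ^(d j))`, i.e. for the subgroup `⟨σ^d⟩` of order `m`
(`hq_shapiro`).  `hq_semilocal` is the same statement for a family `C x` of subgroups indexed by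
a finite transitive `G`-set `X` with `B = ⨁_x C x` (places above a fixed place).
-/

set_option autoImplicit false

namespace Fermat.Agent.Lib.Herbrand

section Transport

variable {A B : Type*} [AddCommGroup A] [AddCommGroup B]

/-- Transport of `hq` along an additive isomorphism. -/
theorem hq_congr (e : A ≃+ B) {f g : A →+ A} {f' g' : B →+ B}
    (hf : ∀ a, e (f a) = f' (e a)) (hg : ∀ a, e (g a) = g' (e a)) : hq f g = hq f' g' := by
  have e1 : g.range.map e.toAddMonoidHom = g'.range := by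
    ext x
    simp only [AddSubgroup.mem_map, AddMonoidHom.mem_range]
    constructor
    · rintro ⟨_, ⟨a, rfl⟩, rfl⟩
      exact ⟨e a, (hg a).symm⟩
    · rintro ⟨b, rfl⟩
      refine ⟨g (e.symm b), ⟨_, rfl⟩, ?_⟩
      change e (g (e.symm b)) = _
      rw [hg, AddEquiv.apply_symm_apply]
  have e2 : f.ker.map e.toAddMonoidHom = f'.ker := by
    ext x
    simp only [AddSubgroup.mem_map, AddMonoidHom.mem_ker]
    constructor
    · rintro ⟨a, ha, rfl⟩
      change f' (e a) = 0
      rw [← hf, ha, map_zero]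
    · intro hx
      refine ⟨e.symm x, ?_, e.apply_symm_apply x⟩
      apply e.injective
      rw [hf, AddEquiv.apply_symm_apply, hx, map_zero]
  rw [hq, hq, ← e1, ← e2]
  exact (AddSubgroup.relIndex_map_map_of_injective g.range f.ker e.injective).symm

theorem herbrand_congr (e : A ≃+ B) {f g : A →+ A} {f' g' : B →+ B}
    (hf : ∀ a, e (f a) = f' (e a)) (hg : ∀ a, e (g a) = g' (e a)) :
    herbrand f g = herbrand f' g' := by
  rw [herbrand, herbrand, hq_congr e hf hg, hq_congr e hg hf]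

theorem defined_congr (e : A ≃+ B) {f g : A →+ A} {f' g' : B →+ B}
    (hf : ∀ a, e (f a) = f' (e a)) (hg : ∀ a, e (g a) = g' (e a)) :
    Defined f g ↔ Defined f' g' := by
  rw [Defined, Defined, hq_congr e hf hg, hq_congr e hg hf]

end Transport

section PowNorm

variable {G : Type*} [Group G] (B : Type*) [AddCommGroup B] [DistribMulAction G B]

/-- The partial norm `b ↦ ∑_{j < m} σ^(d j) • b` (the norm of the subgroup `⟨σ^d⟩` when
`σ` has order `d * m`). -/
def powNorm (σ : G) (d m : ℕ) : B →+ B :=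
  ∑ j ∈ Finset.range m, DistribSMul.toAddMonoidHom B (σ ^ (d * j))

variable {B}

@[simp] theorem powNorm_apply (σ : G) (d m : ℕ) (b : B) :
    powNorm B σ d m b = ∑ j ∈ Finset.range m, σ ^ (d * j) • b := by
  simp [powNorm]

theorem sum_range_mul_eq (d m : ℕ) (F : ℕ → B) :
    ∑ k ∈ Finset.range (d * m), F k = ∑ j ∈ Finset.range m, ∑ i ∈ Finset.range d, F (d * j + i) := by
  induction m with
  | zero => simp
  | succ m ih => rw [Nat.mul_succ, Finset.sum_range_add, ih, Finset.sum_range_succ]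

theorem normHom_eq_sum_range [Fintype G] {σ : G} (hσ : ∀ τ : G, τ ∈ Subgroup.zpowers σ) (b : B) :
    normHom G B b = ∑ k ∈ Finset.range (Fintype.card G), σ ^ k • b := by
  classical
  rw [normHom_apply]
  have hn : orderOf σ = Fintype.card G := by
    rw [orderOf_eq_card_of_forall_mem_zpowers hσ, Nat.card_eq_fintype_card]
  have himg : Finset.image (fun i => σ ^ i) (Finset.range (orderOf σ)) = Finset.univ :=
    IsCyclic.image_range_orderOf hσ
  rw [← hn, ← himg, Finset.sum_image]
  intro i hi j hj h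
  exact pow_injOn_Iio_orderOf (by simpa using hi) (by simpa using hj) h

/-- `N_G = (∑_{i < d} σ^i) ∘ (∑_{j < m} σ^(d j))` when `d * m = |G|`. -/
theorem normHom_eq_sum_powNorm [Fintype G] {σ : G} (hσ : ∀ τ : G, τ ∈ Subgroup.zpowers σ)
    (d m : ℕ) (hdm : d * m = Fintype.card G) (b : B) :
    normHom G B b = ∑ i ∈ Finset.range d, σ ^ i • powNorm B σ d m b := by
  rw [normHom_eq_sum_range hσ, ← hdm, sum_range_mul_eq, Finset.sum_comm]
  refine Finset.sum_congr rfl (fun i _ => ?_)
  rw [powNorm_apply, Finset.smul_sum]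
  refine Finset.sum_congr rfl (fun j _ => ?_)
  rw [add_comm, pow_add, mul_smul]

theorem pow_mul_smul_mem (σ : G) (d : ℕ) (A₀ : AddSubgroup B) (hA₀ : ∀ a ∈ A₀, σ ^ d • a ∈ A₀)
    (j : ℕ) : ∀ a ∈ A₀, σ ^ (d * j) • a ∈ A₀ := by
  induction j with
  | zero => intro a ha; simpa using ha
  | succ j ih =>
    intro a ha
    rw [Nat.mul_succ, pow_add, mul_smul]
    exact ih _ (hA₀ a ha)

theorem subOneHom_pow_mem (σ : G) (d : ℕ) (A₀ : AddSubgroup B) (hA₀ : ∀ a ∈ A₀, σ ^ d • a ∈ A₀) :
    ∀ a ∈ A₀, subOneHom B (σ ^ d) a ∈ A₀ := fun a ha => by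
  rw [subOneHom_apply]
  exact sub_mem (hA₀ a ha) ha

theorem powNorm_mem (σ : G) (d m : ℕ) (A₀ : AddSubgroup B) (hA₀ : ∀ a ∈ A₀, σ ^ d • a ∈ A₀) :
    ∀ a ∈ A₀, powNorm B σ d m a ∈ A₀ := fun a ha => by
  rw [powNorm_apply]
  exact sum_mem (fun j _ => pow_mul_smul_mem σ d A₀ hA₀ j a ha)

end PowNorm

section Shapiro

variable {G : Type*} [Group G] {B : Type*} [AddCommGroup B] [DistribMulAction G B]

/-- The decomposition map `φ ↦ ∑_{i < d} σ^i • φ i` from `d` copies of `A₀` to `B`. -/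
def decompHom (σ : G) (d : ℕ) (A₀ : AddSubgroup B) : (Fin d → A₀) →+ B where
  toFun φ := ∑ i : Fin d, σ ^ (i : ℕ) • (φ i : B)
  map_zero' := by simp
  map_add' φ ψ := by simp [Finset.sum_add_distrib]

theorem decompHom_apply (σ : G) (d : ℕ) (A₀ : AddSubgroup B) (φ : Fin d → A₀) :
    decompHom σ d A₀ φ = ∑ i : Fin d, σ ^ (i : ℕ) • (φ i : B) := rfl

/-- The cyclic shift on `Fin (e+1) → A₀` corresponding to the action of `σ`. -/
def shiftFun (σ : G) (e : ℕ) (A₀ : AddSubgroup B) (hA₀ : ∀ a ∈ A₀, σ ^ (e + 1) • a ∈ A₀)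
    (φ : Fin (e + 1) → A₀) : Fin (e + 1) → A₀ :=
  Fin.cons ⟨σ ^ (e + 1) • (φ (Fin.last e) : B), hA₀ _ (φ (Fin.last e)).2⟩
    (fun i : Fin e => φ i.castSucc)

theorem smul_decompHom (σ : G) (e : ℕ) (A₀ : AddSubgroup B)
    (hA₀ : ∀ a ∈ A₀, σ ^ (e + 1) • a ∈ A₀) (φ : Fin (e + 1) → A₀) :
    σ • decompHom σ (e + 1) A₀ φ = decompHom σ (e + 1) A₀ (shiftFun σ e A₀ hA₀ φ) := by
  rw [decompHom_apply, decompHom_apply, Finset.smul_sum, Fin.sum_univ_castSucc, Fin.sum_univ_succ]
  simp only [shiftFun, Fin.cons_zero, Fin.cons_succ, Fin.val_zero, pow_zero, one_smul, Fin.val_succ,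
    Fin.val_castSucc, Fin.val_last]
  rw [add_comm]
  congr 1
  · rw [← mul_smul, ← pow_succ']
  · refine Finset.sum_congr rfl (fun i _ => ?_)
    rw [← mul_smul, ← pow_succ']

theorem sum_shiftFun (σ : G) (e : ℕ) (A₀ : AddSubgroup B)
    (hA₀ : ∀ a ∈ A₀, σ ^ (e + 1) • a ∈ A₀) (φ : Fin (e + 1) → A₀) :
    ((∑ i, shiftFun σ e A₀ hA₀ φ i : A₀) : B) - ((∑ i, φ i : A₀) : B) =
      σ ^ (e + 1) • (φ (Fin.last e) : B) - (φ (Fin.last e) : B) := by
  rw [Fin.sum_univ_succ, Fin.sum_univ_castSucc (f := φ)]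
  simp only [shiftFun, Fin.cons_zero, Fin.cons_succ, AddSubgroup.coe_add]
  abel

/-- The diagonal map `a ↦ ∑_{i < d} σ^i • a`. -/
theorem decompHom_const (σ : G) (d : ℕ) (A₀ : AddSubgroup B) (a : A₀) :
    decompHom σ d A₀ (fun _ => a) = ∑ i ∈ Finset.range d, σ ^ i • (a : B) := by
  rw [decompHom_apply]
  exact Fin.sum_univ_eq_sum_range (fun i => σ ^ i • (a : B)) d

theorem subOneHom_decompHom_const (σ : G) (d : ℕ) (A₀ : AddSubgroup B) (a : A₀) :
    subOneHom B σ (decompHom σ d A₀ (fun _ => a)) = σ ^ d • (a : B) - (a : B) := by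
  rw [subOneHom_apply, decompHom_const, Finset.smul_sum, ← Finset.sum_sub_distrib]
  have h := Finset.sum_range_sub (fun i => σ ^ i • (a : B)) d
  simp only [pow_zero, one_smul] at h
  rw [← h]
  refine Finset.sum_congr rfl (fun i _ => ?_)
  rw [← mul_smul, ← pow_succ']

end Shapiro

section Main

variable {G : Type*} [Group G] [Fintype G] {B : Type*} [AddCommGroup B] [DistribMulAction G B]

/-- **Semilocal Shapiro lemma for Herbrand indices (power form).**  `G = ⟨σ⟩`, `d * m = |G|`,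
`A₀ ≤ B` stable under `σ^d` and `B = ⨁_{i < d} σ^i • A₀`.  Then `[B^G : N_G B] = [A₀^H : N_H A₀]`
and `[ker N_G : (σ - 1) B] = [ker N_H : (σ^d - 1) A₀]`, where `H = ⟨σ^d⟩` and
`N_H = ∑_{j < m} σ^(d j)`. -/
theorem hq_shapiro {σ : G} (hσ : ∀ τ : G, τ ∈ Subgroup.zpowers σ) (d m : ℕ)
    (hdm : d * m = Fintype.card G) (A₀ : AddSubgroup B) (hA₀ : ∀ a ∈ A₀, σ ^ d • a ∈ A₀)
    (hdec : Function.Bijective (decompHom σ d A₀)) :
    hq (subOneHom B σ) (normHom G B) =
        hq (resHom (subOneHom B (σ ^ d)) A₀ (subOneHom_pow_mem σ d A₀ hA₀))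
          (resHom (powNorm B σ d m) A₀ (powNorm_mem σ d m A₀ hA₀)) ∧
      hq (normHom G B) (subOneHom B σ) =
        hq (resHom (powNorm B σ d m) A₀ (powNorm_mem σ d m A₀ hA₀))
          (resHom (subOneHom B (σ ^ d)) A₀ (subOneHom_pow_mem σ d A₀ hA₀)) := by
  have hd : d ≠ 0 := by
    rintro rfl
    rw [zero_mul] at hdm
    exact Fintype.card_ne_zero hdm.symm
  obtain ⟨e, rfl⟩ := Nat.exists_eq_succ_of_ne_zero hd
  set f₀ := resHom (subOneHom B (σ ^ (e + 1))) A₀ (subOneHom_pow_mem σ (e + 1) A₀ hA₀) with hf₀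
  set g₀ := resHom (powNorm B σ (e + 1) m) A₀ (powNorm_mem σ (e + 1) m A₀ hA₀) with hg₀
  -- the diagonal map
  let ν : A₀ →+ B :=
    { toFun := fun a => decompHom σ (e + 1) A₀ (fun _ => a)
      map_zero' := map_zero (decompHom σ (e + 1) A₀)
      map_add' := fun a b => (map_add (decompHom σ (e + 1) A₀) (fun _ => a) (fun _ => b)) }
  have hν : ∀ a, ν a = decompHom σ (e + 1) A₀ (fun _ => a) := fun _ => rfl
  have hν_inj : Function.Injective ν := fun a b h => congrFun (hdec.1 h) 0
  have hfν : ∀ a : A₀, subOneHom B σ (ν a) = ((f₀ a : A₀) : B) := fun a =>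
    subOneHom_decompHom_const σ (e + 1) A₀ a
  have hgA : ∀ a : A₀, normHom G B (a : B) = ν (g₀ a) := by
    intro a
    rw [normHom_eq_sum_powNorm hσ (e + 1) m hdm, hν, decompHom_const]
    rfl
  have hgΨ : ∀ φ : Fin (e + 1) → A₀,
      normHom G B (decompHom σ (e + 1) A₀ φ) = ν (g₀ (∑ i, φ i)) := by
    intro φ
    rw [← hgA, decompHom_apply, map_sum, AddSubgroup.val_finsetSum, map_sum]
    exact Finset.sum_congr rfl (fun i _ => normHom_smul _ _)
  refine ⟨?_, ?_⟩
  · -- first index: transport along ν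
    have e1 : f₀.ker.map ν = (subOneHom B σ).ker := by
      ext b
      simp only [AddSubgroup.mem_map, AddMonoidHom.mem_ker]
      constructor
      · rintro ⟨a, ha, rfl⟩
        rw [hfν, ha]
        rfl
      · intro hb
        obtain ⟨φ, rfl⟩ := hdec.2 b
        have h1 : σ • decompHom σ (e + 1) A₀ φ = decompHom σ (e + 1) A₀ φ := by
          rw [subOneHom_apply, sub_eq_zero] at hb
          exact hb
        rw [smul_decompHom σ e A₀ hA₀ φ] at h1
        have h2 : shiftFun σ e A₀ hA₀ φ = φ := hdec.1 h1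
        have h3 : ∀ i : Fin (e + 1), φ i = φ 0 := by
          intro i
          induction i using Fin.induction with
          | zero => rfl
          | succ i ih =>
            rw [← ih]
            have := congrFun h2 i.succ
            simp only [shiftFun, Fin.cons_succ] at this
            exact this.symm
        have h4 : σ ^ (e + 1) • (φ 0 : B) = (φ 0 : B) := by
          have := congrFun h2 0
          simp only [shiftFun, Fin.cons_zero] at this
          have h5 := congrArg (Subtype.val) this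
          simp only at h5
          rw [h3 (Fin.last e)] at h5
          exact h5
        refine ⟨φ 0, ?_, ?_⟩
        · apply Subtype.ext
          change subOneHom B (σ ^ (e + 1)) (φ 0 : B) = 0
          rw [subOneHom_apply, h4, sub_self]
        · rw [hν]
          congr 1
          funext i
          exact (h3 i).symm
    have e2 : g₀.range.map ν = (normHom G B).range := by
      ext b
      simp only [AddSubgroup.mem_map, AddMonoidHom.mem_range]
      constructor
      · rintro ⟨_, ⟨a, rfl⟩, rfl⟩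
        exact ⟨(a : B), hgA a⟩
      · rintro ⟨c, rfl⟩
        obtain ⟨φ, rfl⟩ := hdec.2 c
        exact ⟨g₀ (∑ i, φ i), ⟨_, rfl⟩, (hgΨ φ).symm⟩
    rw [hq, hq, ← e1, ← e2]
    exact AddSubgroup.relIndex_map_map_of_injective g₀.range f₀.ker hν_inj
  · -- second index: transport along the sum map
    let Ψ : (Fin (e + 1) → A₀) ≃+ B := AddEquiv.ofBijective (decompHom σ (e + 1) A₀) hdec
    have hΨ : ∀ φ, Ψ φ = decompHom σ (e + 1) A₀ φ := fun _ => rfl
    let S : (Fin (e + 1) → A₀) →+ A₀ := ∑ i : Fin (e + 1), Pi.evalAddMonoidHom (fun _ => A₀) i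
    have hS : ∀ φ, S φ = ∑ i, φ i := by
      intro φ
      simp [S]
    let Sg : B →+ A₀ := S.comp Ψ.symm.toAddMonoidHom
    have hSg : ∀ φ, Sg (decompHom σ (e + 1) A₀ φ) = ∑ i, φ i := by
      intro φ
      change S (Ψ.symm (Ψ φ)) = _
      rw [AddEquiv.symm_apply_apply, hS]
    have hSg_surj : Function.Surjective Sg := by
      intro a
      refine ⟨decompHom σ (e + 1) A₀ (Pi.single 0 a), ?_⟩
      rw [hSg]
      simp
    have e1 : g₀.ker.comap Sg = (normHom G B).ker := by
      ext b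
      obtain ⟨φ, rfl⟩ := hdec.2 b
      simp only [AddSubgroup.mem_comap, AddMonoidHom.mem_ker]
      rw [hSg, hgΨ]
      constructor
      · intro h
        rw [h, map_zero]
      · intro h
        exact hν_inj (h.trans (map_zero ν).symm)
    have e2 : f₀.range.comap Sg = (subOneHom B σ).range := by
      ext b
      simp only [AddSubgroup.mem_comap, AddMonoidHom.mem_range]
      constructor
      · rintro ⟨a, ha⟩
        obtain ⟨φ, rfl⟩ := hdec.2 b
        rw [hSg] at ha
        have hb : decompHom σ (e + 1) A₀ φ =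
            (∑ i : Fin (e + 1), (σ ^ (i : ℕ) • (φ i : B) - (φ i : B))) +
              (σ ^ (e + 1) • (a : B) - (a : B)) := by
          rw [Finset.sum_sub_distrib, ← decompHom_apply]
          have h1 : (∑ i : Fin (e + 1), (φ i : B)) = σ ^ (e + 1) • (a : B) - (a : B) := by
            rw [← AddSubgroup.val_finsetSum, ← ha]
            rfl
          rw [h1]
          abel
        rw [hb]
        exact (subOneHom B σ).range.add_mem
          (sum_mem (fun i _ => smul_sub_mem_range_subOneHom hσ _ _))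
          (smul_sub_mem_range_subOneHom hσ _ _)
      · rintro ⟨c, rfl⟩
        obtain ⟨γ, rfl⟩ := hdec.2 c
        refine ⟨γ (Fin.last e), ?_⟩
        have h1 : subOneHom B σ (decompHom σ (e + 1) A₀ γ) =
            decompHom σ (e + 1) A₀ (shiftFun σ e A₀ hA₀ γ - γ) := by
          rw [subOneHom_apply, smul_decompHom σ e A₀ hA₀ γ, map_sub]
        rw [h1, hSg]
        apply Subtype.ext
        have h2 := sum_shiftFun σ e A₀ hA₀ γ
        simp only [Pi.sub_apply, Finset.sum_sub_distrib, AddSubgroup.coe_sub]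
        rw [h2]
        rfl
    have e3 := AddSubgroup.relIndex_comap f₀.range Sg (g₀.ker.comap Sg)
    rw [AddSubgroup.map_comap_eq_self_of_surjective hSg_surj] at e3
    rw [hq, hq, ← e1, ← e2, e3]

end Main

section Orbit

variable {G : Type*} [Group G] [Finite G] {X : Type*} [MulAction G X] [MulAction.IsPretransitive G X]

/-- A generator `σ` of `G` acting transitively on `X`: the points `σ^i • x₀`, `i < d`, enumerate
`X` when `d` is the minimal period of `x₀`. -/
theorem bijective_pow_smul_of_minimalPeriod {σ : G} (hσ : ∀ τ : G, τ ∈ Subgroup.zpowers σ) (x₀ : X)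
    (d : ℕ) (hd : Function.minimalPeriod (σ • · : X → X) x₀ = d) :
    Function.Bijective (fun i : Fin d => σ ^ (i : ℕ) • x₀) := by
  subst hd
  have hpos : 0 < Function.minimalPeriod (σ • · : X → X) x₀ := by
    rcases Nat.eq_zero_or_pos (Function.minimalPeriod (σ • · : X → X) x₀) with h0 | h0
    · exfalso
      have h1 : σ ^ orderOf σ • x₀ = x₀ := by rw [pow_orderOf_eq_one, one_smul]
      rw [MulAction.pow_smul_eq_iff_minimalPeriod_dvd, h0, zero_dvd_iff] at h1
      exact (orderOf_pos σ).ne' h1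
    · exact h0
  constructor
  · -- injective
    have key : ∀ i j : Fin (Function.minimalPeriod (σ • · : X → X) x₀), (i : ℕ) ≤ (j : ℕ) →
        σ ^ (i : ℕ) • x₀ = σ ^ (j : ℕ) • x₀ → i = j := by
      intro i j hij h
      have h1 : σ ^ ((j : ℕ) - (i : ℕ)) • x₀ = x₀ := by
        have h2 : σ ^ (j : ℕ) = σ ^ (i : ℕ) * σ ^ ((j : ℕ) - (i : ℕ)) := by
          rw [← pow_add, Nat.add_sub_cancel' hij]
        rw [h2, mul_smul] at h
        exact (smul_left_cancel _ h).symm
      rw [MulAction.pow_smul_eq_iff_minimalPeriod_dvd] at h1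
      have h3 : (j : ℕ) - (i : ℕ) = 0 :=
        Nat.eq_zero_of_dvd_of_lt h1 (lt_of_le_of_lt (Nat.sub_le _ _) j.2)
      exact Fin.ext (by omega)
    intro i j h
    rcases le_total (i : ℕ) (j : ℕ) with hij | hij
    · exact key i j hij h
    · exact (key j i hij h.symm).symm
  · -- surjective
    intro x
    obtain ⟨τ, rfl⟩ := MulAction.exists_smul_eq G x₀ x
    obtain ⟨k, rfl⟩ := Subgroup.mem_zpowers_iff.1 (hσ τ)
    set p := Function.minimalPeriod (σ • · : X → X) x₀ with hp
    have hp0 : (p : ℤ) ≠ 0 := by exact_mod_cast hpos.ne'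
    have hr0 : 0 ≤ k % (p : ℤ) := Int.emod_nonneg k hp0
    have hr1 : k % (p : ℤ) < p := Int.emod_lt_of_pos k (by exact_mod_cast hpos)
    obtain ⟨r, hr⟩ := Int.eq_ofNat_of_zero_le hr0
    refine ⟨⟨r, by rw [hr] at hr1; exact_mod_cast hr1⟩, ?_⟩
    change σ ^ r • x₀ = σ ^ k • x₀
    have hk : k = (r : ℤ) + (p : ℤ) * (k / (p : ℤ)) := by
      rw [← hr]; exact (Int.emod_add_mul_ediv k p).symm
    have h1 : σ ^ ((p : ℤ) * (k / (p : ℤ))) • x₀ = x₀ := by
      rw [MulAction.zpow_smul_eq_iff_minimalPeriod_dvd]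
      exact Dvd.intro _ rfl
    rw [hk, zpow_add, mul_smul, h1, zpow_natCast]

theorem minimalPeriod_eq_card_of_generator [Fintype X] {σ : G}
    (hσ : ∀ τ : G, τ ∈ Subgroup.zpowers σ) (x₀ : X) :
    Function.minimalPeriod (σ • · : X → X) x₀ = Fintype.card X := by
  have h := bijective_pow_smul_of_minimalPeriod hσ x₀ _ rfl
  have := Fintype.card_of_bijective h
  simpa using this

theorem bijective_pow_smul [Fintype X] {σ : G} (hσ : ∀ τ : G, τ ∈ Subgroup.zpowers σ) (x₀ : X) :
    Function.Bijective (fun i : Fin (Fintype.card X) => σ ^ (i : ℕ) • x₀) :=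
  bijective_pow_smul_of_minimalPeriod hσ x₀ _ (minimalPeriod_eq_card_of_generator hσ x₀)

theorem pow_card_smul_eq [Fintype X] {σ : G} (hσ : ∀ τ : G, τ ∈ Subgroup.zpowers σ) (x₀ : X) :
    σ ^ Fintype.card X • x₀ = x₀ := by
  rw [MulAction.pow_smul_eq_iff_minimalPeriod_dvd, minimalPeriod_eq_card_of_generator hσ x₀]

theorem card_dvd_card_of_generator [Fintype X] [Fintype G] [Nonempty X] {σ : G}
    (hσ : ∀ τ : G, τ ∈ Subgroup.zpowers σ) : Fintype.card X ∣ Fintype.card G := by
  obtain ⟨x₀⟩ := ‹Nonempty X›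
  have h1 : σ ^ orderOf σ • x₀ = x₀ := by rw [pow_orderOf_eq_one, one_smul]
  rw [MulAction.pow_smul_eq_iff_minimalPeriod_dvd, minimalPeriod_eq_card_of_generator hσ x₀,
    orderOf_eq_card_of_forall_mem_zpowers hσ, Nat.card_eq_fintype_card] at h1
  exact h1

end Orbit

section Semilocal

variable {G : Type*} [Group G] [Fintype G] {B : Type*} [AddCommGroup B] [DistribMulAction G B]
variable {X : Type*} [Fintype X] [MulAction G X] [MulAction.IsPretransitive G X]

theorem semilocal_stable {σ : G} (hσ : ∀ τ : G, τ ∈ Subgroup.zpowers σ) (C : X → AddSubgroup B)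
    (hC : ∀ (τ : G) (x : X) (b : B), b ∈ C x → τ • b ∈ C (τ • x)) (x₀ : X) :
    ∀ a ∈ C x₀, σ ^ Fintype.card X • a ∈ C x₀ := by
  intro a ha
  have h := hC (σ ^ Fintype.card X) x₀ a ha
  rwa [pow_card_smul_eq hσ x₀] at h

/-- The decomposition `B = ⨁_x C x` over a transitive `G`-set gives the decomposition
`B = ⨁_{i < |X|} σ^i • C x₀`. -/
theorem bijective_decompHom_of_family {σ : G} (hσ : ∀ τ : G, τ ∈ Subgroup.zpowers σ)
    (C : X → AddSubgroup B) (hC : ∀ (τ : G) (x : X) (b : B), b ∈ C x → τ • b ∈ C (τ • x))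
    (hsum : Function.Bijective (fun φ : (∀ x, C x) => ∑ x, (φ x : B))) (x₀ : X) :
    Function.Bijective (decompHom σ (Fintype.card X) (C x₀)) := by
  let E : Fin (Fintype.card X) ≃ X := Equiv.ofBijective _ (bijective_pow_smul hσ x₀)
  have hE : ∀ i, E i = σ ^ (i : ℕ) • x₀ := fun _ => rfl
  constructor
  · intro φ φ' h
    rw [decompHom_apply, decompHom_apply] at h
    have hmem : ∀ (χ : Fin (Fintype.card X) → C x₀) (x : X),
        σ ^ ((E.symm x : Fin (Fintype.card X)) : ℕ) • (χ (E.symm x) : B) ∈ C x := by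
      intro χ x
      have h1 := hC (σ ^ ((E.symm x : Fin (Fintype.card X)) : ℕ)) x₀ _ (χ (E.symm x)).2
      have h2 : σ ^ ((E.symm x : Fin (Fintype.card X)) : ℕ) • x₀ = x := by
        rw [← hE, Equiv.apply_symm_apply]
      rwa [h2] at h1
    let mk : (Fin (Fintype.card X) → C x₀) → (∀ x, C x) := fun χ x => ⟨_, hmem χ x⟩
    have hmk : ∀ χ : Fin (Fintype.card X) → C x₀,
        ∑ x, ((mk χ x : C x) : B) = ∑ i : Fin (Fintype.card X), σ ^ (i : ℕ) • (χ i : B) := by
      intro χ
      rw [← Equiv.sum_comp E]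
      refine Finset.sum_congr rfl (fun i _ => ?_)
      change σ ^ ((E.symm (E i) : Fin (Fintype.card X)) : ℕ) • (χ (E.symm (E i)) : B) = _
      rw [Equiv.symm_apply_apply]
    have h3 : mk φ = mk φ' := hsum.1 ((hmk φ).trans (h.trans (hmk φ').symm))
    funext i
    have h4 := congrArg Subtype.val (congrFun h3 (E i))
    change σ ^ ((E.symm (E i) : Fin (Fintype.card X)) : ℕ) • (φ (E.symm (E i)) : B) =
      σ ^ ((E.symm (E i) : Fin (Fintype.card X)) : ℕ) • (φ' (E.symm (E i)) : B) at h4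
    rw [Equiv.symm_apply_apply] at h4
    exact Subtype.ext (smul_left_cancel _ h4)
  · intro b
    obtain ⟨c, hc⟩ := hsum.2 b
    simp only at hc
    have hmem : ∀ i : Fin (Fintype.card X), (σ ^ (i : ℕ))⁻¹ • (c (E i) : B) ∈ C x₀ := by
      intro i
      have h1 := hC (σ ^ (i : ℕ))⁻¹ (E i) _ (c (E i)).2
      rwa [hE, inv_smul_smul] at h1
    refine ⟨fun i => ⟨_, hmem i⟩, ?_⟩
    rw [decompHom_apply, ← hc, ← Equiv.sum_comp E]
    refine Finset.sum_congr rfl (fun i _ => ?_)
    simp only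
    rw [smul_inv_smul]

/-- **Semilocal Shapiro lemma for Herbrand indices (transitive `G`-set form).**
`G = ⟨σ⟩` finite cyclic, `X` a finite transitive `G`-set (e.g. the places above a given place),
`C x ≤ B` subgroups with `τ • C x ≤ C (τ • x)` and `B = ⨁_x C x`.  Then the Herbrand indices of
the `G`-module `B` equal those of the module `C x₀` over the stabiliser `⟨σ^|X|⟩` of `x₀`
(of order `m`, `|X| * m = |G|`), whose norm is `∑_{j < m} σ^(|X| j)`. -/
theorem hq_semilocal {σ : G} (hσ : ∀ τ : G, τ ∈ Subgroup.zpowers σ) (C : X → AddSubgroup B)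
    (hC : ∀ (τ : G) (x : X) (b : B), b ∈ C x → τ • b ∈ C (τ • x))
    (hsum : Function.Bijective (fun φ : (∀ x, C x) => ∑ x, (φ x : B))) (x₀ : X) (m : ℕ)
    (hm : Fintype.card X * m = Fintype.card G) :
    hq (subOneHom B σ) (normHom G B) =
        hq (resHom (subOneHom B (σ ^ Fintype.card X)) (C x₀)
            (subOneHom_pow_mem σ _ (C x₀) (semilocal_stable hσ C hC x₀)))
          (resHom (powNorm B σ (Fintype.card X) m) (C x₀)
            (powNorm_mem σ _ m (C x₀) (semilocal_stable hσ C hC x₀))) ∧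
      hq (normHom G B) (subOneHom B σ) =
        hq (resHom (powNorm B σ (Fintype.card X) m) (C x₀)
            (powNorm_mem σ _ m (C x₀) (semilocal_stable hσ C hC x₀)))
          (resHom (subOneHom B (σ ^ Fintype.card X)) (C x₀)
            (subOneHom_pow_mem σ _ (C x₀) (semilocal_stable hσ C hC x₀))) :=
  hq_shapiro hσ (Fintype.card X) m hm (C x₀) (semilocal_stable hσ C hC x₀)
    (bijective_decompHom_of_family hσ C hC hsum x₀)

end Semilocal

end Fermat.Agent.Lib.Herbrand
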