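import Mathlib

set_option autoImplicit false

/-!
# Holomorphic `m`-th roots

* `exists_root_of_ne_zero_on_ball`: a zero-free holomorphic function on a disc has a holomorphic
  `m`-th root.
* `exists_root_on_ball`: a holomorphic function on a disc with finitely many zeros, all of order
  divisible by `m`, has a holomorphic `m`-th root.
* `exists_root_upperHalfPlane`: a holomorphic function on the upper half plane all of whose
  orders are finite and divisible by `m` has a holomorphic `m`-th root.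
-/

noncomputable section

open Complex Metric Set Filter Topology

namespace Fermat.Agent.Lib.HolRoot

/-- A zero-free holomorphic function on a disc is the exponential of a holomorphic function. -/
theorem exists_log_on_ball {c : ℂ} {r : ℝ} {u : ℂ → ℂ} (hu : DifferentiableOn ℂ u (ball c r))
    (h0 : ∀ z ∈ ball c r, u z ≠ 0) :
    ∃ L : ℂ → ℂ, DifferentiableOn ℂ L (ball c r) ∧ ∀ z ∈ ball c r, Complex.exp (L z) = u z := by
  have hf : DifferentiableOn ℂ (fun z => deriv u z / u z) (ball c r) :=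
    (hu.deriv isOpen_ball).div hu h0
  obtain ⟨F, hF⟩ := hf.isExactOn_ball
  have hFd : DifferentiableOn ℂ F (ball c r) := fun z hz =>
    (hF z hz).differentiableAt.differentiableWithinAt
  have hg : DifferentiableOn ℂ (fun z => Complex.exp (F z)) (ball c r) := hFd.cexp
  have hlog : EqOn (logDeriv u) (logDeriv (fun z => Complex.exp (F z))) (ball c r) := by
    intro z hz
    have h1 : HasDerivAt (fun z => Complex.exp (F z)) (Complex.exp (F z) * (deriv u z / u z)) z :=
      (hF z hz).cexp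
    rw [logDeriv_apply, logDeriv_apply, h1.deriv]
    field_simp [Complex.exp_ne_zero]
  obtain ⟨C, hC0, hC⟩ := (logDeriv_eqOn_iff hu hg isOpen_ball (convex_ball c r).isPreconnected
    (fun z _ => Complex.exp_ne_zero _) h0).mp hlog
  refine ⟨fun z => F z + Complex.log C, hFd.add_const _, fun z hz => ?_⟩
  have h2 := hC hz
  simp only [Pi.smul_apply, smul_eq_mul] at h2
  rw [Complex.exp_add, Complex.exp_log hC0, h2, mul_comm]

/-- A zero-free holomorphic function on a disc has a holomorphic `m`-th root. -/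
theorem exists_root_of_ne_zero_on_ball (m : ℕ) (hm : m ≠ 0) {c : ℂ} {r : ℝ} {u : ℂ → ℂ}
    (hu : DifferentiableOn ℂ u (ball c r)) (h0 : ∀ z ∈ ball c r, u z ≠ 0) :
    ∃ v : ℂ → ℂ, DifferentiableOn ℂ v (ball c r) ∧ ∀ z ∈ ball c r, v z ^ m = u z := by
  obtain ⟨L, hL, hLu⟩ := exists_log_on_ball hu h0
  refine ⟨fun z => Complex.exp (L z / m), (hL.div_const _).cexp, fun z hz => ?_⟩
  have hm' : (m : ℂ) ≠ 0 := Nat.cast_ne_zero.mpr hm
  rw [← Complex.exp_nat_mul, mul_div_cancel₀ _ hm', hLu z hz]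

/-- Division by `(z - z₀) ^ n`, `n` the order of `G` at `z₀`. -/
theorem exists_eq_pow_mul {U : Set ℂ} (hU : IsOpen U) {G : ℂ → ℂ} (hG : DifferentiableOn ℂ G U)
    {z₀ : ℂ} (hz₀ : z₀ ∈ U) {n : ℕ} (hn : analyticOrderAt G z₀ = n) :
    ∃ G₁ : ℂ → ℂ, DifferentiableOn ℂ G₁ U ∧ G₁ z₀ ≠ 0 ∧ ∀ z, G z = (z - z₀) ^ n * G₁ z := by
  classical
  have hGa : AnalyticAt ℂ G z₀ := hG.analyticAt (hU.mem_nhds hz₀)
  obtain ⟨g, hga, hg0, hgG⟩ := hGa.analyticOrderAt_eq_natCast.mp hn
  simp only [smul_eq_mul] at hgG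
  refine ⟨fun z => if z = z₀ then g z₀ else G z / (z - z₀) ^ n, ?_, by simp [hg0], ?_⟩
  · intro z hz
    apply DifferentiableAt.differentiableWithinAt
    by_cases hzz : z = z₀
    · subst hzz
      have heq : (fun z => if z = z then g z else G z / (z - z) ^ n) = g := by
        funext w
        simp
      have hev : (fun w => if w = z then g z else G w / (w - z) ^ n) =ᶠ[𝓝 z] g := by
        filter_upwards [hgG] with w hw
        by_cases hwz : w = z
        · simp [hwz]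
        · have hne : (w - z) ^ n ≠ 0 := pow_ne_zero _ (sub_ne_zero.mpr hwz)
          simp only [hwz, if_false]
          rw [hw]
          field_simp
      exact (hga.differentiableAt).congr_of_eventuallyEq hev
    · have hev : (fun w => if w = z₀ then g z₀ else G w / (w - z₀) ^ n)
          =ᶠ[𝓝 z] fun w => G w / (w - z₀) ^ n := by
        filter_upwards [isOpen_ne.mem_nhds hzz] with w hw
        simp [show w ≠ z₀ from hw]
      have hd : DifferentiableAt ℂ (fun w => G w / (w - z₀) ^ n) z :=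
        (hG.differentiableAt (hU.mem_nhds hz)).div (by fun_prop)
          (pow_ne_zero _ (sub_ne_zero.mpr hzz))
      exact hd.congr_of_eventuallyEq hev
  · intro z
    by_cases hzz : z = z₀
    · subst hzz
      simp only [if_true]
      exact hgG.self_of_nhds
    · have hne : (z - z₀) ^ n ≠ 0 := pow_ne_zero _ (sub_ne_zero.mpr hzz)
      simp only [hzz, if_false]
      field_simp

/-- A holomorphic function on a disc with finitely many zeros, all of order divisible by `m`,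
has a holomorphic `m`-th root. -/
theorem exists_root_on_ball (m : ℕ) (hm : m ≠ 0) (c : ℂ) (r : ℝ) (G : ℂ → ℂ)
    (hG : DifferentiableOn ℂ G (ball c r)) (hfin : {z | z ∈ ball c r ∧ G z = 0}.Finite)
    (hord : ∀ z ∈ ball c r, ∃ k : ℕ, analyticOrderAt G z = ((m * k : ℕ) : ℕ∞)) :
    ∃ H : ℂ → ℂ, DifferentiableOn ℂ H (ball c r) ∧ ∀ z ∈ ball c r, H z ^ m = G z := by
  induction hN : {z | z ∈ ball c r ∧ G z = 0}.ncard generalizing G with
  | zero =>
    have hempty : {z | z ∈ ball c r ∧ G z = 0} = ∅ := (Set.ncard_eq_zero hfin).mp hN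
    refine exists_root_of_ne_zero_on_ball m hm hG fun z hz h0 => ?_
    have : z ∈ ({z | z ∈ ball c r ∧ G z = 0} : Set ℂ) := ⟨hz, h0⟩
    rw [hempty] at this
    exact this
  | succ N ih =>
    have hne : {z | z ∈ ball c r ∧ G z = 0}.Nonempty := by
      rw [← Set.ncard_pos hfin, hN]
      exact Nat.succ_pos N
    obtain ⟨z₀, hz₀, hGz₀⟩ := hne
    obtain ⟨k, hk⟩ := hord z₀ hz₀
    obtain ⟨G₁, hG₁, hG₁z₀, hGG₁⟩ := exists_eq_pow_mul isOpen_ball hG hz₀ hk
    have hzeros : {z | z ∈ ball c r ∧ G₁ z = 0} = {z | z ∈ ball c r ∧ G z = 0} \ {z₀} := by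
      ext z
      simp only [Set.mem_ofPred_eq, Set.mem_sdiff, mem_singleton_iff]
      constructor
      · rintro ⟨hz, h1⟩
        refine ⟨⟨hz, by rw [hGG₁ z, h1, mul_zero]⟩, ?_⟩
        rintro rfl
        exact hG₁z₀ h1
      · rintro ⟨⟨hz, h1⟩, hzz⟩
        refine ⟨hz, ?_⟩
        rw [hGG₁ z] at h1
        rcases mul_eq_zero.mp h1 with h2 | h2
        · exact absurd (sub_eq_zero.mp (pow_eq_zero_iff (n := m * k) (by
            rintro h0
            rw [h0, pow_zero] at h2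
            exact one_ne_zero h2) |>.mp h2)) hzz
        · exact h2
    have hfin₁ : {z | z ∈ ball c r ∧ G₁ z = 0}.Finite := by
      rw [hzeros]
      exact hfin.subset Set.sdiff_subset
    have hN₁ : {z | z ∈ ball c r ∧ G₁ z = 0}.ncard = N := by
      rw [hzeros, Set.ncard_sdiff_singleton_of_mem
        (show z₀ ∈ {z | z ∈ ball c r ∧ G z = 0} from ⟨hz₀, hGz₀⟩), hN]
      rfl
    have hord₁ : ∀ z ∈ ball c r, ∃ k : ℕ, analyticOrderAt G₁ z = ((m * k : ℕ) : ℕ∞) := by
      intro z hz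
      have hG₁a : AnalyticAt ℂ G₁ z := hG₁.analyticAt (isOpen_ball.mem_nhds hz)
      by_cases hzz : z = z₀
      · subst hzz
        refine ⟨0, ?_⟩
        rw [mul_zero, Nat.cast_zero, hG₁a.analyticOrderAt_eq_zero]
        exact hG₁z₀
      · obtain ⟨k', hk'⟩ := hord z hz
        refine ⟨k', ?_⟩
        have hpa : AnalyticAt ℂ (fun w : ℂ => (w - z₀) ^ (m * k)) z := by fun_prop
        have hp0 : analyticOrderAt (fun w : ℂ => (w - z₀) ^ (m * k)) z = 0 := by
          rw [hpa.analyticOrderAt_eq_zero]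
          exact pow_ne_zero _ (sub_ne_zero.mpr hzz)
        have hmul : G = (fun w : ℂ => (w - z₀) ^ (m * k)) * G₁ := funext hGG₁
        rw [hmul, analyticOrderAt_mul hpa hG₁a, hp0, zero_add] at hk'
        exact hk'
    obtain ⟨H₁, hH₁, hH₁G₁⟩ := ih G₁ hG₁ hfin₁ hord₁ hN₁
    refine ⟨fun z => (z - z₀) ^ k * H₁ z, ?_, fun z hz => ?_⟩
    · exact (by fun_prop : DifferentiableOn ℂ (fun z : ℂ => (z - z₀) ^ k) (ball c r)).mul hH₁
    · rw [mul_pow, hH₁G₁ z hz, hGG₁ z, ← pow_mul, mul_comm k m]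

/-- The zeros of a holomorphic function that vanishes identically near no point are finite in
every ball whose closure lies in the domain. -/
theorem finite_zeros_of_closedBall_subset {U : Set ℂ} (hU : IsOpen U) {G : ℂ → ℂ}
    (hG : DifferentiableOn ℂ G U) (hord : ∀ z ∈ U, analyticOrderAt G z ≠ ⊤) {c : ℂ} {r : ℝ}
    (hcl : closedBall c r ⊆ U) : {z | z ∈ ball c r ∧ G z = 0}.Finite := by
  by_contra hinf
  have hinf' : {z | z ∈ ball c r ∧ G z = 0}.Infinite := hinf
  obtain ⟨x, hx, hacc⟩ := hinf'.exists_accPt_of_subset_isCompact (isCompact_closedBall c r)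
    (fun z hz => ball_subset_closedBall hz.1)
  have hxU : x ∈ U := hcl hx
  have hGa : AnalyticAt ℂ G x := hG.analyticAt (hU.mem_nhds hxU)
  rw [accPt_iff_frequently_nhdsNE] at hacc
  rcases hGa.eventually_eq_zero_or_eventually_ne_zero with h | h
  · exact hord x hxU (analyticOrderAt_eq_top.mpr h)
  · exact (hacc.and_eventually h).exists.elim fun y hy => hy.2 hy.1.2

/-- The complex `m`-th roots of unity form a finite set. -/
theorem finite_setOf_pow_eq_one (m : ℕ) (hm : m ≠ 0) : {ζ : ℂ | ζ ^ m = 1}.Finite := by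
  have hp : (Polynomial.X ^ m - Polynomial.C (1 : ℂ)) ≠ 0 :=
    Polynomial.X_pow_sub_C_ne_zero (Nat.pos_of_ne_zero hm) 1
  refine (Polynomial.finite_setOfPred_isRoot hp).subset fun ζ hζ => ?_
  have hζ' : ζ ^ m = 1 := hζ
  simp [Polynomial.IsRoot, hζ']

/-- Two holomorphic functions with the same `m`-th power on a preconnected open set which agree
at one point where they do not vanish are equal. -/
theorem eqOn_of_pow_eq {U : Set ℂ} (hU : IsOpen U) (hc : IsPreconnected U) {f g : ℂ → ℂ}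
    (hf : DifferentiableOn ℂ f U) (hg : DifferentiableOn ℂ g U) (m : ℕ) (hm : m ≠ 0)
    (hpow : ∀ z ∈ U, f z ^ m = g z ^ m) {b : ℂ} (hb : b ∈ U) (hfb : f b = g b)
    (hgb : g b ≠ 0) : EqOn f g U := by
  have hfa : AnalyticOnNhd ℂ f U := hf.analyticOnNhd hU
  have hga : AnalyticOnNhd ℂ g U := hg.analyticOnNhd hU
  refine hfa.eqOn_of_preconnected_of_eventuallyEq hga hc hb ?_
  have hgc : ContinuousAt g b := (hg.differentiableAt (hU.mem_nhds hb)).continuousAt
  have hfc : ContinuousAt f b := (hf.differentiableAt (hU.mem_nhds hb)).continuousAt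
  have hq : ContinuousAt (fun z => f z / g z) b := hfc.div hgc hgb
  have hS : ({ζ : ℂ | ζ ^ m = 1} \ {1}).Finite :=
    (finite_setOf_pow_eq_one m hm).subset Set.sdiff_subset
  have hopen : ({ζ : ℂ | ζ ^ m = 1} \ {1})ᶜ ∈ 𝓝 (f b / g b) := by
    rw [hfb, div_self hgb]
    exact hS.isClosed.isOpen_compl.mem_nhds (by simp)
  filter_upwards [hq.preimage_mem_nhds hopen, hU.mem_nhds hb, hgc.eventually_ne hgb]
    with z hz hzU hgz
  have h1 : (f z / g z) ^ m = 1 := by
    rw [div_pow, hpow z hzU, div_self (pow_ne_zero _ hgz)]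
  have h2 : f z / g z = 1 := by
    by_contra hne
    exact hz ⟨h1, hne⟩
  exact (div_eq_one_iff_eq hgz).mp h2

/-- Two holomorphic functions with the same `m`-th power on a preconnected open set differ by a
constant `m`-th root of unity (if the second one is not identically zero). -/
theorem exists_rootOfUnity_of_pow_eq {U : Set ℂ} (hU : IsOpen U) (hc : IsPreconnected U)
    {f g : ℂ → ℂ} (hf : DifferentiableOn ℂ f U) (hg : DifferentiableOn ℂ g U) (m : ℕ)
    (hm : m ≠ 0) (hpow : ∀ z ∈ U, f z ^ m = g z ^ m) {b : ℂ} (hb : b ∈ U) (hgb : g b ≠ 0) :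
    ∃ ζ : ℂ, ζ ^ m = 1 ∧ ∀ z ∈ U, f z = ζ * g z := by
  have hζ : (f b / g b) ^ m = 1 := by
    rw [div_pow, hpow b hb, div_self (pow_ne_zero _ hgb)]
  have hfb0 : f b ≠ 0 := by
    intro h0
    have h1 := hpow b hb
    rw [h0, zero_pow hm] at h1
    exact pow_ne_zero _ hgb h1.symm
  refine ⟨f b / g b, hζ, ?_⟩
  have h := eqOn_of_pow_eq hU hc hf (hg.const_mul (f b / g b)) m hm (fun z hz => by
    rw [mul_pow, hζ, one_mul, hpow z hz]) hb (by field_simp) (by
      rw [div_mul_cancel₀ _ hgb]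
      exact hfb0)
  exact fun z hz => h hz

/-- Gluing: if the open set `U` is exhausted by an increasing sequence of open balls whose
closures lie in `U`, then a holomorphic function on `U` all of whose orders are finite and
divisible by `m` has a holomorphic `m`-th root on `U`. -/
theorem exists_root_of_exhaustion (m : ℕ) (hm : m ≠ 0) {U : Set ℂ} (hU : IsOpen U)
    (c : ℕ → ℂ) (r : ℕ → ℝ)
    (hmono : ∀ n, ball (c n) (r n) ⊆ ball (c (n + 1)) (r (n + 1)))
    (hcl : ∀ n, closedBall (c n) (r n) ⊆ U) (hcover : ∀ z ∈ U, ∃ n, z ∈ ball (c n) (r n))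
    (G : ℂ → ℂ) (hG : DifferentiableOn ℂ G U)
    (hord : ∀ z ∈ U, ∃ k : ℕ, analyticOrderAt G z = ((m * k : ℕ) : ℕ∞)) :
    ∃ H : ℂ → ℂ, DifferentiableOn ℂ H U ∧ ∀ z ∈ U, H z ^ m = G z := by
  classical
  rcases U.eq_empty_or_nonempty with hUe | ⟨z₁, hz₁⟩
  · subst hUe
    exact ⟨0, differentiableOn_empty, fun z hz => absurd hz (Set.notMem_empty z)⟩
  set D : ℕ → Set ℂ := fun n => ball (c n) (r n) with hD
  have hDU : ∀ n, D n ⊆ U := fun n => ball_subset_closedBall.trans (hcl n)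
  have hDmono : Monotone D := monotone_nat_of_le_succ hmono
  have hordtop : ∀ z ∈ U, analyticOrderAt G z ≠ ⊤ := by
    intro z hz
    obtain ⟨k, hk⟩ := hord z hz
    rw [hk]
    exact ENat.natCast_ne_top _
  obtain ⟨n₀, hn₀⟩ := hcover z₁ hz₁
  obtain ⟨b, hb, hGb⟩ : ∃ b ∈ D n₀, G b ≠ 0 := by
    by_contra hcon
    push Not at hcon
    apply hordtop z₁ hz₁
    rw [analyticOrderAt_eq_top]
    filter_upwards [isOpen_ball.mem_nhds hn₀] with w hw using hcon w hw
  obtain ⟨w₀, hw₀⟩ : ∃ w₀ : ℂ, w₀ ^ m = G b :=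
    ⟨G b ^ ((m : ℂ)⁻¹), Complex.cpow_nat_inv_pow _ hm⟩
  have hw₀0 : w₀ ≠ 0 := by
    rintro rfl
    rw [zero_pow hm] at hw₀
    exact hGb hw₀.symm
  have hex : ∀ n, ∃ H : ℂ → ℂ, DifferentiableOn ℂ H (D (n + n₀)) ∧
      (∀ z ∈ D (n + n₀), H z ^ m = G z) ∧ H b = w₀ := by
    intro n
    have hfin := finite_zeros_of_closedBall_subset hU hG hordtop (hcl (n + n₀))
    obtain ⟨H, hH, hHG⟩ := exists_root_on_ball m hm (c (n + n₀)) (r (n + n₀)) G
      (hG.mono (hDU _)) hfin (fun z hz => hord z (hDU _ hz))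
    have hbn : b ∈ D (n + n₀) := hDmono (Nat.le_add_left n₀ n) hb
    have hHb : H b ≠ 0 := by
      intro h0
      have h1 := hHG b hbn
      rw [h0, zero_pow hm] at h1
      exact hGb h1.symm
    refine ⟨fun z => (w₀ / H b) * H z, hH.const_mul _, fun z hz => ?_, ?_⟩
    · rw [mul_pow, div_pow, hw₀, hHG z hz, ← hHG b hbn, div_self (pow_ne_zero _ hHb), one_mul]
    · exact div_mul_cancel₀ _ hHb
  choose Hs hHs hHsG hHsb using hex
  have hcompat : ∀ n n', n ≤ n' → EqOn (Hs n) (Hs n') (D (n + n₀)) := by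
    intro n n' hnn'
    have hsub : D (n + n₀) ⊆ D (n' + n₀) := hDmono (Nat.add_le_add_right hnn' n₀)
    have hbn : b ∈ D (n + n₀) := hDmono (Nat.le_add_left n₀ n) hb
    refine eqOn_of_pow_eq isOpen_ball (convex_ball _ _).isPreconnected (hHs n)
      ((hHs n').mono hsub) m hm (fun z hz => ?_) hbn ?_ ?_
    · rw [hHsG n z hz, hHsG n' z (hsub hz)]
    · rw [hHsb, hHsb]
    · rw [hHsb]
      exact hw₀0
  have hcov' : ∀ z ∈ U, ∃ n, z ∈ D (n + n₀) := by
    intro z hz
    obtain ⟨n, hn⟩ := hcover z hz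
    exact ⟨n, hDmono (Nat.le_add_right n n₀) hn⟩
  let Nz : ℂ → ℕ := fun z => if h : ∃ n, z ∈ D (n + n₀) then Nat.find h else 0
  have hkey : ∀ n, ∀ z ∈ D (n + n₀), Hs (Nz z) z = Hs n z := by
    intro n z hz
    have hex : ∃ n, z ∈ D (n + n₀) := ⟨n, hz⟩
    have hNz : Nz z = Nat.find hex := dif_pos hex
    rw [hNz]
    exact hcompat _ _ (Nat.find_min' hex hz) (Nat.find_spec hex)
  refine ⟨fun z => Hs (Nz z) z, fun z hz => ?_, fun z hz => ?_⟩
  · obtain ⟨n, hn⟩ := hcov' z hz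
    have hev : (fun z => Hs (Nz z) z) =ᶠ[𝓝 z] Hs n := by
      filter_upwards [isOpen_ball.mem_nhds hn] with w hw using hkey n w hw
    exact (((hHs n).differentiableAt (isOpen_ball.mem_nhds hn)).congr_of_eventuallyEq
      hev).differentiableWithinAt
  · obtain ⟨n, hn⟩ := hcov' z hz
    show Hs (Nz z) z ^ m = G z
    rw [hkey n z hn]
    exact hHsG n z hn

/-- **Holomorphic `m`-th roots on the upper half plane**: a holomorphic function on
`{z | 0 < z.im}` all of whose orders are finite and divisible by `m` is the `m`-th power of a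
holomorphic function. -/
theorem exists_root_upperHalfPlane (m : ℕ) (hm : m ≠ 0) (G : ℂ → ℂ)
    (hG : DifferentiableOn ℂ G {z : ℂ | 0 < z.im})
    (hord : ∀ z : ℂ, 0 < z.im → ∃ k : ℕ, analyticOrderAt G z = ((m * k : ℕ) : ℕ∞)) :
    ∃ H : ℂ → ℂ, DifferentiableOn ℂ H {z : ℂ | 0 < z.im} ∧
      ∀ z : ℂ, 0 < z.im → H z ^ m = G z := by
  have hopen : IsOpen {z : ℂ | 0 < z.im} := isOpen_lt continuous_const Complex.continuous_im
  refine exists_root_of_exhaustion m hm hopen
    (fun n => (((n : ℝ) + 2 : ℝ) : ℂ) * I) (fun n => ((n : ℝ) + 2) - 1 / ((n : ℝ) + 2))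
    ?_ ?_ ?_ G hG hord
  · intro n
    apply ball_subset_ball'
    have hd : dist ((((n : ℝ) + 2 : ℝ) : ℂ) * I) (((((n + 1 : ℕ) : ℝ) + 2 : ℝ) : ℂ) * I) = 1 := by
      rw [dist_eq_norm, ← sub_mul, norm_mul, Complex.norm_I, mul_one, ← Complex.ofReal_sub,
        Complex.norm_real]
      push_cast
      norm_num
    rw [hd]
    have h1 : (0 : ℝ) < (n : ℝ) + 2 := by positivity
    have h2 : 1 / (((n + 1 : ℕ) : ℝ) + 2) ≤ 1 / ((n : ℝ) + 2) := by
      apply one_div_le_one_div_of_le h1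
      push_cast
      linarith
    push_cast at h2 ⊢
    linarith
  · intro n z hz
    have h1 : (0 : ℝ) < (n : ℝ) + 2 := by positivity
    have h2 : 0 < 1 / ((n : ℝ) + 2) := by positivity
    rw [mem_closedBall, dist_eq_norm] at hz
    have h3 := (Complex.abs_im_le_norm (z - (((n : ℝ) + 2 : ℝ) : ℂ) * I)).trans hz
    have h4 : (z - (((n : ℝ) + 2 : ℝ) : ℂ) * I).im = z.im - ((n : ℝ) + 2) := by
      simp
    rw [h4, abs_le] at h3
    show 0 < z.im
    linarith [h3.1]
  · intro z hz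
    have hz' : 0 < z.im := hz
    obtain ⟨n, hn⟩ := exists_nat_gt ((z.re ^ 2 + z.im ^ 2 + 2) / z.im)
    refine ⟨n, ?_⟩
    rw [div_lt_iff₀ hz'] at hn
    have hR : (0 : ℝ) < (n : ℝ) + 2 := by positivity
    have hR1 : 1 / ((n : ℝ) + 2) < (n : ℝ) + 2 := by
      rw [div_lt_iff₀ hR]
      nlinarith
    have hsq : ((n : ℝ) + 2 - 1 / ((n : ℝ) + 2)) ^ 2
        = ((n : ℝ) + 2) ^ 2 - 2 + (1 / ((n : ℝ) + 2)) ^ 2 := by
      field_simp
      ring
    rw [mem_ball, dist_eq_norm, Complex.norm_def, Real.sqrt_lt' (by linarith),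
      Complex.normSq_apply, hsq]
    have h4 : (z - (((n : ℝ) + 2 : ℝ) : ℂ) * I).im = z.im - ((n : ℝ) + 2) := by
      simp
    have h5 : (z - (((n : ℝ) + 2 : ℝ) : ℂ) * I).re = z.re := by
      simp
    rw [h4, h5]
    nlinarith [sq_nonneg (1 / ((n : ℝ) + 2)), mul_pos hz' hR]

/-- Two holomorphic functions on the upper half plane with the same `m`-th power differ by a
constant `m`-th root of unity. -/
theorem exists_rootOfUnity_of_pow_eq_upperHalfPlane (m : ℕ) (hm : m ≠ 0) {f g : ℂ → ℂ}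
    (hf : DifferentiableOn ℂ f {z : ℂ | 0 < z.im}) (hg : DifferentiableOn ℂ g {z : ℂ | 0 < z.im})
    (hpow : ∀ z : ℂ, 0 < z.im → f z ^ m = g z ^ m) {b : ℂ} (hb : 0 < b.im) (hgb : g b ≠ 0) :
    ∃ ζ : ℂ, ζ ^ m = 1 ∧ ∀ z : ℂ, 0 < z.im → f z = ζ * g z :=
  exists_rootOfUnity_of_pow_eq (isOpen_lt continuous_const Complex.continuous_im)
    (convex_halfSpace_im_gt 0).isPreconnected hf hg m hm hpow hb hgb

section UHP

open UpperHalfPlane
open scoped Manifold

/-- `ℍ → ℂ` form of `exists_root_upperHalfPlane`. -/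
theorem exists_root_mdifferentiable (m : ℕ) (hm : m ≠ 0) (G : ℍ → ℂ)
    (hG : MDifferentiable 𝓘(ℂ) 𝓘(ℂ) G)
    (hord : ∀ τ : ℍ, ∃ k : ℕ, analyticOrderAt (G ∘ ofComplex) (τ : ℂ) = ((m * k : ℕ) : ℕ∞)) :
    ∃ H : ℍ → ℂ, MDifferentiable 𝓘(ℂ) 𝓘(ℂ) H ∧ ∀ τ : ℍ, H τ ^ m = G τ := by
  obtain ⟨Hc, hHc, hHcG⟩ := exists_root_upperHalfPlane m hm (G ∘ ofComplex)
    (UpperHalfPlane.mdifferentiable_iff.mp hG) (fun z hz => hord ⟨z, hz⟩)
  refine ⟨fun τ => Hc (τ : ℂ), ?_, fun τ => ?_⟩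
  · rw [UpperHalfPlane.mdifferentiable_iff]
    refine hHc.congr fun z hz => ?_
    have hz' : 0 < z.im := hz
    simp [Function.comp, ofComplex_apply_of_im_pos hz']
  · have h := hHcG (τ : ℂ) τ.im_pos
    simpa [Function.comp, ofComplex_apply] using h

/-- `ℍ → ℂ` form of `exists_rootOfUnity_of_pow_eq_upperHalfPlane`. -/
theorem exists_rootOfUnity_of_pow_eq_mdifferentiable (m : ℕ) (hm : m ≠ 0) {f g : ℍ → ℂ}
    (hf : MDifferentiable 𝓘(ℂ) 𝓘(ℂ) f) (hg : MDifferentiable 𝓘(ℂ) 𝓘(ℂ) g)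
    (hpow : ∀ τ : ℍ, f τ ^ m = g τ ^ m) (hg0 : g ≠ 0) :
    ∃ ζ : ℂ, ζ ^ m = 1 ∧ ∀ τ : ℍ, f τ = ζ * g τ := by
  obtain ⟨b, hb⟩ : ∃ b : ℍ, g b ≠ 0 := by
    by_contra hcon
    push Not at hcon
    exact hg0 (funext hcon)
  obtain ⟨ζ, hζ, h⟩ := exists_rootOfUnity_of_pow_eq_upperHalfPlane m hm
    (UpperHalfPlane.mdifferentiable_iff.mp hf) (UpperHalfPlane.mdifferentiable_iff.mp hg)
    (fun z hz => by
      have := hpow ⟨z, hz⟩
      simpa [Function.comp, ofComplex_apply_of_im_pos hz] using this)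
    (b := (b : ℂ)) b.im_pos (by simpa [Function.comp, ofComplex_apply] using hb)
  refine ⟨ζ, hζ, fun τ => ?_⟩
  have h1 := h (τ : ℂ) τ.im_pos
  simpa [Function.comp, ofComplex_apply] using h1

end UHP

end Fermat.Agent.Lib.HolRoot

end
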