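import Fermat.Agent.Lib.HolRoot
import Fermat.Agent.S24.HolHOrd

set_option autoImplicit false
set_option linter.dupNamespace false

/-!
# Holomorphic `m`-th roots in `HolH` (the ring of holomorphic functions on `ℍ` of S24)

* `exists_root`: `G ≠ 0` with `m ∣ ordZ τ G` for all `τ` is an `m`-th power in `HolH`.
* `exists_root_frac`: the fraction `A / B` with `m ∣ ordZ τ A - ordZ τ B` for all `τ` is the
  `m`-th power of a fraction `H / B`.
* `exists_rootOfUnity_of_pow_eq`: two `m`-th roots differ by a constant `m`-th root of unity.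
* `exists_character`: if `H ^ m` is invariant under a subgroup `Γ` of `SL(2, ℤ)` then
  `H ∘ γ = φ γ • H` for a character `φ : Γ →* rootsOfUnity m ℂ` (the Kummer character).
-/

open scoped Manifold MatrixGroups
open UpperHalfPlane Fermat.Agent.S24.HolH

noncomputable section

namespace Fermat.Agent.Lib.HolRootH

theorem coe_pow_apply (H : HolH) (m : ℕ) (τ : ℍ) :
    ((H ^ m : HolH) : ℍ → ℂ) τ = (H : ℍ → ℂ) τ ^ m := by
  simp

theorem coe_smul_apply (c : ℂ) (H : HolH) (τ : ℍ) :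
    ((c • H : HolH) : ℍ → ℂ) τ = c * (H : ℍ → ℂ) τ := by
  simp

theorem exists_apply_ne_zero {H : HolH} (hH : H ≠ 0) : ∃ τ : ℍ, (H : ℍ → ℂ) τ ≠ 0 := by
  by_contra hcon
  push Not at hcon
  exact hH (Subtype.ext (funext hcon))

theorem ordZ_pow (τ : ℍ) {B : HolH} (hB : B ≠ 0) (k : ℕ) : ordZ τ (B ^ k) = k * ordZ τ B := by
  induction k with
  | zero => simp [ordZ_one]
  | succ k ih =>
    rw [pow_succ, ordZ_mul τ (pow_ne_zero _ hB) hB, ih]
    push_cast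
    ring

/-- **Holomorphic `m`-th roots**: a nonzero holomorphic function on `ℍ` all of whose orders are
divisible by `m` is an `m`-th power. -/
theorem exists_root (m : ℕ) (hm : m ≠ 0) (G : HolH) (hG : G ≠ 0)
    (h : ∀ τ : ℍ, (m : ℤ) ∣ ordZ τ G) : ∃ H : HolH, H ^ m = G := by
  have hord : ∀ τ : ℍ, ∃ k : ℕ,
      analyticOrderAt ((G : ℍ → ℂ) ∘ ofComplex) (τ : ℂ) = ((m * k : ℕ) : ℕ∞) := by
    intro τ
    obtain ⟨n, hn⟩ := ENat.ne_top_iff_exists.mp (ordAt_ne_top (τ0 := τ) hG)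
    have h1 := h τ
    rw [ordZ, ← hn, ENat.toNat_natCast, Int.natCast_dvd_natCast] at h1
    obtain ⟨k, rfl⟩ := h1
    exact ⟨k, hn.symm⟩
  obtain ⟨H, hH, hHG⟩ := HolRoot.exists_root_mdifferentiable m hm (G : ℍ → ℂ) G.2 hord
  refine ⟨⟨H, hH⟩, Subtype.ext (funext fun τ => ?_)⟩
  rw [coe_pow_apply]
  exact hHG τ

/-- Fraction form: if `m ∣ ord_τ A - ord_τ B` for all `τ`, then `A / B = (H / B) ^ m` for some
holomorphic `H`. -/
theorem exists_root_frac (m : ℕ) (hm : m ≠ 0) (A B : HolH) (hA : A ≠ 0) (hB : B ≠ 0)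
    (h : ∀ τ : ℍ, (m : ℤ) ∣ ordZ τ A - ordZ τ B) :
    ∃ H : HolH, H ≠ 0 ∧ H ^ m = A * B ^ (m - 1) ∧ H ^ m * B = A * B ^ m := by
  have hG : A * B ^ (m - 1) ≠ 0 := mul_ne_zero hA (pow_ne_zero _ hB)
  have hm1 : 1 ≤ m := Nat.one_le_iff_ne_zero.mpr hm
  obtain ⟨H, hH⟩ := exists_root m hm (A * B ^ (m - 1)) hG (fun τ => by
    rw [ordZ_mul τ hA (pow_ne_zero _ hB), ordZ_pow τ hB]
    obtain ⟨c, hc⟩ := h τ
    refine ⟨c + ordZ τ B, ?_⟩
    push_cast [Nat.cast_sub hm1]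
    linear_combination hc)
  refine ⟨H, ?_, hH, ?_⟩
  · rintro rfl
    rw [zero_pow hm] at hH
    exact hG hH.symm
  · rw [hH, mul_assoc, ← pow_succ, Nat.sub_add_cancel hm1]

/-- Two holomorphic `m`-th roots of the same function differ by a constant root of unity. -/
theorem exists_rootOfUnity_of_pow_eq (m : ℕ) (hm : m ≠ 0) (H₁ H₂ : HolH)
    (h : H₁ ^ m = H₂ ^ m) (h2 : H₂ ≠ 0) : ∃ ζ : ℂ, ζ ^ m = 1 ∧ H₁ = ζ • H₂ := by
  obtain ⟨ζ, hζ, hζH⟩ := HolRoot.exists_rootOfUnity_of_pow_eq_mdifferentiable m hm H₁.2 H₂.2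
    (fun τ => by
      have := congrFun (congrArg Subtype.val h) τ
      rwa [coe_pow_apply, coe_pow_apply] at this)
    (fun h0 => h2 (Subtype.ext h0))
  refine ⟨ζ, hζ, Subtype.ext (funext fun τ => ?_)⟩
  rw [coe_smul_apply]
  exact hζH τ

theorem smul_left_cancel_of_ne_zero {H : HolH} (hH : H ≠ 0) {c c' : ℂ} (h : c • H = c' • H) :
    c = c' := by
  obtain ⟨τ, hτ⟩ := exists_apply_ne_zero hH
  have h1 := congrFun (congrArg Subtype.val h) τ
  rw [coe_smul_apply, coe_smul_apply] at h1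
  exact mul_right_cancel₀ hτ h1

/-- **The Kummer character.** If `H ≠ 0` is holomorphic on `ℍ` and `H ^ m` is invariant under
the subgroup `Γ` of `SL(2, ℤ)`, then `H ∘ γ = φ γ • H` for a character `φ` of `Γ` with values in
the `m`-th roots of unity. -/
theorem exists_character (m : ℕ) [NeZero m] (Γ : Subgroup SL(2, ℤ)) (H : HolH) (hH : H ≠ 0)
    (hinv : ∀ γ ∈ Γ, compSL γ (H ^ m) = H ^ m) :
    ∃ φ : Γ →* rootsOfUnity m ℂ,
      ∀ γ : Γ, compSL (γ : SL(2, ℤ)) H = ((φ γ : ℂˣ) : ℂ) • H := by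
  have hm : m ≠ 0 := NeZero.ne m
  have hex : ∀ γ : Γ, ∃ ζ : ℂ, ζ ^ m = 1 ∧ compSL (γ : SL(2, ℤ)) H = ζ • H := fun γ =>
    exists_rootOfUnity_of_pow_eq m hm _ _ (by rw [← map_pow, hinv γ γ.2]) hH
  choose ζ hζ hζH using hex
  have hmul : ∀ γ₁ γ₂ : Γ, ζ (γ₁ * γ₂) = ζ γ₁ * ζ γ₂ := by
    intro γ₁ γ₂
    apply smul_left_cancel_of_ne_zero hH
    rw [← hζH, Subgroup.coe_mul, compSL_mul, hζH γ₁, map_smul, hζH γ₂, smul_smul]
  refine ⟨MonoidHom.mk' (fun γ => rootsOfUnity.mkOfPowEq (ζ γ) (hζ γ)) (fun γ₁ γ₂ => ?_),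
    fun γ => ?_⟩
  · apply Subtype.ext
    apply Units.ext
    simp [hmul]
  · simp [hζH]

end Fermat.Agent.Lib.HolRootH

end
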