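/-
S19 / S32 (wave 5), route-independent brick (helper72): THE HOPF ALGEBRA OF AN ORDER.

`GaloisRep.ratLocalizedAt ℓ = ℤ_(ℓ)`, `ℚ̄ = AlgebraicClosure ℚ`.  Let `G` be a finite abelian group
with an action `act` of `Gal(ℚ̄/ℚ)` and `H0` a `ℤ_(ℓ)`-subalgebra of `G → ℚ̄` such that

* every `a ∈ H0` is Galois-equivariant: `a (act σ x) = σ (a x)`;
* `H0` is a finite `ℤ_(ℓ)`-module and separates the points of `G`;
* `H0` is stable under the comultiplication `a ↦ ((x, y) ↦ a (x + y))` (finite sums of products)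
  and under the antipode `a ↦ (x ↦ a (-x))`.

Then (`exists_hopf_of_order`) `H0` carries a finite flat cocommutative Hopf algebra structure
over `ℤ_(ℓ)` and `x ↦ (evaluation at x)` is a bijection `G ≃ Hom_alg(H0, ℚ̄)` turning addition
into convolution and `act σ` into `σ ∘ -`.  The conclusion is literally the existential of the
frozen `ModularCurve.exists_finiteFlat_model_jZero_torsion` (S19) and of
`GaloisRepAdic.IsFlatAt` (S32), with `G` in place of `J₀(N)[ℓ^k]`, resp. `V / I V`.

Ingredients: Galois descent of linear independence (`linearIndependent_of_equivariant`: no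
continuity of the action is needed), `ℤ_(ℓ)` is a PID with fraction field `ℚ`, injectivity of
`H ⊗ H → Maps(G × G, ℚ̄)` and `H ⊗ H ⊗ H → Maps(G³, ℚ̄)` (a basis goes to a `ℚ̄`-linearly
independent family), so that all Hopf axioms are checked on functions.
Imports: Mathlib + the Prelude definition of `ratLocalizedAt` only.
-/
import Mathlib
import Fermat.Prelude.Def_GaloisRep_Flat

set_option autoImplicit false

open TensorProduct GaloisRep

namespace Fermat.Agent.Lib.HopfOrder

local notation "Qb" => AlgebraicClosure ℚ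

/-! ### A. Function spaces -/

/-- Products of two linearly independent families of functions are linearly independent
functions on the product. -/
theorem linearIndependent_prodFun {K X Y ι κ : Type*} [Field K] [Fintype ι] [Fintype κ]
    (u : ι → X → K) (v : κ → Y → K) (hu : LinearIndependent K u) (hv : LinearIndependent K v) :
    LinearIndependent K (fun p : ι × κ => fun q : X × Y => u p.1 q.1 * v p.2 q.2) := by
  classical
  rw [Fintype.linearIndependent_iff] at hu hv ⊢
  intro g hg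
  have key : ∀ x : X, ∀ j : κ, ∑ i, g (i, j) * u i x = 0 := by
    intro x
    apply hv (fun j => ∑ i, g (i, j) * u i x)
    funext y
    have h1 := congrFun hg (x, y)
    simp only [Finset.sum_apply, Pi.smul_apply, smul_eq_mul, Pi.zero_apply] at h1 ⊢
    rw [← h1, Fintype.sum_prod_type, Finset.sum_comm]
    refine Finset.sum_congr rfl fun j _ => ?_
    rw [Finset.sum_mul]
    refine Finset.sum_congr rfl fun i _ => ?_
    ring
  rintro ⟨i, j⟩
  have h2 : ∑ i, g (i, j) • u i = 0 := by
    funext x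
    simpa using key x j
  exact hu (fun i => g (i, j)) h2 i

/-- An element of `ℚ̄` fixed by the whole Galois group is rational. -/
theorem exists_rat_of_fixed (z : Qb) (hz : ∀ σ : Qb ≃ₐ[ℚ] Qb, σ z = z) :
    ∃ q : ℚ, algebraMap ℚ Qb q = z := by
  have hA : Algebra.IsAlgebraic ℚ Qb := AlgebraicClosure.isAlgebraic ℚ
  have hC : IsAlgClosure ℚ Qb := ⟨inferInstance, inferInstance⟩
  have hG : IsGalois ℚ Qb := IsAlgClosure.isGalois ℚ Qb
  have h1 : z ∈ IntermediateField.fixedField (⊤ : Subgroup (Qb ≃ₐ[ℚ] Qb)) := by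
    rw [IntermediateField.mem_fixedField_iff]
    intro σ _
    exact hz σ
  rw [InfiniteGalois.fixedField_bot, IntermediateField.mem_bot] at h1
  exact h1


/-- **Galois descent of linear independence.**  A `ℚ`-linearly independent family of functions
`X → ℚ̄` which are equivariant for an action of the Galois group on `X` (by surjective maps)
is `ℚ̄`-linearly independent. -/
theorem linearIndependent_of_equivariant {X ι : Type*} [Fintype ι] (a : ι → X → Qb)
    (act : (Qb ≃ₐ[ℚ] Qb) → X → X) (hact : ∀ σ, Function.Surjective (act σ))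
    (hequiv : ∀ i σ x, a i (act σ x) = σ (a i x)) (h : LinearIndependent ℚ a) :
    LinearIndependent Qb a := by
  classical
  rw [Fintype.linearIndependent_iff]
  -- strong induction on the size of the support
  suffices H : ∀ n : ℕ, ∀ c : ι → Qb, (Finset.univ.filter fun i => c i ≠ 0).card ≤ n →
      ∑ i, c i • a i = 0 → ∀ i, c i = 0 from fun c hc => H _ c le_rfl hc
  intro n
  induction n with
  | zero =>
    intro c hcard _ i
    by_contra hi
    have : i ∈ Finset.univ.filter fun i => c i ≠ 0 := by simp [hi]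
    have h0 : (Finset.univ.filter fun i => c i ≠ 0) = ∅ := Finset.card_eq_zero.mp (Nat.le_zero.mp hcard)
    rw [h0] at this
    simp at this
  | succ n ih =>
    intro c hcard hc
    by_contra hne
    push Not at hne
    obtain ⟨i0, hi0⟩ := hne
    -- normalise
    set c' : ι → Qb := fun i => c i / c i0 with hc'
    have hc'0 : c' i0 = 1 := by simp [hc', hi0]
    have hsol' : ∑ i, c' i • a i = 0 := by
      have : ∑ i, c' i • a i = (c i0)⁻¹ • ∑ i, c i • a i := by
        rw [Finset.smul_sum]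
        refine Finset.sum_congr rfl fun i _ => ?_
        rw [smul_smul, hc']
        congr 1
        field_simp
      rw [this, hc, smul_zero]
    have hsupp' : ∀ i, c' i ≠ 0 → c i ≠ 0 := by
      intro i hi h0
      apply hi
      simp [hc', h0]
    -- Galois conjugates of the relation
    have hfix : ∀ σ : Qb ≃ₐ[ℚ] Qb, ∀ i, σ (c' i) = c' i := by
      intro σ
      have hsolσ : ∑ i, (σ (c' i) - c' i) • a i = 0 := by
        have h1 : ∑ i, σ (c' i) • a i = 0 := by
          funext x
          obtain ⟨y, rfl⟩ := hact σ x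
          have h2 := congrFun hsol' y
          simp only [Finset.sum_apply, Pi.smul_apply, smul_eq_mul, Pi.zero_apply] at h2 ⊢
          have h3 := congrArg σ h2
          rw [map_sum, map_zero] at h3
          rw [← h3]
          refine Finset.sum_congr rfl fun i _ => ?_
          rw [map_mul, hequiv]
        simp only [sub_smul, Finset.sum_sub_distrib, h1, hsol', sub_zero]
      have hcardσ : (Finset.univ.filter fun i => σ (c' i) - c' i ≠ 0).card ≤ n := by
        have hsub : (Finset.univ.filter fun i => σ (c' i) - c' i ≠ 0) ⊆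
            (Finset.univ.filter fun i => c i ≠ 0).erase i0 := by
          intro i hi
          simp only [Finset.mem_filter, Finset.mem_univ, true_and] at hi
          simp only [Finset.mem_erase, Finset.mem_filter, Finset.mem_univ, true_and]
          refine ⟨?_, hsupp' i ?_⟩
          · rintro rfl
            apply hi
            rw [hc'0, map_one, sub_self]
          · intro h0
            apply hi
            rw [h0, map_zero, sub_self]
        have h1 := Finset.card_le_card hsub
        have h2 : i0 ∈ Finset.univ.filter fun i => c i ≠ 0 := by simp [hi0]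
        rw [Finset.card_erase_of_mem h2] at h1
        omega
      intro i
      exact sub_eq_zero.mp (ih _ hcardσ hsolσ i)
    -- so the coefficients are rational
    choose q hq using fun i => exists_rat_of_fixed (c' i) (fun σ => hfix σ i)
    have hrat : ∑ i, q i • a i = 0 := by
      rw [← hsol']
      refine Finset.sum_congr rfl fun i _ => ?_
      rw [← hq i, algebraMap_smul]
    have hq0 := (Fintype.linearIndependent_iff.mp h) q hrat i0
    have : c' i0 = 0 := by rw [← hq i0, hq0, map_zero]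
    rw [hc'0] at this
    exact one_ne_zero this

/-! ### B. The ring `ℤ_(ℓ)` -/

section Zl

variable (ℓ : ℕ)

theorem algebraMap_Zl_injective :
    Function.Injective (algebraMap ↥(ratLocalizedAt ℓ) Qb) := by
  intro x y h
  have h1 : algebraMap ℚ Qb (x : ℚ) = algebraMap ℚ Qb (y : ℚ) := h
  exact Subtype.ext ((algebraMap ℚ Qb).injective h1)

theorem natCast_den_mem_Zl (x : ratLocalizedAt ℓ) (k : ℤ) :
    ((k : ℚ) / ((x : ℚ).den : ℚ)) ∈ ratLocalizedAt ℓ := by
  change ((k : ℚ) / ((x : ℚ).den : ℚ)).den.Coprime ℓ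
  have hdvd : ((k : ℚ) / ((x : ℚ).den : ℚ)).den ∣ (x : ℚ).den := by
    have := Rat.den_dvd k ((x : ℚ).den : ℤ)
    rw [Rat.divInt_eq_div] at this
    exact_mod_cast this
  exact Nat.Coprime.coprime_dvd_left hdvd x.2

/-- `ℤ_(ℓ)` is a principal ideal ring. -/
theorem isPrincipalIdealRing_Zl : IsPrincipalIdealRing ↥(ratLocalizedAt ℓ) := by
  refine ⟨fun I => ?_⟩
  obtain ⟨a, ha⟩ := (inferInstance : IsPrincipalIdealRing ℤ).principal
    (Ideal.comap (Int.castRingHom ↥(ratLocalizedAt ℓ)) I)
  refine ⟨⟨(a : ↥(ratLocalizedAt ℓ)), ?_⟩⟩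
  have haI : (a : ↥(ratLocalizedAt ℓ)) ∈ I := by
    have : a ∈ Ideal.comap (Int.castRingHom ↥(ratLocalizedAt ℓ)) I := by
      rw [ha]; exact Submodule.mem_span_singleton_self a
    simpa using this
  apply le_antisymm
  · intro x hx
    have h1 : x * (((x : ℚ).den : ℕ) : ↥(ratLocalizedAt ℓ)) =
        (((x : ℚ).num : ℤ) : ↥(ratLocalizedAt ℓ)) := by
      apply Subtype.ext
      push_cast
      exact Rat.mul_den_eq_num _
    have hnum : (((x : ℚ).num : ℤ) : ↥(ratLocalizedAt ℓ)) ∈ I := by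
      rw [← h1]
      exact I.mul_mem_right _ hx
    have hnum' : (x : ℚ).num ∈ Ideal.comap (Int.castRingHom ↥(ratLocalizedAt ℓ)) I := by
      simpa using hnum
    rw [ha] at hnum'
    obtain ⟨k, hk⟩ := Submodule.mem_span_singleton.mp hnum'
    rw [Submodule.mem_span_singleton]
    refine ⟨⟨_, natCast_den_mem_Zl ℓ x k⟩, ?_⟩
    apply Subtype.ext
    have hden : ((x : ℚ).den : ℚ) ≠ 0 := by exact_mod_cast (x : ℚ).den_ne_zero
    have hk0 : (x : ℚ).num = k * a := by rw [← hk, smul_eq_mul]
    have hk' : ((x : ℚ).num : ℚ) = (k : ℚ) * (a : ℚ) := by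
      rw [hk0]; push_cast; ring
    simp only [smul_eq_mul, Subring.coe_mul, Subring.coe_intCast]
    conv_rhs => rw [← Rat.num_div_den (x : ℚ)]
    rw [hk']
    field_simp
  · rw [Submodule.span_singleton_le_iff_mem]
    exact haI

/-- `ℚ` is the fraction field of `ℤ_(ℓ)`. -/
theorem isFractionRing_Zl : IsFractionRing ↥(ratLocalizedAt ℓ) ℚ := by
  refine IsFractionRing.of_field _ ℚ fun z => ?_
  refine ⟨((z.num : ℤ) : ↥(ratLocalizedAt ℓ)), ((z.den : ℕ) : ↥(ratLocalizedAt ℓ)), ?_⟩
  have h1 : algebraMap ↥(ratLocalizedAt ℓ) ℚ ((z.num : ℤ) : ↥(ratLocalizedAt ℓ)) = (z.num : ℚ) := by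
    simp
  have h2 : algebraMap ↥(ratLocalizedAt ℓ) ℚ ((z.den : ℕ) : ↥(ratLocalizedAt ℓ)) = (z.den : ℚ) := by
    simp
  rw [h1, h2]
  exact (Rat.num_div_den z).symm

/-- A rational number which is integral over `ℤ_(ℓ)` lies in `ℤ_(ℓ)`. -/
theorem mem_Zl_of_isIntegral (z : ℚ) (hz : IsIntegral ↥(ratLocalizedAt ℓ) z) :
    z ∈ ratLocalizedAt ℓ := by
  have := isPrincipalIdealRing_Zl ℓ
  have := isFractionRing_Zl ℓ
  obtain ⟨y, hy⟩ := IsIntegrallyClosed.isIntegral_iff.mp hz
  rw [← hy]
  exact y.2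

/-- Function spaces with values in `ℚ̄` are torsion-free over `ℤ_(ℓ)`. -/
theorem isTorsionFree_fun (X : Type*) : Module.IsTorsionFree ↥(ratLocalizedAt ℓ) (X → Qb) where
  isSMulRegular r hr := by
    intro f g h
    have hr0 : r ≠ 0 := hr.ne_zero
    have hr1 : algebraMap ↥(ratLocalizedAt ℓ) Qb r ≠ 0 := by
      intro h0
      exact hr0 (algebraMap_Zl_injective ℓ (by rw [h0, map_zero]))
    funext x
    have h2 := congrFun h x
    simp only [Pi.smul_apply, Algebra.smul_def] at h2
    exact mul_left_cancel₀ hr1 h2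

end Zl

/-! ### C. The Hopf algebra of an order -/

/-- Precomposition with a map, as a homomorphism of `ℤ_(ℓ)`-algebras. -/
noncomputable def pull (ℓ : ℕ) {X Y : Type} (φ : Y → X) :
    (X → Qb) →ₐ[↥(ratLocalizedAt ℓ)] (Y → Qb) :=
  AlgHom.pi (fun y => Pi.evalAlgHom _ _ (φ y))

@[simp]
theorem pull_apply (ℓ : ℕ) {X Y : Type} (φ : Y → X) (f : X → Qb) (y : Y) :
    pull ℓ φ f y = f (φ y) := rfl

/-- An additive, `ℤ_(ℓ)`-homogeneous map from a free `ℤ_(ℓ)`-module to a function space which
sends a basis to a `ℚ̄`-linearly independent family is injective. -/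
theorem injective_of_basis (ℓ : ℕ) {M ι X : Type*} [Fintype ι] [AddCommGroup M]
    [Module ↥(ratLocalizedAt ℓ) M] (b : Module.Basis ι ↥(ratLocalizedAt ℓ) M)
    (F : M → X → Qb) (hadd : ∀ m m', F (m + m') = F m + F m')
    (hsmul : ∀ (r : ↥(ratLocalizedAt ℓ)) (m : M) (x : X),
      F (r • m) x = algebraMap ↥(ratLocalizedAt ℓ) Qb r * F m x)
    (h : LinearIndependent Qb (fun i => F (b i))) : Function.Injective F := by
  classical
  let Fh : M →+ (X → Qb) := AddMonoidHom.mk' F hadd
  have hFh : ∀ m, Fh m = F m := fun _ => rfl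
  have hker : ∀ m, F m = 0 → m = 0 := by
    intro m hm
    have h1 : ∑ i, algebraMap ↥(ratLocalizedAt ℓ) Qb (b.repr m i) • F (b i) = 0 := by
      rw [← hm, ← hFh m]
      conv_rhs => rw [← b.sum_repr m]
      rw [map_sum]
      refine Finset.sum_congr rfl fun i _ => ?_
      funext x
      rw [hFh, hsmul]
      rfl
    have h2 := (Fintype.linearIndependent_iff.mp h) _ h1
    have h3 : b.repr m = 0 := by
      refine Finsupp.ext fun i => ?_
      have := h2 i
      rw [Finsupp.zero_apply]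
      exact algebraMap_Zl_injective ℓ (this.trans (map_zero _).symm)
    exact b.repr.map_eq_zero_iff.mp h3
  intro m m' hmm
  have h4 : F (m - m') = 0 := by
    have : Fh (m - m') = Fh m - Fh m' := map_sub Fh m m'
    rw [hFh, hFh, hFh, hmm, sub_self] at this
    exact this
  exact sub_eq_zero.mp (hker _ h4)

/-- **An order in the algebra of Galois-equivariant functions on a finite Galois module `G`,
closed under the comultiplication and the antipode.** -/
structure OrderData (ℓ : ℕ) (G : Type) [AddCommGroup G] where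
  /-- the Galois action on `G` -/
  act : (Qb ≃ₐ[ℚ] Qb) → G → G
  act_surj : ∀ σ, Function.Surjective (act σ)
  act_zero : ∀ σ, act σ 0 = 0
  /-- the order, as a `ℤ_(ℓ)`-algebra of functions on `G` -/
  H0 : Subalgebra ↥(ratLocalizedAt ℓ) (G → Qb)
  equivariant : ∀ a ∈ H0, ∀ σ x, a (act σ x) = σ (a x)
  fin : Module.Finite ↥(ratLocalizedAt ℓ) ↥H0
  sep : ∀ x y : G, x ≠ y → ∃ a ∈ H0, a x ≠ a y
  comul_mem : ∀ a ∈ H0, ∃ (n : ℕ) (b c : Fin n → G → Qb),
    (∀ i, b i ∈ H0) ∧ (∀ i, c i ∈ H0) ∧ ∀ x y, a (x + y) = ∑ i, b i x * c i y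
  neg_mem : ∀ a ∈ H0, (fun x => a (-x)) ∈ H0

namespace OrderData

variable {ℓ : ℕ} {G : Type} [AddCommGroup G] (D : OrderData ℓ G)

/-- The underlying algebra. -/
abbrev A : Type := ↥D.H0

theorem free : Module.Free ↥(ratLocalizedAt ℓ) D.A := by
  haveI := isPrincipalIdealRing_Zl ℓ
  haveI := D.fin
  haveI := isTorsionFree_fun ℓ G
  haveI : Module.IsTorsionFree ↥(ratLocalizedAt ℓ) D.A :=
    Function.Injective.moduleIsTorsionFree (N := G → Qb) (fun a : D.A => (a : G → Qb))
      Subtype.val_injective (fun _ _ => rfl)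
  exact Module.free_of_finite_type_torsion_free'

theorem exists_basis : ∃ n : ℕ, Nonempty (Module.Basis (Fin n) ↥(ratLocalizedAt ℓ) D.A) := by
  haveI := D.fin
  haveI := D.free
  exact ⟨_, ⟨Module.finBasis ↥(ratLocalizedAt ℓ) D.A⟩⟩

/-- A `ℤ_(ℓ)`-basis of the order is `ℚ̄`-linearly independent in the function space. -/
theorem linInd {ι : Type} [Fintype ι] (b : Module.Basis ι ↥(ratLocalizedAt ℓ) D.A) :
    LinearIndependent Qb (fun i => ((b i : D.A) : G → Qb)) := by
  have h1 : LinearIndependent ↥(ratLocalizedAt ℓ) (fun i => ((b i : D.A) : G → Qb)) :=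
    b.linearIndependent.map' D.H0.val.toLinearMap (LinearMap.ker_eq_bot.mpr Subtype.val_injective)
  haveI := isFractionRing_Zl ℓ
  have h2 : LinearIndependent ℚ (fun i => ((b i : D.A) : G → Qb)) :=
    (LinearIndependent.iff_fractionRing ↥(ratLocalizedAt ℓ) ℚ).mp h1
  exact linearIndependent_of_equivariant _ D.act D.act_surj
    (fun i σ x => D.equivariant _ (b i).2 σ x) h2

/-- The map `H ⊗ H → Maps(G × G, ℚ̄)`. -/
noncomputable def mu2 : D.A ⊗[↥(ratLocalizedAt ℓ)] D.A →ₐ[↥(ratLocalizedAt ℓ)] (G × G → Qb) :=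
  Algebra.TensorProduct.productMap ((pull ℓ Prod.fst).comp D.H0.val)
    ((pull ℓ Prod.snd).comp D.H0.val)

theorem mu2_tmul (a b : D.A) (p : G × G) :
    D.mu2 (a ⊗ₜ b) p = (a : G → Qb) p.1 * (b : G → Qb) p.2 := by
  simp [mu2, Algebra.TensorProduct.productMap_apply_tmul]

theorem mu2_injective : Function.Injective D.mu2 := by
  classical
  obtain ⟨n, ⟨b⟩⟩ := D.exists_basis
  have hli := linearIndependent_prodFun _ _ (D.linInd b) (D.linInd b)
  refine injective_of_basis ℓ (b.tensorProduct b) (fun t => D.mu2 t) (fun m m' => map_add _ _ _)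
    (fun r m x => ?_) ?_
  · rw [map_smul, Pi.smul_apply, Algebra.smul_def]
  · convert hli using 1
    funext p
    funext q
    obtain ⟨i, j⟩ := p
    simp [Module.Basis.tensorProduct_apply, mu2_tmul]

theorem comul_mem_range (a : D.A) :
    ((pull ℓ (fun p : G × G => p.1 + p.2)).comp D.H0.val) a ∈ D.mu2.range := by
  classical
  obtain ⟨n, b, c, hb, hc, h⟩ := D.comul_mem a a.2
  refine ⟨∑ i, (⟨b i, hb i⟩ : D.A) ⊗ₜ[↥(ratLocalizedAt ℓ)] (⟨c i, hc i⟩ : D.A), ?_⟩
  funext p
  change D.mu2 (∑ i, (⟨b i, hb i⟩ : D.A) ⊗ₜ[↥(ratLocalizedAt ℓ)] (⟨c i, hc i⟩ : D.A)) p =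
    (a : G → Qb) (p.1 + p.2)
  rw [map_sum, Finset.sum_apply]
  simp only [mu2_tmul]
  exact (h p.1 p.2).symm

/-- The comultiplication `a ↦ ((x, y) ↦ a (x + y))`. -/
noncomputable def comulHom :
    D.A →ₐ[↥(ratLocalizedAt ℓ)] D.A ⊗[↥(ratLocalizedAt ℓ)] D.A :=
  ((AlgEquiv.ofInjective D.mu2 D.mu2_injective).symm :
      D.mu2.range →ₐ[↥(ratLocalizedAt ℓ)] _).comp
    (AlgHom.codRestrict ((pull ℓ (fun p : G × G => p.1 + p.2)).comp D.H0.val) D.mu2.range
      D.comul_mem_range)

theorem mu2_comulHom (a : D.A) (x y : G) :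
    D.mu2 (D.comulHom a) (x, y) = (a : G → Qb) (x + y) := by
  have h := (AlgEquiv.ofInjective D.mu2 D.mu2_injective).apply_symm_apply
    (AlgHom.codRestrict ((pull ℓ (fun p : G × G => p.1 + p.2)).comp D.H0.val) D.mu2.range
      D.comul_mem_range a)
  have h2 := congrArg Subtype.val h
  have h3 : D.mu2 (D.comulHom a) = (pull ℓ (fun p : G × G => p.1 + p.2)) (a : G → Qb) := h2
  rw [h3]
  rfl

theorem eval_zero_mem (a : D.A) :
    ((Pi.evalAlgHom ↥(ratLocalizedAt ℓ) (fun _ : G => Qb) 0).comp D.H0.val) a ∈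
      (Algebra.ofId ↥(ratLocalizedAt ℓ) Qb).range := by
  have hfix : ∀ σ : Qb ≃ₐ[ℚ] Qb, σ ((a : G → Qb) 0) = (a : G → Qb) 0 := by
    intro σ
    rw [← D.equivariant _ a.2 σ 0, D.act_zero]
  obtain ⟨q, hq⟩ := exists_rat_of_fixed _ hfix
  haveI := D.fin
  have hint : IsIntegral ↥(ratLocalizedAt ℓ) a := IsIntegral.of_finite _ a
  have hint2 : IsIntegral ↥(ratLocalizedAt ℓ) ((a : G → Qb) 0) :=
    hint.map ((Pi.evalAlgHom ↥(ratLocalizedAt ℓ) (fun _ : G => Qb) 0).comp D.H0.val)
  rw [← hq] at hint2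
  have hint3 : IsIntegral ↥(ratLocalizedAt ℓ) q :=
    (isIntegral_algebraMap_iff (algebraMap ℚ Qb).injective).mp hint2
  exact ⟨⟨q, mem_Zl_of_isIntegral ℓ q hint3⟩, hq⟩

/-- The counit `a ↦ a 0`. -/
noncomputable def counitHom : D.A →ₐ[↥(ratLocalizedAt ℓ)] ↥(ratLocalizedAt ℓ) :=
  ((AlgEquiv.ofInjective (Algebra.ofId ↥(ratLocalizedAt ℓ) Qb) (algebraMap_Zl_injective ℓ)).symm :
      (Algebra.ofId ↥(ratLocalizedAt ℓ) Qb).range →ₐ[↥(ratLocalizedAt ℓ)] _).comp
    (AlgHom.codRestrict ((Pi.evalAlgHom ↥(ratLocalizedAt ℓ) (fun _ : G => Qb) 0).comp D.H0.val)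
      (Algebra.ofId ↥(ratLocalizedAt ℓ) Qb).range D.eval_zero_mem)

theorem algebraMap_counitHom (a : D.A) :
    algebraMap ↥(ratLocalizedAt ℓ) Qb (D.counitHom a) = (a : G → Qb) 0 := by
  have h := (AlgEquiv.ofInjective (Algebra.ofId ↥(ratLocalizedAt ℓ) Qb)
      (algebraMap_Zl_injective ℓ)).apply_symm_apply
    (AlgHom.codRestrict ((Pi.evalAlgHom ↥(ratLocalizedAt ℓ) (fun _ : G => Qb) 0).comp D.H0.val)
      (Algebra.ofId ↥(ratLocalizedAt ℓ) Qb).range D.eval_zero_mem a)
  exact congrArg Subtype.val h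

/-- The map `H ⊗ (H ⊗ H) → Maps(G × (G × G), ℚ̄)`. -/
noncomputable def mu3 :
    D.A ⊗[↥(ratLocalizedAt ℓ)] (D.A ⊗[↥(ratLocalizedAt ℓ)] D.A) →ₐ[↥(ratLocalizedAt ℓ)]
      (G × (G × G) → Qb) :=
  Algebra.TensorProduct.productMap ((pull ℓ Prod.fst).comp D.H0.val)
    ((pull ℓ Prod.snd).comp D.mu2)

theorem mu3_tmul (a : D.A) (t : D.A ⊗[↥(ratLocalizedAt ℓ)] D.A) (p : G × (G × G)) :
    D.mu3 (a ⊗ₜ t) p = (a : G → Qb) p.1 * D.mu2 t p.2 := by
  simp [mu3, Algebra.TensorProduct.productMap_apply_tmul]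

theorem mu3_injective : Function.Injective D.mu3 := by
  classical
  obtain ⟨n, ⟨b⟩⟩ := D.exists_basis
  have hli2 := linearIndependent_prodFun _ _ (D.linInd b) (D.linInd b)
  have hli := linearIndependent_prodFun _ _ (D.linInd b) hli2
  refine injective_of_basis ℓ (b.tensorProduct (b.tensorProduct b)) (fun t => D.mu3 t)
    (fun m m' => map_add _ _ _) (fun r m x => ?_) ?_
  · rw [map_smul, Pi.smul_apply, Algebra.smul_def]
  · convert hli using 1
    funext p
    funext q
    obtain ⟨i, j, k⟩ := p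
    simp [Module.Basis.tensorProduct_apply, mu3_tmul, mu2_tmul]

theorem mu3_assoc_tmul (t : D.A ⊗[↥(ratLocalizedAt ℓ)] D.A) (c : D.A) (x y z : G) :
    D.mu3 ((Algebra.TensorProduct.assoc ↥(ratLocalizedAt ℓ) ↥(ratLocalizedAt ℓ)
      ↥(ratLocalizedAt ℓ) D.A D.A D.A) (t ⊗ₜ c)) (x, (y, z)) =
      D.mu2 t (x, y) * (c : G → Qb) z := by
  induction t using TensorProduct.induction_on with
  | zero => simp
  | tmul a b =>
    simp only [Algebra.TensorProduct.assoc_tmul, mu3_tmul, mu2_tmul]
    ring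
  | add t t' ht ht' =>
    rw [TensorProduct.add_tmul, map_add, map_add, Pi.add_apply, ht, ht', map_add, Pi.add_apply]
    ring

theorem mu3_assoc_map (s : D.A ⊗[↥(ratLocalizedAt ℓ)] D.A) (x y z : G) :
    D.mu3 ((Algebra.TensorProduct.assoc ↥(ratLocalizedAt ℓ) ↥(ratLocalizedAt ℓ)
      ↥(ratLocalizedAt ℓ) D.A D.A D.A)
        ((Algebra.TensorProduct.map D.comulHom (AlgHom.id ↥(ratLocalizedAt ℓ) D.A)) s))
        (x, (y, z)) = D.mu2 s (x + y, z) := by
  induction s using TensorProduct.induction_on with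
  | zero => simp
  | tmul a b =>
    rw [Algebra.TensorProduct.map_tmul, AlgHom.id_apply, mu3_assoc_tmul, mu2_comulHom, mu2_tmul]
  | add t t' ht ht' =>
    simp only [map_add, Pi.add_apply, ht, ht']

theorem mu3_map (s : D.A ⊗[↥(ratLocalizedAt ℓ)] D.A) (x y z : G) :
    D.mu3 ((Algebra.TensorProduct.map (AlgHom.id ↥(ratLocalizedAt ℓ) D.A) D.comulHom) s)
        (x, (y, z)) = D.mu2 s (x, y + z) := by
  induction s using TensorProduct.induction_on with
  | zero => simp
  | tmul a b =>
    rw [Algebra.TensorProduct.map_tmul, AlgHom.id_apply, mu3_tmul, mu2_comulHom, mu2_tmul]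
  | add t t' ht ht' =>
    simp only [map_add, Pi.add_apply, ht, ht']

theorem coassoc :
    (Algebra.TensorProduct.assoc ↥(ratLocalizedAt ℓ) ↥(ratLocalizedAt ℓ) ↥(ratLocalizedAt ℓ)
        D.A D.A D.A : _ →ₐ[↥(ratLocalizedAt ℓ)] _).comp
      ((Algebra.TensorProduct.map D.comulHom (AlgHom.id ↥(ratLocalizedAt ℓ) D.A)).comp
        D.comulHom) =
    (Algebra.TensorProduct.map (AlgHom.id ↥(ratLocalizedAt ℓ) D.A) D.comulHom).comp
      D.comulHom := by
  refine AlgHom.ext fun a => ?_
  apply D.mu3_injective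
  funext p
  obtain ⟨x, y, z⟩ := p
  have h1 := D.mu3_assoc_map (D.comulHom a) x y z
  have h2 := D.mu3_map (D.comulHom a) x y z
  rw [mu2_comulHom] at h1 h2
  rw [add_assoc] at h1
  exact h1.trans h2.symm

theorem lid_map_counit (s : D.A ⊗[↥(ratLocalizedAt ℓ)] D.A) (x : G) :
    (((Algebra.TensorProduct.lid ↥(ratLocalizedAt ℓ) D.A)
      ((Algebra.TensorProduct.map D.counitHom (AlgHom.id ↥(ratLocalizedAt ℓ) D.A)) s) : D.A) :
        G → Qb) x = D.mu2 s (0, x) := by
  induction s using TensorProduct.induction_on with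
  | zero => simp
  | tmul a b =>
    rw [Algebra.TensorProduct.map_tmul, AlgHom.id_apply, Algebra.TensorProduct.lid_tmul, mu2_tmul]
    change (D.counitHom a • (b : G → Qb)) x = _
    rw [Pi.smul_apply, Algebra.smul_def, algebraMap_counitHom]
  | add t t' ht ht' =>
    simp only [map_add, Subalgebra.coe_add, Pi.add_apply, ht, ht']

theorem rid_map_counit (s : D.A ⊗[↥(ratLocalizedAt ℓ)] D.A) (x : G) :
    (((Algebra.TensorProduct.rid ↥(ratLocalizedAt ℓ) ↥(ratLocalizedAt ℓ) D.A)
      ((Algebra.TensorProduct.map (AlgHom.id ↥(ratLocalizedAt ℓ) D.A) D.counitHom) s) : D.A) :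
        G → Qb) x = D.mu2 s (x, 0) := by
  induction s using TensorProduct.induction_on with
  | zero => simp
  | tmul a b =>
    rw [Algebra.TensorProduct.map_tmul, AlgHom.id_apply, Algebra.TensorProduct.rid_tmul, mu2_tmul]
    change (D.counitHom b • (a : G → Qb)) x = _
    rw [Pi.smul_apply, Algebra.smul_def, algebraMap_counitHom, mul_comm]
  | add t t' ht ht' =>
    simp only [map_add, Subalgebra.coe_add, Pi.add_apply, ht, ht']

theorem rTensor_counit :
    (Algebra.TensorProduct.map D.counitHom (AlgHom.id ↥(ratLocalizedAt ℓ) D.A)).comp D.comulHom =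
      ((Algebra.TensorProduct.lid ↥(ratLocalizedAt ℓ) D.A).symm :
        D.A →ₐ[↥(ratLocalizedAt ℓ)] _) := by
  refine AlgHom.ext fun a => ?_
  apply (Algebra.TensorProduct.lid ↥(ratLocalizedAt ℓ) D.A).injective
  apply Subtype.ext
  funext x
  have h1 := D.lid_map_counit (D.comulHom a) x
  rw [mu2_comulHom, zero_add] at h1
  have h2 : (Algebra.TensorProduct.lid ↥(ratLocalizedAt ℓ) D.A)
      (((Algebra.TensorProduct.lid ↥(ratLocalizedAt ℓ) D.A).symm :
        D.A →ₐ[↥(ratLocalizedAt ℓ)] _) a) = a := AlgEquiv.apply_symm_apply _ a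
  rw [h2]
  exact h1

theorem lTensor_counit :
    (Algebra.TensorProduct.map (AlgHom.id ↥(ratLocalizedAt ℓ) D.A) D.counitHom).comp D.comulHom =
      ((Algebra.TensorProduct.rid ↥(ratLocalizedAt ℓ) ↥(ratLocalizedAt ℓ) D.A).symm :
        D.A →ₐ[↥(ratLocalizedAt ℓ)] _) := by
  refine AlgHom.ext fun a => ?_
  apply (Algebra.TensorProduct.rid ↥(ratLocalizedAt ℓ) ↥(ratLocalizedAt ℓ) D.A).injective
  apply Subtype.ext
  funext x
  have h1 := D.rid_map_counit (D.comulHom a) x
  rw [mu2_comulHom, add_zero] at h1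
  have h2 : (Algebra.TensorProduct.rid ↥(ratLocalizedAt ℓ) ↥(ratLocalizedAt ℓ) D.A)
      (((Algebra.TensorProduct.rid ↥(ratLocalizedAt ℓ) ↥(ratLocalizedAt ℓ) D.A).symm :
        D.A →ₐ[↥(ratLocalizedAt ℓ)] _) a) = a := AlgEquiv.apply_symm_apply _ a
  rw [h2]
  exact h1

/-- The bialgebra structure. -/
@[instance_reducible]
noncomputable def bialgebra : Bialgebra ↥(ratLocalizedAt ℓ) D.A :=
  Bialgebra.ofAlgHom D.comulHom D.counitHom D.coassoc D.rTensor_counit D.lTensor_counit

/-- The antipode `a ↦ (x ↦ a (-x))`. -/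
noncomputable def antipodeHom : D.A →ₐ[↥(ratLocalizedAt ℓ)] D.A :=
  AlgHom.codRestrict ((pull ℓ (fun x : G => -x)).comp D.H0.val) D.H0
    (fun a => D.neg_mem a a.2)

theorem antipodeHom_apply (a : D.A) (x : G) :
    ((D.antipodeHom a : D.A) : G → Qb) x = (a : G → Qb) (-x) := rfl

theorem mul_antipode_rTensor (s : D.A ⊗[↥(ratLocalizedAt ℓ)] D.A) (x : G) :
    ((LinearMap.mul' ↥(ratLocalizedAt ℓ) D.A
      ((D.antipodeHom.toLinearMap.rTensor D.A) s) : D.A) : G → Qb) x = D.mu2 s (-x, x) := by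
  induction s using TensorProduct.induction_on with
  | zero => simp
  | tmul a b =>
    rw [LinearMap.rTensor_tmul, LinearMap.mul'_apply, mu2_tmul]
    rfl
  | add t t' ht ht' =>
    simp only [map_add, Subalgebra.coe_add, Pi.add_apply, ht, ht']

theorem mul_antipode_lTensor (s : D.A ⊗[↥(ratLocalizedAt ℓ)] D.A) (x : G) :
    ((LinearMap.mul' ↥(ratLocalizedAt ℓ) D.A
      ((D.antipodeHom.toLinearMap.lTensor D.A) s) : D.A) : G → Qb) x = D.mu2 s (x, -x) := by
  induction s using TensorProduct.induction_on with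
  | zero => simp
  | tmul a b =>
    rw [LinearMap.lTensor_tmul, LinearMap.mul'_apply, mu2_tmul]
    rfl
  | add t t' ht ht' =>
    simp only [map_add, Subalgebra.coe_add, Pi.add_apply, ht, ht']

/-- **The Hopf algebra structure.** -/
@[instance_reducible]
noncomputable def hopfAlgebra : HopfAlgebra ↥(ratLocalizedAt ℓ) D.A :=
  letI := D.bialgebra
  { antipode := D.antipodeHom.toLinearMap
    mul_antipode_rTensor_comul := by
      refine LinearMap.ext fun a => ?_
      apply Subtype.ext
      funext x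
      have h1 := D.mul_antipode_rTensor (D.comulHom a) x
      rw [mu2_comulHom, neg_add_cancel] at h1
      refine h1.trans ?_
      exact (D.algebraMap_counitHom a).symm
    mul_antipode_lTensor_comul := by
      refine LinearMap.ext fun a => ?_
      apply Subtype.ext
      funext x
      have h1 := D.mul_antipode_lTensor (D.comulHom a) x
      rw [mu2_comulHom, add_neg_cancel] at h1
      refine h1.trans ?_
      exact (D.algebraMap_counitHom a).symm }

theorem mu2_comm (s : D.A ⊗[↥(ratLocalizedAt ℓ)] D.A) (x y : G) :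
    D.mu2 (TensorProduct.comm ↥(ratLocalizedAt ℓ) D.A D.A s) (x, y) = D.mu2 s (y, x) := by
  induction s using TensorProduct.induction_on with
  | zero => simp
  | tmul a b =>
    rw [TensorProduct.comm_tmul, mu2_tmul, mu2_tmul, mul_comm]
  | add t t' ht ht' =>
    simp only [map_add, Pi.add_apply, ht, ht']

/-! ### The points of the Hopf algebra -/

/-- Evaluation at a point of `G`. -/
noncomputable def evalHom (x : G) : D.A →ₐ[↥(ratLocalizedAt ℓ)] Qb :=
  (Pi.evalAlgHom ↥(ratLocalizedAt ℓ) (fun _ : G => Qb) x).comp D.H0.val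

theorem evalHom_apply (x : G) (a : D.A) : D.evalHom x a = (a : G → Qb) x := rfl

theorem evalHom_injective : Function.Injective D.evalHom := by
  intro x y h
  by_contra hne
  obtain ⟨a, ha, hxy⟩ := D.sep x y hne
  exact hxy (congrArg (fun φ : D.A →ₐ[↥(ratLocalizedAt ℓ)] Qb => φ ⟨a, ha⟩) h)

theorem lift_evalHom (x y : G)
    (h : ∀ a b : D.A, Commute (D.evalHom x a) (D.evalHom y b))
    (s : D.A ⊗[↥(ratLocalizedAt ℓ)] D.A) :
    (Algebra.TensorProduct.lift (D.evalHom x) (D.evalHom y) h) s = D.mu2 s (x, y) := by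
  induction s using TensorProduct.induction_on with
  | zero => simp
  | tmul a b =>
    rw [Algebra.TensorProduct.lift_tmul, mu2_tmul]
    rfl
  | add t t' ht ht' =>
    simp only [map_add, Pi.add_apply, ht, ht']

/-- Every point of the Hopf algebra is the evaluation at a point of `G`. -/
theorem exists_evalHom [Finite G] (φ : D.A →ₐ[↥(ratLocalizedAt ℓ)] Qb) :
    ∃ x : G, φ = D.evalHom x := by
  classical
  haveI : Fintype G := Fintype.ofFinite G
  obtain ⟨n, ⟨b⟩⟩ := D.exists_basis
  set v : Fin n → G → Qb := fun i => ((b i : D.A) : G → Qb) with hv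
  have hli : LinearIndependent Qb v := D.linInd b
  set V : Submodule Qb (G → Qb) := Submodule.span Qb (Set.range v) with hV
  -- the coordinates of an element of the order
  have hrepr : ∀ a : D.A, (a : G → Qb) =
      ∑ i, algebraMap ↥(ratLocalizedAt ℓ) Qb (b.repr a i) • v i := by
    intro a
    have h1 : D.H0.val a = D.H0.val (∑ i, b.repr a i • b i) := by rw [b.sum_repr a]
    rw [map_sum] at h1
    refine h1.trans (Finset.sum_congr rfl fun i _ => ?_)
    funext x
    rw [map_smul]
    change (b.repr a i • ((b i : D.A) : G → Qb)) x = _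
    rw [Pi.smul_apply, Algebra.smul_def]
    rfl
  have hmem : ∀ a : D.A, (a : G → Qb) ∈ V := by
    intro a
    rw [hrepr a]
    exact Submodule.sum_mem _ fun i _ =>
      Submodule.smul_mem _ _ (Submodule.subset_span ⟨i, rfl⟩)
  -- `V` is closed under multiplication
  have hmul : ∀ f ∈ V, ∀ g ∈ V, f * g ∈ V := by
    intro f hf g hg
    induction hf using Submodule.span_induction with
    | mem f hf =>
      obtain ⟨i, rfl⟩ := hf
      induction hg using Submodule.span_induction with
      | mem g hg =>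
        obtain ⟨j, rfl⟩ := hg
        exact hmem (b i * b j)
      | zero => rw [mul_zero]; exact V.zero_mem
      | add g g' _ _ hg hg' => rw [mul_add]; exact V.add_mem hg hg'
      | smul c g _ hg => rw [mul_smul_comm]; exact V.smul_mem c hg
    | zero => rw [zero_mul]; exact V.zero_mem
    | add f f' _ _ hf hf' => rw [add_mul]; exact V.add_mem hf hf'
    | smul c f _ hf => rw [smul_mul_assoc]; exact V.smul_mem c hf
  have hone : (1 : G → Qb) ∈ V := hmem 1
  -- the indicator functions lie in `V`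
  have hsep := fun (x y : G) (h : x ≠ y) => D.sep x y h
  choose a ha hane using hsep
  let fac : G → G → G → Qb := fun x y =>
    if h : x = y then 1
    else (a x y h x - a x y h y)⁻¹ • (a x y h - a x y h y • (1 : G → Qb))
  have hfac : ∀ x y, fac x y ∈ V := by
    intro x y
    by_cases h : x = y
    · simp only [fac, dif_pos h]; exact hone
    · simp only [fac, dif_neg h]
      exact V.smul_mem _ (V.sub_mem (hmem ⟨a x y h, ha x y h⟩) (V.smul_mem _ hone))
  have hdelta : ∀ x : G, (Pi.single x (1 : Qb) : G → Qb) ∈ V := by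
    intro x
    have h1 : (Pi.single x (1 : Qb) : G → Qb) = ∏ y, fac x y := by
      funext z
      rw [Finset.prod_apply]
      by_cases hz : z = x
      · subst hz
        rw [Pi.single_eq_same]
        symm
        refine Finset.prod_eq_one fun y _ => ?_
        by_cases h : z = y
        · simp [fac, dif_pos h]
        · simp only [fac, dif_neg h, Pi.smul_apply, Pi.sub_apply, Pi.one_apply, smul_eq_mul,
            mul_one]
          exact inv_mul_cancel₀ (sub_ne_zero.mpr (hane z y h))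
      · rw [Pi.single_eq_of_ne hz]
        symm
        refine Finset.prod_eq_zero (Finset.mem_univ z) ?_
        have h : x ≠ z := fun h => hz h.symm
        simp [fac, dif_neg h]
    rw [h1]
    exact Finset.prod_induction _ (· ∈ V) (fun f g hf hg => hmul f hf g hg) hone
      (fun y _ => hfac x y)
  have htop : ⊤ ≤ V := by
    intro f _
    have h1 : f = ∑ x, f x • (Pi.single x (1 : Qb) : G → Qb) := by
      funext z
      rw [Finset.sum_apply]
      simp [Pi.single_apply]
    rw [h1]
    exact V.sum_mem fun x _ => V.smul_mem _ (hdelta x)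
  -- the `ℚ̄`-linear extension of `φ`
  let B : Module.Basis (Fin n) Qb (G → Qb) := Module.Basis.mk hli htop
  have hB : ∀ i, B i = v i := fun i => by rw [Module.Basis.mk_apply]
  let Φ : (G → Qb) →ₗ[Qb] Qb := B.constr ℕ (fun i => φ (b i))
  have hΦv : ∀ i, Φ (v i) = φ (b i) := by
    intro i
    rw [← hB i]
    exact B.constr_basis ℕ _ i
  have hΦ : ∀ a : D.A, Φ (a : G → Qb) = φ a := by
    intro a
    rw [hrepr a, map_sum]
    conv_rhs => rw [← b.sum_repr a, map_sum]
    refine Finset.sum_congr rfl fun i _ => ?_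
    rw [map_smul, hΦv, map_smul, smul_eq_mul, Algebra.smul_def]
  have hΦmul : ∀ f g : G → Qb, Φ (f * g) = Φ f * Φ g := by
    intro f g
    have hf : f ∈ V := htop Submodule.mem_top
    have hg : g ∈ V := htop Submodule.mem_top
    induction hf using Submodule.span_induction with
    | mem f hf =>
      obtain ⟨i, rfl⟩ := hf
      induction hg using Submodule.span_induction with
      | mem g hg =>
        obtain ⟨j, rfl⟩ := hg
        have h1 : v i * v j = ((b i * b j : D.A) : G → Qb) := rfl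
        rw [h1, hΦ, map_mul, hΦv, hΦv]
      | zero => simp
      | add g g' _ _ hg hg' => rw [mul_add, map_add, map_add, hg, hg', mul_add]
      | smul c g _ hg => rw [mul_smul_comm, map_smul, map_smul, hg, smul_eq_mul, smul_eq_mul,
          mul_left_comm]
    | zero => simp
    | add f f' _ _ hf hf' => rw [add_mul, map_add, map_add, hf, hf', add_mul]
    | smul c f _ hf => rw [smul_mul_assoc, map_smul, map_smul, hf, smul_eq_mul, smul_eq_mul,
        mul_assoc]
  have hΦone : Φ 1 = 1 := by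
    have h1 : (1 : G → Qb) = ((1 : D.A) : G → Qb) := rfl
    rw [h1, hΦ, map_one]
  -- a point
  have hsum : ∑ x : G, Φ (Pi.single x (1 : Qb)) = 1 := by
    have h1 : ∑ x : G, (Pi.single x (1 : Qb) : G → Qb) = 1 := by
      funext z
      rw [Finset.sum_apply]
      simp [Pi.single_apply]
    rw [← map_sum, h1, hΦone]
  obtain ⟨x0, hx0⟩ : ∃ x0 : G, Φ (Pi.single x0 (1 : Qb)) ≠ 0 := by
    by_contra hcon
    push Not at hcon
    rw [Finset.sum_eq_zero (fun x _ => hcon x)] at hsum
    exact zero_ne_one hsum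
  have hidem : Φ (Pi.single x0 (1 : Qb)) * Φ (Pi.single x0 (1 : Qb)) = Φ (Pi.single x0 (1 : Qb)) := by
    rw [← hΦmul]
    congr 1
    funext z
    by_cases hz : z = x0
    · subst hz; simp
    · simp [Pi.single_eq_of_ne hz]
  have hx1 : Φ (Pi.single x0 (1 : Qb)) = 1 := by
    have := mul_right_cancel₀ hx0 (hidem.trans (one_mul _).symm)
    exact this
  refine ⟨x0, AlgHom.ext fun a => ?_⟩
  rw [evalHom_apply, ← hΦ a]
  have h2 : (a : G → Qb) * (Pi.single x0 (1 : Qb) : G → Qb) =
      (a : G → Qb) x0 • (Pi.single x0 (1 : Qb) : G → Qb) := by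
    funext z
    by_cases hz : z = x0
    · subst hz; simp
    · simp [Pi.single_eq_of_ne hz]
  calc Φ (a : G → Qb) = Φ (a : G → Qb) * Φ (Pi.single x0 (1 : Qb)) := by rw [hx1, mul_one]
    _ = Φ ((a : G → Qb) * (Pi.single x0 (1 : Qb) : G → Qb)) := (hΦmul _ _).symm
    _ = (a : G → Qb) x0 := by rw [h2, map_smul, hx1, smul_eq_mul, mul_one]

/-- **The Hopf algebra of an order: existence in the shape of the frozen statements**
(`ModularCurve.exists_finiteFlat_model_jZero_torsion`, `GaloisRepAdic.IsFlatAt`). -/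
theorem exists_hopf [Finite G] :
    ∃ (H : Type) (_ : CommRing H) (_ : HopfAlgebra (GaloisRep.ratLocalizedAt ℓ) H),
      Module.Finite (GaloisRep.ratLocalizedAt ℓ) H ∧ Module.Flat (GaloisRep.ratLocalizedAt ℓ) H ∧
      Coalgebra.IsCocomm (GaloisRep.ratLocalizedAt ℓ) H ∧
      ∃ e : WithConv (H →ₐ[GaloisRep.ratLocalizedAt ℓ] AlgebraicClosure ℚ) ≃ G,
        (∀ f g, e (f * g) = e f + e g) ∧
        ∀ (σ : AlgebraicClosure ℚ ≃ₐ[ℚ] AlgebraicClosure ℚ)
          (f g : WithConv (H →ₐ[GaloisRep.ratLocalizedAt ℓ] AlgebraicClosure ℚ)),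
          (∀ h : H, g h = σ (f h)) → e g = D.act σ (e f) := by
  classical
  letI := D.hopfAlgebra
  let pe : G ≃ (D.A →ₐ[↥(ratLocalizedAt ℓ)] Qb) :=
    Equiv.ofBijective D.evalHom
      ⟨D.evalHom_injective, fun φ => (D.exists_evalHom φ).imp fun x hx => hx.symm⟩
  have hpe : ∀ x, pe.symm (D.evalHom x) = x := fun x => pe.symm_apply_apply x
  refine ⟨D.A, inferInstance, D.hopfAlgebra, D.fin, ?_, ?_,
    (WithConv.equiv _).trans pe.symm, ?_, ?_⟩
  · haveI := D.free
    exact (inferInstance : Module.Flat ↥(ratLocalizedAt ℓ) D.A)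
  · refine ⟨?_⟩
    refine LinearMap.ext fun a => ?_
    apply D.mu2_injective
    funext p
    obtain ⟨x, y⟩ := p
    have h1 := D.mu2_comm (D.comulHom a) x y
    rw [mu2_comulHom] at h1
    refine h1.trans ?_
    rw [add_comm]
    exact (D.mu2_comulHom a x y).symm
  · intro f g
    rcases f with ⟨f0⟩
    rcases g with ⟨g0⟩
    obtain ⟨x, rfl⟩ := D.exists_evalHom f0
    obtain ⟨y, rfl⟩ := D.exists_evalHom g0
    have hmulxy : (WithConv.toConv (D.evalHom x) * WithConv.toConv (D.evalHom y) :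
        WithConv (D.A →ₐ[↥(ratLocalizedAt ℓ)] Qb)) = WithConv.toConv (D.evalHom (x + y)) := by
      apply WithConv.ext
      refine AlgHom.ext fun a => ?_
      rw [AlgHom.convMul_apply]
      exact (D.lift_evalHom x y _ _).trans (D.mu2_comulHom a x y)
    rw [hmulxy]
    change pe.symm (D.evalHom (x + y)) = pe.symm (D.evalHom x) + pe.symm (D.evalHom y)
    rw [hpe, hpe, hpe]
  · intro σ f g hfg
    rcases f with ⟨f0⟩
    rcases g with ⟨g0⟩
    obtain ⟨x, rfl⟩ := D.exists_evalHom f0
    have hg : g0 = D.evalHom (D.act σ x) := by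
      refine AlgHom.ext fun a => ?_
      have h1 : g0 a = σ (D.evalHom x a) := hfg a
      rw [evalHom_apply, D.equivariant _ a.2, h1, evalHom_apply]
    subst hg
    change pe.symm (D.evalHom (D.act σ x)) = D.act σ (pe.symm (D.evalHom x))
    rw [hpe, hpe]

end OrderData

/-- **Packaging theorem, explicit form.**  Let `G` be a finite abelian group with an action of
`Gal(ℚ̄/ℚ)` and `H0` a `ℤ_(ℓ)`-algebra of Galois-equivariant functions `G → ℚ̄` which is a finite
`ℤ_(ℓ)`-module, separates the points of `G` and is stable under the comultiplication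
`a ↦ ((x, y) ↦ a (x + y))` and the antipode `a ↦ (x ↦ a (-x))`.  Then `H0` is a finite flat
cocommutative Hopf algebra over `ℤ_(ℓ)` whose `ℚ̄`-points are `G`, Galois-equivariantly. -/
theorem exists_hopf_of_order (ℓ : ℕ) {G : Type} [AddCommGroup G] [Finite G]
    (act : (AlgebraicClosure ℚ ≃ₐ[ℚ] AlgebraicClosure ℚ) → G → G)
    (hact : ∀ σ, Function.Surjective (act σ)) (hact0 : ∀ σ, act σ 0 = 0)
    (H0 : Subalgebra ↥(GaloisRep.ratLocalizedAt ℓ) (G → AlgebraicClosure ℚ))
    (hequiv : ∀ a ∈ H0, ∀ σ x, a (act σ x) = σ (a x))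
    (hfin : Module.Finite ↥(GaloisRep.ratLocalizedAt ℓ) ↥H0)
    (hsep : ∀ x y : G, x ≠ y → ∃ a ∈ H0, a x ≠ a y)
    (hΔ : ∀ a ∈ H0, ∃ (n : ℕ) (b c : Fin n → G → AlgebraicClosure ℚ),
      (∀ i, b i ∈ H0) ∧ (∀ i, c i ∈ H0) ∧ ∀ x y, a (x + y) = ∑ i, b i x * c i y)
    (hS : ∀ a ∈ H0, (fun x => a (-x)) ∈ H0) :
    ∃ (H : Type) (_ : CommRing H) (_ : HopfAlgebra (GaloisRep.ratLocalizedAt ℓ) H),
      Module.Finite (GaloisRep.ratLocalizedAt ℓ) H ∧ Module.Flat (GaloisRep.ratLocalizedAt ℓ) H ∧
      Coalgebra.IsCocomm (GaloisRep.ratLocalizedAt ℓ) H ∧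
      ∃ e : WithConv (H →ₐ[GaloisRep.ratLocalizedAt ℓ] AlgebraicClosure ℚ) ≃ G,
        (∀ f g, e (f * g) = e f + e g) ∧
        ∀ (σ : AlgebraicClosure ℚ ≃ₐ[ℚ] AlgebraicClosure ℚ)
          (f g : WithConv (H →ₐ[GaloisRep.ratLocalizedAt ℓ] AlgebraicClosure ℚ)),
          (∀ h : H, g h = σ (f h)) → e g = act σ (e f) :=
  OrderData.exists_hopf
    { act := act, act_surj := hact, act_zero := hact0, H0 := H0, equivariant := hequiv,
      fin := hfin, sep := hsep, comul_mem := hΔ, neg_mem := hS }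

end Fermat.Agent.Lib.HopfOrder
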