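import Mathlib
import Fermat.Agent.Lib.MinkowskiBridge

/-!
# Inertia at `p` acts on `μ_{p^m}` through all of `(ℤ/p^m)ˣ`

`Qb := AlgebraicClosure ℚ`.  For a valuation subring `A` of `Qb` over a prime `p` and a primitive
`p^m`-th root of unity `ζ`:

* `exists_mem_inertia_pow_primePow`: for every `k` prime to `p` there is `σ` in the inertia
  group of `A` with `σ ζ = ζ ^ k` (`p` is totally ramified in `ℚ(ζ_{p^m})`);
* `exists_mem_inertia_pow`: the case `m = 1`;
* `exists_mem_inertia_ne`: for `p ≠ 2` some inertia element moves `ζ`;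
* `exists_mem_inertia_two`: for `5 ≤ p` some inertia element acts on `ζ` by squaring, and
  `ζ`, `ζ ^ 2`, `ζ ^ 4` are pairwise distinct.

The proof lifts the automorphism `ζ ↦ ζ ^ k` of `ℚ(ζ)` by
`MinkowskiBridge.exists_mem_inertia_restrict`; its hypothesis holds because the integers of
`ℚ(ζ)` are `ℤ[ζ]` and `ζ ^ k - ζ` is a non-unit of `A`.
-/

set_option autoImplicit false

namespace Fermat.Agent.Lib.InertiaCycloP

open Polynomial Fermat.Agent.S54.Frobenius Fermat.Agent.Lib.MinkowskiBridge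

local notation "Qb" => AlgebraicClosure ℚ
local notation "GQ" => (AlgebraicClosure ℚ ≃ₐ[ℚ] AlgebraicClosure ℚ)

attribute [local instance] isAlgClosure_rat

/-- In residue characteristic `p`, every `p^m`-th root of unity is congruent to `1`. -/
theorem valuation_sub_one_lt_one {p : ℕ} (hp : p.Prime) (A : ValuationSubring Qb)
    (hA : A.LiesOverPrime p) {m : ℕ} {z : Qb} (hz : z ^ (p ^ m) = 1) :
    A.valuation (z - 1) < 1 := by
  have hvp : A.valuation ((p : ℕ) : Qb) < 1 := A.mem_nonunits_iff.mp hA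
  have hzint : IsIntegral ℤ z :=
    ⟨X ^ (p ^ m) - 1, monic_X_pow_sub_C 1 (pow_pos hp.pos m).ne', by simp [hz]⟩
  have hzA : z ∈ A := mem_of_isIntegral_int A hzint
  set x : A := ⟨z, hzA⟩ - 1 with hx
  have hxz : (x : Qb) = z - 1 := by simp [hx]
  obtain ⟨r, hr⟩ := exists_add_pow_prime_pow_eq hp x 1 m
  have hr' : ((x + 1) ^ p ^ m : Qb) = (x : Qb) ^ p ^ m + 1 ^ p ^ m + p * (x : Qb) * 1 * (r : Qb) := by
    have := congrArg (fun a : A => (a : Qb)) hr
    simpa using this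
  rw [hxz, sub_add_cancel, hz, one_pow, mul_one] at hr'
  have hpow : (z - 1) ^ p ^ m = -((p : Qb) * (z - 1) * (r : Qb)) := by linear_combination -hr'
  have hle : A.valuation (z - 1) ≤ 1 := by
    rw [← hxz]; exact (A.valuation_le_one_iff _).mpr x.2
  have hrle : A.valuation (r : Qb) ≤ 1 := (A.valuation_le_one_iff _).mpr r.2
  by_contra hcon
  have h1 : A.valuation (z - 1) = 1 := le_antisymm hle (not_lt.mp hcon)
  have h2 := congrArg A.valuation hpow
  rw [map_pow, h1, one_pow, Valuation.map_neg, map_mul, map_mul, h1, mul_one] at h2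
  have h3 : A.valuation ((p : ℕ) : Qb) * A.valuation (r : Qb) < 1 := by
    calc A.valuation ((p : ℕ) : Qb) * A.valuation (r : Qb)
        ≤ A.valuation ((p : ℕ) : Qb) * 1 := mul_le_mul_right hrle _
      _ < 1 := by rw [mul_one]; exact hvp
  rw [← h2] at h3
  exact lt_irrefl _ h3

/-- The difference of two `p^m`-th roots of unity is a non-unit in residue characteristic `p`. -/
theorem valuation_sub_lt_one {p : ℕ} (hp : p.Prime) (A : ValuationSubring Qb)
    (hA : A.LiesOverPrime p) {m : ℕ} {z w : Qb} (hz : z ^ (p ^ m) = 1) (hw : w ^ (p ^ m) = 1) :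
    A.valuation (z - w) < 1 := by
  have h1 := valuation_sub_one_lt_one hp A hA hz
  have h2 := valuation_sub_one_lt_one hp A hA hw
  have h3 : z - w = (z - 1) - (w - 1) := by ring
  rw [h3]
  exact lt_of_le_of_lt (Valuation.map_sub A.valuation _ _) (max_lt h1 h2)

/-- Some automorphism of `Qb` raises a given primitive `n`-th root of unity to a power prime to
`n` (irreducibility of the cyclotomic polynomial). -/
theorem exists_aut_pow {n : ℕ} (hn : 0 < n) {ζ : Qb} (hζ : IsPrimitiveRoot ζ n) {k : ℕ}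
    (hk : k.Coprime n) : ∃ γ : GQ, γ ζ = ζ ^ k := by
  have hprim : IsPrimitiveRoot (ζ ^ k) n := hζ.pow_of_coprime _ hk
  have hmin : minpoly ℚ ζ = minpoly ℚ (ζ ^ k) := by
    rw [← Polynomial.cyclotomic_eq_minpoly_rat hζ hn,
      ← Polynomial.cyclotomic_eq_minpoly_rat hprim hn]
  have hconj : IsConjRoot ℚ ζ (ζ ^ k) := hmin
  obtain ⟨σ, hσ⟩ := IsConjRoot.exists_algEquiv hconj.symm
  exact ⟨σ, hσ⟩

/-- **Inertia at `p` acts on `μ_{p^m}` through all of `(ℤ/p^m)ˣ`.** -/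
theorem exists_mem_inertia_pow_primePow {p : ℕ} (hp : p.Prime) (A : ValuationSubring Qb)
    (hA : A.LiesOverPrime p) (m : ℕ) {ζ : Qb} (hζ : IsPrimitiveRoot ζ (p ^ m)) {k : ℕ}
    (hk : ¬ p ∣ k) : ∃ σ ∈ A.inertiaSubgroupIn ℚ, σ ζ = ζ ^ k := by
  classical
  have hn : 0 < p ^ m := pow_pos hp.pos m
  have : NeZero (p ^ m) := ⟨hn.ne'⟩
  have hcop : k.Coprime (p ^ m) :=
    Nat.Coprime.pow_right m ((Nat.Prime.coprime_iff_not_dvd hp).mpr hk).symm
  obtain ⟨γ, hγ⟩ := exists_aut_pow hn hζ hcop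
  -- the cyclotomic field
  let F : IntermediateField ℚ Qb := IntermediateField.adjoin ℚ {ζ}
  have hζF : ζ ∈ F := IntermediateField.mem_adjoin_simple_self ℚ ζ
  have hcyc : IsCyclotomicExtension {p ^ m} ℚ F :=
    hζ.intermediateField_adjoin_isCyclotomicExtension ℚ
  have hfin : FiniteDimensional ℚ F := IsCyclotomicExtension.finiteDimensional {p ^ m} ℚ F
  have hgal : IsGalois ℚ F := IsCyclotomicExtension.isGalois {p ^ m} ℚ F
  have hnorm : Normal ℚ F := hgal.to_normal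
  let ζF : F := ⟨ζ, hζF⟩
  have hζF' : IsPrimitiveRoot ζF (p ^ m) :=
    IsPrimitiveRoot.of_map_of_injective (f := algebraMap F Qb) (by exact hζ)
      (algebraMap F Qb).injective
  have hcl : IsIntegralClosure (Algebra.adjoin ℤ ({ζF} : Set F)) ℤ F :=
    IsCyclotomicExtension.Rat.isIntegralClosure_adjoin_singleton hζF'
  let τ : F ≃ₐ[ℚ] F := AlgEquiv.restrictNormal γ F
  have hτ : ∀ x : F, ((τ x : F) : Qb) = γ (x : Qb) := fun x =>
    AlgEquiv.restrictNormal_commutes γ F x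
  have hzk : (ζ ^ k) ^ (p ^ m) = 1 := by rw [← pow_mul, mul_comm, pow_mul, hζ.pow_eq_one, one_pow]
  have hvz : A.valuation (ζ ^ k - ζ) < 1 := valuation_sub_lt_one hp A hA hzk hζ.pow_eq_one
  have hζA : ζ ∈ A := mem_of_isIntegral_int A (hζ.isIntegral hn)
  have key : ∀ x : F, IsIntegral ℤ (x : Qb) →
      A.valuation ((τ x : Qb) - (x : Qb)) < 1 := by
    intro x hx
    have hxF : IsIntegral ℤ x :=
      (isIntegral_algebraMap_iff (algebraMap F Qb).injective).mp hx
    obtain ⟨y, hy⟩ := (IsIntegralClosure.isIntegral_iff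
      (A := Algebra.adjoin ℤ ({ζF} : Set F))).mp hxF
    have hy2 : (y : F) ∈ (Polynomial.aeval ζF : ℤ[X] →ₐ[ℤ] F).range := by
      rw [← Algebra.adjoin_singleton_eq_range_aeval]; exact y.2
    obtain ⟨f, hf⟩ := hy2
    have hxf : x = Polynomial.aeval ζF f := by rw [← hy]; exact hf.symm
    -- transport to `Qb`
    have hx1 : (x : Qb) = Polynomial.aeval ζ f := by
      rw [hxf]
      exact (Polynomial.aeval_algebraMap_apply Qb ζF f).symm
    have hx2 : γ (x : Qb) = Polynomial.aeval (ζ ^ k) f := by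
      rw [hx1, ← hγ]
      exact (Polynomial.aeval_algHom_apply (γ : Qb →ₐ[ℚ] Qb).toRingHom.toIntAlgHom ζ f).symm
    -- divisibility inside `A`
    let ζA : A := ⟨ζ, hζA⟩
    obtain ⟨c, hc⟩ := Polynomial.sub_dvd_eval_sub (ζA ^ k) ζA (f.map (Int.castRingHom A))
    have hev : ∀ t : A, (((f.map (Int.castRingHom A)).eval t : A) : Qb) =
        Polynomial.aeval (t : Qb) f := by
      intro t
      rw [Polynomial.eval_map, Polynomial.aeval_def]
      have := Polynomial.hom_eval₂ f (Int.castRingHom A) A.subtype t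
      rw [show (A.subtype : A →+* Qb).comp (Int.castRingHom A) = algebraMap ℤ Qb from
        RingHom.ext_int _ _] at this
      exact this
    have hc' : Polynomial.aeval (ζ ^ k) f - Polynomial.aeval ζ f = (ζ ^ k - ζ) * (c : Qb) := by
      have := congrArg (fun a : A => (a : Qb)) hc
      simp only [AddSubgroupClass.coe_sub, MulMemClass.coe_mul, SubmonoidClass.coe_pow] at this
      rw [hev, hev] at this
      simpa [ζA] using this
    rw [hτ, hx2, hx1, hc', map_mul]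
    calc A.valuation (ζ ^ k - ζ) * A.valuation (c : Qb)
        ≤ A.valuation (ζ ^ k - ζ) * 1 :=
          mul_le_mul_right ((A.valuation_le_one_iff _).mpr c.2) _
      _ < 1 := by rw [mul_one]; exact hvz
  obtain ⟨σ, hσI, hσ⟩ := exists_mem_inertia_restrict A hp hA F τ key
  refine ⟨σ, hσI, ?_⟩
  have := hσ ζF
  rw [hτ] at this
  exact this.trans hγ

/-- **Inertia at `p` acts on `μ_p` through all of `(ℤ/p)ˣ`.** -/
theorem exists_mem_inertia_pow {p : ℕ} (hp : p.Prime) (A : ValuationSubring Qb)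
    (hA : A.LiesOverPrime p) {ζ : Qb} (hζ : IsPrimitiveRoot ζ p) {k : ℕ} (hk : ¬ p ∣ k) :
    ∃ σ ∈ A.inertiaSubgroupIn ℚ, σ ζ = ζ ^ k :=
  exists_mem_inertia_pow_primePow hp A hA 1 (by rw [pow_one]; exact hζ) hk

/-- Powers of a primitive `p`-th root of unity agree iff the exponents agree mod `p`. -/
theorem pow_eq_pow_iff {p : ℕ} (hp : p.Prime) {ζ : Qb} (hζ : IsPrimitiveRoot ζ p) (a b : ℕ) :
    ζ ^ a = ζ ^ b ↔ a ≡ b [MOD p] := by
  rw [(hζ.isOfFinOrder hp.ne_zero).pow_eq_pow_iff_modEq, ← hζ.eq_orderOf]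

/-- For `p ≠ 2` some element of the inertia group at `p` moves `ζ_p`. -/
theorem exists_mem_inertia_ne {p : ℕ} (hp : p.Prime) (hp2 : p ≠ 2) (A : ValuationSubring Qb)
    (hA : A.LiesOverPrime p) {ζ : Qb} (hζ : IsPrimitiveRoot ζ p) :
    ∃ σ ∈ A.inertiaSubgroupIn ℚ, σ ζ ≠ ζ := by
  have h3 : 3 ≤ p := by
    have := hp.two_le
    omega
  have hk : ¬ p ∣ 2 := fun h => by
    have := Nat.le_of_dvd (by norm_num) h
    omega
  obtain ⟨σ, hσ, h⟩ := exists_mem_inertia_pow hp A hA hζ hk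
  refine ⟨σ, hσ, ?_⟩
  rw [h]
  intro hcon
  have h1 : ζ ^ 2 = ζ ^ 1 := by rw [pow_one]; exact hcon
  have h2 := (pow_eq_pow_iff hp hζ 2 1).mp h1
  have h4 : (2 : ℕ) % p = 1 % p := h2
  rw [Nat.mod_eq_of_lt (by omega : 2 < p), Nat.mod_eq_of_lt (by omega : 1 < p)] at h4
  omega

/-- For `5 ≤ p` some element of the inertia group at `p` acts on `ζ_p` by squaring, and
`ζ`, `ζ ^ 2`, `ζ ^ 4` are pairwise distinct: at this one `σ`, `χ ≠ 1`, `χ² ≠ 1`, `χ² ≠ χ`. -/
theorem exists_mem_inertia_two {p : ℕ} (hp : p.Prime) (hp5 : 5 ≤ p) (A : ValuationSubring Qb)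
    (hA : A.LiesOverPrime p) {ζ : Qb} (hζ : IsPrimitiveRoot ζ p) :
    ∃ σ ∈ A.inertiaSubgroupIn ℚ, σ ζ = ζ ^ 2 ∧ ζ ^ 2 ≠ ζ ∧ ζ ^ 4 ≠ ζ ∧ ζ ^ 4 ≠ ζ ^ 2 := by
  have hk : ¬ p ∣ 2 := fun h => by
    have := Nat.le_of_dvd (by norm_num) h
    omega
  obtain ⟨σ, hσ, h⟩ := exists_mem_inertia_pow hp A hA hζ hk
  have hne : ∀ a b : ℕ, a < p → b < p → a ≠ b → ζ ^ a ≠ ζ ^ b := by
    intro a b ha hb hab hcon
    have h2 : a % p = b % p := (pow_eq_pow_iff hp hζ a b).mp hcon
    rw [Nat.mod_eq_of_lt ha, Nat.mod_eq_of_lt hb] at h2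
    exact hab h2
  refine ⟨σ, hσ, h, ?_, ?_, ?_⟩
  · have := hne 2 1 (by omega) (by omega) (by omega)
    rwa [pow_one] at this
  · have := hne 4 1 (by omega) (by omega) (by omega)
    rwa [pow_one] at this
  · exact hne 4 2 (by omega) (by omega) (by omega)

end Fermat.Agent.Lib.InertiaCycloP
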