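/-
(helper200) Level-free number-theory brick: **the inertia field has the full residue field**.

`Qb = AlgebraicClosure ℚ`, `A` a valuation subring of `Qb` over the prime `ℓ`, `I` its inertia
group (`A.inertiaSubgroupIn ℚ`).

* `exists_fixed_residue` : every `y ∈ A` is congruent modulo the maximal ideal of `A` to an
  `I`-fixed element `y' ∈ A`, and `y'` lies in every subfield of `Qb` containing all conjugates
  of `y`.
* `exists_fixed_residue_of_normal` : the same with `y, y'` in a normal subfield `E`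
  (so: `k_E = k_{E'}` for `E' = E^{I_E}`, the fixed field of the inertia group of `A ∩ E`).

Proof: let `R` be the `I`-orbit of `y`, `|R| = ℓ^a m` with `ℓ ∤ m`, `φ` a Frobenius element of `A`
and `g r := -(φ^{-a} r)/m`.  The polynomial `P = ∏_{r ∈ R} (X - g r)` has `I`-fixed coefficients
in `A` (the decomposition group normalises `I`), and modulo the maximal ideal
`P ≡ (X - b)^{ℓ^a m} = (X^{ℓ^a} - b^{ℓ^a})^m` with `b^{ℓ^a} ≡ φ^a (g y) = -y/m`; its coefficient at
`ℓ^a (m - 1)` is `-m b^{ℓ^a} ≡ y`.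
-/
import Mathlib
import Fermat.Prelude.Def_FLTPrelim_Ramification
import Fermat.Prelude.Def_EllipticCurve_FrobeniusTrace
import Fermat.Agent.Lib.InertiaBridge
import Fermat.Agent.Lib.CycloChar
import Fermat.Agent.Lib.Frobenius

set_option autoImplicit false

open scoped Pointwise
open Polynomial

namespace Fermat.Agent.Lib.InertiaResidue

local notation "Qb" => AlgebraicClosure ℚ
local notation "Gq" => (AlgebraicClosure ℚ ≃ₐ[ℚ] AlgebraicClosure ℚ)

open Fermat.Agent.Lib.CycloChar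

/-- Coefficients of `∏ (X - f i)` lie in any subring containing the `f i`. -/
theorem coeff_prod_X_sub_C_mem {K ι : Type*} [CommRing K] (S : Subring K) (s : Finset ι)
    (f : ι → K) (hf : ∀ i ∈ s, f i ∈ S) (k : ℕ) :
    (∏ i ∈ s, (X - C (f i))).coeff k ∈ S := by
  have h : (∏ i ∈ s, (X - C (f i))) ∈ Polynomial.lifts S.subtype := by
    refine Subsemiring.prod_mem _ fun i hi => ?_
    rw [Polynomial.mem_lifts]
    exact ⟨X - C ⟨f i, hf i hi⟩, by simp⟩
  obtain ⟨a, ha⟩ := (Polynomial.lifts_iff_coeff_lifts _).mp h k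
  rw [← ha]
  exact a.2

variable (A : ValuationSubring Qb)

theorem mem_decomp_of_mem_inertia {σ : Gq} (hσ : σ ∈ A.inertiaSubgroupIn ℚ) :
    σ ∈ A.decompositionSubgroup ℚ := by
  obtain ⟨τ, -, rfl⟩ := hσ
  exact τ.2

/-- The decomposition group preserves the maximal ideal. -/
theorem map_mem_nonunits {ψ : Gq} (hψ : ψ ∈ A.decompositionSubgroup ℚ) {x : Qb}
    (hx : x ∈ A.nonunits) : ψ x ∈ A.nonunits := by
  have hxA : x ∈ A := A.nonunits_subset hx
  have hψx : ψ x ∈ A := map_mem_of_mem_decomposition A ψ hψ hxA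
  by_contra hcon
  have h1 : A.valuation (ψ x) = 1 :=
    le_antisymm ((A.valuation_le_one_iff _).mpr hψx)
      (not_lt.mp fun h => hcon (A.mem_nonunits_iff.mpr h))
  have h2 : (ψ x)⁻¹ ∈ A := by
    rw [← A.valuation_le_one_iff, map_inv₀, h1, inv_one]
  have h3 : ψ⁻¹ ((ψ x)⁻¹) ∈ A :=
    map_mem_of_mem_decomposition A ψ⁻¹ ((A.decompositionSubgroup ℚ).inv_mem hψ) h2
  have h4 : ψ⁻¹ ((ψ x)⁻¹) * x ∈ A.nonunits := nonunits_mul A h3 hx
  have hx0 : x ≠ 0 := by
    rintro rfl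
    rw [map_zero, map_zero] at h1
    exact zero_ne_one h1
  have h5 : ψ⁻¹ ((ψ x)⁻¹) * x = 1 := by
    have e : ψ⁻¹ (ψ x) = x := AlgEquiv.symm_apply_apply ψ x
    rw [map_inv₀, e, inv_mul_cancel₀ hx0]
  rw [h5, A.mem_nonunits_iff, map_one] at h4
  exact lt_irrefl _ h4

/-- The decomposition group normalises the inertia group. -/
theorem conj_mem_inertia {ψ τ : Gq} (hψ : ψ ∈ A.decompositionSubgroup ℚ)
    (hτ : τ ∈ A.inertiaSubgroupIn ℚ) : ψ⁻¹ * τ * ψ ∈ A.inertiaSubgroupIn ℚ := by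
  rw [Fermat.Agent.Lib.InertiaBridge.mem_inertiaSubgroupIn_iff]
  intro x hx
  have hψx : ψ x ∈ A := map_mem_of_mem_decomposition A ψ hψ hx
  have h1 : τ (ψ x) - ψ x ∈ A.nonunits := sub_mem_nonunits_of_mem_inertia A τ hτ hψx
  have h2 := map_mem_nonunits A ((A.decompositionSubgroup ℚ).inv_mem hψ) h1
  have h3 : ψ⁻¹ (τ (ψ x) - ψ x) = (ψ⁻¹ * τ * ψ) x - x := by
    have e : ψ⁻¹ (ψ x) = x := AlgEquiv.symm_apply_apply ψ x
    rw [map_sub, e]
    rfl
  rw [h3] at h2
  exact h2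

/-- Powers of a Frobenius element act as powers of `x ↦ x ^ ℓ` modulo the maximal ideal. -/
theorem frob_pow_sub_mem {ℓ : ℕ} {φ : Gq} (hφ : A.IsFrobeniusAt φ ℓ) (j : ℕ) {x : Qb}
    (hx : x ∈ A) : (φ ^ j) x - x ^ (ℓ ^ j) ∈ A.nonunits := by
  induction j with
  | zero =>
    have : (φ ^ 0) x - x ^ (ℓ ^ 0) = 0 := by simp
    rw [this]
    exact nonunits_zero A
  | succ j ih =>
    have h1 : (φ ^ (j + 1)) x - x ^ (ℓ ^ (j + 1)) =
        φ ((φ ^ j) x - x ^ (ℓ ^ j)) + (φ (x ^ (ℓ ^ j)) - (x ^ (ℓ ^ j)) ^ ℓ) := by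
      rw [pow_succ', AlgEquiv.mul_apply, map_sub, pow_succ, pow_mul]
      ring
    rw [h1]
    exact nonunits_add A (map_mem_nonunits A hφ.mem_decompositionSubgroup ih)
      (sub_pow_mem_nonunits_of_isFrobeniusAt A φ ℓ hφ (A.pow_mem hx _))

/-- The inertia orbit of an algebraic number is finite. -/
theorem finite_inertia_orbit (y : Qb) :
    {z : Qb | ∃ σ ∈ A.inertiaSubgroupIn ℚ, z = σ y}.Finite := by
  have := Fermat.Agent.Lib.Frobenius.isAlgClosure_rat
  have : Algebra.IsAlgebraic ℚ Qb := IsAlgClosure.isAlgebraic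
  have hint : IsIntegral ℚ y := (Algebra.IsAlgebraic.isAlgebraic y).isIntegral
  refine ((minpoly ℚ y).rootSet_finite Qb).subset ?_
  rintro _ ⟨σ, -, rfl⟩
  rw [Polynomial.mem_rootSet]
  refine ⟨minpoly.ne_zero hint, ?_⟩
  show Polynomial.aeval (σ y) (minpoly ℚ y) = 0
  rw [Polynomial.aeval_algHom_apply σ y (minpoly ℚ y), minpoly.aeval, map_zero]

/-- Two elements of `A` congruent modulo the maximal ideal have the same residue. -/
theorem residue_eq_of_sub_mem {x y : A} (h : (x : Qb) - y ∈ A.nonunits) :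
    IsLocalRing.residue A x = IsLocalRing.residue A y := by
  rw [← sub_eq_zero, ← map_sub, IsLocalRing.residue_eq_zero_iff, A.valuation_lt_one_iff]
  exact A.mem_nonunits_iff.mp h

/-- **The inertia field has the full residue field.**  Every `y ∈ A` is congruent modulo the
maximal ideal of `A` to an inertia-fixed `y' ∈ A` that lies in every subfield of `Qb` containing
all conjugates of `y`. -/
theorem exists_fixed_residue {ℓ : ℕ} (hℓ : ℓ.Prime) (hA : A.LiesOverPrime ℓ) (y : Qb)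
    (hy : y ∈ A) :
    ∃ y' : Qb, y' ∈ A ∧ (∀ τ ∈ A.inertiaSubgroupIn ℚ, τ y' = y') ∧ y' - y ∈ A.nonunits ∧
      ∀ E : IntermediateField ℚ Qb, (∀ σ : Gq, σ y ∈ E) → y' ∈ E := by
  classical
  obtain ⟨φ, hφ⟩ := Fermat.Agent.Lib.Frobenius.exists_isFrobeniusAt A hℓ hA
  have hφD : φ ∈ A.decompositionSubgroup ℚ := hφ.mem_decompositionSubgroup
  -- the inertia orbit of `y`
  have hfin := finite_inertia_orbit A y
  set R : Finset Qb := hfin.toFinset with hR
  have hmemR : ∀ z, z ∈ R ↔ ∃ σ ∈ A.inertiaSubgroupIn ℚ, z = σ y := fun z => by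
    rw [hR, Set.Finite.mem_toFinset]
    rfl
  have hyR : y ∈ R := (hmemR y).mpr ⟨1, Subgroup.one_mem _, rfl⟩
  have hn0 : R.card ≠ 0 := Finset.card_ne_zero.mpr ⟨y, hyR⟩
  obtain ⟨a, m, hm, hnm⟩ := Nat.exists_eq_pow_mul_and_not_dvd hn0 ℓ hℓ.ne_one
  have hm0 : m ≠ 0 := fun h => hm (h ▸ dvd_zero ℓ)
  have hmcop : Nat.Coprime m ℓ :=
    Nat.coprime_comm.mp ((Nat.Prime.coprime_iff_not_dvd hℓ).mpr hm)
  have hmA : (m : Qb) ∈ A := natCast_mem A m
  have hmunit : (m : Qb) ∉ A.nonunits := natCast_not_mem_nonunits_of_coprime A hA hmcop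
  have hvm : A.valuation (m : Qb) = 1 :=
    le_antisymm ((A.valuation_le_one_iff _).mpr hmA)
      (not_lt.mp fun h => hmunit (A.mem_nonunits_iff.mpr h))
  have hminvA : (m : Qb)⁻¹ ∈ A := by
    rw [← A.valuation_le_one_iff, map_inv₀, hvm, inv_one]
  have hmQ0 : (m : Qb) ≠ 0 := Nat.cast_ne_zero.mpr hm0
  set ψ : Gq := (φ ^ a)⁻¹ with hψ
  have hψD : ψ ∈ A.decompositionSubgroup ℚ :=
    (A.decompositionSubgroup ℚ).inv_mem ((A.decompositionSubgroup ℚ).pow_mem hφD a)
  let g : Qb → Qb := fun r => -(ψ r * (m : Qb)⁻¹)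
  have hRA : ∀ r ∈ R, r ∈ A := by
    intro r hr
    obtain ⟨σ, hσ, rfl⟩ := (hmemR r).mp hr
    exact map_mem_of_mem_decomposition A σ (mem_decomp_of_mem_inertia A hσ) hy
  have hgA : ∀ r ∈ R, g r ∈ A := fun r hr =>
    A.neg_mem _ (A.mul_mem _ _ (map_mem_of_mem_decomposition A ψ hψD (hRA r hr)) hminvA)
  have hgcong : ∀ r ∈ R, g r - g y ∈ A.nonunits := by
    intro r hr
    obtain ⟨σ, hσ, rfl⟩ := (hmemR r).mp hr
    have h1 : σ y - y ∈ A.nonunits := sub_mem_nonunits_of_mem_inertia A σ hσ hy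
    have h2 : ψ (σ y - y) ∈ A.nonunits := map_mem_nonunits A hψD h1
    have h3 : g (σ y) - g y = -(m : Qb)⁻¹ * ψ (σ y - y) := by
      simp only [g, map_sub]
      ring
    rw [h3]
    exact nonunits_mul A (A.neg_mem _ hminvA) h2
  -- the polynomial over `A`
  let PA : Polynomial A := ∏ r ∈ R.attach, (X - C (⟨g r.1, hgA r.1 r.2⟩ : A))
  set e : ℕ := ℓ ^ a * (m - 1) with he
  have hP : PA.map A.subtype = ∏ r ∈ R, (X - C (g r)) := by
    rw [Polynomial.map_prod, ← Finset.prod_attach R (fun r => X - C (g r))]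
    refine Finset.prod_congr rfl fun r _ => ?_
    simp
  have hcoe : ((PA.coeff e : A) : Qb) = (∏ r ∈ R, (X - C (g r))).coeff e := by
    rw [← hP, Polynomial.coeff_map]
    rfl
  refine ⟨((PA.coeff e : A) : Qb), (PA.coeff e).2, ?_, ?_, ?_⟩
  · -- inertia-fixed
    intro τ hτ
    rw [hcoe]
    have h1 : τ ((∏ r ∈ R, (X - C (g r))).coeff e)
        = ((∏ r ∈ R, (X - C (g r))).map (τ : Qb →+* Qb)).coeff e := by
      rw [Polynomial.coeff_map]
      rfl
    rw [h1, Polynomial.map_prod]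
    congr 1
    set τ' : Gq := ψ⁻¹ * τ * ψ with hτ'
    have hτ'I : τ' ∈ A.inertiaSubgroupIn ℚ := conj_mem_inertia A hψD hτ
    have hτg : ∀ r, τ (g r) = g (τ' r) := by
      intro r
      have e1 : ψ (τ' r) = τ (ψ r) := by
        change ψ (ψ⁻¹ (τ (ψ r))) = τ (ψ r)
        exact AlgEquiv.apply_symm_apply ψ _
      simp only [g, map_neg, map_mul, map_inv₀, map_natCast, e1]
    refine Finset.prod_bij (fun r _ => τ' r) ?_ ?_ ?_ ?_
    · intro r hr
      obtain ⟨σ, hσ, rfl⟩ := (hmemR r).mp hr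
      exact (hmemR _).mpr ⟨τ' * σ, Subgroup.mul_mem _ hτ'I hσ, rfl⟩
    · intro r₁ _ r₂ _ h
      exact τ'.injective h
    · intro r hr
      obtain ⟨σ, hσ, rfl⟩ := (hmemR r).mp hr
      refine ⟨τ'⁻¹ (σ y),
        (hmemR _).mpr ⟨τ'⁻¹ * σ, Subgroup.mul_mem _ (Subgroup.inv_mem _ hτ'I) hσ, rfl⟩, ?_⟩
      exact AlgEquiv.apply_symm_apply τ' (σ y)
    · intro r _
      simp [hτg]
  · -- the residue
    have hℓF : Fact ℓ.Prime := ⟨hℓ⟩
    have hℓk : ((ℓ : ℕ) : IsLocalRing.ResidueField A) = 0 := by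
      have h0 : IsLocalRing.residue A ((ℓ : ℕ) : A) = 0 := by
        rw [IsLocalRing.residue_eq_zero_iff, A.valuation_lt_one_iff]
        exact A.mem_nonunits_iff.mp hA
      rw [← h0, map_natCast]
    have hchar : CharP (IsLocalRing.ResidueField A) ℓ :=
      (CharP.charP_iff_prime_eq_zero hℓ).mpr hℓk
    set π := IsLocalRing.residue A with hπ
    set b : IsLocalRing.ResidueField A := π ⟨g y, hgA y hyR⟩ with hb
    have hmap : PA.map π = (X - C b) ^ R.card := by
      rw [Polynomial.map_prod]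
      have hc : ∀ r ∈ R.attach, (X - C (⟨g r.1, hgA r.1 r.2⟩ : A)).map π = X - C b := by
        intro r _
        rw [Polynomial.map_sub, Polynomial.map_X, Polynomial.map_C]
        congr 2
        exact residue_eq_of_sub_mem A (hgcong r.1 r.2)
      rw [Finset.prod_congr rfl hc, Finset.prod_const, Finset.card_attach]
    have hexp : ((X - C b : Polynomial (IsLocalRing.ResidueField A)) ^ R.card)
        = Polynomial.expand _ (ℓ ^ a) ((X - C (b ^ ℓ ^ a)) ^ m) := by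
      have h1 : Polynomial.expand (IsLocalRing.ResidueField A) (ℓ ^ a) ((X - C (b ^ ℓ ^ a)) ^ m)
          = (X ^ ℓ ^ a - C (b ^ ℓ ^ a)) ^ m := by
        rw [map_pow (Polynomial.expand (IsLocalRing.ResidueField A) (ℓ ^ a)), map_sub, expand_X,
          expand_C]
      rw [h1, hnm, pow_mul, sub_pow_char_pow, C_pow]
    have hres : π (PA.coeff e) = -(b ^ ℓ ^ a) * (m : IsLocalRing.ResidueField A) := by
      rw [← Polynomial.coeff_map, hmap, hexp, he, Polynomial.coeff_expand_mul' (pow_pos hℓ.pos a),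
        sub_eq_add_neg, ← C_neg, Polynomial.coeff_X_add_C_pow]
      obtain ⟨m', rfl⟩ := Nat.exists_eq_succ_of_ne_zero hm0
      simp
    -- `b ^ ℓ ^ a = π (-(y / m))`
    have hwA : -(y * (m : Qb)⁻¹) ∈ A := A.neg_mem _ (A.mul_mem _ _ hy hminvA)
    have hfrob : (φ ^ a) (g y) = -(y * (m : Qb)⁻¹) := by
      have e1 : (φ ^ a) (ψ y) = y := AlgEquiv.apply_symm_apply (φ ^ a) y
      simp only [g, map_neg, map_mul, map_inv₀, map_natCast, e1]
    have hbpow : b ^ ℓ ^ a = π ⟨-(y * (m : Qb)⁻¹), hwA⟩ := by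
      rw [hb, ← map_pow]
      refine residue_eq_of_sub_mem A ?_
      have h2 := frob_pow_sub_mem A hφ a (hgA y hyR)
      rw [hfrob] at h2
      have h3 : ((⟨g y, hgA y hyR⟩ ^ ℓ ^ a : A) : Qb) - ((⟨-(y * (m : Qb)⁻¹), hwA⟩ : A) : Qb)
          = -(-(y * (m : Qb)⁻¹) - g y ^ ℓ ^ a) := by
        push_cast
        ring
      rw [h3]
      exact (A.mem_nonunits_iff.mpr (by
        rw [Valuation.map_neg]
        exact A.mem_nonunits_iff.mp h2))
    have hmk : (m : IsLocalRing.ResidueField A) = π ⟨(m : Qb), hmA⟩ := by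
      rw [← map_natCast π m]
      rfl
    have hfinal : π (PA.coeff e) = π ⟨y, hy⟩ := by
      rw [hres, hbpow, hmk, ← map_neg, ← map_mul]
      congr 1
      apply Subtype.ext
      push_cast
      field_simp
    have h4 := hfinal
    rw [← sub_eq_zero, ← map_sub, IsLocalRing.residue_eq_zero_iff, A.valuation_lt_one_iff] at h4
    exact A.mem_nonunits_iff.mpr h4
  · -- field of definition
    intro E hE
    rw [hcoe]
    refine coeff_prod_X_sub_C_mem E.toSubring R g (fun r hr => ?_) e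
    obtain ⟨σ, hσ, rfl⟩ := (hmemR r).mp hr
    exact E.neg_mem (E.mul_mem (hE (ψ * σ)) (E.inv_mem (natCast_mem E m)))

/-- **`k_E = k_{E'}`.**  For a normal subfield `E` of `Qb`, every `y ∈ A ∩ E` is congruent modulo
the maximal ideal of `A` to an inertia-fixed element of `A ∩ E`. -/
theorem exists_fixed_residue_of_normal {ℓ : ℕ} (hℓ : ℓ.Prime) (hA : A.LiesOverPrime ℓ)
    (E : IntermediateField ℚ Qb) [Normal ℚ E] (y : Qb) (hyE : y ∈ E) (hyA : y ∈ A) :
    ∃ y' : Qb, y' ∈ E ∧ y' ∈ A ∧ (∀ τ ∈ A.inertiaSubgroupIn ℚ, τ y' = y') ∧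
      y' - y ∈ A.nonunits := by
  obtain ⟨y', h1, h2, h3, h4⟩ := exists_fixed_residue A hℓ hA y hyA
  refine ⟨y', h4 E fun σ => ?_, h1, h2, h3⟩
  have h := AlgEquiv.restrictNormal_commutes σ E ⟨y, hyE⟩
  have h' : σ y = ((σ.restrictNormal E ⟨y, hyE⟩ : E) : Qb) := h.symm
  rw [h']
  exact (σ.restrictNormal E ⟨y, hyE⟩).2

/-- **`A` is integral over its inertia-fixed part.**  Every `y ∈ A` is a root of a monic
polynomial whose coefficients are inertia-fixed elements of `A`, lying in every subfield of `Qb`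
that contains all conjugates of `y`. -/
theorem exists_monic_fixed (y : Qb) (hy : y ∈ A) :
    ∃ P : Polynomial Qb, P.Monic ∧ (∀ n, P.coeff n ∈ A) ∧
      (∀ n, ∀ τ ∈ A.inertiaSubgroupIn ℚ, τ (P.coeff n) = P.coeff n) ∧
      (∀ E : IntermediateField ℚ Qb, (∀ σ : Gq, σ y ∈ E) → ∀ n, P.coeff n ∈ E) ∧
      P.eval y = 0 := by
  classical
  have hfin := finite_inertia_orbit A y
  set R : Finset Qb := hfin.toFinset with hR
  have hmemR : ∀ z, z ∈ R ↔ ∃ σ ∈ A.inertiaSubgroupIn ℚ, z = σ y := fun z => by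
    rw [hR, Set.Finite.mem_toFinset]
    rfl
  have hyR : y ∈ R := (hmemR y).mpr ⟨1, Subgroup.one_mem _, rfl⟩
  have hRA : ∀ r ∈ R, r ∈ A := by
    intro r hr
    obtain ⟨σ, hσ, rfl⟩ := (hmemR r).mp hr
    exact map_mem_of_mem_decomposition A σ (mem_decomp_of_mem_inertia A hσ) hy
  refine ⟨∏ r ∈ R, (X - C r), Polynomial.monic_prod_of_monic _ _ fun r _ => monic_X_sub_C r,
    fun n => coeff_prod_X_sub_C_mem A.toSubring R id hRA n, ?_, ?_, ?_⟩
  · intro n τ hτ
    have h1 : τ ((∏ r ∈ R, (X - C r)).coeff n)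
        = ((∏ r ∈ R, (X - C r)).map (τ : Qb →+* Qb)).coeff n := by
      rw [Polynomial.coeff_map]
      rfl
    rw [h1, Polynomial.map_prod]
    congr 1
    refine Finset.prod_bij (fun r _ => τ r) ?_ ?_ ?_ ?_
    · intro r hr
      obtain ⟨σ, hσ, rfl⟩ := (hmemR r).mp hr
      exact (hmemR _).mpr ⟨τ * σ, Subgroup.mul_mem _ hτ hσ, rfl⟩
    · intro r₁ _ r₂ _ h
      exact τ.injective h
    · intro r hr
      obtain ⟨σ, hσ, rfl⟩ := (hmemR r).mp hr
      refine ⟨τ⁻¹ (σ y),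
        (hmemR _).mpr ⟨τ⁻¹ * σ, Subgroup.mul_mem _ (Subgroup.inv_mem _ hτ) hσ, rfl⟩, ?_⟩
      exact AlgEquiv.apply_symm_apply τ (σ y)
    · intro r _
      simp
  · intro E hE n
    refine coeff_prod_X_sub_C_mem E.toSubring R id (fun r hr => ?_) n
    obtain ⟨σ, -, rfl⟩ := (hmemR r).mp hr
    exact hE σ
  · rw [Polynomial.eval_prod]
    exact Finset.prod_eq_zero hyR (by simp)

end Fermat.Agent.Lib.InertiaResidue
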