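/-
(helper200) Level-free number-theory pack for the base change `E^I ⊆ E` (Program FG, GEOM/EQ).

`Qb = AlgebraicClosure ℚ`, `A` a valuation subring of `Qb` over the prime `ℓ`, `I` its inertia
group, `E` a finite normal subfield of `Qb`, `E' = inertiaFixed A E = E ∩ Qb^I` (the fixed field
of the inertia group of `A ∩ E`).  With `O = A ∩ E`, `O' = A ∩ E'`:

* `rootOfUnity_mem_inertiaFixed` : roots of unity of order prime to `ℓ` in `E` lie in `E'`;
* `exists_residue_inertiaFixed`  : `k_E = k_{E'}` (every `y ∈ O` is congruent to some `y' ∈ O'`);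
* `exists_basis`                 : `O = ⊕ O' b_j` for a finite family `b_j ∈ O` that is linearly
                                   independent over `E'`;
* `exists_leftInverse`           : for an `E'`-independent family `b_i ∈ E` there are finitely many
                                   inertia elements `σ` and `m j σ ∈ E` with
                                   `∑ σ, m j σ * σ (b i) = δ_ij` (conjugates recover coordinates);
* `exists_basis_dual`            : the two together.
-/
import Mathlib
import Fermat.Prelude.Def_FLTPrelim_Ramification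
import Fermat.Agent.Lib.InertiaResidue
import Fermat.Agent.Lib.DecompLift
import Fermat.Agent.S30.GaussDescent

set_option autoImplicit false

open scoped Pointwise
open Polynomial

namespace Fermat.Agent.Lib.InertiaField

local notation "Qb" => AlgebraicClosure ℚ
local notation "Gq" => (AlgebraicClosure ℚ ≃ₐ[ℚ] AlgebraicClosure ℚ)

open Fermat.Agent.Lib.InertiaResidue

variable (A : ValuationSubring Qb) (E : IntermediateField ℚ Qb)

/-- The inertia field of `A` inside `E`: the elements of `E` fixed by the inertia group. -/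
noncomputable def inertiaFixed : IntermediateField ℚ Qb :=
  E ⊓ IntermediateField.fixedField (A.inertiaSubgroupIn ℚ)

theorem mem_inertiaFixed_iff (y : Qb) :
    y ∈ inertiaFixed A E ↔ y ∈ E ∧ ∀ τ ∈ A.inertiaSubgroupIn ℚ, τ y = y := by
  unfold inertiaFixed
  rw [IntermediateField.mem_inf, IntermediateField.mem_fixedField_iff]

theorem inertiaFixed_le : inertiaFixed A E ≤ E := inf_le_left

instance finiteDimensional_inertiaFixed [FiniteDimensional ℚ E] :
    FiniteDimensional ℚ (inertiaFixed A E) :=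
  Module.Finite.of_injective (IntermediateField.inclusion (inertiaFixed_le A E)).toLinearMap
    (IntermediateField.inclusion_injective (inertiaFixed_le A E))

/-- Roots of unity of order prime to `ℓ` lie in the inertia field. -/
theorem rootOfUnity_mem_inertiaFixed {ℓ : ℕ} (hA : A.LiesOverPrime ℓ) {m : ℕ}
    (hm : Nat.Coprime m ℓ) {z : Qb} (hzE : z ∈ E) (hz : z ^ m = 1) : z ∈ inertiaFixed A E :=
  (mem_inertiaFixed_iff A E z).mpr
    ⟨hzE, fun τ hτ => Fermat.Agent.Lib.CycloChar.inertia_root A hA τ hτ hm hz⟩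

/-- **`k_E = k_{E'}`**: every element of `A ∩ E` is congruent modulo the maximal ideal of `A` to
an element of `A ∩ E'`. -/
theorem exists_residue_inertiaFixed {ℓ : ℕ} (hℓ : ℓ.Prime) (hA : A.LiesOverPrime ℓ)
    [Normal ℚ E] (y : Qb) (hyE : y ∈ E) (hyA : y ∈ A) :
    ∃ y' : Qb, y' ∈ inertiaFixed A E ∧ y' ∈ A ∧ y' - y ∈ A.nonunits := by
  obtain ⟨y', h1, h2, h3, h4⟩ := exists_fixed_residue_of_normal A hℓ hA E y hyE hyA
  exact ⟨y', (mem_inertiaFixed_iff A E y').mpr ⟨h1, h3⟩, h2, h4⟩

/-- Bounded denominators: a power of `ℓ` moves any algebraic number into `A`. -/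
theorem exists_pow_mul_mem {ℓ : ℕ} (hℓ : ℓ.Prime) (hA : A.LiesOverPrime ℓ) (x : Qb) :
    ∃ t : ℕ, (ℓ : Qb) ^ t * x ∈ A := by
  obtain ⟨d, hd0, hd⟩ := (Fermat.Agent.Lib.DecompLift.isAlgebraic_int x).exists_integral_multiple
  have hfin : FiniteMultiplicity (ℓ : ℤ) d := by
    rw [Int.finiteMultiplicity_iff]
    refine ⟨?_, hd0⟩
    rw [Int.natAbs_natCast]
    exact hℓ.ne_one
  obtain ⟨d', hd', hdd⟩ := hfin.exists_eq_pow_mul_and_not_dvd
  refine ⟨multiplicity (ℓ : ℤ) d, ?_⟩
  have h1 : A.valuation ((d' : ℤ) : Qb) = 1 :=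
    Fermat.Agent.Lib.ValFrac.valuation_intCast_eq_one A ℓ hℓ hA d' hdd
  have h2 : A.valuation (d • x) ≤ 1 :=
    (A.valuation_le_one_iff _).mpr (Fermat.Agent.Lib.DecompLift.mem_of_isIntegral A hd)
  rw [← A.valuation_le_one_iff]
  rw [zsmul_eq_mul, hd'] at h2
  push_cast at h2
  rw [map_mul, map_mul, h1, mul_one] at h2
  rw [map_mul]
  exact h2

/-- **`O = ⊕ O' b_j`.**  For a finite normal `E` there is a finite family `b_j ∈ A ∩ E`, linearly
independent over `E' = inertiaFixed A E`, such that every element of `A ∩ E` is a combination of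
the `b_j` with coefficients in `A ∩ E'`. -/
theorem exists_basis {ℓ : ℕ} (hℓ : ℓ.Prime) (hA : A.LiesOverPrime ℓ) [FiniteDimensional ℚ E]
    [Normal ℚ E] :
    ∃ (ι : Type) (_ : Fintype ι) (b : ι → Qb), (∀ j, b j ∈ E ∧ b j ∈ A) ∧
      (∀ y : Qb, y ∈ E → y ∈ A → ∃ c : ι → Qb,
        (∀ j, c j ∈ inertiaFixed A E ∧ c j ∈ A) ∧ y = ∑ j, c j * b j) ∧
      (∀ c : ι → Qb, (∀ j, c j ∈ inertiaFixed A E) → ∑ j, c j * b j = 0 → ∀ j, c j = 0) := by
  classical
  have hle : inertiaFixed A E ≤ E := inertiaFixed_le A E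
  let R : ValuationSubring (inertiaFixed A E) := A.comap (algebraMap (inertiaFixed A E) Qb)
  have hdvr : IsDiscreteValuationRing R :=
    Fermat.Agent.S30.GaussDescent.isDiscreteValuationRing_OE A (inertiaFixed A E) hℓ hA
  letI algE : Algebra (inertiaFixed A E) E := (IntermediateField.inclusion hle).toRingHom.toAlgebra
  have hst : IsScalarTower ℚ (inertiaFixed A E) E := IsScalarTower.of_algebraMap_eq fun q =>
    ((IntermediateField.inclusion hle).commutes q).symm
  have hfdE : FiniteDimensional (inertiaFixed A E) E :=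
    Module.Finite.of_restrictScalars_finite ℚ (inertiaFixed A E) E
  letI algRE : Algebra R E := ((algebraMap (inertiaFixed A E) E).comp
    (algebraMap R (inertiaFixed A E))).toAlgebra
  have hst2 : IsScalarTower R (inertiaFixed A E) E := IsScalarTower.of_algebraMap_eq fun _ => rfl
  have hfin : Module.Finite R (integralClosure R E) :=
    IsIntegralClosure.finite R (inertiaFixed A E) E (integralClosure R E)
  have htf : Module.IsTorsionFree R E := .trans_faithfulSMul R (inertiaFixed A E) E
  have hfree : Module.Free R (integralClosure R E) :=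
    IsIntegralClosure.module_free R (inertiaFixed A E) E (integralClosure R E)
  -- the integral closure of `A ∩ E'` in `E` is `A ∩ E`
  have hmemC : ∀ x : E, x ∈ integralClosure R E ↔ (x : Qb) ∈ A := by
    intro x
    constructor
    · rintro ⟨p, hmonic, hp⟩
      let f : R →+* A := Fermat.Agent.S30.GaussDescent.toA A (inertiaFixed A E)
      have hcomp : (algebraMap E Qb).comp (algebraMap R E) = (algebraMap A Qb).comp f :=
        RingHom.ext fun r => rfl
      have h1 : IsIntegral A (x : Qb) := by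
        refine ⟨p.map f, hmonic.map f, ?_⟩
        rw [Polynomial.eval₂_map, ← hcomp]
        have h2 := Polynomial.hom_eval₂ p (algebraMap R E) (algebraMap E Qb) x
        rw [hp, map_zero] at h2
        exact h2.symm
      obtain ⟨y, hy⟩ := IsIntegrallyClosed.algebraMap_eq_of_integral h1
      rw [← hy]
      exact y.2
    · intro hxA
      obtain ⟨P, hPm, hPA, hPI, hPE, hPy⟩ := exists_monic_fixed A (x : Qb) hxA
      have hconj : ∀ σ : Gq, σ (x : Qb) ∈ E := by
        intro σ
        have h := AlgEquiv.restrictNormal_commutes σ E x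
        have h' : σ (x : Qb) = ((σ.restrictNormal E x : E) : Qb) := h.symm
        rw [h']
        exact (σ.restrictNormal E x).2
      let f : R →+* Qb := (algebraMap E Qb).comp (algebraMap R E)
      have hlift : P ∈ Polynomial.lifts f := by
        rw [Polynomial.lifts_iff_coeff_lifts]
        intro n
        have hn' : P.coeff n ∈ inertiaFixed A E :=
          (mem_inertiaFixed_iff A E _).mpr ⟨hPE E hconj n, hPI n⟩
        exact ⟨⟨⟨P.coeff n, hn'⟩, hPA n⟩, rfl⟩
      obtain ⟨q, hq, -, hqm⟩ := Polynomial.lifts_and_natDegree_eq_and_monic hlift hPm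
      refine ⟨q, hqm, ?_⟩
      apply (algebraMap E Qb).injective
      rw [Polynomial.hom_eval₂, map_zero]
      have h3 : Polynomial.eval₂ f (algebraMap E Qb x) q = Polynomial.eval (x : Qb) (q.map f) :=
        (Polynomial.eval_map f (x : Qb)).symm
      exact h3.trans (by rw [hq]; exact hPy)
  -- a basis
  let B := Module.Free.chooseBasis R (integralClosure R E)
  have hsum : ∀ (g : Module.Free.ChooseBasisIndex R (integralClosure R E) → integralClosure R E),
      (((∑ j, g j : integralClosure R E) : E) : Qb)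
        = ∑ j, (((g j : integralClosure R E) : E) : Qb) := by
    intro g
    push_cast
    rfl
  have hsmul : ∀ (r : R) (z : integralClosure R E),
      (((r • z : integralClosure R E) : E) : Qb)
        = ((r : inertiaFixed A E) : Qb) * ((z : E) : Qb) := fun r z => rfl
  refine ⟨Module.Free.ChooseBasisIndex R (integralClosure R E), inferInstance,
    fun j => (((B j : integralClosure R E) : E) : Qb), ?_, ?_, ?_⟩
  · intro j
    exact ⟨((B j : integralClosure R E) : E).2, (hmemC _).mp (B j).2⟩
  · intro y hyE hyA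
    let yC : integralClosure R E := ⟨⟨y, hyE⟩, (hmemC _).mpr hyA⟩
    refine ⟨fun j => (((B.repr yC j : R) : inertiaFixed A E) : Qb),
      fun j => ⟨(B.repr yC j : inertiaFixed A E).2, (B.repr yC j).2⟩, ?_⟩
    have h := B.sum_repr yC
    have h2 := congrArg (fun z : integralClosure R E => ((z : E) : Qb)) h
    simp only [hsum, hsmul] at h2
    exact h2.symm
  · intro c hc hzero
    have hex : ∀ j, ∃ t : ℕ, (ℓ : Qb) ^ t * c j ∈ A := fun j => exists_pow_mul_mem A hℓ hA (c j)
    choose t ht using hex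
    have hT : ∀ j, (ℓ : Qb) ^ (∑ i, t i) * c j ∈ A := by
      intro j
      have hle' : t j ≤ ∑ i, t i :=
        Finset.single_le_sum (fun _ _ => Nat.zero_le _) (Finset.mem_univ j)
      have e : (ℓ : Qb) ^ (∑ i, t i) * c j = (ℓ : Qb) ^ (∑ i, t i - t j) * ((ℓ : Qb) ^ t j * c j) := by
        rw [← mul_assoc, ← pow_add, Nat.sub_add_cancel hle']
      rw [e]
      exact A.mul_mem _ _ (A.pow_mem (natCast_mem A ℓ) _) (ht j)
    let r : Module.Free.ChooseBasisIndex R (integralClosure R E) → R := fun j =>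
      ⟨⟨(ℓ : Qb) ^ (∑ i, t i) * c j,
        mul_mem (pow_mem (natCast_mem (inertiaFixed A E) ℓ) _) (hc j)⟩, hT j⟩
    have hr : ∑ j, r j • B j = 0 := by
      apply Subtype.ext
      apply Subtype.ext
      rw [hsum]
      simp only [hsmul]
      show ∑ j, (ℓ : Qb) ^ (∑ i, t i) * c j * (((B j : integralClosure R E) : E) : Qb) = 0
      have e : ∑ j, (ℓ : Qb) ^ (∑ i, t i) * c j * (((B j : integralClosure R E) : E) : Qb)
          = (ℓ : Qb) ^ (∑ i, t i) * ∑ j, c j * (((B j : integralClosure R E) : E) : Qb) := by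
        rw [Finset.mul_sum]
        exact Finset.sum_congr rfl fun j _ => by ring
      rw [e, hzero, mul_zero]
    have h0 := (Fintype.linearIndependent_iff.mp B.linearIndependent) r hr
    intro j
    have h1 := congrArg (fun z : R => ((z : inertiaFixed A E) : Qb)) (h0 j)
    have h2 : (ℓ : Qb) ^ (∑ i, t i) * c j = 0 := h1
    have hℓ0 : (ℓ : Qb) ^ (∑ i, t i) ≠ 0 := pow_ne_zero _ (Nat.cast_ne_zero.mpr hℓ.ne_zero)
    exact (mul_eq_zero.mp h2).resolve_left hℓ0

/-- **Conjugates recover the coordinates.**  If `b_i ∈ E` are linearly independent over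
`E' = inertiaFixed A E`, there are finitely many inertia elements `σ ∈ S` and coefficients
`m j σ ∈ E` with `∑_{σ ∈ S} m j σ * σ (b i) = δ_ij`: for `y = ∑ c_i b_i` with `c_i ∈ E'`,
`c_j = ∑_{σ ∈ S} m j σ * σ y`. -/
theorem exists_leftInverse [FiniteDimensional ℚ E] [Normal ℚ E] {ι : Type} [Fintype ι]
    [DecidableEq ι] (b : ι → Qb) (hbE : ∀ j, b j ∈ E)
    (hli : ∀ c : ι → Qb, (∀ j, c j ∈ inertiaFixed A E) → ∑ j, c j * b j = 0 → ∀ j, c j = 0) :
    ∃ (S : Finset Gq) (m : ι → Gq → Qb), (∀ σ ∈ S, σ ∈ A.inertiaSubgroupIn ℚ) ∧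
      (∀ j σ, m j σ ∈ E) ∧ ∀ i j, ∑ σ ∈ S, m j σ * σ (b i) = if i = j then 1 else 0 := by
  classical
  let H0 : Subgroup (E ≃ₐ[ℚ] E) := (A.inertiaSubgroupIn ℚ).map (AlgEquiv.restrictNormalHom E)
  have hres : ∀ (τ : Gq) (x : E), τ (x : Qb) = ((AlgEquiv.restrictNormalHom E τ x : E) : Qb) :=
    fun τ x => (AlgEquiv.restrictNormal_commutes τ E x).symm
  let b' : ι → E := fun j => ⟨b j, hbE j⟩
  have hfix : ∀ x : E, x ∈ FixedPoints.subfield H0 E → (x : Qb) ∈ inertiaFixed A E := by
    intro x hx
    rw [mem_inertiaFixed_iff]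
    refine ⟨x.2, fun τ hτ => ?_⟩
    have h1 : (⟨AlgEquiv.restrictNormalHom E τ, ⟨τ, hτ, rfl⟩⟩ : H0) • x = x := hx _
    rw [hres τ x]
    exact congrArg (fun z : E => (z : Qb)) h1
  have hli' : LinearIndependent (FixedPoints.subfield H0 E) b' := by
    rw [Fintype.linearIndependent_iff]
    intro c hc j
    have h0 : ∑ j, ((c j : E) : Qb) * b j = 0 := by
      have h := congrArg (algebraMap E Qb) hc
      rw [map_sum, map_zero] at h
      rw [← h]
      refine Finset.sum_congr rfl fun j _ => ?_
      rfl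
    have h1 := hli (fun j => ((c j : E) : Qb)) (fun j => hfix _ (c j).2) h0 j
    apply Subtype.ext
    apply Subtype.ext
    exact h1
  have hinj : Function.Injective b' := hli'.injective
  have hLI : LinearIndependent E ((MulAction.toFun H0 E) ∘ b') := by
    rw [← linearIndepOn_range_iff hinj]
    have h2 : LinearIndepOn (FixedPoints.subfield H0 E) id
        ((Finset.univ.image b' : Finset E) : Set E) :=
      hli'.linearIndepOn_id' (by simp)
    have h3 := FixedPoints.linearIndependent_smul_of_linearIndependent H0 E h2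
    have h4 : ((Finset.univ.image b' : Finset E) : Set E) = Set.range b' := by simp
    rw [← h4]
    exact h3
  haveI : Fintype H0 := Fintype.ofFinite H0
  let v : ι → (H0 → E) := (MulAction.toFun H0 E) ∘ b'
  let f : (ι → E) →ₗ[E] (H0 → E) := Fintype.linearCombination E v
  have hker : LinearMap.ker f = ⊥ := by
    rw [LinearMap.ker_eq_bot']
    intro c hc
    funext j
    have hc' : ∑ i, c i • v i = 0 := by
      simpa [f, Fintype.linearCombination_apply] using hc
    exact Fintype.linearIndependent_iff.mp hLI c hc' j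
  obtain ⟨g, hg⟩ := f.exists_leftInverse_of_injective hker
  let m0 : ι → H0 → E := fun j h => g (Pi.single h 1) j
  have hm0 : ∀ i j, ∑ h : H0, m0 j h * (h • b' i) = if i = j then 1 else 0 := by
    intro i j
    have h1 : f (Pi.single i 1) = v i := by
      simp [f, Fintype.linearCombination_apply, Pi.single_apply]
    have h2 : g (v i) = Pi.single i 1 := by
      rw [← h1]
      exact LinearMap.congr_fun hg (Pi.single i 1)
    have h3 : v i = ∑ h : H0, (v i h) • (Pi.single h (1 : E) : H0 → E) := by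
      funext h'
      simp [Finset.sum_apply, Pi.single_apply]
    have h4 : g (v i) j = ∑ h : H0, (v i h) * m0 j h := by
      conv_lhs => rw [h3]
      rw [map_sum, Finset.sum_apply]
      refine Finset.sum_congr rfl fun h _ => ?_
      rw [map_smul]
      rfl
    rw [h2] at h4
    calc ∑ h : H0, m0 j h * (h • b' i) = ∑ h : H0, (v i h) * m0 j h :=
          Finset.sum_congr rfl fun h _ => by rw [mul_comm]; rfl
      _ = (Pi.single i (1 : E) : ι → E) j := h4.symm
      _ = if i = j then 1 else 0 := by simp [Pi.single_apply, eq_comm]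
  have hlift : ∀ h : H0, ∃ τ : Gq, τ ∈ A.inertiaSubgroupIn ℚ ∧
      AlgEquiv.restrictNormalHom E τ = (h : E ≃ₐ[ℚ] E) := fun h => by
    obtain ⟨τ, hτ, hτh⟩ := h.2
    exact ⟨τ, hτ, hτh⟩
  choose s hsI hsr using hlift
  have hsinj : Function.Injective s := by
    intro h₁ h₂ h
    apply Subtype.ext
    rw [← hsr h₁, ← hsr h₂, h]
  refine ⟨Finset.univ.image s, fun j σ => if hσ : σ ∈ A.inertiaSubgroupIn ℚ then
    ((m0 j ⟨AlgEquiv.restrictNormalHom E σ, ⟨σ, hσ, rfl⟩⟩ : E) : Qb) else 0, ?_, ?_, ?_⟩
  · intro σ hσ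
    obtain ⟨h, -, rfl⟩ := Finset.mem_image.mp hσ
    exact hsI h
  · intro j σ
    by_cases hσ : σ ∈ A.inertiaSubgroupIn ℚ
    · simp only [dif_pos hσ]
      exact (m0 j _).2
    · simp only [dif_neg hσ]
      exact E.zero_mem
  · intro i j
    rw [Finset.sum_image (fun h₁ _ h₂ _ h => hsinj h)]
    have hterm : ∀ h : H0,
        (if hσ : s h ∈ A.inertiaSubgroupIn ℚ then
          ((m0 j ⟨AlgEquiv.restrictNormalHom E (s h), ⟨s h, hσ, rfl⟩⟩ : E) : Qb) else 0)
          * (s h) (b i) = ((m0 j h * (h • b' i) : E) : Qb) := by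
      intro h
      rw [dif_pos (hsI h)]
      have e1 : (⟨AlgEquiv.restrictNormalHom E (s h), ⟨s h, hsI h, rfl⟩⟩ : H0) = h :=
        Subtype.ext (hsr h)
      rw [e1]
      have e2 : (s h) (b i) = ((h • b' i : E) : Qb) := by
        rw [show b i = ((b' i : E) : Qb) from rfl, hres (s h) (b' i), hsr h]
        rfl
      rw [e2]
      push_cast
      rfl
    rw [Finset.sum_congr rfl (fun h _ => hterm h)]
    have h5 : ((∑ h : H0, m0 j h * (h • b' i) : E) : Qb)
        = (((if i = j then 1 else 0 : E)) : Qb) := congrArg (fun z : E => (z : Qb)) (hm0 i j)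
    have h6 : ((∑ h : H0, m0 j h * (h • b' i) : E) : Qb)
        = ∑ h : H0, ((m0 j h * (h • b' i) : E) : Qb) := by
      push_cast
      rfl
    rw [← h6, h5]
    split_ifs <;> simp

/-- **The base-change pack for `E' = inertiaFixed A E ⊆ E`** (`E` finite normal): a finite family
`b_j ∈ A ∩ E` with `A ∩ E = ⊕ (A ∩ E') b_j`, linearly independent over `E'`, together with finitely
many inertia elements `σ ∈ S` and coefficients `m j σ ∈ E` recovering the coordinates from the
conjugates: `∑_{σ ∈ S} m j σ * σ (b i) = δ_ij`. -/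
theorem exists_basis_dual {ℓ : ℕ} (hℓ : ℓ.Prime) (hA : A.LiesOverPrime ℓ) [FiniteDimensional ℚ E]
    [Normal ℚ E] :
    ∃ (ι : Type) (_ : Fintype ι) (_ : DecidableEq ι) (b : ι → Qb) (S : Finset Gq)
      (m : ι → Gq → Qb),
      (∀ j, b j ∈ E ∧ b j ∈ A) ∧
      (∀ y : Qb, y ∈ E → y ∈ A → ∃ c : ι → Qb,
        (∀ j, c j ∈ inertiaFixed A E ∧ c j ∈ A) ∧ y = ∑ j, c j * b j) ∧
      (∀ c : ι → Qb, (∀ j, c j ∈ inertiaFixed A E) → ∑ j, c j * b j = 0 → ∀ j, c j = 0) ∧
      (∀ σ ∈ S, σ ∈ A.inertiaSubgroupIn ℚ) ∧ (∀ j σ, m j σ ∈ E) ∧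
      ∀ i j, ∑ σ ∈ S, m j σ * σ (b i) = if i = j then 1 else 0 := by
  classical
  obtain ⟨ι, hι, b, hb, hspan, hli⟩ := exists_basis A E hℓ hA
  obtain ⟨S, m, hS, hm, hdual⟩ := exists_leftInverse A E b (fun j => (hb j).1) hli
  exact ⟨ι, hι, inferInstance, b, S, m, hb, hspan, hli, hS, hm, hdual⟩

end Fermat.Agent.Lib.InertiaField
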