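import Mathlib
import Fermat.Prelude.Def_FLTPrelim_Ramification
import Fermat.Agent.Lib.FrobProfinite
import Fermat.Agent.Lib.InertiaVal

set_option autoImplicit false

/-!
# Minkowski bridge: a finite-level normal subgroup of the absolute Galois group of `ℚ` containing
an inertia group at every prime is everything

`eq_top_of_inertia_le`: if `H` is a normal subgroup of `Gal(ℚ̄/ℚ)` containing the fixing subgroup
of a finite extension, and for every prime number `ℓ` SOME valuation subring `A` of `ℚ̄` over `ℓ`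
has its inertia subgroup inside `H`, then `H = ⊤`.
-/

open scoped Pointwise NumberField

namespace Fermat.Agent.Lib.InertiaMinkowski

local notation "Qb" => AlgebraicClosure ℚ
local notation "Gq" => (AlgebraicClosure ℚ ≃ₐ[ℚ] AlgebraicClosure ℚ)
local notation "Bq" => integralClosure ℤ (AlgebraicClosure ℚ)

open Fermat.Agent.Lib.FrobProfinite

attribute [local instance] isAlgebraic_Qb isAlgClosure_Qb galAction smulCommClass_galAction
  discTop discTop_discrete continuousSMul_galAction isInvariant_galAction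

section Lift

attribute [local instance 100000] IntermediateField.algebra'

variable (K : IntermediateField ℚ Qb)

/-- The inclusion of the ring of integers of `K` into the ring of all algebraic integers. -/
noncomputable def toBq : 𝓞 K →+* Bq :=
  ((algebraMap K Qb).comp (algebraMap (𝓞 K) K)).codRestrict (integralClosure ℤ Qb)
    (fun x => map_isIntegral_int (algebraMap K Qb) (NumberField.RingOfIntegers.isIntegral_coe x))

theorem toBq_coe (x : 𝓞 K) : ((toBq K x : Bq) : Qb) = ((x : K) : Qb) := rfl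

/-- The algebra structure of the algebraic integers over the integers of `K`. -/
@[reducible] noncomputable def algBq : Algebra (𝓞 K) Bq := (toBq K).toAlgebra

attribute [local instance] algBq

theorem algebraMap_eq_toBq (x : 𝓞 K) : algebraMap (𝓞 K) Bq x = toBq K x := rfl

theorem compactSpace_fix : CompactSpace K.fixingSubgroup :=
  isCompact_iff_compactSpace.mp (InfiniteGalois.fixingSubgroup_isClosed K).isCompact

theorem smulCommClass_fix : SMulCommClass K.fixingSubgroup (𝓞 K) Bq where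
  smul_comm h x b := by
    apply Subtype.ext
    show h.1 (((x : K) : Qb) * (b : Qb)) = ((x : K) : Qb) * h.1 (b : Qb)
    rw [map_mul, (IntermediateField.mem_fixingSubgroup_iff _ _).mp h.2 _ (x : K).2]

theorem isInvariant_fix : Algebra.IsInvariant (𝓞 K) Bq K.fixingSubgroup := by
  refine ⟨fun b hb => ?_⟩
  have hbK : (b : Qb) ∈ K := by
    rw [← InfiniteGalois.fixedField_fixingSubgroup K, IntermediateField.mem_fixedField_iff]
    intro f hf
    exact congrArg Subtype.val (hb ⟨f, hf⟩)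
  have hint : IsIntegral ℤ (⟨b, hbK⟩ : K) :=
    (isIntegral_algebraMap_iff (FaithfulSMul.algebraMap_injective K Qb)).mp b.2
  exact ⟨⟨⟨b, hbK⟩, hint⟩, Subtype.ext rfl⟩

attribute [local instance] compactSpace_fix smulCommClass_fix isInvariant_fix

theorem toBq_restrict_smul [Normal ℚ K] (σ : Gq) (x : 𝓞 K) :
    toBq K (AlgEquiv.restrictNormalHom K σ • x) = σ • toBq K x := by
  apply Subtype.ext
  show ((AlgEquiv.restrictNormalHom K σ (x : K) : K) : Qb) = σ ((x : K) : Qb)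
  exact AlgEquiv.restrictNormal_commutes σ K (x : K)

theorem subgroup_smul_ideal (g : K.fixingSubgroup) (I : Ideal Bq) : g • I = (g : Gq) • I := rfl

/-- Lifting an inertia element from a finite Galois level to the absolute Galois group. -/
theorem exists_lift [Normal ℚ K] (𝔔 : Ideal Bq) [𝔔.IsPrime] (τ : K ≃ₐ[ℚ] K)
    (hτ : ∀ x : 𝓞 K, toBq K (τ • x - x) ∈ 𝔔) :
    ∃ σ : Gq, (∀ b : Bq, σ • b - b ∈ 𝔔) ∧ AlgEquiv.restrictNormalHom K σ = τ := by
  obtain ⟨σ₀, hσ₀⟩ := AlgEquiv.restrictNormalHom_surjective Qb τ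
  have hker : ∀ g : K.fixingSubgroup, AlgEquiv.restrictNormalHom K (g : Gq) = 1 := by
    intro g
    have h : (g : Gq) ∈ (AlgEquiv.restrictNormalHom K).ker :=
      (SetLike.ext_iff.mp (IntermediateField.restrictNormalHom_ker K) (g : Gq)).mpr g.2
    exact h
  have hunder : (σ₀ • 𝔔).under (𝓞 K) = 𝔔.under (𝓞 K) := by
    ext x
    rw [Ideal.under, Ideal.mem_comap, Ideal.mem_comap, algebraMap_eq_toBq,
      Ideal.mem_pointwise_smul_iff_inv_smul_mem, ← toBq_restrict_smul, map_inv, hσ₀]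
    have h := hτ (τ⁻¹ • x)
    rw [smul_inv_smul, map_sub] at h
    constructor
    · intro h1
      have := 𝔔.add_mem h1 h
      simpa using this
    · intro h1
      have := 𝔔.sub_mem h1 h
      simpa using this
  obtain ⟨g, hg⟩ := Algebra.IsInvariant.exists_smul_of_under_eq_of_profinite (A := 𝓞 K)
    (G := K.fixingSubgroup) (σ₀ • 𝔔) 𝔔 hunder
  have hσ₁ : ((g : Gq) * σ₀) • 𝔔 = 𝔔 := by
    rw [mul_smul, ← subgroup_smul_ideal]
    exact hg.symm
  have hres : AlgEquiv.restrictNormalHom K ((g : Gq) * σ₀) = τ := by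
    rw [map_mul, hσ₀, hker, one_mul]
  set σ₁ : Gq := (g : Gq) * σ₀ with hσ₁def
  have hcongr : ∀ x : 𝓞 K, σ₁ • toBq K x - toBq K x ∈ 𝔔 := by
    intro x
    rw [← toBq_restrict_smul, hres, ← map_sub]
    exact hτ x
  let e₀ : (Bq ⧸ 𝔔) ≃ₐ[ℤ ⧸ 𝔔.under ℤ] (Bq ⧸ 𝔔) :=
    Ideal.Quotient.stabilizerHom 𝔔 (𝔔.under ℤ) Gq ⟨σ₁, hσ₁⟩
  have he₀ : ∀ b : Bq, e₀ (Ideal.Quotient.mk 𝔔 b) = Ideal.Quotient.mk 𝔔 (σ₁ • b) := fun b =>
    Ideal.Quotient.stabilizerHom_apply 𝔔 (𝔔.under ℤ) Gq ⟨σ₁, hσ₁⟩ b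
  let e : (Bq ⧸ 𝔔) ≃ₐ[𝓞 K ⧸ 𝔔.under (𝓞 K)] (Bq ⧸ 𝔔) :=
    { e₀.toRingEquiv with
      commutes' := by
        intro r
        obtain ⟨x, rfl⟩ := Ideal.Quotient.mk_surjective r
        show e₀ (Ideal.Quotient.mk 𝔔 (toBq K x)) = Ideal.Quotient.mk 𝔔 (toBq K x)
        rw [he₀, Ideal.Quotient.eq]
        exact hcongr x }
  have he : ∀ b : Bq, e (Ideal.Quotient.mk 𝔔 b) = Ideal.Quotient.mk 𝔔 (σ₁ • b) := he₀
  obtain ⟨g', hg'⟩ := Ideal.Quotient.stabilizerHom_surjective_of_profinite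
    (G := K.fixingSubgroup) (𝔔.under (𝓞 K)) 𝔔 e
  have hg'stab : ((g' : K.fixingSubgroup) : Gq)⁻¹ • 𝔔 = 𝔔 := by
    rw [inv_smul_eq_iff, ← subgroup_smul_ideal]
    exact (MulAction.mem_stabilizer_iff.mp g'.2).symm
  refine ⟨((g' : K.fixingSubgroup) : Gq)⁻¹ * σ₁, fun b => ?_, ?_⟩
  · have h1 : Ideal.Quotient.mk 𝔔 (σ₁ • b) = Ideal.Quotient.mk 𝔔 ((g' : K.fixingSubgroup) • b) := by
      rw [← he, ← hg', Ideal.Quotient.stabilizerHom_apply]
      rfl
    rw [Ideal.Quotient.eq] at h1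
    have h2 : ((g' : K.fixingSubgroup) : Gq)⁻¹ • (σ₁ • b - (g' : K.fixingSubgroup) • b) ∈
        ((g' : K.fixingSubgroup) : Gq)⁻¹ • 𝔔 := Ideal.smul_mem_pointwise_smul_iff.mpr h1
    rw [hg'stab] at h2
    have h3 : ((g' : K.fixingSubgroup) : Gq)⁻¹ • (σ₁ • b - (g' : K.fixingSubgroup) • b) =
        (((g' : K.fixingSubgroup) : Gq)⁻¹ * σ₁) • b - b := by
      rw [smul_sub, mul_smul]
      congr 1
      exact inv_smul_smul ((g' : K.fixingSubgroup) : Gq) b
    rwa [h3] at h2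
  · rw [map_mul, map_inv, hres, hker, inv_one, one_mul]

end Lift

section NF

variable {F : Type*} [Field F] [NumberField F] [IsGalois ℚ F]

/-- A ramified prime of a Galois number field has a nontrivial inertia element. -/
theorem exists_inertia_ne_one (P : Ideal (𝓞 F)) [P.IsPrime]
    (hP : ¬ Algebra.IsUnramifiedAt ℤ P) :
    ∃ τ : F ≃ₐ[ℚ] F, τ ≠ 1 ∧ ∀ x : 𝓞 F, τ • x - x ∈ P := by
  have := IsGaloisGroup.of_isFractionRing Gal(F/ℚ) ℤ (𝓞 F) ℚ F
  have hcard := Ideal.card_inertia_eq_ramificationIdxIn (G := F ≃ₐ[ℚ] F) (P.under ℤ) P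
  rw [Ideal.ramificationIdxIn_eq_ramificationIdx (P.under ℤ) P (F ≃ₐ[ℚ] F)] at hcard
  have hne : Nat.card (P.inertia (F ≃ₐ[ℚ] F)) ≠ 1 := by
    rw [hcard, Ne, Ideal.ramificationIdx_eq_one_iff]
    exact hP
  have hbot : P.inertia (F ≃ₐ[ℚ] F) ≠ ⊥ := fun h => hne (by rw [h]; exact Subgroup.card_bot)
  obtain ⟨τ, hτ1⟩ := (Subgroup.ne_bot_iff_exists_ne_one).mp hbot
  exact ⟨τ.1, fun h => hτ1 (Subtype.ext h), fun x => τ.2 x⟩

end NF

theorem isAlgebraic_int (x : Qb) : IsAlgebraic ℤ x :=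
  (IsFractionRing.isAlgebraic_iff ℤ ℚ Qb).mpr (Algebra.IsAlgebraic.isAlgebraic x)

/-- **Minkowski, inertia form.** For a finite Galois extension `K ≠ ℚ` inside `ℚ̄` there is a prime
number `ℓ` such that for EVERY valuation subring `A` of `ℚ̄` over `ℓ` the inertia subgroup of `A`
is not contained in `Gal(ℚ̄/K)`. -/
theorem exists_prime_inertia_not_le (K : IntermediateField ℚ Qb) [hfd : FiniteDimensional ℚ K]
    [hgal : IsGalois ℚ K] (hK : K ≠ ⊥) :
    ∃ ℓ : ℕ, ℓ.Prime ∧ ∀ A : ValuationSubring Qb, A.LiesOverPrime ℓ →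
      ∃ σ ∈ A.inertiaSubgroupIn ℚ, σ ∉ K.fixingSubgroup := by
  have hfin : 1 < Module.finrank ℚ K := by
    have h1 : Module.finrank ℚ K ≠ 1 := fun h => hK (IntermediateField.finrank_eq_one_iff.mp h)
    have h0 : 0 < Module.finrank ℚ K := Module.finrank_pos
    omega
  have : NumberField K := { to_charZero := inferInstance, to_finiteDimensional := hfd }
  obtain ⟨ℓ, hℓ, hram⟩ :=
    NumberField.exists_not_isUnramifiedAt_int_of_isGalois (K := K) (𝒪 := 𝓞 K) hfin
  refine ⟨ℓ, hℓ, fun A hA => ?_⟩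
  let ι : Bq →+* A := (algebraMap Bq Qb).codRestrict A.toSubring
    (fun x => mem_valuationSubring_of_isIntegral A x.2)
  let 𝔔 : Ideal Bq := (IsLocalRing.maximalIdeal A).comap ι
  have h𝔔 : 𝔔.IsPrime := Ideal.comap_isPrime ι _
  let P : Ideal (𝓞 K) := 𝔔.comap (toBq K)
  have hP : P.IsPrime := Ideal.comap_isPrime (toBq K) 𝔔
  have hℓP : ((ℓ : ℕ) : 𝓞 K) ∈ P := by
    show ι (toBq K (ℓ : 𝓞 K)) ∈ IsLocalRing.maximalIdeal A
    rw [map_natCast, map_natCast, ← ValuationSubring.coe_mem_nonunits_iff]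
    have hA' : (ℓ : Qb) ∈ A.nonunits := hA
    exact_mod_cast hA'
  obtain ⟨τ, hτ1, hτ⟩ := exists_inertia_ne_one P (hram P hP hℓP)
  have hn : @Normal ℚ K _ _ (IntermediateField.algebra' K) := hgal.to_normal
  obtain ⟨σ, hσ, hres⟩ := @exists_lift K hn 𝔔 h𝔔 τ hτ
  refine ⟨σ, ?_, ?_⟩
  · refine InertiaVal.mem_inertiaSubgroupIn_of_integral A ℓ hℓ hA isAlgebraic_int σ ?_
    intro x hx
    have h := hσ ⟨x, hx⟩
    have h' : ι (σ • (⟨x, hx⟩ : Bq) - (⟨x, hx⟩ : Bq)) ∈ IsLocalRing.maximalIdeal A := h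
    rw [← ValuationSubring.coe_mem_nonunits_iff] at h'
    exact h'
  · intro hmem
    apply hτ1
    rw [← hres]
    exact (SetLike.ext_iff.mp (@IntermediateField.restrictNormalHom_ker _ _ _ _ _ K hn) σ).mpr hmem

/-- **Bridge.** A normal subgroup `H` of the absolute Galois group of `ℚ` which contains the fixing
subgroup of a finite extension and, for every prime number `ℓ`, the inertia subgroup of SOME
valuation subring of `ℚ̄` over `ℓ`, is the whole group. -/
theorem eq_top_of_inertia_le (H : Subgroup Gq) [H.Normal]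
    (hL : ∃ L : IntermediateField ℚ Qb, FiniteDimensional ℚ L ∧
      ∀ σ : Gq, (∀ x ∈ L, σ x = x) → σ ∈ H)
    (hI : ∀ ℓ : ℕ, ℓ.Prime → ∃ A : ValuationSubring Qb, A.LiesOverPrime ℓ ∧
      A.inertiaSubgroupIn ℚ ≤ H) :
    H = ⊤ := by
  obtain ⟨L, hLfin, hLH⟩ := hL
  have hle : L.fixingSubgroup ≤ H := fun σ hσ =>
    hLH σ (fun x hx => (IntermediateField.mem_fixingSubgroup_iff _ _).mp hσ x hx)
  have hopenL : IsOpen (L.fixingSubgroup : Set Gq) :=
    @IntermediateField.fixingSubgroup_isOpen _ _ _ _ _ L hLfin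
  have hopen : IsOpen (H : Set Gq) := Subgroup.isOpen_mono hle hopenL
  have hclosed : IsClosed (H : Set Gq) := Subgroup.isClosed_of_isOpen H hopen
  set K := IntermediateField.fixedField H with hKdef
  have hfix : K.fixingSubgroup = H := InfiniteGalois.fixingSubgroup_fixedField ⟨H, hclosed⟩
  have hKfin : FiniteDimensional ℚ K :=
    (InfiniteGalois.isOpen_iff_finite K).mp (by rw [hfix]; exact hopen)
  have hKgal : IsGalois ℚ K :=
    (InfiniteGalois.normal_iff_isGalois K).mp (by rw [hfix]; infer_instance)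
  by_contra hne
  have hKbot : K ≠ ⊥ := by
    intro h
    apply hne
    rw [← hfix, h, IntermediateField.fixingSubgroup_bot]
  obtain ⟨ℓ, hℓ, hall⟩ := exists_prime_inertia_not_le K hKbot
  obtain ⟨A, hA, hAH⟩ := hI ℓ hℓ
  obtain ⟨σ, hσ, hσK⟩ := hall A hA
  exact hσK (hfix ▸ hAH hσ)



/-- **Bridge, representation form.** A monoid homomorphism from the absolute Galois group of `ℚ`
which factors through a finite level and kills, for every prime number `ℓ`, the inertia subgroup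
of SOME valuation subring of `ℚ̄` over `ℓ`, is trivial. -/
theorem monoidHom_eq_one_of_inertia {M : Type*} [Monoid M] (ρ : Gq →* M)
    (hL : ∃ L : IntermediateField ℚ Qb, FiniteDimensional ℚ L ∧
      ∀ σ : Gq, (∀ x ∈ L, σ x = x) → ρ σ = 1)
    (hI : ∀ ℓ : ℕ, ℓ.Prime → ∃ A : ValuationSubring Qb, A.LiesOverPrime ℓ ∧
      ∀ σ ∈ A.inertiaSubgroupIn ℚ, ρ σ = 1) (σ : Gq) : ρ σ = 1 := by
  have h : ρ.ker = ⊤ := by
    refine eq_top_of_inertia_le ρ.ker ?_ ?_
    · obtain ⟨L, h1, h2⟩ := hL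
      exact ⟨L, h1, fun σ h => MonoidHom.mem_ker.mpr (h2 σ h)⟩
    · intro ℓ hℓ
      obtain ⟨A, hA, h2⟩ := hI ℓ hℓ
      exact ⟨A, hA, fun σ hσ => MonoidHom.mem_ker.mpr (h2 σ hσ)⟩
  exact MonoidHom.mem_ker.mp (h ▸ Subgroup.mem_top σ)

end Fermat.Agent.Lib.InertiaMinkowski
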