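import Mathlib

set_option autoImplicit false

/-!
Kernel of reduction on an arbitrary Weierstrass curve over a valued field: a nonzero point with
non-integral `x`-coordinate is not killed by any natural number `n` with `v n = 1`.
No hypothesis on the residue characteristic (in particular `v 2 < 1` is allowed).

Also: `x`-coordinate identities for `P ± Q` and `2 P` on Mathlib points of a general
Weierstrass curve.
-/

namespace Fermat.Agent.Lib.KerRedAny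

open WeierstrassCurve

variable {K : Type*} [Field K]

section model

variable {W : WeierstrassCurve.Affine K}

/-- The `x`-coordinate (and `0` at the point at infinity). -/
def xc : W.Point → K
  | .zero => 0
  | .some x _ _ => x

/-- The `y`-coordinate (and `0` at the point at infinity). -/
def yc : W.Point → K
  | .zero => 0
  | .some _ y _ => y

lemma xc_some {x y : K} (h : W.Nonsingular x y) : xc (Affine.Point.some x y h) = x := rfl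

lemma yc_some {x y : K} (h : W.Nonsingular x y) : yc (Affine.Point.some x y h) = y := rfl

/-- The Weierstrass equation at a nonzero point. -/
lemma yc_eq {P : W.Point} (hP : P ≠ 0) :
    yc P ^ 2 + W.a₁ * xc P * yc P + W.a₃ * yc P =
      xc P ^ 3 + W.a₂ * xc P ^ 2 + W.a₄ * xc P + W.a₆ := by
  rcases P with _ | ⟨x, y, h⟩
  · exact absurd rfl hP
  · have := (Affine.equation_iff x y).1 h.1
    rw [xc_some, yc_some]
    linear_combination this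

lemma xc_neg (P : W.Point) : xc (-P) = xc P := by
  rcases P with _ | ⟨x, y, h⟩ <;> rfl

lemma yc_neg {P : W.Point} (hP : P ≠ 0) : yc (-P) = -yc P - W.a₁ * xc P - W.a₃ := by
  rcases P with _ | ⟨x, y, h⟩
  · exact absurd rfl hP
  · rw [Affine.Point.neg_some, yc_some, yc_some, xc_some]
    rfl

lemma neg_ne_zero_iff (P : W.Point) : -P ≠ 0 ↔ P ≠ 0 := by
  rw [Ne, Ne, neg_eq_iff_eq_neg, Affine.Point.neg_zero]

lemma eq_of_xc_yc {P Q : W.Point} (hP : P ≠ 0) (hQ : Q ≠ 0)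
    (hX : xc P = xc Q) (hY : yc P = yc Q) : P = Q := by
  rcases P with _ | ⟨x₁, y₁, hh₁⟩
  · exact absurd rfl hP
  rcases Q with _ | ⟨x₂, y₂, hh₂⟩
  · exact absurd rfl hQ
  rw [xc_some, xc_some] at hX
  rw [yc_some, yc_some] at hY
  subst hX
  subst hY
  rfl

lemma eq_or_eq_neg_of_xc {P Q : W.Point} (hP : P ≠ 0) (hQ : Q ≠ 0) (hX : xc P = xc Q) :
    P = Q ∨ P = -Q := by
  have e1 := yc_eq hP
  have e2 := yc_eq hQ
  rw [hX] at e1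
  have h0 : (yc P - yc Q) * (yc P - (-yc Q - W.a₁ * xc Q - W.a₃)) = 0 := by
    linear_combination e1 - e2
  rcases mul_eq_zero.1 h0 with h | h
  · exact Or.inl (eq_of_xc_yc hP hQ hX (sub_eq_zero.1 h))
  · right
    apply eq_of_xc_yc hP ((neg_ne_zero_iff Q).2 hQ)
    · rw [xc_neg, hX]
    · rw [yc_neg hQ]
      exact sub_eq_zero.1 h

variable [DecidableEq K]

/-- Chord formula. -/
lemma add_of_xc_ne {P Q : W.Point} (hP : P ≠ 0) (hQ : Q ≠ 0) (hX : xc P ≠ xc Q) :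
    P + Q ≠ 0 ∧ xc (P + Q) = ((yc P - yc Q) / (xc P - xc Q)) ^ 2
      + W.a₁ * ((yc P - yc Q) / (xc P - xc Q)) - W.a₂ - xc P - xc Q := by
  rcases P with _ | ⟨x₁, y₁, hh₁⟩
  · exact absurd rfl hP
  rcases Q with _ | ⟨x₂, y₂, hh₂⟩
  · exact absurd rfl hQ
  have hx : x₁ ≠ x₂ := by
    rintro rfl
    exact hX rfl
  rw [Affine.Point.add_of_X_ne hx]
  refine ⟨Affine.Point.some_ne_zero _, ?_⟩
  rw [xc_some, xc_some, xc_some, yc_some, yc_some, Affine.slope_of_X_ne hx]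
  rfl

lemma sub_of_xc_ne {P Q : W.Point} (hP : P ≠ 0) (hQ : Q ≠ 0) (hX : xc P ≠ xc Q) :
    P - Q ≠ 0 ∧ xc (P - Q) =
      ((yc P + yc Q + W.a₁ * xc Q + W.a₃) / (xc P - xc Q)) ^ 2
      + W.a₁ * ((yc P + yc Q + W.a₁ * xc Q + W.a₃) / (xc P - xc Q)) - W.a₂ - xc P - xc Q := by
  have h := add_of_xc_ne hP ((neg_ne_zero_iff Q).2 hQ) (by rwa [xc_neg])
  rw [xc_neg, yc_neg hQ, ← sub_eq_add_neg] at h
  refine ⟨h.1, ?_⟩
  rw [h.2]
  have : yc P - (-yc Q - W.a₁ * xc Q - W.a₃) = yc P + yc Q + W.a₁ * xc Q + W.a₃ := by ring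
  rw [this]

/-- Sum formula for the `x`-coordinates of `P ± Q`. -/
lemma xc_add_add_xc_sub {P Q : W.Point} (hP : P ≠ 0) (hQ : Q ≠ 0) (hX : xc P ≠ xc Q) :
    xc (P + Q) + xc (P - Q) =
      (2 * (xc P * xc Q) * (xc P + xc Q) + W.b₂ * (xc P * xc Q) + W.b₄ * (xc P + xc Q) + W.b₆) /
        (xc P - xc Q) ^ 2 := by
  rw [(add_of_xc_ne hP hQ hX).2, (sub_of_xc_ne hP hQ hX).2]
  have e1 := yc_eq hP
  have e2 := yc_eq hQ
  have hd : xc P - xc Q ≠ 0 := sub_ne_zero.2 hX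
  simp only [WeierstrassCurve.b₂, WeierstrassCurve.b₄, WeierstrassCurve.b₆]
  field_simp
  linear_combination 2 * e1 + 2 * e2

/-- Product formula for the `x`-coordinates of `P ± Q`. -/
lemma xc_add_mul_xc_sub {P Q : W.Point} (hP : P ≠ 0) (hQ : Q ≠ 0) (hX : xc P ≠ xc Q) :
    xc (P + Q) * xc (P - Q) =
      ((xc P * xc Q) ^ 2 - W.b₄ * (xc P * xc Q) - W.b₆ * (xc P + xc Q) - W.b₈) /
        (xc P - xc Q) ^ 2 := by
  rw [(add_of_xc_ne hP hQ hX).2, (sub_of_xc_ne hP hQ hX).2]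
  have e1 := yc_eq hP
  have e2 := yc_eq hQ
  have hd : xc P - xc Q ≠ 0 := sub_ne_zero.2 hX
  simp only [WeierstrassCurve.b₄, WeierstrassCurve.b₆, WeierstrassCurve.b₈]
  field_simp
  grind

omit [DecidableEq K] in
/-- `(2y + a₁x + a₃)² = 4x³ + b₂x² + 2b₄x + b₆`. -/
lemma psi_sq {P : W.Point} (hP : P ≠ 0) :
    (2 * yc P + W.a₁ * xc P + W.a₃) ^ 2 =
      4 * xc P ^ 3 + W.b₂ * xc P ^ 2 + 2 * W.b₄ * xc P + W.b₆ := by
  have e := yc_eq hP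
  simp only [WeierstrassCurve.b₂, WeierstrassCurve.b₄, WeierstrassCurve.b₆]
  linear_combination 4 * e

lemma add_self_eq_zero_of_psi {P : W.Point} (hP : P ≠ 0)
    (h : 2 * yc P + W.a₁ * xc P + W.a₃ = 0) : P + P = 0 := by
  rcases P with _ | ⟨x, y, hh⟩
  · exact absurd rfl hP
  rw [xc_some, yc_some] at h
  apply Affine.Point.add_self_of_Y_eq
  simp only [Affine.negY]
  linear_combination h

/-- Duplication formula for the `x`-coordinate. -/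
lemma add_self_of_ne {P : W.Point} (hP : P ≠ 0)
    (h : 2 * yc P + W.a₁ * xc P + W.a₃ ≠ 0) :
    P + P ≠ 0 ∧ xc (P + P) * (2 * yc P + W.a₁ * xc P + W.a₃) ^ 2 =
      xc P ^ 4 - W.b₄ * xc P ^ 2 - 2 * W.b₆ * xc P - W.b₈ := by
  have e := yc_eq hP
  rcases P with _ | ⟨x, y, hh⟩
  · exact absurd rfl hP
  rw [xc_some, yc_some] at h e ⊢
  have hy : y ≠ W.negY x y := by
    intro hy
    apply h
    simp only [Affine.negY] at hy
    linear_combination hy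
  have hD : y - W.negY x y = 2 * y + W.a₁ * x + W.a₃ := by
    simp only [Affine.negY]; ring
  rw [Affine.Point.add_self_of_Y_ne hy]
  refine ⟨Affine.Point.some_ne_zero _, ?_⟩
  rw [xc_some, Affine.slope_of_Y_ne rfl hy, hD]
  simp only [Affine.addX, WeierstrassCurve.b₄, WeierstrassCurve.b₆, WeierstrassCurve.b₈]
  obtain ⟨ψ, hψ⟩ : ∃ ψ, ψ = 2 * y + W.a₁ * x + W.a₃ := ⟨_, rfl⟩
  rw [← hψ] at h ⊢
  field_simp
  subst hψ
  linear_combination (-(W.a₁ ^ 2 + 4 * W.a₂ + 8 * x)) * e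

end model

section valuation

variable {Γ₀ : Type*} [LinearOrderedCommGroupWithZero Γ₀] (v : Valuation K Γ₀)

lemma val_natCast_le_one (n : ℕ) : v (n : K) ≤ 1 := by
  induction n with
  | zero => simp
  | succ n ih =>
    rw [Nat.cast_succ]
    exact v.map_add_le ih (le_of_eq v.map_one)

lemma val_two_le_one : v (2 : K) ≤ 1 := by
  have := val_natCast_le_one v 2
  exact_mod_cast this

lemma val_two_lt_one_of_four (h4 : v (4 : K) < 1) : v (2 : K) < 1 := by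
  by_contra hcon
  have h2 : v (2 : K) = 1 := le_antisymm (val_two_le_one v) (not_lt.1 hcon)
  have : (4 : K) = 2 * 2 := by norm_num
  rw [this, v.map_mul, h2, one_mul] at h4
  exact lt_irrefl _ h4

lemma ne_zero_of_one_lt {x : K} (hx : 1 < v x) : x ≠ 0 := by
  rintro rfl
  rw [v.map_zero] at hx
  exact not_lt_zero hx

lemma val_inv_lt_one {x : K} (hx : 1 < v x) : v x⁻¹ < 1 := by
  rw [map_inv₀]
  exact inv_lt_one_of_one_lt₀ hx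

lemma val_mul_lt_of_lt_one {a b : Γ₀} (ha : a ≤ 1) (hb : b < 1) : a * b < 1 :=
  lt_of_le_of_lt (mul_le_of_le_one_left' ha) hb

lemma ne_zero_of_val_eq_one {x : K} (hx : v x = 1) : x ≠ 0 := by
  rintro rfl
  rw [v.map_zero] at hx
  exact zero_ne_one hx

lemma val_mul_self_lt {a b : Γ₀} (ha : a ≠ 0) (hb : b < 1) : a * b < a := by
  have : a * b < a * 1 := by
    have ha' : 0 < a := zero_lt_iff.2 ha
    gcongr
  rwa [mul_one] at this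

/-- Pure valuation estimate for the duplication formula. -/
lemma dup_val {b₂ b₄ b₆ b₈ X : K} (hb₂ : v b₂ ≤ 1) (hb₄ : v b₄ ≤ 1) (hb₆ : v b₆ ≤ 1)
    (hb₈ : v b₈ ≤ 1) (hX : 1 < v X) :
    (4 * X ^ 3 + b₂ * X ^ 2 + 2 * b₄ * X + b₆ = 0 → v (4 : K) < 1) ∧
    (∀ r : K, 4 * X ^ 3 + b₂ * X ^ 2 + 2 * b₄ * X + b₆ ≠ 0 →
      r * (4 * X ^ 3 + b₂ * X ^ 2 + 2 * b₄ * X + b₆) = X ^ 4 - b₄ * X ^ 2 - 2 * b₆ * X - b₈ →
      r ≠ 0 ∧ v (r⁻¹ - 4 * X⁻¹) < v X⁻¹) := by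
  have hX0 : X ≠ 0 := ne_zero_of_one_lt v hX
  have ht : v X⁻¹ < 1 := val_inv_lt_one v hX
  have ht0 : X⁻¹ ≠ 0 := inv_ne_zero hX0
  obtain ⟨t, htdef⟩ : ∃ t, t = X⁻¹ := ⟨_, rfl⟩
  rw [← htdef] at ht ht0 ⊢
  have hXt : X = t⁻¹ := by rw [htdef, inv_inv]
  have htI : t ∈ v.integer := le_of_lt ht
  have hb₂I : b₂ ∈ v.integer := hb₂
  have hb₄I : b₄ ∈ v.integer := hb₄
  have hb₆I : b₆ ∈ v.integer := hb₆
  have hb₈I : b₈ ∈ v.integer := hb₈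
  have htne : v t ≠ 0 := v.ne_zero_iff.2 ht0
  have hg : 4 * X ^ 3 + b₂ * X ^ 2 + 2 * b₄ * X + b₆ =
      t⁻¹ ^ 3 * (4 + b₂ * t + 2 * b₄ * t ^ 2 + b₆ * t ^ 3) := by
    rw [hXt]; field_simp
  have hΦ : X ^ 4 - b₄ * X ^ 2 - 2 * b₆ * X - b₈ =
      t⁻¹ ^ 4 * (1 - t * (b₄ * t + 2 * b₆ * t ^ 2 + b₈ * t ^ 3)) := by
    rw [hXt]; field_simp; ring
  have hw1 : v (t * (b₄ * t + 2 * b₆ * t ^ 2 + b₈ * t ^ 3)) < 1 := by
    rw [v.map_mul, mul_comm]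
    have : b₄ * t + 2 * b₆ * t ^ 2 + b₈ * t ^ 3 ∈ v.integer := by
      apply_rules [add_mem, mul_mem, pow_mem, ofNat_mem, sub_mem]
    exact val_mul_lt_of_lt_one this ht
  have hu : v (1 - t * (b₄ * t + 2 * b₆ * t ^ 2 + b₈ * t ^ 3)) = 1 := v.map_one_sub_of_lt hw1
  have hun := ne_zero_of_val_eq_one v hu
  constructor
  · intro h0
    rw [hg] at h0
    have h1 : 4 + b₂ * t + 2 * b₄ * t ^ 2 + b₆ * t ^ 3 = 0 :=
      (mul_eq_zero.1 h0).resolve_left (pow_ne_zero 3 (inv_ne_zero ht0))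
    have h2 : (4 : K) = -(t * (b₂ + 2 * b₄ * t + b₆ * t ^ 2)) := by linear_combination h1
    rw [h2, v.map_neg, v.map_mul, mul_comm]
    have : b₂ + 2 * b₄ * t + b₆ * t ^ 2 ∈ v.integer := by
      apply_rules [add_mem, mul_mem, pow_mem, ofNat_mem, sub_mem]
    exact val_mul_lt_of_lt_one this ht
  · intro r hg0 hr
    rw [hg] at hg0 hr
    rw [hΦ] at hr
    have hg'0 : 4 + b₂ * t + 2 * b₄ * t ^ 2 + b₆ * t ^ 3 ≠ 0 := right_ne_zero_of_mul hg0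
    have hr0 : r ≠ 0 := by
      rintro rfl
      rw [zero_mul] at hr
      exact (mul_ne_zero (pow_ne_zero 4 (inv_ne_zero ht0)) hun) hr.symm
    refine ⟨hr0, ?_⟩
    have hr' : r = t⁻¹ ^ 4 * (1 - t * (b₄ * t + 2 * b₆ * t ^ 2 + b₈ * t ^ 3)) /
        (t⁻¹ ^ 3 * (4 + b₂ * t + 2 * b₄ * t ^ 2 + b₆ * t ^ 3)) := by
      rw [eq_div_iff hg0]; exact hr
    have key : r⁻¹ - 4 * t =
        t ^ 2 * (b₂ + 6 * b₄ * t + 9 * b₆ * t ^ 2 + 4 * b₈ * t ^ 3) /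
          (1 - t * (b₄ * t + 2 * b₆ * t ^ 2 + b₈ * t ^ 3)) := by
      rw [hr', inv_div]
      generalize huu : 1 - t * (b₄ * t + 2 * b₆ * t ^ 2 + b₈ * t ^ 3) = u at hun ⊢
      field_simp
      subst huu
      ring
    rw [key, map_div₀, hu, div_one, v.map_mul, v.map_pow]
    have hw : b₂ + 6 * b₄ * t + 9 * b₆ * t ^ 2 + 4 * b₈ * t ^ 3 ∈ v.integer := by
      apply_rules [add_mem, mul_mem, pow_mem, ofNat_mem, sub_mem]
    calc v t ^ 2 * v (b₂ + 6 * b₄ * t + 9 * b₆ * t ^ 2 + 4 * b₈ * t ^ 3)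
        ≤ v t ^ 2 * 1 := by gcongr; exact hw
      _ = v t * v t := by rw [mul_one, sq]
      _ < v t := val_mul_self_lt htne ht

/-- Pure valuation estimate for the sum/product formulas. -/
lemma sum_val {b₂ b₄ b₆ b₈ X₁ X₂ r₁ r₂ : K} (hb₂ : v b₂ ≤ 1) (hb₄ : v b₄ ≤ 1)
    (hb₆ : v b₆ ≤ 1) (hb₈ : v b₈ ≤ 1) (hX₁ : 1 < v X₁) (hX₂ : 1 < v X₂) (hne : X₁ ≠ X₂)
    (hs : r₁ + r₂ = (2 * (X₁ * X₂) * (X₁ + X₂) + b₂ * (X₁ * X₂) + b₄ * (X₁ + X₂) + b₆) /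
      (X₁ - X₂) ^ 2)
    (hp : r₁ * r₂ = ((X₁ * X₂) ^ 2 - b₄ * (X₁ * X₂) - b₆ * (X₁ + X₂) - b₈) / (X₁ - X₂) ^ 2) :
    r₁ ≠ 0 ∧ r₂ ≠ 0 ∧ v (r₁⁻¹ + r₂⁻¹ - 2 * (X₁⁻¹ + X₂⁻¹)) ≤ v X₁⁻¹ * v X₂⁻¹ := by
  have hX10 : X₁ ≠ 0 := ne_zero_of_one_lt v hX₁
  have hX20 : X₂ ≠ 0 := ne_zero_of_one_lt v hX₂
  have ht1 : v X₁⁻¹ < 1 := val_inv_lt_one v hX₁
  have ht2 : v X₂⁻¹ < 1 := val_inv_lt_one v hX₂
  have hd : X₁ - X₂ ≠ 0 := sub_ne_zero.2 hne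
  obtain ⟨t₁, ht₁⟩ : ∃ t, t = X₁⁻¹ := ⟨_, rfl⟩
  obtain ⟨t₂, ht₂⟩ : ∃ t, t = X₂⁻¹ := ⟨_, rfl⟩
  rw [← ht₁] at ht1 ⊢
  rw [← ht₂] at ht2 ⊢
  have ht10 : t₁ ≠ 0 := by rw [ht₁]; exact inv_ne_zero hX10
  have ht20 : t₂ ≠ 0 := by rw [ht₂]; exact inv_ne_zero hX20
  have hX1t : X₁ = t₁⁻¹ := by rw [ht₁, inv_inv]
  have hX2t : X₂ = t₂⁻¹ := by rw [ht₂, inv_inv]
  have ht1I : t₁ ∈ v.integer := le_of_lt ht1
  have ht2I : t₂ ∈ v.integer := le_of_lt ht2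
  have hb₂I : b₂ ∈ v.integer := hb₂
  have hb₄I : b₄ ∈ v.integer := hb₄
  have hb₆I : b₆ ∈ v.integer := hb₆
  have hb₈I : b₈ ∈ v.integer := hb₈
  have hw1 : v (t₁ * (t₂ * (b₄ + b₆ * (t₁ + t₂) + b₈ * (t₁ * t₂)))) < 1 := by
    rw [v.map_mul, mul_comm]
    have : t₂ * (b₄ + b₆ * (t₁ + t₂) + b₈ * (t₁ * t₂)) ∈ v.integer := by
      apply_rules [add_mem, mul_mem, pow_mem, ofNat_mem, sub_mem]
    exact val_mul_lt_of_lt_one this ht1
  have hu : v (1 - t₁ * (t₂ * (b₄ + b₆ * (t₁ + t₂) + b₈ * (t₁ * t₂)))) = 1 :=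
    v.map_one_sub_of_lt hw1
  have hun := ne_zero_of_val_eq_one v hu
  have hPi : (X₁ * X₂) ^ 2 - b₄ * (X₁ * X₂) - b₆ * (X₁ + X₂) - b₈ =
      (t₁⁻¹ * t₂⁻¹) ^ 2 * (1 - t₁ * (t₂ * (b₄ + b₆ * (t₁ + t₂) + b₈ * (t₁ * t₂)))) := by
    rw [hX1t, hX2t]; field_simp; ring
  have hS : 2 * (X₁ * X₂) * (X₁ + X₂) + b₂ * (X₁ * X₂) + b₄ * (X₁ + X₂) + b₆ =
      (t₁⁻¹ * t₂⁻¹) ^ 2 * (2 * (t₁ + t₂) + t₁ * t₂ * (b₂ + b₄ * (t₁ + t₂) + b₆ * (t₁ * t₂))) := by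
    rw [hX1t, hX2t]; field_simp; ring
  have hPi0 : (X₁ * X₂) ^ 2 - b₄ * (X₁ * X₂) - b₆ * (X₁ + X₂) - b₈ ≠ 0 := by
    rw [hPi]
    exact mul_ne_zero (pow_ne_zero 2 (mul_ne_zero (inv_ne_zero ht10) (inv_ne_zero ht20))) hun
  have h12 : r₁ * r₂ ≠ 0 := by
    rw [hp]; exact div_ne_zero hPi0 (pow_ne_zero 2 hd)
  have h1 : r₁ ≠ 0 := left_ne_zero_of_mul h12
  have h2 : r₂ ≠ 0 := right_ne_zero_of_mul h12
  refine ⟨h1, h2, ?_⟩
  have hinv : r₁⁻¹ + r₂⁻¹ = (r₁ + r₂) / (r₁ * r₂) := by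
    field_simp
    ring
  have key : r₁⁻¹ + r₂⁻¹ - 2 * (t₁ + t₂) =
      t₁ * t₂ * (b₂ + b₄ * (t₁ + t₂) + b₆ * (t₁ * t₂)
        + 2 * (t₁ + t₂) * (b₄ + b₆ * (t₁ + t₂) + b₈ * (t₁ * t₂))) /
        (1 - t₁ * (t₂ * (b₄ + b₆ * (t₁ + t₂) + b₈ * (t₁ * t₂)))) := by
    rw [hinv, hs, hp, div_div_div_cancel_right₀ (pow_ne_zero 2 hd), hS, hPi]
    generalize huu : 1 - t₁ * (t₂ * (b₄ + b₆ * (t₁ + t₂) + b₈ * (t₁ * t₂))) = u at hun ⊢
    field_simp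
    subst huu
    ring
  rw [key, map_div₀, hu, div_one, v.map_mul, v.map_mul]
  have hw : b₂ + b₄ * (t₁ + t₂) + b₆ * (t₁ * t₂)
      + 2 * (t₁ + t₂) * (b₄ + b₆ * (t₁ + t₂) + b₈ * (t₁ * t₂)) ∈ v.integer := by
      apply_rules [add_mem, mul_mem, pow_mem, ofNat_mem, sub_mem]
  calc v t₁ * v t₂ * v (b₂ + b₄ * (t₁ + t₂) + b₆ * (t₁ * t₂)
        + 2 * (t₁ + t₂) * (b₄ + b₆ * (t₁ + t₂) + b₈ * (t₁ * t₂)))
      ≤ v t₁ * v t₂ * 1 := by gcongr; exact hw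
    _ = v t₁ * v t₂ := mul_one _

variable [DecidableEq K] {W : WeierstrassCurve.Affine K}

omit [DecidableEq K] in
lemma val_b₂ (h₁ : v W.a₁ ≤ 1) (h₂ : v W.a₂ ≤ 1) : v W.b₂ ≤ 1 := by
  have h₁I : W.a₁ ∈ v.integer := h₁
  have h₂I : W.a₂ ∈ v.integer := h₂
  have : W.a₁ ^ 2 + 4 * W.a₂ ∈ v.integer := by
    apply_rules [add_mem, mul_mem, pow_mem, ofNat_mem, sub_mem]
  exact this

omit [DecidableEq K] in
lemma val_b₄ (h₁ : v W.a₁ ≤ 1) (h₃ : v W.a₃ ≤ 1) (h₄ : v W.a₄ ≤ 1) : v W.b₄ ≤ 1 := by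
  have h₁I : W.a₁ ∈ v.integer := h₁
  have h₃I : W.a₃ ∈ v.integer := h₃
  have h₄I : W.a₄ ∈ v.integer := h₄
  have : 2 * W.a₄ + W.a₁ * W.a₃ ∈ v.integer := by
    apply_rules [add_mem, mul_mem, pow_mem, ofNat_mem, sub_mem]
  exact this

omit [DecidableEq K] in
lemma val_b₆ (h₃ : v W.a₃ ≤ 1) (h₆ : v W.a₆ ≤ 1) : v W.b₆ ≤ 1 := by
  have h₃I : W.a₃ ∈ v.integer := h₃
  have h₆I : W.a₆ ∈ v.integer := h₆
  have : W.a₃ ^ 2 + 4 * W.a₆ ∈ v.integer := by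
    apply_rules [add_mem, mul_mem, pow_mem, ofNat_mem, sub_mem]
  exact this

omit [DecidableEq K] in
lemma val_b₈ (h₁ : v W.a₁ ≤ 1) (h₂ : v W.a₂ ≤ 1) (h₃ : v W.a₃ ≤ 1) (h₄ : v W.a₄ ≤ 1)
    (h₆ : v W.a₆ ≤ 1) : v W.b₈ ≤ 1 := by
  have h₁I : W.a₁ ∈ v.integer := h₁
  have h₂I : W.a₂ ∈ v.integer := h₂
  have h₃I : W.a₃ ∈ v.integer := h₃
  have h₄I : W.a₄ ∈ v.integer := h₄
  have h₆I : W.a₆ ∈ v.integer := h₆
  have : W.a₁ ^ 2 * W.a₆ + 4 * W.a₂ * W.a₆ - W.a₁ * W.a₃ * W.a₄ + W.a₂ * W.a₃ ^ 2 - W.a₄ ^ 2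
      ∈ v.integer := by
    apply_rules [add_mem, mul_mem, pow_mem, ofNat_mem, sub_mem]
  exact this

/-- Duplication estimate in the kernel of reduction. -/
lemma dup_est (hb₂ : v W.b₂ ≤ 1) (hb₄ : v W.b₄ ≤ 1) (hb₆ : v W.b₆ ≤ 1) (hb₈ : v W.b₈ ≤ 1)
    {Q : W.Point} (hQ : Q ≠ 0) (hX : 1 < v (xc Q)) :
    (Q + Q = 0 ∧ v (4 : K) < 1) ∨
    (Q + Q ≠ 0 ∧ xc (Q + Q) ≠ 0 ∧ v ((xc (Q + Q))⁻¹ - 4 * (xc Q)⁻¹) < v ((xc Q)⁻¹)) := by
  obtain ⟨hd1, hd2⟩ := dup_val v hb₂ hb₄ hb₆ hb₈ hX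
  have hpsi := psi_sq hQ
  by_cases hψ : 2 * yc Q + W.a₁ * xc Q + W.a₃ = 0
  · left
    refine ⟨add_self_eq_zero_of_psi hQ hψ, hd1 ?_⟩
    rw [← hpsi, hψ]
    ring
  · right
    obtain ⟨h1, h2⟩ := add_self_of_ne hQ hψ
    rw [hpsi] at h2
    have hg0 : 4 * xc Q ^ 3 + W.b₂ * xc Q ^ 2 + 2 * W.b₄ * xc Q + W.b₆ ≠ 0 := by
      rw [← hpsi]; exact pow_ne_zero 2 hψ
    obtain ⟨h3, h4⟩ := hd2 _ hg0 h2
    exact ⟨h1, h3, h4⟩

/-- Sum estimate in the kernel of reduction. -/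
lemma sum_est (hb₂ : v W.b₂ ≤ 1) (hb₄ : v W.b₄ ≤ 1) (hb₆ : v W.b₆ ≤ 1) (hb₈ : v W.b₈ ≤ 1)
    {P Q : W.Point} (hP : P ≠ 0) (hQ : Q ≠ 0)
    (hXP : 1 < v (xc P)) (hXQ : 1 < v (xc Q)) (hne : xc Q ≠ xc P) :
    Q + P ≠ 0 ∧ Q - P ≠ 0 ∧ xc (Q + P) ≠ 0 ∧ xc (Q - P) ≠ 0 ∧
      v ((xc (Q + P))⁻¹ + (xc (Q - P))⁻¹ - 2 * ((xc Q)⁻¹ + (xc P)⁻¹)) ≤
        v ((xc Q)⁻¹) * v ((xc P)⁻¹) := by
  have hsum := xc_add_add_xc_sub hQ hP hne
  have hprod := xc_add_mul_xc_sub hQ hP hne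
  obtain ⟨h1, h2, h3⟩ := sum_val v hb₂ hb₄ hb₆ hb₈ hXQ hXP hne hsum hprod
  exact ⟨(add_of_xc_ne hQ hP hne).1, (sub_of_xc_ne hQ hP hne).1, h1, h2, h3⟩

/-- The induction claim: `t(nP) ≡ n² t(P)` to first order. -/
def Claim (P : W.Point) (n : ℕ) : Prop :=
  (n • P = 0 ∧ v (n : K) < 1) ∨
    (n • P ≠ 0 ∧ xc (n • P) ≠ 0 ∧
      v ((xc (n • P))⁻¹ - (n : K) ^ 2 * (xc P)⁻¹) < v ((xc P)⁻¹))

omit [DecidableEq K] in
lemma claim_val_gt {P Q : W.Point} {c : K} (hc : v c ≤ 1) (hX : 1 < v (xc P))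
    (hQ0 : xc Q ≠ 0) (h : v ((xc Q)⁻¹ - c * (xc P)⁻¹) < v ((xc P)⁻¹)) :
    v ((xc Q)⁻¹) ≤ v ((xc P)⁻¹) ∧ 1 < v (xc Q) := by
  have ht : v (xc P)⁻¹ < 1 := val_inv_lt_one v hX
  have h1 : v ((xc Q)⁻¹) ≤ v ((xc P)⁻¹) := by
    have : (xc Q)⁻¹ = ((xc Q)⁻¹ - c * (xc P)⁻¹) + c * (xc P)⁻¹ := by ring
    rw [this]
    apply v.map_add_le (le_of_lt h)
    rw [v.map_mul]
    exact mul_le_of_le_one_left' hc
  refine ⟨h1, ?_⟩
  have h2 : v ((xc Q)⁻¹) < 1 := lt_of_le_of_lt h1 ht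
  rw [map_inv₀] at h2
  have hne : v (xc Q) ≠ 0 := v.ne_zero_iff.2 hQ0
  by_contra hle
  push Not at hle
  have : 1 ≤ (v (xc Q))⁻¹ := (one_le_inv₀ (zero_lt_iff.2 hne)).2 hle
  exact absurd h2 (not_lt.2 this)

omit [DecidableEq K] in
/-- If `v (c * t) < v t` then `v c < 1`. -/
lemma val_lt_one_of_mul_lt {c t : K} (h : v (c * t) < v t) : v c < 1 := by
  rw [v.map_mul] at h
  by_contra hcon
  push Not at hcon
  have : v t ≤ v c * v t := le_mul_of_one_le_left' hcon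
  exact absurd h (not_lt.2 this)

lemma claim_step (hb₂ : v W.b₂ ≤ 1) (hb₄ : v W.b₄ ≤ 1) (hb₆ : v W.b₆ ≤ 1) (hb₈ : v W.b₈ ≤ 1)
    {P : W.Point} (hP : P ≠ 0) (hX : 1 < v (xc P)) (n : ℕ)
    (hn : Claim v P n) (hm : Claim v P (n + 1)) : Claim v P (n + 2) := by
  have hX0 : xc P ≠ 0 := ne_zero_of_one_lt v hX
  have ht : v (xc P)⁻¹ < 1 := val_inv_lt_one v hX
  have ht0 : v (xc P)⁻¹ ≠ 0 := v.ne_zero_iff.2 (inv_ne_zero hX0)
  have hn2 : (n + 2) • P = (n + 1) • P + P := succ_nsmul P (n + 1)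
  have hn0 : n • P = (n + 1) • P - P := by rw [succ_nsmul]; abel
  have hcast3 : v ((n : K) + 3) ≤ 1 := by exact_mod_cast val_natCast_le_one v (n + 3)
  have hcast4 : v ((n : K) + 4) ≤ 1 := by exact_mod_cast val_natCast_le_one v (n + 4)
  have hcast2 : v ((n : K) + 2) ≤ 1 := by exact_mod_cast val_natCast_le_one v (n + 2)
  have hv2 : v (2 : K) ≤ 1 := val_two_le_one v
  rcases hm with ⟨hQ, hvm⟩ | ⟨hQ, hXQ0, hQv⟩
  · -- (n+1)P = 0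
    right
    rw [hn2, hQ, zero_add]
    refine ⟨hP, hX0, ?_⟩
    have : (xc P)⁻¹ - ((n + 2 : ℕ) : K) ^ 2 * (xc P)⁻¹ =
        -(((n + 1 : ℕ) : K) * ((n : K) + 3) * (xc P)⁻¹) := by
      push_cast; ring
    rw [this, v.map_neg, v.map_mul, v.map_mul]
    calc v ((n + 1 : ℕ) : K) * v ((n : K) + 3) * v (xc P)⁻¹
        ≤ v ((n + 1 : ℕ) : K) * 1 * v (xc P)⁻¹ := by gcongr
      _ = v (xc P)⁻¹ * v ((n + 1 : ℕ) : K) := by rw [mul_one, mul_comm]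
      _ < v (xc P)⁻¹ := val_mul_self_lt ht0 hvm
  · obtain ⟨hQle, hXQ⟩ := claim_val_gt v (c := ((n + 1 : ℕ) : K) ^ 2)
      (by rw [v.map_pow]; exact pow_le_one' (val_natCast_le_one v (n + 1)) 2) hX hXQ0 hQv
    by_cases hXeq : xc ((n + 1) • P) = xc P
    · -- (n+1)P = ± P
      have hm1 : v ((n : K) * ((n : K) + 2)) < 1 := by
        rw [hXeq] at hQv
        have : (xc P)⁻¹ - ((n + 1 : ℕ) : K) ^ 2 * (xc P)⁻¹ =
            -((n : K) * ((n : K) + 2) * (xc P)⁻¹) := by push_cast; ring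
        rw [this, v.map_neg] at hQv
        exact val_lt_one_of_mul_lt v hQv
      rcases eq_or_eq_neg_of_xc hQ hP hXeq with hQP | hQP
      · -- (n+1)P = P
        have hnP : n • P = 0 := by rw [hn0, hQP, sub_self]
        have hvn : v (n : K) < 1 := by
          rcases hn with ⟨_, h⟩ | ⟨h, _⟩
          · exact h
          · exact absurd hnP h
        rcases dup_est v hb₂ hb₄ hb₆ hb₈ hP hX with ⟨hPP, h4⟩ | ⟨hPP, hXPP0, hPPv⟩
        · left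
          refine ⟨by rw [hn2, hQP, hPP], ?_⟩
          push_cast
          exact v.map_add_lt hvn (val_two_lt_one_of_four v h4)
        · right
          rw [hn2, hQP]
          refine ⟨hPP, hXPP0, ?_⟩
          have : (xc (P + P))⁻¹ - ((n + 2 : ℕ) : K) ^ 2 * (xc P)⁻¹ =
              ((xc (P + P))⁻¹ - 4 * (xc P)⁻¹) - (n : K) * ((n : K) + 4) * (xc P)⁻¹ := by
            push_cast; ring
          rw [this]
          apply v.map_sub_lt hPPv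
          rw [v.map_mul, v.map_mul]
          calc v (n : K) * v ((n : K) + 4) * v (xc P)⁻¹
              ≤ v (n : K) * 1 * v (xc P)⁻¹ := by gcongr
            _ = v (xc P)⁻¹ * v (n : K) := by rw [mul_one, mul_comm]
            _ < v (xc P)⁻¹ := val_mul_self_lt ht0 hvn
      · -- (n+1)P = -P
        left
        have hnP : n • P = -(P + P) := by rw [hn0, hQP]; abel
        refine ⟨by rw [hn2, hQP, neg_add_cancel], ?_⟩
        push_cast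
        rcases dup_est v hb₂ hb₄ hb₆ hb₈ hP hX with ⟨hPP, h4⟩ | ⟨hPP, hXPP0, hPPv⟩
        · have hnP0 : n • P = 0 := by rw [hnP, hPP, neg_zero]
          have hvn : v (n : K) < 1 := by
            rcases hn with ⟨_, h⟩ | ⟨h, _⟩
            · exact h
            · exact absurd hnP0 h
          exact v.map_add_lt hvn (val_two_lt_one_of_four v h4)
        · have hnP0 : n • P ≠ 0 := by
            rw [hnP]; exact (neg_ne_zero_iff _).2 hPP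
          have hnv : v ((xc (P + P))⁻¹ - (n : K) ^ 2 * (xc P)⁻¹) < v ((xc P)⁻¹) := by
            rcases hn with ⟨h, _⟩ | ⟨_, _, h⟩
            · exact absurd h hnP0
            · rwa [hnP, xc_neg] at h
          have h4n : v ((2 - (n : K)) * ((n : K) + 2)) < 1 := by
            have : ((2 - (n : K)) * ((n : K) + 2)) * (xc P)⁻¹ =
                ((xc (P + P))⁻¹ - (n : K) ^ 2 * (xc P)⁻¹) - ((xc (P + P))⁻¹ - 4 * (xc P)⁻¹) := by
              ring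
            have h' : v (((2 - (n : K)) * ((n : K) + 2)) * (xc P)⁻¹) < v ((xc P)⁻¹) := by
              rw [this]; exact v.map_sub_lt hnv hPPv
            exact val_lt_one_of_mul_lt v h'
          rw [v.map_mul] at hm1 h4n
          by_contra hcon
          have hcon' : v ((n : K) + 2) = 1 := le_antisymm hcast2 (not_lt.1 hcon)
          rw [hcon', mul_one] at hm1 h4n
          have h2lt : v (2 : K) < 1 := by
            have : (2 : K) = (2 - (n : K)) + (n : K) := by ring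
            rw [this]
            exact v.map_add_lt h4n hm1
          exact hcon (v.map_add_lt hm1 h2lt)
    · -- generic case
      obtain ⟨hs1, hs2, hs3, hs4, hs5⟩ := sum_est v hb₂ hb₄ hb₆ hb₈ hP hQ hX hXQ hXeq
      have hnv : v ((xc ((n + 1) • P - P))⁻¹ - (n : K) ^ 2 * (xc P)⁻¹) < v ((xc P)⁻¹) := by
        rcases hn with ⟨h, _⟩ | ⟨_, _, h⟩
        · rw [hn0] at h; exact absurd h hs2
        · rwa [hn0] at h
      right
      rw [hn2]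
      refine ⟨hs1, hs3, ?_⟩
      have hs5' : v ((xc ((n + 1) • P + P))⁻¹ + (xc ((n + 1) • P - P))⁻¹ -
          2 * ((xc ((n + 1) • P))⁻¹ + (xc P)⁻¹)) < v ((xc P)⁻¹) := by
        refine lt_of_le_of_lt hs5 ?_
        rw [mul_comm]
        exact val_mul_self_lt ht0 (lt_of_le_of_lt hQle ht)
      have : (xc ((n + 1) • P + P))⁻¹ - ((n + 2 : ℕ) : K) ^ 2 * (xc P)⁻¹ =
          ((xc ((n + 1) • P + P))⁻¹ + (xc ((n + 1) • P - P))⁻¹ -
            2 * ((xc ((n + 1) • P))⁻¹ + (xc P)⁻¹))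
          - ((xc ((n + 1) • P - P))⁻¹ - (n : K) ^ 2 * (xc P)⁻¹)
          + 2 * ((xc ((n + 1) • P))⁻¹ - ((n + 1 : ℕ) : K) ^ 2 * (xc P)⁻¹) := by
        push_cast; ring
      rw [this]
      apply v.map_add_lt (v.map_sub_lt hs5' hnv)
      rw [v.map_mul]
      exact lt_of_le_of_lt (mul_le_of_le_one_left' hv2) hQv

/-- A point in the kernel of reduction is not killed by an integer that is a unit. -/
theorem nsmul_ne_zero (hb₂ : v W.b₂ ≤ 1) (hb₄ : v W.b₄ ≤ 1) (hb₆ : v W.b₆ ≤ 1)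
    (hb₈ : v W.b₈ ≤ 1) {P : W.Point} (hP : P ≠ 0) (hX : 1 < v (xc P)) (n : ℕ)
    (hn : v (n : K) = 1) : n • P ≠ 0 := by
  have hX0 : xc P ≠ 0 := ne_zero_of_one_lt v hX
  have key : ∀ k : ℕ, Claim v P k ∧ Claim v P (k + 1) := by
    intro k
    induction k with
    | zero =>
      refine ⟨Or.inl ⟨zero_nsmul P, ?_⟩, Or.inr ?_⟩
      · simp
      · rw [zero_add, one_nsmul]
        refine ⟨hP, hX0, ?_⟩
        have : (xc P)⁻¹ - ((1 : ℕ) : K) ^ 2 * (xc P)⁻¹ = 0 := by push_cast; ring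
        rw [this, v.map_zero]
        exact zero_lt_iff.2 (v.ne_zero_iff.2 (inv_ne_zero hX0))
    | succ k ih =>
      exact ⟨ih.2, claim_step v hb₂ hb₄ hb₆ hb₈ hP hX k ih.1 ih.2⟩
  rcases (key n).1 with ⟨_, h⟩ | ⟨h, _⟩
  · rw [hn] at h; exact absurd h (lt_irrefl _)
  · exact h

/-- **Kernel of reduction has no prime-to-residue-characteristic torsion.** On an arbitrary
Weierstrass curve with integral coefficients: a point killed by a natural number `n` with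
`v n = 1` has integral `x`-coordinate. No hypothesis on `v 2`. -/
theorem torsion_integral (W : WeierstrassCurve.Affine K) (h₁ : v W.a₁ ≤ 1) (h₂ : v W.a₂ ≤ 1)
    (h₃ : v W.a₃ ≤ 1) (h₄ : v W.a₄ ≤ 1) (h₆ : v W.a₆ ≤ 1) (n : ℕ) (hn : v (n : K) = 1) :
    ∀ Q : W.Point, n • Q = 0 → ∀ (x y : K) (h : W.Nonsingular x y),
      Q = Affine.Point.some x y h → v x ≤ 1 := by
  intro Q hQ x y h hQe
  by_contra hx
  push Not at hx
  have hQ0 : Q ≠ 0 := by rw [hQe]; exact Affine.Point.some_ne_zero h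
  have hX : 1 < v (xc Q) := by rw [hQe, xc_some]; exact hx
  exact nsmul_ne_zero v (val_b₂ v h₁ h₂) (val_b₄ v h₁ h₃ h₄) (val_b₆ v h₃ h₆)
    (val_b₈ v h₁ h₂ h₃ h₄ h₆) hQ0 hX n hn hQ

end valuation

end Fermat.Agent.Lib.KerRedAny
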