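import Fermat.Agent.Lib.TorsionCard.Basic

set_option autoImplicit false

/-!
# The kernel of reduction of an integral Weierstrass model, along multiples

`K` a field with a valuation `v`, `W` any Weierstrass curve over `K` whose `b`-invariants are
`v`-integral (e.g. all `aᵢ` integral); no hypothesis on the residue characteristic.
For an affine point `P` with `1 < v (x P)` (a nonzero point of the "kernel of reduction" `E₁`)
and every `k : ℕ`:

* if `k • P = 0` then `v k < 1`;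
* if `k • P` is affine with `x`-coordinate `x'` then `x' ≠ 0` and
  `v (x'⁻¹ - k² x⁻¹) < v x⁻¹`.

Hence `E₁` is stable under multiples, `v (x (k • P)) = v (x P)` whenever `v k = 1`, and `E₁` has
no torsion of order prime to the residue characteristic.
-/

namespace Fermat.Agent.Lib.KerRedGen

open WeierstrassCurve WeierstrassCurve.Affine Fermat.Agent.Lib.TorsionCard

section Val

variable {K : Type*} [Field K] {Γ₀ : Type*} [LinearOrderedCommGroupWithZero Γ₀]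
  (v : Valuation K Γ₀)

theorem val_natCast_le_one (n : ℕ) : v (n : K) ≤ 1 := by
  induction n with
  | zero => simp
  | succ n ih =>
    rw [Nat.cast_succ]
    exact v.map_add_le ih (by simp)

theorem val_intCast_le_one (n : ℤ) : v (n : K) ≤ 1 := by
  rcases Int.natAbs_eq n with h | h
  · rw [h, Int.cast_natCast]; exact val_natCast_le_one v _
  · rw [h, Int.cast_neg, Int.cast_natCast, Valuation.map_neg]; exact val_natCast_le_one v _

theorem val_ofNat_le_one (n : ℕ) [n.AtLeastTwo] : v (OfNat.ofNat n : K) ≤ 1 := by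
  have := val_natCast_le_one v (OfNat.ofNat n)
  rwa [Nat.cast_ofNat] at this

/-- If `g` is nonzero and `g < 1` then `g ^ 2 < g`. -/
theorem sq_lt_self {g : Γ₀} (h0 : g ≠ 0) (h1 : g < 1) : g ^ 2 < g := by
  have hpos : 0 < g := zero_lt_iff.mpr h0
  calc g ^ 2 = g * g := sq g
    _ < g * 1 := by exact mul_lt_mul_of_pos_left h1 hpos
    _ = g := mul_one g

theorem val_mul_le_left {s w : K} (hw : v w ≤ 1) : v (s * w) ≤ v s := by
  rw [map_mul]
  exact mul_le_of_le_one_right' hw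

theorem lt_one_of_mul_lt {g a : Γ₀} (h : a * g < g) : a < 1 := by
  by_contra hcon
  have h1 : 1 ≤ a := not_lt.mp hcon
  have h2 : 1 * g ≤ a * g := mul_le_mul' h1 le_rfl
  rw [one_mul] at h2
  exact absurd h (not_lt.mpr h2)

/-- Duplication estimate: `t(2P) = 4 t(P) + O(t(P)²)`. -/
theorem dbl_est {b₂ b₄ b₆ b₈ x x' : K} (h₂ : v b₂ ≤ 1) (h₄ : v b₄ ≤ 1) (h₆ : v b₆ ≤ 1)
    (h₈ : v b₈ ≤ 1) (hx : 1 < v x)
    (hx' : x' * (4 * x ^ 3 + b₂ * x ^ 2 + 2 * b₄ * x + b₆) =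
      x ^ 4 - b₄ * x ^ 2 - 2 * b₆ * x - b₈) :
    x' ≠ 0 ∧ v (x'⁻¹ - 4 * x⁻¹) < v x⁻¹ := by
  have hx0 : x ≠ 0 := by
    rintro rfl
    simp at hx
  obtain ⟨t, ht⟩ : ∃ t : K, t = x⁻¹ := ⟨_, rfl⟩
  have ht0 : t ≠ 0 := by rw [ht]; exact inv_ne_zero hx0
  have hvt : v t < 1 := by
    rw [ht, map_inv₀]
    exact inv_lt_one_of_one_lt₀ hx
  have hvt0 : v t ≠ 0 := (v.ne_zero_iff).mpr ht0
  have htI : t ∈ v.integer := hvt.le
  have h₂I : b₂ ∈ v.integer := h₂
  have h₄I : b₄ ∈ v.integer := h₄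
  have h₆I : b₆ ∈ v.integer := h₆
  have h₈I : b₈ ∈ v.integer := h₈
  obtain ⟨e, he⟩ : ∃ e : K, e = b₄ * t + 2 * b₆ * t ^ 2 + b₈ * t ^ 3 := ⟨_, rfl⟩
  obtain ⟨f, hf⟩ : ∃ f : K, f = b₂ + 2 * b₄ * t + b₆ * t ^ 2 := ⟨_, rfl⟩
  have heI : e ∈ v.integer := by
    rw [he]; apply_rules [Subring.add_mem, Subring.sub_mem, Subring.mul_mem, Subring.pow_mem, ofNat_mem]
  have hfI : f ∈ v.integer := by
    rw [hf]; apply_rules [Subring.add_mem, Subring.sub_mem, Subring.mul_mem, Subring.pow_mem, ofNat_mem]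
  have hve : v (t * e) < 1 := lt_of_le_of_lt (val_mul_le_left v heI) hvt
  have hu : v (1 - t * e) = 1 := v.map_one_sub_of_lt hve
  have hu0 : 1 - t * e ≠ 0 := by
    intro h
    rw [h, map_zero] at hu
    exact zero_ne_one hu
  have hN : x ^ 4 - b₄ * x ^ 2 - 2 * b₆ * x - b₈ = x ^ 4 * (1 - t * e) := by
    rw [he, ht]; field_simp; ring
  have hD : 4 * x ^ 3 + b₂ * x ^ 2 + 2 * b₄ * x + b₆ = x ^ 4 * (t * (4 + t * f)) := by
    rw [hf, ht]; field_simp; ring
  have hred : x' * (t * (4 + t * f)) = 1 - t * e := by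
    have : x ^ 4 * (x' * (t * (4 + t * f))) = x ^ 4 * (1 - t * e) := by
      rw [← hN, ← hx', hD]; ring
    exact mul_left_cancel₀ (pow_ne_zero 4 hx0) this
  have hx'0 : x' ≠ 0 := by
    rintro rfl
    rw [zero_mul] at hred
    exact hu0 hred.symm
  refine ⟨hx'0, ?_⟩
  have h1 : x'⁻¹ * x' = 1 := inv_mul_cancel₀ hx'0
  have key : x'⁻¹ - 4 * t = t ^ 2 * (f + 4 * e) / (1 - t * e) := by
    rw [eq_div_iff hu0]
    linear_combination (-x'⁻¹) * hred + (t * (4 + t * f)) * h1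
  rw [← ht, key, map_div₀, hu, div_one, map_mul, map_pow]
  have hfe : v (f + 4 * e) ≤ 1 := by
    have : f + 4 * e ∈ v.integer := by
      apply_rules [Subring.add_mem, Subring.sub_mem, Subring.mul_mem, Subring.pow_mem, ofNat_mem]
    exact this
  calc v t ^ 2 * v (f + 4 * e) ≤ v t ^ 2 * 1 := mul_le_mul' le_rfl hfe
    _ = v t ^ 2 := mul_one _
    _ < v t := sq_lt_self hvt0 hvt

/-- If `2P = O` for a point of the kernel of reduction, then `v 2 < 1`. -/
theorem val_two_lt_one_of_dbl_zero {b₂ b₄ b₆ x : K} (h₂ : v b₂ ≤ 1) (h₄ : v b₄ ≤ 1)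
    (h₆ : v b₆ ≤ 1) (hx : 1 < v x)
    (hD : 4 * x ^ 3 + b₂ * x ^ 2 + 2 * b₄ * x + b₆ = 0) : v (2 : K) < 1 := by
  have hx0 : x ≠ 0 := by
    rintro rfl
    simp at hx
  obtain ⟨t, ht⟩ : ∃ t : K, t = x⁻¹ := ⟨_, rfl⟩
  have hvt : v t < 1 := by
    rw [ht, map_inv₀]
    exact inv_lt_one_of_one_lt₀ hx
  have htI : t ∈ v.integer := hvt.le
  have h₂I : b₂ ∈ v.integer := h₂
  have h₄I : b₄ ∈ v.integer := h₄
  have h₆I : b₆ ∈ v.integer := h₆
  have h4 : (4 : K) = -(t * (b₂ + 2 * b₄ * t + b₆ * t ^ 2)) := by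
    have : x ^ 3 * (4 + t * (b₂ + 2 * b₄ * t + b₆ * t ^ 2)) = x ^ 3 * 0 := by
      rw [mul_zero, ← hD, ht]; field_simp; ring
    have := mul_left_cancel₀ (pow_ne_zero 3 hx0) this
    linear_combination this
  have hI : b₂ + 2 * b₄ * t + b₆ * t ^ 2 ∈ v.integer := by
      apply_rules [Subring.add_mem, Subring.sub_mem, Subring.mul_mem, Subring.pow_mem, ofNat_mem]
  have hv4 : v (4 : K) < 1 := by
    rw [h4, Valuation.map_neg]
    exact lt_of_le_of_lt (val_mul_le_left v hI) hvt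
  by_contra hcon
  have h21 : v (2 : K) = 1 := le_antisymm (val_ofNat_le_one v 2) (not_lt.mp hcon)
  have : (4 : K) = 2 * 2 := by norm_num
  rw [this, map_mul, h21, one_mul] at hv4
  exact lt_irrefl _ hv4

/-- Chord estimate: `t(Q + P) + t(Q - P) = 2 (t(Q) + t(P)) + O(t(Q) t(P))`.
From `t_k ≡ c t` and `t_{k-1} ≡ c₋ t` deduce `t_{k+1} ≡ c₊ t` when `c₊ + c₋ = 2 + 2 c`. -/
theorem step_est {b₂ b₄ b₆ b₈ x xk x₃ x₄ c cm cp : K} (h₂ : v b₂ ≤ 1) (h₄ : v b₄ ≤ 1)
    (h₆ : v b₆ ≤ 1) (h₈ : v b₈ ≤ 1)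
    (hx : 1 < v x) (hxk0 : xk ≠ 0) (hcv : v c ≤ 1) (hk : v (xk⁻¹ - c * x⁻¹) < v x⁻¹)
    (hm : v (x₄⁻¹ - cm * x⁻¹) < v x⁻¹) (hne : xk ≠ x)
    (hS : (x₃ + x₄) * (xk - x) ^ 2 =
      2 * xk * x * (xk + x) + b₂ * xk * x + b₄ * (xk + x) + b₆)
    (hP : x₃ * x₄ * (xk - x) ^ 2 = xk ^ 2 * x ^ 2 - b₄ * xk * x - b₆ * (xk + x) - b₈)
    (hc : cp + cm = 2 + 2 * c) :
    x₃ ≠ 0 ∧ v (x₃⁻¹ - cp * x⁻¹) < v x⁻¹ := by
  have hx0 : x ≠ 0 := by
    rintro rfl
    simp at hx
  obtain ⟨t, ht⟩ : ∃ t : K, t = x⁻¹ := ⟨_, rfl⟩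
  obtain ⟨tk, htk⟩ : ∃ tk : K, tk = xk⁻¹ := ⟨_, rfl⟩
  have ht0 : t ≠ 0 := by rw [ht]; exact inv_ne_zero hx0
  have htk0 : tk ≠ 0 := by rw [htk]; exact inv_ne_zero hxk0
  have hvt : v t < 1 := by
    rw [ht, map_inv₀]
    exact inv_lt_one_of_one_lt₀ hx
  have hvt0 : v t ≠ 0 := (v.ne_zero_iff).mpr ht0
  have hvt1 : v t ≤ 1 := hvt.le
  rw [← ht] at hm ⊢
  rw [← ht, ← htk] at hk
  -- `v tk ≤ v t`
  have hvtk : v tk ≤ v t := by
    have : tk = (tk - c * t) + c * t := by ring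
    rw [this]
    refine v.map_add_le hk.le ?_
    rw [map_mul]
    calc v c * v t ≤ 1 * v t := mul_le_mul' hcv le_rfl
      _ = v t := one_mul _
  have htI : t ∈ v.integer := hvt1
  have htkI : tk ∈ v.integer := hvtk.trans hvt1
  have h₂I : b₂ ∈ v.integer := h₂
  have h₄I : b₄ ∈ v.integer := h₄
  have h₆I : b₆ ∈ v.integer := h₆
  have h₈I : b₈ ∈ v.integer := h₈
  obtain ⟨q, hq⟩ : ∃ q : K, q = tk * t := ⟨_, rfl⟩
  obtain ⟨s, hs⟩ : ∃ s : K, s = tk + t := ⟨_, rfl⟩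
  have hvq : v q ≤ v t ^ 2 := by
    rw [hq, map_mul, sq]; exact mul_le_mul' hvtk le_rfl
  have hvq1 : v q < v t := lt_of_le_of_lt hvq (sq_lt_self hvt0 hvt)
  have hqI : q ∈ v.integer := (hvq1.trans hvt).le
  have hsI : s ∈ v.integer := by
    rw [hs]; apply_rules [Subring.add_mem, Subring.sub_mem, Subring.mul_mem, Subring.pow_mem, ofNat_mem]
  obtain ⟨e, he⟩ : ∃ e : K, e = b₄ + b₆ * s + b₈ * q := ⟨_, rfl⟩
  obtain ⟨f, hf⟩ : ∃ f : K, f = b₂ + b₄ * s + b₆ * q := ⟨_, rfl⟩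
  have heI : e ∈ v.integer := by
    rw [he]; apply_rules [Subring.add_mem, Subring.sub_mem, Subring.mul_mem, Subring.pow_mem, ofNat_mem]
  have hfI : f ∈ v.integer := by
    rw [hf]; apply_rules [Subring.add_mem, Subring.sub_mem, Subring.mul_mem, Subring.pow_mem, ofNat_mem]
  have hve : v (q * e) < 1 := lt_of_le_of_lt (val_mul_le_left v heI) (hvq1.trans hvt)
  have hu : v (1 - q * e) = 1 := v.map_one_sub_of_lt hve
  have hu0 : 1 - q * e ≠ 0 := by
    intro h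
    rw [h, map_zero] at hu
    exact zero_ne_one hu
  have hd : xk - x ≠ 0 := sub_ne_zero.mpr hne
  have hRP : xk ^ 2 * x ^ 2 - b₄ * xk * x - b₆ * (xk + x) - b₈ =
      xk ^ 2 * x ^ 2 * (1 - q * e) := by
    rw [he, hq, hs, htk, ht]; field_simp; ring
  have hRS : 2 * xk * x * (xk + x) + b₂ * xk * x + b₄ * (xk + x) + b₆ =
      xk ^ 2 * x ^ 2 * (2 * s + q * f) := by
    rw [hf, hq, hs, htk, ht]; field_simp; ring
  have hxx : xk ^ 2 * x ^ 2 ≠ 0 := mul_ne_zero (pow_ne_zero 2 hxk0) (pow_ne_zero 2 hx0)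
  have hP0 : x₃ * x₄ ≠ 0 := by
    intro h0
    rw [h0, zero_mul, hRP] at hP
    exact mul_ne_zero hxx hu0 hP.symm
  have hx₃0 : x₃ ≠ 0 := left_ne_zero_of_mul hP0
  have hx₄0 : x₄ ≠ 0 := right_ne_zero_of_mul hP0
  refine ⟨hx₃0, ?_⟩
  have hcross : (2 * s + q * f) * (x₃ * x₄) = (1 - q * e) * (x₃ + x₄) := by
    have h1 : xk ^ 2 * x ^ 2 * ((2 * s + q * f) * (x₃ * x₄)) =
        xk ^ 2 * x ^ 2 * ((1 - q * e) * (x₃ + x₄)) := by
      have h2 : (2 * xk * x * (xk + x) + b₂ * xk * x + b₄ * (xk + x) + b₆) * (x₃ * x₄) =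
          (xk ^ 2 * x ^ 2 - b₄ * xk * x - b₆ * (xk + x) - b₈) * (x₃ + x₄) := by
        rw [← hS, ← hP]; ring
      rw [hRP, hRS] at h2
      linear_combination h2
    exact mul_left_cancel₀ hxx h1
  have h33 : x₃⁻¹ * x₃ = 1 := inv_mul_cancel₀ hx₃0
  have h44 : x₄⁻¹ * x₄ = 1 := inv_mul_cancel₀ hx₄0
  have key : x₃⁻¹ + x₄⁻¹ - 2 * s = q * (f + 2 * s * e) / (1 - q * e) := by
    rw [eq_div_iff hu0]
    linear_combination (-(x₃⁻¹ * x₄⁻¹)) * hcross +
      ((2 * s + q * f) * (x₄⁻¹ * x₄) - (1 - q * e) * x₄⁻¹) * h33 +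
      ((2 * s + q * f) - (1 - q * e) * x₃⁻¹ ) * h44
  have hdecomp : x₃⁻¹ - cp * t =
      (x₃⁻¹ + x₄⁻¹ - 2 * s) - (x₄⁻¹ - cm * t) + 2 * (tk - c * t) := by
    rw [hs]
    linear_combination (-t) * hc
  rw [hdecomp]
  refine v.map_add_lt (v.map_sub_lt ?_ hm) ?_
  · rw [key, map_div₀, hu, div_one]
    have hI : f + 2 * s * e ∈ v.integer := by
      apply_rules [Subring.add_mem, Subring.sub_mem, Subring.mul_mem, Subring.pow_mem, ofNat_mem]
    exact lt_of_le_of_lt (val_mul_le_left v hI) hvq1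
  · rw [map_mul]
    calc v 2 * v (tk - c * t) ≤ 1 * v (tk - c * t) := mul_le_mul' (val_ofNat_le_one v 2) le_rfl
      _ = v (tk - c * t) := one_mul _
      _ < v t := hk

end Val

section Points

variable {K : Type*} [Field K] {Γ₀ : Type*} [LinearOrderedCommGroupWithZero Γ₀]
  (v : Valuation K Γ₀) (W : WeierstrassCurve.Affine K)

/-- The `b`-invariants of `W` are `v`-integral. -/
structure BInt : Prop where
  b₂ : v W.b₂ ≤ 1
  b₄ : v W.b₄ ≤ 1
  b₆ : v W.b₆ ≤ 1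
  b₈ : v W.b₈ ≤ 1

variable {v W}

/-- A model with `v`-integral coefficients has `v`-integral `b`-invariants. -/
theorem BInt.of_a (h₁ : v W.a₁ ≤ 1) (h₂ : v W.a₂ ≤ 1) (h₃ : v W.a₃ ≤ 1) (h₄ : v W.a₄ ≤ 1)
    (h₆ : v W.a₆ ≤ 1) : BInt v W := by
  have h₁I : W.a₁ ∈ v.integer := h₁
  have h₂I : W.a₂ ∈ v.integer := h₂
  have h₃I : W.a₃ ∈ v.integer := h₃
  have h₄I : W.a₄ ∈ v.integer := h₄
  have h₆I : W.a₆ ∈ v.integer := h₆
  refine ⟨?_, ?_, ?_, ?_⟩
  · change W.b₂ ∈ v.integer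
    rw [WeierstrassCurve.b₂]
    apply_rules [Subring.add_mem, Subring.sub_mem, Subring.mul_mem, Subring.pow_mem, ofNat_mem]
  · change W.b₄ ∈ v.integer
    rw [WeierstrassCurve.b₄]
    apply_rules [Subring.add_mem, Subring.sub_mem, Subring.mul_mem, Subring.pow_mem, ofNat_mem]
  · change W.b₆ ∈ v.integer
    rw [WeierstrassCurve.b₆]
    apply_rules [Subring.add_mem, Subring.sub_mem, Subring.mul_mem, Subring.pow_mem, ofNat_mem]
  · change W.b₈ ∈ v.integer
    rw [WeierstrassCurve.b₈]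
    apply_rules [Subring.add_mem, Subring.sub_mem, Subring.mul_mem, Subring.pow_mem, ofNat_mem]

variable [DecidableEq K]

/-- `k • P` is affine with nonzero `x`-coordinate `xk`, and `1/xk ≡ k²/x` to higher order. -/
def Est (v : Valuation K Γ₀) (W : WeierstrassCurve.Affine K) (P : W.Point) (x : K) (k : ℕ) :
    Prop :=
  ∃ xk, HasXc W (k • P) xk ∧ xk ≠ 0 ∧ v (xk⁻¹ - (k : K) ^ 2 * x⁻¹) < v x⁻¹

variable {P : W.Point} {x : K}

theorem psi_ne_zero_of_two_nsmul_ne_zero (hP : HasXc W P x) (h2 : 2 • P ≠ 0) :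
    4 * x ^ 3 + W.b₂ * x ^ 2 + 2 * W.b₄ * x + W.b₆ ≠ 0 := by
  obtain ⟨y, hy, rfl⟩ := hP
  intro hD
  have heq := (W.equation_iff x y).mp hy.1
  have hB : 4 * x ^ 3 + W.b₂ * x ^ 2 + 2 * W.b₄ * x + W.b₆ = (y - W.negY x y) ^ 2 := by
    simp only [WeierstrassCurve.b₂, WeierstrassCurve.b₄, WeierstrassCurve.b₆, negY]
    linear_combination (-4 : K) * heq
  rw [hB] at hD
  have hyy : y = W.negY x y := sub_eq_zero.mp (pow_eq_zero_iff (two_ne_zero) |>.mp hD)
  apply h2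
  rw [two_nsmul]
  exact Point.add_self_of_Y_eq hyy

theorem psi_eq_zero_of_two_nsmul_eq_zero (hP : HasXc W P x) (h2 : 2 • P = 0) :
    4 * x ^ 3 + W.b₂ * x ^ 2 + 2 * W.b₄ * x + W.b₆ = 0 := by
  by_contra hD
  obtain ⟨x', hx', -⟩ := hasXc_two_nsmul hP hD
  exact hx'.ne_zero h2

theorem est_one (hP : HasXc W P x) (hx : 1 < v x) : Est v W P x 1 := by
  have hx0 : x ≠ 0 := by
    rintro rfl
    simp at hx
  refine ⟨x, by rw [one_nsmul]; exact hP, hx0, ?_⟩
  have : x⁻¹ - ((1 : ℕ) : K) ^ 2 * x⁻¹ = 0 := by push_cast; ring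
  rw [this, map_zero]
  exact zero_lt_iff.mpr ((v.ne_zero_iff).mpr (inv_ne_zero hx0))

theorem est_two (hW : BInt v W) (hP : HasXc W P x) (hx : 1 < v x) (h2 : 2 • P ≠ 0) :
    Est v W P x 2 := by
  have hD := psi_ne_zero_of_two_nsmul_ne_zero hP h2
  obtain ⟨x', hx', hform⟩ := hasXc_two_nsmul hP hD
  obtain ⟨hx'0, hv⟩ := dbl_est v hW.b₂ hW.b₄ hW.b₆ hW.b₈ hx hform
  refine ⟨x', hx', hx'0, ?_⟩
  have : ((2 : ℕ) : K) ^ 2 = 4 := by push_cast; norm_num
  rw [this]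
  exact hv

theorem est_succ (hW : BInt v W) (hP : HasXc W P x) (hx : 1 < v x) {k : ℕ}
    (hk0 : k • P ≠ 0) (hk2 : (k + 2) • P ≠ 0)
    (h1 : Est v W P x k) (h2 : Est v W P x (k + 1)) : Est v W P x (k + 2) := by
  obtain ⟨xl, hl, hxl0, hvl⟩ := h1
  obtain ⟨xm, hm, hxm0, hvm⟩ := h2
  have hne : xm ≠ x := by
    rintro rfl
    rcases hm.eq_or_eq_neg hP with hc | hc
    · apply hk0
      have e1 : (k + 1) • P = k • P + P := succ_nsmul _ _
      rw [hc] at e1
      have e2 : k • P + P = 0 + P := by rw [zero_add]; exact e1.symm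
      exact add_right_cancel e2
    · apply hk2
      have e1 : (k + 2) • P = (k + 1) • P + P := succ_nsmul _ _
      rw [e1, hc, neg_add_cancel]
  obtain ⟨x₃, x₄, h₃, h₄, hS, hPi⟩ := hasXc_add_sub hm hP hne
  have e3 : (k + 1) • P + P = (k + 2) • P := (succ_nsmul _ _).symm
  have e4 : (k + 1) • P - P = k • P := by rw [succ_nsmul, add_sub_cancel_right]
  rw [e3] at h₃
  rw [e4] at h₄
  have hx4 : x₄ = xl := h₄.unique hl
  subst hx4
  have hcv : v (((k + 1 : ℕ) : K) ^ 2) ≤ 1 := by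
    rw [map_pow]; exact pow_le_one' (val_natCast_le_one v _) 2
  have hc : ((k + 2 : ℕ) : K) ^ 2 + ((k : ℕ) : K) ^ 2 = 2 + 2 * ((k + 1 : ℕ) : K) ^ 2 := by
    push_cast; ring
  obtain ⟨hx₃0, hv₃⟩ := step_est v hW.b₂ hW.b₄ hW.b₆ hW.b₈ hx hxm0 hcv hvm hvl hne hS hPi hc
  exact ⟨x₃, h₃, hx₃0, hv₃⟩

/-- The estimate along multiples, as long as no multiple vanishes. -/
theorem est_of_ne_zero (hW : BInt v W) (hP : HasXc W P x) (hx : 1 < v x) :
    ∀ k : ℕ, 1 ≤ k → (∀ j, 0 < j → j ≤ k → j • P ≠ 0) → Est v W P x k := by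
  have all : ∀ k : ℕ, 1 ≤ k → (∀ j, 0 < j → j ≤ k + 1 → j • P ≠ 0) →
      Est v W P x k ∧ Est v W P x (k + 1) := by
    intro k hk1
    induction k, hk1 using Nat.le_induction with
    | base =>
      intro hne
      exact ⟨est_one hP hx, est_two hW hP hx (hne 2 (by norm_num) (by norm_num))⟩
    | succ k hk1 ih =>
      intro hne
      obtain ⟨ihk, ihk1⟩ := ih (fun j hj0 hjk => hne j hj0 (by omega))
      exact ⟨ihk1, est_succ hW hP hx (hne k (by omega) (by omega))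
        (hne (k + 2) (by omega) (by omega)) ihk ihk1⟩
  intro k hk hne
  rcases Nat.lt_or_ge k 2 with h | h
  · have : k = 1 := by omega
    subst this
    exact est_one hP hx
  · obtain ⟨j, rfl⟩ : ∃ j, k = j + 1 := ⟨k - 1, by omega⟩
    exact (all j (by omega) hne).2

/-- The order of a nonzero torsion point of the kernel of reduction is a non-unit. -/
theorem val_addOrderOf_lt_one (hW : BInt v W) (hP : HasXc W P x) (hx : 1 < v x)
    (hm : addOrderOf P ≠ 0) : v ((addOrderOf P : ℕ) : K) < 1 := by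
  have hx0 : x ≠ 0 := by
    rintro rfl
    simp at hx
  have hvt0 : v x⁻¹ ≠ 0 := (v.ne_zero_iff).mpr (inv_ne_zero hx0)
  obtain ⟨m, hmdef⟩ : ∃ m : ℕ, m = addOrderOf P := ⟨_, rfl⟩
  rw [← hmdef] at hm ⊢
  have hm1 : m ≠ 1 := by
    intro h
    rw [hmdef] at h
    exact hP.ne_zero (AddMonoid.addOrderOf_eq_one_iff.mp h)
  have hmP : m • P = 0 := by rw [hmdef]; exact addOrderOf_nsmul_eq_zero P
  have hlt : ∀ j, 0 < j → j < m → j • P ≠ 0 := fun j hj0 hjm =>
    nsmul_ne_zero_of_lt_addOrderOf hj0.ne' (by rw [← hmdef]; exact hjm)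
  rcases Nat.lt_or_ge m 3 with hm3 | hm3
  · have hm2 : m = 2 := by omega
    subst hm2
    have hD := psi_eq_zero_of_two_nsmul_eq_zero hP hmP
    have := val_two_lt_one_of_dbl_zero v hW.b₂ hW.b₄ hW.b₆ hx hD
    simpa using this
  · obtain ⟨xb, hb, -, hvb⟩ := est_of_ne_zero hW hP hx (m - 1) (by omega)
      (fun j hj0 hjk => hlt j hj0 (by omega))
    obtain ⟨x₂, h₂, -, hv₂⟩ := est_of_ne_zero hW hP hx 2 (by omega)
      (fun j hj0 hjk => hlt j hj0 (by omega))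
    obtain ⟨xa, ha, -, hva⟩ := est_of_ne_zero hW hP hx (m - 2) (by omega)
      (fun j hj0 hjk => hlt j hj0 (by omega))
    -- `(m-1) P = -P`
    have eb : xb = x := by
      have e1 : m • P = (m - 1) • P + P := by
        have : m = m - 1 + 1 := by omega
        conv_lhs => rw [this]
        exact succ_nsmul _ _
      rw [hmP] at e1
      have e2 : (m - 1) • P = -P := eq_neg_of_add_eq_zero_left e1.symm
      rw [e2] at hb
      exact hb.unique hP.neg
    -- `(m-2) P = -(2 P)`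
    have ea : xa = x₂ := by
      have e1 : m • P = (m - 2) • P + 2 • P := by
        have : m = m - 2 + 2 := by omega
        conv_lhs => rw [this]
        exact add_nsmul _ _ _
      rw [hmP] at e1
      have e2 : (m - 2) • P = -(2 • P) := eq_neg_of_add_eq_zero_left e1.symm
      rw [e2] at ha
      exact ha.unique h₂.neg
    have c1 : ((m - 1 : ℕ) : K) = (m : K) - 1 := by
      rw [Nat.cast_sub (by omega)]; simp
    have c2 : ((m - 2 : ℕ) : K) = (m : K) - 2 := by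
      rw [Nat.cast_sub (by omega)]; simp
    have r1 : v ((m : K) * ((m : K) - 2)) < 1 := by
      rw [eb, c1] at hvb
      have : x⁻¹ - ((m : K) - 1) ^ 2 * x⁻¹ = (-((m : K) * ((m : K) - 2))) * x⁻¹ := by ring
      rw [this, map_mul] at hvb
      have h' := lt_one_of_mul_lt hvb
      rwa [Valuation.map_neg] at h'
    have r2 : v ((m : K) * ((m : K) - 4)) < 1 := by
      rw [ea, c2] at hva
      have h4 : ((2 : ℕ) : K) ^ 2 = 4 := by push_cast; norm_num
      rw [h4] at hv₂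
      have hdiff : v ((x₂⁻¹ - 4 * x⁻¹) - (x₂⁻¹ - ((m : K) - 2) ^ 2 * x⁻¹)) < v x⁻¹ :=
        v.map_sub_lt hv₂ hva
      have : (x₂⁻¹ - 4 * x⁻¹) - (x₂⁻¹ - ((m : K) - 2) ^ 2 * x⁻¹) =
          ((m : K) * ((m : K) - 4)) * x⁻¹ := by ring
      rw [this, map_mul] at hdiff
      exact lt_one_of_mul_lt hdiff
    by_contra hcon
    have hm1' : v (m : K) = 1 := le_antisymm (val_natCast_le_one v m) (not_lt.mp hcon)
    rw [map_mul, hm1', one_mul] at r1 r2
    have r3 : v (2 : K) < 1 := by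
      have : (2 : K) = ((m : K) - 2) - ((m : K) - 4) := by ring
      rw [this]
      exact v.map_sub_lt r1 r2
    have r4 : v (m : K) < 1 := by
      have : (m : K) = ((m : K) - 2) + 2 := by ring
      rw [this]
      exact v.map_add_lt r1 r3
    exact hcon r4

/-- **Multiples in the kernel of reduction.** `W` with `v`-integral `b`-invariants, `P` affine
with `1 < v (x P)`. For every `k : ℕ`: if `k • P = 0` then `v k < 1`; if `k • P` is affine with
`x`-coordinate `x'` then `x' ≠ 0` and `v (x'⁻¹ - k² x⁻¹) < v x⁻¹`. -/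
theorem nsmul_kernel (hW : BInt v W) (hP : HasXc W P x) (hx : 1 < v x) (k : ℕ) :
    (k • P = 0 → v (k : K) < 1) ∧
    (∀ x', HasXc W (k • P) x' → x' ≠ 0 ∧ v (x'⁻¹ - (k : K) ^ 2 * x⁻¹) < v x⁻¹) := by
  have hx0 : x ≠ 0 := by
    rintro rfl
    simp at hx
  have hvt0 : v x⁻¹ ≠ 0 := (v.ne_zero_iff).mpr (inv_ne_zero hx0)
  have hvtpos : 0 < v x⁻¹ := zero_lt_iff.mpr hvt0
  rcases Nat.eq_zero_or_pos (addOrderOf P) with hm | hm
  · -- infinite order
    have hne : ∀ j : ℕ, 0 < j → j • P ≠ 0 := addOrderOf_eq_zero_iff'.mp hm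
    rcases Nat.eq_zero_or_pos k with hk | hk
    · subst hk
      refine ⟨fun _ => by simp, fun x' hx' => ?_⟩
      exact absurd (zero_nsmul P) hx'.ne_zero
    · refine ⟨fun h => absurd h (hne k hk), fun x' hx' => ?_⟩
      obtain ⟨xk, hk', hxk0, hvk⟩ := est_of_ne_zero hW hP hx k hk (fun j hj0 _ => hne j hj0)
      have : x' = xk := hx'.unique hk'
      subst this
      exact ⟨hxk0, hvk⟩
  · -- finite order `m`
    have hvm : v ((addOrderOf P : ℕ) : K) < 1 := val_addOrderOf_lt_one hW hP hx hm.ne'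
    obtain ⟨m, hmdef⟩ : ∃ m : ℕ, m = addOrderOf P := ⟨_, rfl⟩
    rw [← hmdef] at hm hvm
    have hlt : ∀ j, 0 < j → j < m → j • P ≠ 0 := fun j hj0 hjm =>
      nsmul_ne_zero_of_lt_addOrderOf hj0.ne' (by rw [← hmdef]; exact hjm)
    have hmod : (k % m) • P = k • P := by rw [hmdef]; exact mod_addOrderOf_nsmul P k
    have hrm : k % m < m := Nat.mod_lt _ hm
    have hkdecomp : (k : K) = (m : K) * ((k / m : ℕ) : K) + ((k % m : ℕ) : K) := by
      rw [← Nat.cast_mul, ← Nat.cast_add, Nat.div_add_mod]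
    have hvmq : v ((m : K) * ((k / m : ℕ) : K)) < 1 :=
      lt_of_le_of_lt (val_mul_le_left v (val_natCast_le_one v _)) hvm
    constructor
    · intro hk0
      have hr0 : k % m = 0 := by
        by_contra hr
        exact hlt (k % m) (Nat.pos_of_ne_zero hr) hrm (hmod.trans hk0)
      rw [hkdecomp, hr0, Nat.cast_zero, add_zero]
      exact hvmq
    · intro x' hx'
      rw [← hmod] at hx'
      have hr0 : 0 < k % m := by
        by_contra hr
        have h0 : k % m = 0 := by omega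
        rw [h0, zero_nsmul] at hx'
        exact hx'.ne_zero rfl
      obtain ⟨xr, hr', hxr0, hvr⟩ := est_of_ne_zero hW hP hx (k % m) hr0
        (fun j hj0 hjr => hlt j hj0 (by omega))
      have hxe : x' = xr := hx'.unique hr'
      subst hxe
      refine ⟨hxr0, ?_⟩
      have hsplit : x'⁻¹ - (k : K) ^ 2 * x⁻¹ =
          (x'⁻¹ - ((k % m : ℕ) : K) ^ 2 * x⁻¹) -
            ((m : K) * ((k / m : ℕ) : K)) * ((k : K) + ((k % m : ℕ) : K)) * x⁻¹ := by
        linear_combination (-(x⁻¹ * ((k : K) + ((k % m : ℕ) : K)))) * hkdecomp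
      have hkr : v ((k : K) + ((k % m : ℕ) : K)) ≤ 1 :=
        v.map_add_le (val_natCast_le_one v _) (val_natCast_le_one v _)
      have hsmall : v (((m : K) * ((k / m : ℕ) : K)) * ((k : K) + ((k % m : ℕ) : K)) * x⁻¹) <
          v x⁻¹ := by
        rw [map_mul]
        calc v ((m : K) * ((k / m : ℕ) : K) * ((k : K) + ((k % m : ℕ) : K))) * v x⁻¹
            < 1 * v x⁻¹ :=
              mul_lt_mul_of_pos_right (lt_of_le_of_lt (val_mul_le_left v hkr) hvmq) hvtpos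
          _ = v x⁻¹ := one_mul _
      rw [hsplit]
      exact v.map_sub_lt hvr hsmall

/-- The kernel of reduction is stable under multiples. -/
theorem one_lt_val_of_hasXc_nsmul (hW : BInt v W) (hP : HasXc W P x) (hx : 1 < v x) {k : ℕ}
    {x' : K} (hx' : HasXc W (k • P) x') : 1 < v x' := by
  obtain ⟨hx'0, hv⟩ := (nsmul_kernel hW hP hx k).2 x' hx'
  have hvt : v x⁻¹ < 1 := by
    rw [map_inv₀]
    exact inv_lt_one_of_one_lt₀ hx
  have h1 : v x'⁻¹ ≤ v x⁻¹ := by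
    have e : x'⁻¹ = (x'⁻¹ - (k : K) ^ 2 * x⁻¹) + x⁻¹ * (k : K) ^ 2 := by ring
    rw [e]
    refine v.map_add_le hv.le (val_mul_le_left v ?_)
    rw [map_pow]
    exact pow_le_one' (val_natCast_le_one v k) 2
  have h2 : v x'⁻¹ < 1 := lt_of_le_of_lt h1 hvt
  rw [map_inv₀] at h2
  exact (inv_lt_one₀ (zero_lt_iff.mpr ((v.ne_zero_iff).mpr hx'0))).mp h2

/-- Along multiples by `v`-units the valuation of the `x`-coordinate is constant. -/
theorem exists_hasXc_nsmul_val_eq (hW : BInt v W) (hP : HasXc W P x) (hx : 1 < v x) {k : ℕ}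
    (hk : v (k : K) = 1) : ∃ x', HasXc W (k • P) x' ∧ v x' = v x := by
  have hne : k • P ≠ 0 := fun h => by
    have h' := (nsmul_kernel hW hP hx k).1 h
    rw [hk] at h'
    exact lt_irrefl _ h'
  obtain ⟨x', hx'⟩ := exists_hasXc_of_ne_zero hne
  refine ⟨x', hx', ?_⟩
  obtain ⟨hx'0, hv⟩ := (nsmul_kernel hW hP hx k).2 x' hx'
  have hk2 : v ((k : K) ^ 2 * x⁻¹) = v x⁻¹ := by
    rw [map_mul, map_pow, hk, one_pow, one_mul]
  have hinv : v x'⁻¹ = v x⁻¹ := by
    have e : x'⁻¹ = (k : K) ^ 2 * x⁻¹ + (x'⁻¹ - (k : K) ^ 2 * x⁻¹) := by ring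
    rw [e, v.map_add_eq_of_lt_left (by rw [hk2]; exact hv), hk2]
  rw [map_inv₀, map_inv₀] at hinv
  exact inv_injective hinv

/-- Same, for a given `x`-coordinate of the multiple. -/
theorem val_eq_of_hasXc_nsmul (hW : BInt v W) (hP : HasXc W P x) (hx : 1 < v x) {k : ℕ}
    (hk : v (k : K) = 1) {x' : K} (hx' : HasXc W (k • P) x') : v x' = v x := by
  obtain ⟨x'', hx'', hv⟩ := exists_hasXc_nsmul_val_eq hW hP hx hk
  rw [hx'.unique hx'']
  exact hv

/-- The kernel of reduction has no torsion of order prime to the residue characteristic. -/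
theorem val_natCast_lt_one_of_nsmul_eq_zero (hW : BInt v W) (hP : HasXc W P x) (hx : 1 < v x)
    {n : ℕ} (hn : n • P = 0) : v (n : K) < 1 :=
  (nsmul_kernel hW hP hx n).1 hn

/-- Torsion points of order prime to the residue characteristic have integral `x`. -/
theorem val_le_one_of_nsmul_eq_zero (hW : BInt v W) {n : ℕ} (hn : v (n : K) = 1)
    (hnP : n • P = 0) (hP : HasXc W P x) : v x ≤ 1 := by
  by_contra hcon
  have h' := val_natCast_lt_one_of_nsmul_eq_zero hW hP (not_le.mp hcon) hnP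
  rw [hn] at h'
  exact lt_irrefl _ h'

/-- `Point.some` form of `val_le_one_of_nsmul_eq_zero`. -/
theorem torsion_integral (hW : BInt v W) {n : ℕ} (hn : v (n : K) = 1) {x y : K}
    (h : W.Nonsingular x y) (hnP : n • Point.some x y h = 0) : v x ≤ 1 :=
  val_le_one_of_nsmul_eq_zero hW hn hnP (hasXc_some h)

/-- Integer multiples in the kernel of reduction. -/
theorem zsmul_kernel (hW : BInt v W) (hP : HasXc W P x) (hx : 1 < v x) (k : ℤ) :
    (k • P = 0 → v (k : K) < 1) ∧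
    (∀ x', HasXc W (k • P) x' → x' ≠ 0 ∧ v (x'⁻¹ - (k : K) ^ 2 * x⁻¹) < v x⁻¹) := by
  obtain ⟨h1, h2⟩ := nsmul_kernel hW hP hx k.natAbs
  rcases Int.natAbs_eq k with h | h
  · have hc : (k : K) = ((k.natAbs : ℕ) : K) := by
      conv_lhs => rw [h]
      exact Int.cast_natCast _
    have hs : k • P = k.natAbs • P := by
      conv_lhs => rw [h]
      exact natCast_zsmul _ _
    rw [hc, hs]
    exact ⟨h1, h2⟩
  · have hc : (k : K) = -((k.natAbs : ℕ) : K) := by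
      conv_lhs => rw [h]
      rw [Int.cast_neg, Int.cast_natCast]
    have hs : k • P = -(k.natAbs • P) := by
      conv_lhs => rw [h]
      rw [neg_zsmul, natCast_zsmul]
    rw [hc, hs]
    refine ⟨fun h0 => ?_, fun x' hx' => ?_⟩
    · rw [Valuation.map_neg]
      exact h1 (neg_eq_zero.mp h0)
    · have hx'' : HasXc W (k.natAbs • P) x' := by
        have := hx'.neg
        rwa [neg_neg] at this
      rw [neg_sq]
      exact h2 x' hx''

/-- The kernel of reduction is stable under integer multiples. -/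
theorem one_lt_val_of_hasXc_zsmul (hW : BInt v W) (hP : HasXc W P x) (hx : 1 < v x) {k : ℤ}
    {x' : K} (hx' : HasXc W (k • P) x') : 1 < v x' := by
  rcases Int.natAbs_eq k with h | h
  · have hs : k • P = k.natAbs • P := by
      conv_lhs => rw [h]
      exact natCast_zsmul _ _
    rw [hs] at hx'
    exact one_lt_val_of_hasXc_nsmul hW hP hx hx'
  · have hs : k • P = -(k.natAbs • P) := by
      conv_lhs => rw [h]
      rw [neg_zsmul, natCast_zsmul]
    rw [hs] at hx'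
    have hx'' : HasXc W (k.natAbs • P) x' := by
      have := hx'.neg
      rwa [neg_neg] at this
    exact one_lt_val_of_hasXc_nsmul hW hP hx hx''

end Points

end Fermat.Agent.Lib.KerRedGen
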