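import Mathlib

set_option autoImplicit false
set_option linter.unusedSectionVars false
set_option linter.unusedVariables false

namespace Fermat.Agent.Lib.KummerDescent

open Finset

section Abstract

variable {O : Type*} [CommRing O] [IsDomain O]

/-- geometric sums `1 + ζ + … + ζ^(k-1)` -/
noncomputable def gs (ζ : O) (k : ℕ) : O := ∑ i ∈ range k, ζ ^ i

lemma gs_mul (ζ : O) (k : ℕ) : (ζ - 1) * gs ζ k = ζ ^ k - 1 := mul_geom_sum ζ k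

lemma gs_zero (ζ : O) : gs ζ 0 = 0 := by simp [gs]

lemma gs_add (ζ : O) (j k : ℕ) : gs ζ (j + k) = gs ζ j + ζ ^ j * gs ζ k := by
  simp [gs, sum_range_add, pow_add, mul_sum]

lemma gs_two (ζ : O) : gs ζ 2 = 1 + ζ := by
  simp [gs, sum_range_succ]

lemma gs_isUnit {p : ℕ} {ζ : O} (hζ : IsPrimitiveRoot ζ p) (hp : p.Prime) {k : ℕ}
    (hk0 : 0 < k) (hkp : k < p) : IsUnit (gs ζ k) :=
  hζ.geom_sum_isUnit hp.two_le
    ((Nat.Prime.coprime_iff_not_dvd hp).2 (Nat.not_dvd_of_pos_of_lt hk0 hkp)).symm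

lemma sub_one_dvd_gs_sub (ζ : O) (k : ℕ) : (ζ - 1) ∣ gs ζ k - (k : O) := by
  induction k with
  | zero => simp [gs_zero]
  | succ k ih =>
    have h1 : gs ζ (k + 1) - ((k + 1 : ℕ) : O) = (gs ζ k - (k : O)) + (ζ ^ k - 1) := by
      simp [gs, sum_range_succ]; ring
    rw [h1]
    exact dvd_add ih ⟨gs ζ k, (gs_mul ζ k).symm⟩

lemma prod_add_pow_mul {p : ℕ} {ζ : O} (hζ : IsPrimitiveRoot ζ p) (hodd : Odd p) (x y : O) :
    ∏ k ∈ range p, (x + ζ ^ k * y) = x ^ p + y ^ p := by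
  have h := X_pow_sub_C_eq_prod hζ hodd.pos (α := -y) (a := -(y ^ p)) (hodd.neg_pow y)
  have h2 := congrArg (Polynomial.eval x) h
  simp only [Polynomial.eval_sub, Polynomial.eval_pow, Polynomial.eval_X, Polynomial.eval_C,
    Polynomial.eval_prod] at h2
  rw [sub_neg_eq_add] at h2
  rw [h2]
  refine prod_congr rfl fun k _ => by ring

variable {p : ℕ} {ζ : O}

lemma not_dvd_right_of_isCoprime (hπ : Prime (ζ - 1)) {x y : O} (hxy : IsCoprime x y)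
    (hdvd : (ζ - 1) ∣ x + y) : ¬ (ζ - 1) ∣ y := fun h =>
  hπ.not_isUnit (hxy.isUnit_of_dvd' ((dvd_add_left h).1 hdvd) h)

lemma exists_normalized (hp : p.Prime) (hπ : Prime (ζ - 1)) (hπp : (ζ - 1) ∣ (p : O))
    (hint : ∀ a : O, ∃ n : ℤ, (ζ - 1) ∣ a - n)
    {x y : O} (hxy : IsCoprime x y) (hdvd : (ζ - 1) ∣ x + y) :
    ∃ k : ℕ, (ζ - 1) ^ 2 ∣ x + ζ ^ k * y := by
  have hy : ¬ (ζ - 1) ∣ y := not_dvd_right_of_isCoprime hπ hxy hdvd
  obtain ⟨s, hs⟩ := hdvd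
  obtain ⟨ns, hns⟩ := hint s
  obtain ⟨ny, hny⟩ := hint y
  have hpny : ¬ (p : ℤ) ∣ ny := fun h => hy (by
    have h3 : (ζ - 1) ∣ (ny : O) := by
      obtain ⟨c, rfl⟩ := h
      push_cast
      exact Dvd.dvd.mul_right hπp _
    simpa using dvd_add hny h3)
  obtain ⟨u, v, huv⟩ : IsCoprime ny (p : ℤ) :=
    ((Nat.prime_iff_prime_int.1 hp).coprime_iff_not_dvd.2 hpny).symm
  obtain ⟨t, ht⟩ : ∃ t : ℤ, t = -ns * u := ⟨_, rfl⟩
  have hk : (((t % p).toNat : ℕ) : ℤ) = t % p :=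
    Int.toNat_of_nonneg (Int.emod_nonneg _ (by exact_mod_cast hp.ne_zero))
  obtain ⟨k, hk'⟩ : ∃ k : ℕ, k = (t % p).toNat := ⟨_, rfl⟩
  rw [← hk'] at hk
  have hdiv : (p : ℤ) ∣ ns + k * ny := by
    refine ⟨ns * v - (t / p) * ny, ?_⟩
    rw [hk, Int.emod_def, ht]
    linear_combination (-ns) * huv
  refine ⟨k, ?_⟩
  have h1 : x + ζ ^ k * y = (ζ - 1) * (s + gs ζ k * y) := by
    have := gs_mul ζ k
    linear_combination hs - y * this
  rw [h1, pow_two]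
  refine mul_dvd_mul_left _ ?_
  have h2 : s + gs ζ k * y = (s - ns) + (gs ζ k - k) * y + k * (y - ny)
      + ((ns + k * ny : ℤ) : O) := by push_cast; ring
  rw [h2]
  refine dvd_add (dvd_add (dvd_add hns (Dvd.dvd.mul_right (sub_one_dvd_gs_sub ζ k) _))
    (Dvd.dvd.mul_left hny _)) ?_
  obtain ⟨c, hc⟩ := hdiv
  rw [hc]; push_cast; exact Dvd.dvd.mul_right hπp _


lemma descent_step [IsPrincipalIdealRing O] (hp : p.Prime) (hp2 : p ≠ 2)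
    (hζ : IsPrimitiveRoot ζ p) (hπ : Prime (ζ - 1))
    (hpπ : Associated ((ζ - 1) ^ (p - 1)) (p : O))
    (hfrob : ∀ a : O, ∃ n : ℤ, (p : O) ∣ a ^ p - n)
    (hK : ∀ u : Oˣ, (∃ n : ℤ, (p : O) ∣ (u : O) - n) → ∃ v : Oˣ, u = v ^ p)
    {m : ℕ} {x y z : O} {ε : Oˣ} (hxy : IsCoprime x y) (hz : ¬ (ζ - 1) ∣ z)
    (h : x ^ p + y ^ p = ε * (ζ - 1) ^ (p * (m + 1)) * z ^ p)
    (hsq : (ζ - 1) ^ 2 ∣ x + y) :
    1 ≤ m ∧ ∃ (x' y' z' : O) (ε' : Oˣ), IsCoprime x' y' ∧ ¬ (ζ - 1) ∣ z' ∧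
      x' ^ p + y' ^ p = ε' * (ζ - 1) ^ (p * m) * z' ^ p := by
  have hπ0 : ζ - 1 ≠ 0 := hπ.ne_zero
  have hζp : ζ ^ p = 1 := hζ.pow_eq_one
  have hp3 : 3 ≤ p := by have := hp.two_le; omega
  obtain ⟨b0, hxyb, hπb0⟩ : ∃ b0, x + y = (ζ - 1) * b0 ∧ (ζ - 1) ∣ b0 := by
    obtain ⟨c, hc⟩ := hsq
    exact ⟨(ζ - 1) * c, by rw [hc]; ring, dvd_mul_right _ _⟩
  have hy : ¬ (ζ - 1) ∣ y := not_dvd_right_of_isCoprime hπ hxy ⟨b0, hxyb⟩
  obtain ⟨b, hb⟩ : ∃ b : ℕ → O, ∀ k, b k = b0 + gs ζ k * y := ⟨fun k => b0 + gs ζ k * y, fun _ => rfl⟩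
  have hB1 : ∀ k, x + ζ ^ k * y = (ζ - 1) * b k := fun k => by
    have := gs_mul ζ k
    rw [hb]; linear_combination hxyb - y * this
  have hb00 : b 0 = b0 := by simp [hb, gs_zero]
  have hB3 : ∀ k, 0 < k → k < p → ¬ (ζ - 1) ∣ b k := fun k hk0 hkp hdvd => by
    rw [hb] at hdvd
    have h1 : (ζ - 1) ∣ gs ζ k * y := (dvd_add_right hπb0).1 hdvd
    exact hy ((gs_isUnit hζ hp hk0 hkp).dvd_mul_left.1 h1)
  have hB4 : ∀ j k, j < k → k < p → IsCoprime (b j) (b k) := fun j k hjk hkp => by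
    obtain ⟨d, rfl⟩ := Nat.exists_eq_add_of_lt hjk
    have hw : IsUnit (ζ ^ j * gs ζ (d + 1)) :=
      ((hζ.isUnit hp.ne_zero).pow j).mul (gs_isUnit hζ hp (Nat.succ_pos d) (by omega))
    obtain ⟨w', hw'⟩ := hw.exists_left_inv
    have e1 : b (j + d + 1) - b j = ζ ^ j * gs ζ (d + 1) * y := by
      rw [hb, hb, add_assoc, gs_add]; ring
    have e2 : ζ ^ (j + d + 1) * b j - ζ ^ j * b (j + d + 1) = ζ ^ j * gs ζ (d + 1) * x := by
      apply mul_left_cancel₀ hπ0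
      have h1 := hB1 j
      have h2 := hB1 (j + d + 1)
      have h3 := gs_mul ζ (d + 1)
      have h4 : ζ ^ (j + d + 1) = ζ ^ j * ζ ^ (d + 1) := by rw [add_assoc, pow_add]
      linear_combination (ζ ^ j) * h2 - ζ ^ (j + d + 1) * h1 - (ζ ^ j * x) * h3 + x * h4
    obtain ⟨u, v, huv⟩ := hxy
    refine ⟨w' * (u * ζ ^ (j + d + 1) - v), w' * (v - u * ζ ^ j), ?_⟩
    linear_combination (w' * u) * e2 + (w' * v) * e1 + (u * x + v * y) * hw' + huv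
  have hodd : Odd p := hp.odd_of_ne_two hp2
  have hprod2 : (ζ - 1) ^ p * ∏ k ∈ range p, b k = ε * (ζ - 1) ^ (p * (m + 1)) * z ^ p := by
    rw [← h, ← prod_add_pow_mul hζ hodd x y]
    simp only [hB1]
    rw [prod_mul_distrib, prod_const, card_range]
  have hprod3 : ∏ k ∈ range p, b k = ε * (ζ - 1) ^ (p * m) * z ^ p := by
    apply mul_left_cancel₀ (pow_ne_zero p hπ0)
    rw [hprod2]; ring
  obtain ⟨P, hP⟩ : ∃ P, P = ∏ k ∈ (range p).erase 0, b k := ⟨_, rfl⟩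
  have hb0P : b 0 * P = ε * (ζ - 1) ^ (p * m) * z ^ p := by
    rw [hP, mul_prod_erase _ _ (mem_range.2 hp.pos), hprod3]
  have hπP : ¬ (ζ - 1) ∣ P := by
    rw [hP, hπ.dvd_finsetProd_iff]
    rintro ⟨k, hk, hdvd⟩
    rw [mem_erase, mem_range] at hk
    exact hB3 k (Nat.pos_of_ne_zero hk.1) hk.2 hdvd
  have hpow : (ζ - 1) ^ (p * m) ∣ b 0 := by
    refine hπ.pow_dvd_of_dvd_mul_right _ hπP ?_
    rw [hb0P]; exact Dvd.dvd.mul_right (dvd_mul_left _ _) _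
  obtain ⟨c, hc⟩ := hpow
  have hcP : c * P = ε * z ^ p := by
    apply mul_left_cancel₀ (pow_ne_zero (p * m) hπ0)
    rw [← mul_assoc, ← hc, hb0P]; ring
  have hπc : ¬ (ζ - 1) ∣ c := fun hdvd => hz (by
    have h5 : (ζ - 1) ∣ (ε : O) * z ^ p := hcP ▸ Dvd.dvd.mul_right hdvd P
    exact hπ.dvd_of_dvd_pow ((ε.isUnit.dvd_mul_left).1 h5))
  have hm : 1 ≤ m := by
    by_contra hm0
    have hm0' : m = 0 := by omega
    subst hm0'
    apply hπc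
    have h6 : b 0 = c := by rw [hc]; simp
    rw [← h6, hb00]; exact hπb0
  refine ⟨hm, ?_⟩
  have hB4' : ∀ j k, j < p → k < p → j ≠ k → IsCoprime (b j) (b k) := fun j k hj hk hjk => by
    rcases lt_or_gt_of_ne hjk with h' | h'
    · exact hB4 j k h' hk
    · exact (hB4 k j h' hj).symm
  have hcb : ∀ k, 0 < k → k < p → IsCoprime c (b k) := fun k hk0 hkp =>
    (hB4 0 k hk0 hkp).of_isCoprime_of_dvd_left ⟨(ζ - 1) ^ (p * m), by rw [hc]; ring⟩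
  have key : ∀ i, 0 < i → i < p → ∃ d, Associated (d ^ p) (b i) := fun i hi0 hip => by
    have hi : i ∈ (range p).erase 0 := mem_erase.2 ⟨hi0.ne', mem_range.2 hip⟩
    have hPi : b i * ∏ k ∈ ((range p).erase 0).erase i, b k = P := by
      rw [hP]; exact mul_prod_erase _ _ hi
    have hcop : IsCoprime (b i) (c * ∏ k ∈ ((range p).erase 0).erase i, b k) := by
      refine IsCoprime.mul_right (hcb i hi0 hip).symm (IsCoprime.prod_right fun k hk => ?_)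
      simp only [mem_erase, mem_range] at hk
      exact hB4' i k hip hk.2.2 (Ne.symm hk.1)
    refine exists_associated_pow_of_associated_pow_mul hcop (c := z) ?_
    have h7 : b i * (c * ∏ k ∈ ((range p).erase 0).erase i, b k) = z ^ p * ε := by
      rw [mul_left_comm, hPi, hcP]; ring
    rw [h7]; exact ⟨ε, rfl⟩
  have keyc : ∃ d, Associated (d ^ p) c := by
    have hcop : IsCoprime c P := by
      rw [hP]
      refine IsCoprime.prod_right fun k hk => ?_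
      simp only [mem_erase, mem_range] at hk
      exact hcb k (Nat.pos_of_ne_zero hk.1) hk.2
    refine exists_associated_pow_of_associated_pow_mul hcop (c := z) ?_
    rw [hcP, mul_comm]; exact ⟨ε, rfl⟩
  obtain ⟨ρ1, u1, h1⟩ := key 1 one_pos (by omega)
  obtain ⟨ρ2, u2, h2⟩ := key (p - 1) (by omega) (by omega)
  obtain ⟨ρ0, u0, h0⟩ := keyc
  have hrel : b 1 + ζ * b (p - 1) = (1 + ζ) * b 0 := by
    apply mul_left_cancel₀ hπ0
    have e1 := hB1 1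
    have e2 := hB1 (p - 1)
    have e0 := hB1 0
    have hζ' : ζ * ζ ^ (p - 1) = 1 := by rw [← pow_succ', Nat.sub_add_cancel hp.one_le, hζp]
    simp only [pow_one, pow_zero, one_mul] at e1 e0
    linear_combination y * hζ' - e1 - ζ * e2 + (1 + ζ) * e0
  obtain ⟨ζu, hζu⟩ := hζ.isUnit hp.ne_zero
  obtain ⟨g2, hg2⟩ := gs_isUnit hζ hp (k := 2) two_pos (by omega)
  have hg2' : (g2 : O) = 1 + ζ := by rw [hg2, gs_two]
  obtain ⟨η, hη⟩ : ∃ η : Oˣ, η = ζu * u2 * u1⁻¹ := ⟨_, rfl⟩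
  obtain ⟨ε', hε'⟩ : ∃ ε' : Oˣ, ε' = g2 * u0 * u1⁻¹ := ⟨_, rfl⟩
  have hE : ρ1 ^ p + η * ρ2 ^ p = ε' * (ζ - 1) ^ (p * m) * ρ0 ^ p := by
    have hu1 : (u1 : O) * ((u1⁻¹ : Oˣ) : O) = 1 := by simp
    rw [← h1, ← h2, hc, ← h0] at hrel
    simp only [hη, hε', Units.val_mul, hζu, hg2']
    linear_combination ((u1⁻¹ : Oˣ) : O) * hrel - ρ1 ^ p * hu1
  have hπp : (ζ - 1) ∣ (p : O) := (dvd_pow_self (ζ - 1) (by omega : p - 1 ≠ 0)).trans hpπ.dvd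
  have hpdvd : (p : O) ∣ ρ1 ^ p + η * ρ2 ^ p := by
    rw [hE]
    have h8 : (p : O) ∣ (ζ - 1) ^ (p * m) :=
      hpπ.symm.dvd.trans (pow_dvd_pow (ζ - 1) (by nlinarith [Nat.sub_le p 1]))
    exact Dvd.dvd.mul_right (Dvd.dvd.mul_left h8 _) _
  obtain ⟨n1, hn1⟩ := hfrob ρ1
  obtain ⟨n2, hn2⟩ := hfrob ρ2
  have hρ2 : ¬ (ζ - 1) ∣ ρ2 := fun hd => hB3 (p - 1) (by omega) (by omega) (by
    rw [← h2]; exact Dvd.dvd.mul_right (Dvd.dvd.pow hd hp.ne_zero) _)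
  have hpn2 : ¬ (p : ℤ) ∣ n2 := fun hd => hρ2 (by
    have h3 : (p : O) ∣ (n2 : O) := by
      obtain ⟨c, rfl⟩ := hd; push_cast; exact dvd_mul_right _ _
    have h4 : (p : O) ∣ ρ2 ^ p := by simpa using dvd_add hn2 h3
    exact hπ.dvd_of_dvd_pow (hπp.trans h4))
  obtain ⟨a', b', hab⟩ : IsCoprime n2 (p : ℤ) :=
    ((Nat.prime_iff_prime_int.1 hp).coprime_iff_not_dvd.2 hpn2).symm
  obtain ⟨v, hv⟩ := hK η ⟨-(n1 * a'), by
    obtain ⟨c1, hc1⟩ := hn1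
    obtain ⟨c2, hc2⟩ := hn2
    obtain ⟨c3, hc3⟩ := hpdvd
    have hab' : (a' : O) * n2 + b' * p = 1 := by exact_mod_cast congrArg (Int.cast : ℤ → O) hab
    refine ⟨a' * (c3 - η * c2 - c1) + b' * η, ?_⟩
    push_cast
    linear_combination (a' : O) * (hc3 - (η : O) * hc2 - hc1) - (η : O) * hab'⟩
  refine ⟨ρ1, v * ρ2, ρ0, ε', ?_, ?_, ?_⟩
  · have h12 : IsCoprime (b 1) (b (p - 1)) := hB4 1 (p - 1) (by omega) (by omega)
    have hd1 : ρ1 ∣ b 1 := by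
      rw [← h1]; exact Dvd.dvd.mul_right (dvd_pow_self ρ1 hp.ne_zero) _
    have hd2 : ρ2 ∣ b (p - 1) := by
      rw [← h2]; exact Dvd.dvd.mul_right (dvd_pow_self ρ2 hp.ne_zero) _
    have h9 : IsCoprime ρ1 ρ2 :=
      (h12.of_isCoprime_of_dvd_left hd1).of_isCoprime_of_dvd_right hd2
    exact (isCoprime_mul_unit_left_right v.isUnit _ _).2 h9
  · intro hd; apply hπc; rw [← h0]
    exact Dvd.dvd.mul_right (Dvd.dvd.pow hd hp.ne_zero) _
  · rw [mul_pow, ← Units.val_pow_eq_pow_val, ← hv]; exact hE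


theorem no_solution [IsPrincipalIdealRing O] (hp : p.Prime) (hp2 : p ≠ 2)
    (hζ : IsPrimitiveRoot ζ p) (hπ : Prime (ζ - 1))
    (hpπ : Associated ((ζ - 1) ^ (p - 1)) (p : O))
    (hint : ∀ a : O, ∃ n : ℤ, (ζ - 1) ∣ a - n)
    (hfrob : ∀ a : O, ∃ n : ℤ, (p : O) ∣ a ^ p - n)
    (hK : ∀ u : Oˣ, (∃ n : ℤ, (p : O) ∣ (u : O) - n) → ∃ v : Oˣ, u = v ^ p) :
    ∀ (m : ℕ) (x y z : O) (ε : Oˣ), IsCoprime x y → ¬ (ζ - 1) ∣ z →
      x ^ p + y ^ p ≠ ε * (ζ - 1) ^ (p * (m + 1)) * z ^ p := by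
  have hπp : (ζ - 1) ∣ (p : O) :=
    (dvd_pow_self (ζ - 1) (by have := hp.two_le; omega : p - 1 ≠ 0)).trans hpπ.dvd
  have hnorm : ∀ (m : ℕ) (x y z : O) (ε : Oˣ), IsCoprime x y → ¬ (ζ - 1) ∣ z →
      x ^ p + y ^ p = ε * (ζ - 1) ^ (p * (m + 1)) * z ^ p →
      1 ≤ m ∧ ∃ (x' y' z' : O) (ε' : Oˣ), IsCoprime x' y' ∧ ¬ (ζ - 1) ∣ z' ∧
        x' ^ p + y' ^ p = ε' * (ζ - 1) ^ (p * m) * z' ^ p := by
    intro m x y z ε hxy hz h
    have hdvd : (ζ - 1) ∣ x + y := by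
      obtain ⟨r, hr⟩ := exists_add_pow_prime_eq hp x y
      have h1 : (ζ - 1) ∣ (x + y) ^ p := by
        rw [hr, h]
        refine dvd_add (Dvd.dvd.mul_right (Dvd.dvd.mul_left
          (dvd_pow_self (ζ - 1) (Nat.mul_ne_zero hp.ne_zero (Nat.succ_ne_zero m))) _) _)
          (Dvd.dvd.mul_right (Dvd.dvd.mul_right (Dvd.dvd.mul_right hπp _) _) _)
      exact hπ.dvd_of_dvd_pow h1
    obtain ⟨k, hk⟩ := exists_normalized hp hπ hπp hint hxy hdvd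
    have hu : IsUnit (ζ ^ k) := (hζ.isUnit hp.ne_zero).pow k
    have hxy' : IsCoprime x (ζ ^ k * y) := (isCoprime_mul_unit_left_right hu _ _).2 hxy
    have h' : x ^ p + (ζ ^ k * y) ^ p = ε * (ζ - 1) ^ (p * (m + 1)) * z ^ p := by
      rw [mul_pow, ← pow_mul, mul_comm k p, pow_mul, hζ.pow_eq_one, one_pow, one_mul, h]
    exact descent_step hp hp2 hζ hπ hpπ hfrob hK hxy' hz h' hk
  intro m
  induction m with
  | zero =>
    intro x y z ε hxy hz h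
    have := (hnorm 0 x y z ε hxy hz h).1
    omega
  | succ m ih =>
    intro x y z ε hxy hz h
    obtain ⟨-, x', y', z', ε', hxy', hz', h'⟩ := hnorm (m + 1) x y z ε hxy hz h
    exact ih x' y' z' ε' hxy' hz' h'

lemma exists_int_sub_dvd_of_adjoin (htop : Algebra.adjoin ℤ {ζ} = ⊤) (a : O) :
    ∃ n : ℤ, (ζ - 1) ∣ a - n := by
  have ha : a ∈ Algebra.adjoin ℤ {ζ} := htop ▸ Algebra.mem_top
  induction ha using Algebra.adjoin_induction with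
  | mem x hx =>
    rw [Set.mem_singleton_iff] at hx; subst hx; exact ⟨1, by simp⟩
  | algebraMap r => exact ⟨r, by simp⟩
  | add x y _ _ hx hy =>
    obtain ⟨n, hn⟩ := hx
    obtain ⟨m, hm⟩ := hy
    refine ⟨n + m, ?_⟩
    have h1 : x + y - ((n + m : ℤ) : O) = (x - n) + (y - m) := by push_cast; ring
    rw [h1]; exact dvd_add hn hm
  | mul x y _ _ hx hy =>
    obtain ⟨n, hn⟩ := hx
    obtain ⟨m, hm⟩ := hy
    refine ⟨n * m, ?_⟩
    have h1 : x * y - ((n * m : ℤ) : O) = (x - n) * y + n * (y - m) := by push_cast; ring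
    rw [h1]; exact dvd_add (Dvd.dvd.mul_right hn _) (Dvd.dvd.mul_left hm _)

lemma exists_int_pow_sub_dvd_of_adjoin (hp : p.Prime) (hζp : ζ ^ p = 1)
    (htop : Algebra.adjoin ℤ {ζ} = ⊤) (a : O) :
    ∃ n : ℤ, (p : O) ∣ a ^ p - n := by
  have ha : a ∈ Algebra.adjoin ℤ {ζ} := htop ▸ Algebra.mem_top
  induction ha using Algebra.adjoin_induction with
  | mem x hx =>
    rw [Set.mem_singleton_iff] at hx; subst hx; exact ⟨1, by simp [hζp]⟩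
  | algebraMap r => exact ⟨r ^ p, by simp⟩
  | add x y _ _ hx hy =>
    obtain ⟨n, c1, hn⟩ := hx
    obtain ⟨m, c2, hm⟩ := hy
    obtain ⟨r, hr⟩ := exists_add_pow_prime_eq hp x y
    refine ⟨n + m, c1 + c2 + x * y * r, ?_⟩
    push_cast
    linear_combination hr + hn + hm
  | mul x y _ _ hx hy =>
    obtain ⟨n, c1, hn⟩ := hx
    obtain ⟨m, c2, hm⟩ := hy
    refine ⟨n * m, c1 * y ^ p + n * c2, ?_⟩
    push_cast
    linear_combination y ^ p * hn + (n : O) * hm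

end Abstract



section Concrete

open NumberField

theorem caseII {p : ℕ} [hpF : Fact p.Prime] (hp2 : p ≠ 2) {K : Type*} [Field K] [NumberField K]
    [IsCyclotomicExtension {p} ℚ K] [IsPrincipalIdealRing (𝓞 K)]
    (hK : ∀ u : (𝓞 K)ˣ, (∃ n : ℤ, (p : 𝓞 K) ∣ (u : 𝓞 K) - n) → ∃ v : (𝓞 K)ˣ, u = v ^ p)
    {x y z : ℤ} (hxy : IsCoprime x y) (hz : z ≠ 0) (hpz : (p : ℤ) ∣ z) :
    x ^ p + y ^ p ≠ z ^ p := by
  intro h
  have hp : p.Prime := hpF.out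
  have hζ := IsCyclotomicExtension.zeta_spec p ℚ K
  have hζ' : IsPrimitiveRoot hζ.toInteger p := hζ.toInteger_isPrimitiveRoot
  have hπ : Prime (hζ.toInteger - 1) := hζ.zeta_sub_one_prime'
  have hpπ : Associated ((hζ.toInteger - 1) ^ (p - 1)) (p : 𝓞 K) :=
    IsCyclotomicExtension.Rat.associated_zeta_sub_one_pow_prime p hζ
  have htop : Algebra.adjoin ℤ {hζ.toInteger} = ⊤ := by
    rw [← hζ.integralPowerBasis_gen]; exact hζ.integralPowerBasis.adjoin_gen_eq_top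
  obtain ⟨k, z0, hz0, hzk⟩ : ∃ (k : ℕ) (z0 : ℤ), ¬ (p : ℤ) ∣ z0 ∧ z = (p : ℤ) ^ k * z0 := by
    have hfin : FiniteMultiplicity (p : ℤ) z :=
      Int.finiteMultiplicity_iff.2 ⟨by simpa using hp.ne_one, hz⟩
    obtain ⟨c, hc1, hc2⟩ := hfin.exists_eq_pow_mul_and_not_dvd
    exact ⟨_, c, hc2, hc1⟩
  have hk : 1 ≤ k := by
    by_contra hk0
    have hk0' : k = 0 := by omega
    subst hk0'
    rw [pow_zero, one_mul] at hzk
    exact hz0 (hzk ▸ hpz)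
  obtain ⟨u, hu⟩ := hpπ
  obtain ⟨m, hm⟩ : ∃ m, (p - 1) * k = m + 1 :=
    ⟨(p - 1) * k - 1, by
      have h1 : 1 ≤ (p - 1) * k := Nat.mul_pos (by have := hp.two_le; omega) hk
      omega⟩
  refine no_solution hp hp2 hζ' hπ ⟨u, hu⟩ (exists_int_sub_dvd_of_adjoin htop)
    (exists_int_pow_sub_dvd_of_adjoin hp hζ'.pow_eq_one htop) hK m (x : 𝓞 K) (y : 𝓞 K)
    (z0 : 𝓞 K) (u ^ (k * p)) (IsCoprime.intCast hxy) ?_ ?_
  · rw [IsCyclotomicExtension.Rat.zeta_sub_one_dvd_intCast_iff' p hζ]; exact hz0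
  · have h1 : ((x : 𝓞 K)) ^ p + (y : 𝓞 K) ^ p = (z : 𝓞 K) ^ p := by
      exact_mod_cast congrArg (Int.cast : ℤ → 𝓞 K) h
    rw [h1, hzk, ← hm]
    push_cast
    rw [← hu]
    ring

end Concrete

end Fermat.Agent.Lib.KummerDescent
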