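import Mathlib

set_option autoImplicit false

namespace Fermat.Agent.Lib.SophieGermain

open Finset

/-- The cofactor `(y ^ p + z ^ p) / (y + z)` for odd `p`. -/
def cof (p : ℕ) (y z : ℤ) : ℤ := ∑ i ∈ range p, y ^ i * (-z) ^ (p - 1 - i)

lemma cof_mul {p : ℕ} (hp : Odd p) (y z : ℤ) : cof p y z * (y + z) = y ^ p + z ^ p := by
  have h := geom_sum₂_mul y (-z) p
  rw [Odd.neg_pow hp] at h
  simpa [cof, sub_neg_eq_add] using h

lemma dvd_cof_sub (p : ℕ) (y z : ℤ) : (y + z) ∣ cof p y z - p * y ^ (p - 1) := by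
  have h1 : cof p y z - p * y ^ (p - 1)
      = ∑ i ∈ range p, y ^ i * ((-z) ^ (p - 1 - i) - y ^ (p - 1 - i)) := by
    have h2 : ∀ i ∈ range p, y ^ i * ((-z) ^ (p - 1 - i) - y ^ (p - 1 - i))
        = y ^ i * (-z) ^ (p - 1 - i) - y ^ (p - 1) := by
      intro i hi
      have hi' : i + (p - 1 - i) = p - 1 := by
        have := mem_range.mp hi
        omega
      rw [mul_sub, ← pow_add, hi']
    rw [sum_congr rfl h2, sum_sub_distrib, cof]
    simp
  rw [h1]
  refine dvd_sum fun i _ => Dvd.dvd.mul_left ?_ _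
  have h3 : (-z - y) ∣ (-z) ^ (p - 1 - i) - y ^ (p - 1 - i) := sub_dvd_pow_sub_pow _ _ _
  have h4 : (y + z) ∣ (-z - y) := ⟨-1, by ring⟩
  exact h4.trans h3

lemma cast_cof {R : Type*} [CommRing R] (p : ℕ) (y z : ℤ) (h : (z : R) = -(y : R)) :
    ((cof p y z : ℤ) : R) = p * (y : R) ^ (p - 1) := by
  obtain ⟨k, hk⟩ := dvd_cof_sub p y z
  have h1 : cof p y z = p * y ^ (p - 1) + (y + z) * k := by linarith
  rw [h1]
  push_cast
  rw [h]
  ring

lemma exists_pow_eq {p : ℕ} (hp : p.Prime) (hodd : Odd p) {x y z : ℤ} (hyz : IsCoprime y z)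
    (h : x ^ p + y ^ p + z ^ p = 0) (hpx : ¬ (p : ℤ) ∣ x) :
    ∃ A T : ℤ, y + z = A ^ p ∧ cof p y z = T ^ p := by
  have hmul : (y + z) * cof p y z = (-x) ^ p := by
    rw [mul_comm, cof_mul hodd, Odd.neg_pow hodd]
    linarith
  have hx0 : x ≠ 0 := by
    rintro rfl
    exact hpx (dvd_zero _)
  have hpp : Prime (p : ℤ) := Nat.prime_iff_prime_int.mp hp
  have hcop : IsCoprime (y + z) (cof p y z) := by
    apply isCoprime_of_prime_dvd
    · rintro ⟨h1, -⟩
      rw [h1, zero_mul] at hmul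
      exact hx0 (neg_eq_zero.mp (pow_eq_zero_iff hp.ne_zero |>.mp hmul.symm))
    · intro r hr hr1 hr2
      have hrp : Prime r := hr
      have h3 : r ∣ (p : ℤ) * y ^ (p - 1) := by
        have h4 : r ∣ cof p y z - p * y ^ (p - 1) := hr1.trans (dvd_cof_sub p y z)
        have h5 := dvd_sub hr2 h4
        simpa using h5
      rcases hrp.dvd_or_dvd h3 with h6 | h6
      · have h7 : Associated r (p : ℤ) := hrp.associated_of_dvd hpp h6
        have h8 : (p : ℤ) ∣ (-x) ^ p := by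
          rw [← hmul]
          exact (h7.symm.dvd.trans hr1).mul_right _
        exact hpx ((dvd_neg).mp (hpp.dvd_of_dvd_pow h8))
      · have h7 : r ∣ y := hrp.dvd_of_dvd_pow h6
        have h8 : r ∣ z := by
          have := dvd_sub hr1 h7
          simpa using this
        exact hrp.not_isUnit (hyz.isUnit_of_dvd' h7 h8)
  exact ⟨(Int.eq_pow_of_mul_eq_pow_odd_left hcop hodd hmul).choose,
    (Int.eq_pow_of_mul_eq_pow_odd_right hcop hodd hmul).choose,
    (Int.eq_pow_of_mul_eq_pow_odd_left hcop hodd hmul).choose_spec,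
    (Int.eq_pow_of_mul_eq_pow_odd_right hcop hodd hmul).choose_spec⟩

lemma core {p q : ℕ} (hodd : Odd p) (hq : q.Prime)
    (h1 : ∀ x y z : ZMod q, x ^ p + y ^ p + z ^ p = 0 → x = 0 ∨ y = 0 ∨ z = 0)
    (h2 : ∀ t : ZMod q, t ^ p ≠ (p : ZMod q))
    {x y z A B C T : ℤ} (hxy : IsCoprime x y) (hzx : IsCoprime z x)
    (hA : y + z = A ^ p) (hB : z + x = B ^ p) (hC : x + y = C ^ p) (hT : cof p y z = T ^ p)
    (hqx : (x : ZMod q) = 0) : False := by
  have : Fact q.Prime := ⟨hq⟩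
  have hqnu : ¬ IsUnit (q : ℤ) := (Nat.prime_iff_prime_int.mp hq).not_isUnit
  have hA' : (y : ZMod q) + z = (A : ZMod q) ^ p := by exact_mod_cast congrArg (Int.cast : ℤ → ZMod q) hA
  have hB' : (z : ZMod q) + x = (B : ZMod q) ^ p := by exact_mod_cast congrArg (Int.cast : ℤ → ZMod q) hB
  have hC' : (x : ZMod q) + y = (C : ZMod q) ^ p := by exact_mod_cast congrArg (Int.cast : ℤ → ZMod q) hC
  have hT' : ((cof p y z : ℤ) : ZMod q) = (T : ZMod q) ^ p := by exact_mod_cast congrArg (Int.cast : ℤ → ZMod q) hT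
  have hy0 : (y : ZMod q) ≠ 0 := by
    intro hy
    have e1 : (q : ℤ) ∣ x := (ZMod.intCast_zmod_eq_zero_iff_dvd x q).mp hqx
    have e2 : (q : ℤ) ∣ y := (ZMod.intCast_zmod_eq_zero_iff_dvd y q).mp hy
    exact hqnu (hxy.isUnit_of_dvd' e1 e2)
  have hz0 : (z : ZMod q) ≠ 0 := by
    intro hz
    have e1 : (q : ℤ) ∣ x := (ZMod.intCast_zmod_eq_zero_iff_dvd x q).mp hqx
    have e2 : (q : ℤ) ∣ z := (ZMod.intCast_zmod_eq_zero_iff_dvd z q).mp hz
    exact hqnu (hzx.isUnit_of_dvd' e2 e1)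
  have e1 : (B : ZMod q) ^ p + (C : ZMod q) ^ p + (-(A : ZMod q)) ^ p = 0 := by
    rw [Odd.neg_pow hodd, ← hA', ← hB', ← hC', hqx]
    ring
  rcases h1 _ _ _ e1 with hB0 | hC0 | hA0
  · rw [hB0, zero_pow hodd.pos.ne', hqx, add_zero] at hB'
    exact hz0 hB'
  · rw [hC0, zero_pow hodd.pos.ne', hqx, zero_add] at hC'
    exact hy0 hC'
  · rw [neg_eq_zero] at hA0
    rw [hA0, zero_pow hodd.pos.ne'] at hA'
    have hzy : (z : ZMod q) = -(y : ZMod q) := by
      rw [eq_neg_iff_add_eq_zero, add_comm]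
      exact hA'
    have hT2 : (T : ZMod q) ^ p = p * (y : ZMod q) ^ (p - 1) := by
      rw [← hT', cast_cof p y z hzy]
    have hyC : (y : ZMod q) = (C : ZMod q) ^ p := by
      rw [← hC', hqx, zero_add]
    have hC0 : (C : ZMod q) ≠ 0 := by
      intro hC0
      rw [hC0, zero_pow hodd.pos.ne'] at hyC
      exact hy0 hyC
    apply h2 ((T : ZMod q) * ((C : ZMod q) ^ (p - 1))⁻¹)
    rw [mul_pow, hT2, hyC, inv_pow, ← pow_mul, ← pow_mul, mul_comm (p - 1) p]
    exact mul_inv_cancel_right₀ (pow_ne_zero _ hC0) _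

/-- Generalised Sophie Germain theorem: the first case of Fermat's Last Theorem for the odd prime
exponent `p`, given an auxiliary prime `q` satisfying the two classical conditions. -/
theorem caseOne {p q : ℕ} (hp : p.Prime) (hp2 : p ≠ 2) (hq : q.Prime)
    (h1 : ∀ x y z : ZMod q, x ^ p + y ^ p + z ^ p = 0 → x = 0 ∨ y = 0 ∨ z = 0)
    (h2 : ∀ t : ZMod q, t ^ p ≠ (p : ZMod q))
    {x y z : ℤ} (hxy : IsCoprime x y) (hyz : IsCoprime y z) (hzx : IsCoprime z x)
    (h : x ^ p + y ^ p + z ^ p = 0) : (p : ℤ) ∣ x * y * z := by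
  have hodd : Odd p := hp.odd_of_ne_two hp2
  by_contra hnd
  have hpx : ¬ (p : ℤ) ∣ x := fun hd => hnd ((hd.mul_right y).mul_right z)
  have hpy : ¬ (p : ℤ) ∣ y := fun hd => hnd ((hd.mul_left x).mul_right z)
  have hpz : ¬ (p : ℤ) ∣ z := fun hd => hnd (hd.mul_left (x * y))
  obtain ⟨A, T, hA, hT⟩ := exists_pow_eq hp hodd hyz h hpx
  obtain ⟨B, T', hB, hT'⟩ := exists_pow_eq hp hodd hzx (x := y) (by linarith) hpy
  obtain ⟨C, T'', hC, hT''⟩ := exists_pow_eq hp hodd hxy (x := z) (by linarith) hpz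
  have hq0 : (x : ZMod q) ^ p + (y : ZMod q) ^ p + (z : ZMod q) ^ p = 0 := by
    exact_mod_cast congrArg (Int.cast : ℤ → ZMod q) h
  rcases h1 _ _ _ hq0 with hx | hy | hz
  · exact core hodd hq h1 h2 hxy hzx hA hB hC hT hx
  · exact core hodd hq h1 h2 hyz hxy hB hC hA hT' hy
  · exact core hodd hq h1 h2 hzx hyz hC hA hB hT'' hz

lemma h1_of {p q : ℕ} (S : Finset (ZMod q))
    (hS : ∀ x : ZMod q, x ≠ 0 → x ^ p ∈ S)
    (hsum : ∀ a ∈ S, ∀ b ∈ S, ∀ c ∈ S, a + b + c ≠ 0) :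
    ∀ x y z : ZMod q, x ^ p + y ^ p + z ^ p = 0 → x = 0 ∨ y = 0 ∨ z = 0 := by
  intro x y z h
  by_contra hcon
  rw [not_or, not_or] at hcon
  exact hsum _ (hS x hcon.1) _ (hS y hcon.2.1) _ (hS z hcon.2.2) h

/-- First case of Fermat's Last Theorem for exponent `5` (auxiliary prime `11`). -/
theorem caseOne_five {x y z : ℤ} (hxy : IsCoprime x y) (hyz : IsCoprime y z)
    (hzx : IsCoprime z x) (h : x ^ 5 + y ^ 5 + z ^ 5 = 0) : (5 : ℤ) ∣ x * y * z := by
  exact_mod_cast caseOne (p := 5) (q := 11) (by norm_num) (by norm_num) (by norm_num)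
    (h1_of {1, -1} (by decide) (by decide)) (by decide) hxy hyz hzx h

/-- First case of Fermat's Last Theorem for exponent `7` (auxiliary prime `29`). -/
theorem caseOne_seven {x y z : ℤ} (hxy : IsCoprime x y) (hyz : IsCoprime y z)
    (hzx : IsCoprime z x) (h : x ^ 7 + y ^ 7 + z ^ 7 = 0) : (7 : ℤ) ∣ x * y * z := by
  exact_mod_cast caseOne (p := 7) (q := 29) (by norm_num) (by norm_num) (by norm_num)
    (h1_of {1, -1, 12, -12} (by decide) (by decide)) (by decide) hxy hyz hzx h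

/-- First case of Fermat's Last Theorem for exponent `11` (auxiliary prime `23`). -/
theorem caseOne_eleven {x y z : ℤ} (hxy : IsCoprime x y) (hyz : IsCoprime y z)
    (hzx : IsCoprime z x) (h : x ^ 11 + y ^ 11 + z ^ 11 = 0) : (11 : ℤ) ∣ x * y * z := by
  exact_mod_cast caseOne (p := 11) (q := 23) (by norm_num) (by norm_num) (by norm_num)
    (h1_of {1, -1} (by decide) (by decide)) (by decide) hxy hyz hzx h

set_option maxRecDepth 100000 in
/-- First case of Fermat's Last Theorem for exponent `13` (auxiliary prime `53`). -/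
theorem caseOne_thirteen {x y z : ℤ} (hxy : IsCoprime x y) (hyz : IsCoprime y z)
    (hzx : IsCoprime z x) (h : x ^ 13 + y ^ 13 + z ^ 13 = 0) : (13 : ℤ) ∣ x * y * z := by
  exact_mod_cast caseOne (p := 13) (q := 53) (by norm_num) (by norm_num) (by norm_num)
    (h1_of {1, -1, 23, -23} (by decide) (by decide)) (by decide) hxy hyz hzx h

end Fermat.Agent.Lib.SophieGermain
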