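import Mathlib

set_option autoImplicit false

namespace Fermat.Agent.Lib.KummerCount

open Finset

section abstract

variable {G : Type*} [CommGroup G]

lemma prod_zpow_eq_zpow_sum' {ι : Type*} (s : Finset ι) (f : ι → ℤ) (a : G) :
    ∏ i ∈ s, a ^ f i = a ^ ∑ i ∈ s, f i := by
  classical
  induction s using Finset.induction_on with
  | empty => simp
  | insert i s hi ih => rw [Finset.prod_insert hi, Finset.sum_insert hi, zpow_add, ih]

lemma prod_pow_prod_zpow {ι κ : Type*} [Fintype ι] [Fintype κ] (e : ι → G) (M : κ → ι → ℤ)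
    (m : κ → ℕ) :
    ∏ j, (∏ i, e i ^ M j i) ^ m j = ∏ i, e i ^ ∑ j, (m j : ℤ) * M j i := by
  have h1 : ∀ j, (∏ i, e i ^ M j i) ^ m j = ∏ i, e i ^ ((m j : ℤ) * M j i) := by
    intro j
    rw [← Finset.prod_pow]
    refine Finset.prod_congr rfl fun i _ => ?_
    rw [← zpow_natCast, ← zpow_mul, mul_comm]
  simp_rw [h1]
  rw [Finset.prod_comm]
  refine Finset.prod_congr rfl fun i _ => ?_
  exact prod_zpow_eq_zpow_sum' _ _ _

/-- Abstract counting step: if `G` is generated by the family `e` (indexed by `ι`), `P` is a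
multiplicative predicate containing all `p`-th powers, and `c` is a family of the same size as `e`
which is "independent modulo `P`", then every element satisfying `P` is a `p`-th power. -/
theorem exists_pow_eq_of_indep {p : ℕ} [hp : Fact p.Prime] {ι κ : Type*} [Fintype ι] [Fintype κ]
    (hcard : Fintype.card κ = Fintype.card ι)
    (e : ι → G) (he : ∀ u : G, ∃ k : ι → ℤ, u = ∏ i, e i ^ k i)
    (P : G → Prop) (hmul : ∀ u v, P u → P v → P (u * v)) (hpow : ∀ u : G, P (u ^ p))
    (c : κ → G) (hC : ∀ m : κ → ℕ, P (∏ j, c j ^ m j) → ∀ j, p ∣ m j) :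
    ∀ u, P u → ∃ v : G, u = v ^ p := by
  classical
  choose M hM using fun j => he (c j)
  -- the linear map
  let T : (κ → ZMod p) →ₗ[ZMod p] (ι → ZMod p) :=
    { toFun := fun m i => ∑ j, m j * (M j i : ZMod p)
      map_add' := by
        intro m m'
        funext i
        simp [add_mul, Finset.sum_add_distrib]
      map_smul' := by
        intro a m
        funext i
        simp [Finset.mul_sum, mul_assoc] }
  have hTapp : ∀ (m : κ → ZMod p) (i : ι), T m i = ∑ j, m j * (M j i : ZMod p) := fun _ _ => rfl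
  have key : ∀ m : κ → ℕ, ∏ j, c j ^ m j = ∏ i, e i ^ ∑ j, (m j : ℤ) * M j i := by
    intro m
    rw [← prod_pow_prod_zpow]
    exact Finset.prod_congr rfl fun j _ => by rw [← hM j]
  have hval : ∀ (mb : κ → ZMod p) (i : ι),
      ((∑ j, ((mb j).val : ℤ) * M j i : ℤ) : ZMod p) = T mb i := by
    intro mb i
    rw [hTapp]
    push_cast
    refine Finset.sum_congr rfl fun j _ => ?_
    rw [ZMod.natCast_zmod_val]
  have hzero : ∀ mb : κ → ZMod p, (∀ j, p ∣ (mb j).val) → mb = 0 := by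
    intro mb h
    funext j
    have := (ZMod.natCast_eq_zero_iff (mb j).val p).mpr (h j)
    rwa [ZMod.natCast_zmod_val] at this
  have hinj : Function.Injective T := by
    rw [injective_iff_map_eq_zero]
    intro mb hmb
    apply hzero
    apply hC
    have h2 : ∀ i, ∃ k' : ℤ, ∑ j, ((mb j).val : ℤ) * M j i = p * k' := by
      intro i
      have h3 : ((∑ j, ((mb j).val : ℤ) * M j i : ℤ) : ZMod p) = 0 := by
        rw [hval, hmb]; rfl
      exact (ZMod.intCast_zmod_eq_zero_iff_dvd _ p).mp h3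
    choose k' hk' using h2
    rw [key]
    have h4 : ∏ i, e i ^ ∑ j, ((mb j).val : ℤ) * M j i = (∏ i, e i ^ k' i) ^ p := by
      rw [← Finset.prod_pow]
      refine Finset.prod_congr rfl fun i _ => ?_
      rw [hk' i, ← zpow_natCast, ← zpow_mul, mul_comm]
    rw [h4]
    exact hpow _
  have hsurj : Function.Surjective T := by
    have hfr : Module.finrank (ZMod p) (κ → ZMod p) = Module.finrank (ZMod p) (ι → ZMod p) := by
      simp [hcard]
    exact (LinearMap.injective_iff_surjective_of_finrank_eq_finrank hfr).mp hinj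
  intro u hu
  obtain ⟨k, rfl⟩ := he u
  obtain ⟨mb, hmb⟩ := hsurj (fun i => (k i : ZMod p))
  have h2 : ∀ i, ∃ k' : ℤ, ∑ j, ((mb j).val : ℤ) * M j i = k i + p * k' := by
    intro i
    have h3 : ((∑ j, ((mb j).val : ℤ) * M j i - k i : ℤ) : ZMod p) = 0 := by
      rw [Int.cast_sub, hval, hmb, sub_self]
    obtain ⟨k', hk'⟩ := (ZMod.intCast_zmod_eq_zero_iff_dvd _ p).mp h3
    exact ⟨k', by linarith⟩
  choose k' hk' using h2
  have h4 : ∏ j, c j ^ (mb j).val = (∏ i, e i ^ k i) * (∏ i, e i ^ k' i) ^ p := by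
    rw [key, ← Finset.prod_pow, ← Finset.prod_mul_distrib]
    refine Finset.prod_congr rfl fun i _ => ?_
    rw [hk' i, zpow_add, ← zpow_natCast, ← zpow_mul, mul_comm (k' i)]
  have h5 : mb = 0 := by
    apply hzero
    apply hC
    rw [h4]
    exact hmul _ _ hu (hpow _)
  have h6 : ∀ i, ∃ k'' : ℤ, k i = p * k'' := by
    intro i
    have h7 : ((k i : ℤ) : ZMod p) = 0 := by
      have := congrFun hmb i
      rw [h5, map_zero] at this
      exact this.symm
    exact (ZMod.intCast_zmod_eq_zero_iff_dvd _ p).mp h7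
  choose k'' hk'' using h6
  refine ⟨∏ i, e i ^ k'' i, ?_⟩
  rw [← Finset.prod_pow]
  refine Finset.prod_congr rfl fun i _ => ?_
  rw [hk'' i, ← zpow_natCast, ← zpow_mul, mul_comm]

end abstract

section numberfield

open NumberField

variable {p : ℕ} [hp : Fact p.Prime] {K : Type*} [Field K] [NumberField K]
  [IsCyclotomicExtension {p} ℚ K]

/-- In the ring of integers of the `p`-th cyclotomic field, every `p`-th power is congruent to a
rational integer modulo `p`. -/
lemma exists_int_sub_pow_prime_dvd (α : 𝓞 K) : ∃ n : ℤ, (p : 𝓞 K) ∣ α ^ p - n := by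
  have : NeZero p := ⟨hp.out.ne_zero⟩
  have hζ := IsCyclotomicExtension.zeta_spec p ℚ K
  have htop : Algebra.adjoin ℤ {hζ.toInteger} = ⊤ := by
    rw [← hζ.integralPowerBasis_gen]
    exact hζ.integralPowerBasis.adjoin_gen_eq_top
  have hmem : α ∈ Algebra.adjoin ℤ {hζ.toInteger} := htop ▸ Algebra.mem_top
  induction hmem using Algebra.adjoin_induction with
  | mem x hx =>
    rw [Set.mem_singleton_iff] at hx
    subst hx
    refine ⟨1, ?_⟩
    rw [hζ.toInteger_isPrimitiveRoot.pow_eq_one]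
    simp
  | algebraMap r => exact ⟨r ^ p, by simp⟩
  | add x y hx hy ihx ihy =>
    obtain ⟨n, hn⟩ := ihx
    obtain ⟨m, hm⟩ := ihy
    obtain ⟨r, hr⟩ := exists_add_pow_prime_eq hp.out x y
    refine ⟨n + m, ?_⟩
    have h1 : (x + y) ^ p - ((n + m : ℤ) : 𝓞 K)
        = (x ^ p - n) + (y ^ p - m) + p * (x * y * r) := by
      rw [hr]
      push_cast
      ring
    rw [h1]
    exact dvd_add (dvd_add hn hm) (dvd_mul_right _ _)
  | mul x y hx hy ihx ihy =>
    obtain ⟨n, hn⟩ := ihx
    obtain ⟨m, hm⟩ := ihy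
    refine ⟨n * m, ?_⟩
    have h1 : (x * y) ^ p - ((n * m : ℤ) : 𝓞 K) = (x ^ p - n) * y ^ p + n * (y ^ p - m) := by
      push_cast
      ring
    rw [h1]
    exact dvd_add (hn.mul_right _) (hm.mul_left _)

variable (K) in
lemma exists_generators : ∃ e : (Fin (Units.rank K) ⊕ Unit) → (𝓞 K)ˣ,
    ∀ u : (𝓞 K)ˣ, ∃ k : (Fin (Units.rank K) ⊕ Unit) → ℤ, u = ∏ i, e i ^ k i := by
  obtain ⟨g, hg⟩ := IsCyclic.exists_generator (α := Units.torsion K)
  refine ⟨Sum.elim (Units.fundSystem K) (fun _ => (g : (𝓞 K)ˣ)), fun u => ?_⟩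
  obtain ⟨⟨t, f⟩, h, -⟩ := Units.exist_unique_eq_mul_prod K u
  obtain ⟨n, hn⟩ := Subgroup.mem_zpowers_iff.mp (hg t)
  refine ⟨Sum.elim f (fun _ => n), ?_⟩
  rw [Fintype.prod_sum_type]
  simp only [Sum.elim_inl, Sum.elim_inr, Finset.univ_unique, Finset.prod_const,
    Finset.card_singleton, pow_one]
  rw [h, mul_comm]
  congr 1
  simp only at hn ⊢
  rw [← hn]
  simp

variable (p K) in
lemma card_generators (hp2 : p ≠ 2) :
    Fintype.card (Fin (Units.rank K) ⊕ Unit) = (p - 1) / 2 := by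
  have : NeZero p := ⟨hp.out.ne_zero⟩
  have h3 : 2 < p := lt_of_le_of_ne hp.out.two_le (Ne.symm hp2)
  have h1 : Fintype.card (InfinitePlace K) = (p - 1) / 2 := by
    rw [InfinitePlace.card_eq_nrRealPlaces_add_nrComplexPlaces,
      IsCyclotomicExtension.Rat.nrRealPlaces_eq_zero (n := p) K h3,
      IsCyclotomicExtension.Rat.nrComplexPlaces_eq_totient_div_two p K,
      Nat.totient_prime hp.out, zero_add]
  simp only [Fintype.card_sum, Fintype.card_fin, Fintype.card_unit, Units.rank, h1]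
  omega

/-- **Kummer's lemma from an explicit independence check.**  Let `c` be a family of `(p-1)/2`
units of the `p`-th cyclotomic field such that a monomial `∏ c_j ^ m_j` is congruent to a rational
integer modulo `p` only if `p` divides all the `m_j`.  Then every unit congruent to a rational
integer modulo `p` is a `p`-th power of a unit. -/
theorem kummer_lemma_of_indep (hp2 : p ≠ 2) {κ : Type*} [Fintype κ]
    (hκ : Fintype.card κ = (p - 1) / 2) (c : κ → (𝓞 K)ˣ)
    (hC : ∀ m : κ → ℕ,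
      (∃ n : ℤ, (p : 𝓞 K) ∣ ((∏ j, c j ^ m j : (𝓞 K)ˣ) : 𝓞 K) - n) → ∀ j, p ∣ m j)
    (u : (𝓞 K)ˣ) (hu : ∃ n : ℤ, (p : 𝓞 K) ∣ (u : 𝓞 K) - n) :
    ∃ v : (𝓞 K)ˣ, u = v ^ p := by
  obtain ⟨e, he⟩ := exists_generators K
  refine exists_pow_eq_of_indep (p := p) (hκ.trans (card_generators p K hp2).symm) e he
    (fun u : (𝓞 K)ˣ => ∃ n : ℤ, (p : 𝓞 K) ∣ (u : 𝓞 K) - n) ?_ ?_ c hC u hu
  · rintro u v ⟨n, hn⟩ ⟨m, hm⟩
    refine ⟨n * m, ?_⟩
    have h1 : ((u * v : (𝓞 K)ˣ) : 𝓞 K) - ((n * m : ℤ) : 𝓞 K)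
        = ((u : 𝓞 K) - n) * v + n * ((v : 𝓞 K) - m) := by
      push_cast
      ring
    rw [h1]
    exact dvd_add (hn.mul_right _) (hm.mul_left _)
  · intro u
    obtain ⟨n, hn⟩ := exists_int_sub_pow_prime_dvd (p := p) (u : 𝓞 K)
    exact ⟨n, by simpa using hn⟩

end numberfield

end Fermat.Agent.Lib.KummerCount
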