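import Mathlib
import Fermat.Agent.Lib.Kummer.Defs
import Fermat.Agent.Lib.KummerCount

set_option autoImplicit false

namespace Fermat.Agent.Lib.Kummer11

open Polynomial NumberField

/-- The truncated polynomial ring `𝔽₁₁[T]/(T^8)`. -/
abbrev TruncB : Type := (ZMod 11)[X] ⧸ Ideal.span {(X : (ZMod 11)[X]) ^ 8}

/-- The class of `X`. -/
noncomputable def tB : TruncB := Ideal.Quotient.mk _ X

lemma tB_pow : tB ^ 8 = 0 := by
  unfold tB
  rw [← map_pow]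
  exact Ideal.Quotient.eq_zero_iff_mem.mpr (Ideal.subset_span rfl)

lemma eleven_B : (11 : TruncB) = 0 := by
  have h : ((11 : ℕ) : (ZMod 11)[X]) = 0 := CharP.cast_eq_zero _ 11
  have := congrArg (Ideal.Quotient.mk (Ideal.span {(X : (ZMod 11)[X]) ^ 8})) h
  rw [map_natCast, map_zero] at this
  exact_mod_cast this

/-- The `j`-th coefficient functional on `TruncB`. -/
noncomputable def coeffB (j : Fin 8) : TruncB →+ ZMod 11 :=
  QuotientAddGroup.lift (Ideal.span {(X : (ZMod 11)[X]) ^ 8}).toAddSubgroup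
    ((Polynomial.lcoeff (ZMod 11) j).toAddMonoidHom) (by
      intro f hf
      obtain ⟨g, rfl⟩ := Ideal.mem_span_singleton.mp hf
      simp only [AddMonoidHom.mem_ker, LinearMap.toAddMonoidHom_coe, lcoeff_apply]
      rw [coeff_X_pow_mul']
      simp [Nat.not_le.mpr j.isLt])

lemma coeffB_mk (j : Fin 8) (f : (ZMod 11)[X]) :
    coeffB j (Ideal.Quotient.mk _ f) = f.coeff j := rfl

lemma coeffB_tB_pow (j : Fin 8) (k : ℕ) :
    coeffB j (tB ^ k) = if (j : ℕ) = k then 1 else 0 := by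
  unfold tB
  rw [← map_pow, coeffB_mk, coeff_X_pow]

lemma coeffB_natCast_mul_tB_pow (j : Fin 8) (n k : ℕ) :
    coeffB j ((n : TruncB) * tB ^ k) = if (j : ℕ) = k then (n : ZMod 11) else 0 := by
  rw [← nsmul_eq_mul, map_nsmul, coeffB_tB_pow]
  split_ifs <;> simp

section LogDer

variable {B : Type*} [CommRing B]

/-- Logarithmic derivative on units of the dual numbers. -/
noncomputable def logDer (x : (DualNumber B)ˣ) : B :=
  TrivSqZeroExt.snd (x : DualNumber B) * TrivSqZeroExt.fst ((x⁻¹ : (DualNumber B)ˣ) : DualNumber B)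

lemma fst_mul_fst_inv (x : (DualNumber B)ˣ) :
    TrivSqZeroExt.fst (x : DualNumber B) *
      TrivSqZeroExt.fst ((x⁻¹ : (DualNumber B)ˣ) : DualNumber B) = 1 := by
  rw [← TrivSqZeroExt.fst_mul, Units.mul_inv, TrivSqZeroExt.fst_one]

lemma logDer_one : logDer (1 : (DualNumber B)ˣ) = 0 := by
  simp [logDer]

lemma logDer_mul (x y : (DualNumber B)ˣ) : logDer (x * y) = logDer x + logDer y := by
  have hx := fst_mul_fst_inv x
  have hy := fst_mul_fst_inv y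
  simp only [logDer, Units.val_mul, mul_inv_rev, TrivSqZeroExt.snd_mul, TrivSqZeroExt.fst_mul,
    smul_eq_mul, MulOpposite.smul_eq_mul_unop, MulOpposite.unop_op]
  linear_combination
    (TrivSqZeroExt.snd (y : DualNumber B) * TrivSqZeroExt.fst ((y⁻¹ : (DualNumber B)ˣ) : DualNumber B)) * hx
    + (TrivSqZeroExt.snd (x : DualNumber B) * TrivSqZeroExt.fst ((x⁻¹ : (DualNumber B)ˣ) : DualNumber B)) * hy

/-- `logDer` as a monoid hom into `Multiplicative B`. -/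
noncomputable def logDerHom : (DualNumber B)ˣ →* Multiplicative B where
  toFun x := Multiplicative.ofAdd (logDer x)
  map_one' := by rw [logDer_one]; rfl
  map_mul' x y := by rw [logDer_mul]; rfl

lemma logDer_eq_of_snd_eq (x : (DualNumber B)ˣ) (c : B)
    (h : TrivSqZeroExt.snd (x : DualNumber B) = TrivSqZeroExt.fst (x : DualNumber B) * c) :
    logDer x = c := by
  have hx := fst_mul_fst_inv x
  unfold logDer
  rw [h]
  linear_combination c * hx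

end LogDer

section Hom

variable {A : Type*} [CommRing A]

lemma geom_eleven (s : A) :
    ∑ i ∈ Finset.range 11, (1 + s) ^ i
      = s ^ 10 + 11 * (1 + 5 * s + 15 * s ^ 2 + 30 * s ^ 3 + 42 * s ^ 4 + 42 * s ^ 5 + 30 * s ^ 6
          + 15 * s ^ 7 + 5 * s ^ 8 + s ^ 9) := by
  simp only [Finset.sum_range_succ, Finset.sum_range_zero]
  ring

variable {K : Type*} [Field K] [NumberField K]

lemma prime_eleven : Nat.Prime 11 := by norm_num

lemma minpoly_toInteger {ζ : K} (hζ : IsPrimitiveRoot ζ 11) :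
    minpoly ℤ hζ.toInteger = ∑ i ∈ Finset.range 11, (X : ℤ[X]) ^ i := by
  have : Fact (Nat.Prime 11) := ⟨prime_eleven⟩
  rw [← RingOfIntegers.minpoly_coe]
  have h1 : (hζ.toInteger : K) = ζ := rfl
  rw [h1, ← cyclotomic_eq_minpoly hζ (by norm_num), cyclotomic_prime ℤ 11]

variable [IsCyclotomicExtension {11} ℚ K]

/-- The ring hom `𝓞 K → A` sending `ζ` to `t`, when `Φ₁₁(t) = 0`. -/
noncomputable def evalHom {ζ : K} (hζ : IsPrimitiveRoot ζ 11) (t : A)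
    (ht : ∑ i ∈ Finset.range 11, t ^ i = 0) : 𝓞 K →ₐ[ℤ] A :=
  hζ.integralPowerBasis.lift t (by
    rw [IsPrimitiveRoot.integralPowerBasis_gen, minpoly_toInteger hζ]
    simpa using ht)

lemma evalHom_zeta {ζ : K} (hζ : IsPrimitiveRoot ζ 11) (t : A)
    (ht : ∑ i ∈ Finset.range 11, t ^ i = 0) : evalHom hζ t ht hζ.toInteger = t :=
  (congrArg (evalHom hζ t ht) (IsPrimitiveRoot.integralPowerBasis_gen hζ).symm).trans
    (hζ.integralPowerBasis.lift_gen t _)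

end Hom

/-- The element `1 + T + ε` of the dual numbers over `TruncB`. -/
noncomputable def tA : DualNumber TruncB := 1 + TrivSqZeroExt.inl tB + TrivSqZeroExt.inr 1

lemma fst_tA : TrivSqZeroExt.fst tA = 1 + tB := by simp [tA]

lemma snd_tA : TrivSqZeroExt.snd tA = 1 := by simp [tA]

lemma fst_tA_pow (n : ℕ) : TrivSqZeroExt.fst (tA ^ n) = (1 + tB) ^ n := by
  rw [TrivSqZeroExt.fst_pow, fst_tA]

lemma snd_tA_pow_succ (n : ℕ) : TrivSqZeroExt.snd (tA ^ (n + 1)) = (n + 1 : ℕ) * (1 + tB) ^ n := by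
  rw [TrivSqZeroExt.snd_pow, fst_tA, snd_tA]
  simp

lemma snd_tA_pow (n : ℕ) : TrivSqZeroExt.snd (tA ^ n) = (n : TruncB) * (1 + tB) ^ (n - 1) := by
  rw [TrivSqZeroExt.snd_pow, fst_tA, snd_tA]
  simp

lemma eleven_A : (11 : DualNumber TruncB) = 0 := by
  have h : ((11 : ℕ) : DualNumber TruncB) = 0 := by
    ext
    · rw [TrivSqZeroExt.fst_natCast, TrivSqZeroExt.fst_zero]
      exact_mod_cast eleven_B
    · rw [TrivSqZeroExt.snd_natCast, TrivSqZeroExt.snd_zero]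
  exact_mod_cast h

lemma tA_geom : ∑ i ∈ Finset.range 11, tA ^ i = 0 := by
  have h : tA = 1 + (TrivSqZeroExt.inl tB + TrivSqZeroExt.inr 1) := by rw [tA, add_assoc]
  rw [h]
  refine (geom_eleven (A := DualNumber TruncB) (TrivSqZeroExt.inl tB + TrivSqZeroExt.inr 1)).trans ?_
  rw [eleven_A, zero_mul, add_zero]
  ext
  · rw [TrivSqZeroExt.fst_pow]
    simp only [TrivSqZeroExt.fst_add, TrivSqZeroExt.fst_inl, TrivSqZeroExt.fst_inr, add_zero,
      TrivSqZeroExt.fst_zero]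
    linear_combination tB ^ 2 * tB_pow
  · rw [TrivSqZeroExt.snd_pow]
    simp only [TrivSqZeroExt.fst_add, TrivSqZeroExt.fst_inl, TrivSqZeroExt.fst_inr, add_zero,
      TrivSqZeroExt.snd_add, TrivSqZeroExt.snd_inl, TrivSqZeroExt.snd_inr, zero_add,
      TrivSqZeroExt.snd_zero, smul_eq_mul, mul_one, Nat.pred_eq_sub_one]
    have h9 : tB ^ (10 - 1) = 0 := by linear_combination tB * tB_pow
    rw [h9, smul_zero]

section Main

variable {K : Type*} [Field K] [NumberField K] [IsCyclotomicExtension {11} ℚ K]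

/-- The ring hom `𝓞 K → DualNumber TruncB`, `ζ ↦ 1 + T + ε`. -/
noncomputable def rhom {ζ : K} (hζ : IsPrimitiveRoot ζ 11) : 𝓞 K →ₐ[ℤ] DualNumber TruncB :=
  evalHom hζ tA tA_geom

lemma rhom_zeta {ζ : K} (hζ : IsPrimitiveRoot ζ 11) : rhom hζ hζ.toInteger = tA :=
  evalHom_zeta hζ tA tA_geom

/-- The logarithmic-derivative character on units. -/
noncomputable def Lam {ζ : K} (hζ : IsPrimitiveRoot ζ 11) : (𝓞 K)ˣ →* Multiplicative TruncB :=
  logDerHom.comp (Units.map ((rhom hζ : 𝓞 K →+* DualNumber TruncB) : 𝓞 K →* DualNumber TruncB))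

lemma Lam_apply {ζ : K} (hζ : IsPrimitiveRoot ζ 11) (u : (𝓞 K)ˣ) :
    Multiplicative.toAdd (Lam hζ u) =
      logDer (Units.map ((rhom hζ : 𝓞 K →+* DualNumber TruncB) : 𝓞 K →* DualNumber TruncB) u) :=
  rfl

lemma Lam_eq_zero_of_dvd {ζ : K} (hζ : IsPrimitiveRoot ζ 11) (u : (𝓞 K)ˣ) (m : ℤ)
    (h : (11 : 𝓞 K) ∣ (u : 𝓞 K) - m) : Multiplicative.toAdd (Lam hζ u) = 0 := by
  obtain ⟨w, hw⟩ := h
  have hu : (u : 𝓞 K) = m + 11 * w := by linear_combination hw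
  have h1 : rhom hζ (u : 𝓞 K) = (m : DualNumber TruncB) := by
    rw [hu, map_add, map_mul, map_intCast, map_ofNat, eleven_A, zero_mul, add_zero]
  rw [Lam_apply, logDer, Units.coe_map]
  have h2 : TrivSqZeroExt.snd (rhom hζ (u : 𝓞 K)) = 0 := by
    rw [h1, TrivSqZeroExt.snd_intCast]
  simp only [MonoidHom.coe_coe, RingHom.coe_coe]
  rw [h2, zero_mul]

lemma Lam_eq_of_snd_eq {ζ : K} (hζ : IsPrimitiveRoot ζ 11) (u : (𝓞 K)ˣ) (c : TruncB)
    (h : TrivSqZeroExt.snd (rhom hζ (u : 𝓞 K)) = TrivSqZeroExt.fst (rhom hζ (u : 𝓞 K)) * c) :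
    Multiplicative.toAdd (Lam hζ u) = c := by
  rw [Lam_apply]
  exact logDer_eq_of_snd_eq _ c h

end Main

/-- Coefficient table of the logarithmic derivatives. -/
def cTab : Fin 5 → Fin 8 → ℕ :=
  ![![1, 10, 1, 10, 1, 10, 1, 10], ![6, 8, 7, 2, 10, 6, 8, 7], ![1, 7, 0, 5, 6, 7, 2, 3], ![7, 8, 1, 8, 7, 6, 4, 0], ![2, 0, 10, 3, 0, 6, 5, 6]]

/-- The logarithmic derivatives of the basic units, as elements of `TruncB`. -/
noncomputable def cB (i : Fin 5) : TruncB := ∑ k : Fin 8, (cTab i k : TruncB) * tB ^ (k : ℕ)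

lemma coeffB_cB (i : Fin 5) (j : Fin 8) : coeffB j (cB i) = (cTab i j : ZMod 11) := by
  unfold cB
  rw [map_sum]
  simp only [coeffB_natCast_mul_tB_pow]
  rw [Finset.sum_eq_single j]
  · simp
  · intro b _ hb
    rw [if_neg]
    intro h
    exact hb (Fin.ext h.symm)
  · intro h
    exact absurd (Finset.mem_univ j) h

lemma cB_0 : cB 0 = ((1 : TruncB) + (10 : TruncB) * tB ^ 1 + (1 : TruncB) * tB ^ 2 + (10 : TruncB) * tB ^ 3 + (1 : TruncB) * tB ^ 4 + (10 : TruncB) * tB ^ 5 + (1 : TruncB) * tB ^ 6 + (10 : TruncB) * tB ^ 7) := by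
  simp [cB, cTab, Fin.sum_univ_succ]
  ring

lemma cB_1 : cB 1 = ((6 : TruncB) + (8 : TruncB) * tB ^ 1 + (7 : TruncB) * tB ^ 2 + (2 : TruncB) * tB ^ 3 + (10 : TruncB) * tB ^ 4 + (6 : TruncB) * tB ^ 5 + (8 : TruncB) * tB ^ 6 + (7 : TruncB) * tB ^ 7) := by
  simp [cB, cTab, Fin.sum_univ_succ]
  ring

lemma cB_2 : cB 2 = ((1 : TruncB) + (7 : TruncB) * tB ^ 1 + (5 : TruncB) * tB ^ 3 + (6 : TruncB) * tB ^ 4 + (7 : TruncB) * tB ^ 5 + (2 : TruncB) * tB ^ 6 + (3 : TruncB) * tB ^ 7) := by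
  simp [cB, cTab, Fin.sum_univ_succ]
  ring

lemma cB_3 : cB 3 = ((7 : TruncB) + (8 : TruncB) * tB ^ 1 + (1 : TruncB) * tB ^ 2 + (8 : TruncB) * tB ^ 3 + (7 : TruncB) * tB ^ 4 + (6 : TruncB) * tB ^ 5 + (4 : TruncB) * tB ^ 6) := by
  simp [cB, cTab, Fin.sum_univ_succ]
  ring

lemma cB_4 : cB 4 = ((2 : TruncB) + (10 : TruncB) * tB ^ 2 + (3 : TruncB) * tB ^ 3 + (6 : TruncB) * tB ^ 5 + (5 : TruncB) * tB ^ 6 + (6 : TruncB) * tB ^ 7) := by
  simp [cB, cTab, Fin.sum_univ_succ]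
  ring

section Main

variable {K : Type*} [Field K] [NumberField K] [IsCyclotomicExtension {11} ℚ K]

lemma Lam_zeta {ζ : K} (hζ : IsPrimitiveRoot ζ 11) (u : (𝓞 K)ˣ) (hu : (u : 𝓞 K) = hζ.toInteger) :
    Multiplicative.toAdd (Lam hζ u) = cB 0 := by
  apply Lam_eq_of_snd_eq
  rw [hu, rhom_zeta, fst_tA, snd_tA, cB_0]
  linear_combination ((-10 : TruncB)) * tB_pow + ((-1 : TruncB) * tB ^ 1 + (-1 : TruncB) * tB ^ 2 + (-1 : TruncB) * tB ^ 3 + (-1 : TruncB) * tB ^ 4 + (-1 : TruncB) * tB ^ 5 + (-1 : TruncB) * tB ^ 6 + (-1 : TruncB) * tB ^ 7) * eleven_B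

lemma Lam_geom_1 {ζ : K} (hζ : IsPrimitiveRoot ζ 11) (u : (𝓞 K)ˣ)
    (hu : (u : 𝓞 K) = ∑ j ∈ Finset.range (1 + 1), hζ.toInteger ^ j) :
    Multiplicative.toAdd (Lam hζ u) = cB 1 := by
  apply Lam_eq_of_snd_eq
  rw [hu, map_sum]
  simp only [map_pow, rhom_zeta]
  rw [TrivSqZeroExt.fst_sum, TrivSqZeroExt.snd_sum]
  simp only [fst_tA_pow, snd_tA_pow]
  simp only [Finset.sum_range_succ, Finset.sum_range_zero]
  norm_num
  rw [cB_1]
  linear_combination ((-7 : TruncB)) * tB_pow + ((-1 : TruncB) + (-2 : TruncB) * tB ^ 1 + (-2 : TruncB) * tB ^ 2 + (-1 : TruncB) * tB ^ 3 + (-2 : TruncB) * tB ^ 4 + (-2 : TruncB) * tB ^ 5 + (-2 : TruncB) * tB ^ 6 + (-2 : TruncB) * tB ^ 7) * eleven_B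

lemma Lam_geom_2 {ζ : K} (hζ : IsPrimitiveRoot ζ 11) (u : (𝓞 K)ˣ)
    (hu : (u : 𝓞 K) = ∑ j ∈ Finset.range (2 + 1), hζ.toInteger ^ j) :
    Multiplicative.toAdd (Lam hζ u) = cB 2 := by
  apply Lam_eq_of_snd_eq
  rw [hu, map_sum]
  simp only [map_pow, rhom_zeta]
  rw [TrivSqZeroExt.fst_sum, TrivSqZeroExt.snd_sum]
  simp only [fst_tA_pow, snd_tA_pow]
  simp only [Finset.sum_range_succ, Finset.sum_range_zero]
  norm_num
  rw [cB_2]
  linear_combination ((-11 : TruncB) + (-3 : TruncB) * tB ^ 1) * tB_pow + ((-2 : TruncB) * tB ^ 1 + (-2 : TruncB) * tB ^ 2 + (-2 : TruncB) * tB ^ 3 + (-3 : TruncB) * tB ^ 4 + (-4 : TruncB) * tB ^ 5 + (-3 : TruncB) * tB ^ 6 + (-2 : TruncB) * tB ^ 7) * eleven_B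

lemma Lam_geom_3 {ζ : K} (hζ : IsPrimitiveRoot ζ 11) (u : (𝓞 K)ˣ)
    (hu : (u : 𝓞 K) = ∑ j ∈ Finset.range (3 + 1), hζ.toInteger ^ j) :
    Multiplicative.toAdd (Lam hζ u) = cB 3 := by
  apply Lam_eq_of_snd_eq
  rw [hu, map_sum]
  simp only [map_pow, rhom_zeta]
  rw [TrivSqZeroExt.fst_sum, TrivSqZeroExt.snd_sum]
  simp only [fst_tA_pow, snd_tA_pow]
  simp only [Finset.sum_range_succ, Finset.sum_range_zero]
  norm_num
  rw [cB_3]
  linear_combination ((-22 : TruncB) + (-4 : TruncB) * tB ^ 1) * tB_pow + ((-2 : TruncB) + (-6 : TruncB) * tB ^ 1 + (-7 : TruncB) * tB ^ 2 + (-7 : TruncB) * tB ^ 3 + (-8 : TruncB) * tB ^ 4 + (-9 : TruncB) * tB ^ 5 + (-8 : TruncB) * tB ^ 6 + (-5 : TruncB) * tB ^ 7) * eleven_B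

lemma Lam_geom_4 {ζ : K} (hζ : IsPrimitiveRoot ζ 11) (u : (𝓞 K)ˣ)
    (hu : (u : 𝓞 K) = ∑ j ∈ Finset.range (4 + 1), hζ.toInteger ^ j) :
    Multiplicative.toAdd (Lam hζ u) = cB 4 := by
  apply Lam_eq_of_snd_eq
  rw [hu, map_sum]
  simp only [map_pow, rhom_zeta]
  rw [TrivSqZeroExt.fst_sum, TrivSqZeroExt.snd_sum]
  simp only [fst_tA_pow, snd_tA_pow]
  simp only [Finset.sum_range_succ, Finset.sum_range_zero]
  norm_num
  rw [cB_4]
  linear_combination ((-140 : TruncB) + (-91 : TruncB) * tB ^ 1 + (-35 : TruncB) * tB ^ 2 + (-6 : TruncB) * tB ^ 3) * tB_pow + ((-5 : TruncB) * tB ^ 2 + (-11 : TruncB) * tB ^ 3 + (-12 : TruncB) * tB ^ 4 + (-10 : TruncB) * tB ^ 5 + (-10 : TruncB) * tB ^ 6 + (-13 : TruncB) * tB ^ 7) * eleven_B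

lemma solve_lin (x : Fin 5 → ZMod 11)
    (hx : ∀ j : Fin 8, ∑ i : Fin 5, x i * (cTab i j : ZMod 11) = 0) : ∀ i, x i = 0 := by
  have h11 : (11 : ZMod 11) = 0 := by decide
  have e0 := hx 0
  have e1 := hx 1
  have e2 := hx 2
  have e3 := hx 3
  have e4 := hx 4
  have e5 := hx 5
  have e6 := hx 6
  have e7 := hx 7
  simp [Fin.sum_univ_succ, cTab] at e0 e1 e2 e3 e4 e5 e6 e7
  have r0 : x 0 = 0 := by
    linear_combination (exp := 1) (9 : ZMod 11) * e0 + (1 : ZMod 11) * e1 + (9 : ZMod 11) * e3 + (9 : ZMod 11) * e7 - ((18 : ZMod 11) * x 0 + (13 : ZMod 11) * x 1 + (8 : ZMod 11) * x 2 + (13 : ZMod 11) * x 3 + (9 : ZMod 11) * x 4) * h11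
  have r1 : x 1 = 0 := by
    linear_combination (exp := 1) (6 : ZMod 11) * e0 + (8 : ZMod 11) * e1 + (8 : ZMod 11) * e5 + (1 : ZMod 11) * e7 - ((16 : ZMod 11) * x 0 + (14 : ZMod 11) * x 1 + (11 : ZMod 11) * x 2 + (14 : ZMod 11) * x 3 + (6 : ZMod 11) * x 4) * h11
  have r2 : x 2 = 0 := by
    linear_combination (exp := 1) (7 : ZMod 11) * e0 + (7 : ZMod 11) * e1 + (1 : ZMod 11) * e3 + (5 : ZMod 11) * e5 + (5 : ZMod 11) * e7 - ((17 : ZMod 11) * x 0 + (15 : ZMod 11) * x 1 + (10 : ZMod 11) * x 2 + (13 : ZMod 11) * x 3 + (7 : ZMod 11) * x 4) * h11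
  have r3 : x 3 = 0 := by
    linear_combination (exp := 1) (4 : ZMod 11) * e1 + (3 : ZMod 11) * e3 + (4 : ZMod 11) * e7 - ((10 : ZMod 11) * x 0 + (6 : ZMod 11) * x 1 + (5 : ZMod 11) * x 2 + (5 : ZMod 11) * x 3 + (3 : ZMod 11) * x 4) * h11
  have r4 : x 4 = 0 := by
    linear_combination (exp := 1) (2 : ZMod 11) * e0 + (2 : ZMod 11) * e1 + (1 : ZMod 11) * e3 + (1 : ZMod 11) * e5 + (9 : ZMod 11) * e7 - ((12 : ZMod 11) * x 0 + (9 : ZMod 11) * x 1 + (5 : ZMod 11) * x 2 + (4 : ZMod 11) * x 3 + (6 : ZMod 11) * x 4) * h11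
  intro i
  fin_cases i
  · exact r0
  · exact r1
  · exact r2
  · exact r3
  · exact r4

/-- **Claim C.** A monomial in `ζ` and the cyclotomic units `1 + ζ + ⋯ + ζ^a`
that is congruent to a rational integer modulo `11` has all exponents divisible by `11`. -/
theorem claimC {ζ : K} (hζ : IsPrimitiveRoot ζ 11) (v : Fin 5 → (𝓞 K)ˣ)
    (h0 : (v 0 : 𝓞 K) = hζ.toInteger)
    (h1 : (v 1 : 𝓞 K) = ∑ j ∈ Finset.range (1 + 1), hζ.toInteger ^ j)
    (h2 : (v 2 : 𝓞 K) = ∑ j ∈ Finset.range (2 + 1), hζ.toInteger ^ j)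
    (h3 : (v 3 : 𝓞 K) = ∑ j ∈ Finset.range (3 + 1), hζ.toInteger ^ j)
    (h4 : (v 4 : 𝓞 K) = ∑ j ∈ Finset.range (4 + 1), hζ.toInteger ^ j)
    (e : Fin 5 → ℤ) (m : ℤ)
    (h : (11 : 𝓞 K) ∣ ((∏ i, v i ^ e i : (𝓞 K)ˣ) : 𝓞 K) - m) : ∀ i, (11 : ℤ) ∣ e i := by
  have hL := Lam_eq_zero_of_dvd hζ _ m h
  rw [map_prod] at hL
  simp only [map_zpow, toAdd_prod, toAdd_zpow] at hL
  have hLam : ∀ i : Fin 5, Multiplicative.toAdd (Lam hζ (v i)) = cB i := by
    intro i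
    fin_cases i
    · exact Lam_zeta hζ (v 0) h0
    · exact Lam_geom_1 hζ (v 1) h1
    · exact Lam_geom_2 hζ (v 2) h2
    · exact Lam_geom_3 hζ (v 3) h3
    · exact Lam_geom_4 hζ (v 4) h4
  simp only [hLam] at hL
  have key : ∀ j : Fin 8, ∑ i : Fin 5, (e i : ZMod 11) * (cTab i j : ZMod 11) = 0 := by
    intro j
    have := congrArg (coeffB j) hL
    rw [map_sum, map_zero] at this
    rw [← this]
    refine Finset.sum_congr rfl fun i _ => ?_
    rw [map_zsmul, zsmul_eq_mul, coeffB_cB]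
  intro i
  exact (ZMod.intCast_zmod_eq_zero_iff_dvd (e i) 11).mp (solve_lin (fun i => (e i : ZMod 11)) key i)

end Main

section Final

variable (K : Type*) [Field K] [NumberField K] [IsCyclotomicExtension {11} ℚ K]

/-- **Kummer's lemma for `p = 11`**: a unit of `ℤ[ζ₁₁]` congruent to a rational integer
modulo `11` is an `11`-th power of a unit. -/
theorem kummerLemma_eleven : Fermat.Agent.Lib.Kummer.KummerLemma 11 K := by
  have hfact : Fact (Nat.Prime 11) := ⟨prime_eleven⟩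
  have hζ := IsCyclotomicExtension.zeta_spec 11 ℚ K
  have hζ' := hζ.toInteger_isPrimitiveRoot
  have hu0 : IsUnit hζ.toInteger := hζ'.isUnit (by norm_num)
  have hu : ∀ a : ℕ, a < 4 → IsUnit (∑ j ∈ Finset.range (a + 1 + 1), hζ.toInteger ^ j) := by
    intro a ha
    refine hζ'.geom_sum_isUnit (by norm_num) ?_
    interval_cases a <;> norm_num
  let v : Fin 5 → (𝓞 K)ˣ := ![hu0.unit, (hu 0 (by norm_num)).unit, (hu 1 (by norm_num)).unit,
    (hu 2 (by norm_num)).unit, (hu 3 (by norm_num)).unit]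
  intro u hun
  refine Fermat.Agent.Lib.KummerCount.kummer_lemma_of_indep (p := 11) (K := K) (by norm_num)
    (κ := Fin 5) (by simp) v ?_ u hun
  rintro m ⟨n, hn⟩ j
  have h := claimC hζ v rfl rfl rfl rfl rfl (fun i => (m i : ℤ)) n (by
    simp only [zpow_natCast]
    exact_mod_cast hn)
  exact_mod_cast h j

end Final

end Fermat.Agent.Lib.Kummer11
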