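import Mathlib

set_option autoImplicit false

namespace Fermat.Agent.Lib.KummerFramework

open NumberField NumberField.Units Module

variable {K : Type*} [Field K] [NumberField K]

/-- If a group hom `D` from the units of a number field to an `𝔽_p`-vector space takes
`rank K + 1` linearly independent values, then every unit in its kernel is a `p`-th power. -/
theorem exists_pow_eq_of_map_eq_one (p : ℕ) [Fact p.Prime]
    {W : Type*} [AddCommGroup W] [Module (ZMod p) W]
    (D : (𝓞 K)ˣ →* Multiplicative W)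
    (g : Fin (rank K + 1) → (𝓞 K)ˣ)
    (hg : LinearIndependent (ZMod p) (fun i => Multiplicative.toAdd (D (g i))))
    (u : (𝓞 K)ˣ) (hu : D u = 1) : ∃ v : (𝓞 K)ˣ, u = v ^ p := by
  classical
  set d : (𝓞 K)ˣ → W := fun x => Multiplicative.toAdd (D x) with hd
  have d_mul : ∀ x y, d (x * y) = d x + d y := fun x y => by simp [hd]
  have d_zpow : ∀ (x : (𝓞 K)ˣ) (n : ℤ), d (x ^ n) = (n : ZMod p) • d x := fun x n => by
    simp only [hd, map_zpow, toAdd_zpow]
    exact (Int.cast_smul_eq_zsmul (ZMod p) n _).symm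
  have d_prod : ∀ (s : Finset (Fin (rank K))) (f : Fin (rank K) → (𝓞 K)ˣ),
      d (∏ i ∈ s, f i) = ∑ i ∈ s, d (f i) := fun s f => by
    simp [hd, map_prod, toAdd_prod]
  obtain ⟨t, ht⟩ := IsCyclic.exists_generator (α := torsion K)
  set b : Option (Fin (rank K)) → W :=
    fun o => o.elim (d (t : (𝓞 K)ˣ)) (fun i => d (fundSystem K i)) with hb
  -- every value of `d` lies in the span of `b`
  have key : ∀ x : (𝓞 K)ˣ, ∃ (k : ℤ) (e : Fin (rank K) → ℤ),
      x = (t : (𝓞 K)ˣ) ^ k * ∏ i, fundSystem K i ^ e i := by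
    intro x
    obtain ⟨⟨τ, e⟩, hx, -⟩ := exist_unique_eq_mul_prod K x
    obtain ⟨k, hk⟩ := Subgroup.mem_zpowers_iff.mp (ht τ)
    refine ⟨k, e, ?_⟩
    rw [hx]
    simp only
    rw [← hk]
    simp
  have d_key : ∀ (k : ℤ) (e : Fin (rank K) → ℤ),
      d ((t : (𝓞 K)ˣ) ^ k * ∏ i, fundSystem K i ^ e i) =
        ∑ o : Option (Fin (rank K)), (o.elim (k : ZMod p) (fun i => (e i : ZMod p))) • b o := by
    intro k e
    rw [d_mul, d_zpow, d_prod, Fintype.sum_option]
    simp only [hb, Option.elim_none, Option.elim_some, d_zpow]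
  have hspan : ∀ x, d x ∈ Submodule.span (ZMod p) (Set.range b) := by
    intro x
    obtain ⟨k, e, rfl⟩ := key x
    rw [d_key]
    exact Submodule.sum_mem _ fun o _ =>
      Submodule.smul_mem _ _ (Submodule.subset_span (Set.mem_range_self o))
  have hle : Submodule.span (ZMod p) (Set.range fun i => d (g i)) ≤
      Submodule.span (ZMod p) (Set.range b) := by
    rw [Submodule.span_le]
    rintro _ ⟨i, rfl⟩
    exact hspan (g i)
  have hfin : finrank (ZMod p) (Submodule.span (ZMod p) (Set.range fun i => d (g i))) =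
      rank K + 1 := by
    have := finrank_span_eq_card hg
    simpa using this
  have hb_li : LinearIndependent (ZMod p) b := by
    rw [linearIndependent_iff_card_eq_finrank_span]
    have h1 : (Set.range b).finrank (ZMod p) ≤ Fintype.card (Option (Fin (rank K))) :=
      finrank_range_le_card b
    have h2 : rank K + 1 ≤ (Set.range b).finrank (ZMod p) := by
      rw [← hfin]
      have : Module.Finite (ZMod p) (Submodule.span (ZMod p) (Set.range b)) :=
        FiniteDimensional.span_of_finite (ZMod p) (Set.finite_range b)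
      exact Submodule.finrank_mono hle
    simp only [Fintype.card_option, Fintype.card_fin] at h1 ⊢
    omega
  obtain ⟨k, e, rfl⟩ := key u
  have h0 : d ((t : (𝓞 K)ˣ) ^ k * ∏ i, fundSystem K i ^ e i) = 0 := by
    simp [hd, hu]
  rw [d_key] at h0
  have hz := Fintype.linearIndependent_iff.mp hb_li _ h0
  have hk : (p : ℤ) ∣ k := by
    have := hz none
    simpa [ZMod.intCast_zmod_eq_zero_iff_dvd] using this
  have he : ∀ i, (p : ℤ) ∣ e i := by
    intro i
    have := hz (some i)
    simpa [ZMod.intCast_zmod_eq_zero_iff_dvd] using this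
  obtain ⟨k', rfl⟩ := hk
  choose e' he' using he
  refine ⟨(t : (𝓞 K)ˣ) ^ k' * ∏ i, fundSystem K i ^ e' i, ?_⟩
  rw [mul_pow, ← Finset.prod_pow]
  congr 1
  · rw [← zpow_natCast, ← zpow_mul, mul_comm]
  · refine Finset.prod_congr rfl fun i _ => ?_
    rw [he' i, ← zpow_natCast (fundSystem K i ^ e' i), ← zpow_mul, mul_comm]

end Fermat.Agent.Lib.KummerFramework
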