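import Mathlib
import Fermat.Agent.Lib.KummerFramework

set_option autoImplicit false

namespace Fermat.Agent.Lib.LogDeriv

open NumberField Polynomial TrivSqZeroExt

section Dlog

variable {R : Type*} [CommRing R]

lemma fst_mul_fst_inv (x : (DualNumber R)ˣ) :
    fst (x : DualNumber R) * fst ((x⁻¹ : (DualNumber R)ˣ) : DualNumber R) = 1 := by
  rw [← fst_mul, Units.mul_inv, fst_one]

/-- The logarithmic derivative `a + bε ↦ b / a` on the units of the dual numbers. -/
noncomputable def dlog : (DualNumber R)ˣ →* Multiplicative R where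
  toFun x := Multiplicative.ofAdd
    (snd (x : DualNumber R) * fst ((x⁻¹ : (DualNumber R)ˣ) : DualNumber R))
  map_one' := by simp
  map_mul' x y := by
    have hx := fst_mul_fst_inv x
    have hy := fst_mul_fst_inv y
    rw [← ofAdd_add]
    congr 1
    simp only [Units.val_mul, mul_inv_rev, DualNumber.snd_mul, fst_mul]
    linear_combination
      (snd (y : DualNumber R) * fst ((y⁻¹ : (DualNumber R)ˣ) : DualNumber R)) * hx +
      (snd (x : DualNumber R) * fst ((x⁻¹ : (DualNumber R)ˣ) : DualNumber R)) * hy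

lemma toAdd_dlog_eq (x : (DualNumber R)ˣ) (d : R)
    (h : d * fst (x : DualNumber R) = snd (x : DualNumber R)) :
    Multiplicative.toAdd (dlog x) = d := by
  have hx := fst_mul_fst_inv x
  change snd (x : DualNumber R) * fst ((x⁻¹ : (DualNumber R)ˣ) : DualNumber R) = d
  rw [← h]
  linear_combination d * hx

lemma dlog_eq_one_of_snd_eq_zero (x : (DualNumber R)ˣ) (h : snd (x : DualNumber R) = 0) :
    dlog x = 1 := by
  change Multiplicative.ofAdd
    (snd (x : DualNumber R) * fst ((x⁻¹ : (DualNumber R)ˣ) : DualNumber R)) = 1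
  rw [h, zero_mul]
  rfl

end Dlog

section Cyclo

variable {p : ℕ} [hp : Fact p.Prime] {K : Type*} [Field K] [NumberField K]
  [IsCyclotomicExtension {p} ℚ K] {ζ : K} (hζ : IsPrimitiveRoot ζ p)

/-- In characteristic `p`, `1 + s` is a root of the `p`-th cyclotomic polynomial as soon as
`s ^ (p - 1) = 0`, so `ζ ↦ 1 + s` defines a ring hom on the cyclotomic integers. -/
theorem exists_ringHom {A : Type*} [CommRing A] [Algebra (ZMod p) A] (s : A)
    (hs : s ^ (p - 1) = 0) : ∃ ψ : 𝓞 K →+* A, ψ hζ.toInteger = 1 + s := by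
  have hmin : minpoly ℤ hζ.integralPowerBasis.gen = cyclotomic p ℤ := by
    rw [hζ.integralPowerBasis_gen, ← NumberField.RingOfIntegers.minpoly_coe]
    exact (cyclotomic_eq_minpoly hζ hp.out.pos).symm
  have hcyc : cyclotomic p (ZMod p) = (X - 1) ^ (p - 1) := by
    have := cyclotomic_mul_prime_eq_pow_of_not_dvd (ZMod p) (p := p) (n := 1)
      (by simpa using hp.out.one_lt.ne')
    simpa using this
  have hroot : aeval (1 + s) (minpoly ℤ hζ.integralPowerBasis.gen) = 0 := by
    rw [hmin, aeval_def, eval₂_eq_eval_map, map_cyclotomic,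
      ← map_cyclotomic p (algebraMap (ZMod p) A), hcyc]
    simp [hs]
  refine ⟨(hζ.integralPowerBasis.lift (1 + s) hroot).toRingHom, ?_⟩
  have := hζ.integralPowerBasis.lift_gen (1 + s) hroot
  rw [hζ.integralPowerBasis_gen] at this
  exact this

end Cyclo

section Trunc

variable (p : ℕ) [hp : Fact p.Prime]

/-- The truncated polynomial ring `𝔽_p[t]/(t^(p-2))`. -/
noncomputable abbrev Trunc : Type := AdjoinRoot (X ^ (p - 2) : (ZMod p)[X])

/-- The variable `t` of `Trunc p`. -/
noncomputable def t : Trunc p := AdjoinRoot.root _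

lemma t_pow : t p ^ (p - 2) = 0 := by
  have h := AdjoinRoot.eval₂_root (X ^ (p - 2) : (ZMod p)[X])
  simpa [t] using h

lemma natCast_self : (p : Trunc p) = 0 := by
  have h : (p : Trunc p) = algebraMap (ZMod p) (Trunc p) (p : ZMod p) :=
    (map_natCast _ p).symm
  rw [h, ZMod.natCast_self, map_zero]

/-- The `j`-th coefficient of the reduced representative, as a linear functional. -/
noncomputable def coeff (j : ℕ) : Trunc p →ₗ[ZMod p] ZMod p :=
  (Polynomial.lcoeff (ZMod p) j).comp (AdjoinRoot.modByMonicHom (monic_X_pow (p - 2)))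

lemma coeff_t_pow (j k : ℕ) (hk : k < p - 2) :
    coeff p j (t p ^ k) = if j = k then 1 else 0 := by
  have h1 : t p ^ k = AdjoinRoot.mk (X ^ (p - 2) : (ZMod p)[X]) (X ^ k) := by
    simp [t]
  have h2 : (X ^ k : (ZMod p)[X]) %ₘ X ^ (p - 2) = X ^ k := by
    rw [modByMonic_eq_self_iff (monic_X_pow (p - 2)), degree_X_pow, degree_X_pow]
    exact_mod_cast hk
  rw [h1, coeff, LinearMap.comp_apply, AdjoinRoot.modByMonicHom_mk, h2]
  simp [coeff_X_pow]

/-- The element `∑ k, v k • t ^ k` of `Trunc p`. -/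
noncomputable def ofVec {m : ℕ} (v : Fin m → ZMod p) : Trunc p :=
  ∑ k : Fin m, v k • t p ^ (k : ℕ)

lemma coeff_ofVec {m : ℕ} (hm : m ≤ p - 2) (v : Fin m → ZMod p) (j : Fin m) :
    coeff p j (ofVec p v) = v j := by
  rw [ofVec, map_sum]
  rw [Finset.sum_eq_single j]
  · rw [map_smul, coeff_t_pow p _ _ (lt_of_lt_of_le j.2 hm)]
    simp
  · intro k _ hkj
    rw [map_smul, coeff_t_pow p _ _ (lt_of_lt_of_le k.2 hm)]
    have : (j : ℕ) ≠ k := fun h => hkj (Fin.ext h.symm)
    simp [this]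
  · intro h
    exact absurd (Finset.mem_univ j) h

/-- Rows of a matrix with a right inverse give linearly independent elements of `Trunc p`. -/
theorem linearIndependent_ofVec {n m : ℕ} (hm : m ≤ p - 2)
    (V : Matrix (Fin n) (Fin m) (ZMod p)) (B : Matrix (Fin m) (Fin n) (ZMod p))
    (h : V * B = 1) : LinearIndependent (ZMod p) (fun i => ofVec p (V i)) := by
  rw [Fintype.linearIndependent_iff]
  intro c hc
  have h1 : Matrix.vecMul c V = 0 := by
    funext j
    have := congrArg (coeff p j) hc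
    rw [map_sum, map_zero] at this
    simp only [map_smul, coeff_ofVec p hm, smul_eq_mul] at this
    simpa [Matrix.vecMul, dotProduct] using this
  have h2 : c = 0 := by
    have : Matrix.vecMul (Matrix.vecMul c V) B = c := by
      rw [Matrix.vecMul_vecMul, h, Matrix.vecMul_one]
    rw [← this, h1, Matrix.zero_vecMul]
  intro i
  rw [h2]
  rfl

/-- The element `t + ε` of the dual numbers over `Trunc p`. -/
noncomputable def s : DualNumber (Trunc p) := inl (t p) + inr 1

lemma fst_s : fst (s p) = t p := by simp [s]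

lemma snd_s : snd (s p) = 1 := by simp [s]

lemma s_pow : s p ^ (p - 1) = 0 := by
  have hp2 : 2 ≤ p := hp.out.two_le
  ext
  · rw [fst_pow, fst_s, fst_zero]
    have : p - 1 = (p - 2) + 1 := by omega
    rw [this, pow_succ, t_pow, zero_mul]
  · rw [snd_pow, fst_s, snd_zero]
    have : (p - 1).pred = p - 2 := by
      rw [Nat.pred_eq_sub_one]; omega
    rw [this, t_pow]
    simp

lemma natCast_self_dual : (p : DualNumber (Trunc p)) = 0 := by
  ext
  · rw [fst_natCast, fst_zero]; exact natCast_self p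
  · rw [snd_natCast, snd_zero]

end Trunc

section Main

variable {p : ℕ} [hp : Fact p.Prime] {K : Type*} [Field K] [NumberField K]
  [IsCyclotomicExtension {p} ℚ K] {ζ : K} (hζ : IsPrimitiveRoot ζ p)

/-- The ring hom `𝓞 K → (𝔽_p[t]/(t^(p-2)))[ε]` with `ζ ↦ 1 + t + ε`. -/
noncomputable def psi : 𝓞 K →+* DualNumber (Trunc p) :=
  (exists_ringHom hζ (s p) (s_pow p)).choose

lemma psi_zeta : psi hζ hζ.toInteger = 1 + s p :=
  (exists_ringHom hζ (s p) (s_pow p)).choose_spec

lemma fst_psi_zeta_pow (i : ℕ) : fst (psi hζ (hζ.toInteger ^ i)) = (1 + t p) ^ i := by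
  rw [map_pow, psi_zeta, fst_pow, fst_add, fst_one, fst_s]

lemma snd_psi_zeta_pow (i : ℕ) :
    snd (psi hζ (hζ.toInteger ^ i)) = (i : Trunc p) * (1 + t p) ^ (i - 1) := by
  rw [map_pow, psi_zeta, snd_pow, fst_add, fst_one, fst_s, snd_add, snd_one, snd_s, zero_add,
    Nat.pred_eq_sub_one]
  simp

/-- The logarithmic-derivative homomorphism on the units of `𝓞 K`. -/
noncomputable def D : (𝓞 K)ˣ →* Multiplicative (Trunc p) :=
  dlog.comp (Units.map (psi hζ).toMonoidHom)

lemma D_eq_one_of_dvd (u : (𝓞 K)ˣ) (n : ℤ) (h : (p : 𝓞 K) ∣ (u : 𝓞 K) - n) : D hζ u = 1 := by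
  obtain ⟨w, hw⟩ := h
  have hu : (u : 𝓞 K) = n + p * w := by rw [← hw]; ring
  apply dlog_eq_one_of_snd_eq_zero
  change snd (psi hζ (u : 𝓞 K)) = 0
  rw [hu, map_add, map_mul, map_natCast, map_intCast, natCast_self_dual, zero_mul, add_zero,
    snd_intCast]

lemma toAdd_D_eq (u : (𝓞 K)ˣ) (d : Trunc p)
    (h : d * fst (psi hζ (u : 𝓞 K)) = snd (psi hζ (u : 𝓞 K))) :
    Multiplicative.toAdd (D hζ u) = d :=
  toAdd_dlog_eq (Units.map (psi hζ).toMonoidHom u) d h

lemma toAdd_D_zeta (u : (𝓞 K)ˣ) (hu : (u : 𝓞 K) = hζ.toInteger) (d : Trunc p)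
    (h : d * (1 + t p) = 1) : Multiplicative.toAdd (D hζ u) = d := by
  apply toAdd_D_eq
  have h1 := fst_psi_zeta_pow hζ 1
  have h2 := snd_psi_zeta_pow hζ 1
  rw [pow_one] at h1 h2
  rw [hu, h1, h2, pow_one, h]
  simp

lemma toAdd_D_geom (u : (𝓞 K)ˣ) (a : ℕ)
    (hu : (u : 𝓞 K) = ∑ i ∈ Finset.range a, hζ.toInteger ^ i) (d : Trunc p)
    (h : d * (∑ i ∈ Finset.range a, (1 + t p) ^ i) =
      ∑ i ∈ Finset.range a, (i : Trunc p) * (1 + t p) ^ (i - 1)) :
    Multiplicative.toAdd (D hζ u) = d := by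
  apply toAdd_D_eq
  rw [hu, map_sum, fst_sum, snd_sum]
  simp only [fst_psi_zeta_pow, snd_psi_zeta_pow]
  exact h

end Main

section Kummer

open NumberField.Units

variable (p : ℕ) [hp : Fact p.Prime] (K : Type*) [Field K] [NumberField K]
  [IsCyclotomicExtension {p} ℚ K]

lemma rank_add_one (hp2 : p ≠ 2) : rank K + 1 = (p - 1) / 2 := by
  have hp3 : 3 ≤ p := by
    have := hp.out.two_le
    omega
  have hK : CharZero K := inferInstance
  have h1 : Fintype.card (InfinitePlace K) =
      InfinitePlace.nrRealPlaces K + InfinitePlace.nrComplexPlaces K :=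
    InfinitePlace.card_eq_nrRealPlaces_add_nrComplexPlaces K
  have h2 : InfinitePlace.nrComplexPlaces K = p.totient / 2 :=
    IsCyclotomicExtension.Rat.nrComplexPlaces_eq_totient_div_two p K
  have h3 : InfinitePlace.nrRealPlaces K = 0 :=
    IsCyclotomicExtension.Rat.nrRealPlaces_eq_zero (n := p) K (by omega)
  rw [rank, h1, h2, h3, Nat.totient_prime hp.out]
  have : 1 ≤ (p - 1) / 2 := by omega
  omega

/-- **Kummer's lemma from a rank certificate.** If `d 0 = 1/(1+t)` and
`d (i+1) = (∑_{j<i+2} j (1+t)^(j-1)) / (∑_{j<i+2} (1+t)^j)` in `𝔽_p[t]/(t^(p-2))`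
are linearly independent over `𝔽_p` (`(p-1)/2` elements in all), then every unit of the
`p`-th cyclotomic integers which is congruent to a rational integer mod `p` is a `p`-th power. -/
theorem kummer_lemma_of_cert (hp2 : p ≠ 2) {n : ℕ} (hn : n + 1 = (p - 1) / 2)
    (d : Fin (n + 1) → Trunc p) (hd : LinearIndependent (ZMod p) d)
    (h0 : d 0 * (1 + t p) = 1)
    (hsucc : ∀ i : Fin n, d i.succ * (∑ j ∈ Finset.range ((i : ℕ) + 2), (1 + t p) ^ j) =
      ∑ j ∈ Finset.range ((i : ℕ) + 2), (j : Trunc p) * (1 + t p) ^ (j - 1))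
    (u : (𝓞 K)ˣ) (hu : ∃ m : ℤ, (p : 𝓞 K) ∣ (u : 𝓞 K) - m) : ∃ v : (𝓞 K)ˣ, u = v ^ p := by
  have hζ := IsCyclotomicExtension.zeta_spec p ℚ K
  have hζ' := hζ.toInteger_isPrimitiveRoot
  have hp3 : 3 ≤ p := by
    have := hp.out.two_le
    omega
  have hrk : rank K + 1 = n + 1 := by rw [rank_add_one p K hp2, hn]
  -- the units
  have hunit : ∀ a : ℕ, 0 < a → a < p → IsUnit (∑ i ∈ Finset.range a, hζ.toInteger ^ i) :=
    fun a ha0 hap => hζ'.geom_sum_isUnit hp.out.two_le
      ((Nat.coprime_comm.mp ((Nat.Prime.coprime_iff_not_dvd hp.out).mpr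
        (Nat.not_dvd_of_pos_of_lt ha0 hap))))
  let g : Fin (n + 1) → (𝓞 K)ˣ := Fin.cons (hζ'.isUnit hp.out.ne_zero).unit
    (fun i : Fin n => (hunit ((i : ℕ) + 2) (by omega) (by have := i.2; omega)).unit)
  have hg : ∀ i, Multiplicative.toAdd (D hζ (g i)) = d i := by
    intro i
    refine Fin.cases ?_ (fun i => ?_) i
    · exact toAdd_D_zeta hζ _ (by simp [g]) _ h0
    · exact toAdd_D_geom hζ _ ((i : ℕ) + 2) (by simp [g]) _ (hsucc i)
  have hli : LinearIndependent (ZMod p) (fun i => Multiplicative.toAdd (D hζ (g i))) := by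
    have : (fun i => Multiplicative.toAdd (D hζ (g i))) = d := funext hg
    rw [this]; exact hd
  obtain ⟨m, hm⟩ := hu
  have hDu : D hζ u = 1 := D_eq_one_of_dvd hζ u m hm
  have key := Fermat.Agent.Lib.KummerFramework.exists_pow_eq_of_map_eq_one p (D hζ)
    (fun i => g (Fin.cast hrk i))
    (by
      have := hli.comp (Fin.cast hrk) (Fin.cast_injective hrk)
      exact this) u hDu
  exact key

end Kummer

end Fermat.Agent.Lib.LogDeriv
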