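import Mathlib
import Fermat.Agent.Lib.LogDeriv

set_option autoImplicit false

namespace Fermat.Agent.Lib.Kummer13

open NumberField Fermat.Agent.Lib.LogDeriv

theorem factPrime : Fact (Nat.Prime 13) := ⟨by norm_num⟩

attribute [local instance] factPrime

local notation "T" => t 13

/-- coefficient rows of the logarithmic derivatives of `ζ, 1+ζ, 1+ζ+ζ², …` mod `t^11` -/
def V : Matrix (Fin 6) (Fin 11) (ZMod 13) :=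
  !![1, 12, 1, 12, 1, 12, 1, 12, 1, 12, 1; 7, 3, 5, 4, 11, 1, 6, 10, 8, 9, 2; 1, 4, 0, 3, 10, 2, 12, 9, 0, 10, 3; 8, 3, 11, 11, 1, 1, 11, 5, 4, 9, 4; 2, 0, 12, 6, 0, 2, 11, 4, 7, 3, 5; 9, 8, 3, 8, 9, 1, 6, 7, 6, 7, 6]

/-- a right inverse of `V` -/
def B : Matrix (Fin 11) (Fin 6) (ZMod 13) :=
  !![1, 10, 12, 7, 4, 4; 3, 2, 12, 11, 2, 1; 0, 0, 0, 0, 0, 0; 3, 10, 2, 9, 2, 2; 0, 0, 0, 0, 0, 0; 9, 7, 4, 9, 7, 11; 0, 0, 0, 0, 0, 0; 7, 11, 0, 6, 1, 1; 0, 0, 0, 0, 0, 0; 4, 6, 7, 11, 5, 2; 0, 0, 0, 0, 0, 0]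

lemma V_mul_B : V * B = 1 := by decide

lemma row0 : ofVec 13 (V 0) = 1 + 12 * T + 1 * T ^ 2 + 12 * T ^ 3 + 1 * T ^ 4 + 12 * T ^ 5 + 1 * T ^ 6 + 12 * T ^ 7 + 1 * T ^ 8 + 12 * T ^ 9 + 1 * T ^ 10 := by
  simp [ofVec, V, Fin.sum_univ_succ, Algebra.smul_def, map_ofNat]
  try ring

lemma row1 : ofVec 13 (V 1) = 7 + 3 * T + 5 * T ^ 2 + 4 * T ^ 3 + 11 * T ^ 4 + 1 * T ^ 5 + 6 * T ^ 6 + 10 * T ^ 7 + 8 * T ^ 8 + 9 * T ^ 9 + 2 * T ^ 10 := by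
  simp [ofVec, V, Fin.sum_univ_succ, Algebra.smul_def, map_ofNat]
  try ring

lemma row2 : ofVec 13 (V 2) = 1 + 4 * T + 3 * T ^ 3 + 10 * T ^ 4 + 2 * T ^ 5 + 12 * T ^ 6 + 9 * T ^ 7 + 10 * T ^ 9 + 3 * T ^ 10 := by
  simp [ofVec, V, Fin.sum_univ_succ, Algebra.smul_def, map_ofNat]
  try ring

lemma row3 : ofVec 13 (V 3) = 8 + 3 * T + 11 * T ^ 2 + 11 * T ^ 3 + 1 * T ^ 4 + 1 * T ^ 5 + 11 * T ^ 6 + 5 * T ^ 7 + 4 * T ^ 8 + 9 * T ^ 9 + 4 * T ^ 10 := by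
  simp [ofVec, V, Fin.sum_univ_succ, Algebra.smul_def, map_ofNat]
  try ring

lemma row4 : ofVec 13 (V 4) = 2 + 12 * T ^ 2 + 6 * T ^ 3 + 2 * T ^ 5 + 11 * T ^ 6 + 4 * T ^ 7 + 7 * T ^ 8 + 3 * T ^ 9 + 5 * T ^ 10 := by
  simp [ofVec, V, Fin.sum_univ_succ, Algebra.smul_def, map_ofNat]
  try ring

lemma row5 : ofVec 13 (V 5) = 9 + 8 * T + 3 * T ^ 2 + 8 * T ^ 3 + 9 * T ^ 4 + 1 * T ^ 5 + 6 * T ^ 6 + 7 * T ^ 7 + 6 * T ^ 8 + 7 * T ^ 9 + 6 * T ^ 10 := by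
  simp [ofVec, V, Fin.sum_univ_succ, Algebra.smul_def, map_ofNat]
  try ring

lemma ident0 : ofVec 13 (V 0) * (1 + T) = 1 := by
  rw [row0]
  linear_combination (1) * t_pow 13 + (1 * T + 1 * T ^ 2 + 1 * T ^ 3 + 1 * T ^ 4 + 1 * T ^ 5 + 1 * T ^ 6 + 1 * T ^ 7 + 1 * T ^ 8 + 1 * T ^ 9 + 1 * T ^ 10) * natCast_self 13

lemma ident1 : ofVec 13 (V 1) * (∑ j ∈ Finset.range 2, (1 + T) ^ j) =
    ∑ j ∈ Finset.range 2, (j : Trunc 13) * (1 + T) ^ (j - 1) := by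
  rw [row1]
  simp only [Finset.sum_range_succ, Finset.sum_range_zero]
  push_cast
  linear_combination (2) * t_pow 13 + (1 + 1 * T + 1 * T ^ 2 + 1 * T ^ 3 + 2 * T ^ 4 + 1 * T ^ 5 + 1 * T ^ 6 + 2 * T ^ 7 + 2 * T ^ 8 + 2 * T ^ 9 + 1 * T ^ 10) * natCast_self 13

lemma ident2 : ofVec 13 (V 2) * (∑ j ∈ Finset.range 3, (1 + T) ^ j) =
    ∑ j ∈ Finset.range 3, (j : Trunc 13) * (1 + T) ^ (j - 1) := by
  rw [row2]
  simp only [Finset.sum_range_succ, Finset.sum_range_zero]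
  push_cast
  linear_combination (19 + 3 * T) * t_pow 13 + (1 * T + 1 * T ^ 2 + 1 * T ^ 3 + 3 * T ^ 4 + 3 * T ^ 5 + 4 * T ^ 6 + 5 * T ^ 7 + 3 * T ^ 8 + 3 * T ^ 9 + 3 * T ^ 10) * natCast_self 13

lemma ident3 : ofVec 13 (V 3) * (∑ j ∈ Finset.range 4, (1 + T) ^ j) =
    ∑ j ∈ Finset.range 4, (j : Trunc 13) * (1 + T) ^ (j - 1) := by
  rw [row3]
  simp only [Finset.sum_range_succ, Finset.sum_range_zero]
  push_cast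
  linear_combination (64 + 25 * T + 4 * T ^ 2) * t_pow 13 + (2 + 4 * T + 7 * T ^ 2 + 10 * T ^ 3 + 9 * T ^ 4 + 5 * T ^ 5 + 5 * T ^ 6 + 7 * T ^ 7 + 7 * T ^ 8 + 7 * T ^ 9 + 7 * T ^ 10) * natCast_self 13

lemma ident4 : ofVec 13 (V 4) * (∑ j ∈ Finset.range 5, (1 + T) ^ j) =
    ∑ j ∈ Finset.range 5, (j : Trunc 13) * (1 + T) ^ (j - 1) := by
  rw [row4]
  simp only [Finset.sum_range_succ, Finset.sum_range_zero]
  push_cast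
  linear_combination (119 + 72 * T + 28 * T ^ 2 + 5 * T ^ 3) * t_pow 13 + (5 * T ^ 2 + 12 * T ^ 3 + 14 * T ^ 4 + 10 * T ^ 5 + 9 * T ^ 6 + 12 * T ^ 7 + 15 * T ^ 8 + 14 * T ^ 9 + 12 * T ^ 10) * natCast_self 13

lemma ident5 : ofVec 13 (V 5) * (∑ j ∈ Finset.range 6, (1 + T) ^ j) =
    ∑ j ∈ Finset.range 6, (j : Trunc 13) * (1 + T) ^ (j - 1) := by
  rw [row5]
  simp only [Finset.sum_range_succ, Finset.sum_range_zero]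
  push_cast
  linear_combination (368 + 268 * T + 138 * T ^ 2 + 43 * T ^ 3 + 6 * T ^ 4) * t_pow 13 + (3 + 11 * T + 21 * T ^ 2 + 28 * T ^ 3 + 31 * T ^ 4 + 31 * T ^ 5 + 29 * T ^ 6 + 26 * T ^ 7 + 26 * T ^ 8 + 29 * T ^ 9 + 31 * T ^ 10) * natCast_self 13

/-- **Kummer's lemma for `p = 13`**: a unit of the `13`-th cyclotomic integers congruent to a
rational integer mod `13` is a `13`-th power. -/
theorem kummer_lemma (K : Type*) [Field K] [NumberField K] [IsCyclotomicExtension {13} ℚ K]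
    (u : (𝓞 K)ˣ) (hu : ∃ m : ℤ, ((13 : ℕ) : 𝓞 K) ∣ (u : 𝓞 K) - m) :
    ∃ v : (𝓞 K)ˣ, u = v ^ 13 := by
  refine kummer_lemma_of_cert 13 K (by norm_num) (n := 5) (by norm_num)
    (fun i => ofVec 13 (V i)) (linearIndependent_ofVec 13 (by norm_num) V B V_mul_B)
    ident0 ?_ u hu
  intro i
  fin_cases i
  · exact ident1
  · exact ident2
  · exact ident3
  · exact ident4
  · exact ident5

end Fermat.Agent.Lib.Kummer13
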