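import Mathlib
import Fermat.Agent.Lib.LogDeriv

set_option autoImplicit false

namespace Fermat.Agent.Lib.Kummer5

open NumberField Fermat.Agent.Lib.LogDeriv

theorem factPrime : Fact (Nat.Prime 5) := ⟨by norm_num⟩

attribute [local instance] factPrime

local notation "T" => t 5

/-- coefficient rows of the logarithmic derivatives of `ζ, 1+ζ, 1+ζ+ζ², …` mod `t^3` -/
def V : Matrix (Fin 2) (Fin 3) (ZMod 5) :=
  !![1, 4, 1; 3, 1, 2]

/-- a right inverse of `V` -/
def B : Matrix (Fin 3) (Fin 2) (ZMod 5) :=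
  !![4, 4; 3, 4; 0, 0]

lemma V_mul_B : V * B = 1 := by decide

lemma row0 : ofVec 5 (V 0) = 1 + 4 * T + 1 * T ^ 2 := by
  simp [ofVec, V, Fin.sum_univ_succ, Algebra.smul_def, map_ofNat]
  try ring

lemma row1 : ofVec 5 (V 1) = 3 + 1 * T + 2 * T ^ 2 := by
  simp [ofVec, V, Fin.sum_univ_succ, Algebra.smul_def, map_ofNat]
  try ring

lemma ident0 : ofVec 5 (V 0) * (1 + T) = 1 := by
  rw [row0]
  linear_combination (1) * t_pow 5 + (1 * T + 1 * T ^ 2) * natCast_self 5

lemma ident1 : ofVec 5 (V 1) * (∑ j ∈ Finset.range 2, (1 + T) ^ j) =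
    ∑ j ∈ Finset.range 2, (j : Trunc 5) * (1 + T) ^ (j - 1) := by
  rw [row1]
  simp only [Finset.sum_range_succ, Finset.sum_range_zero]
  push_cast
  linear_combination (2) * t_pow 5 + (1 + 1 * T + 1 * T ^ 2) * natCast_self 5

/-- **Kummer's lemma for `p = 5`**: a unit of the `5`-th cyclotomic integers congruent to a
rational integer mod `5` is a `5`-th power. -/
theorem kummer_lemma (K : Type*) [Field K] [NumberField K] [IsCyclotomicExtension {5} ℚ K]
    (u : (𝓞 K)ˣ) (hu : ∃ m : ℤ, ((5 : ℕ) : 𝓞 K) ∣ (u : 𝓞 K) - m) :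
    ∃ v : (𝓞 K)ˣ, u = v ^ 5 := by
  refine kummer_lemma_of_cert 5 K (by norm_num) (n := 1) (by norm_num)
    (fun i => ofVec 5 (V i)) (linearIndependent_ofVec 5 (by norm_num) V B V_mul_B)
    ident0 ?_ u hu
  intro i
  fin_cases i
  · exact ident1

end Fermat.Agent.Lib.Kummer5
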