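import Mathlib
import Fermat.Agent.Lib.LogDeriv

set_option autoImplicit false

namespace Fermat.Agent.Lib.Kummer7

open NumberField Fermat.Agent.Lib.LogDeriv

theorem factPrime : Fact (Nat.Prime 7) := ⟨by norm_num⟩

attribute [local instance] factPrime

local notation "T" => t 7

/-- coefficient rows of the logarithmic derivatives of `ζ, 1+ζ, 1+ζ+ζ², …` mod `t^5` -/
def V : Matrix (Fin 3) (Fin 5) (ZMod 7) :=
  !![1, 6, 1, 6, 1; 4, 5, 1, 3, 2; 1, 2, 0, 4, 3]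

/-- a right inverse of `V` -/
def B : Matrix (Fin 5) (Fin 3) (ZMod 7) :=
  !![0, 3, 3; 5, 4, 0; 0, 0, 0; 1, 6, 3; 0, 0, 0]

lemma V_mul_B : V * B = 1 := by decide

lemma row0 : ofVec 7 (V 0) = 1 + 6 * T + 1 * T ^ 2 + 6 * T ^ 3 + 1 * T ^ 4 := by
  simp [ofVec, V, Fin.sum_univ_succ, Algebra.smul_def, map_ofNat]
  try ring

lemma row1 : ofVec 7 (V 1) = 4 + 5 * T + 1 * T ^ 2 + 3 * T ^ 3 + 2 * T ^ 4 := by
  simp [ofVec, V, Fin.sum_univ_succ, Algebra.smul_def, map_ofNat]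
  try ring

lemma row2 : ofVec 7 (V 2) = 1 + 2 * T + 4 * T ^ 3 + 3 * T ^ 4 := by
  simp [ofVec, V, Fin.sum_univ_succ, Algebra.smul_def, map_ofNat]
  try ring

lemma ident0 : ofVec 7 (V 0) * (1 + T) = 1 := by
  rw [row0]
  linear_combination (1) * t_pow 7 + (1 * T + 1 * T ^ 2 + 1 * T ^ 3 + 1 * T ^ 4) * natCast_self 7

lemma ident1 : ofVec 7 (V 1) * (∑ j ∈ Finset.range 2, (1 + T) ^ j) =
    ∑ j ∈ Finset.range 2, (j : Trunc 7) * (1 + T) ^ (j - 1) := by
  rw [row1]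
  simp only [Finset.sum_range_succ, Finset.sum_range_zero]
  push_cast
  linear_combination (2) * t_pow 7 + (1 + 2 * T + 1 * T ^ 2 + 1 * T ^ 3 + 1 * T ^ 4) * natCast_self 7

lemma ident2 : ofVec 7 (V 2) * (∑ j ∈ Finset.range 3, (1 + T) ^ j) =
    ∑ j ∈ Finset.range 3, (j : Trunc 7) * (1 + T) ^ (j - 1) := by
  rw [row2]
  simp only [Finset.sum_range_succ, Finset.sum_range_zero]
  push_cast
  linear_combination (13 + 3 * T) * t_pow 7 + (1 * T + 1 * T ^ 2 + 2 * T ^ 3 + 3 * T ^ 4) * natCast_self 7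

/-- **Kummer's lemma for `p = 7`**: a unit of the `7`-th cyclotomic integers congruent to a
rational integer mod `7` is a `7`-th power. -/
theorem kummer_lemma (K : Type*) [Field K] [NumberField K] [IsCyclotomicExtension {7} ℚ K]
    (u : (𝓞 K)ˣ) (hu : ∃ m : ℤ, ((7 : ℕ) : 𝓞 K) ∣ (u : 𝓞 K) - m) :
    ∃ v : (𝓞 K)ˣ, u = v ^ 7 := by
  refine kummer_lemma_of_cert 7 K (by norm_num) (n := 2) (by norm_num)
    (fun i => ofVec 7 (V i)) (linearIndependent_ofVec 7 (by norm_num) V B V_mul_B)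
    ident0 ?_ u hu
  intro i
  fin_cases i
  · exact ident1
  · exact ident2

end Fermat.Agent.Lib.Kummer7
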