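import Mathlib

set_option autoImplicit false
set_option linter.unusedSectionVars false
set_option linter.style.haveILetI false

namespace Fermat.Agent.Lib.KummerLocal

open NumberField Polynomial Finset

variable {p : ℕ} [hp : Fact p.Prime] {K : Type*} [Field K] [NumberField K]
  [hK : IsCyclotomicExtension {p} ℚ K] {ζ : K} (hζ : IsPrimitiveRoot ζ p)

/-- `x ^ p + y ^ p = ∏_{i < p} (x + ζ ^ i * y)` in the ring of integers, for odd `p`. -/
theorem pow_add_pow_eq_prod_range (hp2 : p ≠ 2) (x y : 𝓞 K) :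
    x ^ p + y ^ p = ∏ i ∈ range p, (x + hζ.toInteger ^ i * y) := by
  classical
  have hz := hζ.toInteger_isPrimitiveRoot
  have hodd : Odd p := hp.out.odd_of_ne_two hp2
  rw [hz.pow_add_pow_eq_prod_add_mul x y hodd]
  have himg : nthRootsFinset p (1 : 𝓞 K) = (range p).image (fun i => hζ.toInteger ^ i) := by
    symm
    apply Finset.eq_of_subset_of_card_le
    · intro η hη
      obtain ⟨i, -, rfl⟩ := Finset.mem_image.mp hη
      rw [mem_nthRootsFinset hp.out.pos, ← pow_mul, mul_comm, pow_mul, hz.pow_eq_one, one_pow]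
    · rw [hz.card_nthRootsFinset, Finset.card_image_of_injOn, Finset.card_range]
      intro i hi j hj hij
      exact hz.pow_inj (Finset.mem_range.mp hi) (Finset.mem_range.mp hj) hij
  rw [himg, Finset.prod_image]
  intro i hi j hj hij
  exact hz.pow_inj (Finset.mem_range.mp hi) (Finset.mem_range.mp hj) hij

/-- `ζ ^ i - 1 = (ζ - 1) * (1 + ζ + ... + ζ ^ (i - 1))`. -/
theorem zeta_pow_sub_one_eq (i : ℕ) :
    hζ.toInteger ^ i - 1 = (hζ.toInteger - 1) * ∑ k ∈ range i, hζ.toInteger ^ k :=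
  (mul_geom_sum _ _).symm

theorem lambda_dvd_zeta_pow_sub_one (i : ℕ) : hζ.toInteger - 1 ∣ hζ.toInteger ^ i - 1 :=
  ⟨_, zeta_pow_sub_one_eq hζ i⟩

/-- `1 + ζ + ... + ζ ^ (i - 1) ≡ i mod (ζ - 1)`. -/
theorem lambda_dvd_geom_sum_sub (i : ℕ) :
    hζ.toInteger - 1 ∣ (∑ k ∈ range i, hζ.toInteger ^ k) - (i : 𝓞 K) := by
  have h : (∑ k ∈ range i, hζ.toInteger ^ k) - (i : 𝓞 K)
      = ∑ k ∈ range i, (hζ.toInteger ^ k - 1) := by
    simp [Finset.sum_sub_distrib]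
  rw [h]
  exact Finset.dvd_sum fun k _ => lambda_dvd_zeta_pow_sub_one hζ k

/-- Every algebraic integer of the `p`-th cyclotomic field is congruent to a rational integer `n`
modulo `ζ - 1`, and its `p`-th power is congruent to the same `n` modulo `p`. -/
theorem exists_int_sub_dvd_and_pow_sub_dvd (α : 𝓞 K) :
    ∃ n : ℤ, hζ.toInteger - 1 ∣ α - (n : 𝓞 K) ∧ (p : 𝓞 K) ∣ α ^ p - (n : 𝓞 K) := by
  obtain ⟨f, hf⟩ := hζ.integralPowerBasis.exists_eq_aeval' α
  rw [hζ.integralPowerBasis_gen] at hf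
  refine ⟨f.eval 1, ?_, ?_⟩
  · have h1 := sub_dvd_eval_sub hζ.toInteger 1 (f.map (algebraMap ℤ (𝓞 K)))
    rwa [eval_map_algebraMap, eval_one_map, ← hf, eq_intCast] at h1
  · have hnu : (p : 𝓞 K) ∈ nonunits (𝓞 K) := by
      intro hu
      exact hζ.zeta_sub_one_prime'.not_isUnit (isUnit_of_dvd_unit hζ.toInteger_sub_one_dvd_prime' hu)
    haveI : CharP (𝓞 K ⧸ (Ideal.span {(p : 𝓞 K)} : Ideal (𝓞 K))) p := CharP.quotient (𝓞 K) p hnu
    set I : Ideal (𝓞 K) := Ideal.span {(p : 𝓞 K)} with hI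
    set mk := Ideal.Quotient.mk I with hmk
    have key : mk (α ^ p) = mk ((f.eval 1 : ℤ) : 𝓞 K) := by
      have h2 : mk α = f.eval₂ (mk.comp (algebraMap ℤ (𝓞 K))) (mk hζ.toInteger) := by
        rw [hf, aeval_def, hom_eval₂]
      have h3 : (frobenius (𝓞 K ⧸ I) p).comp (mk.comp (algebraMap ℤ (𝓞 K)))
          = mk.comp (algebraMap ℤ (𝓞 K)) := RingHom.ext_int _ _
      have h4 : mk hζ.toInteger ^ p = 1 := by
        rw [← map_pow, hζ.toInteger_isPrimitiveRoot.pow_eq_one, map_one]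
      rw [map_pow, ← frobenius_def, h2, hom_eval₂, h3, frobenius_def, h4, eval₂_at_one]
      simp
    rw [← Ideal.mem_span_singleton, ← hI, ← Ideal.Quotient.eq]
    exact key

theorem exists_int_sub_dvd (α : 𝓞 K) : ∃ n : ℤ, hζ.toInteger - 1 ∣ α - (n : 𝓞 K) :=
  let ⟨n, h, _⟩ := exists_int_sub_dvd_and_pow_sub_dvd hζ α
  ⟨n, h⟩

include hζ in
theorem exists_int_pow_sub_dvd (α : 𝓞 K) : ∃ n : ℤ, (p : 𝓞 K) ∣ α ^ p - (n : 𝓞 K) :=
  let ⟨n, _, h⟩ := exists_int_sub_dvd_and_pow_sub_dvd hζ α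
  ⟨n, h⟩

/-- `ζ` is a unit of the ring of integers. -/
theorem isUnit_zeta : IsUnit hζ.toInteger :=
  hζ.toInteger_isPrimitiveRoot.isUnit hp.out.ne_zero

/-- `ζ ^ i - 1` is associated to `ζ - 1` when `p ∤ i`. -/
theorem associated_zeta_pow_sub_one {i : ℕ} (hi : ¬ p ∣ i) :
    Associated (hζ.toInteger ^ i - 1) (hζ.toInteger - 1) :=
  (hζ.toInteger_isPrimitiveRoot.associated_sub_one_pow_sub_one_of_coprime
    ((Nat.Prime.coprime_iff_not_dvd hp.out).mpr hi).symm).symm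

/-- `ζ ^ i - ζ ^ j` is associated to `ζ - 1` for distinct `i, j < p`. -/
theorem associated_zeta_pow_sub_zeta_pow {i j : ℕ} (hi : i < p) (hj : j < p) (hij : i ≠ j) :
    Associated (hζ.toInteger ^ i - hζ.toInteger ^ j) (hζ.toInteger - 1) := by
  rcases lt_or_gt_of_ne hij with h | h
  · -- i < j
    have hd : ¬ p ∣ (j - i) := fun hd => by
      have := Nat.le_of_dvd (by omega) hd
      omega
    have h1 : hζ.toInteger ^ i - hζ.toInteger ^ j
        = (hζ.toInteger ^ (j - i) - 1) * (-(hζ.toInteger ^ i)) := by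
      have : hζ.toInteger ^ j = hζ.toInteger ^ (j - i) * hζ.toInteger ^ i := by
        rw [← pow_add]; congr 1; omega
      rw [this]; ring
    rw [h1]
    exact (associated_mul_unit_left _ _ ((isUnit_zeta hζ).pow i).neg).trans
      (associated_zeta_pow_sub_one hζ hd)
  · have hd : ¬ p ∣ (i - j) := fun hd => by
      have := Nat.le_of_dvd (by omega) hd
      omega
    have h1 : hζ.toInteger ^ i - hζ.toInteger ^ j
        = (hζ.toInteger ^ (i - j) - 1) * (hζ.toInteger ^ j) := by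
      have : hζ.toInteger ^ i = hζ.toInteger ^ (i - j) * hζ.toInteger ^ j := by
        rw [← pow_add]; congr 1; omega
      rw [this]; ring
    rw [h1]
    exact (associated_mul_unit_left _ _ ((isUnit_zeta hζ).pow j)).trans
      (associated_zeta_pow_sub_one hζ hd)

/-- The cyclotomic unit `1 + ζ + ... + ζ ^ (i - 1)` for `p ∤ i`. -/
theorem isUnit_geom_sum {i : ℕ} (hi : ¬ p ∣ i) : IsUnit (∑ k ∈ range i, hζ.toInteger ^ k) := by
  obtain ⟨u, hu⟩ := (associated_zeta_pow_sub_one hζ hi).symm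
  rw [zeta_pow_sub_one_eq hζ i] at hu
  have h0 : hζ.toInteger - 1 ≠ 0 := hζ.zeta_sub_one_prime'.ne_zero
  have := mul_left_cancel₀ h0 hu
  rw [← this]
  exact u.isUnit

/-- `1 + ζ` is a unit for odd `p`. -/
theorem isUnit_one_add_zeta (hp2 : p ≠ 2) : IsUnit (1 + hζ.toInteger) := by
  have h2 : ¬ p ∣ 2 := fun h => hp2 ((Nat.prime_dvd_prime_iff_eq hp.out Nat.prime_two).mp h)
  have := isUnit_geom_sum hζ h2
  simpa [Finset.sum_range_succ] using this

/-- All the factors `x + ζ ^ i * y` are congruent modulo `ζ - 1`. -/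
theorem lambda_dvd_add_zeta_pow_mul_iff (x y : 𝓞 K) (i : ℕ) :
    hζ.toInteger - 1 ∣ x + hζ.toInteger ^ i * y ↔ hζ.toInteger - 1 ∣ x + y := by
  have h : x + hζ.toInteger ^ i * y = (x + y) + (hζ.toInteger ^ i - 1) * y := by ring
  rw [h]
  exact dvd_add_left (Dvd.dvd.mul_right (lambda_dvd_zeta_pow_sub_one hζ i) y)

/-- Pigeonhole: if `ζ - 1 ∣ x + y` and `ζ - 1 ∤ y`, some factor `x + ζ ^ i * y` is divisible by
`(ζ - 1) ^ 2`. -/
theorem exists_lambda_sq_dvd {x y : 𝓞 K} (hxy : hζ.toInteger - 1 ∣ x + y)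
    (hy : ¬ hζ.toInteger - 1 ∣ y) :
    ∃ i < p, (hζ.toInteger - 1) ^ 2 ∣ x + hζ.toInteger ^ i * y := by
  obtain ⟨t, ht⟩ := hxy
  obtain ⟨a, ha⟩ := exists_int_sub_dvd hζ t
  obtain ⟨b, hb⟩ := exists_int_sub_dvd hζ y
  have hpb : ¬ (p : ℤ) ∣ b := by
    intro h
    have h1 : hζ.toInteger - 1 ∣ (b : 𝓞 K) :=
      (IsCyclotomicExtension.Rat.zeta_sub_one_dvd_intCast_iff' p hζ).mpr h
    exact hy ((dvd_sub_left h1).mp hb)
  have hb0 : (b : ZMod p) ≠ 0 := by
    rwa [Ne, ZMod.intCast_zmod_eq_zero_iff_dvd]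
  set i : ℕ := (-(a : ZMod p) / (b : ZMod p)).val with hi
  have hip : i < p := ZMod.val_lt _
  have hdvd : (p : ℤ) ∣ a + i * b := by
    rw [← ZMod.intCast_zmod_eq_zero_iff_dvd]
    push_cast
    rw [hi, ZMod.natCast_val, ZMod.cast_id', id_eq]
    field_simp
    ring
  have h1 : hζ.toInteger - 1 ∣ ((a + i * b : ℤ) : 𝓞 K) :=
    (IsCyclotomicExtension.Rat.zeta_sub_one_dvd_intCast_iff' p hζ).mpr hdvd
  refine ⟨i, hip, ?_⟩
  have h2 : x + hζ.toInteger ^ i * y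
      = (hζ.toInteger - 1) * (t + (∑ k ∈ range i, hζ.toInteger ^ k) * y) := by
    have := zeta_pow_sub_one_eq hζ i
    calc x + hζ.toInteger ^ i * y = (x + y) + (hζ.toInteger ^ i - 1) * y := by ring
      _ = (hζ.toInteger - 1) * (t + (∑ k ∈ range i, hζ.toInteger ^ k) * y) := by
        rw [ht, this]; ring
  rw [h2, pow_two]
  apply mul_dvd_mul_left
  have h3 : t + (∑ k ∈ range i, hζ.toInteger ^ k) * y
      = (t - (a : 𝓞 K)) + ((∑ k ∈ range i, hζ.toInteger ^ k) - (i : 𝓞 K)) * y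
        + (i : 𝓞 K) * (y - (b : 𝓞 K)) + ((a + i * b : ℤ) : 𝓞 K) := by
    push_cast; ring
  rw [h3]
  exact dvd_add (dvd_add (dvd_add ha (Dvd.dvd.mul_right (lambda_dvd_geom_sum_sub hζ i) y))
    (Dvd.dvd.mul_left hb _)) h1

/-- At most one factor `x + ζ ^ i * y` (`i < p`) is divisible by `(ζ - 1) ^ 2`. -/
theorem lambda_sq_dvd_unique {x y : 𝓞 K} (hy : ¬ hζ.toInteger - 1 ∣ y) {i j : ℕ}
    (hi : i < p) (hj : j < p) (h1 : (hζ.toInteger - 1) ^ 2 ∣ x + hζ.toInteger ^ i * y)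
    (h2 : (hζ.toInteger - 1) ^ 2 ∣ x + hζ.toInteger ^ j * y) : i = j := by
  by_contra hij
  obtain ⟨u, hu⟩ := (associated_zeta_pow_sub_zeta_pow hζ hi hj hij).symm
  have h3 : (hζ.toInteger - 1) ^ 2 ∣ (hζ.toInteger ^ i - hζ.toInteger ^ j) * y := by
    have : (hζ.toInteger ^ i - hζ.toInteger ^ j) * y
        = (x + hζ.toInteger ^ i * y) - (x + hζ.toInteger ^ j * y) := by ring
    rw [this]
    exact dvd_sub h1 h2
  rw [← hu, pow_two, mul_assoc] at h3
  have h0 : hζ.toInteger - 1 ≠ 0 := hζ.zeta_sub_one_prime'.ne_zero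
  have h4 := (mul_dvd_mul_iff_left h0).mp h3
  exact hy ((Units.dvd_mul_left).mp h4)

/-- `p` is associated to `(ζ - 1) ^ (p - 1)`. -/
theorem associated_p_lambda_pow : Associated (p : 𝓞 K) ((hζ.toInteger - 1) ^ (p - 1)) :=
  (IsCyclotomicExtension.Rat.associated_zeta_sub_one_pow_prime p hζ).symm

/-- Extract the exact power of `ζ - 1` from a nonzero element. -/
theorem exists_eq_lambda_pow_mul {c : 𝓞 K} (hc : c ≠ 0) :
    ∃ (m : ℕ) (c' : 𝓞 K), c = (hζ.toInteger - 1) ^ m * c' ∧ ¬ hζ.toInteger - 1 ∣ c' := by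
  have hfin : FiniteMultiplicity (hζ.toInteger - 1) c :=
    FiniteMultiplicity.of_not_isUnit hζ.zeta_sub_one_prime'.not_isUnit hc
  obtain ⟨c', h1, h2⟩ := hfin.exists_eq_pow_mul_and_not_dvd
  exact ⟨_, c', h1, h2⟩

end Fermat.Agent.Lib.KummerLocal
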