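import Fermat.Agent.Lib.Kummer.Defs
import Fermat.Agent.Lib.KummerLocal

set_option autoImplicit false
set_option linter.unusedSectionVars false
set_option linter.unusedVariables false

namespace Fermat.Agent.Lib.KummerCaseII

open NumberField Finset Fermat.Agent.Lib.KummerLocal

/-- Uniqueness of the exact power of a prime. -/
lemma pow_mul_eq_pow_mul_of_prime {R : Type*} [CommRing R] [IsDomain R] {π : R} (hπ : Prime π)
    {a b : ℕ} {u v : R} (hu : ¬ π ∣ u) (hv : ¬ π ∣ v) (h : π ^ a * u = π ^ b * v) :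
    a = b ∧ u = v := by
  have key : ∀ {a b : ℕ} {u v : R}, ¬ π ∣ u → π ^ a * u = π ^ b * v → ¬ a < b := by
    intro a b u v hu h hab
    obtain ⟨c, rfl⟩ := Nat.exists_eq_add_of_lt hab
    rw [pow_add, pow_add, mul_assoc, mul_assoc] at h
    have h' := mul_left_cancel₀ (pow_ne_zero a hπ.ne_zero) h
    exact hu ⟨π ^ c * v, by rw [h']; ring⟩
  have hab : a = b := le_antisymm (not_lt.mp (key hv h.symm)) (not_lt.mp (key hu h))
  subst hab
  exact ⟨rfl, mul_left_cancel₀ (pow_ne_zero a hπ.ne_zero) h⟩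

/-- In a PID, a factor coprime to its cofactor in a product equal to a unit times a `k`-th power
is a `k`-th power times a unit. -/
lemma exists_eq_pow_mul_unit {R : Type*} [CommRing R] [IsDomain R] [IsPrincipalIdealRing R]
    {a r c : R} {ε : Rˣ} {k : ℕ} (hab : IsCoprime a r) (h : a * r = ε * c ^ k) :
    ∃ (d : R) (u : Rˣ), a = d ^ k * u := by
  have h1 : Associated (c ^ k) (a * r) := ⟨ε, by rw [h, mul_comm]⟩
  obtain ⟨d, u, hu⟩ := exists_associated_pow_of_associated_pow_mul hab h1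
  exact ⟨d, u, hu.symm⟩

lemma prod_range_split {R : Type*} [CommMonoid R] (f : ℕ → R) {p q : ℕ} (hpq : p = q + 2) :
    ∏ i ∈ range p, f i = f 0 * ∏ i ∈ range (q + 1), f (i + 1) := by
  subst hpq
  rw [Finset.prod_range_succ', mul_comm]

variable {p : ℕ} [hp : Fact p.Prime] {K : Type*} [Field K] [NumberField K]
  [hK : IsCyclotomicExtension {p} ℚ K] {ζ : K} (hζ : IsPrimitiveRoot ζ p)

/-- A solution of the generalised Fermat equation `x ^ p + y ^ p = ε * (λ ^ n * w) ^ p`. -/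
def Sol (n : ℕ) : Prop :=
  ∃ (x y w : 𝓞 K) (ε : (𝓞 K)ˣ), IsCoprime x y ∧ ¬ (hζ.toInteger - 1) ∣ y ∧
    ¬ (hζ.toInteger - 1) ∣ w ∧ x ^ p + y ^ p = ε * ((hζ.toInteger - 1) ^ n * w) ^ p

lemma exists_normalized (hp2 : p ≠ 2) {n : ℕ} (hn : 1 ≤ n) (h : Sol hζ n) :
    ∃ (x y w : 𝓞 K) (ε : (𝓞 K)ˣ), IsCoprime x y ∧ ¬ (hζ.toInteger - 1) ∣ y ∧
      ¬ (hζ.toInteger - 1) ∣ w ∧ x ^ p + y ^ p = ε * ((hζ.toInteger - 1) ^ n * w) ^ p ∧
      (hζ.toInteger - 1) ^ 2 ∣ x + y := by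
  obtain ⟨x, y, w, ε, hxy, hy, hw, heq⟩ := h
  have hl : Prime (hζ.toInteger - 1) := hζ.zeta_sub_one_prime'
  have h1 : hζ.toInteger - 1 ∣ x ^ p + y ^ p := by
    rw [heq, mul_pow, ← pow_mul]
    exact Dvd.dvd.mul_left (Dvd.dvd.mul_right (dvd_pow_self _ (by
      have := hp.out.pos
      positivity)) _) _
  rw [pow_add_pow_eq_prod_range hζ hp2] at h1
  obtain ⟨i, -, hi⟩ := hl.exists_mem_finset_dvd h1
  have h2 : hζ.toInteger - 1 ∣ x + y := (lambda_dvd_add_zeta_pow_mul_iff hζ x y i).mp hi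
  obtain ⟨i0, -, hi0⟩ := exists_lambda_sq_dvd hζ h2 hy
  have hu : IsUnit (hζ.toInteger ^ i0) := (isUnit_zeta hζ).pow i0
  refine ⟨x, hζ.toInteger ^ i0 * y, w, ε, (isCoprime_mul_unit_left_right hu x y).mpr hxy,
    fun hd => hy ((hu.dvd_mul_left).mp hd), hw, ?_, hi0⟩
  rw [mul_pow, ← pow_mul, mul_comm i0 p, pow_mul, hζ.toInteger_isPrimitiveRoot.pow_eq_one,
    one_pow, one_mul, heq]

/-- The descent step: a solution with exponent `n ≥ 1` has `n ≥ 2` and yields a solution with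
exponent `n - 1`. -/
theorem descent_step [IsPrincipalIdealRing (𝓞 K)] (hp2 : p ≠ 2)
    (hKum : Fermat.Agent.Lib.Kummer.KummerLemma p K) {n : ℕ} (hn : 1 ≤ n) (h : Sol hζ n) :
    2 ≤ n ∧ Sol hζ (n - 1) := by
  obtain ⟨x, y, w, ε, hxy, hy, hw, heq, hsq⟩ := exists_normalized hζ hp2 hn h
  have hl : Prime (hζ.toInteger - 1) := hζ.zeta_sub_one_prime'
  have hl0 : hζ.toInteger - 1 ≠ 0 := hl.ne_zero
  have hzp : hζ.toInteger ^ p = 1 := hζ.toInteger_isPrimitiveRoot.pow_eq_one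
  have hp3 : 3 ≤ p := by
    have := hp.out.two_le
    omega
  obtain ⟨q, hq⟩ : ∃ q, p = q + 2 := ⟨p - 2, by omega⟩
  -- all factors are divisible by `λ`
  have hdiv : ∀ i : ℕ, hζ.toInteger - 1 ∣ x + hζ.toInteger ^ i * y := fun i =>
    (lambda_dvd_add_zeta_pow_mul_iff hζ x y i).mpr (dvd_trans (dvd_pow_self _ two_ne_zero) hsq)
  choose B hB using hdiv
  have hBl : ∀ i, 0 < i → i < p → ¬ hζ.toInteger - 1 ∣ B i := by
    intro i hi0 hip hdvd
    have h1 : (hζ.toInteger - 1) ^ 2 ∣ x + hζ.toInteger ^ i * y := by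
      rw [hB i, pow_two]
      exact mul_dvd_mul_left _ hdvd
    have h2 : (hζ.toInteger - 1) ^ 2 ∣ x + hζ.toInteger ^ 0 * y := by simpa using hsq
    have := lambda_sq_dvd_unique hζ hy hip hp.out.pos h1 h2
    omega
  have hw0 : w ≠ 0 := fun h0 => hw (h0 ▸ dvd_zero _)
  have hprod := pow_add_pow_eq_prod_range hζ hp2 x y
  have hxy0 : x + y ≠ 0 := by
    intro h0
    have h1 : x ^ p + y ^ p = 0 := by
      rw [hprod]
      apply Finset.prod_eq_zero (Finset.mem_range.mpr hp.out.pos)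
      simpa using h0
    rw [heq] at h1
    have h2 : ((hζ.toInteger - 1) ^ n * w) ^ p = 0 := by
      rcases mul_eq_zero.mp h1 with h3 | h3
      · exact absurd h3 ε.ne_zero
      · exact h3
    have h3 := pow_eq_zero_iff (hp.out.ne_zero) |>.mp h2
    rcases mul_eq_zero.mp h3 with h4 | h4
    · exact hl0 (pow_eq_zero_iff (by omega) |>.mp h4)
    · exact hw0 h4
  obtain ⟨k, A, hA, hAl⟩ := exists_eq_lambda_pow_mul hζ hxy0
  -- the product of all the factors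
  have hprod2 : x ^ p + y ^ p
      = (hζ.toInteger - 1) ^ (q + 1 + k) * (A * ∏ i ∈ range (q + 1), B (i + 1)) := by
    rw [hprod, prod_range_split (fun i => x + hζ.toInteger ^ i * y) hq]
    simp only [pow_zero, one_mul]
    rw [hA]
    have hc : ∀ i ∈ range (q + 1), x + hζ.toInteger ^ (i + 1) * y
        = (hζ.toInteger - 1) * B (i + 1) := fun i _ => hB (i + 1)
    rw [Finset.prod_congr rfl hc, Finset.prod_mul_distrib, Finset.prod_const, Finset.card_range]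
    ring
  have hkey : (hζ.toInteger - 1) ^ (q + 1 + k) * (A * ∏ i ∈ range (q + 1), B (i + 1))
      = (hζ.toInteger - 1) ^ (n * p) * ((ε : 𝓞 K) * w ^ p) := by
    rw [← hprod2, heq]
    ring
  have hnd1 : ¬ hζ.toInteger - 1 ∣ A * ∏ i ∈ range (q + 1), B (i + 1) := by
    intro hd
    rcases hl.dvd_or_dvd hd with h1 | h1
    · exact hAl h1
    · obtain ⟨i, hi, hi'⟩ := hl.exists_mem_finset_dvd h1
      have := Finset.mem_range.mp hi
      exact hBl (i + 1) (Nat.succ_pos i) (by omega) hi'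
  have hnd2 : ¬ hζ.toInteger - 1 ∣ (ε : 𝓞 K) * w ^ p := by
    intro hd
    rcases hl.dvd_or_dvd hd with h1 | h1
    · exact hl.not_isUnit (isUnit_of_dvd_unit h1 ε.isUnit)
    · exact hw (hl.dvd_of_dvd_pow h1)
  obtain ⟨hexp, hAB⟩ := pow_mul_eq_pow_mul_of_prime hl hnd1 hnd2 hkey
  -- `k ≥ 2`
  have hk2 : 2 ≤ k := by
    by_contra hk
    have hk1 : k ≤ 1 := by omega
    rw [hA] at hsq
    have h1 : (hζ.toInteger - 1) ^ k * A ∣ (hζ.toInteger - 1) ^ 1 * A :=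
      mul_dvd_mul_right (pow_dvd_pow _ hk1) A
    have h2 := dvd_trans hsq h1
    rw [pow_two, pow_one] at h2
    exact hAl ((mul_dvd_mul_iff_left hl0).mp h2)
  have hexp' : q + 1 + k = n * (q + 2) := by rw [← hq]; exact hexp
  have hn2 : 2 ≤ n := by
    by_contra hn2
    have hn1 : n = 1 := by omega
    rw [hn1] at hexp'
    omega
  obtain ⟨n', rfl⟩ : ∃ n', n = n' + 1 := ⟨n - 1, by omega⟩
  have hk : k = p * n' + 1 := by
    rw [hq]
    have : q + 1 + k = n' * (q + 2) + (q + 2) := by rw [hexp']; ring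
    have h2 : (q + 2) * n' = n' * (q + 2) := mul_comm _ _
    omega
  refine ⟨hn2, ?_⟩
  simp only [Nat.add_sub_cancel]
  -- pairwise coprimality
  have hcop : ∀ i j, i < p → j < p → i ≠ j → IsCoprime (B i) (B j) := by
    intro i j hi hj hij
    obtain ⟨u, hu⟩ := (associated_zeta_pow_sub_zeta_pow hζ hi hj hij).symm
    have e1 : (u : 𝓞 K) * y = B i - B j := by
      apply mul_left_cancel₀ hl0
      calc (hζ.toInteger - 1) * ((u : 𝓞 K) * y)
          = (hζ.toInteger ^ i - hζ.toInteger ^ j) * y := by rw [← hu]; ring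
        _ = (x + hζ.toInteger ^ i * y) - (x + hζ.toInteger ^ j * y) := by ring
        _ = (hζ.toInteger - 1) * (B i - B j) := by rw [hB i, hB j]; ring
    have e2 : (u : 𝓞 K) * x = hζ.toInteger ^ i * B j - hζ.toInteger ^ j * B i := by
      apply mul_left_cancel₀ hl0
      calc (hζ.toInteger - 1) * ((u : 𝓞 K) * x)
          = (hζ.toInteger ^ i - hζ.toInteger ^ j) * x := by rw [← hu]; ring
        _ = hζ.toInteger ^ i * (x + hζ.toInteger ^ j * y)
            - hζ.toInteger ^ j * (x + hζ.toInteger ^ i * y) := by ring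
        _ = (hζ.toInteger - 1) * (hζ.toInteger ^ i * B j - hζ.toInteger ^ j * B i) := by
          rw [hB i, hB j]; ring
    obtain ⟨a, b, hab⟩ := hxy
    have hx : x = (↑u⁻¹ : 𝓞 K) * (hζ.toInteger ^ i * B j - hζ.toInteger ^ j * B i) := by
      rw [← e2, ← mul_assoc, Units.inv_mul, one_mul]
    have hy' : y = (↑u⁻¹ : 𝓞 K) * (B i - B j) := by
      rw [← e1, ← mul_assoc, Units.inv_mul, one_mul]
    refine ⟨(↑u⁻¹ : 𝓞 K) * (b - a * hζ.toInteger ^ j),
      (↑u⁻¹ : 𝓞 K) * (a * hζ.toInteger ^ i - b), ?_⟩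
    calc (↑u⁻¹ : 𝓞 K) * (b - a * hζ.toInteger ^ j) * B i
          + (↑u⁻¹ : 𝓞 K) * (a * hζ.toInteger ^ i - b) * B j
        = a * ((↑u⁻¹ : 𝓞 K) * (hζ.toInteger ^ i * B j - hζ.toInteger ^ j * B i))
          + b * ((↑u⁻¹ : 𝓞 K) * (B i - B j)) := by ring
      _ = a * x + b * y := by rw [← hx, ← hy']
      _ = 1 := hab
  have hB0 : B 0 = (hζ.toInteger - 1) ^ (k - 1) * A := by
    apply mul_left_cancel₀ hl0
    have h0 := hB 0
    simp only [pow_zero, one_mul] at h0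
    rw [← h0, hA, ← mul_assoc, ← pow_succ']
    congr 2
    omega
  have hcopA : ∀ j, 0 < j → j < p → IsCoprime A (B j) := by
    intro j hj0 hjp
    have h1 := hcop 0 j hp.out.pos hjp (by omega)
    rw [hB0] at h1
    exact h1.of_mul_left_right
  -- extraction of `p`-th powers
  obtain ⟨ρ0, u0, hρ0⟩ : ∃ (d : 𝓞 K) (u : (𝓞 K)ˣ), A = d ^ p * u := by
    refine exists_eq_pow_mul_unit (IsCoprime.prod_right fun i hi => ?_) hAB
    have := Finset.mem_range.mp hi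
    exact hcopA (i + 1) (Nat.succ_pos i) (by omega)
  obtain ⟨ρ1, u1, hρ1⟩ : ∃ (d : 𝓞 K) (u : (𝓞 K)ˣ), B 1 = d ^ p * u := by
    have hmem : 0 ∈ range (q + 1) := Finset.mem_range.mpr (by omega)
    have hsplit := Finset.mul_prod_erase (range (q + 1)) (fun i => B (i + 1)) hmem
    simp only [zero_add] at hsplit
    have h1 : B 1 * (A * ∏ i ∈ (range (q + 1)).erase 0, B (i + 1)) = (ε : 𝓞 K) * w ^ p := by
      rw [← hAB, ← hsplit]
      ring
    refine exists_eq_pow_mul_unit (IsCoprime.mul_right (hcopA 1 one_pos (by omega)).symm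
      (IsCoprime.prod_right fun i hi => ?_)) h1
    have hi1 := Finset.mem_erase.mp hi
    have hi2 := Finset.mem_range.mp hi1.2
    exact hcop 1 (i + 1) (by omega) (by omega) (by omega)
  obtain ⟨ρ2, u2, hρ2⟩ : ∃ (d : 𝓞 K) (u : (𝓞 K)ˣ), B (q + 1) = d ^ p * u := by
    have hmem : q ∈ range (q + 1) := Finset.mem_range.mpr (by omega)
    have hsplit := Finset.mul_prod_erase (range (q + 1)) (fun i => B (i + 1)) hmem
    have h1 : B (q + 1) * (A * ∏ i ∈ (range (q + 1)).erase q, B (i + 1))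
        = (ε : 𝓞 K) * w ^ p := by
      rw [← hAB, ← hsplit]
      ring
    refine exists_eq_pow_mul_unit (IsCoprime.mul_right (hcopA (q + 1) (Nat.succ_pos q)
      (by omega)).symm (IsCoprime.prod_right fun i hi => ?_)) h1
    have hi1 := Finset.mem_erase.mp hi
    have hi2 := Finset.mem_range.mp hi1.2
    exact hcop (q + 1) (i + 1) (by omega) (by omega) (by omega)
  have hρ0l : ¬ hζ.toInteger - 1 ∣ ρ0 := fun hd =>
    hAl (hρ0 ▸ Dvd.dvd.mul_right (dvd_pow hd hp.out.ne_zero) _)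
  have hρ2l : ¬ hζ.toInteger - 1 ∣ ρ2 := fun hd =>
    hBl (q + 1) (Nat.succ_pos q) (by omega)
      (hρ2 ▸ Dvd.dvd.mul_right (dvd_pow hd hp.out.ne_zero) _)
  have hρ12 : IsCoprime ρ1 ρ2 := by
    have h1 := hcop 1 (q + 1) (by omega) (by omega) (by omega)
    rw [hρ1, hρ2] at h1
    have h2 := (isCoprime_mul_unit_right_left u1.isUnit _ _).mp h1
    have h3 := (isCoprime_mul_unit_right_right u2.isUnit _ _).mp h2
    exact (IsCoprime.pow_left_iff hp.out.pos).mp ((IsCoprime.pow_right_iff hp.out.pos).mp h3)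
  -- the three-term relation
  have h0 : x + y = (hζ.toInteger - 1) ^ k * (ρ0 ^ p * u0) := by rw [hA, hρ0]
  have h1 : x + hζ.toInteger * y = (hζ.toInteger - 1) * (ρ1 ^ p * u1) := by
    have := hB 1
    rw [pow_one] at this
    rw [this, hρ1]
  have h2 : x + hζ.toInteger ^ (q + 1) * y = (hζ.toInteger - 1) * (ρ2 ^ p * u2) := by
    rw [hB (q + 1), hρ2]
  have hz : hζ.toInteger * hζ.toInteger ^ (q + 1) = 1 := by
    have hq' : q + 1 + 1 = p := by omega
    rw [← pow_succ', hq']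
    exact hzp
  have hkl : (hζ.toInteger - 1) ^ k = (hζ.toInteger - 1) * ((hζ.toInteger - 1) ^ n') ^ p := by
    rw [hk, pow_succ', ← pow_mul, mul_comm p n']
  have hE : ρ1 ^ p * u1 + hζ.toInteger * u2 * ρ2 ^ p
      = (1 + hζ.toInteger) * ((hζ.toInteger - 1) ^ n' * ρ0) ^ p * u0 := by
    apply mul_left_cancel₀ hl0
    linear_combination (-1 : 𝓞 K) * h1 - hζ.toInteger * h2 + (1 + hζ.toInteger) * h0
      + y * hz + (1 + hζ.toInteger) * ρ0 ^ p * (u0 : 𝓞 K) * hkl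
  -- the units
  set zu : (𝓞 K)ˣ := (isUnit_zeta hζ).unit with hzu
  set oz : (𝓞 K)ˣ := (isUnit_one_add_zeta hζ hp2).unit with hoz
  have hzu' : (zu : 𝓞 K) = hζ.toInteger := IsUnit.unit_spec _
  have hoz' : (oz : 𝓞 K) = 1 + hζ.toInteger := IsUnit.unit_spec _
  set η : (𝓞 K)ˣ := zu * u2 * u1⁻¹ with hη
  set ε' : (𝓞 K)ˣ := oz * u0 * u1⁻¹ with hε'
  have hV : (u1 : 𝓞 K) * (↑u1⁻¹ : 𝓞 K) = 1 := Units.mul_inv u1
  have hF : ρ1 ^ p + (η : 𝓞 K) * ρ2 ^ p
      = (ε' : 𝓞 K) * ((hζ.toInteger - 1) ^ n' * ρ0) ^ p := by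
    rw [hη, hε']
    simp only [Units.val_mul, hzu', hoz']
    linear_combination (↑u1⁻¹ : 𝓞 K) * hE
      - (ρ1 ^ p - (1 + hζ.toInteger) * ((hζ.toInteger - 1) ^ n' * ρ0) ^ p * (u0 : 𝓞 K) * 0) * hV
  -- `p` divides the right-hand side
  have hn' : 1 ≤ n' := by omega
  have hpdvd : (p : 𝓞 K) ∣ ((hζ.toInteger - 1) ^ n' * ρ0) ^ p := by
    rw [mul_pow, ← pow_mul]
    refine Dvd.dvd.mul_right ?_ _
    refine dvd_trans (associated_p_lambda_pow hζ).dvd (pow_dvd_pow _ ?_)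
    calc p - 1 ≤ p := Nat.sub_le _ _
      _ = 1 * p := (one_mul p).symm
      _ ≤ n' * p := Nat.mul_le_mul_right p hn'
  obtain ⟨a1, -, ha1⟩ := exists_int_sub_dvd_and_pow_sub_dvd hζ ρ1
  obtain ⟨a2, ha2l, ha2⟩ := exists_int_sub_dvd_and_pow_sub_dvd hζ ρ2
  have hpa2 : ¬ (p : ℤ) ∣ a2 := by
    intro hd
    have h1 : hζ.toInteger - 1 ∣ (a2 : 𝓞 K) :=
      (IsCyclotomicExtension.Rat.zeta_sub_one_dvd_intCast_iff' p hζ).mpr hd
    exact hρ2l ((dvd_sub_left h1).mp ha2l)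
  obtain ⟨c, b, hcb⟩ : IsCoprime (p : ℤ) a2 :=
    (Nat.prime_iff_prime_int.mp hp.out).coprime_iff_not_dvd.mpr hpa2
  have hcbK : (c : 𝓞 K) * (p : 𝓞 K) + (b : 𝓞 K) * (a2 : 𝓞 K) = 1 := by
    have := congrArg (Int.cast : ℤ → 𝓞 K) hcb
    push_cast at this
    exact this
  have hη_cong : ∃ N : ℤ, (p : 𝓞 K) ∣ (η : 𝓞 K) - (N : 𝓞 K) := by
    refine ⟨-(a1 * b), ?_⟩
    obtain ⟨t1, ht1⟩ := ha1
    obtain ⟨t2, ht2⟩ := ha2
    obtain ⟨t3, ht3⟩ := hpdvd
    refine ⟨(η : 𝓞 K) * c + b * ((ε' : 𝓞 K) * t3 - (η : 𝓞 K) * t2 - t1), ?_⟩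
    push_cast
    linear_combination (-(η : 𝓞 K)) * hcbK - (b : 𝓞 K) * (η : 𝓞 K) * ht2 - (b : 𝓞 K) * ht1
      + (b : 𝓞 K) * hF + (b : 𝓞 K) * (ε' : 𝓞 K) * ht3
  obtain ⟨v, hv⟩ := hKum η hη_cong
  refine ⟨ρ1, v * ρ2, ρ0, ε', (isCoprime_mul_unit_left_right v.isUnit ρ1 ρ2).mpr hρ12,
    fun hd => hρ2l ((Units.dvd_mul_left).mp hd), hρ0l, ?_⟩
  rw [mul_pow, ← Units.val_pow_eq_pow_val, ← hv]
  exact hF

/-- There is no solution of the generalised equation with `n ≥ 1`. -/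
theorem not_sol [IsPrincipalIdealRing (𝓞 K)] (hp2 : p ≠ 2)
    (hKum : Fermat.Agent.Lib.Kummer.KummerLemma p K) : ∀ n, 1 ≤ n → ¬ Sol hζ n := by
  intro n
  induction n using Nat.strong_induction_on with
  | _ n ih =>
    intro hn hs
    obtain ⟨h2, hs'⟩ := descent_step hζ hp2 hKum hn hs
    exact ih (n - 1) (by omega) (by omega) hs'

/-- **Second case of Fermat's Last Theorem** for an odd prime `p` such that the ring of integers
of the `p`-th cyclotomic field is a PID and Kummer's lemma holds. -/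
theorem caseII_of_pid_of_kummer (p : ℕ) [hp : Fact p.Prime] (hp2 : p ≠ 2)
    (K : Type*) [Field K] [NumberField K] [IsCyclotomicExtension {p} ℚ K]
    [IsPrincipalIdealRing (𝓞 K)] (hKum : Fermat.Agent.Lib.Kummer.KummerLemma p K) :
    Fermat.Agent.Lib.Kummer.CaseII p := by
  intro a b c hc hpa hpb hpc hab heq
  have hζ := IsCyclotomicExtension.zeta_spec p ℚ K
  have hcK : (c : 𝓞 K) ≠ 0 := by exact_mod_cast hc
  obtain ⟨m, c', hc', hc'l⟩ := exists_eq_lambda_pow_mul hζ hcK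
  have hm : 1 ≤ m := by
    by_contra hm0
    have hm0' : m = 0 := by omega
    subst hm0'
    rw [pow_zero, one_mul] at hc'
    exact hc'l (hc' ▸ (IsCyclotomicExtension.Rat.zeta_sub_one_dvd_intCast_iff' p hζ).mpr hpc)
  refine not_sol hζ hp2 hKum m hm ⟨a, b, c', 1, hab.intCast, ?_, hc'l, ?_⟩
  · rwa [IsCyclotomicExtension.Rat.zeta_sub_one_dvd_intCast_iff' p hζ]
  · rw [← hc', Units.val_one, one_mul]
    exact_mod_cast congrArg (Int.cast : ℤ → 𝓞 K) heq

end Fermat.Agent.Lib.KummerCaseII
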