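import Mathlib

set_option autoImplicit false

namespace Fermat.Agent.Lib.KummerCert

open Matrix

/-- Generic certificate lemma: if `U * d a` is the explicit `ZMod p`-combination of the
independent powers `t ^ k` given by row `a` of the integer matrix `M`, and `M` has a right
inverse modulo `p`, then the family `d` is linearly independent over `ZMod p`. -/
theorem indep_of_cert {p : ℕ} {W : Type*} [CommRing W] [Algebra (ZMod p) W] {m n : ℕ} (t : W)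
    (hli : LinearIndependent (ZMod p) (fun k : Fin m => t ^ (k : ℕ)))
    (M : Matrix (Fin n) (Fin m) ℤ) (R : Matrix (Fin m) (Fin n) (ZMod p))
    (hMR : M.map (Int.cast : ℤ → ZMod p) * R = 1)
    (U : W) (d : Fin n → W)
    (hd : ∀ a, U * d a = ∑ k, ((M a k : ℤ) : W) * t ^ (k : ℕ)) :
    LinearIndependent (ZMod p) d := by
  rw [Fintype.linearIndependent_iff]
  intro c hc
  have h1 : ∑ a, c a • (U * d a) = 0 := by
    have := congrArg (fun x => U * x) hc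
    simpa [Finset.mul_sum, mul_smul_comm] using this
  have h2 : ∑ k, (∑ a, c a * (M a k : ZMod p)) • t ^ (k : ℕ) = 0 := by
    rw [← h1]
    simp_rw [hd, Finset.smul_sum, Finset.sum_smul]
    rw [Finset.sum_comm]
    refine Finset.sum_congr rfl fun a _ => Finset.sum_congr rfl fun k _ => ?_
    rw [mul_smul, Algebra.smul_def (M a k : ZMod p), map_intCast]
  have h3 := Fintype.linearIndependent_iff.mp hli _ h2
  have h4 : c ᵥ* M.map (Int.cast : ℤ → ZMod p) = 0 := by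
    funext k
    simpa [Matrix.vecMul, dotProduct] using h3 k
  have h5 : c ᵥ* (M.map (Int.cast : ℤ → ZMod p) * R) = 0 := by
    rw [← Matrix.vecMul_vecMul, h4, Matrix.zero_vecMul]
  rw [hMR, Matrix.vecMul_one] at h5
  intro a
  exact congrFun h5 a

/-- Coefficient matrix of the certificate for `p = 5`. -/
def certM5 : Matrix (Fin 2) (Fin 3) ℤ :=
  !![2, 1, 0;
    1, 1, 0]

/-- Right inverse modulo `5` of `certM5`. -/
def certR5 : Matrix (Fin 3) (Fin 2) (ZMod 5) :=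
  !![1, 4;
    4, 2;
    0, 0]

lemma certM5_mul_certR5 : certM5.map (Int.cast : ℤ → ZMod 5) * certR5 = 1 := by
  decide

/-- Certificate for `p = 5`: the log-derivative values of `ζ` and of the units
`1 + ζ + ⋯ + ζ ^ (b - 1)` (`2 ≤ b ≤ 2`) are linearly independent modulo `t ^ 3`. -/
theorem cert5 {W : Type*} [CommRing W] [Algebra (ZMod 5) W] (t : W)
    (hli : LinearIndependent (ZMod 5) (fun k : Fin 3 => t ^ (k : ℕ))) (ht : t ^ 3 = 0)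
    (d : Fin 2 → W)
    (h0 : d 0 * (1 + t) = 1)
    (h1 : d 1 * (1 + (1 + t)) = (1)) :
    LinearIndependent (ZMod 5) d := by
  have hp : (5 : W) = 0 := by
    have h := map_natCast (algebraMap (ZMod 5) W) 5
    rw [show ((5 : ℕ) : ZMod 5) = 0 from by decide, map_zero] at h
    exact_mod_cast h.symm
  refine indep_of_cert t hli certM5 certR5 certM5_mul_certR5
    ((1 + t) * (1 + (1 + t))) d ?_
  intro a
  fin_cases a
  · simp [Fin.sum_univ_succ, certM5]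
    linear_combination ((1 + (1 + t))) * h0 + (0) * ht + (0) * hp
  · simp [Fin.sum_univ_succ, certM5]
    linear_combination ((1 + t)) * h1 + (0) * ht + (0) * hp

/-- Coefficient matrix of the certificate for `p = 7`. -/
def certM7 : Matrix (Fin 3) (Fin 5) ℤ :=
  !![6, 2, 5, 1, 0;
    3, 6, 4, 1, 0;
    6, 6, 2, 2, 0]

/-- Right inverse modulo `7` of `certM7`. -/
def certR7 : Matrix (Fin 5) (Fin 3) (ZMod 7) :=
  !![5, 4, 6;
    0, 5, 1;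
    0, 0, 0;
    6, 1, 4;
    0, 0, 0]

lemma certM7_mul_certR7 : certM7.map (Int.cast : ℤ → ZMod 7) * certR7 = 1 := by
  decide

/-- Certificate for `p = 7`: the log-derivative values of `ζ` and of the units
`1 + ζ + ⋯ + ζ ^ (b - 1)` (`2 ≤ b ≤ 3`) are linearly independent modulo `t ^ 5`. -/
theorem cert7 {W : Type*} [CommRing W] [Algebra (ZMod 7) W] (t : W)
    (hli : LinearIndependent (ZMod 7) (fun k : Fin 5 => t ^ (k : ℕ))) (ht : t ^ 5 = 0)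
    (d : Fin 3 → W)
    (h0 : d 0 * (1 + t) = 1)
    (h1 : d 1 * (1 + (1 + t)) = (1))
    (h2 : d 2 * (1 + (1 + t) + (1 + t) ^ 2) = (1 + 2 * (1 + t))) :
    LinearIndependent (ZMod 7) d := by
  have hp : (7 : W) = 0 := by
    have h := map_natCast (algebraMap (ZMod 7) W) 7
    rw [show ((7 : ℕ) : ZMod 7) = 0 from by decide, map_zero] at h
    exact_mod_cast h.symm
  refine indep_of_cert t hli certM7 certR7 certM7_mul_certR7
    ((1 + t) * (1 + (1 + t)) * (1 + (1 + t) + (1 + t) ^ 2)) d ?_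
  intro a
  fin_cases a
  · simp [Fin.sum_univ_succ, certM7]
    linear_combination ((1 + (1 + t)) * (1 + (1 + t) + (1 + t) ^ 2)) * h0 + (0) * ht + (1 * t) * hp
  · simp [Fin.sum_univ_succ, certM7]
    linear_combination ((1 + t) * (1 + (1 + t) + (1 + t) ^ 2)) * h1 + (0) * ht + (0) * hp
  · simp [Fin.sum_univ_succ, certM7]
    linear_combination ((1 + t) * (1 + (1 + t))) * h2 + (0) * ht + (1 * t + 1 * t ^ 2) * hp

/-- Coefficient matrix of the certificate for `p = 11`. -/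
def certM11 : Matrix (Fin 5) (Fin 9) ℤ :=
  !![10, 6, 9, 0, 0, 1, 10, 10, 2;
    5, 0, 2, 9, 1, 0, 0, 10, 1;
    10, 9, 6, 10, 5, 0, 10, 10, 1;
    4, 5, 1, 4, 10, 0, 2, 6, 3;
    9, 10, 9, 10, 0, 10, 8, 5, 5]

/-- Right inverse modulo `11` of `certM11`. -/
def certR11 : Matrix (Fin 9) (Fin 5) (ZMod 11) :=
  !![0, 8, 1, 7, 0;
    5, 3, 10, 8, 5;
    0, 0, 0, 0, 0;
    10, 9, 5, 3, 10;
    0, 0, 0, 0, 0;
    6, 0, 2, 10, 5;
    0, 0, 0, 0, 0;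
    2, 10, 6, 7, 2;
    0, 0, 0, 0, 0]

lemma certM11_mul_certR11 : certM11.map (Int.cast : ℤ → ZMod 11) * certR11 = 1 := by
  decide

/-- Certificate for `p = 11`: the log-derivative values of `ζ` and of the units
`1 + ζ + ⋯ + ζ ^ (b - 1)` (`2 ≤ b ≤ 5`) are linearly independent modulo `t ^ 9`. -/
theorem cert11 {W : Type*} [CommRing W] [Algebra (ZMod 11) W] (t : W)
    (hli : LinearIndependent (ZMod 11) (fun k : Fin 9 => t ^ (k : ℕ))) (ht : t ^ 9 = 0)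
    (d : Fin 5 → W)
    (h0 : d 0 * (1 + t) = 1)
    (h1 : d 1 * (1 + (1 + t)) = (1))
    (h2 : d 2 * (1 + (1 + t) + (1 + t) ^ 2) = (1 + 2 * (1 + t)))
    (h3 : d 3 * (1 + (1 + t) + (1 + t) ^ 2 + (1 + t) ^ 3) = (1 + 2 * (1 + t) + 3 * (1 + t) ^ 2))
    (h4 : d 4 * (1 + (1 + t) + (1 + t) ^ 2 + (1 + t) ^ 3 + (1 + t) ^ 4) = (1 + 2 * (1 + t) + 3 * (1 + t) ^ 2 + 4 * (1 + t) ^ 3)) :
    LinearIndependent (ZMod 11) d := by
  have hp : (11 : W) = 0 := by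
    have h := map_natCast (algebraMap (ZMod 11) W) 11
    rw [show ((11 : ℕ) : ZMod 11) = 0 from by decide, map_zero] at h
    exact_mod_cast h.symm
  refine indep_of_cert t hli certM11 certR11 certM11_mul_certR11
    ((1 + t) * (1 + (1 + t)) * (1 + (1 + t) + (1 + t) ^ 2) * (1 + (1 + t) + (1 + t) ^ 2 + (1 + t) ^ 3) * (1 + (1 + t) + (1 + t) ^ 2 + (1 + t) ^ 3 + (1 + t) ^ 4)) d ?_
  intro a
  fin_cases a
  · simp [Fin.sum_univ_succ, certM11]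
    linear_combination ((1 + (1 + t)) * (1 + (1 + t) + (1 + t) ^ 2) * (1 + (1 + t) + (1 + t) ^ 2 + (1 + t) ^ 3) * (1 + (1 + t) + (1 + t) ^ 2 + (1 + t) ^ 3 + (1 + t) ^ 4)) * h0 + (14 + 1 * t) * ht + (10 + 54 * t + 131 * t ^ 2 + 200 * t ^ 3 + 209 * t ^ 4 + 156 * t ^ 5 + 83 * t ^ 6 + 31 * t ^ 7 + 8 * t ^ 8) * hp
  · simp [Fin.sum_univ_succ, certM11]
    linear_combination ((1 + t) * (1 + (1 + t) + (1 + t) ^ 2) * (1 + (1 + t) + (1 + t) ^ 2 + (1 + t) ^ 3) * (1 + (1 + t) + (1 + t) ^ 2 + (1 + t) ^ 3 + (1 + t) ^ 4)) * h1 + (13 + 1 * t) * ht + (5 + 30 * t + 78 * t ^ 2 + 126 * t ^ 3 + 141 * t ^ 4 + 112 * t ^ 5 + 64 * t ^ 6 + 25 * t ^ 7 + 7 * t ^ 8) * hp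
  · simp [Fin.sum_univ_succ, certM11]
    linear_combination ((1 + t) * (1 + (1 + t)) * (1 + (1 + t) + (1 + t) ^ 2 + (1 + t) ^ 3) * (1 + (1 + t) + (1 + t) ^ 2 + (1 + t) ^ 3 + (1 + t) ^ 4)) * h2 + (27 + 2 * t) * ht + (10 + 61 * t + 164 * t ^ 2 + 270 * t ^ 3 + 304 * t ^ 4 + 243 * t ^ 5 + 138 * t ^ 6 + 55 * t ^ 7 + 15 * t ^ 8) * hp
  · simp [Fin.sum_univ_succ, certM11]
    linear_combination ((1 + t) * (1 + (1 + t)) * (1 + (1 + t) + (1 + t) ^ 2) * (1 + (1 + t) + (1 + t) ^ 2 + (1 + t) ^ 3 + (1 + t) ^ 4)) * h3 + (41 + 3 * t) * ht + (16 + 95 * t + 259 * t ^ 2 + 431 * t ^ 3 + 486 * t ^ 4 + 388 * t ^ 5 + 220 * t ^ 6 + 87 * t ^ 7 + 23 * t ^ 8) * hp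
  · simp [Fin.sum_univ_succ, certM11]
    linear_combination ((1 + t) * (1 + (1 + t)) * (1 + (1 + t) + (1 + t) ^ 2) * (1 + (1 + t) + (1 + t) ^ 2 + (1 + t) ^ 3)) * h4 + (55 + 4 * t) * ht + (21 + 130 * t + 361 * t ^ 2 + 606 * t ^ 3 + 684 * t ^ 4 + 540 * t ^ 5 + 303 * t ^ 6 + 119 * t ^ 7 + 31 * t ^ 8) * hp

/-- Coefficient matrix of the certificate for `p = 13`. -/
def certM13 : Matrix (Fin 6) (Fin 11) ℤ :=
  !![5, 5, 2, 0, 0, 0, 12, 2, 0, 8, 2;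
    9, 7, 0, 1, 6, 10, 1, 0, 1, 10, 0;
    5, 4, 8, 6, 10, 1, 12, 1, 2, 7, 12;
    1, 4, 11, 7, 3, 10, 8, 6, 1, 4, 11;
    10, 7, 9, 11, 1, 11, 7, 3, 5, 1, 6;
    6, 0, 2, 1, 6, 1, 6, 4, 11, 5, 3]

/-- Right inverse modulo `13` of `certM13`. -/
def certR13 : Matrix (Fin 11) (Fin 6) (ZMod 13) :=
  !![10, 12, 12, 10, 11, 11;
    6, 1, 10, 5, 3, 1;
    0, 0, 0, 0, 0, 0;
    10, 5, 5, 6, 2, 6;
    0, 0, 0, 0, 0, 0;
    11, 9, 5, 12, 5, 4;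
    0, 0, 0, 0, 0, 0;
    8, 3, 7, 7, 0, 10;
    0, 0, 0, 0, 0, 0;
    6, 9, 4, 10, 1, 3;
    0, 0, 0, 0, 0, 0]

lemma certM13_mul_certR13 : certM13.map (Int.cast : ℤ → ZMod 13) * certR13 = 1 := by
  decide

/-- Certificate for `p = 13`: the log-derivative values of `ζ` and of the units
`1 + ζ + ⋯ + ζ ^ (b - 1)` (`2 ≤ b ≤ 6`) are linearly independent modulo `t ^ 11`. -/
theorem cert13 {W : Type*} [CommRing W] [Algebra (ZMod 13) W] (t : W)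
    (hli : LinearIndependent (ZMod 13) (fun k : Fin 11 => t ^ (k : ℕ))) (ht : t ^ 11 = 0)
    (d : Fin 6 → W)
    (h0 : d 0 * (1 + t) = 1)
    (h1 : d 1 * (1 + (1 + t)) = (1))
    (h2 : d 2 * (1 + (1 + t) + (1 + t) ^ 2) = (1 + 2 * (1 + t)))
    (h3 : d 3 * (1 + (1 + t) + (1 + t) ^ 2 + (1 + t) ^ 3) = (1 + 2 * (1 + t) + 3 * (1 + t) ^ 2))
    (h4 : d 4 * (1 + (1 + t) + (1 + t) ^ 2 + (1 + t) ^ 3 + (1 + t) ^ 4) = (1 + 2 * (1 + t) + 3 * (1 + t) ^ 2 + 4 * (1 + t) ^ 3))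
    (h5 : d 5 * (1 + (1 + t) + (1 + t) ^ 2 + (1 + t) ^ 3 + (1 + t) ^ 4 + (1 + t) ^ 5) = (1 + 2 * (1 + t) + 3 * (1 + t) ^ 2 + 4 * (1 + t) ^ 3 + 5 * (1 + t) ^ 4)) :
    LinearIndependent (ZMod 13) d := by
  have hp : (13 : W) = 0 := by
    have h := map_natCast (algebraMap (ZMod 13) W) 13
    rw [show ((13 : ℕ) : ZMod 13) = 0 from by decide, map_zero] at h
    exact_mod_cast h.symm
  refine indep_of_cert t hli certM13 certR13 certM13_mul_certR13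
    ((1 + t) * (1 + (1 + t)) * (1 + (1 + t) + (1 + t) ^ 2) * (1 + (1 + t) + (1 + t) ^ 2 + (1 + t) ^ 3) * (1 + (1 + t) + (1 + t) ^ 2 + (1 + t) ^ 3 + (1 + t) ^ 4) * (1 + (1 + t) + (1 + t) ^ 2 + (1 + t) ^ 3 + (1 + t) ^ 4 + (1 + t) ^ 5)) d ?_
  intro a
  fin_cases a
  · simp [Fin.sum_univ_succ, certM13]
    linear_combination ((1 + (1 + t)) * (1 + (1 + t) + (1 + t) ^ 2) * (1 + (1 + t) + (1 + t) ^ 2 + (1 + t) ^ 3) * (1 + (1 + t) + (1 + t) ^ 2 + (1 + t) ^ 3 + (1 + t) ^ 4) * (1 + (1 + t) + (1 + t) ^ 2 + (1 + t) ^ 3 + (1 + t) ^ 4 + (1 + t) ^ 5)) * h0 + (4674 + 1121 * t + 189 * t ^ 2 + 20 * t ^ 3 + 1 * t ^ 4) * ht + (55 + 415 * t + 1546 * t ^ 2 + 3750 * t ^ 3 + 6578 * t ^ 4 + 8789 * t ^ 5 + 9197 * t ^ 6 + 7648 * t ^ 7 + 5078 * t ^ 8 + 2684 * t ^ 9 + 1118 * t ^ 10) * hp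
  · simp [Fin.sum_univ_succ, certM13]
    linear_combination ((1 + t) * (1 + (1 + t) + (1 + t) ^ 2) * (1 + (1 + t) + (1 + t) ^ 2 + (1 + t) ^ 3) * (1 + (1 + t) + (1 + t) ^ 2 + (1 + t) ^ 3 + (1 + t) ^ 4) * (1 + (1 + t) + (1 + t) ^ 2 + (1 + t) ^ 3 + (1 + t) ^ 4 + (1 + t) ^ 5)) * h1 + (3859 + 968 * t + 171 * t ^ 2 + 19 * t ^ 3 + 1 * t ^ 4) * ht + (27 + 221 * t + 870 * t ^ 2 + 2213 * t ^ 3 + 4057 * t ^ 4 + 5654 * t ^ 5 + 6166 * t ^ 6 + 5340 * t ^ 7 + 3693 * t ^ 8 + 2034 * t ^ 9 + 884 * t ^ 10) * hp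
  · simp [Fin.sum_univ_succ, certM13]
    linear_combination ((1 + t) * (1 + (1 + t)) * (1 + (1 + t) + (1 + t) ^ 2 + (1 + t) ^ 3) * (1 + (1 + t) + (1 + t) ^ 2 + (1 + t) ^ 3 + (1 + t) ^ 4) * (1 + (1 + t) + (1 + t) ^ 2 + (1 + t) ^ 3 + (1 + t) ^ 4 + (1 + t) ^ 5)) * h2 + (8278 + 2056 * t + 358 * t ^ 2 + 39 * t ^ 3 + 2 * t ^ 4) * ht + (55 + 452 * t + 1804 * t ^ 2 + 4648 * t ^ 3 + 8608 * t ^ 4 + 12094 * t ^ 5 + 13267 * t ^ 6 + 11538 * t ^ 7 + 7996 * t ^ 8 + 4404 * t ^ 9 + 1907 * t ^ 10) * hp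
  · simp [Fin.sum_univ_succ, certM13]
    linear_combination ((1 + t) * (1 + (1 + t)) * (1 + (1 + t) + (1 + t) ^ 2) * (1 + (1 + t) + (1 + t) ^ 2 + (1 + t) ^ 3 + (1 + t) ^ 4) * (1 + (1 + t) + (1 + t) ^ 2 + (1 + t) ^ 3 + (1 + t) ^ 4 + (1 + t) ^ 5)) * h3 + (12905 + 3174 * t + 547 * t ^ 2 + 59 * t ^ 3 + 3 * t ^ 4) * ht + (83 + 692 * t + 2803 * t ^ 2 + 7301 * t ^ 3 + 13626 * t ^ 4 + 19236 * t ^ 5 + 21153 * t ^ 6 + 18394 * t ^ 7 + 12717 * t ^ 8 + 6972 * t ^ 9 + 2999 * t ^ 10) * hp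
  · simp [Fin.sum_univ_succ, certM13]
    linear_combination ((1 + t) * (1 + (1 + t)) * (1 + (1 + t) + (1 + t) ^ 2) * (1 + (1 + t) + (1 + t) ^ 2 + (1 + t) ^ 3) * (1 + (1 + t) + (1 + t) ^ 2 + (1 + t) ^ 3 + (1 + t) ^ 4 + (1 + t) ^ 5)) * h4 + (17575 + 4295 * t + 736 * t ^ 2 + 79 * t ^ 3 + 4 * t ^ 4) * ht + (110 + 941 * t + 3867 * t ^ 2 + 10165 * t ^ 3 + 19071 * t ^ 4 + 26973 * t ^ 5 + 29633 * t ^ 6 + 25684 * t ^ 7 + 17667 * t ^ 8 + 9626 * t ^ 9 + 4113 * t ^ 10) * hp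
  · simp [Fin.sum_univ_succ, certM13]
    linear_combination ((1 + t) * (1 + (1 + t)) * (1 + (1 + t) + (1 + t) ^ 2) * (1 + (1 + t) + (1 + t) ^ 2 + (1 + t) ^ 3) * (1 + (1 + t) + (1 + t) ^ 2 + (1 + t) ^ 3 + (1 + t) ^ 4)) * h5 + (22249 + 5416 * t + 925 * t ^ 2 + 99 * t ^ 3 + 5 * t ^ 4) * ht + (138 + 1200 * t + 4996 * t ^ 2 + 13233 * t ^ 3 + 24893 * t ^ 4 + 35173 * t ^ 5 + 38503 * t ^ 6 + 33204 * t ^ 7 + 22711 * t ^ 8 + 12305 * t ^ 9 + 5231 * t ^ 10) * hp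

end Fermat.Agent.Lib.KummerCert
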