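/-
Kummer counting bounds (generic field theory, Mathlib only).  helper63.

Used by S56 brick LF, row B2 (LF5): SEAM 1 (Count -> Main) of the level bound.

* `card_le_pow_finrank` (embedding form): `E / F` finite separable, `Ω` algebraically closed over
  `E`.  A family `s c` of non-zero elements of `E` whose `p`-th powers lie in `F` and whose
  pairwise quotients do not lie in `F` has at most `p ^ [E : F]` members:
  `c ↦ (τ ↦ τ (s c) / s c)` is an injection into maps `(E →ₐ[F] Ω) → μ_p(Ω)`.
* `finite_and_card_le` (Galois form): `L / F` finite Galois.  A family `z i` of non-zero elements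
  of `F` which are `p`-th powers in `L` and pairwise independent modulo `p`-th powers of `F` is
  finite with at most `p ^ [L : F]` members.
-/
import Mathlib

namespace Fermat.Agent.Lib.KummerCountBound

open Polynomial

section Roots

variable {L : Type*} [Field L]

lemma setOf_pow_eq_one (p : ℕ) (hp : 0 < p) :
    {x : L | x ^ p = 1} = ↑(nthRootsFinset p (1 : L)) := by
  classical
  ext x
  simp [mem_nthRootsFinset hp]

/-- The `p`-th roots of unity of a field form a finite set. -/
lemma finite_pow_eq_one (p : ℕ) (hp : 0 < p) : Finite {x : L // x ^ p = 1} := by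
  have h : {x : L | x ^ p = 1}.Finite := by
    rw [setOf_pow_eq_one p hp]
    exact Finset.finite_toSet _
  exact h.to_subtype

/-- A field has at most `p` `p`-th roots of unity. -/
lemma card_pow_eq_one_le (p : ℕ) (hp : 0 < p) : Nat.card {x : L // x ^ p = 1} ≤ p := by
  classical
  have h2 : Nat.card {x : L // x ^ p = 1} = (nthRootsFinset p (1 : L)).card := by
    rw [← Set.ncard_coe_finset, ← setOf_pow_eq_one p hp]
    rfl
  rw [h2]
  exact (Multiset.toFinset_card_le _).trans (card_nthRoots p 1)

end Roots

variable {F E Ω : Type*} [Field F] [Field E] [Field Ω] [Algebra F E] [Algebra F Ω] [Algebra E Ω]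
  [IsScalarTower F E Ω]

omit [IsScalarTower F E Ω] in
/-- An element of a finite separable extension `E / F` on which every `F`-embedding of `E` into
an algebraically closed `Ω ⊇ E` agrees with the inclusion lies in `F`. -/
theorem mem_range_of_forall_algHom_eq [FiniteDimensional F E] [Algebra.IsSeparable F E]
    [IsAlgClosed Ω] (x : E) (h : ∀ τ : E →ₐ[F] Ω, τ x = algebraMap E Ω x) :
    x ∈ (algebraMap F E).range := by
  classical
  have hint : IsIntegral F x := Algebra.IsIntegral.isIntegral x
  have hsep : (minpoly F x).Separable := Algebra.IsSeparable.isSeparable F x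
  have hsplit : ((minpoly F x).map (algebraMap F Ω)).Splits := IsAlgClosed.splits _
  have hcard := card_rootSet_eq_natDegree (K := Ω) hsep hsplit
  have hsub : ∀ y ∈ (minpoly F x).rootSet Ω, y = algebraMap E Ω x := by
    intro y hy
    rw [mem_rootSet] at hy
    obtain ⟨τ, hτ⟩ := IntermediateField.exists_algHom_of_splits_of_aeval (K := Ω)
      (fun s : E => ⟨Algebra.IsIntegral.isIntegral s, IsAlgClosed.splits _⟩) hy.2
    rw [← hτ, h τ]
  have hle : Fintype.card ((minpoly F x).rootSet Ω) ≤ 1 := by
    rw [Fintype.card_le_one_iff]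
    intro a b
    exact Subtype.ext ((hsub a a.2).trans (hsub b b.2).symm)
  have hdeg : (minpoly F x).natDegree = 1 :=
    le_antisymm (hcard ▸ hle) (minpoly.natDegree_pos hint)
  apply minpoly.mem_range_of_degree_eq_one
  rw [degree_eq_natDegree (minpoly.ne_zero hint), hdeg]
  rfl

/-- **Kummer counting bound, embedding form.** -/
theorem card_le_pow_finrank [FiniteDimensional F E] [Algebra.IsSeparable F E] [IsAlgClosed Ω]
    {p : ℕ} (hp : 0 < p) {ι : Type*} [Finite ι] (s : ι → E) (hs0 : ∀ c, s c ≠ 0)
    (hsp : ∀ c, s c ^ p ∈ (algebraMap F E).range)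
    (hne : ∀ c c', c ≠ c' → s c / s c' ∉ (algebraMap F E).range) :
    Nat.card ι ≤ p ^ Module.finrank F E := by
  classical
  have hμ := finite_pow_eq_one (L := Ω) p hp
  have hι0 : ∀ c, algebraMap E Ω (s c) ≠ 0 := fun c =>
    (map_ne_zero (algebraMap E Ω)).mpr (hs0 c)
  -- the Kummer map
  let g : ι → ((E →ₐ[F] Ω) → {x : Ω // x ^ p = 1}) := fun c τ =>
    ⟨τ (s c) / algebraMap E Ω (s c), by
      obtain ⟨z, hz⟩ := hsp c
      rw [div_pow, ← map_pow, ← map_pow, ← hz, AlgHom.commutes,
        ← IsScalarTower.algebraMap_apply, div_self]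
      rw [IsScalarTower.algebraMap_apply F E Ω, hz, map_pow]
      exact pow_ne_zero p (hι0 c)⟩
  have hg : Function.Injective g := by
    intro c c' hcc
    by_contra hne'
    refine hne c c' hne' (mem_range_of_forall_algHom_eq (Ω := Ω) _ fun τ => ?_)
    have h1 := congrArg Subtype.val (congrFun hcc τ)
    have h2 : τ (s c) / algebraMap E Ω (s c) = τ (s c') / algebraMap E Ω (s c') := h1
    have hτ' : τ (s c') ≠ 0 := (map_ne_zero τ).mpr (hs0 c')
    rw [map_div₀, map_div₀]
    rw [div_eq_div_iff (hι0 c) (hι0 c')] at h2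
    rw [div_eq_div_iff hτ' (hι0 c')]
    linear_combination h2
  have hX : Nat.card (E →ₐ[F] Ω) = Module.finrank F E :=
    AlgHom.natCard_of_splits F E Ω (fun _ => IsAlgClosed.splits _)
  have hXfin : Finite (E →ₐ[F] Ω) := by
    apply Nat.finite_of_card_ne_zero
    rw [hX]
    exact Module.finrank_pos.ne'
  calc Nat.card ι ≤ Nat.card ((E →ₐ[F] Ω) → {x : Ω // x ^ p = 1}) :=
        Nat.card_le_card_of_injective g hg
    _ = Nat.card {x : Ω // x ^ p = 1} ^ Nat.card (E →ₐ[F] Ω) := Nat.card_fun
    _ = Nat.card {x : Ω // x ^ p = 1} ^ Module.finrank F E := by rw [hX]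
    _ ≤ p ^ Module.finrank F E := Nat.pow_le_pow_left (card_pow_eq_one_le p hp) _

section Galois

variable {F L : Type*} [Field F] [Field L] [Algebra F L]

/-- **Kummer counting bound, Galois form.**  `L / F` finite Galois, `0 < p`.  If the `z i ∈ Fˣ` are `p`-th
powers in `L` and `z i / z j` is not a `p`-th power in `F` for `i ≠ j`, then the index type is
finite with at most `p ^ [L : F]` elements. -/
theorem finite_and_card_le [FiniteDimensional F L] [IsGalois F L] (p : ℕ) (hp : 0 < p)
    {ι : Type*} (z : ι → F) (hz : ∀ i, z i ≠ 0)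
    (hroot : ∀ i, ∃ y : L, y ^ p = algebraMap F L (z i))
    (hind : ∀ i j, i ≠ j → ∀ w : F, z i ≠ z j * w ^ p) :
    Finite ι ∧ Nat.card ι ≤ p ^ Module.finrank F L := by
  classical
  choose y hy using hroot
  have hy0 : ∀ i, y i ≠ 0 := by
    intro i h
    have := hy i
    rw [h, zero_pow hp.ne'] at this
    exact hz i ((FaithfulSMul.algebraMap_injective F L) (by rw [← this, map_zero]))
  have := finite_pow_eq_one (L := L) p hp
  -- the Kummer map
  let g : ι → ((L ≃ₐ[F] L) → {x : L // x ^ p = 1}) := fun i σ =>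
    ⟨σ (y i) / y i, by
      rw [div_pow, ← map_pow, hy i, AlgEquiv.commutes, div_self]
      rw [← hy i]
      exact pow_ne_zero p (hy0 i)⟩
  have hg : Function.Injective g := by
    intro i j hij
    by_contra hne
    have hfix : ∀ σ : L ≃ₐ[F] L, σ (y i / y j) = y i / y j := by
      intro σ
      have h1 := congrArg Subtype.val (congrFun hij σ)
      have h2 : σ (y i) / y i = σ (y j) / y j := h1
      have hσi : σ (y i) ≠ 0 := (map_ne_zero σ).mpr (hy0 i)
      have hσj : σ (y j) ≠ 0 := (map_ne_zero σ).mpr (hy0 j)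
      rw [map_div₀]
      rw [div_eq_div_iff (hy0 i) (hy0 j)] at h2
      rw [div_eq_div_iff hσj (hy0 j)]
      linear_combination h2
    obtain ⟨w, hw⟩ := (IsGalois.mem_range_algebraMap_iff_fixed (F := F) (E := L) _).mpr hfix
    refine hind i j hne w ?_
    apply FaithfulSMul.algebraMap_injective F L
    rw [map_mul, map_pow, hw, ← hy i, ← hy j, div_pow, mul_div_cancel₀]
    exact pow_ne_zero p (hy0 j)
  have : Finite ι := Finite.of_injective g hg
  refine ⟨inferInstance, ?_⟩
  calc Nat.card ι ≤ Nat.card ((L ≃ₐ[F] L) → {x : L // x ^ p = 1}) :=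
        Nat.card_le_card_of_injective g hg
    _ = Nat.card {x : L // x ^ p = 1} ^ Nat.card (L ≃ₐ[F] L) := Nat.card_fun
    _ = Nat.card {x : L // x ^ p = 1} ^ Module.finrank F L := by
        rw [IsGalois.card_aut_eq_finrank]
    _ ≤ p ^ Module.finrank F L := Nat.pow_le_pow_left (card_pow_eq_one_le p hp) _

end Galois

end Fermat.Agent.Lib.KummerCountBound
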