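import Mathlib
import Fermat.Agent.Lib.KummerCount

set_option autoImplicit false

namespace Fermat.Agent.Lib.KummerDescentB

open Polynomial Finset

section abstract

variable {R : Type*} [CommRing R] [IsDomain R] {p : ℕ} {z : R}

lemma dvd_add_mul_of_dvd (hp : p.Prime) (hodd : Odd p) (hz : IsPrimitiveRoot z p)
    (hπ : Prime (z - 1)) {x y : R} (h : z - 1 ∣ x ^ p + y ^ p) :
    ∀ η ∈ nthRootsFinset p (1 : R), z - 1 ∣ x + η * y := by
  rw [hz.pow_add_pow_eq_prod_add_mul x y hodd] at h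
  obtain ⟨η0, hη0, hd⟩ := hπ.exists_mem_finset_dvd h
  intro η hη
  have h1 : z - 1 ∣ η - η0 := hz.sub_one_dvd_sub hp hη hη0
  have h2 : x + η * y = (x + η0 * y) + (η - η0) * y := by ring
  rw [h2]
  exact dvd_add hd (h1.mul_right y)

omit [IsDomain R] in
lemma geom_sum_sub_natCast_dvd (z : R) (i : ℕ) :
    z - 1 ∣ (∑ k ∈ range i, z ^ k) - (i : R) := by
  have h : (∑ k ∈ range i, z ^ k) - (i : R) = ∑ k ∈ range i, (z ^ k - 1) := by
    simp [Finset.sum_sub_distrib]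
  rw [h]
  exact Finset.dvd_sum fun k _ => by simpa using sub_dvd_pow_sub_pow z 1 k

omit [IsDomain R] in
lemma exists_sq_dvd (hp : p.Prime) (hres : ∀ α : R, ∃ n : ℤ, z - 1 ∣ α - n)
    (hint : ∀ n : ℤ, z - 1 ∣ (n : R) ↔ (p : ℤ) ∣ n)
    {x y : R} (hxy : z - 1 ∣ x + y) (hy : ¬ z - 1 ∣ y) :
    ∃ i : ℕ, (z - 1) ^ 2 ∣ x + z ^ i * y := by
  obtain ⟨a, ha⟩ := hxy
  obtain ⟨na, hna⟩ := hres a
  obtain ⟨ny, hny⟩ := hres y
  have hpny : ¬ (p : ℤ) ∣ ny := by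
    intro h
    apply hy
    have h1 := (hint ny).mpr h
    have h2 : y = (y - ny) + ny := by ring
    rw [h2]
    exact dvd_add hny h1
  have hpZ : Prime (p : ℤ) := Nat.prime_iff_prime_int.mp hp
  obtain ⟨r, s, hrs⟩ := hpZ.coprime_iff_not_dvd.mpr hpny
  have hp0 : (p : ℤ) ≠ 0 := by exact_mod_cast hp.ne_zero
  obtain ⟨i, hi⟩ : ∃ i : ℕ, (i : ℤ) = (-na * s) % (p : ℤ) :=
    ⟨((-na * s) % (p : ℤ)).toNat, Int.toNat_of_nonneg (Int.emod_nonneg _ hp0)⟩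
  have hdiv : (p : ℤ) ∣ na + i * ny := by
    have h1 : (p : ℤ) ∣ (-na * s) - (i : ℤ) := by
      rw [hi]
      exact Int.dvd_self_sub_of_emod_eq rfl
    have h2 : na + i * ny = -(((-na * s) - (i : ℤ)) * ny) + na * r * p := by
      linear_combination (-na) * hrs
    rw [h2]
    exact dvd_add (dvd_neg.mpr (h1.mul_right _)) (Dvd.intro_left _ rfl)
  refine ⟨i, ?_⟩
  have hg := geom_sum_sub_natCast_dvd z i
  have h3 : x + z ^ i * y = (z - 1) * (a + (∑ k ∈ range i, z ^ k) * y) := by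
    have h4 := geom_sum_mul z i
    linear_combination ha - y * h4
  rw [h3, sq]
  apply mul_dvd_mul_left
  have h4 : a + (∑ k ∈ range i, z ^ k) * y = (a - na) + ((∑ k ∈ range i, z ^ k) - i) * y
      + i * (y - ny) + ((na + i * ny : ℤ) : R) := by
    push_cast
    ring
  rw [h4]
  exact dvd_add (dvd_add (dvd_add hna (hg.mul_right _)) (hny.mul_left _)) ((hint _).mpr hdiv)

variable [IsPrincipalIdealRing R]

/-- One step of Kummer's descent (second case), in an abstract principal ideal domain `R`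
containing a primitive `p`-th root of unity `z` such that `z - 1` is prime. -/
theorem descent_step (hp : p.Prime) (hodd : Odd p) (hz : IsPrimitiveRoot z p)
    (hπ : Prime (z - 1))
    (hres : ∀ α : R, ∃ n : ℤ, z - 1 ∣ α - n)
    (hint : ∀ n : ℤ, z - 1 ∣ (n : R) ↔ (p : ℤ) ∣ n)
    (hpdvd : (p : R) ∣ (z - 1) ^ (p - 1))
    (hfrob : ∀ α : R, ∃ n : ℤ, (p : R) ∣ α ^ p - n)
    (hK : ∀ u : Rˣ, (∃ n : ℤ, (p : R) ∣ (u : R) - n) → ∃ v : Rˣ, u = v ^ p)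
    {m : ℕ} {x y w : R} {ε : Rˣ} (hxy : IsCoprime x y) (hy : ¬ z - 1 ∣ y) (hw : ¬ z - 1 ∣ w)
    (heq : x ^ p + y ^ p = ε * (z - 1) ^ (p * (m + 1)) * w ^ p) :
    ∃ (m' : ℕ) (x' y' w' : R) (ε' : Rˣ), m = m' + 1 ∧ IsCoprime x' y' ∧ ¬ z - 1 ∣ y' ∧
      ¬ z - 1 ∣ w' ∧ x' ^ p + y' ^ p = ε' * (z - 1) ^ (p * (m' + 1)) * w' ^ p := by
  classical
  have hπ0 : z - 1 ≠ 0 := hπ.ne_zero
  have hppos : 0 < p := hp.pos
  have hzp : z ^ p = 1 := hz.pow_eq_one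
  have h1mem : (1 : R) ∈ nthRootsFinset p (1 : R) := one_mem_nthRootsFinset hppos
  -- normalise `y`
  have hdvd0 : z - 1 ∣ x ^ p + y ^ p := by
    rw [heq]
    exact Dvd.dvd.mul_right (Dvd.dvd.mul_left (dvd_pow_self _ (by positivity)) _) _
  have hxy1 : z - 1 ∣ x + y := by
    simpa using dvd_add_mul_of_dvd hp hodd hz hπ hdvd0 1 h1mem
  obtain ⟨i, hi⟩ := exists_sq_dvd hp hres hint hxy1 hy
  have hzu : IsUnit (z ^ i) := (IsUnit.of_pow_eq_one hzp hppos.ne').pow i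
  obtain ⟨y₁, hy₁⟩ : ∃ y₁, y₁ = z ^ i * y := ⟨_, rfl⟩
  have hy₁p : y₁ ^ p = y ^ p := by
    rw [hy₁, mul_pow, ← pow_mul, mul_comm i p, pow_mul, hzp, one_pow, one_mul]
  have hxy₁ : IsCoprime x y₁ := by
    rw [hy₁]
    exact (isCoprime_mul_unit_left_right hzu x y).mpr hxy
  have hy₁π : ¬ z - 1 ∣ y₁ := by
    rw [hy₁]
    exact fun h => hy ((hzu.dvd_mul_left).mp h)
  rw [← hy₁] at hi
  rw [← hy₁p] at heq hdvd0
  clear hy₁p hy₁ hxy1 hxy hy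
  -- the quotients
  have hdiv := dvd_add_mul_of_dvd hp hodd hz hπ hdvd0
  choose! a ha using hdiv
  have ha1 : z - 1 ∣ a 1 := by
    have h := ha 1 h1mem
    rw [one_mul] at h
    rw [h, sq] at hi
    exact (mul_dvd_mul_iff_left hπ0).mp hi
  have hdiff : ∀ η₁ ∈ nthRootsFinset p (1 : R), ∀ η₂ ∈ nthRootsFinset p (1 : R), η₁ ≠ η₂ →
      ∃ u : Rˣ, a η₁ - a η₂ = u * y₁ ∧ η₂ * a η₁ - η₁ * a η₂ = -(u * x) := by
    intro η₁ h₁ η₂ h₂ hne
    obtain ⟨u, hu⟩ := hz.nthRootsFinset_pairwise_associated_sub_one_sub_of_prime hp h₁ h₂ hne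
    refine ⟨u, ?_, ?_⟩
    · apply mul_left_cancel₀ hπ0
      linear_combination (ha η₂ h₂) - (ha η₁ h₁) - y₁ * hu
    · apply mul_left_cancel₀ hπ0
      linear_combination (-η₂) * (ha η₁ h₁) + η₁ * (ha η₂ h₂) + x * hu
  have hnd : ∀ η ∈ nthRootsFinset p (1 : R), η ≠ 1 → ¬ z - 1 ∣ a η := by
    intro η hη hne hdvd
    obtain ⟨u, hu, -⟩ := hdiff η hη 1 h1mem hne
    apply hy₁π
    have h2 : z - 1 ∣ (u : R) * y₁ := by
      rw [← hu]
      exact dvd_sub hdvd ha1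
    exact (u.isUnit.dvd_mul_left).mp h2
  have hcop : ∀ η₁ ∈ nthRootsFinset p (1 : R), ∀ η₂ ∈ nthRootsFinset p (1 : R), η₁ ≠ η₂ →
      IsCoprime (a η₁) (a η₂) := by
    intro η₁ h₁ η₂ h₂ hne
    obtain ⟨u, hu1, hu2⟩ := hdiff η₁ h₁ η₂ h₂ hne
    obtain ⟨r, s, hrs⟩ := hxy₁
    have hu4 : (u : R) * (↑u⁻¹ : R) = 1 := by simp
    refine ⟨-r * ↑u⁻¹ * η₂ + s * ↑u⁻¹, r * ↑u⁻¹ * η₁ - s * ↑u⁻¹, ?_⟩
    linear_combination (-r * ↑u⁻¹) * hu2 + (s * ↑u⁻¹) * hu1 + (r * x + s * y₁) * hu4 + hrs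
  have hcard : #(nthRootsFinset p (1 : R)) = p := hz.card_nthRootsFinset
  have hprod : ∏ η ∈ nthRootsFinset p (1 : R), a η = ε * (z - 1) ^ (p * m) * w ^ p := by
    have h1 : x ^ p + y₁ ^ p = (z - 1) ^ p * ∏ η ∈ nthRootsFinset p (1 : R), a η := by
      rw [hz.pow_add_pow_eq_prod_add_mul x y₁ hodd, Finset.prod_congr rfl ha,
        Finset.prod_mul_distrib, Finset.prod_const, hcard]
    rw [h1] at heq
    apply mul_left_cancel₀ (pow_ne_zero p hπ0)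
    rw [heq]
    ring
  obtain ⟨m', rfl⟩ : ∃ m', m = m' + 1 := by
    rcases m with _ | m'
    · exfalso
      have h1 : z - 1 ∣ ∏ η ∈ nthRootsFinset p (1 : R), a η :=
        ha1.trans (Finset.dvd_prod_of_mem a h1mem)
      rw [hprod, mul_zero, pow_zero, mul_one] at h1
      have h2 : z - 1 ∣ w ^ p := (ε.isUnit.dvd_mul_left).mp h1
      exact hw (hπ.dvd_of_dvd_pow h2)
    · exact ⟨m', rfl⟩
  -- three special roots of unity
  have hp3 : 3 ≤ p := by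
    rcases hodd with ⟨k, hk⟩
    have := hp.two_le
    omega
  have hzmem : z ∈ nthRootsFinset p (1 : R) := (mem_nthRootsFinset hppos 1).mpr hzp
  obtain ⟨zi, hzi⟩ : ∃ zi, zi = z ^ (p - 1) := ⟨_, rfl⟩
  have hzzi : z * zi = 1 := by
    rw [hzi, ← pow_succ', Nat.sub_add_cancel hp.one_le, hzp]
  have hzimem : zi ∈ nthRootsFinset p (1 : R) :=
    (mem_nthRootsFinset hppos 1).mpr (by rw [hzi, ← pow_mul, mul_comm, pow_mul, hzp, one_pow])
  have hzi1 : zi ≠ 1 := by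
    rw [hzi]
    exact hz.pow_ne_one_of_pos_of_lt (by omega) (by omega)
  have hzzi' : z ≠ zi := by
    intro h
    have h2 := hz.pow_inj (i := 1) (j := p - 1) (by omega) (by omega) (by rw [pow_one, ← hzi, ← h])
    omega
  -- `p`-th powers
  have hpow : ∀ η ∈ nthRootsFinset p (1 : R), ∃ (ρ : R) (u : Rˣ), a η = u * ρ ^ p := by
    intro η hη
    have h1 : a η * (↑ε⁻¹ * ∏ η' ∈ (nthRootsFinset p (1 : R)).erase η, a η')
        = ((z - 1) ^ (m' + 1) * w) ^ p := by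
      have h2 := Finset.mul_prod_erase (nthRootsFinset p (1 : R)) a hη
      have h3 : (ε : R) * (↑ε⁻¹ : R) = 1 := by simp
      rw [hprod] at h2
      generalize z - 1 = π at h2 ⊢
      linear_combination (↑ε⁻¹ : R) * h2 + (π ^ (p * (m' + 1)) * w ^ p) * h3
    have h4 : IsCoprime (a η) (↑ε⁻¹ * ∏ η' ∈ (nthRootsFinset p (1 : R)).erase η, a η') := by
      rw [isCoprime_mul_unit_left_right (Units.isUnit _)]
      exact IsCoprime.prod_right fun η' hη' =>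
        hcop η hη η' (Finset.mem_of_mem_erase hη') (Finset.ne_of_mem_erase hη').symm
    obtain ⟨ρ, u, hu⟩ := exists_associated_pow_of_mul_eq_pow' h4 h1
    exact ⟨ρ, u, by rw [← hu, mul_comm]⟩
  obtain ⟨ρ₀, u₀, hρ₀⟩ := hpow 1 h1mem
  obtain ⟨ρ₁, u₁, hρ₁⟩ := hpow z hzmem
  obtain ⟨ρ₂, u₂, hρ₂⟩ := hpow zi hzimem
  have herase := Finset.mul_prod_erase (nthRootsFinset p (1 : R)) a h1mem
  rw [hprod] at herase
  have hπa1 : (z - 1) ^ (p * (m' + 1)) ∣ a 1 := by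
    have h3 : ¬ z - 1 ∣ ∏ η' ∈ (nthRootsFinset p (1 : R)).erase 1, a η' := by
      intro h
      obtain ⟨η', hη', hd⟩ := hπ.exists_mem_finset_dvd h
      exact hnd η' (Finset.mem_of_mem_erase hη') (Finset.ne_of_mem_erase hη') hd
    apply hπ.pow_dvd_of_dvd_mul_right _ h3
    rw [herase]
    exact Dvd.dvd.mul_right (Dvd.intro_left _ rfl) _
  have hπρ₀ : (z - 1) ^ (m' + 1) ∣ ρ₀ := by
    have h1 : ((z - 1) ^ (m' + 1)) ^ p ∣ ρ₀ ^ p := by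
      rw [← pow_mul, mul_comm (m' + 1) p]
      rw [hρ₀] at hπa1
      exact (u₀.isUnit.dvd_mul_left).mp hπa1
    exact (UniqueFactorizationMonoid.pow_dvd_pow_iff_dvd hppos.ne').mp h1
  obtain ⟨ρ₀', hρ₀'⟩ := hπρ₀
  have hρ₀'π : ¬ z - 1 ∣ ρ₀' := by
    intro hd
    rw [hρ₀, hρ₀'] at herase
    have h3 : (u₀ : R) * ρ₀' ^ p * ∏ η' ∈ (nthRootsFinset p (1 : R)).erase 1, a η'
        = ε * w ^ p := by
      apply mul_left_cancel₀ (pow_ne_zero (p * (m' + 1)) hπ0)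
      generalize z - 1 = π at herase ⊢
      linear_combination herase
    have h4 : z - 1 ∣ (ε : R) * w ^ p := by
      rw [← h3]
      exact Dvd.dvd.mul_right (Dvd.dvd.mul_left (dvd_pow hd hppos.ne') _) _
    exact hw (hπ.dvd_of_dvd_pow ((ε.isUnit.dvd_mul_left).mp h4))
  -- the three-term relation
  have hrel : a z + z * a zi = (1 + z) * a 1 := by
    apply mul_left_cancel₀ hπ0
    linear_combination (-1 : R) * (ha z hzmem) - z * (ha zi hzimem) + (1 + z) * (ha 1 h1mem)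
      + y₁ * hzzi
  have hrel' : (u₁ : R) * ρ₁ ^ p + z * (u₂ * ρ₂ ^ p)
      = (1 + z) * (u₀ * ((z - 1) ^ (m' + 1) * ρ₀') ^ p) := by
    rw [← hρ₁, ← hρ₂, ← hρ₀', ← hρ₀]
    exact hrel
  have hzunit : IsUnit z := IsUnit.of_pow_eq_one hzp hppos.ne'
  have h1z : IsUnit (1 + z) := by
    have h := hz.geom_sum_isUnit hp.two_le (j := 2)
      ((Nat.coprime_primes Nat.prime_two hp).mpr (by omega))
    simpa [Finset.sum_range_succ] using h
  obtain ⟨zu, hzu'⟩ := hzunit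
  obtain ⟨ou, hou⟩ := h1z
  have hmain : ρ₁ ^ p + ((zu * u₂ * u₁⁻¹ : Rˣ) : R) * ρ₂ ^ p
      = ((ou * u₀ * u₁⁻¹ : Rˣ) : R) * (z - 1) ^ (p * (m' + 1)) * ρ₀' ^ p := by
    have h3 : (u₁ : R) * (↑u₁⁻¹ : R) = 1 := by simp
    simp only [Units.val_mul, hzu', hou]
    generalize z - 1 = π at hrel' ⊢
    linear_combination (↑u₁⁻¹ : R) * hrel' - ρ₁ ^ p * h3
  -- Kummer's lemma applies
  have hpπ : (p : R) ∣ (z - 1) ^ (p * (m' + 1)) :=
    hpdvd.trans (pow_dvd_pow _ ((Nat.sub_le p 1).trans (Nat.le_mul_of_pos_right p (Nat.succ_pos m'))))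
  obtain ⟨n₁, hn₁⟩ := hfrob ρ₁
  obtain ⟨n₂, hn₂⟩ := hfrob ρ₂
  have hρ₂π : ¬ z - 1 ∣ ρ₂ := fun h => hnd zi hzimem hzi1
    (by rw [hρ₂]; exact Dvd.dvd.mul_left (dvd_pow h hppos.ne') _)
  have hπp : z - 1 ∣ (p : R) := by
    have h := (hint (p : ℤ)).mpr dvd_rfl
    simpa using h
  have hn₂p : ¬ (p : ℤ) ∣ n₂ := by
    intro h
    apply hρ₂π
    apply hπ.dvd_of_dvd_pow (n := p)
    have h1 : z - 1 ∣ (n₂ : R) := (hint n₂).mpr h
    have h2 : z - 1 ∣ ρ₂ ^ p - n₂ := hπp.trans hn₂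
    have h3 : ρ₂ ^ p = (ρ₂ ^ p - n₂) + n₂ := by ring
    rw [h3]
    exact dvd_add h2 h1
  have hpZ : Prime (p : ℤ) := Nat.prime_iff_prime_int.mp hp
  obtain ⟨r, s, hrs⟩ := hpZ.coprime_iff_not_dvd.mpr hn₂p
  have hη₀int : ∃ n : ℤ, (p : R) ∣ ((zu * u₂ * u₁⁻¹ : Rˣ) : R) - n := by
    refine ⟨-(s * n₁), ?_⟩
    have h1 : (p : R) ∣ ρ₁ ^ p + ((zu * u₂ * u₁⁻¹ : Rˣ) : R) * ρ₂ ^ p := by
      rw [hmain]
      exact Dvd.dvd.mul_right (Dvd.dvd.mul_left hpπ _) _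
    have hrs' : (r : R) * p + s * n₂ = 1 := by
      exact_mod_cast congrArg (Int.cast : ℤ → R) hrs
    have h2 : ((zu * u₂ * u₁⁻¹ : Rˣ) : R) - ((-(s * n₁) : ℤ) : R)
        = s * (ρ₁ ^ p + ((zu * u₂ * u₁⁻¹ : Rˣ) : R) * ρ₂ ^ p) - s * (ρ₁ ^ p - n₁)
          - s * ((zu * u₂ * u₁⁻¹ : Rˣ) : R) * (ρ₂ ^ p - n₂)
          + ((zu * u₂ * u₁⁻¹ : Rˣ) : R) * r * p := by
      push_cast
      linear_combination (-((zu : R) * u₂ * ↑u₁⁻¹)) * hrs'
    rw [h2]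
    exact dvd_add (dvd_sub (dvd_sub (h1.mul_left _) (hn₁.mul_left _)) (hn₂.mul_left _))
      (Dvd.intro_left _ rfl)
  obtain ⟨v, hv⟩ := hK _ hη₀int
  refine ⟨m', ρ₁, v * ρ₂, ρ₀', ou * u₀ * u₁⁻¹, rfl, ?_, ?_, hρ₀'π, ?_⟩
  · have h1 := hcop z hzmem zi hzimem hzzi'
    rw [hρ₁, hρ₂, isCoprime_mul_unit_left_left u₁.isUnit,
      isCoprime_mul_unit_left_right u₂.isUnit] at h1
    have h3 : IsCoprime ρ₁ ρ₂ := (IsCoprime.pow_iff hppos hppos).mp h1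
    exact (isCoprime_mul_unit_left_right v.isUnit ρ₁ ρ₂).mpr h3
  · exact fun h => hρ₂π ((v.isUnit.dvd_mul_left).mp h)
  · rw [mul_pow, ← Units.val_pow_eq_pow_val, ← hv]
    exact hmain

/-- Kummer's descent (second case) in an abstract principal ideal domain: the equation
`x ^ p + y ^ p = ε * (z - 1) ^ (p * (m + 1)) * w ^ p` has no solution with `x, y` coprime and
`y, w` prime to `z - 1`. -/
theorem no_solution (hp : p.Prime) (hodd : Odd p) (hz : IsPrimitiveRoot z p)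
    (hπ : Prime (z - 1))
    (hres : ∀ α : R, ∃ n : ℤ, z - 1 ∣ α - n)
    (hint : ∀ n : ℤ, z - 1 ∣ (n : R) ↔ (p : ℤ) ∣ n)
    (hpdvd : (p : R) ∣ (z - 1) ^ (p - 1))
    (hfrob : ∀ α : R, ∃ n : ℤ, (p : R) ∣ α ^ p - n)
    (hK : ∀ u : Rˣ, (∃ n : ℤ, (p : R) ∣ (u : R) - n) → ∃ v : Rˣ, u = v ^ p) :
    ∀ (m : ℕ) (x y w : R) (ε : Rˣ), IsCoprime x y → ¬ z - 1 ∣ y → ¬ z - 1 ∣ w →
      x ^ p + y ^ p ≠ ε * (z - 1) ^ (p * (m + 1)) * w ^ p := by
  intro m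
  induction m with
  | zero =>
    intro x y w ε hxy hy hw heq
    obtain ⟨m', -, -, -, -, hm, -⟩ :=
      descent_step hp hodd hz hπ hres hint hpdvd hfrob hK hxy hy hw heq
    omega
  | succ m ih =>
    intro x y w ε hxy hy hw heq
    obtain ⟨m', x', y', w', ε', hm, hxy', hy', hw', heq'⟩ :=
      descent_step hp hodd hz hπ hres hint hpdvd hfrob hK hxy hy hw heq
    obtain rfl : m' = m := by omega
    exact ih x' y' w' ε' hxy' hy' hw' heq'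

end abstract

section numberfield

open NumberField

variable {p : ℕ} [hp : Fact p.Prime] {K : Type*} [Field K] [NumberField K]
  [IsCyclotomicExtension {p} ℚ K]

lemma exists_int_sub_dvd {ζ : K} (hζ : IsPrimitiveRoot ζ p) (α : 𝓞 K) :
    ∃ n : ℤ, hζ.toInteger - 1 ∣ α - n := by
  have : NeZero p := ⟨hp.out.ne_zero⟩
  have htop : Algebra.adjoin ℤ {hζ.toInteger} = ⊤ := by
    rw [← hζ.integralPowerBasis_gen]
    exact hζ.integralPowerBasis.adjoin_gen_eq_top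
  have hmem : α ∈ Algebra.adjoin ℤ {hζ.toInteger} := htop ▸ Algebra.mem_top
  induction hmem using Algebra.adjoin_induction with
  | mem x hx =>
    rw [Set.mem_singleton_iff] at hx
    subst hx
    exact ⟨1, by simp⟩
  | algebraMap r => exact ⟨r, by simp⟩
  | add x y hx hy ihx ihy =>
    obtain ⟨n, hn⟩ := ihx
    obtain ⟨m, hm⟩ := ihy
    refine ⟨n + m, ?_⟩
    have h1 : x + y - ((n + m : ℤ) : 𝓞 K) = (x - n) + (y - m) := by
      push_cast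
      ring
    rw [h1]
    exact dvd_add hn hm
  | mul x y hx hy ihx ihy =>
    obtain ⟨n, hn⟩ := ihx
    obtain ⟨m, hm⟩ := ihy
    refine ⟨n * m, ?_⟩
    have h1 : x * y - ((n * m : ℤ) : 𝓞 K) = (x - n) * y + n * (y - m) := by
      push_cast
      ring
    rw [h1]
    exact dvd_add (hn.mul_right _) (hm.mul_left _)

/-- **Second case of Fermat's Last Theorem** for an odd prime `p` such that the ring of integers of
the `p`-th cyclotomic field is a principal ideal domain and Kummer's lemma holds. -/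
theorem caseII (hp2 : p ≠ 2) [IsPrincipalIdealRing (𝓞 K)]
    (hK : ∀ u : (𝓞 K)ˣ, (∃ n : ℤ, (p : 𝓞 K) ∣ (u : 𝓞 K) - n) → ∃ v : (𝓞 K)ˣ, u = v ^ p)
    {x y z : ℤ} (hxy : IsCoprime x y) (hz : z ≠ 0) (hpz : (p : ℤ) ∣ z) :
    x ^ p + y ^ p ≠ z ^ p := by
  intro h
  have : NeZero p := ⟨hp.out.ne_zero⟩
  have hodd : Odd p := hp.out.odd_of_ne_two hp2
  have hζ := IsCyclotomicExtension.zeta_spec p ℚ K
  have hpZ : Prime (p : ℤ) := Nat.prime_iff_prime_int.mp hp.out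
  have hint : ∀ n : ℤ, hζ.toInteger - 1 ∣ (n : 𝓞 K) ↔ (p : ℤ) ∣ n := fun n =>
    IsCyclotomicExtension.Rat.zeta_sub_one_dvd_intCast_iff' p hζ
  -- `p ∤ y`
  have hpy : ¬ (p : ℤ) ∣ y := by
    intro hy
    have h1 : (p : ℤ) ∣ x ^ p := by
      have h2 : x ^ p = z ^ p - y ^ p := by linarith
      rw [h2]
      exact dvd_sub (dvd_pow hpz hp.out.ne_zero) (dvd_pow hy hp.out.ne_zero)
    exact hpZ.not_isUnit (hxy.isUnit_of_dvd' (hpZ.dvd_of_dvd_pow h1) hy)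
  -- write `z = p ^ k * c`
  have hfin : FiniteMultiplicity (p : ℤ) z :=
    Int.finiteMultiplicity_iff.mpr ⟨by simpa using hp.out.ne_one, hz⟩
  obtain ⟨c, hc, hpc⟩ := hfin.exists_eq_pow_mul_and_not_dvd
  obtain ⟨k, hk⟩ : ∃ k, k = multiplicity (p : ℤ) z := ⟨_, rfl⟩
  rw [← hk] at hc
  have hk0 : k ≠ 0 := by
    rintro rfl
    rw [pow_zero, one_mul] at hc
    exact hpc (hc ▸ hpz)
  obtain ⟨u, hu⟩ := IsCyclotomicExtension.Rat.associated_zeta_sub_one_pow_prime p hζ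
  obtain ⟨M, hM⟩ : ∃ M, (p - 1) * k = M + 1 := by
    have h1 : 0 < (p - 1) * k :=
      Nat.mul_pos (Nat.sub_pos_of_lt hp.out.one_lt) (Nat.pos_of_ne_zero hk0)
    exact ⟨(p - 1) * k - 1, by omega⟩
  have hzK : ((z : ℤ) : 𝓞 K) ^ p
      = ((u ^ (k * p) : (𝓞 K)ˣ) : 𝓞 K) * (hζ.toInteger - 1) ^ (p * (M + 1)) * ((c : ℤ) : 𝓞 K) ^ p := by
    rw [hc, ← hM]
    push_cast
    rw [← hu]
    generalize hζ.toInteger - 1 = π
    ring
  have hxyK : IsCoprime ((x : ℤ) : 𝓞 K) ((y : ℤ) : 𝓞 K) := hxy.intCast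
  have hyK : ¬ hζ.toInteger - 1 ∣ ((y : ℤ) : 𝓞 K) := fun hd => hpy ((hint y).mp hd)
  have hcK : ¬ hζ.toInteger - 1 ∣ ((c : ℤ) : 𝓞 K) := fun hd => hpc ((hint c).mp hd)
  have hres : ∀ α : 𝓞 K, ∃ n : ℤ, hζ.toInteger - 1 ∣ α - n := exists_int_sub_dvd hζ
  have hfrob : ∀ α : 𝓞 K, ∃ n : ℤ, (p : 𝓞 K) ∣ α ^ p - n :=
    fun α => Fermat.Agent.Lib.KummerCount.exists_int_sub_pow_prime_dvd α
  have heqK : ((x : ℤ) : 𝓞 K) ^ p + ((y : ℤ) : 𝓞 K) ^ p = ((z : ℤ) : 𝓞 K) ^ p := by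
    exact_mod_cast congrArg (Int.cast : ℤ → 𝓞 K) h
  rw [hzK] at heqK
  exact no_solution hp.out hodd hζ.toInteger_isPrimitiveRoot hζ.zeta_sub_one_prime' hres hint
    (Associated.symm ⟨u, hu⟩).dvd hfrob hK M _ _ _ _ hxyK hyK hcK heqK

end numberfield

end Fermat.Agent.Lib.KummerDescentB
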