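import Mathlib

/-!
# Transfer of a local parameter along a ring map which is surjective modulo `π`

Level-free, Mathlib only (Program FG / S19, Route C, bricks `EQ`/`COS`: the inertia-fixed local
parameter at a closed point of the special fibre).

`LocGenAt p y Q` is the elementwise form of "`Q · C_Q = (p, y) · C_Q`":
every `m ∈ Q` has a multiple `s * m ∈ (p, y)` with `s ∉ Q`.

Let `ι : C' →+* C` be a ring homomorphism with `ι π' ∈ (π)` which is surjective modulo `π`
(`∀ x, ∃ x', x - ι x' ∈ (π)`; for the chart rings over a totally ramified extension `O' ⊆ O` of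
discrete valuation rings with the same residue field this is base change).  Then for every
maximal ideal `Q ∋ π` of `C`:

* `isMaximal_comap_of_surj_mod` : `Q.comap ι` is a maximal ideal of `C'`;
* `locGenAt_map` : a local parameter `t0` of `Q.comap ι` (with `π'`) maps to a local parameter
  `ι t0` of `Q` (with `π`);
* `exists_param_map` : if `C'` is regular modulo `π'` at all closed points, `Q` has a local
  parameter in the image of `ι`.

Finally, `not_mem_sq_sup_of_locGenAt` : a local parameter `τ ∈ Q` does not lie in `Q² + (p)`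
(when `C ⧸ (p)` is a noetherian domain and `Q ≠ (p)`).
-/

set_option autoImplicit false

namespace Fermat.Agent.Lib.LocParamTransfer

/-- `Q` is locally generated by `p` and `y` (`Q · C_Q = (p, y) · C_Q`), elementwise. -/
def LocGenAt {C : Type*} [CommRing C] (p y : C) (Q : Ideal C) : Prop :=
  ∀ m ∈ Q, ∃ s, s ∉ Q ∧ s * m ∈ Ideal.span {p, y}

section Transfer

variable {C' C : Type*} [CommRing C'] [CommRing C] (ι : C' →+* C)

/-- If `ι` is surjective modulo `π`, the contraction of a maximal ideal containing `π` is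
maximal. -/
theorem isMaximal_comap_of_surj_mod {π : C}
    (hS : ∀ x : C, ∃ x' : C', x - ι x' ∈ Ideal.span {π}) (Q : Ideal C) (hQ : Q.IsMaximal)
    (hπQ : π ∈ Q) : (Q.comap ι).IsMaximal := by
  have hπle : Ideal.span {π} ≤ Q := (Ideal.span_singleton_le_iff_mem (I := Q)).mpr hπQ
  let _ := Ideal.Quotient.field Q
  have hsurj : Function.Surjective ((Ideal.Quotient.mk Q).comp ι) := by
    intro y
    obtain ⟨x, rfl⟩ := Ideal.Quotient.mk_surjective y
    obtain ⟨x', hx'⟩ := hS x
    refine ⟨x', ?_⟩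
    rw [RingHom.comp_apply, eq_comm, Ideal.Quotient.eq]
    exact hπle hx'
  have hker : Q.comap ι = RingHom.ker ((Ideal.Quotient.mk Q).comp ι) := by
    ext x
    rw [Ideal.mem_comap, RingHom.mem_ker, RingHom.comp_apply, Ideal.Quotient.eq_zero_iff_mem]
  rw [hker]
  exact RingHom.ker_isMaximal_of_surjective _ hsurj

/-- **Transfer of a local parameter.** -/
theorem locGenAt_map {π' : C'} {π : C} (hπ : ι π' ∈ Ideal.span {π})
    (hS : ∀ x : C, ∃ x' : C', x - ι x' ∈ Ideal.span {π}) (Q : Ideal C) (hπQ : π ∈ Q)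
    {t0 : C'} (h : LocGenAt π' t0 (Q.comap ι)) : LocGenAt π (ι t0) Q := by
  intro m hm
  have hπle : Ideal.span {π} ≤ Q := (Ideal.span_singleton_le_iff_mem (I := Q)).mpr hπQ
  have hle : Ideal.span {π} ≤ Ideal.span {π, ι t0} := Ideal.span_mono (by simp)
  obtain ⟨m', hm'⟩ := hS m
  have hm'Q : m' ∈ Q.comap ι := by
    rw [Ideal.mem_comap]
    have h0 : ι m' = m - (m - ι m') := by ring
    rw [h0]
    exact Q.sub_mem hm (hπle hm')
  obtain ⟨s', hs', hsm'⟩ := h m' hm'Q
  refine ⟨ι s', fun hs => hs' (Ideal.mem_comap.mpr hs), ?_⟩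
  have h1 : ι s' * m = ι (s' * m') + ι s' * (m - ι m') := by rw [map_mul]; ring
  rw [h1]
  refine Ideal.add_mem _ ?_ (Ideal.mul_mem_left _ _ (hle hm'))
  have h2 : Ideal.span {π', t0} ≤ (Ideal.span {π, ι t0}).comap ι := by
    rw [Ideal.span_le]
    rintro x (rfl | rfl)
    · exact Ideal.mem_comap.mpr (hle hπ)
    · exact Ideal.mem_comap.mpr (Ideal.subset_span (by simp))
  exact h2 hsm'

/-- **A local parameter in the image of `ι`** at every maximal ideal containing `π`, if `C'` is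
regular modulo `π'` at every maximal ideal containing `π'`. -/
theorem exists_param_map {π' : C'} {π : C} (hπ : ι π' ∈ Ideal.span {π})
    (hS : ∀ x : C, ∃ x' : C', x - ι x' ∈ Ideal.span {π})
    (hreg : ∀ Q' : Ideal C', Q'.IsMaximal → π' ∈ Q' → ∃ z ∈ Q', LocGenAt π' z Q')
    (Q : Ideal C) (hQ : Q.IsMaximal) (hπQ : π ∈ Q) :
    ∃ t0 : C', ι t0 ∈ Q ∧ LocGenAt π (ι t0) Q := by
  have hπle : Ideal.span {π} ≤ Q := (Ideal.span_singleton_le_iff_mem (I := Q)).mpr hπQ
  have hπ'Q : π' ∈ Q.comap ι := Ideal.mem_comap.mpr (hπle hπ)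
  obtain ⟨z, hz, hloc⟩ := hreg _ (isMaximal_comap_of_surj_mod ι hS Q hQ hπQ) hπ'Q
  exact ⟨z, Ideal.mem_comap.mp hz, locGenAt_map ι hπ hS Q hπQ hloc⟩

end Transfer

/-- **A local parameter is not in `Q² + (p)`**, if `C ⧸ (p)` is a noetherian domain and `Q` is a
maximal ideal different from `(p)`. -/
theorem not_mem_sq_sup_of_locGenAt {C : Type*} [CommRing C] {p τ : C} (hp : Prime p)
    [IsNoetherianRing (C ⧸ Ideal.span {p})] {Q : Ideal C} (hQ : Q.IsMaximal) (hpQ : p ∈ Q)
    (hτ : τ ∈ Q) (h : LocGenAt p τ Q) (hne : ∃ x ∈ Q, ¬ p ∣ x) :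
    τ ∉ Q ^ 2 ⊔ Ideal.span {p} := by
  intro hτI
  have _ := hτ
  have hpI : p ∈ Q ^ 2 ⊔ Ideal.span {p} := Ideal.mem_sup_right (Ideal.subset_span rfl)
  have hπle : Ideal.span {p} ≤ Q := (Ideal.span_singleton_le_iff_mem (I := Q)).mpr hpQ
  -- step 1: `Q ≤ Q² + (p)`
  have hQI : Q ≤ Q ^ 2 ⊔ Ideal.span {p} := by
    intro m hm
    obtain ⟨s, hs, hsm⟩ := h m hm
    have hsmI : s * m ∈ Q ^ 2 ⊔ Ideal.span {p} := by
      have h1 : Ideal.span {p, τ} ≤ Q ^ 2 ⊔ Ideal.span {p} := by
        rw [Ideal.span_le]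
        rintro x (rfl | rfl)
        · exact hpI
        · exact hτI
      exact h1 hsm
    obtain ⟨a, q, hq, haq⟩ := hQ.exists_inv hs
    have h2 : m = a * (s * m) + q * m := by linear_combination (-m) * haq
    rw [h2]
    refine Ideal.add_mem _ (Ideal.mul_mem_left _ a hsmI) (Ideal.mem_sup_left ?_)
    rw [pow_two]
    exact Ideal.mul_mem_mul hq hm
  -- step 2: Nakayama in `C ⧸ (p)`
  have : (Ideal.span {p} : Ideal C).IsPrime := (Ideal.span_singleton_prime hp.ne_zero).mpr hp
  have hle : Q.map (Ideal.Quotient.mk (Ideal.span {p}))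
      ≤ Q.map (Ideal.Quotient.mk (Ideal.span {p})) • Q.map (Ideal.Quotient.mk (Ideal.span {p})) := by
    have h1 := Ideal.map_mono (f := Ideal.Quotient.mk (Ideal.span {p})) hQI
    rw [Ideal.map_sup, Ideal.map_pow, Ideal.map_quotient_self, sup_bot_eq, pow_two] at h1
    rw [smul_eq_mul]
    exact h1
  obtain ⟨r, hr1, hr0⟩ := Submodule.exists_sub_one_mem_and_smul_eq_zero_of_fg_of_le_smul
    (Q.map (Ideal.Quotient.mk (Ideal.span {p}))) (Q.map (Ideal.Quotient.mk (Ideal.span {p})))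
    (IsNoetherian.noetherian _) hle
  obtain ⟨x, hxQ, hpx⟩ := hne
  have hx0 : Ideal.Quotient.mk (Ideal.span {p}) x ≠ 0 := by
    rw [Ne, Ideal.Quotient.eq_zero_iff_mem, Ideal.mem_span_singleton]
    exact hpx
  have hrx : r * Ideal.Quotient.mk (Ideal.span {p}) x = 0 :=
    hr0 _ (Ideal.mem_map_of_mem _ hxQ)
  have hr : r = 0 := (mul_eq_zero.mp hrx).resolve_right hx0
  have h1 : (1 : C ⧸ Ideal.span {p}) ∈ Q.map (Ideal.Quotient.mk (Ideal.span {p})) := by
    have h3 := Ideal.neg_mem_iff _ |>.mpr hr1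
    rw [hr] at h3
    simpa using h3
  obtain ⟨q, hq, hq1⟩ :=
    (Ideal.mem_map_iff_of_surjective _ Ideal.Quotient.mk_surjective).mp h1
  have h2 : q - 1 ∈ Ideal.span {p} := by
    rw [← Ideal.Quotient.eq, hq1, map_one]
  have h3 : (1 : C) ∈ Q := by
    have h4 : (1 : C) = q - (q - 1) := by ring
    rw [h4]
    exact Q.sub_mem hq (hπle h2)
  exact hQ.ne_top ((Ideal.eq_top_iff_one Q).mpr h3)

end Fermat.Agent.Lib.LocParamTransfer
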