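import Mathlib
import Fermat.Agent.S24.FF.Dedekind

/-!
# `LocPow` from divisibility of orders at all places (generic function-field lemma)

`E` a field of characteristic zero, `L / E(t)` finite, `t` transcendental over `E`.
If `p ∣ ord_P g` for every place `P` of `L / E`, then for every irreducible `f ∈ E[X]` there is
`τ ≠ 0` in `L` such that `g / τ ^ p` and `τ ^ p / g` are integral over `E[t]` after multiplication
by an element of `E[t]` not divisible by `f(t)`.  The conclusion of `locPow_of_places` is, for
each `f`, the literal body of `Fermat.Agent.S30.Model.LocPow` (this file does not import the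
skeleton `S30/Model/Main.lean`): `fun f hf => locPow_of_places t ht p g hg h f hf` has type
`Model.LocPow (E := E) p t g`.

Proof: `B` = integral closure of `E[t]` in `L` is a Dedekind domain; weak approximation (CRT)
gives `τ` with `v_Q(τ) = v_Q(g) / p` at the finitely many primes `Q ∣ f(t)`; an element of `L`
without poles at those primes becomes integral after clearing the part of a denominator in
`E[t]` that is prime to `f(t)`.
-/

set_option autoImplicit false
set_option linter.unusedSectionVars false
set_option linter.style.haveILetI false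

namespace Fermat.Agent.Lib.LocPowPlaces

open IsDedekindDomain WithZero Polynomial AlgebraicCurve IntermediateField
open scoped IntermediateField.algebraAdjoinAdjoin


section Dedekind

variable {B : Type*} [CommRing B] [IsDedekindDomain B]
  {L : Type*} [Field L] [Algebra B L] [IsFractionRing B L]

/-- A uniformiser at `Q` which is a unit at the other primes of a finite set. -/
theorem exists_uniformizer_away (s : Finset (HeightOneSpectrum B)) (Q : HeightOneSpectrum B) :
    ∃ y : B, Q.intValuation y = exp (-1 : ℤ) ∧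
      ∀ Q' ∈ s, Q' ≠ Q → Q'.intValuation y = 1 := by
  classical
  obtain ⟨u, hu⟩ := Q.intValuation_exists_uniformizer
  obtain ⟨y, hy⟩ := IsDedekindDomain.exists_forall_sub_mem_ideal (s := insert Q s)
    (fun Q' : HeightOneSpectrum B => Q'.asIdeal) (fun _ => 2)
    (fun Q' _ => Q'.prime) (fun Q₁ _ Q₂ _ h12 h => h12 (HeightOneSpectrum.ext h))
    (fun Q' => if (Q' : HeightOneSpectrum B) = Q then u else 1)
  refine ⟨y, ?_, ?_⟩
  · have h1 := hy Q (Finset.mem_insert_self Q s)
    simp only [if_true] at h1
    have h2 : Q.intValuation (y - u) ≤ exp (-((2 : ℕ) : ℤ)) :=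
      (Q.intValuation_le_pow_iff_mem _ 2).mpr h1
    have h3 : Q.intValuation (y - u) < Q.intValuation u := by
      rw [hu]
      refine lt_of_le_of_lt h2 ?_
      rw [exp_lt_exp]
      norm_num
    have h4 : y = u + (y - u) := by ring
    rw [h4, Valuation.map_add_eq_of_lt_left _ h3, hu]
  · intro Q' hQ' hne
    have h1 := hy Q' (Finset.mem_insert_of_mem hQ')
    simp only [hne, if_false] at h1
    have h2 : Q'.intValuation (y - 1) ≤ exp (-((2 : ℕ) : ℤ)) :=
      (Q'.intValuation_le_pow_iff_mem _ 2).mpr h1
    have h3 : Q'.intValuation (y - 1) < Q'.intValuation 1 := by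
      rw [map_one]
      refine lt_of_le_of_lt h2 ?_
      rw [← exp_zero, exp_lt_exp]
      norm_num
    have h4 : y = 1 + (y - 1) := by ring
    rw [h4, Valuation.map_add_eq_of_lt_left _ h3, map_one]

/-- Weak approximation, multiplicative form: prescribed valuations at finitely many primes. -/
theorem exists_valuation_eq (s : Finset (HeightOneSpectrum B)) (m : HeightOneSpectrum B → ℤ) :
    ∃ τ : L, τ ≠ 0 ∧ ∀ Q ∈ s, Q.valuation L τ = exp (-(m Q)) := by
  classical
  choose y hy1 hy2 using fun Q : HeightOneSpectrum B => exists_uniformizer_away s Q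
  have hy0 : ∀ Q, algebraMap B L (y Q) ≠ 0 := by
    intro Q h0
    have : y Q = 0 := by
      have := (IsFractionRing.injective B L)
      exact this (by rw [h0, map_zero])
    have h1 := hy1 Q
    rw [this, map_zero] at h1
    exact WithZero.zero_ne_coe h1
  refine ⟨∏ Q ∈ s, algebraMap B L (y Q) ^ (m Q), ?_, ?_⟩
  · rw [Finset.prod_ne_zero_iff]
    intro Q _
    exact zpow_ne_zero _ (hy0 Q)
  · intro Q hQ
    rw [map_prod, Finset.prod_eq_single Q]
    · rw [map_zpow₀, HeightOneSpectrum.valuation_of_algebraMap, hy1 Q, ← exp_zsmul]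
      simp
    · intro Q' hQ' hne
      rw [map_zpow₀, HeightOneSpectrum.valuation_of_algebraMap, hy2 Q' Q hQ (Ne.symm hne),
        one_zpow]
    · intro h
      exact absurd hQ h

end Dedekind



section LocalInt

variable {A B L : Type*} [CommRing A] [IsDomain A] [WfDvdMonoid A]
  [CommRing B] [IsDedekindDomain B] [Field L]
  [Algebra A B] [Algebra B L] [Algebra A L] [IsScalarTower A B L] [IsFractionRing B L]
  [IsIntegralClosure B A L]

/-- If `z` has no pole at the primes of `B` above the non-unit `q` of `A`, then `s • z` is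
integral over `A` for some `s : A` not divisible by `q`. -/
theorem exists_not_dvd_isIntegral_smul (q : A) (hq : ¬ IsUnit q) (z : L) (hz : IsAlgebraic A z)
    (hval : ∀ Q : HeightOneSpectrum B, algebraMap A B q ∈ Q.asIdeal → Q.valuation L z ≤ 1) :
    ∃ s : A, ¬ q ∣ s ∧ IsIntegral A (s • z) := by
  obtain ⟨y, hy0, hy⟩ := hz.exists_integral_multiple
  obtain ⟨n, s, hs, rfl⟩ := WfDvdMonoid.max_power_factor' hy0 hq
  obtain ⟨b, hb⟩ := (IsIntegralClosure.isIntegral_iff (A := B)).mp hy
  refine ⟨s, hs, ?_⟩
  have hmem : algebraMap A L s * z ∈ (algebraMap B L).range := by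
    apply HeightOneSpectrum.mem_integers_of_valuation_le_one
    intro Q
    by_cases hQ : algebraMap A B q ∈ Q.asIdeal
    · rw [map_mul, IsScalarTower.algebraMap_apply A B L]
      calc Q.valuation L (algebraMap B L (algebraMap A B s)) * Q.valuation L z
          ≤ 1 * 1 := mul_le_mul' (Q.valuation_le_one _) (hval Q hQ)
        _ = 1 := one_mul 1
    · have h1 : Q.valuation L (algebraMap B L (algebraMap A B q)) = 1 :=
        Q.valuation_eq_one_iff_notMem.mpr hQ
      have h2 : algebraMap B L b = algebraMap B L (algebraMap A B q) ^ n * (algebraMap A L s * z) := by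
        rw [hb, Algebra.smul_def, map_mul, map_pow, IsScalarTower.algebraMap_apply A B L q]
        ring
      have h3 := congrArg (Q.valuation L) h2
      rw [map_mul, map_pow, h1, one_pow, one_mul] at h3
      rw [← h3]
      exact Q.valuation_le_one b
  obtain ⟨b', hb'⟩ := hmem
  rw [Algebra.smul_def]
  exact (IsIntegralClosure.isIntegral_iff (A := B)).mpr ⟨b', hb'⟩

end LocalInt



section Main

variable {E L : Type*} [Field E] [CharZero E] [Field L] [Algebra E L]

set_option maxHeartbeats 800000 in
theorem locPow_of_places (t : L) (ht : Transcendental E t)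
    [FiniteDimensional (IntermediateField.adjoin E {t}) L]
    (p : ℕ) (g : L) (hg : g ≠ 0)
    (h : ∀ P : Place E L, (p : ℤ) ∣ P.ord g) (f : E[X]) (hf : Irreducible f) :
    ∃ τ : L, τ ≠ 0 ∧
      (∃ s : L, s ∈ Algebra.adjoin E {t} ∧
        (∀ c : L, c ∈ Algebra.adjoin E {t} → s ≠ aeval t f * c) ∧
        IsIntegral (Algebra.adjoin E {t}) (s * (g / τ ^ p))) ∧
      (∃ s : L, s ∈ Algebra.adjoin E {t} ∧
        (∀ c : L, c ∈ Algebra.adjoin E {t} → s ≠ aeval t f * c) ∧
        IsIntegral (Algebra.adjoin E {t}) (s * (τ ^ p / g))) := by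
  classical
  haveI : Fact (Transcendental E t) := ⟨ht⟩
  haveI : IsPrincipalIdealRing (Algebra.adjoin E {t}) :=
    Fermat.Agent.S24.FF.polyRing_isPrincipalIdealRing E t ht
  haveI : IsDedekindDomain (integralClosure (Algebra.adjoin E {t}) L) :=
    integralClosure.isDedekindDomain (Algebra.adjoin E {t}) E⟮t⟯ L
  haveI : IsFractionRing (integralClosure (Algebra.adjoin E {t}) L) L :=
    integralClosure.isFractionRing_of_finite_extension E⟮t⟯ L
  haveI : IsScalarTower E (integralClosure (Algebra.adjoin E {t}) L) L :=
    IsScalarTower.of_algebraMap_eq (fun c => by simp [Algebra.algebraMap_eq_smul_one])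
  have halgL : Algebra.IsAlgebraic (Algebra.adjoin E {t}) L :=
    (IsFractionRing.comap_isAlgebraic_iff (A := Algebra.adjoin E {t}) (K := E⟮t⟯) (C := L)).mpr
      inferInstance
  -- the element `q = f(t)` of `A = E[t]`
  have hqmem : aeval t f ∈ Algebra.adjoin E {t} := by
    rw [Algebra.adjoin_singleton_eq_range_aeval]
    exact ⟨f, rfl⟩
  set q : Algebra.adjoin E {t} := ⟨aeval t f, hqmem⟩ with hqdef
  have hqeq : q = Polynomial.algEquivOfTranscendental E t ht f := by
    apply Subtype.ext
    simp [hqdef, Polynomial.algEquivOfTranscendental_apply]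
  have hqunit : ¬ IsUnit q := by
    rw [hqeq]
    intro hu
    exact hf.not_isUnit ((MulEquiv.isUnit_map
      (Polynomial.algEquivOfTranscendental E t ht).toMulEquiv).mp hu)
  have hq0 : q ≠ 0 := by
    rw [hqeq]
    intro h0
    exact hf.ne_zero ((map_eq_zero_iff _ (Polynomial.algEquivOfTranscendental E t ht).injective).mp h0)
  have hqB0 : algebraMap (Algebra.adjoin E {t}) (integralClosure (Algebra.adjoin E {t}) L) q ≠ 0 := by
    intro h0
    apply hq0
    have hinj : Function.Injective
        (algebraMap (Algebra.adjoin E {t}) (integralClosure (Algebra.adjoin E {t}) L)) := by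
      intro a b hab
      have := congrArg (algebraMap (integralClosure (Algebra.adjoin E {t}) L) L) hab
      exact Subtype.ext this
    exact hinj (by rw [h0, map_zero])
  -- the finitely many primes above `q`
  have hfin : {Q : HeightOneSpectrum (integralClosure (Algebra.adjoin E {t}) L) |
      algebraMap (Algebra.adjoin E {t}) (integralClosure (Algebra.adjoin E {t}) L) q ∈ Q.asIdeal}.Finite := by
    have h1 := Ideal.finite_factors (I := Ideal.span
      {algebraMap (Algebra.adjoin E {t}) (integralClosure (Algebra.adjoin E {t}) L) q})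
      (by rw [Ne, Ideal.zero_eq_bot, Ideal.span_singleton_eq_bot]; exact hqB0)
    refine h1.subset ?_
    intro Q hQ
    simp only [Set.mem_ofPred_eq] at hQ ⊢
    rw [Ideal.dvd_span_singleton]
    exact hQ
  -- exponents
  have hord : ∀ Q : HeightOneSpectrum (integralClosure (Algebra.adjoin E {t}) L),
      ∃ m : ℤ, -log (Q.valuation L g) = p * m := by
    intro Q
    obtain ⟨m, hm⟩ := h (Place.ofHeightOneSpectrum (K := E) (F := L) Q)
    rw [Fermat.Agent.S24.FF.ord_ofHeightOneSpectrum (K := E) Q hg] at hm
    exact ⟨m, hm⟩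
  choose m hm using hord
  obtain ⟨τ, hτ0, hτ⟩ := exists_valuation_eq (L := L) hfin.toFinset m
  have hunit : ∀ Q : HeightOneSpectrum (integralClosure (Algebra.adjoin E {t}) L),
      algebraMap (Algebra.adjoin E {t}) (integralClosure (Algebra.adjoin E {t}) L) q ∈ Q.asIdeal →
      Q.valuation L (g / τ ^ p) = 1 := by
    intro Q hQ
    have h1 := hτ Q (hfin.mem_toFinset.mpr hQ)
    have h2 : Q.valuation L g ≠ 0 := (Valuation.ne_zero_iff _).mpr hg
    rw [map_div₀, map_pow, h1, ← exp_log h2, ← exp_nsmul, ← exp_sub, ← exp_zero]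
    congr 1
    have := hm Q
    simp only [nsmul_eq_mul, mul_neg]
    linarith
  have key : ∀ z : L, (∀ Q : HeightOneSpectrum (integralClosure (Algebra.adjoin E {t}) L),
      algebraMap (Algebra.adjoin E {t}) (integralClosure (Algebra.adjoin E {t}) L) q ∈ Q.asIdeal →
      Q.valuation L z ≤ 1) →
      ∃ s : L, s ∈ Algebra.adjoin E {t} ∧
        (∀ c : L, c ∈ Algebra.adjoin E {t} → s ≠ aeval t f * c) ∧
        IsIntegral (Algebra.adjoin E {t}) (s * z) := by
    intro z hz
    obtain ⟨s, hs, hint⟩ := exists_not_dvd_isIntegral_smul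
      (B := integralClosure (Algebra.adjoin E {t}) L) q hqunit z (halgL.isAlgebraic z) hz
    refine ⟨(s : L), s.2, ?_, ?_⟩
    · intro c hc hsc
      apply hs
      refine ⟨⟨c, hc⟩, ?_⟩
      apply Subtype.ext
      simpa [hqdef] using hsc
    · simpa [Algebra.smul_def] using hint
  refine ⟨τ, hτ0, key _ (fun Q hQ => (hunit Q hQ).le), key _ (fun Q hQ => ?_)⟩
  have h1 := hunit Q hQ
  have h2 : τ ^ p / g = (g / τ ^ p)⁻¹ := by rw [inv_div]
  rw [h2, map_inv₀, h1, inv_one]

end Main


end Fermat.Agent.Lib.LocPowPlaces
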