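import Mathlib

/-!
# A noetherian local domain `B` with `π` prime and `B / π` a PID is a UFD

Purity by hand for the local rings of a smooth relative curve over a DVR: if `B` is a noetherian
local ring, `π` lies in its maximal ideal and `B / π` is a principal ideal ring (e.g. a DVR), then
every prime ideal of `B` not containing `π` is principal (Nakayama).  If moreover `B` is a domain
and `π` is prime, `B` is a unique factorization domain (Kaplansky's criterion).
-/

set_option autoImplicit false

namespace Fermat.Agent.Lib.LocalUFD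

open Ideal IsLocalRing

variable {B : Type*} [CommRing B] [IsLocalRing B] [IsNoetherianRing B]

/-- A prime ideal of a noetherian local ring `B` not containing `π ∈ 𝔪_B` is principal as soon as
`B / π` is a principal ideal ring.  More precisely it is generated by any of its elements whose
class generates its image in `B / π`. -/
theorem eq_span_singleton_of_map_eq (π : B) (hπ : π ∈ maximalIdeal B) (P : Ideal B) [P.IsPrime]
    (hP : π ∉ P) (t : B) (ht : t ∈ P)
    (hgen : P.map (Ideal.Quotient.mk (Ideal.span {π})) =
      Ideal.span {Ideal.Quotient.mk (Ideal.span {π}) t}) :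
    P = Ideal.span {t} := by
  refine le_antisymm ?_ ((Ideal.span_singleton_le_iff_mem P).2 ht)
  have hfg : (P : Submodule B B).FG := IsNoetherian.noetherian P
  have hjac : Ideal.span {π} ≤ Ideal.jacobson (⊥ : Ideal B) := by
    rw [IsLocalRing.jacobson_eq_maximalIdeal ⊥ bot_ne_top]
    exact (Ideal.span_singleton_le_iff_mem _).2 hπ
  refine Submodule.le_of_le_smul_of_le_jacobson_bot hfg hjac ?_
  intro x hx
  have hx' : Ideal.Quotient.mk (Ideal.span {π}) x ∈
      Ideal.span {Ideal.Quotient.mk (Ideal.span {π}) t} := by
    rw [← hgen]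
    exact Ideal.mem_map_of_mem _ hx
  obtain ⟨b', hb'⟩ := Ideal.mem_span_singleton'.1 hx'
  obtain ⟨b, rfl⟩ := Ideal.Quotient.mk_surjective b'
  have h0 : x - b * t ∈ Ideal.span {π} := by
    rw [← Ideal.Quotient.eq, map_mul]
    exact hb'.symm
  obtain ⟨c, hc⟩ := Ideal.mem_span_singleton'.1 h0
  have hcP : c ∈ P := by
    have : c * π ∈ P := by
      rw [hc]
      exact P.sub_mem hx (P.mul_mem_left b ht)
    exact (Ideal.IsPrime.mem_or_mem inferInstance this).resolve_right hP
  have hx_eq : x = b * t + π • c := by
    rw [smul_eq_mul, mul_comm π c, hc]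
    ring
  rw [hx_eq]
  refine Submodule.add_mem_sup ?_ ?_
  · exact Ideal.mem_span_singleton'.2 ⟨b, rfl⟩
  · exact Submodule.smul_mem_smul (Ideal.mem_span_singleton_self π) hcP

/-- A prime ideal of a noetherian local ring `B` not containing `π ∈ 𝔪_B` is principal as soon as
`B / π` is a principal ideal ring. -/
theorem exists_eq_span_singleton (π : B) (hπ : π ∈ maximalIdeal B)
    [IsPrincipalIdealRing (B ⧸ Ideal.span {π})] (P : Ideal B) [P.IsPrime] (hP : π ∉ P) :
    ∃ t ∈ P, P = Ideal.span {t} ∧
      P.map (Ideal.Quotient.mk (Ideal.span {π})) =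
        Ideal.span {Ideal.Quotient.mk (Ideal.span {π}) t} := by
  obtain ⟨d, hd⟩ := (IsPrincipalIdealRing.principal
    (P.map (Ideal.Quotient.mk (Ideal.span {π})))).principal
  have hd' : P.map (Ideal.Quotient.mk (Ideal.span {π})) = Ideal.span {d} := hd
  have hdmem : d ∈ P.map (Ideal.Quotient.mk (Ideal.span {π})) := by
    rw [hd']
    exact Ideal.mem_span_singleton_self d
  obtain ⟨t, ht, rfl⟩ :=
    (Ideal.mem_map_iff_of_surjective _ Ideal.Quotient.mk_surjective).1 hdmem
  exact ⟨t, ht, eq_span_singleton_of_map_eq π hπ P hP t ht hd', hd'⟩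

/-- **Purity by hand.** A noetherian local domain `B` in which `π` is a prime element and
`B / π` is a principal ideal ring (for instance a discrete valuation ring) is a UFD. -/
theorem uniqueFactorizationMonoid [IsDomain B] (π : B) (hπ : Prime π)
    [IsPrincipalIdealRing (B ⧸ Ideal.span {π})] : UniqueFactorizationMonoid B := by
  refine UniqueFactorizationMonoid.iff_exists_prime_mem_of_isPrime.2 fun I hI hIp => ?_
  by_cases h : π ∈ I
  · exact ⟨π, h, hπ⟩
  · have := hIp
    obtain ⟨t, htI, hIt, -⟩ :=
      exists_eq_span_singleton π ((IsLocalRing.mem_maximalIdeal π).2 hπ.not_isUnit) I h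
    have ht : t ≠ 0 := by
      rintro rfl
      apply hI
      rw [hIt]
      simp
    refine ⟨t, htI, (Ideal.span_singleton_prime ht).1 ?_⟩
    rw [← hIt]
    exact hIp

/-- In the situation of `uniqueFactorizationMonoid`: an element of `B` whose class modulo `π`
generates the maximal ideal of `B / π` and which lies in a prime `P ∌ π` generates `P`.
(A section of a smooth relative curve is cut out by one equation which restricts to a uniformiser
of the special fibre.) -/
theorem eq_span_singleton_of_map_eq_maximalIdeal (π : B) (hπ : π ∈ maximalIdeal B)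
    (P : Ideal B) [P.IsPrime] (hP : π ∉ P) (t : B) (ht : t ∈ P)
    (hmax : Ideal.span {Ideal.Quotient.mk (Ideal.span {π}) t} =
      (maximalIdeal B).map (Ideal.Quotient.mk (Ideal.span {π}))) :
    P = Ideal.span {t} := by
  refine eq_span_singleton_of_map_eq π hπ P hP t ht (le_antisymm ?_ ?_)
  · rw [hmax]
    exact Ideal.map_mono (IsLocalRing.le_maximalIdeal (Ideal.IsPrime.ne_top inferInstance))
  · rw [Ideal.span_singleton_le_iff_mem]
    exact Ideal.mem_map_of_mem _ ht

end Fermat.Agent.Lib.LocalUFD
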