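import Mathlib.AlgebraicGeometry.EllipticCurve.Affine.Point
import Mathlib.Tactic.LinearCombination
import Fermat.Agent.S05.KeyLemma

set_option autoImplicit false

/-!
Unsigned component law for a Weierstrass curve with a node at the origin,
`y² + a₁ x y = x³ + a₂ x² + a₄ x` (`a₃ = a₆ = 0`), over a valued field of arbitrary residue
characteristic: `v a₁ ≤ 1`, `v a₂ ≤ 1`, `v b₂ = 1`, `v a₄ < 1`, `a₄ ≠ 0`.
-/

namespace Fermat.Agent.Lib.NodeLaw

open WeierstrassCurve WeierstrassCurve.Affine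
open Fermat.Agent.S05.KeyLemma

variable {K : Type*} [Field K] {W : WeierstrassCurve K}

/-- The Weierstrass equation in the shape `y² + a₁ x y = x³ + a₂ x² + a₄ x`. -/
theorem equation_iff_node (h₃ : W.a₃ = 0) (h₆ : W.a₆ = 0) (x y : K) :
    W.toAffine.Equation x y ↔ y ^ 2 + W.a₁ * x * y = x ^ 3 + W.a₂ * x ^ 2 + W.a₄ * x := by
  rw [Affine.equation_iff, h₃, h₆]
  constructor <;> intro h <;> linear_combination h

theorem negY_node (h₃ : W.a₃ = 0) (x y : K) : W.toAffine.negY x y = -y - W.a₁ * x := by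
  simp [Affine.negY, h₃]

variable [DecidableEq K]

/-- Sum and product of the `x`-coordinates of `P₁ + P₂` and `P₁ - P₂` (`x₁ ≠ x₂`). -/
theorem add_sub_of_X_ne_node (h₃ : W.a₃ = 0) (h₆ : W.a₆ = 0) {x₁ y₁ x₂ y₂ : K}
    (hP₁ : W.toAffine.Nonsingular x₁ y₁) (hP₂ : W.toAffine.Nonsingular x₂ y₂) (hx : x₁ ≠ x₂) :
    ∃ (x₃ y₃ : K) (hP₃ : W.toAffine.Nonsingular x₃ y₃)
      (x₄ y₄ : K) (hP₄ : W.toAffine.Nonsingular x₄ y₄),
      Point.some x₁ y₁ hP₁ + Point.some x₂ y₂ hP₂ = Point.some x₃ y₃ hP₃ ∧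
      Point.some x₁ y₁ hP₁ - Point.some x₂ y₂ hP₂ = Point.some x₄ y₄ hP₄ ∧
      x₃ + x₄ = (2 * (x₁ + x₂) * (x₁ * x₂ + W.a₄) + W.b₂ * (x₁ * x₂)) / (x₁ - x₂) ^ 2 ∧
      x₃ * x₄ = (x₁ * x₂ - W.a₄) ^ 2 / (x₁ - x₂) ^ 2 := by
  have hneg : W.toAffine.Nonsingular x₂ (W.toAffine.negY x₂ y₂) :=
    (Affine.nonsingular_neg x₂ y₂).mpr hP₂
  have hsub : Point.some x₁ y₁ hP₁ - Point.some x₂ y₂ hP₂ =
      Point.some x₁ y₁ hP₁ + Point.some x₂ (W.toAffine.negY x₂ y₂) hneg := by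
    rw [sub_eq_add_neg, Point.neg_some]
  have E₁ := (equation_iff_node h₃ h₆ x₁ y₁).mp hP₁.1
  have E₂ := (equation_iff_node h₃ h₆ x₂ y₂).mp hP₂.1
  have hd : x₁ - x₂ ≠ 0 := sub_ne_zero.mpr hx
  have hd2 : (x₁ - x₂) ^ 2 ≠ 0 := pow_ne_zero 2 hd
  refine ⟨_, _, _, _, _, _, Point.add_of_X_ne hx, hsub.trans (Point.add_of_X_ne hx), ?_, ?_⟩
  · rw [Affine.slope_of_X_ne hx, Affine.slope_of_X_ne hx, Affine.addX, Affine.addX,
      negY_node h₃, WeierstrassCurve.b₂]
    field_simp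
    linear_combination 2 * E₁ + 2 * E₂
  · rw [Affine.slope_of_X_ne hx, Affine.slope_of_X_ne hx, Affine.addX, Affine.addX,
      negY_node h₃]
    field_simp
    linear_combination
      ((y₁ ^ 2 + W.a₁ * x₁ * y₁ - (x₁ ^ 3 + W.a₂ * x₁ ^ 2 + W.a₄ * x₁))
        - (y₂ ^ 2 + W.a₁ * x₂ * y₂ - (x₂ ^ 3 + W.a₂ * x₂ ^ 2 + W.a₄ * x₂))
        + 2 * (2 * W.a₂ * x₁ * x₂ + W.a₄ * (x₁ + x₂) + x₁ * x₂ * (x₁ + x₂))
        + W.a₁ ^ 2 * x₁ * x₂ - 4 * (x₂ ^ 3 + W.a₂ * x₂ ^ 2 + W.a₄ * x₂) - W.a₁ ^ 2 * x₂ ^ 2) * E₁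
      + (-((y₁ ^ 2 + W.a₁ * x₁ * y₁ - (x₁ ^ 3 + W.a₂ * x₁ ^ 2 + W.a₄ * x₁))
        - (y₂ ^ 2 + W.a₁ * x₂ * y₂ - (x₂ ^ 3 + W.a₂ * x₂ ^ 2 + W.a₄ * x₂)))
        + 2 * (2 * W.a₂ * x₁ * x₂ + W.a₄ * (x₁ + x₂) + x₁ * x₂ * (x₁ + x₂))
        + W.a₁ ^ 2 * x₁ * x₂ - 4 * (x₁ ^ 3 + W.a₂ * x₁ ^ 2 + W.a₄ * x₁) - W.a₁ ^ 2 * x₁ ^ 2) * E₂

/-- Doubling: `x(2P) · x (4x² + b₂ x + 4a₄) = (x² - a₄)²` when `2P ≠ O`. -/
theorem add_self_node (h₃ : W.a₃ = 0) (h₆ : W.a₆ = 0) {x y : K}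
    (hP : W.toAffine.Nonsingular x y) (hy : y ≠ W.toAffine.negY x y) :
    ∃ (x' y' : K) (hP' : W.toAffine.Nonsingular x' y'),
      Point.some x y hP + Point.some x y hP = Point.some x' y' hP' ∧
      x' * (x * (4 * x ^ 2 + W.b₂ * x + 4 * W.a₄)) = (x ^ 2 - W.a₄) ^ 2 ∧
      x * (4 * x ^ 2 + W.b₂ * x + 4 * W.a₄) ≠ 0 := by
  have E := (equation_iff_node h₃ h₆ x y).mp hP.1
  have hn : W.toAffine.negY x y = -y - W.a₁ * x := negY_node h₃ x y
  have hw : y - W.toAffine.negY x y ≠ 0 := sub_ne_zero.mpr hy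
  have hw' : 2 * y + W.a₁ * x ≠ 0 := by
    intro h0
    apply hw
    rw [hn]
    linear_combination h0
  have hden : (2 * y + W.a₁ * x) ^ 2 = x * (4 * x ^ 2 + W.b₂ * x + 4 * W.a₄) := by
    rw [WeierstrassCurve.b₂]
    linear_combination 4 * E
  refine ⟨_, _, _, Point.add_self_of_Y_ne hy, ?_, ?_⟩
  · have hL : W.toAffine.slope x x y y * (2 * y + W.a₁ * x) =
        3 * x ^ 2 + 2 * W.a₂ * x + W.a₄ - W.a₁ * y := by
      rw [Affine.slope_of_Y_ne rfl hy, hn]
      have e : y - (-y - W.a₁ * x) = 2 * y + W.a₁ * x := by ring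
      rw [e, div_mul_cancel₀ _ hw']
    rw [← hden, Affine.addX]
    generalize W.toAffine.slope x x y y = L at hL ⊢
    linear_combination
      (L * (2 * y + W.a₁ * x) + (3 * x ^ 2 + 2 * W.a₂ * x + W.a₄ - W.a₁ * y)
        + W.a₁ * (2 * y + W.a₁ * x)) * hL
      + (-(W.a₁ ^ 2 + 4 * W.a₂ + 8 * x)) * E
  · rw [← hden]
    exact pow_ne_zero 2 hw'

/-! ### Valuation form of the component law -/

section Valued

variable {Γ₀ : Type*} [LinearOrderedCommGroupWithZero Γ₀] (v : Valuation K Γ₀)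

omit [DecidableEq K] in
theorem val_two_le_one : v (2 : K) ≤ 1 := by
  have h : (2 : K) = 1 + 1 := by norm_num
  rw [h]
  exact v.map_add_le (by rw [map_one]) (by rw [map_one])

omit [DecidableEq K] in
theorem val_four_le_one : v (4 : K) ≤ 1 := by
  have h : (4 : K) = 2 * 2 := by norm_num
  rw [h, map_mul]
  calc v 2 * v 2 ≤ 1 * 1 := mul_le_mul' (val_two_le_one v) (val_two_le_one v)
    _ = 1 := mul_one 1

omit [DecidableEq K] in
/-- Unsigned component law for `P₁ ± P₂` on the nodal model, in any residue characteristic. -/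
theorem add_law_node {a₄ b₂ x1 x2 x3 x4 : K} (hb₂ : v b₂ = 1) (ha₄ : v a₄ < 1)
    (ha₄0 : a₄ ≠ 0) (hne : x1 ≠ x2)
    (F1 : x3 + x4 = (2 * (x1 + x2) * (x1 * x2 + a₄) + b₂ * (x1 * x2)) / (x1 - x2) ^ 2)
    (F2 : x3 * x4 = (x1 * x2 - a₄) ^ 2 / (x1 - x2) ^ 2) :
    Rel (v a₄) (clamp (v a₄) (v x1)) (clamp (v a₄) (v x2)) (clamp (v a₄) (v x3))
      (clamp (v a₄) (v x4)) := by
  have hν0 : v a₄ ≠ 0 := (v.ne_zero_iff).mpr ha₄0
  have hsub : x1 - x2 ≠ 0 := sub_ne_zero.mpr hne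
  have hD0 : v (x1 - x2) ≠ 0 := (v.ne_zero_iff).mpr hsub
  have hterm2 : v (b₂ * (x1 * x2)) = v x1 * v x2 := by
    rw [map_mul, map_mul, hb₂, one_mul]
  have hsumle : v (x1 + x2) ≤ max (v x1) (v x2) := v.map_add x1 x2
  have hmle : v (x1 * x2 + a₄) ≤ max (v x1 * v x2) (v a₄) := by
    refine (v.map_add _ _).trans ?_
    rw [map_mul]
  have hterm1 : v (2 * (x1 + x2) * (x1 * x2 + a₄)) ≤
      max (v x1) (v x2) * max (v x1 * v x2) (v a₄) := by
    rw [map_mul, map_mul]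
    calc v 2 * v (x1 + x2) * v (x1 * x2 + a₄)
        ≤ 1 * max (v x1) (v x2) * max (v x1 * v x2) (v a₄) :=
          mul_le_mul' (mul_le_mul' (val_two_le_one v) hsumle) hmle
      _ = max (v x1) (v x2) * max (v x1 * v x2) (v a₄) := by rw [one_mul]
  refine rel_core (D := v (x1 - x2)) (P := v (x1 * x2 - a₄))
    (S := v (2 * (x1 + x2) * (x1 * x2 + a₄) + b₂ * (x1 * x2)))
    (σ := v (x3 + x4)) hν0 ha₄ hD0 (v.map_sub x1 x2) ?_ ?_ ?_ ?_ ?_ ?_ ?_ (v.map_add x3 x4)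
    (fun h => v.map_add_of_distinct_val h)
  · intro h
    rw [sub_eq_add_neg]
    have := v.map_add_of_distinct_val (x := x1) (y := -x2) (by rwa [v.map_neg])
    rwa [v.map_neg] at this
  · refine (v.map_sub _ _).trans ?_
    rw [map_mul]
  · intro h
    rw [sub_eq_add_neg]
    have := v.map_add_of_distinct_val (x := x1 * x2) (y := -a₄) (by rwa [v.map_neg, map_mul])
    rwa [v.map_neg, map_mul] at this
  · refine (v.map_add _ _).trans ?_
    rw [hterm2]
    exact max_le_max hterm1 le_rfl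
  · intro h
    rw [v.map_add_eq_of_lt_right (by rw [hterm2]; exact lt_of_le_of_lt hterm1 h), hterm2]
  · have e : x3 * x4 * ((x1 - x2) * (x1 - x2)) = (x1 * x2 - a₄) * (x1 * x2 - a₄) := by
      rw [F2]
      field_simp
    have := congrArg v e
    simpa only [map_mul] using this
  · have e : (x3 + x4) * ((x1 - x2) * (x1 - x2)) =
        2 * (x1 + x2) * (x1 * x2 + a₄) + b₂ * (x1 * x2) := by
      rw [F1]
      field_simp
    have := congrArg v e
    rw [map_mul, map_mul] at this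
    exact this

omit [DecidableEq K] in
/-- Doubling law on the nodal model, in any residue characteristic. -/
theorem double_law_node {a₄ b₂ x x' : K} (hb₂ : v b₂ = 1) (ha₄ : v a₄ < 1) (ha₄0 : a₄ ≠ 0)
    (hden : x * (4 * x ^ 2 + b₂ * x + 4 * a₄) ≠ 0)
    (F3 : x' * (x * (4 * x ^ 2 + b₂ * x + 4 * a₄)) = (x ^ 2 - a₄) ^ 2) :
    clamp (v a₄) (v x') = fold (v a₄) (clamp (v a₄) (v x) * clamp (v a₄) (v x)) := by
  set ν := v a₄ with hνdef
  have hν0 : ν ≠ 0 := (v.ne_zero_iff).mpr ha₄0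
  have hνpos : 0 < ν := zero_lt_iff.mpr hν0
  have hν1' : ν ≤ 1 := ha₄.le
  have hνν : ν * ν < ν := by
    calc ν * ν < ν * 1 := by gcongr
      _ = ν := mul_one ν
  have hX0 : x ≠ 0 := left_ne_zero_of_mul hden
  have hg0 : 4 * x ^ 2 + b₂ * x + 4 * a₄ ≠ 0 := right_ne_zero_of_mul hden
  have hcpos : 0 < v x := zero_lt_iff.mpr ((v.ne_zero_iff).mpr hX0)
  have hgpos : 0 < v (4 * x ^ 2 + b₂ * x + 4 * a₄) := zero_lt_iff.mpr ((v.ne_zero_iff).mpr hg0)
  have ev : v x' * (v x * v (4 * x ^ 2 + b₂ * x + 4 * a₄)) = v (x ^ 2 - a₄) * v (x ^ 2 - a₄) := by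
    have h := congrArg v F3
    rw [map_mul, map_mul] at h
    rw [h, map_pow]
    exact pow_two _
  have h4x : v (4 * x ^ 2) ≤ v x * v x := by
    rw [map_mul, map_pow, pow_two]
    calc v 4 * (v x * v x) ≤ 1 * (v x * v x) := by gcongr; exact val_four_le_one v
      _ = v x * v x := one_mul _
  have h4a : v (4 * a₄) ≤ ν := by
    rw [map_mul]
    calc v 4 * ν ≤ 1 * ν := by gcongr; exact val_four_le_one v
      _ = ν := one_mul _
  have hbx : v (b₂ * x) = v x := by rw [map_mul, hb₂, one_mul]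
  have hxx : v (x ^ 2) = v x * v x := by rw [map_pow, pow_two]
  rcases le_or_gt 1 (v x) with h1 | h1
  · -- identity region
    have hcc : 1 ≤ v x * v x := by
      calc (1 : Γ₀) = 1 * 1 := (mul_one 1).symm
        _ ≤ v x * v x := mul_le_mul' h1 h1
    have hP : v (x ^ 2 - a₄) = v x * v x := by
      rw [v.map_sub_eq_of_lt_left (by rw [hxx]; exact lt_of_lt_of_le ha₄ hcc), hxx]
    have hc_le : v x ≤ v x * v x := by
      calc v x = v x * 1 := (mul_one _).symm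
        _ ≤ v x * v x := by gcongr
    have hg : v (4 * x ^ 2 + b₂ * x + 4 * a₄) ≤ v x * v x := by
      refine v.map_add_le (v.map_add_le h4x ?_) ?_
      · rw [hbx]
        exact hc_le
      · exact h4a.trans (hν1'.trans hcc)
    have hx' : 1 ≤ v x' := by
      have h3 : v x * (v x * (v x * v x)) ≤ v x' * (v x * (v x * v x)) := by
        calc v x * (v x * (v x * v x)) = v x * v x * (v x * v x) := by ac_rfl
          _ = v x' * (v x * v (4 * x ^ 2 + b₂ * x + 4 * a₄)) := by rw [ev, hP]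
          _ ≤ v x' * (v x * (v x * v x)) := by gcongr
      have h5 := le_of_mul_le_mul_right h3 (mul_pos hcpos (mul_pos hcpos hcpos))
      exact h1.trans h5
    rw [clamp_of_one_le hν1' hx', clamp_of_one_le hν1' h1, mul_one, fold_of_le hν1']
  · rcases lt_or_ge ν (v x) with h1' | h1'
    · -- middle region
      have hccx : v x * v x < v x := by
        calc v x * v x < v x * 1 := by gcongr
          _ = v x := mul_one _
      have hg : v (4 * x ^ 2 + b₂ * x + 4 * a₄) = v x := by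
        have e : 4 * x ^ 2 + b₂ * x + 4 * a₄ = (4 * x ^ 2 + 4 * a₄) + b₂ * x := by ring
        have hlt : v (4 * x ^ 2 + 4 * a₄) < v (b₂ * x) := by
          rw [hbx]
          exact v.map_add_lt (lt_of_le_of_lt h4x hccx) (lt_of_le_of_lt h4a h1')
        rw [e, v.map_add_eq_of_lt_right hlt, hbx]
      rw [hg] at ev
      have hPle : v (x ^ 2 - a₄) ≤ max (v x * v x) ν := by
        refine (v.map_sub _ _).trans ?_
        rw [hxx]
      have hcc1 : v x * v x ≤ 1 := by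
        calc v x * v x ≤ 1 * 1 := mul_le_mul' h1.le h1.le
          _ = 1 := mul_one 1
      have hccpos : 0 < v x * v x := mul_pos hcpos hcpos
      rw [clamp_of_mem h1'.le h1.le]
      rcases lt_trichotomy (v x * v x) ν with hc | hc | hc
      · have hP : v (x ^ 2 - a₄) = ν := by
          rw [v.map_sub_eq_of_lt_right (by rw [hxx]; exact hc)]
        rw [hP] at ev
        have hx' : v x' = ν * ν / (v x * v x) := by
          rw [eq_div_iff hccpos.ne']
          exact ev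
        rw [fold_of_lt hc, hx']
        apply clamp_of_mem
        · rw [le_div_iff₀ hccpos]
          gcongr
        · rw [div_le_iff₀ hccpos, one_mul]
          exact mul_le_mul' h1'.le h1'.le
      · have hPle' : v (x ^ 2 - a₄) ≤ ν := by
          refine hPle.trans ?_
          rw [hc, max_self]
        rw [hc, fold_of_le le_rfl]
        apply clamp_of_le hν1'
        apply le_of_mul_le_mul_right _ hνpos
        calc v x' * ν = v x' * (v x * v x) := by rw [hc]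
          _ = v (x ^ 2 - a₄) * v (x ^ 2 - a₄) := ev
          _ ≤ ν * ν := mul_le_mul' hPle' hPle'
      · have hP : v (x ^ 2 - a₄) = v x * v x := by
          rw [v.map_sub_eq_of_lt_left (by rw [hxx]; exact hc), hxx]
        rw [hP] at ev
        have hx' : v x' = v x * v x := mul_right_cancel₀ hccpos.ne' ev
        rw [fold_of_le hc.le, hx']
        exact clamp_of_mem hc.le hcc1
    · -- the far region `v x ≤ ν`
      have hcc : v x * v x < ν := by
        calc v x * v x ≤ ν * ν := mul_le_mul' h1' h1'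
          _ < ν := hνν
      have hP : v (x ^ 2 - a₄) = ν := by
        rw [v.map_sub_eq_of_lt_right (by rw [hxx]; exact hcc)]
      have hg : v (4 * x ^ 2 + b₂ * x + 4 * a₄) ≤ ν := by
        refine v.map_add_le (v.map_add_le (h4x.trans hcc.le) ?_) h4a
        rw [hbx]
        exact h1'
      have hgle : v x * v (4 * x ^ 2 + b₂ * x + 4 * a₄) ≤ ν * ν := mul_le_mul' h1' hg
      rw [hP] at ev
      have hx' : 1 ≤ v x' := by
        have h3 : 1 * (ν * ν) ≤ v x' * (ν * ν) := by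
          calc 1 * (ν * ν) = ν * ν := one_mul _
            _ = v x' * (v x * v (4 * x ^ 2 + b₂ * x + 4 * a₄)) := ev.symm
            _ ≤ v x' * (ν * ν) := by gcongr
        exact le_of_mul_le_mul_right h3 (mul_pos hνpos hνpos)
      rw [clamp_of_one_le hν1' hx', clamp_of_le hν1' h1', fold_of_lt hνν,
        div_self (mul_pos hνpos hνpos).ne']

end Valued

/-! ### Point level -/

section Points

variable {Γ₀ : Type*} [LinearOrderedCommGroupWithZero Γ₀] (v : Valuation K Γ₀)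

/-- The height of a point: the clamped valuation of its `X`-coordinate, `1` at the origin. -/
def ht (ν : Γ₀) : W.toAffine.Point → Γ₀
  | .zero => 1
  | .some x _ _ => clamp ν (v x)

omit [DecidableEq K] in
theorem ht_zero (ν : Γ₀) : ht v ν (0 : W.toAffine.Point) = 1 := rfl

omit [DecidableEq K] in
theorem ht_some (ν : Γ₀) {x y : K} (h : W.toAffine.Nonsingular x y) :
    ht v ν (Point.some x y h) = clamp ν (v x) := rfl

omit [DecidableEq K] in
theorem ht_neg (ν : Γ₀) (Q : W.toAffine.Point) : ht v ν (-Q) = ht v ν Q := by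
  rcases Q with _ | ⟨x, y, h⟩
  · rfl
  · rw [Point.neg_some]
    rfl

omit [DecidableEq K] in
theorem ht_mem {ν : Γ₀} (hν : ν ≤ 1) (Q : W.toAffine.Point) :
    ν ≤ ht v ν Q ∧ ht v ν Q ≤ 1 := by
  rcases Q with _ | ⟨x, y, h⟩
  · exact ⟨hν, le_rfl⟩
  · exact ⟨le_clamp _ _, clamp_le_one hν _⟩

/-- The unsigned component law on points of the nodal model: `Q + P` and `Q - P`,
for `P` affine with `2 • P ≠ 0`. No hypothesis on the residue characteristic. -/
theorem rel_add_node (h₃ : W.a₃ = 0) (h₆ : W.a₆ = 0) (hb₂ : v W.b₂ = 1) (ha₄ : v W.a₄ < 1)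
    (ha₄0 : W.a₄ ≠ 0) {x y : K} (h : W.toAffine.Nonsingular x y)
    (hy : y ≠ W.toAffine.negY x y) (Q : W.toAffine.Point) :
    Rel (v W.a₄) (ht v (v W.a₄) Q) (ht v (v W.a₄) (Point.some x y h))
      (ht v (v W.a₄) (Q + Point.some x y h)) (ht v (v W.a₄) (Q - Point.some x y h)) := by
  have hν0 : v W.a₄ ≠ 0 := (v.ne_zero_iff).mpr ha₄0
  have hνpos : 0 < v W.a₄ := zero_lt_iff.mpr hν0
  have hj : v W.a₄ ≤ clamp (v W.a₄) (v x) := le_clamp _ _
  have hj1 : clamp (v W.a₄) (v x) ≤ 1 := clamp_le_one ha₄.le _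
  have hj0 : clamp (v W.a₄) (v x) ≠ 0 := (lt_of_lt_of_le hνpos hj).ne'
  have hdbl : ht v (v W.a₄) (Point.some x y h + Point.some x y h) =
      fold (v W.a₄) (clamp (v W.a₄) (v x) * clamp (v W.a₄) (v x)) := by
    obtain ⟨x2, y2, h2', hadd, hx2, hden⟩ := add_self_node h₃ h₆ h hy
    rw [hadd, ht_some]
    exact double_law_node v hb₂ ha₄ ha₄0 hden hx2
  rw [ht_some]
  rcases Q with _ | ⟨x', y', h'⟩
  · rw [← Point.zero_def, zero_add, zero_sub, ht_neg, ht_zero, ht_some]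
    refine Or.inl ⟨?_, ?_⟩
    · rw [one_mul, fold_of_le hj]
    · rw [mr_of_le one_ne_zero hj0 hj1, div_one]
  · by_cases hx : x' = x
    · subst hx
      rcases Affine.Y_eq_of_X_eq h'.1 h.1 rfl with hyy | hyy
      · subst hyy
        rw [sub_self, ht_zero, ht_some, hdbl]
        exact Or.inl ⟨rfl, (mr_self hj0).symm⟩
      · subst hyy
        have hQ : Point.some x' (W.toAffine.negY x' y) h' = -Point.some x' y h := by
          rw [Point.neg_some]
        rw [hQ, neg_add_cancel, ← neg_add', ht_neg, ht_neg, ht_zero, ht_some, hdbl]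
        exact Or.inr ⟨rfl, (mr_self hj0).symm⟩
    · obtain ⟨x₃, y₃, hP₃, x₄, y₄, hP₄, hadd, hsub, F1, F2⟩ :=
        add_sub_of_X_ne_node h₃ h₆ h' h hx
      rw [hadd, hsub, ht_some, ht_some, ht_some]
      exact add_law_node v hb₂ ha₄ ha₄0 hx F1 F2

/-- The three-term relation along the multiples of an affine point `P` with `2 • P ≠ 0`. -/
theorem rel_nsmul_node (h₃ : W.a₃ = 0) (h₆ : W.a₆ = 0) (hb₂ : v W.b₂ = 1) (ha₄ : v W.a₄ < 1)
    (ha₄0 : W.a₄ ≠ 0) {x y : K} (h : W.toAffine.Nonsingular x y)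
    (hy : y ≠ W.toAffine.negY x y) (n : ℕ) (hn : 1 ≤ n) :
    Rel (v W.a₄) (ht v (v W.a₄) (n • Point.some x y h)) (clamp (v W.a₄) (v x))
      (ht v (v W.a₄) ((n + 1) • Point.some x y h))
      (ht v (v W.a₄) ((n - 1) • Point.some x y h)) := by
  have key := rel_add_node v h₃ h₆ hb₂ ha₄ ha₄0 h hy (n • Point.some x y h)
  rw [ht_some, ← succ_nsmul] at key
  have hsub : n • Point.some x y h - Point.some x y h = (n - 1) • Point.some x y h := by
    obtain ⟨m, rfl⟩ : ∃ m, n = m + 1 := ⟨n - 1, by omega⟩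
    rw [Nat.add_sub_cancel, succ_nsmul, add_sub_cancel_right]
  rw [hsub] at key
  exact key

/-- Heights along multiples: `ht (n • P) ~ (ht P) ^ n` up to `ν ^ (2ℤ)` and inversion. -/
theorem ht_nsmul_sim (h₃ : W.a₃ = 0) (h₆ : W.a₆ = 0) (hb₂ : v W.b₂ = 1) (ha₄ : v W.a₄ < 1)
    (ha₄0 : W.a₄ ≠ 0) {x y : K} (h : W.toAffine.Nonsingular x y)
    (hy : y ≠ W.toAffine.negY x y) (n : ℕ) :
    Sim (v W.a₄) (ht v (v W.a₄) (n • Point.some x y h)) (clamp (v W.a₄) (v x) ^ n) := by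
  have hν0 : v W.a₄ ≠ 0 := (v.ne_zero_iff).mpr ha₄0
  have hmem : ∀ n : ℕ, v W.a₄ ≤ ht v (v W.a₄) (n • Point.some x y h) ∧
      ht v (v W.a₄) (n • Point.some x y h) ≤ 1 := fun n => ht_mem v ha₄.le _
  have h0 : ht v (v W.a₄) ((0 : ℕ) • Point.some x y h) = 1 := by
    rw [zero_smul, ht_zero]
  have h1 : ht v (v W.a₄) ((1 : ℕ) • Point.some x y h) = clamp (v W.a₄) (v x) := by
    rw [one_smul, ht_some]
  exact seq_law hν0 ha₄ (le_clamp _ _)
    (fun n : ℕ => ht v (v W.a₄) (n • Point.some x y h)) hmem h0 h1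
    (rel_nsmul_node v h₃ h₆ hb₂ ha₄ ha₄0 h hy) n

/-- Part 3 for the nodal model, any residue characteristic: a point of odd order `p` whose
`X`-coordinate reduces to the node satisfies `v a₄ < v x` and `v x ^ p ∈ (v a₄) ^ (2ℤ)`. -/
theorem part3_node (h₃ : W.a₃ = 0) (h₆ : W.a₆ = 0) (hb₂ : v W.b₂ = 1) (ha₄ : v W.a₄ < 1)
    (ha₄0 : W.a₄ ≠ 0) {p : ℕ} (hodd : Odd p) {x y : K}
    (h : W.toAffine.Nonsingular x y) (hp : p • Point.some x y h = 0) (hx1 : v x < 1) :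
    v W.a₄ < v x ∧ ∃ k : ℤ, v x ^ p = v W.a₄ ^ (2 * k) := by
  have hν0 : v W.a₄ ≠ 0 := (v.ne_zero_iff).mpr ha₄0
  have hy : y ≠ W.toAffine.negY x y := by
    intro hy0
    have h2P : Point.some x y h + Point.some x y h = 0 := Point.add_self_of_Y_eq hy0
    obtain ⟨m, rfl⟩ := hodd
    have e : (2 * m + 1) • Point.some x y h = Point.some x y h := by
      rw [add_smul, one_smul, mul_comm, mul_smul, two_smul, h2P, smul_zero, zero_add]
    rw [e] at hp
    exact Point.some_ne_zero h hp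
  have hmem : ∀ n : ℕ, v W.a₄ ≤ ht v (v W.a₄) (n • Point.some x y h) ∧
      ht v (v W.a₄) (n • Point.some x y h) ≤ 1 := fun n => ht_mem v ha₄.le _
  have h0 : ht v (v W.a₄) ((0 : ℕ) • Point.some x y h) = 1 := by
    rw [zero_smul, ht_zero]
  have h1 : ht v (v W.a₄) ((1 : ℕ) • Point.some x y h) = clamp (v W.a₄) (v x) := by
    rw [one_smul, ht_some]
  have hpz : ht v (v W.a₄) (p • Point.some x y h) = 1 := by
    rw [hp, ht_zero]
  obtain ⟨hlt, k, hk⟩ := height_of_torsion hodd hν0 ha₄ (le_clamp _ _)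
    (fun n : ℕ => ht v (v W.a₄) (n • Point.some x y h)) hmem h0 h1
    (rel_nsmul_node v h₃ h₆ hb₂ ha₄ ha₄0 h hy) hpz
  have hxν : v W.a₄ < v x := by
    by_contra hcon
    rw [not_lt] at hcon
    rw [clamp_of_le ha₄.le hcon] at hlt
    exact lt_irrefl _ hlt
  rw [clamp_of_mem hxν.le hx1.le] at hk
  exact ⟨hxν, k, hk⟩

/-- `E₀`-closure along multiples: if `P` does not reduce to the node (`1 ≤ v x`), neither does
any multiple of `P` (each multiple is `O` or has `1 ≤ v x`). -/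
theorem ht_nsmul_eq_one (h₃ : W.a₃ = 0) (h₆ : W.a₆ = 0) (hb₂ : v W.b₂ = 1) (ha₄ : v W.a₄ < 1)
    (ha₄0 : W.a₄ ≠ 0) {x y : K} (h : W.toAffine.Nonsingular x y) (hx : 1 ≤ v x) (n : ℕ) :
    ht v (v W.a₄) (n • Point.some x y h) = 1 := by
  have hν0 : v W.a₄ ≠ 0 := (v.ne_zero_iff).mpr ha₄0
  have hc : clamp (v W.a₄) (v x) = 1 := clamp_of_one_le ha₄.le hx
  by_cases hy : y = W.toAffine.negY x y
  · have h2P : Point.some x y h + Point.some x y h = 0 := Point.add_self_of_Y_eq hy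
    rcases Nat.even_or_odd' n with ⟨m, rfl | rfl⟩
    · rw [mul_comm, mul_smul, two_smul, h2P, smul_zero, ht_zero]
    · rw [add_smul, one_smul, mul_comm, mul_smul, two_smul, h2P, smul_zero, zero_add, ht_some, hc]
  · have hs := ht_nsmul_sim v h₃ h₆ hb₂ ha₄ ha₄0 h hy n
    rw [hc, one_pow] at hs
    exact hs.eq_of_mem hν0 ha₄ (ht_mem v ha₄.le _).1 (ht_mem v ha₄.le _).2 ha₄.le le_rfl

/-- A point of the nodal model in `E₀` (not reducing to the node): every multiple which is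
an affine point `(x', y')` has `1 ≤ v x'`. -/
theorem one_le_val_of_nsmul (h₃ : W.a₃ = 0) (h₆ : W.a₆ = 0) (hb₂ : v W.b₂ = 1)
    (ha₄ : v W.a₄ < 1) (ha₄0 : W.a₄ ≠ 0) {x y : K} (h : W.toAffine.Nonsingular x y)
    (hx : 1 ≤ v x) (n : ℕ) {x' y' : K} (h' : W.toAffine.Nonsingular x' y')
    (hn : n • Point.some x y h = Point.some x' y' h') : 1 ≤ v x' := by
  have e := ht_nsmul_eq_one v h₃ h₆ hb₂ ha₄ ha₄0 h hx n
  rw [hn, ht_some] at e
  by_contra hcon
  rw [not_le] at hcon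
  have hν0 : v W.a₄ ≠ 0 := (v.ne_zero_iff).mpr ha₄0
  unfold clamp at e
  rw [min_eq_right hcon.le] at e
  rcases max_choice (v W.a₄) (v x') with hm | hm
  · rw [hm] at e
    exact ha₄.ne e
  · rw [hm] at e
    exact hcon.ne e

/-- Rational-type corollary: if `v x` and `v a₄` are integral powers `g ^ m`, `g ^ n` of one
element `g < 1` (e.g. `K = ℚ`, `g = v 2`) and the odd prime `p` does not divide `n`, then a
point of order `p` cannot reduce to the node. -/
theorem not_node_of_torsion (h₃ : W.a₃ = 0) (h₆ : W.a₆ = 0) (hb₂ : v W.b₂ = 1)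
    (ha₄ : v W.a₄ < 1) (ha₄0 : W.a₄ ≠ 0) {p : ℕ} (hprime : p.Prime) (hp2 : p ≠ 2) {x y : K}
    (h : W.toAffine.Nonsingular x y) (hp : p • Point.some x y h = 0)
    {g : Γ₀} (hg0 : g ≠ 0) (hg1 : g < 1) {m n : ℤ} (hxm : v x = g ^ m) (han : v W.a₄ = g ^ n)
    (hpn : ¬ (p : ℤ) ∣ n) : 1 ≤ v x := by
  by_contra hcon
  rw [not_le] at hcon
  have hodd : Odd p := hprime.odd_of_ne_two hp2
  obtain ⟨hlt, k, hk⟩ := part3_node v h₃ h₆ hb₂ ha₄ ha₄0 hodd h hp hcon
  have hgpos : 0 < g := zero_lt_iff.mpr hg0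
  have hanti : StrictAnti (fun i : ℤ => g ^ i) := zpow_right_strictAnti₀ hgpos hg1
  -- exponents
  have hmn : m < n := by
    rw [hxm, han] at hlt
    exact hanti.lt_iff_gt.mp hlt
  have hm0 : 0 < m := by
    rw [hxm] at hcon
    have : g ^ m < g ^ (0 : ℤ) := by rwa [zpow_zero]
    exact hanti.lt_iff_gt.mp this
  have hexp : m * p = n * (2 * k) := by
    rw [hxm, han, ← zpow_natCast, ← zpow_mul, ← zpow_mul] at hk
    exact hanti.injective hk
  have hpi : Prime (p : ℤ) := Nat.prime_iff_prime_int.mp hprime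
  have hdvd : (p : ℤ) ∣ n * (2 * k) := ⟨m, by rw [← hexp, mul_comm]⟩
  have h2 : ¬ (p : ℤ) ∣ 2 := by
    intro hd
    have hd' : p ∣ 2 := by exact_mod_cast hd
    have := (Nat.prime_dvd_prime_iff_eq hprime Nat.prime_two).mp hd'
    exact hp2 this
  have hk' : (p : ℤ) ∣ k := by
    rcases hpi.dvd_or_dvd hdvd with hd | hd
    · exact absurd hd hpn
    · rcases hpi.dvd_or_dvd hd with hd | hd
      · exact absurd hd h2
      · exact hd
  obtain ⟨k', rfl⟩ := hk'
  have hp0 : (p : ℤ) ≠ 0 := by exact_mod_cast hprime.ne_zero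
  have hm' : m = n * (2 * k') := by
    have : m * p = (n * (2 * k')) * p := by rw [hexp]; ring
    exact mul_right_cancel₀ hp0 this
  have hn0 : 0 < n := hm0.trans hmn
  -- `0 < n * (2 k') < n` is impossible
  rw [hm'] at hm0 hmn
  rcases le_or_gt k' 0 with hk0 | hk0
  · have h3 : n * (2 * k') ≤ 0 := mul_nonpos_of_nonneg_of_nonpos hn0.le (by linarith)
    linarith
  · have h3 : n * 1 ≤ n * (2 * k') := mul_le_mul_of_nonneg_left (by linarith) hn0.le
    linarith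

end Points

end Fermat.Agent.Lib.NodeLaw
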