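/-
Norm base change for a commutative square of finite field extensions (helper272).

        G  --ι₂-->  G'
        |           |
        F  --ι--->  F'

If `[G' : F'] = [G : F] < ∞` and `G'` is generated over `F'` by the image of `G`
(i.e. `G' = F' ⊗_F G`), then `N_{G'/F'}(ι₂ g) = ι (N_{G/F} g)` for all `g : G`.

Mathlib only.  Used for: norms along degeneracy maps of modular function fields commute with
the pull-back to an auxiliary level (S36, route sec. 1).
-/
import Mathlib

set_option autoImplicit false

noncomputable section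

namespace Fermat.Agent.Lib.NormBC

open Module

variable {F G F' G' : Type*} [Field F] [Field G] [Field F'] [Field G']
  [Algebra F G] [Algebra F' G']

/-- Norm base change with explicit bases: if a basis `b` of `G/F` is carried by `ι₂` to a basis
`b'` of `G'/F'` (compatibly with `ι : F → F'`), then `N_{G'/F'}(ι₂ g) = ι (N_{G/F} g)`. -/
theorem norm_map_of_basis (ι : F →+* F') (ι₂ : G →+* G')
    (hsq : ∀ a : F, ι₂ (algebraMap F G a) = algebraMap F' G' (ι a))
    {n : Type*} [Fintype n] [DecidableEq n] (b : Basis n F G) (b' : Basis n F' G')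
    (hb : ∀ i, b' i = ι₂ (b i)) (g : G) :
    Algebra.norm F' (ι₂ g) = ι (Algebra.norm F g) := by
  rw [Algebra.norm_eq_matrix_det b', Algebra.norm_eq_matrix_det b, RingHom.map_det]
  congr 1
  ext i j
  rw [RingHom.mapMatrix_apply, Matrix.map_apply, Algebra.leftMulMatrix_eq_repr_mul,
    Algebra.leftMulMatrix_eq_repr_mul]
  have h1 : g * b j = ∑ k, (b.repr (g * b j) k) • b k := (b.sum_repr (g * b j)).symm
  have h2 : ι₂ g * b' j = ∑ k, ι (b.repr (g * b j) k) • b' k := by
    rw [hb j, ← map_mul, h1, map_sum]
    refine Finset.sum_congr rfl fun k _ => ?_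
    rw [Algebra.smul_def, map_mul, hsq, hb k, Algebra.smul_def]
    congr 2
    rw [← h1]
  rw [h2, map_sum]
  simp only [map_smul, Basis.repr_self, Finsupp.smul_single, smul_eq_mul, mul_one]
  rw [Finsupp.finsetSum_apply, Finset.sum_eq_single i]
  · rw [Finsupp.single_eq_same]
  · intro k _ hk
    rw [Finsupp.single_eq_of_ne (Ne.symm hk)]
  · intro h
    exact absurd (Finset.mem_univ i) h

/-- **Norm base change** for a commutative square of finite field extensions of the same degree
such that `G'` is spanned over `F'` by the image of `G`. -/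
theorem norm_map_of_span [FiniteDimensional F G] (ι : F →+* F') (ι₂ : G →+* G')
    (hsq : ∀ a : F, ι₂ (algebraMap F G a) = algebraMap F' G' (ι a))
    (hdeg : finrank F' G' = finrank F G)
    (hspan : Submodule.span F' (Set.range ι₂) = ⊤) (g : G) :
    Algebra.norm F' (ι₂ g) = ι (Algebra.norm F g) := by
  classical
  let b := Module.finBasis F G
  have hsp : ⊤ ≤ Submodule.span F' (Set.range fun i => ι₂ (b i)) := by
    rw [← hspan, Submodule.span_le]
    rintro _ ⟨x, rfl⟩
    have hx : x = ∑ k, (b.repr x k) • b k := (b.sum_repr x).symm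
    rw [hx, map_sum]
    refine Submodule.sum_mem _ fun k _ => ?_
    rw [Algebra.smul_def, map_mul, hsq, ← Algebra.smul_def]
    exact Submodule.smul_mem _ _ (Submodule.subset_span ⟨k, rfl⟩)
  have hcard : Fintype.card (Fin (finrank F G)) = finrank F' G' := by
    rw [Fintype.card_fin, hdeg]
  let b' : Basis (Fin (finrank F G)) F' G' :=
    basisOfTopLeSpanOfCardEqFinrank (fun i => ι₂ (b i)) hsp hcard
  exact norm_map_of_basis ι ι₂ hsq b b'
    (fun i => by rw [coe_basisOfTopLeSpanOfCardEqFinrank]) g

/-- If `G'` is algebraic over `F'` and generated as a field over `F'` by the image of a ring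
homomorphism `ι₂ : G → G'`, then the image of `ι₂` spans `G'` as an `F'`-vector space. -/
theorem span_range_eq_top_of_adjoin [Algebra.IsAlgebraic F' G'] (ι₂ : G →+* G')
    (hgen : IntermediateField.adjoin F' (Set.range ι₂) = ⊤) :
    Submodule.span F' (Set.range ι₂) = ⊤ := by
  have h1 : (IntermediateField.adjoin F' (Set.range ι₂)).toSubalgebra
      = Algebra.adjoin F' (Set.range ι₂) := IntermediateField.adjoin_toSubalgebra _
  have h2 : Subalgebra.toSubmodule (Algebra.adjoin F' (Set.range ι₂))
      = Submodule.span F' (Submonoid.closure (Set.range ι₂) : Set G') := Algebra.adjoin_eq_span _ _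
  have h3 : (Submonoid.closure (Set.range ι₂) : Set G') = Set.range ι₂ := by
    have : Set.range ι₂ = ((MonoidHom.mrange (ι₂ : G →* G') : Submonoid G') : Set G') := rfl
    rw [this, Submonoid.closure_eq]
  rw [h3] at h2
  rw [← h2, ← h1, hgen]
  rfl

/-- **Norm base change**, field-generation form. -/
theorem norm_map_of_adjoin [FiniteDimensional F G] [Algebra.IsAlgebraic F' G']
    (ι : F →+* F') (ι₂ : G →+* G')
    (hsq : ∀ a : F, ι₂ (algebraMap F G a) = algebraMap F' G' (ι a))
    (hdeg : finrank F' G' = finrank F G)
    (hgen : IntermediateField.adjoin F' (Set.range ι₂) = ⊤) (g : G) :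
    Algebra.norm F' (ι₂ g) = ι (Algebra.norm F g) :=
  norm_map_of_span ι ι₂ hsq hdeg (span_range_eq_top_of_adjoin ι₂ hgen) g

/-- In an extension `G'/F'` of prime degree, the image of a ring homomorphism `ι₂ : G → G'`
which is not contained in `F'` generates `G'` over `F'`. -/
theorem adjoin_range_eq_top_of_prime (hp : (finrank F' G').Prime) (ι₂ : G →+* G') {x : G}
    (hx : ι₂ x ∉ Set.range (algebraMap F' G')) :
    IntermediateField.adjoin F' (Set.range ι₂) = ⊤ := by
  have := IntermediateField.isSimpleOrder_of_finrank_prime F' G' hp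
  rcases eq_bot_or_eq_top (IntermediateField.adjoin F' (Set.range ι₂)) with h | h
  · exfalso
    apply hx
    have h1 : ι₂ x ∈ IntermediateField.adjoin F' (Set.range ι₂) :=
      IntermediateField.subset_adjoin F' _ ⟨x, rfl⟩
    rw [h] at h1
    exact IntermediateField.mem_bot.mp h1
  · exact h

end Fermat.Agent.Lib.NormBC
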