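import Mathlib

/-!
# Normal ⇒ free over a two-dimensional regular local ring (no depth theory)

`R` an integrally closed Noetherian local domain, `π` a prime element of `R` lying in the maximal
ideal, with `R ⧸ (π)` a principal ideal ring (e.g. `R = O[u]_x`, `O` a DVR with uniformiser `π`,
`R ⧸ (π) = k[u]_x` a DVR).  Then every integrally closed domain `C` which is a finite
`R`-algebra with `R → C` injective is a free `R`-module.  In particular the integral closure of
`R` in a finite separable extension of `Frac R` is finite free.

No `S₂`, no Krull domains, no associated primes: the key point is the elementary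

* `exists_isIntegral_smul_eq`: if `t • c = π • c'` with `c, c'` integral over `R` and `π ∤ t`,
  then `c = π • y` with `y` integral (compare the minimal polynomials of `π y` and `t y`).

Main statements:

* `exists_eq_smul_of_smul_eq_smul`
* `isTorsionFree_quotSMulTop`
* `free_of_prime`
* `free_integralClosure`, `finite_integralClosure`
-/

set_option autoImplicit false

open Polynomial

namespace Fermat.Agent.Lib.NormalFree

section Integral

variable {R : Type*} (K : Type*) {L : Type*} [CommRing R] [IsDomain R] [IsIntegrallyClosed R]
  [Field K] [Algebra R K] [IsFractionRing R K]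
  [Field L] [Algebra K L] [Algebra R L] [IsScalarTower R K L]

/-- Coefficients of the minimal polynomial over `K` of `y`, scaled by powers of `r`, are in `R`
as soon as `r • y` is integral over `R`. -/
theorem coeff_mul_pow_mem_range (r : R) (hr : r ≠ 0) (y : L) (hy : IsIntegral K y)
    (hry : IsIntegral R (r • y)) (i : ℕ) :
    (minpoly K y).coeff i * algebraMap R K r ^ ((minpoly K y).natDegree - i) ∈
      Set.range (algebraMap R K) := by
  have hrK : algebraMap R K r ≠ 0 := by
    simpa using (map_ne_zero_iff (algebraMap R K) (IsFractionRing.injective R K)).mpr hr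
  have h1 : minpoly K (algebraMap R K r • y) = (minpoly K y).scaleRoots (algebraMap R K r) :=
    IsIntegrallyClosed.minpoly_smul hrK hy
  have h2 : algebraMap R K r • y = r • y := by
    rw [algebraMap_smul]
  rw [h2] at h1
  have h3 : minpoly K (r • y) = (minpoly R (r • y)).map (algebraMap R K) :=
    minpoly.isIntegrallyClosed_eq_field_fractions' K hry
  have h4 := congrArg (fun p => p.coeff i) (h1.symm.trans h3)
  simp only [coeff_scaleRoots, coeff_map] at h4
  exact ⟨_, h4.symm⟩

/-- **Key lemma.** If `t • c = π • c'` with `c`, `c'` integral over the integrally closed domain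
`R`, `π` prime and `π ∤ t`, then `c = π • y` for some `y` integral over `R`. -/
theorem exists_isIntegral_smul_eq {R : Type*} (K : Type*) {L : Type*} [CommRing R] [IsDomain R]
    [IsIntegrallyClosed R] [Field K] [Algebra R K] [IsFractionRing R K]
    [Field L] [Algebra K L] [Algebra R L] [IsScalarTower R K L]
    {π t : R} (hπ : Prime π) (ht : ¬ π ∣ t) {c c' : L}
    (hc : IsIntegral R c) (hc' : IsIntegral R c') (h : t • c = π • c') :
    ∃ y : L, IsIntegral R y ∧ c = π • y := by
  have hinj : Function.Injective (algebraMap R K) := IsFractionRing.injective R K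
  have ht0 : t ≠ 0 := fun h0 => ht (h0 ▸ dvd_zero π)
  have hπ0 : π ≠ 0 := hπ.ne_zero
  have htL : algebraMap R L t ≠ 0 := by
    rw [IsScalarTower.algebraMap_apply R K L]
    exact (map_ne_zero_iff _ (algebraMap K L).injective).mpr
      ((map_ne_zero_iff _ hinj).mpr ht0)
  have hπL : algebraMap R L π ≠ 0 := by
    rw [IsScalarTower.algebraMap_apply R K L]
    exact (map_ne_zero_iff _ (algebraMap K L).injective).mpr
      ((map_ne_zero_iff _ hinj).mpr hπ0)
  set y : L := (algebraMap R L t)⁻¹ * c' with hy
  have hty : t • y = c' := by
    rw [Algebra.smul_def, hy, mul_inv_cancel_left₀ htL]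
  have hπy : π • y = c := by
    have h' : algebraMap R L t * c = algebraMap R L π * c' := by
      simpa [Algebra.smul_def] using h
    rw [Algebra.smul_def, hy]
    field_simp
    linear_combination -h'
  refine ⟨y, ?_, hπy.symm⟩
  -- `y` is algebraic over `K`
  have hyK : IsIntegral K y := by
    have h1 : IsIntegral K c' := hc'.tower_top
    have h2 : IsIntegral K ((algebraMap R L t)⁻¹) := by
      have : (algebraMap R L t)⁻¹ = algebraMap K L ((algebraMap R K t)⁻¹) := by
        rw [map_inv₀, ← IsScalarTower.algebraMap_apply R K L]
      rw [this]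
      exact isIntegral_algebraMap
    exact h2.mul h1
  -- the minimal polynomial of `y` over `K` has coefficients in `R`
  have hcoeff : ∀ i, (minpoly K y).coeff i ∈ Set.range (algebraMap R K) := by
    intro i
    set d := (minpoly K y).natDegree - i with hd
    obtain ⟨a, ha⟩ := coeff_mul_pow_mem_range K π hπ0 y hyK (hπy ▸ hc) i
    obtain ⟨b, hb⟩ := coeff_mul_pow_mem_range K t ht0 y hyK (hty ▸ hc') i
    -- a * t^d = b * π^d
    have hab : a * t ^ d = b * π ^ d := by
      apply hinj
      rw [map_mul, map_mul, map_pow, map_pow, ha, hb]
      ring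
    have hdvd : π ^ d ∣ a :=
      hπ.pow_dvd_of_dvd_mul_right d (fun hh => ht (hπ.dvd_of_dvd_pow hh))
        (hab ▸ Dvd.intro_left b rfl)
    obtain ⟨m, hm⟩ := hdvd
    refine ⟨m, ?_⟩
    have hπK : algebraMap R K π ^ d ≠ 0 :=
      pow_ne_zero _ ((map_ne_zero_iff _ hinj).mpr hπ0)
    apply mul_right_cancel₀ hπK
    rw [← ha, hm, map_mul, map_pow]
    ring
  have hlift : minpoly K y ∈ Polynomial.lifts (algebraMap R K) :=
    (Polynomial.lifts_iff_coeff_lifts _).mpr hcoeff
  obtain ⟨q, hq, -, hqm⟩ :=
    Polynomial.lifts_and_degree_eq_and_monic hlift (minpoly.monic hyK)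
  refine ⟨q, hqm, ?_⟩
  have : aeval y (q.map (algebraMap R K)) = 0 := by rw [hq]; exact minpoly.aeval K y
  rwa [aeval_map_algebraMap] at this

end Integral

section Normal

variable {R C : Type*} [CommRing R] [IsDomain R] [IsIntegrallyClosed R]
  [CommRing C] [IsDomain C] [IsIntegrallyClosed C] [Algebra R C] [FaithfulSMul R C]

/-- **Key lemma, intrinsic form.**  `C` an integrally closed domain, integral over the integrally
closed domain `R` (with `R → C` injective), `π` a prime element of `R`, `π ∤ t`.
If `t • x = π • y` in `C` then `π` divides `x` in `C`. -/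
theorem exists_eq_smul_of_smul_eq_smul [Algebra.IsIntegral R C] {π t : R} (hπ : Prime π)
    (ht : ¬ π ∣ t) {x y : C} (h : t • x = π • y) : ∃ z : C, x = π • z := by
  let : Algebra (FractionRing R) (FractionRing C) := FractionRing.liftAlgebra R (FractionRing C)
  have : IsScalarTower R (FractionRing R) (FractionRing C) :=
    FractionRing.isScalarTower_liftAlgebra R (FractionRing C)
  have hx : IsIntegral R (algebraMap C (FractionRing C) x) :=
    (Algebra.IsIntegral.isIntegral (R := R) x).algebraMap
  have hy : IsIntegral R (algebraMap C (FractionRing C) y) :=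
    (Algebra.IsIntegral.isIntegral (R := R) y).algebraMap
  have h' : t • algebraMap C (FractionRing C) x = π • algebraMap C (FractionRing C) y := by
    rw [← algebraMap.coe_smul, ← algebraMap.coe_smul, h]
  obtain ⟨w, hw, hxw⟩ := exists_isIntegral_smul_eq (FractionRing R) hπ ht hx hy h'
  have hwC : IsIntegral C w := hw.tower_top
  obtain ⟨z, rfl⟩ := (IsIntegrallyClosed.isIntegral_iff (R := C) (K := FractionRing C)).mp hwC
  refine ⟨z, IsFractionRing.injective C (FractionRing C) ?_⟩
  rw [hxw, ← algebraMap.coe_smul]

open Pointwise in
/-- `C ⧸ π C` is torsion-free over the domain `R ⧸ (π)`. -/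
theorem isTorsionFree_quotSMulTop [Algebra.IsIntegral R C] {π : R} (hπ : Prime π) :
    Module.IsTorsionFree (R ⧸ Ideal.span {π}) (QuotSMulTop π C) := by
  have : (Ideal.span {π}).IsPrime := (Ideal.span_singleton_prime hπ.ne_zero).mpr hπ
  rw [Module.isTorsionFree_iff_smul_eq_zero]
  intro r m hrm
  obtain ⟨t, rfl⟩ := Ideal.Quotient.mk_surjective r
  obtain ⟨c, rfl⟩ := Submodule.Quotient.mk_surjective _ m
  by_cases ht : π ∣ t
  · left
    exact Ideal.Quotient.eq_zero_iff_mem.mpr (Ideal.mem_span_singleton.mpr ht)
  · right
    have h1 : (Submodule.Quotient.mk (t • c) : QuotSMulTop π C) = 0 := by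
      rw [← hrm]
      rfl
    rw [Submodule.Quotient.mk_eq_zero] at h1
    obtain ⟨c', -, hc'⟩ := (Submodule.mem_smul_pointwise_iff_exists _ _ _).mp h1
    obtain ⟨z, rfl⟩ := exists_eq_smul_of_smul_eq_smul hπ ht hc'.symm
    rw [Submodule.Quotient.mk_eq_zero]
    exact Submodule.smul_mem_pointwise_smul z π _ Submodule.mem_top

/-- **Normal ⇒ free.**  `R` an integrally closed Noetherian local domain, `π` a prime element of
the maximal ideal such that `R ⧸ (π)` is a principal ideal ring; `C` an integrally closed domain,
finite over `R`, with `R → C` injective.  Then `C` is a free `R`-module. -/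
theorem free_of_prime [IsLocalRing R] [IsNoetherianRing R] [Module.Finite R C] {π : R}
    (hπ : Prime π) (hπm : π ∈ IsLocalRing.maximalIdeal R)
    [IsPrincipalIdealRing (R ⧸ Ideal.span {π})] : Module.Free R C := by
  have : (Ideal.span {π}).IsPrime := (Ideal.span_singleton_prime hπ.ne_zero).mpr hπ
  have : Algebra.IsIntegral R C := inferInstance
  have : Module.IsTorsionFree (R ⧸ Ideal.span {π}) (QuotSMulTop π C) :=
    isTorsionFree_quotSMulTop hπ
  have : Module.Finite (R ⧸ Ideal.span {π}) (QuotSMulTop π C) :=
    Module.Finite.of_restrictScalars_finite R (R ⧸ Ideal.span {π}) (QuotSMulTop π C)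
  have : Module.Free (R ⧸ Ideal.span {π}) (QuotSMulTop π C) :=
    Module.free_of_finite_type_torsion_free'
  have : Module.FinitePresentation R C := Module.finitePresentation_of_finite R C
  have hjac : π ∈ (⊥ : Ideal R).jacobson := by
    rw [IsLocalRing.jacobson_eq_maximalIdeal ⊥ bot_ne_top]
    exact hπm
  have hreg : IsSMulRegular C π := by
    intro a b hab
    have hπC : algebraMap R C π ≠ 0 :=
      (map_ne_zero_iff _ (FaithfulSMul.algebraMap_injective R C)).mpr hπ.ne_zero
    simp only [Algebra.smul_def] at hab
    exact mul_left_cancel₀ hπC hab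
  exact (Module.free_quotSMulTop_iff_free R C hjac hreg).mp inferInstance

end Normal

section IntegralClosure

variable {R : Type*} (K L : Type*) [CommRing R] [IsDomain R] [IsIntegrallyClosed R]
  [Field K] [Algebra R K] [IsFractionRing R K]
  [Field L] [Algebra K L] [Algebra R L] [IsScalarTower R K L]

/-- The integral closure of a Noetherian integrally closed domain in a finite separable extension
of its fraction field is a finite module. -/
theorem finite_integralClosure [IsNoetherianRing R] [FiniteDimensional K L]
    [Algebra.IsSeparable K L] : Module.Finite R (integralClosure R L) :=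
  IsIntegralClosure.finite R K L (integralClosure R L)

/-- **Freeness of the integral closure.**  `R` an integrally closed Noetherian local domain with
fraction field `K`, `π` a prime element of the maximal ideal with `R ⧸ (π)` a principal ideal
ring, `L / K` a finite separable field extension.  Then the integral closure of `R` in `L` is a
free `R`-module. -/
theorem free_integralClosure [IsLocalRing R] [IsNoetherianRing R] [FiniteDimensional K L]
    [Algebra.IsSeparable K L] {π : R} (hπ : Prime π) (hπm : π ∈ IsLocalRing.maximalIdeal R)
    [IsPrincipalIdealRing (R ⧸ Ideal.span {π})] : Module.Free R (integralClosure R L) := by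
  have : Module.Finite R (integralClosure R L) := finite_integralClosure K L
  have : IsIntegrallyClosed (integralClosure R L) :=
    integralClosure.isIntegrallyClosedOfFiniteExtension K
  have : FaithfulSMul R (integralClosure R L) := by
    rw [faithfulSMul_iff_algebraMap_injective]
    intro a b hab
    have hinj : Function.Injective (algebraMap R L) := by
      rw [IsScalarTower.algebraMap_eq R K L]
      exact (algebraMap K L).injective.comp (IsFractionRing.injective R K)
    apply hinj
    have := congrArg (algebraMap (integralClosure R L) L) hab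
    simpa [← IsScalarTower.algebraMap_apply] using this
  exact free_of_prime hπ hπm

end IntegralClosure

end Fermat.Agent.Lib.NormalFree
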