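import Mathlib

set_option autoImplicit false

namespace Fermat.Agent.Lib.PermGenus

open Module Equiv

variable {X : Type*}

/-- Number of cycles of a permutation, fixed points included (= number of orbits of the
cyclic group it generates). -/
noncomputable def numOrbits (g : Perm X) : ℕ :=
  Nat.card (MulAction.orbitRel.Quotient (Subgroup.zpowers g) X)

/-- Permutations preserving a function. -/
def stab (f : X → ℚ) : Subgroup (Perm X) where
  carrier := {h | ∀ x, f (h x) = f x}
  mul_mem' := by
    intro a b ha hb x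
    rw [Perm.mul_apply, ha, hb]
  one_mem' := fun _ => rfl
  inv_mem' := by
    intro a ha x
    have h := ha (a⁻¹ x)
    simp only [Perm.coe_inv, apply_symm_apply] at h
    exact h.symm

theorem mem_stab {f : X → ℚ} {h : Perm X} : h ∈ stab f ↔ ∀ x, f (h x) = f x := Iff.rfl

/-- The permutation operator `f ↦ f ∘ g` on functions. -/
noncomputable abbrev P (g : Perm X) : (X → ℚ) →ₗ[ℚ] (X → ℚ) := LinearMap.funLeft ℚ ℚ g

theorem P_apply (g : Perm X) (f : X → ℚ) (x : X) : P g f x = f (g x) := rfl

theorem P_mul (g h : Perm X) : P (g * h) = P h ∘ₗ P g := rfl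

theorem P_one : P (1 : Perm X) = LinearMap.id := rfl

/-- The fixed space of `P g`. -/
noncomputable abbrev fixSp (g : Perm X) : Submodule ℚ (X → ℚ) :=
  LinearMap.ker (LinearMap.id - P g)

/-- The range of `1 - P g`. -/
noncomputable abbrev rgSp (g : Perm X) : Submodule ℚ (X → ℚ) :=
  LinearMap.range (LinearMap.id - P g)

theorem mem_fixSp {g : Perm X} {f : X → ℚ} : f ∈ fixSp g ↔ g ∈ stab f := by
  rw [LinearMap.mem_ker, mem_stab, LinearMap.sub_apply, sub_eq_zero]
  constructor
  · intro h x
    exact (congrFun h x).symm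
  · intro h
    funext x
    exact (h x).symm

theorem orbitRel_zpowers_iff (g : Perm X) (a b : X) :
    MulAction.orbitRel (Subgroup.zpowers g) X a b ↔ ∃ k : ℤ, (g ^ k) b = a := by
  rw [MulAction.orbitRel_apply, MulAction.mem_orbit_iff]
  constructor
  · rintro ⟨⟨h, hh⟩, rfl⟩
    obtain ⟨k, rfl⟩ := Subgroup.mem_zpowers_iff.mp hh
    exact ⟨k, rfl⟩
  · rintro ⟨k, rfl⟩
    exact ⟨⟨g ^ k, Subgroup.zpow_mem_zpowers g k⟩, rfl⟩

/-- The fixed space of `P g` is the space of functions on the orbit space. -/
noncomputable def fixEquiv (g : Perm X) :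
    (MulAction.orbitRel.Quotient (Subgroup.zpowers g) X → ℚ) ≃ₗ[ℚ] fixSp g where
  toFun φ := ⟨fun x => φ (Quotient.mk'' x), by
    rw [mem_fixSp, mem_stab]
    intro x
    congr 1
    apply Quotient.sound'
    exact (orbitRel_zpowers_iff g _ _).mpr ⟨1, by simp⟩⟩
  map_add' φ ψ := rfl
  map_smul' c φ := rfl
  invFun f := fun q => Quotient.liftOn' q f.1 (by
    intro a b hab
    obtain ⟨k, rfl⟩ := (orbitRel_zpowers_iff g _ _).mp hab
    have hg : g ∈ stab f.1 := mem_fixSp.mp f.2
    exact (Subgroup.zpow_mem _ hg k) b)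
  left_inv φ := by
    funext q
    induction q using Quotient.inductionOn' with
    | h x => rfl
  right_inv f := rfl

section fin

variable [Fintype X]

theorem finrank_fixSp (g : Perm X) : finrank ℚ (fixSp g) = numOrbits g := by
  classical
  have : Fintype (MulAction.orbitRel.Quotient (Subgroup.zpowers g) X) := Fintype.ofFinite _
  rw [← (fixEquiv g).finrank_eq, Module.finrank_fintype_fun_eq_card, numOrbits,
    Nat.card_eq_fintype_card]

theorem finrank_rgSp (g : Perm X) : finrank ℚ (rgSp g) + numOrbits g = Fintype.card X := by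
  rw [← finrank_fixSp, LinearMap.finrank_range_add_finrank_ker, Module.finrank_fintype_fun_eq_card]

theorem numOrbits_le (g : Perm X) : numOrbits g ≤ Fintype.card X := by
  have := finrank_rgSp g
  omega

end fin

section ree

variable [Fintype X] [DecidableEq X]

omit [Fintype X] [DecidableEq X] in
/-- If `s`, `t` generate a transitive group, a function fixed by both is constant. -/
theorem const_of_fixed {s t : Perm X}
    (htrans : ∀ x y : X, ∃ g ∈ Subgroup.closure {s, t}, g x = y)
    {f : X → ℚ} (hs : f ∈ fixSp s) (ht : f ∈ fixSp t) (x y : X) : f x = f y := by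
  have hcl : Subgroup.closure {s, t} ≤ stab f := by
    rw [Subgroup.closure_le]
    rintro g (rfl | rfl)
    · exact mem_fixSp.mp hs
    · exact mem_fixSp.mp ht
  obtain ⟨g, hg, rfl⟩ := htrans x y
  exact (hcl hg x).symm

omit [Fintype X] [DecidableEq X] in
theorem finrank_fix_inf_le_one {s t : Perm X}
    (htrans : ∀ x y : X, ∃ g ∈ Subgroup.closure {s, t}, g x = y) :
    finrank ℚ (fixSp t ⊓ fixSp s : Submodule ℚ (X → ℚ)) ≤ 1 := by
  rcases isEmpty_or_nonempty X with hX | ⟨⟨x0⟩⟩
  · have : Subsingleton (X → ℚ) := inferInstance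
    have h0 : finrank ℚ (fixSp t ⊓ fixSp s : Submodule ℚ (X → ℚ)) = 0 :=
      finrank_zero_of_subsingleton
    omega
  · let v : (fixSp t ⊓ fixSp s : Submodule ℚ (X → ℚ)) :=
      ⟨fun _ => 1, ⟨mem_fixSp.mpr fun _ => rfl, mem_fixSp.mpr fun _ => rfl⟩⟩
    refine finrank_le_one v fun w => ⟨w.1 x0, ?_⟩
    apply Subtype.ext
    funext x
    have := const_of_fixed htrans w.2.2 w.2.1 x0 x
    simp [v, this]

/-- Permutations acting trivially modulo a subspace. -/
def trivMod (W : Submodule ℚ (X → ℚ)) : Subgroup (Perm X) where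
  carrier := {h | ∀ v, v - P h v ∈ W}
  mul_mem' := by
    intro a b ha hb v
    have h1 := ha v
    have h2 := hb (P a v)
    have : v - P (a * b) v = (v - P a v) + (P a v - P b (P a v)) := by
      rw [P_mul]; simp
    rw [this]
    exact W.add_mem h1 h2
  one_mem' := by
    intro v
    rw [P_one]
    simp
  inv_mem' := by
    intro a ha v
    have h1 := ha (P a⁻¹ v)
    have h2 : P a (P a⁻¹ v) = v := by
      have : P a ∘ₗ P a⁻¹ = P (a⁻¹ * a) := (P_mul a⁻¹ a).symm
      rw [← LinearMap.comp_apply, this, inv_mul_cancel, P_one]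
      rfl
    rw [h2] at h1
    have : v - P a⁻¹ v = -(P a⁻¹ v - v) := by abel
    rw [this]
    exact W.neg_mem h1

theorem finrank_rg_sup_ge {s t : Perm X}
    (htrans : ∀ x y : X, ∃ g ∈ Subgroup.closure {s, t}, g x = y) :
    Fintype.card X ≤ finrank ℚ (rgSp t ⊔ rgSp s : Submodule ℚ (X → ℚ)) + 1 := by
  rcases isEmpty_or_nonempty X with hX | ⟨⟨x0⟩⟩
  · simp
  set W : Submodule ℚ (X → ℚ) := rgSp t ⊔ rgSp s with hW
  have hcl : Subgroup.closure {s, t} ≤ trivMod W := by
    rw [Subgroup.closure_le]
    rintro g (rfl | rfl)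
    · intro v
      exact (le_sup_right : rgSp g ≤ W) ⟨v, rfl⟩
    · intro v
      exact (le_sup_left : rgSp g ≤ W) ⟨v, rfl⟩
  have hdiff : ∀ x : X, (Pi.single x (1 : ℚ) : X → ℚ) - Pi.single x0 1 ∈ W := by
    intro x
    obtain ⟨g, hg, hgx⟩ := htrans x0 x
    have h := hcl hg (Pi.single x (1 : ℚ))
    have h2 : P g (Pi.single x (1 : ℚ)) = Pi.single x0 1 := by
      funext z
      rw [P_apply]
      by_cases hz : z = x0
      · subst hz
        rw [hgx]
        simp
      · have : g z ≠ x := by
          intro h3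
          apply hz
          apply g.injective
          rw [h3, hgx]
        simp [this, hz]
    rwa [h2] at h
  have htop : (⊤ : Submodule ℚ (X → ℚ)) ≤ W ⊔ Submodule.span ℚ {(Pi.single x0 (1 : ℚ) : X → ℚ)} := by
    rw [← (Pi.basisFun ℚ X).span_eq, Submodule.span_le]
    rintro _ ⟨x, rfl⟩
    rw [Pi.basisFun_apply]
    have : (Pi.single x (1 : ℚ) : X → ℚ) = (Pi.single x 1 - Pi.single x0 1) + Pi.single x0 1 := by
      abel
    rw [this]
    exact Submodule.add_mem_sup (hdiff x) (Submodule.mem_span_singleton_self _)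
  have h1 : finrank ℚ (⊤ : Submodule ℚ (X → ℚ)) ≤
      finrank ℚ (W ⊔ Submodule.span ℚ {(Pi.single x0 (1 : ℚ) : X → ℚ)} : Submodule ℚ (X → ℚ)) :=
    Submodule.finrank_mono htop
  have h2 := Submodule.finrank_add_le_finrank_add_finrank W
    (Submodule.span ℚ {(Pi.single x0 (1 : ℚ) : X → ℚ)})
  have h3 : finrank ℚ (Submodule.span ℚ {(Pi.single x0 (1 : ℚ) : X → ℚ)}) ≤ 1 := by
    have := finrank_span_finset_le_card (R := ℚ) ({(Pi.single x0 (1 : ℚ) : X → ℚ)} : Finset (X → ℚ))
    rw [Finset.coe_singleton, Finset.card_singleton] at this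
    exact this
  rw [finrank_top, Module.finrank_fintype_fun_eq_card] at h1
  omega

/-- The map `(x, y, z) ↦ x + P t y - z`. -/
noncomputable def delta (s t : Perm X) : (rgSp t × rgSp s × rgSp (s * t)) →ₗ[ℚ] (X → ℚ) :=
  (rgSp t).subtype ∘ₗ LinearMap.fst ℚ _ _ +
    (P t ∘ₗ (rgSp s).subtype) ∘ₗ (LinearMap.fst ℚ _ _ ∘ₗ LinearMap.snd ℚ _ _) -
    (rgSp (s * t)).subtype ∘ₗ (LinearMap.snd ℚ _ _ ∘ₗ LinearMap.snd ℚ _ _)

omit [Fintype X] [DecidableEq X] in
theorem delta_apply (s t : Perm X) (p : rgSp t × rgSp s × rgSp (s * t)) :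
    delta s t p = (p.1 : X → ℚ) + P t (p.2.1 : X → ℚ) - (p.2.2 : X → ℚ) := rfl

/-- The map `v ↦ (v - P t v, v - P s v, v - P (s * t) v)`. -/
noncomputable def beta (s t : Perm X) : (X → ℚ) →ₗ[ℚ] (rgSp t × rgSp s × rgSp (s * t)) :=
  (LinearMap.id - P t).rangeRestrict.prod
    ((LinearMap.id - P s).rangeRestrict.prod (LinearMap.id - P (s * t)).rangeRestrict)

omit [Fintype X] [DecidableEq X] in
theorem beta_apply_1 (s t : Perm X) (v : X → ℚ) : ((beta s t v).1 : X → ℚ) = v - P t v := rfl

omit [Fintype X] [DecidableEq X] in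
theorem beta_apply_2 (s t : Perm X) (v : X → ℚ) : ((beta s t v).2.1 : X → ℚ) = v - P s v := rfl

omit [Fintype X] [DecidableEq X] in
theorem beta_apply_3 (s t : Perm X) (v : X → ℚ) :
    ((beta s t v).2.2 : X → ℚ) = v - P (s * t) v := rfl

/-- **Ree's inequality** for two generators: if `s`, `t` generate a transitive group of
permutations of the finite set `X`, then the total number of cycles of `s`, `t` and `s * t`
is at most `|X| + 2`. -/
theorem ree_le (s t : Perm X)
    (htrans : ∀ x y : X, ∃ g ∈ Subgroup.closure {s, t}, g x = y) :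
    numOrbits s + numOrbits t + numOrbits (s * t) ≤ Fintype.card X + 2 := by
  set δ := delta s t with hδ
  set β := beta s t with hβ
  have hδβ : ∀ v, δ (β v) = 0 := by
    intro v
    rw [hδ, hβ, delta_apply, beta_apply_1, beta_apply_2, beta_apply_3, P_mul,
      LinearMap.comp_apply, map_sub]
    abel
  have hle : LinearMap.range β ≤ LinearMap.ker δ := by
    rintro _ ⟨v, rfl⟩
    exact hδβ v
  have hker : LinearMap.ker β ≤ fixSp t ⊓ fixSp s := by
    intro v hv
    have h1 : β v = 0 := hv
    have h2 : v - P t v = 0 := by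
      rw [← beta_apply_1 s t v, ← hβ, h1]; rfl
    have h3 : v - P s v = 0 := by
      rw [← beta_apply_2 s t v, ← hβ, h1]; rfl
    exact ⟨h2, h3⟩
  have hrange : (rgSp t ⊔ rgSp s : Submodule ℚ (X → ℚ)) ≤ LinearMap.range δ := by
    apply sup_le
    · intro x hx
      refine ⟨(⟨x, hx⟩, 0, 0), ?_⟩
      rw [hδ, delta_apply]
      simp
    · intro y hy
      refine ⟨(⟨y - P t y, ⟨y, rfl⟩⟩, ⟨y, hy⟩, 0), ?_⟩
      rw [hδ, delta_apply]
      simp
  have e3 : finrank ℚ (rgSp t × rgSp s × rgSp (s * t)) =
      finrank ℚ (rgSp t) + (finrank ℚ (rgSp s) + finrank ℚ (rgSp (s * t))) := by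
    simp only [Module.finrank_prod]
  have e1 := LinearMap.finrank_range_add_finrank_ker δ
  have e2 := LinearMap.finrank_range_add_finrank_ker β
  have e4 := Submodule.finrank_mono hle
  have e5 := Submodule.finrank_mono hker
  have e6 := Submodule.finrank_mono hrange
  have e7 := finrank_fix_inf_le_one htrans
  have e8 := finrank_rg_sup_ge htrans
  have e9 := finrank_rgSp s
  have e10 := finrank_rgSp t
  have e11 := finrank_rgSp (s * t)
  rw [Module.finrank_fintype_fun_eq_card] at e2
  omega

end ree

section parity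

variable [Fintype X] [DecidableEq X]

/-- The invariant of an orbit: its cycle factor, or the fixed point itself. -/
noncomputable def orbitInv (g : Perm X) (x : X) : {c // c ∈ g.cycleFactorsFinset} ⊕ {x // g x = x} :=
  if hx : g x = x then Sum.inr ⟨x, hx⟩
  else Sum.inl ⟨g.cycleOf x, Perm.cycleOf_mem_cycleFactorsFinset_iff.mpr (Perm.mem_support.mpr hx)⟩

theorem orbitInv_eq_iff (g : Perm X) (x y : X) :
    orbitInv g x = orbitInv g y ↔ g.SameCycle x y := by
  by_cases hx : g x = x <;> by_cases hy : g y = y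
  · rw [orbitInv, orbitInv, dif_pos hx, dif_pos hy]
    constructor
    · intro h
      have : x = y := by simpa using h
      subst this
      exact Perm.SameCycle.refl _ _
    · rintro ⟨k, rfl⟩
      have : (g ^ k) x = x := Perm.zpow_apply_eq_self_of_apply_eq_self hx k
      simp [this]
  · rw [orbitInv, orbitInv, dif_pos hx, dif_neg hy]
    constructor
    · intro h
      simp at h
    · rintro ⟨k, rfl⟩
      exact absurd (by rw [Perm.zpow_apply_eq_self_of_apply_eq_self hx k, hx]) hy
  · rw [orbitInv, orbitInv, dif_neg hx, dif_pos hy]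
    constructor
    · intro h
      simp at h
    · intro h
      obtain ⟨k, hk⟩ := h.symm
      exact absurd (by rw [← hk, Perm.zpow_apply_eq_self_of_apply_eq_self hy k, hy]) hx
  · rw [orbitInv, orbitInv, dif_neg hx, dif_neg hy]
    rw [Perm.sameCycle_iff_cycleOf_eq_of_mem_support (Perm.mem_support.mpr hx)
      (Perm.mem_support.mpr hy)]
    constructor
    · intro h
      simpa using h
    · intro h
      simp [h]

theorem orbitInv_surjective (g : Perm X) : Function.Surjective (orbitInv g) := by
  rintro (⟨c, hc⟩ | ⟨x, hx⟩)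
  · obtain ⟨hcyc, hcg⟩ := Perm.mem_cycleFactorsFinset_iff.mp hc
    obtain ⟨x, hx, -⟩ := hcyc
    have hxs : x ∈ c.support := Perm.mem_support.mpr hx
    have hgx : g x ≠ x := by
      rw [← hcg x hxs]
      exact hx
    refine ⟨x, ?_⟩
    rw [orbitInv, dif_neg hgx]
    congr 1
    exact Subtype.ext (Perm.cycle_is_cycleOf hxs hc).symm
  · exact ⟨x, by rw [orbitInv, dif_pos hx]⟩

theorem numOrbits_eq (g : Perm X) :
    numOrbits g = g.cycleFactorsFinset.card + Fintype.card {x // g x = x} := by
  classical
  have hrel : ∀ a b : X, MulAction.orbitRel (Subgroup.zpowers g) X a b ↔ g.SameCycle b a := by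
    intro a b
    rw [orbitRel_zpowers_iff]
    rfl
  let φ : MulAction.orbitRel.Quotient (Subgroup.zpowers g) X →
      {c // c ∈ g.cycleFactorsFinset} ⊕ {x // g x = x} :=
    fun q => Quotient.liftOn' q (orbitInv g) (by
      intro a b hab
      exact (orbitInv_eq_iff g a b).mpr ((hrel a b).mp hab).symm)
  have hφ : Function.Bijective φ := by
    constructor
    · intro q₁ q₂
      induction q₁ using Quotient.inductionOn' with
      | h a =>
        induction q₂ using Quotient.inductionOn' with
        | h b =>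
          intro h
          apply Quotient.sound'
          exact (hrel a b).mpr ((orbitInv_eq_iff g a b).mp h).symm
    · intro y
      obtain ⟨x, hx⟩ := orbitInv_surjective g y
      exact ⟨Quotient.mk'' x, hx⟩
  rw [numOrbits, Nat.card_eq_of_bijective φ hφ, Nat.card_eq_fintype_card, Fintype.card_sum,
    Fintype.card_coe]

theorem card_fixed_add_card_support (g : Perm X) :
    Fintype.card {x // g x = x} + g.support.card = Fintype.card X := by
  rw [Fintype.card_subtype, Perm.support, ← Finset.card_univ (α := X)]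
  exact Finset.card_filter_add_card_filter_not (s := Finset.univ) (fun x => g x = x)

/-- The sign of a permutation in terms of its number of cycles. -/
theorem sign_eq_neg_one_pow (g : Perm X) :
    Perm.sign g = (-1 : ℤˣ) ^ (Fintype.card X + numOrbits g) := by
  rw [Perm.sign_of_cycleType, Perm.sum_cycleType, numOrbits_eq]
  have h1 := card_fixed_add_card_support g
  have h2 : Multiset.card g.cycleType = g.cycleFactorsFinset.card := by
    rw [Perm.cycleType_def, Multiset.card_map]
    rfl
  rw [h2]
  have h3 : Fintype.card X + (g.cycleFactorsFinset.card + Fintype.card {x // g x = x}) =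
      (g.support.card + g.cycleFactorsFinset.card) + 2 * Fintype.card {x // g x = x} := by
    omega
  rw [h3]
  conv_rhs => rw [pow_add, pow_mul]
  simp

/-- Parity part of the genus formula: `|X| + z(s) + z(t) + z(s * t)` is even. -/
theorem ree_even (s t : Perm X) :
    Even (Fintype.card X + numOrbits s + numOrbits t + numOrbits (s * t)) := by
  have h := Perm.sign_mul s t
  rw [sign_eq_neg_one_pow, sign_eq_neg_one_pow, sign_eq_neg_one_pow, ← pow_add] at h
  have h2 : (-1 : ℤˣ) ^ ((Fintype.card X + numOrbits (s * t)) +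
      (Fintype.card X + numOrbits s + (Fintype.card X + numOrbits t))) = 1 := by
    rw [pow_add, h, ← pow_add, ← two_mul, pow_mul]
    simp
  have h3 : Even ((Fintype.card X + numOrbits (s * t)) +
      (Fintype.card X + numOrbits s + (Fintype.card X + numOrbits t))) := by
    by_contra hodd
    rw [Nat.not_even_iff_odd] at hodd
    rw [hodd.neg_one_pow] at h2
    exact absurd h2 (by decide)
  have h4 : (Fintype.card X + numOrbits (s * t)) +
      (Fintype.card X + numOrbits s + (Fintype.card X + numOrbits t)) =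
      (Fintype.card X + numOrbits s + numOrbits t + numOrbits (s * t)) + 2 * Fintype.card X := by
    ring
  rw [h4] at h3
  exact (Nat.even_add.mp h3).mpr (even_two_mul _)

/-- Orbit count of a permutation of prime order `p` (or trivial): `p z = n + (p-1) fix`. -/
theorem numOrbits_of_pow_prime {p : ℕ} (hp : p.Prime) (g : Perm X) (hg : g ^ p = 1) :
    p * numOrbits g = Fintype.card X + (p - 1) * Fintype.card {x // g x = x} := by
  have h1 := card_fixed_add_card_support g
  have hp1 : 1 ≤ p := hp.one_lt.le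
  by_cases hg1 : g = 1
  · subst hg1
    rw [numOrbits_eq, Perm.cycleFactorsFinset_one, Finset.card_empty, zero_add]
    rw [Perm.support_one, Finset.card_empty, add_zero] at h1
    rw [h1]
    obtain ⟨q, rfl⟩ : ∃ q, p = q + 1 := ⟨p - 1, by omega⟩
    simp only [Nat.add_sub_cancel]
    ring
  · have hord : orderOf g = p := by
      have := Fact.mk hp
      exact orderOf_eq_prime hg hg1
    obtain ⟨m, hm⟩ := Perm.cycleType_prime_order (σ := g) (by rw [hord]; exact hp)
    rw [hord] at hm
    have h2 : g.cycleFactorsFinset.card = m + 1 := by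
      have : Multiset.card g.cycleType = g.cycleFactorsFinset.card := by
        rw [Perm.cycleType_def, Multiset.card_map]
        rfl
      rw [← this, hm, Multiset.card_replicate]
    have h3 : g.support.card = (m + 1) * p := by
      rw [← Perm.sum_cycleType, hm, Multiset.sum_replicate, smul_eq_mul]
    rw [numOrbits_eq, h2, ← h1, h3]
    obtain ⟨q, rfl⟩ : ∃ q, p = q + 1 := ⟨p - 1, by omega⟩
    simp only [Nat.add_sub_cancel]
    ring

omit [Fintype X] [DecidableEq X] in
theorem numOrbits_inv (g : Perm X) : numOrbits g⁻¹ = numOrbits g := by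
  rw [numOrbits, numOrbits, Subgroup.zpowers_inv]

end parity

section genus

variable [Fintype X] [DecidableEq X]

/-- Pure arithmetic: from the orbit counts to the genus formula. -/
theorem toNat_div_two_cast {n zS zST zT fS fST : ℕ} (h2 : 2 * zS = n + fS)
    (h3 : 3 * zST = n + 2 * fST) (hle : zS + zT + zST ≤ n + 2) (hev : Even (n + zS + zT + zST))
    (d : ℤ) (hd : d = (n : ℤ) - zS - zST - zT) :
    (((d + 2).toNat / 2 : ℕ) : ℚ) = 1 + (n : ℚ) / 12 - (fS : ℚ) / 4 - (fST : ℚ) / 3 - (zT : ℚ) / 2 := by
  obtain ⟨k, hk⟩ := hev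
  have hm : (d + 2).toNat = n + 2 - (zS + zT + zST) := by
    rw [hd]
    omega
  have hk2 : n + 2 - (zS + zT + zST) = 2 * (n + 1 - k) := by omega
  rw [hm, hk2, Nat.mul_div_cancel_left _ (by norm_num : 0 < 2)]
  have hkn : k ≤ n + 1 := by omega
  rw [Nat.cast_sub hkn]
  have e1 : (2 : ℚ) * zS = n + fS := by exact_mod_cast h2
  have e2 : (3 : ℚ) * zST = n + 2 * fST := by exact_mod_cast h3
  have e3 : ((n : ℚ) + zS + zT + zST) = k + k := by exact_mod_cast hk
  push_cast
  linarith

/-- **Genus of a hypermap of type (2, 3, ∞) is a natural number**, in the form needed for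
`AlgebraicCurve.genus`: if `s`, `t` generate a transitive permutation group on `X`, `s ^ 2 = 1`
and `(s * t) ^ 3 = 1`, then for `d = |X| - z(s) - z(s t) - z(t)` (the Riemann–Hurwitz degree),
`(d + 2).toNat / 2` equals `1 + |X|/12 - Fix(s)/4 - Fix(s t)/3 - z(t)/2`. -/
theorem genus_perm (s t : Perm X)
    (htrans : ∀ x y : X, ∃ g ∈ Subgroup.closure {s, t}, g x = y)
    (hs : s ^ 2 = 1) (hst : (s * t) ^ 3 = 1)
    (d : ℤ) (hd : d = (Fintype.card X : ℤ) - numOrbits s - numOrbits (s * t) - numOrbits t) :
    (((d + 2).toNat / 2 : ℕ) : ℚ) = 1 + (Fintype.card X : ℚ) / 12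
      - (Fintype.card {x // s x = x} : ℚ) / 4 - (Fintype.card {x // (s * t) x = x} : ℚ) / 3
      - (numOrbits t : ℚ) / 2 := by
  have h2 := numOrbits_of_pow_prime Nat.prime_two s hs
  have h3 := numOrbits_of_pow_prime Nat.prime_three (s * t) hst
  exact toNat_div_two_cast (by simpa using h2) (by simpa using h3) (ree_le s t htrans)
    (ree_even s t) d hd

end genus

section action

variable {G : Type*} [Group G] [MulAction G X]

variable (X) in
/-- Number of orbits on `X` of the cyclic group generated by `a`. -/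
noncomputable def orb (a : G) : ℕ :=
  Nat.card (MulAction.orbitRel.Quotient (Subgroup.zpowers a) X)

theorem orb_eq_numOrbits (a : G) : orb X a = numOrbits (MulAction.toPerm a : Perm X) := by
  apply Nat.card_congr
  apply Quotient.congrRight
  intro x y
  rw [orbitRel_zpowers_iff]
  show MulAction.orbitRel (Subgroup.zpowers a) X x y ↔ _
  rw [MulAction.orbitRel_apply, MulAction.mem_orbit_iff]
  constructor
  · rintro ⟨⟨h, hh⟩, rfl⟩
    obtain ⟨k, rfl⟩ := Subgroup.mem_zpowers_iff.mp hh
    refine ⟨k, ?_⟩
    have : (MulAction.toPerm a : Perm X) ^ k = MulAction.toPerm (a ^ k) :=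
      (map_zpow (MulAction.toPermHom G X) a k).symm
    rw [this]
    rfl
  · rintro ⟨k, rfl⟩
    refine ⟨⟨a ^ k, Subgroup.zpow_mem_zpowers a k⟩, ?_⟩
    have : (MulAction.toPerm a : Perm X) ^ k = MulAction.toPerm (a ^ k) :=
      (map_zpow (MulAction.toPermHom G X) a k).symm
    rw [this]
    rfl

/-- Group-action form of `genus_perm`: `G` acts transitively on the finite set `X`, is generated
by `a`, `b`, with `a` acting as an involution and `a * b` with order dividing `3`. Then for
`d = |X| - orb a - orb (a * b) - orb b`, the natural number `(d + 2).toNat / 2` equals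
`1 + |X|/12 - |Fix a|/4 - |Fix (a * b)|/3 - (orb b)/2`. -/
theorem genus_action [Finite X] [MulAction.IsPretransitive G X] (a b : G)
    (hgen : Subgroup.closure {a, b} = ⊤)
    (ha : ∀ x : X, a • a • x = x) (hab : ∀ x : X, (a * b) • (a * b) • (a * b) • x = x)
    (d : ℤ) (hd : d = (Nat.card X : ℤ) - orb X a - orb X (a * b) - orb X b) :
    (((d + 2).toNat / 2 : ℕ) : ℚ) = 1 + (Nat.card X : ℚ) / 12
      - (Nat.card (MulAction.fixedBy X a) : ℚ) / 4
      - (Nat.card (MulAction.fixedBy X (a * b)) : ℚ) / 3
      - (orb X b : ℚ) / 2 := by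
  classical
  have : Fintype X := Fintype.ofFinite X
  set s : Perm X := MulAction.toPerm a with hs_def
  set t : Perm X := MulAction.toPerm b with ht_def
  have hst_def : s * t = MulAction.toPerm (a * b) :=
    (map_mul (MulAction.toPermHom G X) a b).symm
  have htrans : ∀ x y : X, ∃ g ∈ Subgroup.closure {s, t}, g x = y := by
    intro x y
    obtain ⟨g, rfl⟩ := MulAction.exists_smul_eq G x y
    refine ⟨MulAction.toPermHom G X g, ?_, rfl⟩
    have h1 : g ∈ Subgroup.closure {a, b} := by rw [hgen]; exact Subgroup.mem_top g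
    have h2 : MulAction.toPermHom G X g ∈ (Subgroup.closure {a, b}).map (MulAction.toPermHom G X) :=
      Subgroup.mem_map_of_mem _ h1
    rw [MonoidHom.map_closure, Set.image_pair] at h2
    exact h2
  have hs : s ^ 2 = 1 := by
    ext x
    rw [pow_two, Perm.mul_apply]
    exact ha x
  have hst : (s * t) ^ 3 = 1 := by
    ext x
    rw [hst_def, pow_succ, pow_two, Perm.mul_apply, Perm.mul_apply]
    exact hab x
  have hfa : Nat.card (MulAction.fixedBy X a) = Fintype.card {x // s x = x} := by
    rw [← Nat.card_eq_fintype_card]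
    rfl
  have hfab : Nat.card (MulAction.fixedBy X (a * b)) = Fintype.card {x // (s * t) x = x} := by
    rw [← Nat.card_eq_fintype_card, hst_def]
    rfl
  rw [orb_eq_numOrbits, orb_eq_numOrbits, orb_eq_numOrbits, ← hs_def, ← ht_def, ← hst_def,
    Nat.card_eq_fintype_card] at hd
  rw [orb_eq_numOrbits, ← ht_def, hfa, hfab, Nat.card_eq_fintype_card]
  exact genus_perm s t htrans hs hst d hd

end action

end Fermat.Agent.Lib.PermGenus
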