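import Mathlib
import Fermat.Agent.S24.FF.Dedekind
import Fermat.Agent.S30.Model.LocPowPlace

/-!
# Weak approximation on a curve: prescribed orders at finitely many places

`exists_forall_ord_eq` : in a function field `F / K` (`K` infinite, `F` finite over `K(u)` for a
transcendental `u`), for every finite set `T` of places and every `n : Place K F → ℤ` there is
`w ≠ 0` in `F` with `P.ord w = n P` for all `P ∈ T`.

`exists_integral_coordinate` : a transcendental `t` with `K(t) = K(u)` which is regular at all
places of `T`.
-/

set_option autoImplicit false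

namespace Fermat.Agent.Lib.PlaceApprox

open AlgebraicCurve IsDedekindDomain WithZero IntermediateField
open scoped IntermediateField.algebraAdjoinAdjoin

variable {K F : Type*} [Field K] [Field F] [Algebra K F]

/-- For a transcendental `u` and a finite set `T` of places there is a constant `c` such that
`t = (u - c)⁻¹` is regular at all places of `T`. -/
theorem exists_const_forall_ord_inv_nonneg [Infinite K] (u : F) (hu : Transcendental K u)
    (T : Finset (Place K F)) :
    ∃ c : K, ∀ P ∈ T, 0 ≤ P.ord (u - algebraMap K F c)⁻¹ := by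
  classical
  -- the bad constants at a place
  let B : Place K F → Set K := fun P => {c | 0 < P.ord (u - algebraMap K F c)}
  have hne : ∀ c : K, u - algebraMap K F c ≠ 0 := by
    intro c h
    apply hu
    rw [sub_eq_zero.mp h]
    exact isAlgebraic_algebraMap c
  have hB : ∀ P, (B P).Subsingleton := by
    intro P c hc c' hc'
    by_contra hcc
    have h1 : 0 < P.ord (u - algebraMap K F c) := hc
    have h2 : 0 < P.ord (u - algebraMap K F c') := hc'
    have h3 : (u - algebraMap K F c') - (u - algebraMap K F c) = algebraMap K F (c - c') := by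
      rw [map_sub]; ring
    have h4 : c - c' ≠ 0 := sub_ne_zero.mpr hcc
    have h5 : (u - algebraMap K F c') - (u - algebraMap K F c) ≠ 0 := by
      rw [h3]; exact (map_ne_zero_iff _ (algebraMap K F).injective).mpr h4
    have h6 := Fermat.Agent.S24.FF.ord_sub_ge P h5
    rw [h3, Fermat.Agent.S24.FF.ord_algebraMap] at h6
    have := le_min h2.le h1.le
    have h7 : min (P.ord (u - algebraMap K F c')) (P.ord (u - algebraMap K F c)) ≤ 0 := h6
    rcases min_le_iff.mp h7 with h | h <;> omega
  have hfin : (⋃ P ∈ T, B P : Set K).Finite :=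
    Set.Finite.biUnion T.finite_toSet (fun P _ => (hB P).finite)
  obtain ⟨c, hc⟩ := hfin.exists_notMem
  simp only [Set.mem_iUnion, not_exists] at hc
  refine ⟨c, fun P hP => ?_⟩
  have h1 : ¬ 0 < P.ord (u - algebraMap K F c) := fun h => hc P hP h
  rw [P.ord_inv]
  omega

/-- **Weak approximation on a curve**: prescribed orders at finitely many places. -/
theorem exists_forall_ord_eq [CharZero K] (u : F) (hu : Transcendental K u)
    [FiniteDimensional K⟮u⟯ F] (T : Finset (Place K F)) (n : Place K F → ℤ) :
    ∃ w : F, w ≠ 0 ∧ ∀ P ∈ T, P.ord w = n P := by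
  classical
  obtain ⟨c, hc⟩ := exists_const_forall_ord_inv_nonneg u hu T
  have hne : u - algebraMap K F c ≠ 0 := by
    intro h
    apply hu
    rw [sub_eq_zero.mp h]
    exact isAlgebraic_algebraMap c
  set t : F := (u - algebraMap K F c)⁻¹ with ht
  have ht0 : t ≠ 0 := inv_ne_zero hne
  have hut : u = t⁻¹ + algebraMap K F c := by rw [ht, inv_inv]; ring
  -- `K(t) = K(u)`
  have hK : K⟮t⟯ = K⟮u⟯ := by
    apply le_antisymm
    · rw [adjoin_simple_le_iff, ht]
      exact inv_mem (sub_mem (mem_adjoin_simple_self K u) (IntermediateField.algebraMap_mem _ c))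
    · rw [adjoin_simple_le_iff, hut]
      exact add_mem (inv_mem (mem_adjoin_simple_self K t)) (IntermediateField.algebraMap_mem _ c)
  have htr : Transcendental K t := by
    intro halg
    apply hu
    rw [hut]
    exact (halg.inv).add (isAlgebraic_algebraMap c)
  have : FiniteDimensional K⟮t⟯ F := by rw [hK]; infer_instance
  have : IsPrincipalIdealRing (Algebra.adjoin K {t}) :=
    Fermat.Agent.S24.FF.polyRing_isPrincipalIdealRing K t htr
  have : IsDedekindDomain (integralClosure (Algebra.adjoin K {t}) F) :=
    integralClosure.isDedekindDomain (Algebra.adjoin K {t}) K⟮t⟯ F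
  have : IsFractionRing (integralClosure (Algebra.adjoin K {t}) F) F :=
    integralClosure.isFractionRing_of_finite_extension K⟮t⟯ F
  have : IsScalarTower K (integralClosure (Algebra.adjoin K {t}) F) F :=
    IsScalarTower.of_algebraMap_eq (fun c => by simp [Algebra.algebraMap_eq_smul_one])
  -- every place of `T` contains the integral closure of `K[t]`
  have hmem : ∀ P ∈ T, ∀ r : integralClosure (Algebra.adjoin K {t}) F,
      algebraMap (integralClosure (Algebra.adjoin K {t}) F) F r ∈ P.toValuationSubring := by
    intro P hP r
    have htP : t ∈ P.toValuationSubring :=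
      (Fermat.Agent.S24.FF.ord_nonneg_iff P ht0).mp (hc P hP)
    have hadj : ∀ a : Algebra.adjoin K {t}, algebraMap (Algebra.adjoin K {t}) F a ∈
        P.toValuationSubring := by
      intro a
      have h1 : ∀ x ∈ Algebra.adjoin K {t}, x ∈ P.toValuationSubring := by
        intro x hx
        induction hx using Algebra.adjoin_induction with
        | mem y hy => rw [Set.mem_singleton_iff.mp hy]; exact htP
        | algebraMap r => exact P.algebraMap_mem' r
        | add x y _ _ hx hy => exact add_mem hx hy
        | mul x y _ _ hx hy => exact mul_mem hx hy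
      exact h1 _ a.2
    exact Fermat.Agent.S24.FF.mem_of_isIntegral P hadj r.2
  -- the primes of the places of `T`
  have hex : ∀ P ∈ T, ∃ w : HeightOneSpectrum (integralClosure (Algebra.adjoin K {t}) F),
      Place.ofHeightOneSpectrum (K := K) (F := F) w = P :=
    fun P hP => Fermat.Agent.S24.FF.exists_ofHeightOneSpectrum_eq P (hmem P hP)
  choose q hq using hex
  set W : Finset (HeightOneSpectrum (integralClosure (Algebra.adjoin K {t}) F)) :=
    T.attach.image (fun P => q P.1 P.2) with hW
  obtain ⟨τ, hτ0, hτ⟩ := Fermat.Agent.S30.Model.LocPowPlace.exists_valuation_eq (K := F) W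
    (fun w => n (Place.ofHeightOneSpectrum (K := K) (F := F) w))
  refine ⟨τ, hτ0, fun P hP => ?_⟩
  have hmemW : q P hP ∈ W := by
    rw [hW, Finset.mem_image]
    exact ⟨⟨P, hP⟩, Finset.mem_attach _ _, rfl⟩
  have h1 := hτ (q P hP) hmemW
  have h2 := Fermat.Agent.S24.FF.ord_ofHeightOneSpectrum (K := K) (q P hP) hτ0
  rw [hq P hP] at h1 h2
  rw [h2, h1, log_exp, neg_neg]

/-- Divisor form: a function with the orders of a given divisor `D` at all places of a finite
set `T` (e.g. `T ⊇ D.support`). -/
theorem exists_forall_ord_eq_divisor [CharZero K] (u : F) (hu : Transcendental K u)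
    [FiniteDimensional K⟮u⟯ F] (D : Divisor K F) (T : Finset (Place K F)) :
    ∃ w : F, w ≠ 0 ∧ ∀ P ∈ T, P.ord w = D P :=
  exists_forall_ord_eq u hu T (fun P => D P)

end Fermat.Agent.Lib.PlaceApprox
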