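/-
Constant-field-extension place lemma (helper139).

`E ⊆ Ω` algebraic, characteristic zero; `L/E` and `F/Ω` fields with `F = L · Ω`.
Every place `P` of `L/E` (Prelude `AlgebraicCurve.Place`) has a place `P'` of `F/Ω` above it which
is UNRAMIFIED: `P'.ord x = P.ord x` for all `x ∈ L`.

Proof: `V'` := a valuation ring of `F` dominating `V = O_P`.  For `α ∈ Ω` with separable minimal
polynomial `f` over `E`, the reduction of `f` modulo `m_V` is squarefree; writing it as `g₁ g₂` with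
`g₁` the minimal polynomial of the residue of `α`, the element `s = g₂(α)` is a unit of `V'` and
`s · z ∈ ϖ V[α]` for every `z ∈ V[α] ∩ m_V'`.  Iterating (boundedly often, because `ϖ^N / z ∈ V[α]`
for some `N`) every nonzero element of `L[α]` is `ϖ^n ·` unit of `V'`.
-/
import Mathlib
import Fermat.Prelude.Def_AlgebraicCurve_DivisorClassGroup

set_option autoImplicit false

namespace Fermat.Agent.Lib.PlaceExt

open Polynomial

section Core

variable {L F : Type*} [Field L] [Field F] [Algebra L F]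

/-- Clearing denominators with a power of the uniformiser. -/
theorem exists_clear_denominators (V : ValuationSubring L) [IsDiscreteValuationRing V]
    (ϖ : V) (hϖ : Irreducible ϖ) (p : L[X]) :
    ∃ (a : ℕ) (G : (↥V)[X]), G.map V.subtype = C ((ϖ : L) ^ a) * p := by
  obtain ⟨b, hbM, hb⟩ := IsLocalization.integerNormalization_spec (nonZeroDivisors ↥V) p
  have hb0 : (b : ↥V) ≠ 0 := nonZeroDivisors.ne_zero hbM
  obtain ⟨a, u, hu⟩ := IsDiscreteValuationRing.eq_unit_mul_pow_irreducible hb0 hϖ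
  refine ⟨a, C ((u⁻¹ : (↥V)ˣ) : ↥V) * IsLocalization.integerNormalization (nonZeroDivisors ↥V) p, ?_⟩
  have h1 : (IsLocalization.integerNormalization (nonZeroDivisors ↥V) p).map V.subtype
      = C ((b : ↥V) : L) * p := by
    have := hb
    rw [Algebra.smul_def] at this
    rw [show V.subtype = algebraMap (↥V) L from rfl, this]
    rfl
  rw [Polynomial.map_mul, Polynomial.map_C, h1, ← mul_assoc, ← C_mul]
  congr 2
  have h2 : (((u⁻¹ : (↥V)ˣ) : ↥V) : L) * ((u : ↥V) : L) = 1 := by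
    have : ((u⁻¹ : (↥V)ˣ) : ↥V) * (u : ↥V) = 1 := by simp
    exact_mod_cast congrArg (Subtype.val) this
  rw [hu]
  show (((u⁻¹ : (↥V)ˣ) : ↥V) : L) * (((u : ↥V) * ϖ ^ a : ↥V) : L) = (ϖ : L) ^ a
  push_cast
  rw [← mul_assoc, h2, one_mul]

/-- The evaluation hom `V → F`. -/
noncomputable abbrev evHom (V : ValuationSubring L) : ↥V →+* F := (algebraMap L F).comp V.subtype

/-- Key algebraic step: there is a unit `s = g₂(α)` of `V'` such that `s · z ∈ ϖ · V[α]` for every
non-unit `z = G(α)` of `V'`. -/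
theorem exists_unit_multiplier
    (V : ValuationSubring L) [IsDiscreteValuationRing V] (ϖ : V) (hϖ : Irreducible ϖ)
    (V' : ValuationSubring F)
    (hV : ∀ x : V, algebraMap L F x ∈ V')
    (hϖ' : (algebraMap L F ϖ)⁻¹ ∉ V')
    (α : F) (hα : α ∈ V')
    (f : (↥V)[X]) (hf : f.Monic)
    (hfα : f.eval₂ (evHom (F := F) V) α = 0)
    (hsep : (f.map (IsLocalRing.residue ↥V)).Separable) :
    ∃ g₂ : (↥V)[X], g₂.eval₂ (evHom (F := F) V) α ≠ 0 ∧
      (g₂.eval₂ (evHom (F := F) V) α)⁻¹ ∈ V' ∧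
      ∀ G : (↥V)[X], (G.eval₂ (evHom (F := F) V) α)⁻¹ ∉ V' →
        ∃ G₁ : (↥V)[X], g₂.eval₂ (evHom (F := F) V) α * G.eval₂ (evHom (F := F) V) α
          = algebraMap L F ϖ * G₁.eval₂ (evHom (F := F) V) α := by
  classical
  set φ : ↥V →+* F := evHom (F := F) V with hφ
  let φ' : ↥V →+* ↥V' := φ.codRestrict V'.toSubring (fun x => hV x)
  let α' : ↥V' := ⟨α, hα⟩
  have hev : ∀ G : (↥V)[X], ((G.eval₂ φ' α' : ↥V') : F) = G.eval₂ φ α := by
    intro G
    have := Polynomial.hom_eval₂ G φ' V'.subtype α'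
    exact this
  let red := IsLocalRing.residue ↥V
  let red' := IsLocalRing.residue ↥V'
  -- units of `V'`
  have hunit_inv : ∀ y : ↥V', IsUnit y → ((y : F))⁻¹ ∈ V' := by
    intro y hy
    obtain ⟨b, hb⟩ := hy.exists_right_inv
    have h1 : (y : F) * (b : F) = 1 := congrArg Subtype.val hb
    rw [← eq_inv_of_mul_eq_one_right h1]
    exact b.2
  have hϖm : red' (φ' ϖ) = 0 := by
    rw [IsLocalRing.residue_eq_zero_iff, IsLocalRing.mem_maximalIdeal, mem_nonunits_iff]
    intro hu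
    exact hϖ' (hunit_inv _ hu)
  have hloc : IsLocalHom (red'.comp φ') := by
    refine ⟨fun a ha => ?_⟩
    by_contra hna
    have hmem : a ∈ IsLocalRing.maximalIdeal ↥V := by
      rw [IsLocalRing.mem_maximalIdeal, mem_nonunits_iff]; exact hna
    rw [hϖ.maximalIdeal_eq, Ideal.mem_span_singleton] at hmem
    obtain ⟨c, rfl⟩ := hmem
    rw [RingHom.comp_apply, map_mul, map_mul, hϖm, zero_mul] at ha
    exact not_isUnit_zero ha
  let ι : IsLocalRing.ResidueField ↥V →+* IsLocalRing.ResidueField ↥V' :=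
    IsLocalRing.ResidueField.lift (red'.comp φ')
  let _ : Algebra (IsLocalRing.ResidueField ↥V) (IsLocalRing.ResidueField ↥V') := ι.toAlgebra
  have hι : (algebraMap (IsLocalRing.ResidueField ↥V) (IsLocalRing.ResidueField ↥V')).comp red
      = red'.comp φ' := by
    ext x
    exact IsLocalRing.ResidueField.lift_residue_apply (red'.comp φ') x
  set αb : IsLocalRing.ResidueField ↥V' := red' α' with hαb
  have key : ∀ G : (↥V)[X], aeval αb (G.map red) = red' (G.eval₂ φ' α') := by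
    intro G
    rw [Polynomial.aeval_def, Polynomial.eval₂_map, hι, Polynomial.hom_eval₂]
  have hf0 : f.eval₂ φ' α' = 0 := Subtype.ext (by rw [hev]; exact hfα)
  have hfbar : aeval αb (f.map red) = 0 := by rw [key, hf0, map_zero]
  have hint : IsIntegral (IsLocalRing.ResidueField ↥V) αb := ⟨f.map red, hf.map _, hfbar⟩
  obtain ⟨g₂bar, hg₂⟩ := minpoly.dvd (IsLocalRing.ResidueField ↥V) αb hfbar
  have hg₂ne : aeval αb g₂bar ≠ 0 := by
    intro h0
    obtain ⟨c, hc⟩ := minpoly.dvd (IsLocalRing.ResidueField ↥V) αb h0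
    have hdvd : minpoly (IsLocalRing.ResidueField ↥V) αb * minpoly (IsLocalRing.ResidueField ↥V) αb
        ∣ f.map red := ⟨c, by rw [hg₂, hc]; ring⟩
    exact minpoly.not_isUnit (IsLocalRing.ResidueField ↥V) αb (hsep.squarefree _ hdvd)
  obtain ⟨g₂, hg₂lift⟩ := Polynomial.map_surjective red IsLocalRing.residue_surjective g₂bar
  have hs_unit : IsUnit (g₂.eval₂ φ' α') := by
    rw [← IsLocalRing.residue_ne_zero_iff_isUnit]
    show red' _ ≠ 0
    rw [← key, hg₂lift]
    exact hg₂ne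
  refine ⟨g₂, ?_, ?_, ?_⟩
  · rw [← hev]
    intro h0
    have : g₂.eval₂ φ' α' = 0 := Subtype.ext h0
    rw [this] at hs_unit
    exact not_isUnit_zero hs_unit
  · rw [← hev]
    exact hunit_inv _ hs_unit
  · intro G hG
    have hGnu : ¬ IsUnit (G.eval₂ φ' α') := by
      intro hu
      apply hG
      rw [← hev]
      exact hunit_inv _ hu
    have hG0 : aeval αb (G.map red) = 0 := by
      rw [key]
      by_contra hne
      exact hGnu ((IsLocalRing.residue_ne_zero_iff_isUnit _).mp hne)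
    obtain ⟨Hbar, hH⟩ := minpoly.dvd (IsLocalRing.ResidueField ↥V) αb hG0
    obtain ⟨H, hHlift⟩ := Polynomial.map_surjective red IsLocalRing.residue_surjective Hbar
    have hzero : (g₂ * G - f * H).map red = 0 := by
      rw [Polynomial.map_sub, Polynomial.map_mul, Polynomial.map_mul, hg₂lift, hHlift, hH, hg₂]
      ring
    have hdvd : C ϖ ∣ g₂ * G - f * H := by
      rw [Polynomial.C_dvd_iff_dvd_coeff]
      intro i
      have hi : red ((g₂ * G - f * H).coeff i) = 0 := by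
        rw [← Polynomial.coeff_map, hzero, Polynomial.coeff_zero]
      rw [IsLocalRing.residue_eq_zero_iff, hϖ.maximalIdeal_eq, Ideal.mem_span_singleton] at hi
      exact hi
    obtain ⟨G₁, hG₁⟩ := hdvd
    refine ⟨G₁, ?_⟩
    have h3 := congrArg (Polynomial.eval₂ φ α) hG₁
    rw [Polynomial.eval₂_sub, Polynomial.eval₂_mul, Polynomial.eval₂_mul, Polynomial.eval₂_mul,
      Polynomial.eval₂_C, hfα, zero_mul, sub_zero] at h3
    exact h3


omit [Algebra L F] in
theorem coe_ne_zero_of_irreducible (V : ValuationSubring L) (ϖ : V) (hϖ : Irreducible ϖ) :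
    (ϖ : L) ≠ 0 := by
  intro h
  exact hϖ.ne_zero (Subtype.ext h)

theorem eval_mem (V : ValuationSubring L) (V' : ValuationSubring F)
    (hV : ∀ x : V, algebraMap L F x ∈ V') (α : F) (hα : α ∈ V') (G : (↥V)[X]) :
    G.eval₂ (evHom (F := F) V) α ∈ V' := by
  let φ' : ↥V →+* ↥V' := (evHom (F := F) V).codRestrict V'.toSubring (fun x => hV x)
  have := Polynomial.hom_eval₂ G φ' V'.subtype ⟨α, hα⟩
  have h2 : G.eval₂ (evHom (F := F) V) α = ((G.eval₂ φ' ⟨α, hα⟩ : ↥V') : F) := this.symm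
  rw [h2]
  exact (G.eval₂ φ' ⟨α, hα⟩).2

/-- Bounded iteration. -/
theorem unit_pow_of_bound
    (V : ValuationSubring L) [IsDiscreteValuationRing V] (ϖ : V) (hϖ : Irreducible ϖ)
    (V' : ValuationSubring F)
    (hV : ∀ x : V, algebraMap L F x ∈ V')
    (hϖ' : (algebraMap L F ϖ)⁻¹ ∉ V')
    (α : F) (hα : α ∈ V')
    (f : (↥V)[X]) (hf : f.Monic)
    (hfα : f.eval₂ (evHom (F := F) V) α = 0)
    (hsep : (f.map (IsLocalRing.residue ↥V)).Separable) :
    ∀ (n : ℕ) (G : (↥V)[X]), G.eval₂ (evHom (F := F) V) α ≠ 0 →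
      (algebraMap L F ϖ) ^ n / G.eval₂ (evHom (F := F) V) α ∈ V' →
      ∃ k : ℕ, G.eval₂ (evHom (F := F) V) α / (algebraMap L F ϖ) ^ k ∈ V' ∧
        (algebraMap L F ϖ) ^ k / G.eval₂ (evHom (F := F) V) α ∈ V' := by
  obtain ⟨g₂, hs0, hsinv, hmul⟩ := exists_unit_multiplier V ϖ hϖ V' hV hϖ' α hα f hf hfα hsep
  have hϖF : algebraMap L F ϖ ≠ 0 := by
    rw [Ne, map_eq_zero]
    exact coe_ne_zero_of_irreducible V ϖ hϖ
  have hsmem : g₂.eval₂ (evHom (F := F) V) α ∈ V' := eval_mem V V' hV α hα g₂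
  intro n
  induction n with
  | zero =>
    intro G hG0 hG
    refine ⟨0, ?_, ?_⟩
    · rw [pow_zero, div_one]; exact eval_mem V V' hV α hα G
    · exact hG
  | succ n ih =>
    intro G hG0 hG
    by_cases hinv : (G.eval₂ (evHom (F := F) V) α)⁻¹ ∈ V'
    · refine ⟨0, ?_, ?_⟩
      · rw [pow_zero, div_one]; exact eval_mem V V' hV α hα G
      · rw [pow_zero, one_div]; exact hinv
    · obtain ⟨G₁, hG₁⟩ := hmul G hinv
      set x := G.eval₂ (evHom (F := F) V) α with hx
      set s := g₂.eval₂ (evHom (F := F) V) α with hs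
      set x₁ := G₁.eval₂ (evHom (F := F) V) α with hx₁
      set w := algebraMap L F ϖ with hw
      have hx₁0 : x₁ ≠ 0 := by
        intro h0
        rw [h0, mul_zero] at hG₁
        exact mul_ne_zero hs0 hG0 hG₁
      have hx₁eq : x₁ = s * x / w := by
        rw [hG₁]; field_simp
      have h1 : w ^ n / x₁ = w ^ (n + 1) / x * s⁻¹ := by
        rw [hx₁eq]; (field_simp; ring)
      have h2 : w ^ n / x₁ ∈ V' := by
        rw [h1]; exact V'.mul_mem _ _ hG hsinv
      obtain ⟨k, hk1, hk2⟩ := ih G₁ hx₁0 h2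
      refine ⟨k + 1, ?_, ?_⟩
      · have h3 : x / w ^ (k + 1) = x₁ / w ^ k * s⁻¹ := by
          rw [hx₁eq]; (field_simp; ring)
        rw [h3]; exact V'.mul_mem _ _ hk1 hsinv
      · have h4 : w ^ (k + 1) / x = w ^ k / x₁ * s := by
          rw [hx₁eq]; (field_simp; ring)
        rw [h4]; exact V'.mul_mem _ _ hk2 hsmem

/-- Every nonzero element of `L[α]` is `ϖ ^ n` times a unit of `V'`. -/
theorem adjoin_singleton_unit_zpow
    (V : ValuationSubring L) [IsDiscreteValuationRing V] (ϖ : V) (hϖ : Irreducible ϖ)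
    (V' : ValuationSubring F)
    (hV : ∀ x : V, algebraMap L F x ∈ V')
    (hϖ' : (algebraMap L F ϖ)⁻¹ ∉ V')
    (α : F) (hα : α ∈ V')
    (f : (↥V)[X]) (hf : f.Monic)
    (hfα : f.eval₂ (evHom (F := F) V) α = 0)
    (hsep : (f.map (IsLocalRing.residue ↥V)).Separable)
    (x : F) (hx : x ∈ Algebra.adjoin L {α}) (hx0 : x ≠ 0) :
    ∃ n : ℤ, x / (algebraMap L F ϖ) ^ n ∈ V' ∧ (algebraMap L F ϖ) ^ n / x ∈ V' := by
  have hϖF : algebraMap L F ϖ ≠ 0 := by
    rw [Ne, map_eq_zero]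
    exact coe_ne_zero_of_irreducible V ϖ hϖ
  have hαint : IsIntegral L α := by
    refine ⟨f.map V.subtype, hf.map _, ?_⟩
    rw [Polynomial.eval₂_map]
    exact hfα
  have hxint : IsIntegral L x := IsIntegral.of_mem_of_fg _ hαint.fg_adjoin_singleton x hx
  have hxinv : x⁻¹ ∈ Algebra.adjoin L {α} :=
    (Algebra.adjoin L {α}).inv_mem_of_algebraic (x := ⟨x, hx⟩) hxint.isAlgebraic
  rw [Algebra.adjoin_singleton_eq_range_aeval] at hx hxinv
  obtain ⟨p, hp⟩ := hx
  obtain ⟨p', hp'⟩ := hxinv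
  obtain ⟨a, G, hG⟩ := exists_clear_denominators V ϖ hϖ p
  obtain ⟨b, G', hG'⟩ := exists_clear_denominators V ϖ hϖ p'
  have hev : ∀ (c : ℕ) (q : L[X]) (H : (↥V)[X]), H.map V.subtype = C ((ϖ : L) ^ c) * q →
      H.eval₂ (evHom (F := F) V) α = (algebraMap L F ϖ) ^ c * aeval α q := by
    intro c q H hH
    have h1 : H.eval₂ (evHom (F := F) V) α = (H.map V.subtype).eval₂ (algebraMap L F) α := by
      rw [Polynomial.eval₂_map]
    rw [h1, hH, Polynomial.eval₂_mul, Polynomial.eval₂_C, map_pow, Polynomial.aeval_def]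
  have hGe := hev a p G hG
  have hGe' := hev b p' G' hG'
  have hp1 : (aeval α) p = x := hp
  have hp1' : (aeval α) p' = x⁻¹ := hp'
  rw [hp1] at hGe
  rw [hp1'] at hGe'
  have hG0 : G.eval₂ (evHom (F := F) V) α ≠ 0 := by
    rw [hGe]; exact mul_ne_zero (pow_ne_zero _ hϖF) hx0
  have hbound : (algebraMap L F ϖ) ^ (a + b) / G.eval₂ (evHom (F := F) V) α ∈ V' := by
    have h2 : (algebraMap L F ϖ) ^ (a + b) / G.eval₂ (evHom (F := F) V) α
        = G'.eval₂ (evHom (F := F) V) α := by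
      rw [hGe, hGe', pow_add]; field_simp
    rw [h2]; exact eval_mem V V' hV α hα G'
  obtain ⟨k, hk1, hk2⟩ :=
    unit_pow_of_bound V ϖ hϖ V' hV hϖ' α hα f hf hfα hsep (a + b) G hG0 hbound
  refine ⟨(k : ℤ) - (a : ℤ), ?_, ?_⟩
  · have h3 : x / (algebraMap L F ϖ) ^ ((k : ℤ) - (a : ℤ))
        = G.eval₂ (evHom (F := F) V) α / (algebraMap L F ϖ) ^ k := by
      rw [hGe, zpow_sub₀ hϖF, zpow_natCast, zpow_natCast]; field_simp
    rw [h3]; exact hk1
  · have h4 : (algebraMap L F ϖ) ^ ((k : ℤ) - (a : ℤ)) / x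
        = (algebraMap L F ϖ) ^ k / G.eval₂ (evHom (F := F) V) α := by
      rw [hGe, zpow_sub₀ hϖF, zpow_natCast, zpow_natCast]; field_simp
    rw [h4]; exact hk2

end Core

section Prim

variable {E Ω : Type*} [Field E] [Field Ω] [CharZero E] [Algebra E Ω] [Algebra.IsAlgebraic E Ω]

/-- Two elements of an algebraic extension in characteristic zero are polynomials in a common
third element. -/
theorem exists_prim (α β : Ω) :
    ∃ (γ : Ω) (p q : E[X]), aeval γ p = α ∧ aeval γ q = β := by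
  let K := IntermediateField.adjoin E ({α, β} : Set Ω)
  have : FiniteDimensional E K :=
    IntermediateField.finiteDimensional_adjoin
      (fun x _ => (Algebra.IsAlgebraic.isAlgebraic x).isIntegral)
  obtain ⟨γ, hγ⟩ := Field.exists_primitive_element E K
  have halg : IsAlgebraic E γ := Algebra.IsAlgebraic.isAlgebraic γ
  have htop : Algebra.adjoin E {γ} = ⊤ := by
    rw [← IntermediateField.adjoin_simple_toSubalgebra_of_isAlgebraic halg, hγ]
    rfl
  have hαK : α ∈ K := IntermediateField.subset_adjoin E _ (by simp)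
  have hβK : β ∈ K := IntermediateField.subset_adjoin E _ (by simp)
  have hα : (⟨α, hαK⟩ : K) ∈ Algebra.adjoin E {γ} := by rw [htop]; exact Algebra.mem_top
  have hβ : (⟨β, hβK⟩ : K) ∈ Algebra.adjoin E {γ} := by rw [htop]; exact Algebra.mem_top
  rw [Algebra.adjoin_singleton_eq_range_aeval] at hα hβ
  obtain ⟨p, hp⟩ := hα
  obtain ⟨q, hq⟩ := hβ
  refine ⟨(γ : Ω), p, q, ?_, ?_⟩
  · have := Polynomial.aeval_algHom_apply K.val γ p
    rw [show K.val γ = (γ : Ω) from rfl] at this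
    rw [this]
    show K.val (aeval γ p) = α
    have h2 : aeval γ p = (⟨α, hαK⟩ : K) := hp
    rw [h2]; rfl
  · have := Polynomial.aeval_algHom_apply K.val γ q
    rw [show K.val γ = (γ : Ω) from rfl] at this
    rw [this]
    show K.val (aeval γ q) = β
    have h2 : aeval γ q = (⟨β, hβK⟩ : K) := hq
    rw [h2]; rfl

end Prim

section Gen

variable {E Ω L F : Type*} [Field E] [Field Ω] [Field L] [Field F] [CharZero E]
  [Algebra E Ω] [Algebra.IsAlgebraic E Ω] [Algebra E L] [Algebra Ω F] [Algebra L F] [Algebra E F]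
  [IsScalarTower E Ω F] [IsScalarTower E L F]

omit [CharZero E] [Algebra.IsAlgebraic E Ω] in
theorem adjoin_le_of_aeval (γ : Ω) (p : E[X]) :
    Algebra.adjoin L {algebraMap Ω F (aeval γ p)} ≤ Algebra.adjoin L {algebraMap Ω F γ} := by
  refine Algebra.adjoin_le (Set.singleton_subset_iff.mpr ?_)
  rw [← Polynomial.aeval_algebraMap_apply, ← Polynomial.aeval_map_algebraMap L]
  exact Polynomial.aeval_mem_adjoin_singleton _ _

omit [CharZero E] in
include E in
theorem isIntegral_algebraMap_omega (ω : Ω) : IsIntegral L (algebraMap Ω F ω) := by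
  have h1 : IsIntegral E ω := (Algebra.IsAlgebraic.isAlgebraic ω).isIntegral
  have h2 : IsIntegral E (algebraMap Ω F ω) := h1.algebraMap
  exact h2.tower_top

include E in
/-- Every element of the compositum `L · Ω` lies in `L[γ]` for a single `γ ∈ Ω`. -/
theorem exists_mem_adjoin_singleton (x : F)
    (hx : x ∈ IntermediateField.adjoin L (Set.range (algebraMap Ω F))) :
    ∃ γ : Ω, x ∈ Algebra.adjoin L {algebraMap Ω F γ} := by
  induction hx using IntermediateField.adjoin_induction with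
  | mem x hx =>
    obtain ⟨ω, rfl⟩ := hx
    exact ⟨ω, Algebra.self_mem_adjoin_singleton L _⟩
  | algebraMap l => exact ⟨0, Subalgebra.algebraMap_mem _ l⟩
  | add x y _ _ hx hy =>
    obtain ⟨α, hα⟩ := hx
    obtain ⟨β, hβ⟩ := hy
    obtain ⟨γ, p, q, rfl, rfl⟩ := exists_prim (E := E) α β
    exact ⟨γ, add_mem (adjoin_le_of_aeval (E := E) (L := L) (F := F) γ p hα)
      (adjoin_le_of_aeval (E := E) (L := L) (F := F) γ q hβ)⟩
  | mul x y _ _ hx hy =>
    obtain ⟨α, hα⟩ := hx
    obtain ⟨β, hβ⟩ := hy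
    obtain ⟨γ, p, q, rfl, rfl⟩ := exists_prim (E := E) α β
    exact ⟨γ, mul_mem (adjoin_le_of_aeval (E := E) (L := L) (F := F) γ p hα)
      (adjoin_le_of_aeval (E := E) (L := L) (F := F) γ q hβ)⟩
  | inv x _ hx =>
    obtain ⟨α, hα⟩ := hx
    refine ⟨α, ?_⟩
    have hint : IsIntegral L x :=
      IsIntegral.of_mem_of_fg _ (isIntegral_algebraMap_omega (E := E) (L := L) (F := F) α).fg_adjoin_singleton
        x hα
    exact (Algebra.adjoin L {algebraMap Ω F α}).inv_mem_of_algebraic (x := ⟨x, hα⟩) hint.isAlgebraic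

end Gen


section Main

variable {E Ω L F : Type*} [Field E] [Field Ω] [Field L] [Field F] [CharZero E]
  [Algebra E Ω] [Algebra.IsAlgebraic E Ω] [Algebra E L] [Algebra Ω F] [Algebra L F] [Algebra E F]
  [IsScalarTower E Ω F] [IsScalarTower E L F]

open AlgebraicCurve

/-- Global factorisation: every nonzero element of `F = L · Ω` is `ϖ ^ n` times a unit of `V'`. -/
theorem exists_zpow_unit
    (hgen : IntermediateField.adjoin L (Set.range (algebraMap Ω F)) = ⊤)
    (V : ValuationSubring L) [IsDiscreteValuationRing V] (hE : ∀ e : E, algebraMap E L e ∈ V)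
    (ϖ : V) (hϖ : Irreducible ϖ) (V' : ValuationSubring F)
    (hV : ∀ x : V, algebraMap L F x ∈ V') (hϖ' : (algebraMap L F ϖ)⁻¹ ∉ V')
    (hΩ : ∀ ω : Ω, algebraMap Ω F ω ∈ V')
    (x : F) (hx0 : x ≠ 0) :
    ∃ n : ℤ, x / (algebraMap L F ϖ) ^ n ∈ V' ∧ (algebraMap L F ϖ) ^ n / x ∈ V' := by
  have hx : x ∈ IntermediateField.adjoin L (Set.range (algebraMap Ω F)) := by
    rw [hgen]; exact IntermediateField.mem_top
  obtain ⟨γ, hγ⟩ := exists_mem_adjoin_singleton (E := E) x hx
  have hint : IsIntegral E γ := (Algebra.IsAlgebraic.isAlgebraic γ).isIntegral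
  let ψ : E →+* ↥V := (algebraMap E L).codRestrict V.toSubring hE
  refine adjoin_singleton_unit_zpow V ϖ hϖ V' hV hϖ' (algebraMap Ω F γ) (hΩ γ)
    ((minpoly E γ).map ψ) ((minpoly.monic hint).map ψ) ?_ ?_ x hγ hx0
  · rw [Polynomial.eval₂_map]
    have hcomp : (evHom (F := F) V).comp ψ = algebraMap E F := by
      ext e
      show algebraMap L F (algebraMap E L e) = algebraMap E F e
      rw [← IsScalarTower.algebraMap_apply]
    rw [hcomp, ← Polynomial.aeval_def, Polynomial.aeval_algebraMap_apply, minpoly.aeval, map_zero]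
  · rw [Polynomial.map_map]
    exact (minpoly.irreducible hint).separable.map

/-- **Constant-field-extension place lemma.** Every place of `L/E` has an unramified place of
`F/Ω` above it (`F = L · Ω`, `Ω/E` algebraic, characteristic zero). -/
theorem exists_place_above
    (hgen : IntermediateField.adjoin L (Set.range (algebraMap Ω F)) = ⊤)
    (P : Place E L) :
    ∃ P' : Place Ω F, ∀ x : L, P'.ord (algebraMap L F x) = P.ord x := by
  classical
  obtain ⟨ϖ, hϖ⟩ := IsDiscreteValuationRing.exists_irreducible P.toValuationSubring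
  obtain ⟨V', hV, hloc⟩ :=
    IsLocalRing.exists_factor_valuationRing (evHom (F := F) P.toValuationSubring)
  have hV' : ∀ x : P.toValuationSubring, algebraMap L F x ∈ V' := fun x => hV x
  have hunit_inv : ∀ y : ↥V', IsUnit y → ((y : F))⁻¹ ∈ V' := by
    intro y hy
    obtain ⟨b, hb⟩ := hy.exists_right_inv
    have h1 : (y : F) * (b : F) = 1 := congrArg Subtype.val hb
    rw [← eq_inv_of_mul_eq_one_right h1]
    exact b.2
  have hinv_unit : ∀ y : ↥V', ((y : F))⁻¹ ∈ V' → y ≠ 0 → IsUnit y := by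
    intro y hy hy0
    refine IsUnit.of_mul_eq_one ⟨(y : F)⁻¹, hy⟩ (Subtype.ext ?_)
    show (y : F) * (y : F)⁻¹ = 1
    exact mul_inv_cancel₀ (fun h => hy0 (Subtype.ext h))
  have hϖL : (ϖ : L) ≠ 0 := coe_ne_zero_of_irreducible P.toValuationSubring ϖ hϖ
  have hϖF : algebraMap L F ϖ ≠ 0 := by rw [Ne, map_eq_zero]; exact hϖL
  have hϖ' : (algebraMap L F ϖ)⁻¹ ∉ V' := by
    intro h
    have hu : IsUnit ((evHom (F := F) P.toValuationSubring).codRestrict V'.toSubring hV ϖ) :=
      hinv_unit _ h (fun h0 => hϖF (congrArg Subtype.val h0))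
    exact hϖ.not_isUnit (hloc.map_nonunit _ hu)
  have hΩ : ∀ ω : Ω, algebraMap Ω F ω ∈ V' := by
    intro ω
    have h1 : IsIntegral E ω := (Algebra.IsAlgebraic.isAlgebraic ω).isIntegral
    obtain ⟨p, hp, hpx⟩ := h1
    let ψ' : E →+* ↥V' := (algebraMap E F).codRestrict V'.toSubring (fun e => by
      rw [IsScalarTower.algebraMap_apply E L F]
      exact hV' ⟨algebraMap E L e, P.algebraMap_mem' e⟩)
    have hint : IsIntegral ↥V' (algebraMap Ω F ω) := by
      refine ⟨p.map ψ', hp.map _, ?_⟩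
      rw [Polynomial.eval₂_map]
      have hcomp : (algebraMap ↥V' F).comp ψ' = algebraMap E F := by ext e; rfl
      rw [hcomp, IsScalarTower.algebraMap_eq E Ω F, ← Polynomial.hom_eval₂, hpx, map_zero]
    obtain ⟨y, hy⟩ := IsIntegrallyClosed.isIntegral_iff.mp hint
    rw [← hy]; exact y.2
  have key := exists_zpow_unit (E := E) hgen P.toValuationSubring P.algebraMap_mem' ϖ hϖ V' hV'
    hϖ' hΩ
  set ϖ' : ↥V' := ⟨algebraMap L F ϖ, hV' ϖ⟩ with hϖ'def
  have hϖ'nu : ¬ IsUnit ϖ' := fun hu => hϖ' (hunit_inv _ hu)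
  have hϖ'0 : ϖ' ≠ 0 := fun h => hϖF (congrArg Subtype.val h)
  have hfac : ∀ x : ↥V', x ≠ 0 → ∃ (k : ℕ) (u : (↥V')ˣ), x = ϖ' ^ k * u := by
    intro x hx0
    have hxF : (x : F) ≠ 0 := fun h => hx0 (Subtype.ext h)
    obtain ⟨n, hn1, hn2⟩ := key x hxF
    have hn : 0 ≤ n := by
      by_contra hneg
      push Not at hneg
      apply hϖ'
      have hj : (0 : ℤ) ≤ -n - 1 := by omega
      obtain ⟨j, hj'⟩ := Int.eq_ofNat_of_zero_le hj
      have h1 : (algebraMap L F ϖ)⁻¹
          = (algebraMap L F ϖ) ^ n / (x : F) * (x : F) * (algebraMap L F ϖ) ^ j := by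
        have h2 : (algebraMap L F ϖ) ^ n * (algebraMap L F ϖ) ^ j = (algebraMap L F ϖ)⁻¹ := by
          rw [← zpow_natCast, ← hj', ← zpow_add₀ hϖF]
          have : n + (-n - 1) = -1 := by ring
          rw [this, zpow_neg_one]
        rw [← h2]; field_simp
      rw [h1]
      exact V'.mul_mem _ _ (V'.mul_mem _ _ hn2 x.2) (pow_mem (hV' ϖ) j)
    obtain ⟨k, rfl⟩ := Int.eq_ofNat_of_zero_le hn
    rw [zpow_natCast] at hn1 hn2
    have hu : IsUnit (⟨(x : F) / (algebraMap L F ϖ) ^ k, hn1⟩ : ↥V') := by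
      refine IsUnit.of_mul_eq_one ⟨(algebraMap L F ϖ) ^ k / x, hn2⟩ (Subtype.ext ?_)
      show (x : F) / (algebraMap L F ϖ) ^ k * ((algebraMap L F ϖ) ^ k / x) = 1
      field_simp
    refine ⟨k, hu.unit, Subtype.ext ?_⟩
    show (x : F) = (algebraMap L F ϖ) ^ k * ((x : F) / (algebraMap L F ϖ) ^ k)
    field_simp
  have hirr : Irreducible ϖ' := by
    rw [irreducible_iff]
    refine ⟨hϖ'nu, ?_⟩
    intro a b hab
    by_contra hcon
    push Not at hcon
    obtain ⟨ha, hb⟩ := hcon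
    have ha0 : a ≠ 0 := by rintro rfl; rw [zero_mul] at hab; exact hϖ'0 hab
    have hb0 : b ≠ 0 := by rintro rfl; rw [mul_zero] at hab; exact hϖ'0 hab
    obtain ⟨i, u, rfl⟩ := hfac a ha0
    obtain ⟨j, w, rfl⟩ := hfac b hb0
    have hi : i ≠ 0 := by
      rintro rfl
      apply ha
      rw [pow_zero, one_mul]
      exact u.isUnit
    have hj : j ≠ 0 := by
      rintro rfl
      apply hb
      rw [pow_zero, one_mul]
      exact w.isUnit
    obtain ⟨i', rfl⟩ : ∃ i', i = i' + 1 := ⟨i - 1, by omega⟩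
    obtain ⟨j', rfl⟩ : ∃ j', j = j' + 1 := ⟨j - 1, by omega⟩
    have h1 : ϖ' * 1 = ϖ' * (ϖ' * (ϖ' ^ i' * ϖ' ^ j' * u * w)) := by
      rw [mul_one]
      conv_lhs => rw [hab]
      ring
    have h2 := mul_left_cancel₀ hϖ'0 h1
    exact hϖ'nu (IsUnit.of_mul_eq_one _ h2.symm)
  have hDVR : IsDiscreteValuationRing ↥V' :=
    IsDiscreteValuationRing.ofHasUnitMulPowIrreducibleFactorization
      ⟨ϖ', hirr, fun {x} hx => by
        obtain ⟨k, u, rfl⟩ := hfac x hx
        exact ⟨k, ⟨u, rfl⟩⟩⟩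
  have hne : V' ≠ ⊤ := by
    intro h
    apply hϖ'
    rw [h]
    exact ValuationSubring.mem_top _
  let P' : Place Ω F := ⟨V', hΩ, hne, hDVR.toIsPrincipalIdealRing⟩
  refine ⟨P', fun x => ?_⟩
  rcases eq_or_ne x 0 with rfl | hx
  · simp
  obtain ⟨u, hu⟩ := P.exists_unit_mul_zpow hx hϖ
  let φ' : ↥P.toValuationSubring →+* ↥V' :=
    (evHom (F := F) P.toValuationSubring).codRestrict V'.toSubring hV
  let u' : (↥V')ˣ := Units.map φ'.toMonoidHom u
  have h1 : algebraMap L F x = ((u' : ↥V') : F) * ((ϖ' : ↥V') : F) ^ (P.ord x) := by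
    conv_lhs => rw [hu]
    rw [map_mul, map_zpow₀]
    rfl
  rw [h1]
  exact P'.ord_unit_smul_zpow u' hirr (P.ord x)

end Main

end Fermat.Agent.Lib.PlaceExt
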