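/-
Restriction of places to a subfield (helper139).  Companion of `Lib/PlaceExt.lean`.

`K ⊆ L ⊆ M` fields, `M/L` algebraic.  Every place `Q` of `M/K` restricts to a place `P` of `L/K`
with `Q.ord x = e * P.ord x` for all `x ∈ L` (`e ≥ 1` the ramification index).
-/
import Mathlib
import Fermat.Prelude.Def_AlgebraicCurve_DivisorClassGroup
import Fermat.Agent.S24.FF.Ord

set_option autoImplicit false

namespace Fermat.Agent.Lib.PlaceRes

open AlgebraicCurve

section Criterion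

variable {F : Type*} [Field F]

/-- A valuation subring in which every nonzero element of the field is `w ^ n` times a unit
(`w` a non-unit) is a discrete valuation ring with uniformiser `w`. -/
theorem isDVR_of_zpow_unit (V : ValuationSubring F) (w : F) (hw : w ∈ V) (hw0 : w ≠ 0)
    (hwinv : w⁻¹ ∉ V)
    (key : ∀ x : F, x ≠ 0 → ∃ n : ℤ, x / w ^ n ∈ V ∧ w ^ n / x ∈ V) :
    Irreducible (⟨w, hw⟩ : V) ∧ IsDiscreteValuationRing V := by
  classical
  have hunit_inv : ∀ y : ↥V, IsUnit y → ((y : F))⁻¹ ∈ V := by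
    intro y hy
    obtain ⟨b, hb⟩ := hy.exists_right_inv
    have h1 : (y : F) * (b : F) = 1 := congrArg Subtype.val hb
    rw [← eq_inv_of_mul_eq_one_right h1]
    exact b.2
  set ϖ' : ↥V := ⟨w, hw⟩ with hϖ'def
  have hϖ'nu : ¬ IsUnit ϖ' := fun hu => hwinv (hunit_inv _ hu)
  have hϖ'0 : ϖ' ≠ 0 := fun h => hw0 (congrArg Subtype.val h)
  have hfac : ∀ x : ↥V, x ≠ 0 → ∃ (k : ℕ) (u : (↥V)ˣ), x = ϖ' ^ k * u := by
    intro x hx0
    have hxF : (x : F) ≠ 0 := fun h => hx0 (Subtype.ext h)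
    obtain ⟨n, hn1, hn2⟩ := key x hxF
    have hn : 0 ≤ n := by
      by_contra hneg
      push Not at hneg
      apply hwinv
      have hj : (0 : ℤ) ≤ -n - 1 := by omega
      obtain ⟨j, hj'⟩ := Int.eq_ofNat_of_zero_le hj
      have h1 : w⁻¹ = w ^ n / (x : F) * (x : F) * w ^ j := by
        have h2 : w ^ n * w ^ j = w⁻¹ := by
          rw [← zpow_natCast, ← hj', ← zpow_add₀ hw0]
          have : n + (-n - 1) = -1 := by ring
          rw [this, zpow_neg_one]
        rw [← h2]; field_simp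
      rw [h1]
      exact V.mul_mem _ _ (V.mul_mem _ _ hn2 x.2) (pow_mem hw j)
    obtain ⟨k, rfl⟩ := Int.eq_ofNat_of_zero_le hn
    rw [zpow_natCast] at hn1 hn2
    have hu : IsUnit (⟨(x : F) / w ^ k, hn1⟩ : ↥V) := by
      refine IsUnit.of_mul_eq_one ⟨w ^ k / x, hn2⟩ (Subtype.ext ?_)
      show (x : F) / w ^ k * (w ^ k / x) = 1
      field_simp
    refine ⟨k, hu.unit, Subtype.ext ?_⟩
    show (x : F) = w ^ k * ((x : F) / w ^ k)
    field_simp
  have hirr : Irreducible ϖ' := by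
    rw [irreducible_iff]
    refine ⟨hϖ'nu, ?_⟩
    intro a b hab
    by_contra hcon
    push Not at hcon
    obtain ⟨ha, hb⟩ := hcon
    have ha0 : a ≠ 0 := by rintro rfl; rw [zero_mul] at hab; exact hϖ'0 hab
    have hb0 : b ≠ 0 := by rintro rfl; rw [mul_zero] at hab; exact hϖ'0 hab
    obtain ⟨i, u, rfl⟩ := hfac a ha0
    obtain ⟨j, v, rfl⟩ := hfac b hb0
    have hi : i ≠ 0 := by
      rintro rfl
      apply ha
      rw [pow_zero, one_mul]
      exact u.isUnit
    have hj : j ≠ 0 := by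
      rintro rfl
      apply hb
      rw [pow_zero, one_mul]
      exact v.isUnit
    obtain ⟨i', rfl⟩ : ∃ i', i = i' + 1 := ⟨i - 1, by omega⟩
    obtain ⟨j', rfl⟩ : ∃ j', j = j' + 1 := ⟨j - 1, by omega⟩
    have h1 : ϖ' * 1 = ϖ' * (ϖ' * (ϖ' ^ i' * ϖ' ^ j' * u * v)) := by
      rw [mul_one]
      conv_lhs => rw [hab]
      ring
    have h2 := mul_left_cancel₀ hϖ'0 h1
    exact hϖ'nu (IsUnit.of_mul_eq_one _ h2.symm)
  exact ⟨hirr, IsDiscreteValuationRing.ofHasUnitMulPowIrreducibleFactorization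
      ⟨ϖ', hirr, fun {x} hx => by
        obtain ⟨k, u, rfl⟩ := hfac x hx
        exact ⟨k, ⟨u, rfl⟩⟩⟩⟩

end Criterion

section Restrict

variable {K L M : Type*} [Field K] [Field L] [Field M] [Algebra K L] [Algebra L M] [Algebra K M]
  [IsScalarTower K L M] [Algebra.IsAlgebraic L M]

/-- **Restriction of a place to a subfield** (`M/L` algebraic): `Q.ord = e * P.ord` on `L`. -/
theorem exists_place_below (Q : Place K M) :
    ∃ (P : Place K L) (e : ℕ), 0 < e ∧ ∀ x : L, Q.ord (algebraMap L M x) = e * P.ord x := by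
  classical
  set V : ValuationSubring L := Q.toValuationSubring.comap (algebraMap L M) with hVdef
  have hmemV : ∀ x : L, x ∈ V ↔ algebraMap L M x ∈ Q.toValuationSubring := fun x => Iff.rfl
  -- `o` : the restricted order function
  have ho_mul : ∀ x y : L, x ≠ 0 → y ≠ 0 →
      Q.ord (algebraMap L M (x * y)) = Q.ord (algebraMap L M x) + Q.ord (algebraMap L M y) := by
    intro x y hx hy
    rw [map_mul, Q.ord_mul ((map_ne_zero _).mpr hx) ((map_ne_zero _).mpr hy)]
  have ho_zpow : ∀ (x : L) (n : ℤ), Q.ord (algebraMap L M (x ^ n)) = n * Q.ord (algebraMap L M x) := by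
    intro x n
    rw [map_zpow₀, Q.ord_zpow]
  have hmem_iff : ∀ x : L, x ≠ 0 → (x ∈ V ↔ 0 ≤ Q.ord (algebraMap L M x)) := by
    intro x hx
    rw [hmemV, Fermat.Agent.S24.FF.ord_nonneg_iff Q ((map_ne_zero _).mpr hx)]
  -- `V ≠ ⊤`
  have hexneg : ∃ x : L, x ≠ 0 ∧ Q.ord (algebraMap L M x) ≠ 0 := by
    by_contra hcon
    push Not at hcon
    apply Q.ne_top'
    refine SetLike.ext fun y => ⟨fun _ => ValuationSubring.mem_top y, fun _ => ?_⟩
    -- `y` is integral over `L`, and `L ⊆ V_Q`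
    have hLmem : ∀ x : L, algebraMap L M x ∈ Q.toValuationSubring := by
      intro x
      rcases eq_or_ne x 0 with rfl | hx
      · rw [map_zero]; exact Q.toValuationSubring.zero_mem
      · rw [← Fermat.Agent.S24.FF.ord_nonneg_iff Q ((map_ne_zero _).mpr hx), hcon x hx]
    have hy : IsIntegral L y := (Algebra.IsAlgebraic.isAlgebraic y).isIntegral
    obtain ⟨p, hp, hpy⟩ := hy
    let ψ : L →+* ↥Q.toValuationSubring :=
      (algebraMap L M).codRestrict Q.toValuationSubring.toSubring hLmem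
    have hint : IsIntegral ↥Q.toValuationSubring y := by
      refine ⟨p.map ψ, hp.map _, ?_⟩
      rw [Polynomial.eval₂_map]
      have hcomp : (algebraMap ↥Q.toValuationSubring M).comp ψ = algebraMap L M := by ext e; rfl
      rw [hcomp, hpy]
    obtain ⟨z, hz⟩ := IsIntegrallyClosed.isIntegral_iff.mp hint
    rw [← hz]; exact z.2
  -- a positive value exists
  have hexpos : ∃ k : ℕ, 0 < k ∧ ∃ x : L, x ≠ 0 ∧ Q.ord (algebraMap L M x) = k := by
    obtain ⟨x, hx0, hx⟩ := hexneg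
    rcases lt_or_gt_of_ne hx with hneg | hpos
    · refine ⟨(-(Q.ord (algebraMap L M x))).toNat, by omega, x⁻¹, inv_ne_zero hx0, ?_⟩
      rw [map_inv₀, Q.ord_inv]
      omega
    · exact ⟨(Q.ord (algebraMap L M x)).toNat, by omega, x, hx0, by omega⟩
  set e := Nat.find hexpos with he
  obtain ⟨hepos', w, hw0, hwe'⟩ := Nat.find_spec hexpos
  have hepos : 0 < e := hepos'
  have hwe : Q.ord (algebraMap L M w) = (e : ℤ) := hwe'
  have hemin : ∀ k : ℕ, 0 < k → (∃ x : L, x ≠ 0 ∧ Q.ord (algebraMap L M x) = k) → e ≤ k :=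
    fun k hk hx => Nat.find_min' hexpos ⟨hk, hx⟩
  -- every value is a multiple of `e`
  have hdvd : ∀ x : L, x ≠ 0 → ∃ n : ℤ, Q.ord (algebraMap L M x) = e * n := by
    intro x hx
    set a := Q.ord (algebraMap L M x) with ha
    refine ⟨a / e, ?_⟩
    have hr : a % (e : ℤ) = 0 := by
      by_contra hne
      have hpos : 0 < a % (e : ℤ) :=
        lt_of_le_of_ne (Int.emod_nonneg _ (by exact_mod_cast hepos.ne')) (Ne.symm hne)
      have hlt : a % (e : ℤ) < e := Int.emod_lt_of_pos _ (by exact_mod_cast hepos)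
      have hval : Q.ord (algebraMap L M (x / w ^ (a / (e : ℤ)))) = a % (e : ℤ) := by
        rw [div_eq_mul_inv, ho_mul x _ hx (inv_ne_zero (zpow_ne_zero _ hw0)), map_inv₀, Q.ord_inv,
          ho_zpow, hwe, ← ha]
        have := Int.emod_add_mul_ediv a (e : ℤ)
        linarith
      have := hemin (a % (e : ℤ)).toNat (by omega)
        ⟨x / w ^ (a / (e : ℤ)), div_ne_zero hx (zpow_ne_zero _ hw0), by rw [hval]; omega⟩
      omega
    have := Int.emod_add_mul_ediv a (e : ℤ)
    rw [hr, zero_add] at this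
    exact this.symm
  -- the criterion
  have hwV : w ∈ V := by
    rw [hmem_iff w hw0, hwe]; exact_mod_cast hepos.le
  have hwinv : w⁻¹ ∉ V := by
    rw [hmem_iff _ (inv_ne_zero hw0), map_inv₀, Q.ord_inv, hwe]
    have : (0 : ℤ) < e := by exact_mod_cast hepos
    omega
  have key : ∀ x : L, x ≠ 0 → ∃ n : ℤ, x / w ^ n ∈ V ∧ w ^ n / x ∈ V := by
    intro x hx
    obtain ⟨n, hn⟩ := hdvd x hx
    have hwn : w ^ n ≠ 0 := zpow_ne_zero _ hw0
    refine ⟨n, ?_, ?_⟩
    · rw [hmem_iff _ (div_ne_zero hx hwn), div_eq_mul_inv, ho_mul x _ hx (inv_ne_zero hwn),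
        map_inv₀, Q.ord_inv, ho_zpow, hwe, hn]
      ring_nf; rfl
    · rw [hmem_iff _ (div_ne_zero hwn hx), div_eq_mul_inv, ho_mul _ _ hwn (inv_ne_zero hx),
        map_inv₀, Q.ord_inv, ho_zpow, hwe, hn]
      ring_nf; rfl
  obtain ⟨hirr, hDVR⟩ := isDVR_of_zpow_unit V w hwV hw0 hwinv key
  have hne : V ≠ ⊤ := by
    intro h
    apply hwinv
    rw [h]
    exact ValuationSubring.mem_top _
  have hK : ∀ a : K, algebraMap K L a ∈ V := by
    intro a
    rw [hmemV, ← IsScalarTower.algebraMap_apply]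
    exact Q.algebraMap_mem' a
  let P : Place K L := ⟨V, hK, hne, hDVR.toIsPrincipalIdealRing⟩
  refine ⟨P, e, hepos, fun x => ?_⟩
  rcases eq_or_ne x 0 with rfl | hx
  · simp
  obtain ⟨u, hu⟩ := P.exists_unit_mul_zpow hx hirr
  -- `Q.ord` of a unit of `V` is zero
  have hu0 : Q.ord (algebraMap L M ((u : ↥V) : L)) = 0 := by
    have hune : ((u : ↥V) : L) ≠ 0 := by
      intro h
      exact u.ne_zero (Subtype.ext h)
    have h1 : 0 ≤ Q.ord (algebraMap L M ((u : ↥V) : L)) := (hmem_iff _ hune).mp (u : ↥V).2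
    have h2 : 0 ≤ Q.ord (algebraMap L M (((u⁻¹ : (↥V)ˣ) : ↥V) : L)) := by
      refine (hmem_iff _ ?_).mp ((u⁻¹ : (↥V)ˣ) : ↥V).2
      intro h
      exact (u⁻¹).ne_zero (Subtype.ext h)
    have h3 : (((u⁻¹ : (↥V)ˣ) : ↥V) : L) = (((u : ↥V) : L))⁻¹ := by
      have : ((u : ↥V) : L) * (((u⁻¹ : (↥V)ˣ) : ↥V) : L) = 1 := by
        have := congrArg Subtype.val (u.mul_inv)
        exact this
      exact eq_inv_of_mul_eq_one_right this
    rw [h3, map_inv₀, Q.ord_inv] at h2
    omega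
  have hval : Q.ord (algebraMap L M x) = e * P.ord x := by
    conv_lhs => rw [hu]
    have hune : ((u : ↥V) : L) ≠ 0 := by
      intro h
      exact u.ne_zero (Subtype.ext h)
    rw [ho_mul _ _ hune (zpow_ne_zero _ hw0), hu0, zero_add, ho_zpow, hwe]
    ring
  exact hval

end Restrict

end Fermat.Agent.Lib.PlaceRes
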