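import Mathlib
import Fermat.Agent.Lib.PrimeLocGlobal

/-!
# Principal parts on a chart whose special fibre is a Dedekind domain

Level-free algebra for Program FG (S19, route C "Kummer-Čech"), brick CH, rows (PP) and (FS).

`C` is a commutative ring (a chart ring of the model), `K` a field containing it (the function
field), `p ∈ C` a prime element (the uniformiser of the base) such that the special fibre
`C ⧸ (p)` is a Dedekind domain.  Vocabulary (defined in `Lib/PrimeLocGlobal`), as predicates on `K`: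

* `InLoc Q x`      : `x ∈ R_Q`, the localisation of `C` at the ideal `Q`;
* `InGauss p x`    : `x ∈ 𝒪 = C_(p)`, the Gauss valuation ring;
* `InLocAdd p Q x` : `x ∈ R_Q + p 𝒪`.

Main statements:

* `exists_principal_part` : given finitely many maximal ideals `Q ∋ p` and elements `a Q ∈ 𝒪`,
  there is `b ∈ 𝒪` with `b - a Q ∈ R_Q + p 𝒪` for the given `Q` and `b ∈ R_Q + p 𝒪` at every
  other maximal ideal `Q ∋ p` ("prescribing finitely many principal parts on the special fibre").
* `exists_principal_part_of_finite` : the form used by the gluing step (LR): a family `a Q ∈ 𝒪`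
  indexed by all maximal `Q ∋ p` which lies in `R_Q + p 𝒪` outside a finite set.
* `finite_setOf_isMaximal_mem`, `finite_not_inLoc` (FS) : an element of `𝒪` lies in `R_Q` for
  all but finitely many maximal ideals `Q ∋ p`.
* `inLoc_iff`, `inGauss_iff`, `inLocAdd_iff` : bridges to the subalgebras `atPrime Q`, `gauss hp`.
-/

set_option autoImplicit false

namespace Fermat.Agent.Lib.PrincipalParts

open Fermat.Agent.Lib.PrimeLocGlobal

variable {C K : Type*} [CommRing C] [Field K] [Algebra C K]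

/-! ### Bridges to the subalgebra vocabulary of `Lib/PrimeLocGlobal` -/

theorem inLoc_iff {Q : Ideal C} [Q.IsPrime] {x : K} :
    InLoc Q x ↔ x ∈ atPrime (K := K) Q := Iff.rfl

theorem inGauss_iff {p : C} (hp : Prime p) {x : K} :
    InGauss p x ↔ x ∈ gauss (K := K) hp := Iff.rfl

theorem inLocAdd_iff {p : C} (hp : Prime p) {Q : Ideal C} [Q.IsPrime] {x : K} :
    InLocAdd p Q x ↔
      ∃ r ∈ atPrime (K := K) Q, ∃ y ∈ gauss (K := K) hp, x = r + algebraMap C K p * y := by
  constructor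
  · rintro ⟨r, y, hr, hy, rfl⟩
    exact ⟨r, hr, y, hy, rfl⟩
  · rintro ⟨r, hr, y, hy, rfl⟩
    exact ⟨r, y, hr, hy, rfl⟩

/-! ### The local steps -/

/-- If the denominator `t` of `w / t` is not in `Q`, then `w / t ∈ R_Q`. -/
theorem inLocAdd_div_of_not_mem {p : C} (hp : Prime p) {Q : Ideal C} {t : C} (htQ : t ∉ Q)
    (ht0 : algebraMap C K t ≠ 0) (w : C) :
    InLocAdd p Q (algebraMap C K w / algebraMap C K t) :=
  ⟨algebraMap C K w / algebraMap C K t, 0, ⟨t, htQ, w, by field_simp⟩, inGauss_zero hp, by simp⟩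

/-- The local step: if `s * w = v * t + p * z` with `s ∉ Q`, `p ∈ Q`, `p ∤ t`, then
`w / t = v / s + p * (z / (s * t)) ∈ R_Q + p 𝒪`. -/
theorem inLocAdd_div_of_eq (hinj : Function.Injective (algebraMap C K)) {p : C} (hp : Prime p)
    {Q : Ideal C} (hpQ : p ∈ Q) {t : C} (hpt : ¬ p ∣ t) {s w v z : C} (hs : s ∉ Q)
    (h : s * w = v * t + p * z) :
    InLocAdd p Q (algebraMap C K w / algebraMap C K t) := by
  have hs0 : algebraMap C K s ≠ 0 := by
    intro h0
    have : s = 0 := hinj (by rw [h0, map_zero])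
    exact hs (this ▸ Q.zero_mem)
  have ht0 : algebraMap C K t ≠ 0 := by
    intro h0
    have : t = 0 := hinj (by rw [h0, map_zero])
    exact hpt (this ▸ dvd_zero p)
  have hps : ¬ p ∣ s := fun hd => hs (Ideal.mem_of_dvd Q hd hpQ)
  refine ⟨algebraMap C K v / algebraMap C K s,
    algebraMap C K z / (algebraMap C K s * algebraMap C K t), ⟨s, hs, v, by field_simp⟩,
    ⟨s * t, fun hd => ?_, z, by rw [map_mul]; field_simp⟩, ?_⟩
  · rcases hp.dvd_or_dvd hd with hd | hd
    · exact hps hd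
    · exact hpt hd
  · have hK : algebraMap C K s * algebraMap C K w =
        algebraMap C K v * algebraMap C K t + algebraMap C K p * algebraMap C K z := by
      rw [← map_mul, ← map_mul, ← map_mul, ← map_add, h]
    field_simp
    linear_combination hK

section Dedekind

variable {p : C} [IsDedekindDomain (C ⧸ Ideal.span {p})]

open Classical in
/-- **Principal parts.**  `C ⧸ (p)` a Dedekind domain, `S` a finite set of maximal ideals of `C`
containing `p`, `a Q ∈ 𝒪` for `Q ∈ S`.  Then there is `b ∈ 𝒪` with `b - a Q ∈ R_Q + p 𝒪` for all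
`Q ∈ S` and `b ∈ R_Q + p 𝒪` for every other maximal ideal `Q ∋ p`. -/
theorem exists_principal_part (hinj : Function.Injective (algebraMap C K)) (hp : Prime p)
    (S : Finset (Ideal C)) (hS : ∀ Q ∈ S, Q.IsMaximal ∧ p ∈ Q)
    (a : Ideal C → K) (ha : ∀ Q ∈ S, InGauss p (a Q)) :
    ∃ b : K, InGauss p b ∧ (∀ Q ∈ S, InLocAdd p Q (b - a Q)) ∧
      ∀ Q : Ideal C, Q.IsMaximal → p ∈ Q → Q ∉ S → InLocAdd p Q b := by
  -- the special fibre
  let mk : C →+* C ⧸ Ideal.span {p} := Ideal.Quotient.mk (Ideal.span {p})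
  have hmk_surj : Function.Surjective mk := Ideal.Quotient.mk_surjective
  have hmk0 : ∀ x : C, mk x = 0 ↔ p ∣ x := fun x => by
    rw [Ideal.Quotient.eq_zero_iff_mem, Ideal.mem_span_singleton]
  have hker : ∀ Q : Ideal C, p ∈ Q → RingHom.ker mk ≤ Q := by
    intro Q hpQ x hx
    rw [RingHom.mem_ker, hmk0] at hx
    exact Ideal.mem_of_dvd Q hx hpQ
  have hcomap : ∀ Q : Ideal C, p ∈ Q → Ideal.comap mk (Ideal.map mk Q) = Q := by
    intro Q hpQ
    rw [Ideal.comap_map_of_surjective mk hmk_surj, ← RingHom.ker_eq_comap_bot]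
    exact sup_eq_left.2 (hker Q hpQ)
  -- a common denominator
  choose! tQ htQ cQ hcQ using ha
  set t : C := ∏ Q ∈ S, tQ Q with ht
  have hpt : ¬ p ∣ t := by
    rw [ht, Prime.dvd_finsetProd_iff hp]
    rintro ⟨Q, hQ, hdvd⟩
    exact htQ Q hQ hdvd
  have htK : algebraMap C K t ≠ 0 := by
    intro h0
    have : t = 0 := hinj (by rw [h0, map_zero])
    exact hpt (this ▸ dvd_zero p)
  let m : Ideal C → C := fun Q => cQ Q * ∏ Q' ∈ S.erase Q, tQ Q'
  have hm : ∀ Q ∈ S, algebraMap C K t * a Q = algebraMap C K (m Q) := by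
    intro Q hQ
    have h1 : t = tQ Q * ∏ Q' ∈ S.erase Q, tQ Q' := by
      rw [ht, Finset.mul_prod_erase S tQ hQ]
    rw [h1, map_mul, map_mul, mul_right_comm, hcQ Q hQ]
  -- the maximal ideals of the special fibre through the denominator
  have ht0 : mk t ≠ 0 := fun h => hpt ((hmk0 t).1 h)
  have hspan : Ideal.span {mk t} ≠ (⊥ : Ideal (C ⧸ Ideal.span {p})) := by
    rw [Ne, Ideal.span_singleton_eq_bot]
    exact ht0
  set T : Finset (Ideal (C ⧸ Ideal.span {p})) :=
    (UniqueFactorizationMonoid.normalizedFactors (Ideal.span {mk t})).toFinset with hT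
  have hTmem : ∀ P : Ideal (C ⧸ Ideal.span {p}), P ∈ T ↔ P.IsPrime ∧ mk t ∈ P := by
    intro P
    rw [hT, Multiset.mem_toFinset, Ideal.mem_normalizedFactors_iff hspan,
      Ideal.span_singleton_le_iff_mem]
  have hTne : ∀ P ∈ T, P ≠ ⊥ := by
    intro P hP hbot
    have h1 := ((hTmem P).1 hP).2
    rw [hbot, Ideal.mem_bot] at h1
    exact ht0 h1
  have hTprime : ∀ P ∈ T, Prime P := fun P hP =>
    Ideal.prime_of_isPrime (hTne P hP) ((hTmem P).1 hP).1
  have hfac : ∀ P ∈ T, ∃ (n : ℕ) (J : Ideal (C ⧸ Ideal.span {p})),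
      ¬ P ∣ J ∧ Ideal.span {mk t} = P ^ n * J := fun P hP =>
    WfDvdMonoid.max_power_factor hspan (hTprime P hP).irreducible
  choose! e J hJ hfacJ using hfac
  -- the targets of the Chinese remainder theorem
  let x : T → C ⧸ Ideal.span {p} := fun P =>
    if h : ∃ Q ∈ S, Ideal.map mk Q = P.1 then mk (m h.choose) else 0
  obtain ⟨cbar, hcbar⟩ := IsDedekindDomain.exists_forall_sub_mem_ideal
    (fun P : Ideal (C ⧸ Ideal.span {p}) => P) e (fun P hP => hTprime P hP)
    (fun P _ P' _ h => h) x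
  obtain ⟨c, rfl⟩ := hmk_surj cbar
  -- the local statement at a maximal ideal through `p` and `t`
  have hloc : ∀ Q : Ideal C, Q.IsMaximal → p ∈ Q → t ∈ Q → ∀ w : C,
      (∀ hP : Ideal.map mk Q ∈ T, mk w ∈ Ideal.map mk Q ^ e (Ideal.map mk Q)) →
      InLocAdd p Q (algebraMap C K w / algebraMap C K t) := by
    intro Q hQ hpQ htQ' w hw
    have : Q.IsPrime := hQ.isPrime
    have hPprime : (Ideal.map mk Q).IsPrime :=
      Ideal.map_isPrime_of_surjective hmk_surj (hker Q hpQ)
    have hPT : Ideal.map mk Q ∈ T := (hTmem _).2 ⟨hPprime, Ideal.mem_map_of_mem mk htQ'⟩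
    have hw' := hw hPT
    have hJle : ¬ J (Ideal.map mk Q) ≤ Ideal.map mk Q := fun hle =>
      hJ _ hPT (Ideal.dvd_iff_le.2 hle)
    obtain ⟨sbar, hsJ, hsP⟩ := SetLike.not_le_iff_exists.1 hJle
    obtain ⟨s, rfl⟩ := hmk_surj sbar
    have hsQ : s ∉ Q := fun h => hsP (Ideal.mem_map_of_mem mk h)
    have hmem : mk (s * w) ∈ Ideal.span {mk t} := by
      rw [hfacJ _ hPT, map_mul, mul_comm (mk s)]
      exact Ideal.mul_mem_mul hw' hsJ
    obtain ⟨vbar, hv⟩ := Ideal.mem_span_singleton'.1 hmem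
    obtain ⟨v, rfl⟩ := hmk_surj vbar
    have hz : p ∣ s * w - v * t := by
      rw [← hmk0, map_sub, map_mul mk v t, hv, sub_self]
    obtain ⟨z, hz⟩ := hz
    exact inLocAdd_div_of_eq hinj hp hpQ hpt hsQ (v := v) (z := z) (by rw [← hz]; ring)
  -- uniqueness of the maximal ideal above a point of the special fibre
  have huniq : ∀ Q Q' : Ideal C, p ∈ Q → p ∈ Q' → Ideal.map mk Q' = Ideal.map mk Q → Q' = Q := by
    intro Q Q' hpQ hpQ' h
    rw [← hcomap Q hpQ, ← hcomap Q' hpQ', h]
  refine ⟨algebraMap C K c / algebraMap C K t, ⟨t, hpt, c, by field_simp⟩, ?_, ?_⟩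
  · intro Q hQ
    obtain ⟨hQmax, hpQ⟩ := hS Q hQ
    have hsub : algebraMap C K c / algebraMap C K t - a Q =
        algebraMap C K (c - m Q) / algebraMap C K t := by
      rw [map_sub, ← hm Q hQ]
      field_simp
    rw [hsub]
    by_cases htQ' : t ∈ Q
    · refine hloc Q hQmax hpQ htQ' (c - m Q) fun hP => ?_
      have hx : x ⟨Ideal.map mk Q, hP⟩ = mk (m Q) := by
        have hex : ∃ Q' ∈ S, Ideal.map mk Q' = Ideal.map mk Q := ⟨Q, hQ, rfl⟩
        have hch := hex.choose_spec
        have heq : hex.choose = Q := huniq Q _ hpQ (hS _ hch.1).2 hch.2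
        simp only [x]
        rw [dif_pos hex, heq]
      have := hcbar _ hP
      rw [hx] at this
      rw [map_sub]
      exact this
    · exact inLocAdd_div_of_not_mem hp htQ' htK _
  · intro Q hQmax hpQ hQS
    by_cases htQ' : t ∈ Q
    · refine hloc Q hQmax hpQ htQ' c fun hP => ?_
      have hx : x ⟨Ideal.map mk Q, hP⟩ = 0 := by
        have hnex : ¬ ∃ Q' ∈ S, Ideal.map mk Q' = Ideal.map mk Q := by
          rintro ⟨Q', hQ', h⟩
          exact hQS (huniq Q Q' hpQ (hS Q' hQ').2 h ▸ hQ')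
        simp only [x]
        rw [dif_neg hnex]
      have := hcbar _ hP
      rw [hx, sub_zero] at this
      exact this
    · exact inLocAdd_div_of_not_mem hp htQ' htK _

/-- Only finitely many maximal ideals through `p` contain a given `t` with `p ∤ t`
(the special fibre is a Dedekind domain and `t` is not zero on it). -/
theorem finite_setOf_isMaximal_mem {t : C} (hpt : ¬ p ∣ t) :
    {Q : Ideal C | Q.IsMaximal ∧ p ∈ Q ∧ t ∈ Q}.Finite := by
  classical
  let mk : C →+* C ⧸ Ideal.span {p} := Ideal.Quotient.mk (Ideal.span {p})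
  have hmk_surj : Function.Surjective mk := Ideal.Quotient.mk_surjective
  have hmk0 : ∀ x : C, mk x = 0 ↔ p ∣ x := fun x => by
    rw [Ideal.Quotient.eq_zero_iff_mem, Ideal.mem_span_singleton]
  have hker : ∀ Q : Ideal C, p ∈ Q → RingHom.ker mk ≤ Q := by
    intro Q hpQ x hx
    rw [RingHom.mem_ker, hmk0] at hx
    exact Ideal.mem_of_dvd Q hx hpQ
  have hcomap : ∀ Q : Ideal C, p ∈ Q → Ideal.comap mk (Ideal.map mk Q) = Q := by
    intro Q hpQ
    rw [Ideal.comap_map_of_surjective mk hmk_surj, ← RingHom.ker_eq_comap_bot]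
    exact sup_eq_left.2 (hker Q hpQ)
  have ht0 : mk t ≠ 0 := fun h => hpt ((hmk0 t).1 h)
  have hspan : Ideal.span {mk t} ≠ (⊥ : Ideal (C ⧸ Ideal.span {p})) := by
    rw [Ne, Ideal.span_singleton_eq_bot]
    exact ht0
  refine Set.Finite.of_finite_image
    (f := fun Q : Ideal C => Ideal.map mk Q)
    ((Multiset.finite_toSet
      (UniqueFactorizationMonoid.normalizedFactors (Ideal.span {mk t}))).subset ?_) ?_
  · rintro P ⟨Q, ⟨hQ, hpQ, htQ⟩, rfl⟩
    have : Q.IsPrime := hQ.isPrime
    change Ideal.map mk Q ∈ UniqueFactorizationMonoid.normalizedFactors (Ideal.span {mk t})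
    rw [Ideal.mem_normalizedFactors_iff hspan, Ideal.span_singleton_le_iff_mem]
    exact ⟨Ideal.map_isPrime_of_surjective hmk_surj (hker Q hpQ), Ideal.mem_map_of_mem mk htQ⟩
  · rintro Q ⟨-, hpQ, -⟩ Q' ⟨-, hpQ', -⟩ h
    change Ideal.map mk Q = Ideal.map mk Q' at h
    rw [← hcomap Q hpQ, ← hcomap Q' hpQ', h]

set_option linter.unusedVariables false in
/-- **(FS)** An element of `𝒪` lies in `R_Q` for all but finitely many maximal ideals `Q ∋ p`.
(The hypotheses `hinj`, `hp` are not used by the proof; they are kept so that the statement is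
the literal consumed by `Lib/GaussChartOfPrime.gaussChart_of_chart_of`.) -/
theorem finite_not_inLoc (hinj : Function.Injective (algebraMap C K)) (hp : Prime p)
    {x : K} (hx : InGauss p x) :
    {Q : Ideal C | Q.IsMaximal ∧ p ∈ Q ∧ ¬ InLoc Q x}.Finite := by
  obtain ⟨t, hpt, c, hc⟩ := hx
  refine (finite_setOf_isMaximal_mem hpt).subset ?_
  rintro Q ⟨hQ, hpQ, hnot⟩
  refine ⟨hQ, hpQ, ?_⟩
  by_contra htQ
  exact hnot ⟨t, htQ, c, hc⟩

/-- **Principal parts, cofinite form** (the shape used by the gluing step (LR)): a family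
`a Q ∈ 𝒪` indexed by the maximal ideals `Q ∋ p`, lying in `R_Q + p 𝒪` outside a finite set, is
matched by a single `b ∈ 𝒪` modulo `R_Q + p 𝒪` at every `Q`. -/
theorem exists_principal_part_of_finite (hinj : Function.Injective (algebraMap C K))
    (hp : Prime p) (a : Ideal C → K) (ha : ∀ Q : Ideal C, Q.IsMaximal → p ∈ Q → InGauss p (a Q))
    (hfin : {Q : Ideal C | Q.IsMaximal ∧ p ∈ Q ∧ ¬ InLocAdd p Q (a Q)}.Finite) :
    ∃ b : K, InGauss p b ∧ ∀ Q : Ideal C, Q.IsMaximal → p ∈ Q → InLocAdd p Q (b - a Q) := by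
  obtain ⟨b, hb, h1, h2⟩ := exists_principal_part hinj hp hfin.toFinset
    (fun Q hQ => by
      rw [Set.Finite.mem_toFinset] at hQ
      exact ⟨hQ.1, hQ.2.1⟩) a
    (fun Q hQ => by
      rw [Set.Finite.mem_toFinset] at hQ
      exact ha Q hQ.1 hQ.2.1)
  refine ⟨b, hb, fun Q hQmax hpQ => ?_⟩
  have : Q.IsPrime := hQmax.isPrime
  by_cases hQ : Q ∈ hfin.toFinset
  · exact h1 Q hQ
  · have hgood : InLocAdd p Q (a Q) := by
      by_contra hbad
      exact hQ ((Set.Finite.mem_toFinset hfin).2 ⟨hQmax, hpQ, hbad⟩)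
    exact (h2 Q hQmax hpQ hQ).sub hp hgood

end Dedekind

end Fermat.Agent.Lib.PrincipalParts
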