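/-
Locality principle for additive maps on divisors of a function field, and base change of
correspondences / push-forwards along a commutative square of function fields
(Prelude `Divisor` / `Place` vocabulary).

* `addMonoidHom_eq_of_principal` : two additive maps `Divisor K F →+ (X →₀ ℤ)` which agree on
  principal divisors and are "local" with respect to a relation `R : Place K F → Set X` with
  finite overlaps are equal (weak approximation on `F`).
* `correspondence_pullbackAlong` : for a commutative double square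
  `φ, ψ : F → G`, `φ', ψ' : F' → G'`, `ι : F → F'`, `ι₂ : G → G'`, the identity
  `(ψ'_* φ'^*) (ι^* D) = ι^* ((ψ_* φ^*) D)` for all divisors `D` follows from the same identity on
  principal divisors.
* `pullbackAlong_pushforwardAlong` : push-pull base change `ι^* α_* = α'_* ι₂^*` on all divisors
  from the same identity on principal divisors.
-/
import Mathlib
import Fermat.Prelude.Def_AlgebraicCurve_Correspondence

set_option autoImplicit false
set_option linter.unusedSectionVars false
set_option linter.style.haveILetI false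

namespace Fermat.Agent.Lib.PushPullBC

open AlgebraicCurve

section Local

variable {K F : Type*} [Field K] [Field F] [Algebra K F]

/-- Weak approximation on `F / K`: prescribed orders at finitely many places. -/
def WeakApprox (K F : Type*) [Field K] [Field F] [Algebra K F] : Prop :=
  ∀ (T : Finset (Place K F)) (n : Place K F → ℤ), ∃ w : F, w ≠ 0 ∧ ∀ P ∈ T, P.ord w = n P

theorem single_eq_zsmul_single_one (P : Place K F) (n : ℤ) :
    (Finsupp.single P n : Divisor K F) = n • Finsupp.single P 1 := by
  rw [Finsupp.smul_single, smul_eq_mul, mul_one]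

/-- If `Φ (single Q 1)` vanishes at `x` for every `Q` in the support of `E`, so does `Φ E`. -/
theorem apply_eq_zero_of_forall_support {X : Type*} (Φ : Divisor K F →+ (X →₀ ℤ))
    (E : Divisor K F) (x : X) (h : ∀ Q ∈ E.support, Φ (Finsupp.single Q 1) x = 0) :
    Φ E x = 0 := by
  classical
  have hE : Φ E = E.sum (fun Q n => Φ (Finsupp.single Q n)) := by
    conv_lhs => rw [← Finsupp.sum_single E]
    exact map_finsuppSum Φ E _
  rw [hE, Finsupp.sum_apply, Finsupp.sum]
  refine Finset.sum_eq_zero fun Q hQ => ?_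
  rw [single_eq_zsmul_single_one, map_zsmul, Finsupp.smul_apply, h Q hQ, smul_zero]

/-- **Locality principle.**  Two additive maps on divisors which agree on principal divisors
and are local with respect to a relation with finite overlaps are equal. -/
theorem addMonoidHom_eq_of_principal {X : Type*} [HasPrincipalDivisors K F]
    (hWA : WeakApprox K F) (Φ Ψ : Divisor K F →+ (X →₀ ℤ)) (R : Place K F → Set X)
    (hΦ : ∀ P x, x ∉ R P → Φ (Finsupp.single P 1) x = 0)
    (hΨ : ∀ P x, x ∉ R P → Ψ (Finsupp.single P 1) x = 0)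
    (hfin : ∀ P, ∃ S : Finset (Place K F), ∀ Q, Q ∉ S → Disjoint (R Q) (R P))
    (hprin : ∀ D : Divisor K F, D.IsPrincipal → Φ D = Ψ D) : Φ = Ψ := by
  classical
  have key : ∀ P, Φ (Finsupp.single P 1) = Ψ (Finsupp.single P 1) := by
    intro P
    obtain ⟨S, hS⟩ := hfin P
    obtain ⟨w, hw0, hw⟩ := hWA (insert P S) (fun Q => if Q = P then 1 else 0)
    obtain ⟨D, hD, -⟩ := HasPrincipalDivisors.exists_divisor (K := K) w hw0
    have hDeq := hprin D ⟨w, hw0, hD⟩
    have hsupp : ∀ Q ∈ (D - Finsupp.single P 1).support, Q ∉ insert P S := by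
      intro Q hQ hmem
      rw [Finsupp.mem_support_iff] at hQ
      apply hQ
      rw [Finsupp.sub_apply, hD Q, hw Q hmem]
      by_cases hQP : Q = P
      · subst hQP; simp
      · rw [if_neg hQP, Finsupp.single_apply, if_neg (Ne.symm hQP), sub_zero]
    have hzero : ∀ (Θ : Divisor K F →+ (X →₀ ℤ)),
        (∀ P x, x ∉ R P → Θ (Finsupp.single P 1) x = 0) →
        ∀ x ∈ R P, Θ (D - Finsupp.single P 1) x = 0 := by
      intro Θ hΘ x hx
      refine apply_eq_zero_of_forall_support Θ _ x fun Q hQ => hΘ Q x ?_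
      have hQS : Q ∉ S := fun h => hsupp Q hQ (Finset.mem_insert_of_mem h)
      exact fun hxQ => Set.disjoint_left.mp (hS Q hQS) hxQ hx
    have hsplit : ∀ (Θ : Divisor K F →+ (X →₀ ℤ)) (x : X),
        Θ D x = Θ (Finsupp.single P 1) x + Θ (D - Finsupp.single P 1) x := by
      intro Θ x
      rw [← Finsupp.add_apply, ← map_add, add_sub_cancel]
    ext x
    by_cases hx : x ∈ R P
    · have h1 := hsplit Φ x
      have h2 := hsplit Ψ x
      rw [hzero Φ hΦ x hx, add_zero] at h1
      rw [hzero Ψ hΨ x hx, add_zero] at h2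
      rw [← h1, ← h2, hDeq]
    · rw [hΦ P x hx, hΨ P x hx]
  refine Finsupp.addHom_ext fun P n => ?_
  rw [single_eq_zsmul_single_one, map_zsmul, map_zsmul, key P]

end Local

section Square

variable {K F G F' G' : Type*} [Field K] [Field F] [Field G] [Field F'] [Field G']
  [Algebra K F] [Algebra K G] [Algebra K F'] [Algebra K G']

/-- Restriction of places along a commutative square. -/
theorem restrictAlong_square (φ : F →ₐ[K] G) (ι : F →ₐ[K] F') (φ' : F' →ₐ[K] G')
    (ι₂ : G →ₐ[K] G') (hφ : φ.toRingHom.IsIntegral) (hι : ι.toRingHom.IsIntegral)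
    (hφ' : φ'.toRingHom.IsIntegral) (hι₂ : ι₂.toRingHom.IsIntegral)
    (hsq : φ'.comp ι = ι₂.comp φ) (w : Place K G') :
    (w.restrictAlong ι₂ hι₂).restrictAlong φ hφ = (w.restrictAlong φ' hφ').restrictAlong ι hι := by
  apply Place.ext
  apply SetLike.ext
  intro x
  have hx : φ' (ι x) = ι₂ (φ x) := by
    have := congrArg (fun f => f x) hsq
    simpa using this
  show ι₂ (φ x) ∈ w.toValuationSubring ↔ φ' (ι x) ∈ w.toValuationSubring
  rw [hx]

/-- A place in the support of the correspondence of a single place comes from a place of the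
correspondence field. -/
theorem exists_place_of_correspondence_single_ne_zero [HasPrincipalDivisors K G]
    (φ ψ : F →ₐ[K] G) (hφ : φ.toRingHom.IsIntegral) (hψ : ψ.toRingHom.IsIntegral)
    (P : Place K F) (n : ℤ) (P₂ : Place K F)
    (h : Divisor.correspondence φ ψ hφ hψ (Finsupp.single P n) P₂ ≠ 0) :
    ∃ W : Place K G, W.restrictAlong φ hφ = P ∧ W.restrictAlong ψ hψ = P₂ := by
  classical
  rw [Divisor.correspondence_apply, Divisor.pullbackAlong_single, map_sum,
    Finsupp.finsetSum_apply] at h
  obtain ⟨W, hW, hne⟩ := Finset.exists_ne_zero_of_sum_ne_zero h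
  rw [Divisor.pushforwardAlong_single, Finsupp.single_apply] at hne
  refine ⟨W, Place.mem_fiberAlong.mp hW, ?_⟩
  by_contra hcon
  exact hne (if_neg hcon)

/-- **Base change of a correspondence.**  For a commutative double square
`φ, ψ : F → G`, `φ', ψ' : F' → G'`, `ι : F → F'`, `ι₂ : G → G'`, the identity
`(ψ'_* φ'^*) (ι^* D) = ι^* ((ψ_* φ^*) D)` holds for all divisors as soon as it holds for the
principal ones. -/
theorem correspondence_pullbackAlong
    [HasPrincipalDivisors K F] [HasPrincipalDivisors K G] [HasPrincipalDivisors K F']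
    [HasPrincipalDivisors K G'] (hWA : WeakApprox K F)
    (φ ψ : F →ₐ[K] G) (φ' ψ' : F' →ₐ[K] G') (ι : F →ₐ[K] F') (ι₂ : G →ₐ[K] G')
    (hφ : φ.toRingHom.IsIntegral) (hψ : ψ.toRingHom.IsIntegral)
    (hφ' : φ'.toRingHom.IsIntegral) (hψ' : ψ'.toRingHom.IsIntegral)
    (hι : ι.toRingHom.IsIntegral) (hι₂ : ι₂.toRingHom.IsIntegral)
    (hsqφ : φ'.comp ι = ι₂.comp φ) (hsqψ : ψ'.comp ι = ι₂.comp ψ)
    (hprin : ∀ D : Divisor K F, D.IsPrincipal →
      Divisor.correspondence φ' ψ' hφ' hψ' (Divisor.pullbackAlong ι hι D)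
        = Divisor.pullbackAlong ι hι (Divisor.correspondence φ ψ hφ hψ D))
    (D : Divisor K F) :
    Divisor.correspondence φ' ψ' hφ' hψ' (Divisor.pullbackAlong ι hι D)
      = Divisor.pullbackAlong ι hι (Divisor.correspondence φ ψ hφ hψ D) := by
  classical
  have hΦΨ : (Divisor.correspondence φ' ψ' hφ' hψ').comp (Divisor.pullbackAlong ι hι)
      = (Divisor.pullbackAlong ι hι).comp (Divisor.correspondence φ ψ hφ hψ) := by
    refine addMonoidHom_eq_of_principal hWA _ _
      (fun P => {P'' : Place K F' | ∃ W : Place K G, W.restrictAlong φ hφ = P ∧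
        W.restrictAlong ψ hψ = P''.restrictAlong ι hι}) ?_ ?_ ?_ (fun D hD => hprin D hD)
    · intro P P'' hP''
      by_contra hne
      apply hP''
      have hne' : Divisor.correspondence φ' ψ' hφ' hψ'
          (Divisor.pullbackAlong ι hι (Finsupp.single P 1)) P'' ≠ 0 := hne
      rw [Divisor.pullbackAlong_single, map_sum, Finsupp.finsetSum_apply] at hne'
      obtain ⟨P', hP', hne''⟩ := Finset.exists_ne_zero_of_sum_ne_zero hne'
      obtain ⟨W', hW'1, hW'2⟩ :=
        exists_place_of_correspondence_single_ne_zero φ' ψ' hφ' hψ' P' _ P'' hne''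
      refine ⟨W'.restrictAlong ι₂ hι₂, ?_, ?_⟩
      · rw [restrictAlong_square φ ι φ' ι₂ hφ hι hφ' hι₂ hsqφ, hW'1]
        exact Place.mem_fiberAlong.mp hP'
      · rw [restrictAlong_square ψ ι ψ' ι₂ hψ hι hψ' hι₂ hsqψ, hW'2]
    · intro P P'' hP''
      show Divisor.pullbackAlong ι hι (Divisor.correspondence φ ψ hφ hψ (Finsupp.single P 1)) P''
        = 0
      rw [Divisor.pullbackAlong_apply]
      by_contra hne
      apply hP''
      have h2 : Divisor.correspondence φ ψ hφ hψ (Finsupp.single P 1)
          (P''.restrictAlong ι hι) ≠ 0 := fun h0 => hne (by rw [h0, mul_zero])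
      exact exists_place_of_correspondence_single_ne_zero φ ψ hφ hψ P 1 _ h2
    · intro P
      refine ⟨(Place.fiberAlong φ hφ P).biUnion (fun W₂ =>
        (Place.fiberAlong ψ hψ (W₂.restrictAlong ψ hψ)).image
          (fun W₁ => W₁.restrictAlong φ hφ)), ?_⟩
      intro Q hQ
      rw [Set.disjoint_left]
      rintro P'' ⟨W₁, hW₁φ, hW₁ψ⟩ ⟨W₂, hW₂φ, hW₂ψ⟩
      apply hQ
      rw [Finset.mem_biUnion]
      refine ⟨W₂, Place.mem_fiberAlong.mpr hW₂φ, ?_⟩
      rw [Finset.mem_image]
      exact ⟨W₁, Place.mem_fiberAlong.mpr (by rw [hW₁ψ, hW₂ψ]), hW₁φ⟩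
  exact DFunLike.congr_fun hΦΨ D

/-- **Push-pull base change.**  For a commutative square `α : F → G`, `α' : F' → G'`,
`ι : F → F'`, `ι₂ : G → G'`, the identity `ι^* (α_* D) = α'_* (ι₂^* D)` holds for all divisors of
`G` as soon as it holds for the principal ones. -/
theorem pullbackAlong_pushforwardAlong
    [HasPrincipalDivisors K G] [HasPrincipalDivisors K F'] [HasPrincipalDivisors K G']
    (hWA : WeakApprox K G)
    (α : F →ₐ[K] G) (α' : F' →ₐ[K] G') (ι : F →ₐ[K] F') (ι₂ : G →ₐ[K] G')
    (hα : α.toRingHom.IsIntegral) (hα' : α'.toRingHom.IsIntegral)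
    (hι : ι.toRingHom.IsIntegral) (hι₂ : ι₂.toRingHom.IsIntegral)
    (hsq : α'.comp ι = ι₂.comp α)
    (hprin : ∀ D : Divisor K G, D.IsPrincipal →
      Divisor.pullbackAlong ι hι (Divisor.pushforwardAlong α hα D)
        = Divisor.pushforwardAlong α' hα' (Divisor.pullbackAlong ι₂ hι₂ D))
    (D : Divisor K G) :
    Divisor.pullbackAlong ι hι (Divisor.pushforwardAlong α hα D)
      = Divisor.pushforwardAlong α' hα' (Divisor.pullbackAlong ι₂ hι₂ D) := by
  classical
  have hΦΨ : (Divisor.pullbackAlong ι hι).comp (Divisor.pushforwardAlong α hα)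
      = (Divisor.pushforwardAlong α' hα').comp (Divisor.pullbackAlong ι₂ hι₂) := by
    refine addMonoidHom_eq_of_principal hWA _ _
      (fun Q => {P' : Place K F' | P'.restrictAlong ι hι = Q.restrictAlong α hα})
      ?_ ?_ ?_ (fun D hD => hprin D hD)
    · intro Q P' hP'
      show Divisor.pullbackAlong ι hι (Divisor.pushforwardAlong α hα (Finsupp.single Q 1)) P' = 0
      rw [Divisor.pullbackAlong_apply, Divisor.pushforwardAlong_single, Finsupp.single_apply,
        if_neg (fun h => hP' h.symm), mul_zero]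
    · intro Q P' hP'
      show Divisor.pushforwardAlong α' hα' (Divisor.pullbackAlong ι₂ hι₂ (Finsupp.single Q 1)) P'
        = 0
      rw [Divisor.pullbackAlong_single, map_sum, Finsupp.finsetSum_apply]
      refine Finset.sum_eq_zero fun W' hW' => ?_
      rw [Divisor.pushforwardAlong_single, Finsupp.single_apply, if_neg]
      intro hW'P'
      apply hP'
      show P'.restrictAlong ι hι = Q.restrictAlong α hα
      rw [← hW'P', ← restrictAlong_square α ι α' ι₂ hα hι hα' hι₂ hsq,
        Place.mem_fiberAlong.mp hW']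
    · intro Q
      refine ⟨Place.fiberAlong α hα (Q.restrictAlong α hα), ?_⟩
      intro Q₂ hQ₂
      rw [Set.disjoint_left]
      intro P' (h1 : P'.restrictAlong ι hι = Q₂.restrictAlong α hα)
        (h2 : P'.restrictAlong ι hι = Q.restrictAlong α hα)
      exact hQ₂ (Place.mem_fiberAlong.mpr (by rw [← h1, h2]))
  exact DFunLike.congr_fun hΦΨ D

end Square

end Fermat.Agent.Lib.PushPullBC
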