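import Mathlib

open UpperHalfPlane hiding I
open Real Complex ModularForm EisensteinSeries Derivative Filter
open scoped Manifold MatrixGroups ModularForm Topology

namespace Fermat.Agent.Lib.Ramanujan

local notation "𝕢" => Function.Periodic.qParam

/-- Cauchy estimate for the normalized derivative. -/
theorem norm_D_le {F : ℍ → ℂ} (hF : MDiff F) (c : ℂ) {M A : ℝ} (hA : 0 < A)
    (hb : ∀ z : ℍ, A ≤ z.im → ‖F z - c‖ ≤ M) (z : ℍ) (hz : A + 1 ≤ z.im) :
    ‖D F z‖ ≤ M / (2 * π) := by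
  have hFd : DifferentiableOn ℂ (F ∘ ofComplex) upperHalfPlaneSet :=
    UpperHalfPlane.mdifferentiable_iff.mp hF
  set g : ℂ → ℂ := fun w => (F ∘ ofComplex) w - c with hg
  have hsub : Metric.closedBall (z : ℂ) 1 ⊆ upperHalfPlaneSet := by
    intro w hw
    have h1 : |w.im - (z : ℂ).im| ≤ 1 := by
      have := Complex.abs_im_le_norm (w - z)
      rw [Metric.mem_closedBall, Complex.dist_eq] at hw
      simpa using this.trans hw
    have h2 := abs_le.mp h1
    show 0 < w.im
    have : (z : ℂ).im = z.im := rfl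
    linarith [h2.1]
  have hgd : DiffContOnCl ℂ g (Metric.ball (z : ℂ) 1) := by
    have : DifferentiableOn ℂ g (Metric.closedBall (z : ℂ) 1) :=
      (hFd.mono hsub).sub (differentiableOn_const c)
    exact this.diffContOnCl_ball (le_refl _)
  have hC : ∀ w ∈ Metric.sphere (z : ℂ) 1, ‖g w‖ ≤ M := by
    intro w hw
    have hwcl : w ∈ Metric.closedBall (z : ℂ) 1 := Metric.sphere_subset_closedBall hw
    have hwim : 0 < w.im := hsub hwcl
    have h1 : |w.im - (z : ℂ).im| ≤ 1 := by
      have := Complex.abs_im_le_norm (w - z)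
      rw [Metric.mem_closedBall, Complex.dist_eq] at hwcl
      simpa using this.trans hwcl
    have h2 := abs_le.mp h1
    have : (z : ℂ).im = z.im := rfl
    have hAw : A ≤ (⟨w, hwim⟩ : ℍ).im := by
      show A ≤ w.im
      linarith [h2.1]
    have := hb ⟨w, hwim⟩ hAw
    simpa [hg, Function.comp_apply, ofComplex_apply_of_im_pos hwim] using this
  have key := Complex.norm_deriv_le_of_forall_mem_sphere_norm_le one_pos hgd hC
  have hderiv : deriv g (z : ℂ) = deriv (F ∘ ofComplex) (z : ℂ) := by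
    rw [hg]
    exact deriv_sub_const (f := F ∘ ofComplex) (x := (z : ℂ)) c
  rw [hderiv, div_one] at key
  have h2pi : ‖(2 * π * I : ℂ)‖ = 2 * π := by
    simp [abs_of_pos Real.pi_pos]
  show ‖(2 * π * I : ℂ)⁻¹ * deriv (F ∘ ofComplex) (z : ℂ)‖ ≤ M / (2 * π)
  rw [norm_mul, norm_inv, h2pi, div_eq_inv_mul]
  exact mul_le_mul_of_nonneg_left key (inv_nonneg.mpr (by positivity))

/-- If `F` tends to a limit at `i∞`, then `D F` tends to `0` at `i∞`. -/
theorem tendsto_D_zero {F : ℍ → ℂ} (hF : MDiff F) {c : ℂ}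
    (h : Tendsto F atImInfty (𝓝 c)) : Tendsto (D F) atImInfty (𝓝 0) := by
  rw [Metric.tendsto_nhds]
  intro ε hε
  have h1 : ∀ᶠ z in atImInfty, dist (F z) c < ε := (Metric.tendsto_nhds.mp h) ε hε
  obtain ⟨A, hA⟩ := (UpperHalfPlane.atImInfty_mem _).mp h1
  rw [Filter.Eventually, UpperHalfPlane.atImInfty_mem]
  refine ⟨max A 1 + 1, fun z hz => ?_⟩
  have hb : ∀ w : ℍ, max A 1 ≤ w.im → ‖F w - c‖ ≤ ε := fun w hw => by
    have := hA w (le_trans (le_max_left _ _) hw)
    simp only [Set.mem_ofPred_eq, dist_eq_norm] at this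
    exact this.le
  have := norm_D_le hF c (lt_of_lt_of_le one_pos (le_max_right A 1)) hb z hz
  simp only [Set.mem_ofPred_eq, dist_zero_right]
  refine lt_of_le_of_lt this ?_
  rw [div_lt_iff₀ (by positivity)]
  have : (1 : ℝ) < 2 * π := by linarith [Real.pi_gt_three]
  nlinarith

theorem periodic_of_hasSum {f : ℍ → ℂ} {c : ℕ → ℂ}
    (hf : ∀ τ : ℍ, HasSum (fun m ↦ c m • 𝕢 1 τ ^ m) (f τ)) :
    Function.Periodic (f ∘ ofComplex) 1 := by
  intro w
  by_cases hw : 0 < w.im
  · have hw1 : 0 < (w + 1).im := by simpa using hw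
    simp only [Function.comp_apply, ofComplex_apply_of_im_pos hw1, ofComplex_apply_of_im_pos hw]
    have h1 := hf ⟨w + 1, hw1⟩
    have h2 := hf ⟨w, hw⟩
    have hq : 𝕢 1 ((⟨w + 1, hw1⟩ : ℍ) : ℂ) = 𝕢 1 ((⟨w, hw⟩ : ℍ) : ℂ) := by
      show 𝕢 1 (w + 1) = 𝕢 1 w
      simp only [Function.Periodic.qParam, Complex.ofReal_one, div_one]
      rw [mul_add, Complex.exp_add, mul_one, Complex.exp_two_pi_mul_I, mul_one]
    rw [hq] at h1
    exact h1.unique h2
  · have hw' : w.im ≤ 0 := not_lt.mp hw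
    have hw1 : (w + 1).im ≤ 0 := by simpa using hw'
    simp [Function.comp_apply, ofComplex_apply_of_im_nonpos hw1, ofComplex_apply_of_im_nonpos hw']

theorem tendsto_of_hasSum_qExpansion {f : ℍ → ℂ} {c : ℕ → ℂ} (hfhol : MDiff f)
    (hf : ∀ τ : ℍ, HasSum (fun m ↦ c m • 𝕢 1 τ ^ m) (f τ)) :
    Tendsto f atImInfty (𝓝 (c 0)) := by
  have hfper := periodic_of_hasSum hf
  have hbdd : IsBoundedAtImInfty f := isBoundedAtImInfty_of_hasSum_qExpansion one_pos hf
  have hana : AnalyticAt ℂ (cuspFunction 1 f) 0 :=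
    analyticAt_cuspFunction_zero one_pos hfper hfhol hbdd
  have h0 : c 0 = cuspFunction 1 f 0 := by
    have h1 := (hasFPowerSeriesOnBall_cuspFunction one_pos hana hf).coeff_zero (fun _ => 0)
    rw [← h1]
    simp [FormalMultilinearSeries.ofScalars]
  have hcomp : (cuspFunction 1 f ∘ fun τ : ℍ ↦ 𝕢 1 τ) = f := by
    funext τ
    simpa using eq_cuspFunction τ one_ne_zero hfper
  rw [h0]
  have := hana.continuousAt.tendsto.comp (qParam_tendsto_atImInfty one_pos)
  rwa [hcomp] at this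

theorem tendsto_E2 : Tendsto E2 atImInfty (𝓝 1) := by
  have := tendsto_of_hasSum_qExpansion (f := E2)
    (c := fun m => if m = 0 then 1 else -24 * ((ArithmeticFunction.sigma 1 m : ℕ) : ℂ))
    E2_mdifferentiable (fun τ => by
      have := hasSum_qExpansion_E2 τ
      simpa [Function.Periodic.qParam] using this)
  simpa using this

theorem tendsto_modularForm {k : ℤ} (f : ModularForm 𝒮ℒ k) :
    Tendsto f atImInfty (𝓝 ((qExpansion 1 f).coeff 0)) := by
  have hana := ModularFormClass.analyticAt_cuspFunction_zero f one_pos one_mem_strictPeriods_SL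
  have hcomp : (cuspFunction 1 f ∘ fun τ : ℍ ↦ 𝕢 1 τ) = f := by
    funext τ
    simpa using SlashInvariantFormClass.eq_cuspFunction f τ one_mem_strictPeriods_SL one_ne_zero
  have h0 : (qExpansion 1 f).coeff 0 = cuspFunction 1 f 0 := by
    rw [qExpansion_coeff]; simp
  rw [h0]
  have := hana.continuousAt.tendsto.comp (qParam_tendsto_atImInfty one_pos)
  rwa [hcomp] at this

theorem tendsto_E4 : Tendsto E₄ atImInfty (𝓝 1) := by
  have := tendsto_modularForm E₄
  rwa [E_qExpansion_coeff_zero (by norm_num) (by decide)] at this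

theorem tendsto_E6 : Tendsto E₆ atImInfty (𝓝 1) := by
  have := tendsto_modularForm E₆
  rwa [E_qExpansion_coeff_zero (by norm_num) (by decide)] at this

theorem slash_eq_of_modularForm {k : ℤ} (f : ModularForm 𝒮ℒ k) (A : SL(2, ℤ)) :
    (f : ℍ → ℂ) ∣[k] A = f := by
  exact SlashInvariantFormClass.slash_action_eq f (Matrix.SpecialLinearGroup.mapGL ℝ A)
    ⟨A, rfl⟩

theorem tendsto_serreDerivative {k : ℤ} {F : ℍ → ℂ} (hF : MDiff F) {c : ℂ}
    (h : Tendsto F atImInfty (𝓝 c)) :
    Tendsto (serreDerivative k F) atImInfty (𝓝 (-(k * 12⁻¹ * c))) := by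
  have h1 := tendsto_D_zero hF h
  have h2 : Tendsto (fun z => (k : ℂ) * 12⁻¹ * E2 z * F z) atImInfty (𝓝 ((k : ℂ) * 12⁻¹ * 1 * c)) :=
    (tendsto_E2.const_mul ((k : ℂ) * 12⁻¹)).mul h
  have := h1.sub h2
  simpa [serreDerivative] using this

/-- The Serre derivative of a level one modular form, as a modular form of weight `k + 2`. -/
noncomputable def serreDerivativeMF {k : ℤ} (f : ModularForm 𝒮ℒ k) : ModularForm 𝒮ℒ (k + 2) where
  toFun := serreDerivative k f
  slash_action_eq' A hA := by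
    obtain ⟨A, rfl⟩ := hA
    exact serreDerivative_slash_invariant (k := k) (F := f) (ModularFormClass.holo f) (γ := A)
      (slash_eq_of_modularForm f A)
  holo' := serreDerivative_mdifferentiable k (ModularFormClass.holo f)
  bdd_at_cusps' hc := by
    rw [Subgroup.IsArithmetic.isCusp_iff_isCusp_SL2Z] at hc
    rw [OnePoint.isBoundedAt_iff_forall_SL2Z hc]
    intro γ _
    rw [serreDerivative_slash_invariant (k := k) (F := f) (ModularFormClass.holo f) (γ := γ)
      (slash_eq_of_modularForm f γ)]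
    exact (tendsto_serreDerivative (ModularFormClass.holo f) (tendsto_modularForm f)).isBigO_one ℝ

@[simp]
theorem serreDerivativeMF_apply {k : ℤ} (f : ModularForm 𝒮ℒ k) (z : ℍ) :
    serreDerivativeMF f z = serreDerivative k f z := rfl

/-- In a one-dimensional space of level one modular forms, a form is determined by a nonzero
generator and the values at infinity. -/
theorem eq_smul_of_rank_one {k : ℤ} (hrank : Module.rank ℂ (ModularForm 𝒮ℒ k) = 1)
    (g f : ModularForm 𝒮ℒ k) {a b : ℂ} (hg : Tendsto g atImInfty (𝓝 a)) (ha : a ≠ 0)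
    (hf : Tendsto f atImInfty (𝓝 b)) : ∀ z, f z = b / a * g z := by
  have hfin : Module.finrank ℂ (ModularForm 𝒮ℒ k) = 1 := by
    apply Module.finrank_eq_of_rank_eq; rw [hrank]; simp
  have hg0 : g ≠ 0 := by
    rintro rfl
    exact ha (tendsto_nhds_unique hg (tendsto_const_nhds (x := (0 : ℂ))))
  obtain ⟨c, hc⟩ := (finrank_eq_one_iff_of_nonzero' g hg0).mp hfin f
  have hlim : Tendsto f atImInfty (𝓝 (c * a)) := by
    have : (f : ℍ → ℂ) = fun z => c * g z := by
      rw [← hc]; funext z; simp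
    rw [this]
    exact hg.const_mul c
  have hb : b = c * a := tendsto_nhds_unique hf hlim
  intro z
  rw [← hc, hb]
  simp [mul_div_assoc, div_self ha]

theorem serreDerivative_E4 (z : ℍ) : serreDerivative 4 E₄ z = -(1 / 3) * E₆ z := by
  have h6 : Tendsto (serreDerivativeMF E₄ : ModularForm 𝒮ℒ 6) atImInfty (𝓝 (-(1/3))) := by
    have := tendsto_serreDerivative (k := 4) (ModularFormClass.holo E₄) tendsto_E4
    have e : (-(((4 : ℤ) : ℂ) * 12⁻¹ * 1)) = -(1 / 3) := by norm_num
    rw [e] at this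
    exact this
  have := eq_smul_of_rank_one levelOne_weight_six_rank_one E₆ (serreDerivativeMF E₄)
    tendsto_E6 one_ne_zero h6 z
  rw [serreDerivativeMF_apply] at this
  simpa using this

theorem levelOne_weight_eight_rank_one : Module.rank ℂ (ModularForm 𝒮ℒ 8) = 1 := by
  have := dimension_level_one 8 (by decide)
  have h : ¬ (8 ≡ 2 [MOD 12]) := by decide
  simpa [h] using this

theorem serreDerivative_E6 (z : ℍ) : serreDerivative 6 E₆ z = -(1 / 2) * E₄ z ^ 2 := by
  have h8 : Tendsto (serreDerivativeMF E₆ : ModularForm 𝒮ℒ 8) atImInfty (𝓝 (-(1/2))) := by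
    have := tendsto_serreDerivative (k := 6) (ModularFormClass.holo E₆) tendsto_E6
    have e : (-(((6 : ℤ) : ℂ) * 12⁻¹ * 1)) = -(1 / 2) := by norm_num
    rw [e] at this
    exact this
  have hE44 : Tendsto (E₄.mul E₄ : ModularForm 𝒮ℒ 8) atImInfty (𝓝 1) := by
    have := tendsto_E4.mul tendsto_E4
    rw [mul_one] at this
    exact this
  have := eq_smul_of_rank_one levelOne_weight_eight_rank_one (E₄.mul E₄) (serreDerivativeMF E₆)
    hE44 one_ne_zero h8 z
  rw [serreDerivativeMF_apply] at this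
  have e2 : (E₄.mul E₄ : ModularForm 𝒮ℒ 8) z = E₄ z ^ 2 := by
    show E₄ z * E₄ z = E₄ z ^ 2
    ring
  rw [e2] at this
  have e3 : serreDerivative ((6 : ℤ) : ℂ) E₆ z = serreDerivative 6 E₆ z := by norm_num
  rw [← e3, this]; ring

local notation "Δ" => ModularForm.discriminant

/-- Ramanujan's identity for `E₄`. -/
theorem ramanujan_E4 (z : ℍ) : D E₄ z = (E2 z * E₄ z - E₆ z) / 3 := by
  have := serreDerivative_E4 z
  rw [serreDerivative_apply] at this
  linear_combination this

/-- Ramanujan's identity for `E₆`. -/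
theorem ramanujan_E6 (z : ℍ) : D E₆ z = (E2 z * E₆ z - E₄ z ^ 2) / 2 := by
  have := serreDerivative_E6 z
  rw [serreDerivative_apply] at this
  linear_combination this

theorem mdifferentiable_discriminant : MDiff (Δ : ℍ → ℂ) := 
  CuspForm.discriminant.holo'

/-- Ramanujan's identity for `Δ`. -/
theorem ramanujan_Delta (z : ℍ) : D Δ z = E2 z * Δ z := by
  have hz : (z : ℂ) ∈ upperHalfPlaneSet := z.im_pos
  have hη : DifferentiableAt ℂ η (z : ℂ) := differentiableAt_eta_of_mem_upperHalfPlaneSet hz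
  have heq : (Δ ∘ ofComplex) =ᶠ[𝓝 (z : ℂ)] fun w => η w ^ 24 := by
    filter_upwards [isOpen_upperHalfPlaneSet.mem_nhds hz] with w hw
    simp [ModularForm.discriminant, ofComplex_apply_of_im_pos hw]
  have hlog := logDeriv_eta_eq_E2 z
  have hη0 : η (z : ℂ) ≠ 0 := eta_ne_zero hz
  have hd : deriv η (z : ℂ) = ↑π * I / 12 * E2 z * η (z : ℂ) := by
    rw [logDeriv_apply] at hlog
    field_simp at hlog ⊢
    linear_combination hlog
  have hpi : (2 * π * I : ℂ) ≠ 0 := by
    simp [Real.pi_ne_zero]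
  show (2 * π * I : ℂ)⁻¹ * deriv (Δ ∘ ofComplex) (z : ℂ) = E2 z * Δ z
  rw [heq.deriv_eq]
  have : deriv (fun w => η w ^ 24) (z : ℂ) = 24 * η (z : ℂ) ^ 23 * deriv η (z : ℂ) := by
    have := (hη.hasDerivAt.pow 24).deriv
    have e : (fun w => η w ^ 24) = η ^ 24 := rfl
    rw [e]
    simpa using this
  rw [this, hd]
  simp only [ModularForm.discriminant]
  field_simp
  ring

theorem D_div {F G : ℍ → ℂ} (hF : MDiff F) (hG : MDiff G) (z : ℍ) (hG0 : G z ≠ 0) :
    D (fun w => F w / G w) z = (D F z * G z - F z * D G z) / G z ^ 2 := by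
  have hFz := UpperHalfPlane.mdifferentiableAt_iff.mp (hF z)
  have hGz := UpperHalfPlane.mdifferentiableAt_iff.mp (hG z)
  have hG0' : (G ∘ ofComplex) (z : ℂ) ≠ 0 := by simpa using hG0
  have h := deriv_div hFz hGz hG0'
  have hpi : (2 * π * I : ℂ) ≠ 0 := by
    simp [Real.pi_ne_zero]
  show (2 * π * I : ℂ)⁻¹ * deriv ((fun w => F w / G w) ∘ ofComplex) (z : ℂ) = _
  have e : ((fun w => F w / G w) ∘ ofComplex) = (F ∘ ofComplex) / (G ∘ ofComplex) := rfl
  rw [e, h]
  simp only [normalizedDerivOfComplex, Function.comp_apply, ofComplex_apply]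
  field_simp

/-- The derivative of the `j`-function `E₄³/Δ`. -/
theorem D_j (z : ℍ) : D (fun w : ℍ => E₄ w ^ 3 / Δ w) z = - E₄ z ^ 2 * E₆ z / Δ z := by
  have hE4 : MDiff (fun w : ℍ => E₄ w ^ 3) := by
    have := (ModularFormClass.holo E₄).pow 3
    exact this
  have hΔ0 := discriminant_ne_zero z
  rw [D_div hE4 mdifferentiable_discriminant z hΔ0, ramanujan_Delta]
  have h3 : D (fun w : ℍ => E₄ w ^ 3) z = 3 * E₄ z ^ 2 * D E₄ z := by
    have := congrFun (normalizedDerivOfComplex_pow E₄ 3 (ModularFormClass.holo E₄)) z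
    have e : (fun w : ℍ => E₄ w ^ 3) = (E₄ : ℍ → ℂ) ^ 3 := rfl
    rw [e]
    simpa using this
  rw [h3, ramanujan_E4]
  field_simp
  ring

end Fermat.Agent.Lib.Ramanujan
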