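import Mathlib
import Fermat.Agent.S34.Sep.ResidueLA
import Fermat.Agent.S34.Sep.ResidueCore

/-!
# Residue degree and "trace commutes with reduction" at a prime of unit discriminant

Level-free (Mathlib + the landed `S34/Sep` linear algebra).  Binders are those of
`S34/Sep/ResidueCore.isSeparable_of_unramified'`:

`A` an integrally closed domain with fraction field `K`, `L / K` a finite field extension,
`B = integralClosure A L`; `b` a family of `n = [L : K]` elements of `L`, integral over `A`,
with trace discriminant `d ∈ A`; `π` a prime element of `A` not dividing `d`; `ρ : B →+* κ` a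
ring homomorphism to a field with kernel `π B`; `φ : A →+* F` a ring homomorphism to a field
`F ⊆ κ` compatible with `ρ`, every element of `F` being a quotient of elements of `φ A`.

* `exists_residue_basis` : the `F`-span `F'` of the `ρ (b i)` is an intermediate field of
  `κ / F`, equal to `F(ρ B)`; the `ρ (b i)` form an `F`-basis of it (so `[F' : F] = [L : K]`,
  i.e. residue degree `= n`, `e = 1`), and **the trace commutes with reduction**:
  `Tr_{F'/F} (ρ c) = φ (Tr_{L/K} c)` for `c ∈ B`.
* `finrank_adjoin_range`, `finiteDimensional_adjoin_range`, `trace_adjoin_range` : the same for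
  the canonical field `IntermediateField.adjoin F (Set.range ρ)`.
* `exists_coord_residue` : `φ d • ρ c ∈ ⊕ φ(A) ρ (b i)`.

No localisation, no freeness over a discrete valuation ring: the integral basis of unit
discriminant reduces to a basis.
-/

set_option autoImplicit false

namespace Fermat.Agent.Lib.ResidueDegree

open Matrix
open Fermat.Agent.S34.Sep

variable {A K L : Type*} [CommRing A] [IsDomain A] [IsIntegrallyClosed A] [Field K]
  [Algebra A K] [IsFractionRing A K] [Field L] [Algebra K L] [Algebra A L] [IsScalarTower A K L]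
  [FiniteDimensional K L]

variable {κ F : Type*} [Field κ] [Field F] [Algebra F κ]

omit [IsDomain A] in
/-- **Residue basis, residue degree and trace at a prime of unit discriminant.** -/
theorem exists_residue_basis {n : ℕ} (hn : n = Module.finrank K L)
    (b : Fin n → L) (hb : ∀ i, IsIntegral A (b i))
    (d π : A) (hdet : (Algebra.traceMatrix K b).det = algebraMap A K d) (hπ : Prime π)
    (hπd : ¬ π ∣ d)
    (ρ : integralClosure A L →+* κ)
    (hρ : RingHom.ker ρ = Ideal.span {algebraMap A (integralClosure A L) π})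
    (φ : A →+* F) (hφ : ∀ a, algebraMap F κ (φ a) = ρ (algebraMap A (integralClosure A L) a))
    (hfrac : ∀ f : F, ∃ a s : A, φ s ≠ 0 ∧ f * φ s = φ a) :
    ∃ (F' : IntermediateField F κ) (Bs : Module.Basis (Fin n) F F'),
      (∀ i, ((Bs i : F') : κ) = ρ ⟨b i, hb i⟩) ∧
      (∀ c : integralClosure A L, ρ c ∈ F') ∧
      F' = IntermediateField.adjoin F (Set.range ρ) ∧
      (∀ c : integralClosure A L, ∃ a : Fin n → A,
        algebraMap F κ (φ d) * ρ c = ∑ i, algebraMap F κ (φ (a i)) * ρ ⟨b i, hb i⟩) ∧
      φ d ≠ 0 ∧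
      ∀ (c : integralClosure A L) (hc : ρ c ∈ F') (a : A),
        algebraMap A K a = Algebra.trace K L (c : L) →
        Algebra.trace F F' ⟨ρ c, hc⟩ = φ a := by
  classical
  have hd0 : d ≠ 0 := fun h => hπd (h ▸ dvd_zero π)
  have hinjK : Function.Injective (algebraMap A K) := IsFractionRing.injective A K
  have hinjL : Function.Injective (algebraMap A L) := by
    rw [IsScalarTower.algebraMap_eq A K L]
    exact (algebraMap K L).injective.comp hinjK
  -- `b` is a basis
  have hdisc : Algebra.discr K b ≠ 0 := by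
    rw [Algebra.discr_def, hdet]
    exact (map_ne_zero_iff _ hinjK).2 hd0
  have hnpos : 0 < n := hn ▸ Module.finrank_pos
  have hne : Nonempty (Fin n) := ⟨⟨0, hnpos⟩⟩
  have hli : LinearIndependent K b := by
    by_contra h
    exact hdisc (Algebra.discr_zero_of_not_linearIndependent K h)
  let bas : Module.Basis (Fin n) K L :=
    basisOfLinearIndependentOfCardEqFinrank hli (by simp [hn])
  have hbas : ∀ i, bas i = b i := fun i => by simp [bas]
  have hbas' : (⇑bas : Fin n → L) = b := funext hbas
  have hb' : ∀ i, IsIntegral A (bas i) := fun i => by rw [hbas]; exact hb i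
  have hdet' : (Algebra.traceMatrix K bas).det = algebraMap A K d := by rw [hbas']; exact hdet
  -- coordinates
  have hcoordK : ∀ x : integralClosure A L, ∃ a : Fin n → A,
      ∀ i, algebraMap A K (a i) = algebraMap A K d * bas.repr (x : L) i := fun x =>
    ResidueCore.exists_coord bas hb' d hdet' x.2
  choose cA hcAK using hcoordK
  have hcA : ∀ x : integralClosure A L,
      algebraMap A L d * (x : L) = ∑ i, algebraMap A L (cA x i) * b i := by
    intro x
    conv_lhs => rw [← bas.sum_repr (x : L)]
    rw [Finset.mul_sum]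
    refine Finset.sum_congr rfl fun i _ => ?_
    rw [IsScalarTower.algebraMap_apply A K L (cA x i), hcAK x i, hbas, Algebra.smul_def,
      IsScalarTower.algebraMap_apply A K L d, map_mul, mul_assoc]
  let bB : Fin n → integralClosure A L := fun i => ⟨b i, hb i⟩
  have hcB : ∀ x : integralClosure A L, algebraMap A (integralClosure A L) d * x =
      ∑ i, algebraMap A (integralClosure A L) (cA x i) * bB i := by
    intro x
    apply Subtype.ext
    have h1 := hcA x
    simpa [bB] using h1
  let β : Fin n → κ := fun i => ρ (bB i)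
  have hρc : ∀ x : integralClosure A L,
      algebraMap F κ (φ d) * ρ x = ∑ i, algebraMap F κ (φ (cA x i)) * β i := by
    intro x
    have h1 := congrArg ρ (hcB x)
    simp only [map_mul, map_sum] at h1
    simpa [hφ, β] using h1
  -- the kernel of `ρ` on `A`
  have hker : ∀ a : A, ρ (algebraMap A (integralClosure A L) a) = 0 → π ∣ a := by
    intro a ha
    have h1 : algebraMap A (integralClosure A L) a ∈ RingHom.ker ρ := ha
    rw [hρ, Ideal.mem_span_singleton] at h1
    obtain ⟨x, hx⟩ := h1
    have hxL : algebraMap A L a = algebraMap A L π * (x : L) := by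
      have h2 := congrArg (fun z : integralClosure A L => (z : L)) hx
      simpa using h2
    have hπ0 : algebraMap A K π ≠ 0 := (map_ne_zero_iff _ hinjK).2 hπ.ne_zero
    have hπL : algebraMap A L π ≠ 0 := (map_ne_zero_iff _ hinjL).2 hπ.ne_zero
    have hxK : (x : L) = algebraMap K L (algebraMap A K a / algebraMap A K π) := by
      rw [map_div₀, ← IsScalarTower.algebraMap_apply, ← IsScalarTower.algebraMap_apply, hxL,
        mul_div_cancel_left₀ _ hπL]
    have hint : IsIntegral A (algebraMap A K a / algebraMap A K π) := by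
      have h3 := x.2
      rw [mem_integralClosure_iff, hxK] at h3
      exact (isIntegral_algebraMap_iff (algebraMap K L).injective).1 h3
    obtain ⟨a', ha'⟩ := IsIntegrallyClosed.isIntegral_iff.1 hint
    refine ⟨a', hinjK ?_⟩
    rw [map_mul, ha', mul_div_cancel₀ _ hπ0]
  have hπker : ρ (algebraMap A (integralClosure A L) π) = 0 := by
    have h1 : algebraMap A (integralClosure A L) π ∈ RingHom.ker ρ := by
      rw [hρ]
      exact Ideal.mem_span_singleton_self _
    exact h1
  have hφd : φ d ≠ 0 := by
    intro h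
    apply hπd
    apply hker
    rw [← hφ, h, map_zero]
  -- comparison of coefficients
  have hcoef : ∀ (u v : Fin n → A),
      ∑ i, algebraMap A L (u i) * b i = ∑ i, algebraMap A L (v i) * b i → ∀ i, u i = v i := by
    intro u v huv i
    have h3 : ∑ i, (algebraMap A K (u i) - algebraMap A K (v i)) • b i = 0 := by
      have h3' : ∀ i, (algebraMap A K (u i) - algebraMap A K (v i)) • b i =
          algebraMap A L (u i) * b i - algebraMap A L (v i) * b i := fun i => by
        rw [sub_smul, Algebra.smul_def, Algebra.smul_def, ← IsScalarTower.algebraMap_apply,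
          ← IsScalarTower.algebraMap_apply]
      rw [Finset.sum_congr rfl (fun i _ => h3' i), Finset.sum_sub_distrib, huv, sub_self]
    have h4 := (Fintype.linearIndependent_iff.1 hli) _ h3 i
    exact hinjK (sub_eq_zero.1 h4)
  -- fraction-free independence
  have hind : ∀ a : Fin n → A, ∑ i, algebraMap F κ (φ (a i)) * β i = 0 → ∀ i, φ (a i) = 0 := by
    intro a ha i
    have h1 : ρ (∑ i, algebraMap A (integralClosure A L) (a i) * bB i) = 0 := by
      rw [map_sum]
      simpa [hφ, β] using ha
    have h2 : (∑ i, algebraMap A (integralClosure A L) (a i) * bB i) ∈ RingHom.ker ρ := h1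
    rw [hρ, Ideal.mem_span_singleton] at h2
    obtain ⟨x, hx⟩ := h2
    have hL : ∑ i, algebraMap A L (a i) * b i = algebraMap A L π * (x : L) := by
      have h3 := congrArg (fun z : integralClosure A L => (z : L)) hx
      simpa [bB] using h3
    have hL2 : ∑ i, algebraMap A L (d * a i) * b i = ∑ i, algebraMap A L (π * cA x i) * b i := by
      calc ∑ i, algebraMap A L (d * a i) * b i
          = algebraMap A L d * ∑ i, algebraMap A L (a i) * b i := by
            rw [Finset.mul_sum]
            refine Finset.sum_congr rfl fun i _ => ?_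
            rw [map_mul, mul_assoc]
        _ = algebraMap A L π * (algebraMap A L d * (x : L)) := by rw [hL]; ring
        _ = ∑ i, algebraMap A L (π * cA x i) * b i := by
            rw [hcA x, Finset.mul_sum]
            refine Finset.sum_congr rfl fun i _ => ?_
            rw [map_mul, mul_assoc]
    have h5 := hcoef _ _ hL2 i
    have h6 : π ∣ a i := (hπ.dvd_or_dvd ⟨_, h5⟩).resolve_left hπd
    obtain ⟨a', ha'⟩ := h6
    apply (algebraMap F κ).injective
    rw [hφ, ha', map_mul, map_mul, hπker, zero_mul, map_zero]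
  -- the span of the reduced basis
  have hliF : LinearIndependent F β :=
    ResidueLA.linearIndependent_of_fractionFree φ hfrac β hind
  set V : Submodule F κ := Submodule.span F (Set.range β) with hV
  have hβV : ∀ i, β i ∈ V := fun i => Submodule.subset_span ⟨i, rfl⟩
  have hdκ : algebraMap F κ (φ d) ≠ 0 := (map_ne_zero _).2 hφd
  have hcoord : ∀ x : integralClosure A L, ρ x = ∑ i, ((φ d)⁻¹ * φ (cA x i)) • β i := by
    intro x
    have h1 : ∑ i, ((φ d)⁻¹ * φ (cA x i)) • β i =
        (algebraMap F κ (φ d))⁻¹ * ∑ i, algebraMap F κ (φ (cA x i)) * β i := by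
      rw [Finset.mul_sum]
      refine Finset.sum_congr rfl fun i _ => ?_
      rw [Algebra.smul_def, map_mul, map_inv₀, mul_assoc]
    rw [h1, ← hρc x, ← mul_assoc, inv_mul_cancel₀ hdκ, one_mul]
  have hmemV : ∀ x : integralClosure A L, ρ x ∈ V := by
    intro x
    rw [hcoord x]
    exact Submodule.sum_mem _ fun i _ => Submodule.smul_mem _ _ (hβV i)
  have h1V : (1 : κ) ∈ V := by
    have h := hmemV 1
    rwa [map_one] at h
  have hmulV : ∀ y z, y ∈ V → z ∈ V → y * z ∈ V := by
    intro y z hy hz
    have h1 : y * z ∈ V * V := Submodule.mul_mem_mul hy hz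
    rw [hV, Submodule.span_mul_span] at h1
    refine (Submodule.span_le.2 ?_) h1
    rintro _ ⟨u, ⟨k, rfl⟩, v, ⟨j, rfl⟩, rfl⟩
    have h2 := hmemV (bB k * bB j)
    rwa [map_mul] at h2
  -- the subalgebra and the field
  let S : Subalgebra F κ := V.toSubalgebra h1V hmulV
  have hfinV : Module.Finite F V := FiniteDimensional.span_of_finite F (Set.finite_range β)
  have hfinS : Module.Finite F S := hfinV
  have hSfield : IsField S := by
    have : Algebra.IsIntegral F S := Algebra.IsIntegral.of_finite F S
    exact isField_of_isIntegral_of_isField' (Field.toIsField F)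
  let F' : IntermediateField F κ := S.toIntermediateField' hSfield
  have hF'V : ∀ y, y ∈ F' ↔ y ∈ V := fun y => Iff.rfl
  let bv : Fin n → F' := fun i => ⟨β i, (hF'V _).2 (hβV i)⟩
  have hli' : LinearIndependent F bv := by
    refine LinearIndependent.of_comp F'.val.toLinearMap ?_
    exact hliF
  have hsp : ⊤ ≤ Submodule.span F (Set.range bv) := by
    rintro ⟨y, hy⟩ -
    obtain ⟨g, rfl⟩ := (Submodule.mem_span_range_iff_exists_fun F).1 ((hF'V y).1 hy)
    rw [Submodule.mem_span_range_iff_exists_fun]
    refine ⟨g, ?_⟩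
    apply Subtype.ext
    simp [bv]
  let Bs : Module.Basis (Fin n) F F' := Module.Basis.mk hli' hsp
  have hBs : ∀ i, Bs i = bv i := fun i => by simp [Bs]
  refine ⟨F', Bs, fun i => ?_, fun c => (hF'V _).2 (hmemV c), ?_,
    fun c => ⟨cA c, hρc c⟩, hφd, ?_⟩
  · rw [hBs]
  · -- `F' = F(ρ B)`
    apply le_antisymm
    · intro y hy
      have hle : V ≤ Subalgebra.toSubmodule
          (IntermediateField.adjoin F (Set.range ρ)).toSubalgebra := by
        rw [hV]
        refine Submodule.span_le.2 ?_
        rintro _ ⟨i, rfl⟩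
        exact IntermediateField.subset_adjoin F _ ⟨bB i, rfl⟩
      exact hle ((hF'V y).1 hy)
    · rw [IntermediateField.adjoin_le_iff]
      rintro _ ⟨c, rfl⟩
      exact (hF'V _).2 (hmemV c)
  · -- the trace
    intro c hc a ha
    have hmulc : ∀ j, (⟨ρ c, hc⟩ : F') * bv j =
        ∑ i, ((φ d)⁻¹ * φ (cA (c * bB j) i)) • Bs i := by
      intro j
      apply Subtype.ext
      have h1 : ρ c * β j = ∑ i, ((φ d)⁻¹ * φ (cA (c * bB j) i)) • β i := by
        have h0 := hcoord (c * bB j)
        rwa [map_mul] at h0
      simp only [hBs]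
      rw [show (((⟨ρ c, hc⟩ : F') * bv j : F') : κ) = ρ c * β j from rfl, h1]
      simp [bv]
    have hleft : ∀ i j, Algebra.leftMulMatrix Bs (⟨ρ c, hc⟩ : F') i j =
        (φ d)⁻¹ * φ (cA (c * bB j) i) := by
      intro i j
      rw [Algebra.leftMulMatrix_eq_repr_mul, hBs j, hmulc j, Module.Basis.repr_sum_self]
    have htrF : Algebra.trace F F' ⟨ρ c, hc⟩ = (φ d)⁻¹ * ∑ i, φ (cA (c * bB i) i) := by
      rw [Algebra.trace_eq_matrix_trace Bs, Matrix.trace, Finset.mul_sum]
      refine Finset.sum_congr rfl fun i _ => ?_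
      rw [Matrix.diag_apply, hleft]
    have htrK : algebraMap A K d * Algebra.trace K L (c : L) =
        algebraMap A K (∑ i, cA (c * bB i) i) := by
      rw [Algebra.trace_eq_matrix_trace bas, Matrix.trace, Finset.mul_sum, map_sum]
      refine Finset.sum_congr rfl fun i _ => ?_
      rw [Matrix.diag_apply, Algebra.leftMulMatrix_eq_repr_mul, hcAK (c * bB i) i, hbas i]
      rfl
    have hda : d * a = ∑ i, cA (c * bB i) i := by
      apply hinjK
      rw [map_mul, ha, htrK]
    rw [htrF, ← map_sum, ← hda, map_mul, ← mul_assoc, inv_mul_cancel₀ hφd, one_mul]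

omit [IsDomain A] in
/-- The residue field `F(ρ B)` is finite over `F`. -/
theorem finiteDimensional_adjoin_range {n : ℕ} (hn : n = Module.finrank K L)
    (b : Fin n → L) (hb : ∀ i, IsIntegral A (b i))
    (d π : A) (hdet : (Algebra.traceMatrix K b).det = algebraMap A K d) (hπ : Prime π)
    (hπd : ¬ π ∣ d)
    (ρ : integralClosure A L →+* κ)
    (hρ : RingHom.ker ρ = Ideal.span {algebraMap A (integralClosure A L) π})
    (φ : A →+* F) (hφ : ∀ a, algebraMap F κ (φ a) = ρ (algebraMap A (integralClosure A L) a))
    (hfrac : ∀ f : F, ∃ a s : A, φ s ≠ 0 ∧ f * φ s = φ a) :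
    FiniteDimensional F (IntermediateField.adjoin F (Set.range ρ)) := by
  obtain ⟨F', Bs, -, -, hF', -⟩ :=
    exists_residue_basis hn b hb d π hdet hπ hπd ρ hρ φ hφ hfrac
  subst hF'
  exact Module.Finite.of_basis Bs

omit [IsDomain A] in
/-- **Residue degree `= n`** : `[F(ρ B) : F] = [L : K]`. -/
theorem finrank_adjoin_range {n : ℕ} (hn : n = Module.finrank K L)
    (b : Fin n → L) (hb : ∀ i, IsIntegral A (b i))
    (d π : A) (hdet : (Algebra.traceMatrix K b).det = algebraMap A K d) (hπ : Prime π)
    (hπd : ¬ π ∣ d)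
    (ρ : integralClosure A L →+* κ)
    (hρ : RingHom.ker ρ = Ideal.span {algebraMap A (integralClosure A L) π})
    (φ : A →+* F) (hφ : ∀ a, algebraMap F κ (φ a) = ρ (algebraMap A (integralClosure A L) a))
    (hfrac : ∀ f : F, ∃ a s : A, φ s ≠ 0 ∧ f * φ s = φ a) :
    Module.finrank F (IntermediateField.adjoin F (Set.range ρ)) = Module.finrank K L := by
  obtain ⟨F', Bs, -, -, hF', -⟩ :=
    exists_residue_basis hn b hb d π hdet hπ hπd ρ hρ φ hφ hfrac
  subst hF'
  rw [Module.finrank_eq_card_basis Bs, Fintype.card_fin, hn]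

omit [IsDomain A] in
/-- **The trace commutes with reduction** : `Tr_{F(ρ B)/F} (ρ c) = φ (Tr_{L/K} c)`. -/
theorem trace_adjoin_range {n : ℕ} (hn : n = Module.finrank K L)
    (b : Fin n → L) (hb : ∀ i, IsIntegral A (b i))
    (d π : A) (hdet : (Algebra.traceMatrix K b).det = algebraMap A K d) (hπ : Prime π)
    (hπd : ¬ π ∣ d)
    (ρ : integralClosure A L →+* κ)
    (hρ : RingHom.ker ρ = Ideal.span {algebraMap A (integralClosure A L) π})
    (φ : A →+* F) (hφ : ∀ a, algebraMap F κ (φ a) = ρ (algebraMap A (integralClosure A L) a))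
    (hfrac : ∀ f : F, ∃ a s : A, φ s ≠ 0 ∧ f * φ s = φ a)
    (c : integralClosure A L) (a : A) (ha : algebraMap A K a = Algebra.trace K L (c : L)) :
    Algebra.trace F (IntermediateField.adjoin F (Set.range ρ))
      ⟨ρ c, IntermediateField.subset_adjoin F _ ⟨c, rfl⟩⟩ = φ a := by
  obtain ⟨F', Bs, -, -, hF', -, -, htr⟩ :=
    exists_residue_basis hn b hb d π hdet hπ hπd ρ hρ φ hφ hfrac
  subst hF'
  exact htr c _ a ha

omit [IsDomain A] in
/-- Coordinates of a reduction with the denominator `φ d`. -/
theorem exists_coord_residue {n : ℕ} (hn : n = Module.finrank K L)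
    (b : Fin n → L) (hb : ∀ i, IsIntegral A (b i))
    (d π : A) (hdet : (Algebra.traceMatrix K b).det = algebraMap A K d) (hπ : Prime π)
    (hπd : ¬ π ∣ d)
    (ρ : integralClosure A L →+* κ)
    (hρ : RingHom.ker ρ = Ideal.span {algebraMap A (integralClosure A L) π})
    (φ : A →+* F) (hφ : ∀ a, algebraMap F κ (φ a) = ρ (algebraMap A (integralClosure A L) a))
    (hfrac : ∀ f : F, ∃ a s : A, φ s ≠ 0 ∧ f * φ s = φ a) (c : integralClosure A L) :
    φ d ≠ 0 ∧ ∃ a : Fin n → A,
      algebraMap F κ (φ d) * ρ c = ∑ i, algebraMap F κ (φ (a i)) * ρ ⟨b i, hb i⟩ := by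
  obtain ⟨F', Bs, -, -, -, hco, hd, -⟩ :=
    exists_residue_basis hn b hb d π hdet hπ hπd ρ hρ φ hφ hfrac
  exact ⟨hd, hco c⟩

end Fermat.Agent.Lib.ResidueDegree
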