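/-
A group of operators all of whose elements `g` satisfy `(g - 1) ^ 2 = 0` has a common fixed vector
(the special case of Kolchin's theorem needed for "unipotent inertia"), with an elementary proof:
no Lie theory, no Burnside, no finiteness assumption.

Ring form: `A` a ring in which `x + x = 0 → x = 0`, `ρ : Γ →* A` a monoid homomorphism from a
group with `(ρ g - 1) * (ρ g - 1) = 0` for all `g`.  Then with `a = ρ g - 1`, `b = ρ h - 1`,
`c = ρ k - 1`:

* `a * b * a = 0`,
* `a * b + b * a = 0`,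
* `a * b * c = 0`.

Module form: if `M` is a nontrivial module without `2`-torsion and `ρ : Γ →* Module.End R M`
satisfies `(ρ g - 1) * (ρ g - 1) = 0` for all `g`, there is `v ≠ 0` fixed by all `ρ g`.
-/
import Mathlib

set_option autoImplicit false

namespace Fermat.Agent.Lib.SqZeroFixed

section Ring

variable {Γ A : Type*} [Group Γ] [Ring A] (ρ : Γ →* A)

/-- `ρ g⁻¹ = 1 - (ρ g - 1)` when `(ρ g - 1) ^ 2 = 0`. -/
theorem map_inv_eq (hsq : ∀ g : Γ, (ρ g - 1) * (ρ g - 1) = 0) (g : Γ) :
    ρ g⁻¹ = 1 - (ρ g - 1) := by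
  have h1 : ρ g⁻¹ * ρ g = 1 := by rw [← map_mul, inv_mul_cancel, map_one]
  have h2 : (ρ g - 1) * (ρ g - 1) = 0 := hsq g
  have h3 : ρ g * ρ g = 2 * ρ g - 1 := by
    have : (ρ g - 1) * (ρ g - 1) = ρ g * ρ g - 2 * ρ g + 1 := by noncomm_ring
    rw [this] at h2
    have h4 : ρ g * ρ g = ρ g * ρ g - 2 * ρ g + 1 + (2 * ρ g - 1) := by abel
    rw [h4, h2, zero_add]
  calc ρ g⁻¹ = ρ g⁻¹ * (2 * ρ g - ρ g * ρ g) := by rw [h3]; simp [sub_sub_cancel]
    _ = 2 * (ρ g⁻¹ * ρ g) - (ρ g⁻¹ * ρ g) * ρ g := by noncomm_ring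
    _ = 1 - (ρ g - 1) := by rw [h1]; noncomm_ring

variable (h2 : ∀ x : A, x + x = 0 → x = 0)
include h2

/-- `a b a = 0`. -/
theorem mul_mul_self_eq_zero (hsq : ∀ g : Γ, (ρ g - 1) * (ρ g - 1) = 0) (g h : Γ) :
    (ρ g - 1) * (ρ h - 1) * (ρ g - 1) = 0 := by
  set a := ρ g - 1 with ha
  set b := ρ h - 1 with hb
  have haa : a * a = 0 := hsq g
  have hbb : b * b = 0 := hsq h
  have hg : ρ g = 1 + a := by rw [ha]; abel
  have hh : ρ h = 1 + b := by rw [hb]; abel
  have hginv : ρ g⁻¹ = 1 - a := map_inv_eq ρ hsq g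
  -- (gh - 1)^2 = 0
  have e1 : (a + b + a * b) * (a + b + a * b) = 0 := by
    have := hsq (g * h)
    rw [map_mul, hg, hh] at this
    have h' : (1 + a) * (1 + b) - 1 = a + b + a * b := by noncomm_ring
    rwa [h'] at this
  -- (g⁻¹h - 1)^2 = 0
  have e2 : (b - a - a * b) * (b - a - a * b) = 0 := by
    have := hsq (g⁻¹ * h)
    rw [map_mul, hginv, hh] at this
    have h' : (1 - a) * (1 + b) - 1 = b - a - a * b := by noncomm_ring
    rwa [h'] at this
  have x1 : (a + b + a * b) * (a + b + a * b)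
      = a * a + a * b + a * a * b + b * a + b * b + b * a * b + a * b * a + a * (b * b)
        + a * b * a * b := by noncomm_ring
  have x2 : (b - a - a * b) * (b - a - a * b)
      = b * b - b * a - b * a * b - a * b + a * a + a * a * b - a * (b * b) + a * b * a
        + a * b * a * b := by noncomm_ring
  rw [x1, haa, hbb] at e1
  rw [x2, haa, hbb] at e2
  simp only [zero_mul, mul_zero, zero_add, add_zero, sub_zero, zero_sub] at e1 e2
  -- e1 : a*b + b*a + b*a*b + a*b*a + a*b*a*b = 0
  -- e2 : -(b*a) - b*a*b - a*b + a*b*a + a*b*a*b = 0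
  have s : (a * b * a + a * b * a * b) + (a * b * a + a * b * a * b) = 0 := by
    have := congrArg₂ (· + ·) e1 e2
    simp only [add_zero] at this
    rw [← this]; abel
  have s' : a * b * a + a * b * a * b = 0 := h2 _ s
  have : a * b * a = (a * b * a + a * b * a * b) * (1 - b) := by
    have : (a * b * a + a * b * a * b) * (1 - b) = a * b * a - a * b * a * (b * b) := by
      noncomm_ring
    rw [this, hbb, mul_zero, sub_zero]
  rw [this, s', zero_mul]

/-- `a b + b a = 0`. -/
theorem mul_add_mul_eq_zero (hsq : ∀ g : Γ, (ρ g - 1) * (ρ g - 1) = 0) (g h : Γ) :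
    (ρ g - 1) * (ρ h - 1) + (ρ h - 1) * (ρ g - 1) = 0 := by
  have haba := mul_mul_self_eq_zero ρ h2 hsq g h
  have hbab := mul_mul_self_eq_zero ρ h2 hsq h g
  set a := ρ g - 1 with ha
  set b := ρ h - 1 with hb
  have haa : a * a = 0 := hsq g
  have hbb : b * b = 0 := hsq h
  have hg : ρ g = 1 + a := by rw [ha]; abel
  have hh : ρ h = 1 + b := by rw [hb]; abel
  have e1 : (a + b + a * b) * (a + b + a * b) = 0 := by
    have := hsq (g * h)
    rw [map_mul, hg, hh] at this
    have h' : (1 + a) * (1 + b) - 1 = a + b + a * b := by noncomm_ring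
    rwa [h'] at this
  have x1 : (a + b + a * b) * (a + b + a * b)
      = a * a + a * b + a * a * b + b * a + b * b + b * a * b + a * b * a + a * (b * b)
        + a * b * a * b := by noncomm_ring
  rw [x1, haa, hbb, haba, hbab] at e1
  simp only [zero_mul, mul_zero, zero_add, add_zero] at e1
  exact e1

/-- `a b c = 0`: the non-unital algebra generated by the `ρ g - 1` has cube zero. -/
theorem mul_mul_eq_zero (hsq : ∀ g : Γ, (ρ g - 1) * (ρ g - 1) = 0) (g h k : Γ) :
    (ρ g - 1) * (ρ h - 1) * (ρ k - 1) = 0 := by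
  have hac := mul_add_mul_eq_zero ρ h2 hsq g k
  have hbc := mul_add_mul_eq_zero ρ h2 hsq h k
  have habc := mul_add_mul_eq_zero ρ h2 hsq (g * h) k
  set a := ρ g - 1 with ha
  set b := ρ h - 1 with hb
  set c := ρ k - 1 with hc
  have hg : ρ g = 1 + a := by rw [ha]; abel
  have hh : ρ h = 1 + b := by rw [hb]; abel
  have hgh : ρ (g * h) - 1 = a + b + a * b := by
    rw [map_mul, hg, hh]; noncomm_ring
  rw [hgh] at habc
  -- (a + b + ab) c + c (a + b + ab) = 0
  have e : a * b * c + c * a * b = 0 := by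
    have : (a + b + a * b) * c + c * (a + b + a * b)
        = (a * c + c * a) + (b * c + c * b) + (a * b * c + c * a * b) := by noncomm_ring
    rw [this, hac, hbc, zero_add, zero_add] at habc
    exact habc
  have hca : c * a = -(a * c) := by
    have : c * a = (a * c + c * a) - a * c := by abel
    rw [this, hac, zero_sub]
  have hcb : c * b = -(b * c) := by
    have : c * b = (b * c + c * b) - b * c := by abel
    rw [this, hbc, zero_sub]
  have : c * a * b = a * b * c := by
    rw [hca, neg_mul, mul_assoc, hcb, mul_neg, neg_neg, mul_assoc]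
  rw [this] at e
  exact h2 _ e

end Ring

section Module

variable {Γ R M : Type*} [Group Γ] [CommRing R] [AddCommGroup M] [Module R M]

/-- **Common fixed vector** for a group of operators with `(g - 1) ^ 2 = 0` on a nontrivial
module without `2`-torsion. -/
theorem exists_fixed_ne_zero [Nontrivial M] (h2 : ∀ x : M, x + x = 0 → x = 0)
    (ρ : Γ →* Module.End R M) (hsq : ∀ g : Γ, (ρ g - 1) * (ρ g - 1) = 0) :
    ∃ v : M, v ≠ 0 ∧ ∀ g : Γ, ρ g v = v := by
  have h2' : ∀ x : Module.End R M, x + x = 0 → x = 0 := by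
    intro x hx
    ext m
    have := congrArg (fun f : Module.End R M => f m) hx
    simp only [LinearMap.add_apply, LinearMap.zero_apply] at this
    simpa using h2 _ this
  have fix_of : ∀ v : M, (∀ g : Γ, (ρ g - 1) v = 0) → ∀ g : Γ, ρ g v = v := by
    intro v hv g
    have := hv g
    rw [LinearMap.sub_apply, Module.End.one_apply, sub_eq_zero] at this
    exact this
  obtain ⟨v, hv⟩ := exists_ne (0 : M)
  by_cases h₁ : ∀ g : Γ, (ρ g - 1) v = 0
  · exact ⟨v, hv, fix_of v h₁⟩
  simp only [not_forall] at h₁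
  obtain ⟨g, hg⟩ := h₁
  by_cases h₂ : ∀ h : Γ, (ρ h - 1) ((ρ g - 1) v) = 0
  · exact ⟨_, hg, fix_of _ h₂⟩
  simp only [not_forall] at h₂
  obtain ⟨h, hh⟩ := h₂
  refine ⟨_, hh, fix_of _ fun k => ?_⟩
  have := mul_mul_eq_zero ρ h2' hsq k h g
  have := congrArg (fun f : Module.End R M => f v) this
  simpa [Module.End.mul_apply] using this

end Module

end Fermat.Agent.Lib.SqZeroFixed
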