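import Mathlib

/-!
# Tame bound for the codifferent in residue characteristic zero

Mathlib only.  Classical content: over a DVR `V` with uniformiser `s` and residue field of
characteristic zero, the different of the integral closure `B` of `V` in a finite extension is
`∏ P ^ (e_P - 1)`; in particular `s · B^∨ ⊆ B` (`B^∨` the trace dual).

* `not_dvd_differentIdeal_of_isCoprime_of_charZero` : Dedekind `B / A`, `I * Q = p B` with `I`, `Q`
  coprime, `I ≠ ⊤`, `A ⧸ p` of characteristic zero ⇒ `¬ I ∣ differentIdeal A B`
  (the idempotent `(1, 0)` of `B / p B = B / I × B / Q` has trace `dim (B / I) ≠ 0`).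
* `map_le_differentIdeal_of_charZero` : if moreover `p` is the only nonzero prime of `A`, then
  `p B ≤ differentIdeal A B`.
* `exists_eq_smul_of_trace_mem` : elementwise, `Tr(x B) ⊆ A → s x ∈ B` for `s ∈ p`.
* `exists_isIntegral_smul_of_trace_mem` : the same over ANY Noetherian domain `A` and prime
  element `s` with `A ⧸ s` of characteristic zero, with no localisation in the statement
  (`TSDField` vocabulary): `Tr_{L/K}(x y) ∈ A_(s)` for all `y` integral over `A` ⇒ `w s x` integral
  over `A` for some `w ∉ (s)`.
* In the local setting of `S30/Model/LocalDisc` (`R = A_x`, `C` the integral closure of `R` in `L`,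
  free over `R` with basis `b`, `s ∈ x`):
  `exists_trace_mul_basis_eq` (`w s ·` dual basis lies in `C`),
  `exists_traceMatrix_mul_eq` (Gram form `G * H = (w s) • 1`),
  `charZero_quotient_local`, and
  `dvd_of_sq_dvd_trace_local` = the tameness conjunct of `S30/Normal/Plan.exists_generator_of_discr`.
-/

set_option autoImplicit false

namespace Fermat.Agent.Lib.TameCodiff

open nonZeroDivisors

attribute [local instance] FractionRing.liftAlgebra FractionRing.isScalarTower_liftAlgebra
  Ideal.Quotient.field

section Dedekind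

variable {A B : Type*} [CommRing A] [CommRing B] [Algebra A B]
  [IsDedekindDomain A] [IsDedekindDomain B] [Module.IsTorsionFree A B] [Module.Finite A B]

/-- An ideal `I ≠ ⊤` of `B` with `I * Q = p B`, `I` coprime to `Q`, does not divide the different
of `B / A` when the residue field `A ⧸ p` has characteristic zero. -/
theorem not_dvd_differentIdeal_of_isCoprime_of_charZero
    [Algebra.IsSeparable (FractionRing A) (FractionRing B)]
    {p : Ideal A} [p.IsMaximal] [CharZero (A ⧸ p)] (I Q : Ideal B) (hI : I ≠ ⊤)
    (hIQ : IsCoprime I Q) (hP : I * Q = Ideal.map (algebraMap A B) p) :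
    ¬ I ∣ differentIdeal A B := by
  let _i1 : Algebra (A ⧸ p) (B ⧸ I) := Ideal.Quotient.algebraQuotientOfLEComap (by
      rw [← Ideal.map_le_iff_le_comap, ← hP]
      exact Ideal.mul_le_left)
  let _i2 : Algebra (A ⧸ p) (B ⧸ Q) := Ideal.Quotient.algebraQuotientOfLEComap (by
      rw [← Ideal.map_le_iff_le_comap, ← hP]
      exact Ideal.mul_le_right)
  have : IsScalarTower A (A ⧸ p) (B ⧸ I) := .of_algebraMap_eq' rfl
  have : IsScalarTower A (A ⧸ p) (B ⧸ Q) := .of_algebraMap_eq' rfl
  have : Module.Finite (A ⧸ p) (B ⧸ I) :=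
    Module.Finite.of_restrictScalars_finite A (A ⧸ p) (B ⧸ I)
  have : Module.Finite (A ⧸ p) (B ⧸ Q) :=
    Module.Finite.of_restrictScalars_finite A (A ⧸ p) (B ⧸ Q)
  have : Nontrivial (B ⧸ I) := Ideal.Quotient.nontrivial_iff.mpr hI
  let e : (B ⧸ p.map (algebraMap A B)) ≃ₐ[A ⧸ p] ((B ⧸ I) × B ⧸ Q) :=
    { __ := (Ideal.quotEquivOfEq hP.symm).trans (Ideal.quotientMulEquivQuotientProd I Q hIQ),
      commutes' := Quotient.ind fun _ ↦ rfl }
  obtain ⟨y, hy⟩ := Ideal.Quotient.mk_surjective (e.symm (1, 0))
  refine not_dvd_differentIdeal_of_intTrace_not_mem A I Q hP y ?_ ?_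
  · have := congr((e $hy).2)
    simp at this
    simpa [e, Ideal.Quotient.eq_zero_iff_mem] using this
  · rw [← Ideal.Quotient.eq_zero_iff_mem, ← Algebra.trace_quotient_eq_of_isDedekindDomain,
      hy, Algebra.trace_eq_of_algEquiv, Algebra.trace_prod_apply]
    have h1 : Algebra.trace (A ⧸ p) (B ⧸ I) 1 = (Module.finrank (A ⧸ p) (B ⧸ I) : A ⧸ p) := by
      have := Algebra.trace_algebraMap (R := A ⧸ p) (S := B ⧸ I) (1 : A ⧸ p)
      simpa using this
    simp only [map_zero, add_zero]
    rw [h1]
    have hpos : 0 < Module.finrank (A ⧸ p) (B ⧸ I) := Module.finrank_pos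
    exact_mod_cast hpos.ne'

/-- **Tame bound for the different.**  `A` Dedekind with a unique nonzero prime `p` (e.g. a DVR)
of residue characteristic zero: the different of `B / A` divides `p B`. -/
theorem map_le_differentIdeal_of_charZero
    [Algebra.IsSeparable (FractionRing A) (FractionRing B)]
    {p : Ideal A} [p.IsMaximal] [CharZero (A ⧸ p)]
    (hloc : ∀ q : Ideal A, q.IsPrime → q ≠ ⊥ → q = p) :
    Ideal.map (algebraMap A B) p ≤ differentIdeal A B := by
  classical
  set J : Ideal B := Ideal.map (algebraMap A B) p with hJ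
  set D : Ideal B := differentIdeal A B with hD
  have hD0 : D ≠ ⊥ := differentIdeal_ne_bot
  by_cases hJ0 : J = ⊥
  · rw [hJ0]; exact bot_le
  -- gcd decomposition
  set S : Ideal B := D ⊔ J with hS
  have hS0 : S ≠ ⊥ := fun h => hD0 (le_bot_iff.mp (h ▸ le_sup_left))
  obtain ⟨D', hD'⟩ : S ∣ D := Ideal.dvd_iff_le.mpr le_sup_left
  obtain ⟨J', hJ'⟩ : S ∣ J := Ideal.dvd_iff_le.mpr le_sup_right
  have hcop : D' ⊔ J' = ⊤ := by
    have h1 : S * (D' ⊔ J') = S * ⊤ := by
      rw [Ideal.mul_sup, ← hD', ← hJ', Ideal.mul_top]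
    exact mul_left_cancel₀ hS0 h1
  by_cases hD't : D' = ⊤
  · have : D = S := by rw [hD', hD't, Ideal.mul_top]
    rw [this]; exact le_sup_right
  exfalso
  obtain ⟨P, hPmax, hPle⟩ := Ideal.exists_le_maximal D' hD't
  have hPprime : P.IsPrime := hPmax.isPrime
  have hP0 : P ≠ ⊥ := by
    rintro rfl
    have : D' = ⊥ := le_bot_iff.mp hPle
    rw [this, Ideal.mul_bot] at hD'
    exact hD0 hD'
  have hPJ' : ¬ P ∣ J' := by
    intro h
    have h1 : D' ⊔ J' ≤ P := sup_le hPle (Ideal.dvd_iff_le.mp h)
    rw [hcop] at h1
    exact hPmax.ne_top (top_le_iff.mp h1)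
  have hPp : Prime P := Ideal.prime_of_isPrime hP0 hPprime
  -- `P` lies over `p`
  have hPover : J ≤ P := by
    have hq : P.comap (algebraMap A B) = p := by
      refine hloc _ (Ideal.comap_isPrime _ _) ?_
      intro h
      have : Algebra.IsIntegral A B := Algebra.IsIntegral.of_finite A B
      exact hP0 (Ideal.eq_bot_of_comap_eq_bot h)
    rw [hJ, Ideal.map_le_iff_le_comap, hq]
  obtain ⟨e, Q, hQ, hJQ⟩ := WfDvdMonoid.max_power_factor hJ0 hPp.irreducible
  have he : e ≠ 0 := by
    rintro rfl
    rw [pow_zero, one_mul] at hJQ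
    exact hQ (hJQ ▸ Ideal.dvd_iff_le.mpr hPover)
  have hcopPQ : IsCoprime (P ^ e) Q := by
    apply IsCoprime.pow_left
    rw [Ideal.isCoprime_iff_sup_eq]
    by_contra hne
    have h1 : P = P ⊔ Q := hPmax.eq_of_le hne le_sup_left
    exact hQ (Ideal.dvd_iff_le.mpr (h1 ▸ le_sup_right))
  have hPe : P ^ e ≠ ⊤ := by
    intro h
    have h1 : P ^ e ≤ P := Ideal.pow_le_self he
    rw [h] at h1
    exact hPmax.ne_top (top_le_iff.mp h1)
  have hnot := not_dvd_differentIdeal_of_isCoprime_of_charZero (p := p) (P ^ e) Q hPe hcopPQ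
    hJQ.symm
  apply hnot
  have h2 : P ^ e ∣ S * J' := by rw [← hJ', hJQ]; exact Dvd.intro _ rfl
  have h3 : P ^ e ∣ S := hPp.pow_dvd_of_dvd_mul_right e hPJ' h2
  exact h3.trans (Dvd.intro _ hD'.symm)

end Dedekind

section AKLB

variable {A K L B : Type*} [CommRing A] [Field K] [CommRing B] [Field L]
  [Algebra A K] [Algebra B L] [Algebra A B] [Algebra K L] [Algebra A L]
  [IsScalarTower A K L] [IsScalarTower A B L]
  [IsDedekindDomain A] [IsFractionRing A K] [IsIntegralClosure B A L] [FiniteDimensional K L]
  [IsDedekindDomain B] [Module.IsTorsionFree A B] [IsFractionRing B L]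

/-- **Tame bound for the codifferent, elementwise.**  `A` Dedekind with a unique nonzero prime
`p` of residue characteristic zero, `B` the integral closure of `A` in `L`.  If `Tr(x y) ∈ A`
for all `y ∈ B`, then `s x ∈ B` for every `s ∈ p`. -/
theorem exists_eq_smul_of_trace_mem (p : Ideal A) [p.IsMaximal] [CharZero (A ⧸ p)]
    (hloc : ∀ q : Ideal A, q.IsPrime → q ≠ ⊥ → q = p)
    (x : L)
    (hx : ∀ y : B, ∃ a : A, Algebra.trace K L (x * algebraMap B L y) = algebraMap A K a)
    (s : A) (hs : s ∈ p) : ∃ z : B, algebraMap B L z = algebraMap A L s * x := by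
  have hcA : CharZero A := by
    refine ⟨fun m n h => ?_⟩
    have h1 : ((m : A ⧸ p)) = (n : A ⧸ p) := by
      have := congrArg (Ideal.Quotient.mk p) h
      simpa using this
    exact_mod_cast h1
  have hcK : CharZero K := charZero_of_injective_algebraMap (IsFractionRing.injective A K)
  have hsepKL : Algebra.IsSeparable K L := Algebra.IsAlgebraic.isSeparable_of_perfectField
  have hfin : Module.Finite A B := IsIntegralClosure.finite A K L B
  have hsep : Algebra.IsSeparable (FractionRing A) (FractionRing B) := by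
    have hcF : CharZero (FractionRing A) :=
      charZero_of_injective_algebraMap (IsFractionRing.injective A (FractionRing A))
    have : Module.Finite (FractionRing A) (FractionRing B) :=
      Module.Finite.of_isLocalization A B A⁰
    exact Algebra.IsAlgebraic.isSeparable_of_perfectField
  have hle := map_le_differentIdeal_of_charZero (A := A) (B := B) (p := p) hloc
  have hsD : algebraMap A B s ∈ differentIdeal A B := hle (Ideal.mem_map_of_mem _ hs)
  have hξdual : x ∈ Submodule.traceDual A K (1 : Submodule B L) := by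
    rw [Submodule.mem_traceDual]
    intro a ha
    obtain ⟨y, rfl⟩ := Submodule.mem_one.mp ha
    obtain ⟨w, hw⟩ := hx y
    exact ⟨w, by rw [Algebra.traceForm_apply, hw]⟩
  have h1 : algebraMap B L (algebraMap A B s) ∈
      IsLocalization.coeSubmodule L (differentIdeal A B) :=
    (IsLocalization.mem_coeSubmodule L _).mpr ⟨_, hsD, rfl⟩
  rw [coeSubmodule_differentIdeal A K, Submodule.mem_div_iff_forall_mul_mem] at h1
  obtain ⟨b, hb⟩ := Submodule.mem_one.mp (h1 x hξdual)
  exact ⟨b, by rw [hb, ← IsScalarTower.algebraMap_apply A B L]⟩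

end AKLB

section Global

open IsLocalRing

variable {A K L : Type*} [CommRing A] [IsDomain A] [IsNoetherianRing A]
  [Field K] [Algebra A K] [IsFractionRing A K] [Field L] [Algebra K L] [FiniteDimensional K L]
  [Algebra A L] [IsScalarTower A K L]

/-- **Tame bound for the codifferent at a principal prime of residue characteristic zero**,
elementwise over a Noetherian domain `A` (no localisation types, no Dedekind hypotheses in the
statement).  `s` a prime element of `A` such that `A ⧸ s` has characteristic zero.  If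
`Tr_{L/K}(x y) ∈ A_(s)` for every `y` integral over `A`, then `s x` is integral over `A_(s)`,
i.e. `w s x` is integral over `A` for some `w ∉ (s)`. -/
theorem exists_isIntegral_smul_of_trace_mem
    (s : A) (hs : Prime s) (hchar : ∀ n : ℕ, n ≠ 0 → ¬ s ∣ (n : A))
    (x : L)
    (hx : ∀ y : L, IsIntegral A y → ∃ a t : A, ¬ s ∣ t ∧
      Algebra.trace K L (x * y) * algebraMap A K t = algebraMap A K a) :
    ∃ w : A, ¬ s ∣ w ∧ IsIntegral A (algebraMap A L (w * s) * x) := by
  classical
  obtain ⟨P, hP⟩ : ∃ P : Ideal A, P = Ideal.span {s} := ⟨_, rfl⟩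
  have hPprime : P.IsPrime := hP ▸ (Ideal.span_singleton_prime hs.ne_zero).mpr hs
  have hmemP : ∀ a : A, a ∈ P ↔ s ∣ a := fun a => hP ▸ Ideal.mem_span_singleton
  let A' := Localization.AtPrime P
  have hle : P.primeCompl ≤ nonZeroDivisors A := P.primeCompl_le_nonZeroDivisors
  let iA'K : Algebra A' K :=
    (IsLocalization.lift (M := P.primeCompl) (g := algebraMap A K) (fun y =>
      IsUnit.mk0 _ ((map_ne_zero_iff _ (IsFractionRing.injective A K)).mpr
        (nonZeroDivisors.ne_zero (hle y.2))))).toAlgebra
  have hT1 : IsScalarTower A A' K := IsScalarTower.of_algebraMap_eq (fun a => by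
    rw [RingHom.algebraMap_toAlgebra, IsLocalization.lift_eq])
  let iA'L : Algebra A' L := ((algebraMap K L).comp (algebraMap A' K)).toAlgebra
  have hT2 : IsScalarTower A' K L := IsScalarTower.of_algebraMap_eq (fun a => rfl)
  have hT3 : IsScalarTower A A' L := IsScalarTower.of_algebraMap_eq (fun a => by
    rw [IsScalarTower.algebraMap_apply A' K L, ← IsScalarTower.algebraMap_apply A A' K,
      ← IsScalarTower.algebraMap_apply A K L])
  have hFrac : IsFractionRing A' K :=
    IsFractionRing.isFractionRing_of_isDomain_of_isLocalization P.primeCompl A' K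
  have hNoeth : IsNoetherianRing A' := IsLocalization.isNoetherianRing P.primeCompl A' inferInstance
  -- `A'` is a DVR
  have hmax : maximalIdeal A' = Ideal.span {algebraMap A A' s} := by
    rw [← Localization.AtPrime.map_eq_maximalIdeal]
    have h1 : Ideal.map (algebraMap A A') P = Ideal.map (algebraMap A A') (Ideal.span {s}) :=
      congrArg (Ideal.map (algebraMap A A')) hP
    rw [h1, Ideal.map_span, Set.image_singleton]
  have hprinc : (maximalIdeal A').IsPrincipal := ⟨⟨_, hmax⟩⟩
  have hDed : IsDedekindDomain A' :=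
    ((tfae_of_isNoetherianRing_of_isLocalRing_of_isDomain A').out 4 2).mp hprinc
  have hsA'0 : algebraMap A A' s ≠ 0 :=
    (map_ne_zero_iff _ (IsLocalization.injective A' hle)).mpr hs.ne_zero
  have hloc : ∀ q : Ideal A', q.IsPrime → q ≠ ⊥ → q = maximalIdeal A' := fun q hq hq0 =>
    eq_maximalIdeal (hq.isMaximal hq0)
  have hcz : CharZero (A' ⧸ maximalIdeal A') := by
    apply charZero_of_inj_zero
    intro n hn
    by_contra hn0
    have h1 : ((n : A') : A' ⧸ maximalIdeal A') = 0 := by simpa using hn
    rw [Ideal.Quotient.eq_zero_iff_mem] at h1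
    have h2 : algebraMap A A' (n : A) ∈ maximalIdeal A' := by simpa using h1
    rw [IsLocalization.AtPrime.to_map_mem_maximal_iff A' P] at h2
    exact hchar n hn0 ((hmemP _).mp h2)
  have hcA' : CharZero A' := by
    apply charZero_of_inj_zero
    intro n hn
    by_contra hn0
    have h2 : algebraMap A A' (n : A) ∈ maximalIdeal A' := by
      rw [map_natCast, hn]; exact zero_mem _
    rw [IsLocalization.AtPrime.to_map_mem_maximal_iff A' P] at h2
    exact hchar n hn0 ((hmemP _).mp h2)
  have hcK : CharZero K := charZero_of_injective_algebraMap (IsFractionRing.injective A' K)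
  have hsepKL : Algebra.IsSeparable K L := Algebra.IsAlgebraic.isSeparable_of_perfectField
  -- the integral closure of `A'` in `L`
  let B' := integralClosure A' L
  have hDedB : IsDedekindDomain B' := IsIntegralClosure.isDedekindDomain A' K L B'
  have hFracB : IsFractionRing B' L := IsIntegralClosure.isFractionRing_of_finite_extension A' K L B'
  have hinjA'L : Function.Injective (algebraMap A' L) := by
    rw [IsScalarTower.algebraMap_eq A' K L]
    exact (algebraMap K L).injective.comp (IsFractionRing.injective A' K)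
  have hinjA'B : Function.Injective (algebraMap A' B') := by
    have h : Function.Injective (algebraMap A' L) := hinjA'L
    rw [IsScalarTower.algebraMap_eq A' B' L, RingHom.coe_comp] at h
    exact Function.Injective.of_comp h
  have hTF : Module.IsTorsionFree A' B' :=
    Module.isTorsionFree_iff_algebraMap_injective.mpr hinjA'B
  -- the trace hypothesis over `A'`
  have hx' : ∀ y : B', ∃ a : A',
      Algebra.trace K L (x * algebraMap B' L y) = algebraMap A' K a := by
    intro y
    have hy : IsIntegral A' (algebraMap B' L y) := y.2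
    obtain ⟨⟨t, ht⟩, hty⟩ :=
      IsIntegral.exists_multiple_integral_of_isLocalization P.primeCompl (algebraMap B' L y) hy
    have hty' : IsIntegral A (algebraMap A L t * algebraMap B' L y) := by
      have e : (⟨t, ht⟩ : P.primeCompl) • algebraMap B' L y
          = algebraMap A L t * algebraMap B' L y := by
        rw [Submonoid.smul_def, Algebra.smul_def]
      rwa [e] at hty
    obtain ⟨a, t', ht', hat'⟩ := hx _ hty'
    have htt' : t * t' ∈ P.primeCompl := by
      intro h
      rcases hPprime.mem_or_mem h with h | h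
      · exact ht h
      · exact ht' ((hmemP _).mp h)
    refine ⟨IsLocalization.mk' A' a ⟨t * t', htt'⟩, ?_⟩
    have h1 : Algebra.trace K L (x * (algebraMap A L t * algebraMap B' L y))
        = algebraMap A K t * Algebra.trace K L (x * algebraMap B' L y) := by
      rw [IsScalarTower.algebraMap_apply A K L, mul_left_comm, ← Algebra.smul_def, map_smul,
        smul_eq_mul]
    rw [h1] at hat'
    have htK : algebraMap A K (t * t') ≠ 0 :=
      (map_ne_zero_iff _ (IsFractionRing.injective A K)).mpr
        (nonZeroDivisors.ne_zero (hle htt'))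
    have h2 : algebraMap A' K (IsLocalization.mk' A' a ⟨t * t', htt'⟩) * algebraMap A K (t * t')
        = algebraMap A K a := by
      rw [IsScalarTower.algebraMap_apply A A' K (t * t'), ← map_mul,
        IsLocalization.mk'_spec, ← IsScalarTower.algebraMap_apply]
    apply mul_right_cancel₀ htK
    rw [h2, ← hat', (algebraMap A K).map_mul]
    ring
  have hsmax : algebraMap A A' s ∈ maximalIdeal A' := by
    rw [hmax]; exact Ideal.subset_span (Set.mem_singleton _)
  obtain ⟨z, hz⟩ := exists_eq_smul_of_trace_mem (A := A') (K := K) (L := L) (B := B')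
    (maximalIdeal A') hloc x hx' (algebraMap A A' s) hsmax
  have hzint : IsIntegral A' (algebraMap A' L (algebraMap A A' s) * x) := hz ▸ z.2
  obtain ⟨⟨w, hw⟩, hwz⟩ :=
    IsIntegral.exists_multiple_integral_of_isLocalization P.primeCompl _ hzint
  refine ⟨w, fun h => hw ((hmemP _).mpr h), ?_⟩
  have e : (⟨w, hw⟩ : P.primeCompl) • (algebraMap A' L (algebraMap A A' s) * x)
      = algebraMap A L (w * s) * x := by
    rw [Submonoid.smul_def, Algebra.smul_def, ← IsScalarTower.algebraMap_apply A A' L, map_mul,
      mul_assoc]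
  rwa [e] at hwz

end Global

section Gram

variable {A R : Type*} (K L : Type*) {C : Type*} [CommRing A] [IsDomain A] [IsNoetherianRing A]
  [CommRing R] [IsDomain R] [Algebra A R]
  [Field K] [Field L] [Algebra A K] [IsFractionRing A K] [Algebra R K] [IsFractionRing R K]
  [IsScalarTower A R K] [Algebra K L] [FiniteDimensional K L] [Algebra A L] [IsScalarTower A K L]
  [Algebra R L] [IsScalarTower R K L] [IsScalarTower A R L]
  [CommRing C] [Algebra R C] [Algebra C L] [IsScalarTower R C L] [IsIntegralClosure C R L]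
  [Module.Free R C] [Module.Finite R C]
variable {ι : Type*} [Fintype ι] [DecidableEq ι]

include K L in
/-- **`s · C^∨ ⊆ C` in the local setting of `LocalDisc`** (`R = A_x`, `C` the integral closure of
`R` in `L`, free over `R` with basis `b`): for a prime element `s ∈ x` of residue characteristic
zero there are `w ∉ (s)` and elements `c j ∈ C` with `Tr_{C/R}(c j · b k) = w s · δ_{jk}`,
i.e. `w s` times the trace-dual basis lies in `C`. -/
theorem exists_trace_mul_basis_eq (x : Ideal A) [x.IsPrime] [IsLocalization.AtPrime R x]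
    (s : A) (hs : Prime s) (hsx : s ∈ x) (hchar : ∀ n : ℕ, n ≠ 0 → ¬ s ∣ (n : A))
    (b : Module.Basis ι R C) :
    ∃ (w : A) (c : ι → C), ¬ s ∣ w ∧ ∀ j k,
      Algebra.trace R C (c j * b k) = if k = j then algebraMap A R (w * s) else 0 := by
  classical
  have hcA : CharZero A := by
    apply charZero_of_inj_zero
    intro n hn
    by_contra hn0
    exact hchar n hn0 (hn ▸ dvd_zero s)
  have hcK : CharZero K := charZero_of_injective_algebraMap (IsFractionRing.injective A K)
  have hsep : Algebra.IsSeparable K L := Algebra.IsAlgebraic.isSeparable_of_perfectField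
  have hloc : IsLocalization (Algebra.algebraMapSubmonoid C (nonZeroDivisors R)) L :=
    IsIntegralClosure.isLocalization R K L C
  let bL : Module.Basis ι K L := b.localizationLocalization K (nonZeroDivisors R) L
  have hbL : ∀ i, bL i = algebraMap C L (b i) := fun i =>
    Module.Basis.localizationLocalization_apply K (nonZeroDivisors R) L b i
  have hB := traceForm_nondegenerate K L
  let d : Module.Basis ι K L := (Algebra.traceForm K L).dualBasis hB bL
  have hd : ∀ j k, Algebra.trace K L (d j * bL k) = if k = j then 1 else 0 := fun j k => by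
    have := LinearMap.BilinForm.apply_dualBasis_left hB bL j k
    rwa [Algebra.traceForm_apply] at this
  have hcoord : ∀ j (y : L), Algebra.trace K L (d j * y) = bL.repr y j := by
    intro j y
    have h1 : (Algebra.traceForm K L) (d j) = bL.coord j := by
      apply bL.ext
      intro k
      rw [Algebra.traceForm_apply, hd, Module.Basis.coord_apply, Module.Basis.repr_self,
        Finsupp.single_apply]
    have h2 := congrArg (fun f => f y) h1
    simpa [Algebra.traceForm_apply] using h2
  have key : ∀ j, ∃ w : A, ¬ s ∣ w ∧ IsIntegral A (algebraMap A L (w * s) * d j) := by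
    intro j
    apply exists_isIntegral_smul_of_trace_mem (K := K) s hs hchar
    intro y hy
    have hyR : IsIntegral R y := hy.tower_top
    obtain ⟨c, rfl⟩ := (IsIntegralClosure.isIntegral_iff (A := C)).mp hyR
    obtain ⟨⟨a, t⟩, hat⟩ := IsLocalization.surj x.primeCompl (b.repr c j)
    refine ⟨a, t, fun h => t.2 (x.mem_of_dvd h hsx), ?_⟩
    rw [hcoord, Module.Basis.localizationLocalization_repr_algebraMap,
      IsScalarTower.algebraMap_apply A R K, ← map_mul, hat, ← IsScalarTower.algebraMap_apply]
  choose w0 hw0 hw0int using key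
  set w : A := ∏ j, w0 j with hw
  have hsw : ¬ s ∣ w := by
    rw [hw, hs.dvd_finsetProd_iff]
    rintro ⟨j, -, hj⟩
    exact hw0 j hj
  have hint : ∀ j, IsIntegral A (algebraMap A L (w * s) * d j) := by
    intro j
    have h1 : w = (∏ i ∈ Finset.univ.erase j, w0 i) * w0 j := by
      rw [hw, Finset.prod_erase_mul _ _ (Finset.mem_univ j)]
    have h2 : algebraMap A L (w * s) * d j
        = algebraMap A L (∏ i ∈ Finset.univ.erase j, w0 i) * (algebraMap A L (w0 j * s) * d j) := by
      rw [h1, ← mul_assoc, ← map_mul, mul_assoc]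
    rw [h2]
    exact isIntegral_algebraMap.mul (hw0int j)
  have hc : ∀ j, ∃ c : C, algebraMap C L c = algebraMap A L (w * s) * d j := fun j =>
    (IsIntegralClosure.isIntegral_iff (A := C)).mp ((hint j).tower_top (A := R))
  choose c hc using hc
  refine ⟨w, c, hsw, fun j k => ?_⟩
  apply IsFractionRing.injective R K
  rw [← Algebra.trace_localization R (nonZeroDivisors R) (Rₘ := K) (Sₘ := L), map_mul, hc,
    ← hbL, IsScalarTower.algebraMap_apply A K L, mul_assoc, ← Algebra.smul_def, map_smul, hd,
    smul_eq_mul]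
  by_cases h : k = j
  · rw [if_pos h, if_pos h, mul_one, ← IsScalarTower.algebraMap_apply]
  · rw [if_neg h, if_neg h, mul_zero, map_zero]

include K L in
/-- **Gram form of the tame bound**: `G · H = (w s) • 1` with `H` integral. -/
theorem exists_traceMatrix_mul_eq (x : Ideal A) [x.IsPrime] [IsLocalization.AtPrime R x]
    (s : A) (hs : Prime s) (hsx : s ∈ x) (hchar : ∀ n : ℕ, n ≠ 0 → ¬ s ∣ (n : A))
    (b : Module.Basis ι R C) :
    ∃ (H : Matrix ι ι R) (w : A), ¬ s ∣ w ∧
      Algebra.traceMatrix R b * H = algebraMap A R (w * s) • (1 : Matrix ι ι R) := by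
  classical
  obtain ⟨w, c, hsw, hc⟩ := exists_trace_mul_basis_eq K L x s hs hsx hchar b
  refine ⟨Matrix.of fun i j => b.repr (c j) i, w, hsw, ?_⟩
  ext k j
  rw [Matrix.mul_apply, Matrix.smul_apply, Matrix.one_apply, smul_eq_mul, mul_ite, mul_one,
    mul_zero]
  have h1 : ∑ i, Algebra.traceMatrix R b k i * (Matrix.of fun i j => b.repr (c j) i) i j
      = Algebra.trace R C (c j * b k) := by
    conv_rhs => rw [← b.sum_repr (c j), Finset.sum_mul, map_sum]
    refine Finset.sum_congr rfl fun i _ => ?_
    rw [Algebra.traceMatrix_apply, Algebra.traceForm_apply, Matrix.of_apply, smul_mul_assoc,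
      map_smul, smul_eq_mul, mul_comm (b i) (b k), mul_comm]
  rw [h1, hc]

omit [IsNoetherianRing A] [IsDomain R] [Module.Free R C] [Module.Finite R C] [Fintype ι]
  [DecidableEq ι] in
/-- Divisibility by a prime element `s ∈ x` descends from `R = A_x` to `A`, up to a unit. -/
theorem exists_eq_mul_of_dvd_local (x : Ideal A) [x.IsPrime] [IsLocalization.AtPrime R x]
    (s : A) (hs : Prime s) (hsx : s ∈ x) (w : A) (hw : ¬ s ∣ w) (r c : R)
    (h : algebraMap A R w * r = algebraMap A R s * c) : ∃ q : R, r = algebraMap A R s * q := by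
  have hinj : Function.Injective (algebraMap A R) :=
    IsLocalization.injective R x.primeCompl_le_nonZeroDivisors
  obtain ⟨⟨a, u⟩, hau⟩ := IsLocalization.surj x.primeCompl r
  obtain ⟨⟨e, v⟩, hev⟩ := IsLocalization.surj x.primeCompl c
  simp only at hau hev
  have h1 : s * e * (u : A) = w * a * (v : A) := by
    apply hinj
    simp only [map_mul]
    rw [← hau, ← hev]
    linear_combination (-(algebraMap A R (u : A)) * algebraMap A R (v : A)) * h
  have h2 : s ∣ w * a * (v : A) := ⟨e * (u : A), by rw [← h1]; ring⟩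
  have h3 : s ∣ a := by
    rcases hs.dvd_or_dvd h2 with h | h
    · rcases hs.dvd_or_dvd h with h | h
      · exact absurd h hw
      · exact h
    · exact absurd (x.mem_of_dvd h hsx) v.2
  obtain ⟨a', rfl⟩ := h3
  obtain ⟨uinv, hu⟩ := (IsLocalization.map_units R u).exists_left_inv
  refine ⟨algebraMap A R a' * uinv, ?_⟩
  have h4 : r = r * algebraMap A R (u : A) * uinv := by
    rw [mul_assoc, mul_comm (algebraMap A R (u : A)), hu, mul_one]
  rw [h4, hau, map_mul]
  ring

omit [IsNoetherianRing A] [IsDomain R] [Module.Free R C] [Module.Finite R C] [Fintype ι]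
  [DecidableEq ι] in
/-- `R ⧸ (s)` has characteristic zero when `A ⧸ (s)` has (`R = A_x`, `s ∈ x` prime). -/
theorem charZero_quotient_local (x : Ideal A) [x.IsPrime] [IsLocalization.AtPrime R x]
    (s : A) (hs : Prime s) (hsx : s ∈ x) (hchar : ∀ n : ℕ, n ≠ 0 → ¬ s ∣ (n : A)) :
    CharZero (R ⧸ Ideal.span {algebraMap A R s}) := by
  apply charZero_of_inj_zero
  intro n hn
  by_contra hn0
  have h1 : ((n : R) : R ⧸ Ideal.span {algebraMap A R s}) = 0 := by simpa using hn
  rw [Ideal.Quotient.eq_zero_iff_mem, Ideal.mem_span_singleton] at h1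
  obtain ⟨c, hc⟩ := h1
  have h2 : algebraMap A R 1 * (n : R) = algebraMap A R s * c := by rw [map_one, one_mul, hc]
  have hs1 : ¬ s ∣ (1 : A) := fun h => hs.not_isUnit (isUnit_of_dvd_one h)
  obtain ⟨q, hq⟩ := exists_eq_mul_of_dvd_local x s hs hsx 1 hs1 (n : R) c h2
  -- `s ∣ n` in `R` gives `s ∣ n` in `A`
  have hinj : Function.Injective (algebraMap A R) :=
    IsLocalization.injective R x.primeCompl_le_nonZeroDivisors
  obtain ⟨⟨e, v⟩, hev⟩ := IsLocalization.surj x.primeCompl q
  simp only at hev
  have h3 : (n : A) * (v : A) = s * e := by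
    apply hinj
    rw [map_mul, map_mul, ← hev, map_natCast, hq]
    ring
  have h4 : s ∣ (n : A) * (v : A) := ⟨e, h3⟩
  rcases hs.dvd_or_dvd h4 with h | h
  · exact hchar n hn0 h
  · exact v.2 (x.mem_of_dvd h hsx)

omit [DecidableEq ι] in
include K L in
/-- **The tameness conjunct of `S30/Normal/Plan.exists_generator_of_discr`, in the local setting of
`LocalDisc`** (`R = A_x`, `C` the integral closure of `R` in `L`, free with basis `b`; `s ∈ x` a
prime element of residue characteristic zero, `t := s` in `R`): if `t ^ 2 ∣ Tr_{C/R}(y z)` for all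
`z : C`, then `t ∣ y` in `C`. -/
theorem dvd_of_sq_dvd_trace_local (x : Ideal A) [x.IsPrime] [IsLocalization.AtPrime R x]
    (s : A) (hs : Prime s) (hsx : s ∈ x) (hchar : ∀ n : ℕ, n ≠ 0 → ¬ s ∣ (n : A))
    (b : Module.Basis ι R C) (y : C)
    (hy : ∀ z : C, algebraMap A R s ^ 2 ∣ Algebra.trace R C (y * z)) :
    algebraMap R C (algebraMap A R s) ∣ y := by
  classical
  have hloc : IsLocalization (Algebra.algebraMapSubmonoid C (nonZeroDivisors R)) L :=
    IsIntegralClosure.isLocalization R K L C
  have hinjAK : Function.Injective (algebraMap A K) := IsFractionRing.injective A K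
  have hsK : algebraMap A K s ≠ 0 := (map_ne_zero_iff _ hinjAK).mpr hs.ne_zero
  have hsL : algebraMap A L s ≠ 0 := by
    rw [IsScalarTower.algebraMap_apply A K L]
    exact (map_ne_zero_iff _ (algebraMap K L).injective).mpr hsK
  set ξ : L := algebraMap C L y / algebraMap A L s ^ 2 with hξ
  have key : ∃ w : A, ¬ s ∣ w ∧ IsIntegral A (algebraMap A L (w * s) * ξ) := by
    apply exists_isIntegral_smul_of_trace_mem (K := K) s hs hchar
    intro z hz
    have hzR : IsIntegral R z := hz.tower_top
    obtain ⟨z, rfl⟩ := (IsIntegralClosure.isIntegral_iff (A := C)).mp hzR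
    obtain ⟨q, hq⟩ := hy z
    obtain ⟨⟨a, u⟩, hau⟩ := IsLocalization.surj x.primeCompl q
    refine ⟨a, u, fun h => u.2 (x.mem_of_dvd h hsx), ?_⟩
    have h1 : ξ * algebraMap C L z = (algebraMap A K s ^ 2)⁻¹ • algebraMap C L (y * z) := by
      rw [hξ, Algebra.smul_def, map_inv₀, map_pow, ← IsScalarTower.algebraMap_apply A K L, map_mul]
      field_simp
    rw [h1, map_smul, Algebra.trace_localization R (nonZeroDivisors R) (Rₘ := K) (Sₘ := L), hq,
      smul_eq_mul, map_mul, map_pow, ← IsScalarTower.algebraMap_apply A R K, ← mul_assoc,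
      inv_mul_cancel₀ (pow_ne_zero 2 hsK), one_mul, IsScalarTower.algebraMap_apply A R K a,
      ← hau, map_mul, ← IsScalarTower.algebraMap_apply A R K]
  obtain ⟨w, hw, hint⟩ := key
  obtain ⟨c, hc⟩ := (IsIntegralClosure.isIntegral_iff (A := C)).mp (hint.tower_top (A := R))
  -- `w • y = s • c` in `C`
  have hwy : algebraMap R C (algebraMap A R w) * y = algebraMap R C (algebraMap A R s) * c := by
    apply IsIntegralClosure.algebraMap_injective C R L
    rw [map_mul, map_mul, hc, ← IsScalarTower.algebraMap_apply R C L,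
      ← IsScalarTower.algebraMap_apply R C L, ← IsScalarTower.algebraMap_apply A R L,
      ← IsScalarTower.algebraMap_apply A R L, hξ, map_mul]
    field_simp
  -- coordinates
  have hcoord : ∀ i, ∃ q : R, b.repr y i = algebraMap A R s * q := by
    intro i
    have h1 : b.repr (algebraMap R C (algebraMap A R w) * y) i
        = b.repr (algebraMap R C (algebraMap A R s) * c) i := by rw [hwy]
    rw [← Algebra.smul_def (algebraMap A R w) y, ← Algebra.smul_def (algebraMap A R s) c,
      map_smul, map_smul, Finsupp.smul_apply, Finsupp.smul_apply, smul_eq_mul, smul_eq_mul] at h1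
    exact exists_eq_mul_of_dvd_local x s hs hsx w hw _ _ h1
  choose q hq using hcoord
  refine ⟨∑ i, q i • b i, ?_⟩
  conv_lhs => rw [← b.sum_repr y]
  rw [Finset.mul_sum]
  refine Finset.sum_congr rfl fun i _ => ?_
  rw [hq i, mul_smul, Algebra.smul_def (algebraMap A R s) (q i • b i)]

end Gram

end Fermat.Agent.Lib.TameCodiff
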