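import Mathlib

/-!
# Tame trace duals over a discrete valuation ring of residue characteristic zero

`A` a DVR with uniformiser `t` whose residue field has characteristic zero, `K = Frac A`,
`L / K` finite separable, `B` the integral closure of `A` in `L`.

* `tame_dual` : if `z ∈ L` satisfies `Tr_{L/K}(z y) ∈ A` for all `y ∈ B` (i.e. `z` lies in the
  trace dual `B^∨ = 𝔇⁻¹`), then `t z ∈ B` and `t z` is nilpotent modulo `t B`.
  Equivalently `t B^∨ ⊆ rad(t B)`: the different divides `∏ Q^(e_Q - 1)` (tame ramification).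
-/

set_option autoImplicit false
set_option linter.overlappingInstances false
set_option linter.unusedSectionVars false

namespace Fermat.Agent.Lib.TameDual

open Polynomial

/-! ### An endomorphism all of whose positive powers have trace zero is nilpotent (char 0) -/

section Field

variable {F V : Type*} [Field F] [AddCommGroup V] [Module F V] [FiniteDimensional F V]

omit [FiniteDimensional F V] in
theorem trace_aeval_X_mul_eq_zero (f : Module.End F V)
    (h : ∀ k : ℕ, 0 < k → LinearMap.trace F V (f ^ k) = 0) (q : F[X]) :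
    LinearMap.trace F V (aeval f (X * q)) = 0 := by
  induction q using Polynomial.induction_on' with
  | add p q hp hq => rw [mul_add, map_add, map_add, hp, hq, add_zero]
  | monomial n a =>
    rw [X_mul_monomial, aeval_monomial, Algebra.algebraMap_eq_smul_one, smul_mul_assoc, one_mul,
      map_smul, h _ (Nat.succ_pos n), smul_zero]

theorem isNilpotent_of_trace_pow_eq_zero [CharZero F] (f : Module.End F V)
    (h : ∀ k : ℕ, 0 < k → LinearMap.trace F V (f ^ k) = 0) : IsNilpotent f := by
  classical
  have hint : IsIntegral F f := Algebra.IsIntegral.isIntegral f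
  set μ := minpoly F f with hμ
  have hμ0 : μ ≠ 0 := minpoly.ne_zero hint
  obtain ⟨g, hμg, hg⟩ := μ.exists_eq_pow_rootMultiplicity_mul_and_not_dvd hμ0 0
  set a := μ.rootMultiplicity 0 with ha
  rw [C_0, sub_zero] at hμg hg
  have hμf : aeval f μ = 0 := minpoly.aeval F f
  rcases Nat.eq_zero_or_pos a with ha0 | ha0
  · -- `f` is invertible: then `V = 0`
    rw [ha0, pow_zero, one_mul] at hμg
    have hc0 : μ.coeff 0 ≠ 0 := by
      intro hc
      apply hg
      rw [← hμg]
      exact X_dvd_iff.mpr hc
    have h1 : aeval f μ = aeval f (X * μ.divX) + algebraMap F (Module.End F V) (μ.coeff 0) := by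
      conv_lhs => rw [← divX_mul_X_add μ]
      rw [map_add, aeval_C, mul_comm]
    have h2 := congrArg (LinearMap.trace F V) h1
    rw [hμf, map_zero, map_add, trace_aeval_X_mul_eq_zero f h, zero_add,
      Algebra.algebraMap_eq_smul_one, map_smul, LinearMap.trace_one, smul_eq_mul] at h2
    have h3 : (Module.finrank F V : F) = 0 := by
      rcases mul_eq_zero.mp h2.symm with h4 | h4
      · exact absurd h4 hc0
      · exact h4
    have h4 : Module.finrank F V = 0 := by exact_mod_cast h3
    have h5 : Subsingleton V := Module.finrank_zero_iff.mp h4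
    exact ⟨1, by rw [pow_one]; exact LinearMap.ext fun v => Subsingleton.elim _ _⟩
  · -- the Bezout idempotent has trace zero, hence vanishes
    have hcop : IsCoprime (X ^ a) g :=
      ((Polynomial.irreducible_X (R := F)).coprime_iff_not_dvd.mpr hg).pow_left
    obtain ⟨u, v, huv⟩ := hcop
    set E := aeval f (u * X ^ a) with hE
    have hEidem : IsIdempotentElem E := by
      show E * E = E
      have e1 : (u * X ^ a) * (u * X ^ a) = u * X ^ a - u * v * μ := by
        have : u * X ^ a = 1 - v * g := by rw [← huv]; ring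
        rw [hμg]
        linear_combination (u * X ^ a) * this
      rw [hE, ← map_mul, e1, map_sub, map_mul _ (u * v) μ, hμf, mul_zero, sub_zero]
    have hEtr : LinearMap.trace F V E = 0 := by
      have e2 : u * X ^ a = X * (u * X ^ (a - 1)) := by
        have : X ^ a = X ^ (a - 1) * (X : F[X]) := by rw [← pow_succ, Nat.sub_add_cancel ha0]
        rw [this]; ring
      rw [hE, e2]
      exact trace_aeval_X_mul_eq_zero f h _
    have hE0 : E = 0 := (LinearMap.IsIdempotentElem.trace_eq_zero_iff hEidem).mp hEtr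
    have hdvd : μ ∣ u * X ^ a := minpoly.dvd F f hE0
    have hgdvd : g ∣ u := by
      have h1 : g ∣ u * X ^ a := Dvd.dvd.trans ⟨X ^ a, by rw [hμg]; ring⟩ hdvd
      exact (IsCoprime.symm ⟨u, v, huv⟩).dvd_of_dvd_mul_right h1
    have hgunit : IsUnit g := by
      apply isUnit_of_dvd_one
      rw [← huv]
      exact dvd_add (Dvd.dvd.mul_right hgdvd (X ^ a)) (Dvd.intro_left v rfl)
    refine ⟨a, ?_⟩
    have h6 : aeval f (X ^ a : F[X]) * aeval f g = 0 := by rw [← map_mul, ← hμg, hμf]
    have h7 : IsUnit (aeval f g) := hgunit.map (aeval f)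
    have h8 : aeval f (X ^ a : F[X]) = 0 := by
      obtain ⟨w, hw⟩ := h7.exists_right_inv
      calc aeval f (X ^ a : F[X]) = aeval f (X ^ a : F[X]) * (aeval f g * w) := by
            rw [hw, mul_one]
        _ = 0 := by rw [← mul_assoc, h6, zero_mul]
    simpa using h8

end Field

/-! ### Matrix form -/

theorem matrix_isNilpotent_of_trace_pow_eq_zero {F ι : Type*} [Field F] [CharZero F] [Fintype ι]
    [DecidableEq ι] (N : Matrix ι ι F) (h : ∀ k : ℕ, 0 < k → (N ^ k).trace = 0) :
    IsNilpotent N := by
  have h1 : IsNilpotent (Matrix.toLinAlgEquiv' N) := by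
    apply isNilpotent_of_trace_pow_eq_zero
    intro k hk
    rw [← map_pow]
    exact (Matrix.trace_toLin'_eq (N ^ k)).trans (h k hk)
  obtain ⟨m, hm⟩ := h1
  refine ⟨m, ?_⟩
  apply (Matrix.toLinAlgEquiv' (R := F) (n := ι)).injective
  rw [map_pow, hm, map_zero]

/-! ### Algebra form: the kernel of the trace form modulo `p` is nil (residue characteristic 0) -/

section Algebra

variable {R C ι : Type*} [CommRing R] [CommRing C] [Algebra R C] [Fintype ι] [DecidableEq ι]

/-- If `p ∣ Tr(x y)` for all `y`, then some power of `x` lies in `p C`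
(`C` finite free over `R`, `(p)` prime with `R / p` of characteristic zero). -/
theorem exists_pow_eq_smul_of_trace_dvd (b : Module.Basis ι R C) {p : R}
    [hp : (Ideal.span {p}).IsPrime] [CharZero (R ⧸ Ideal.span {p})] {x : C}
    (hx : ∀ y : C, p ∣ Algebra.trace R C (x * y)) : ∃ (m : ℕ) (z : C), x ^ m = p • z := by
  classical
  let F := FractionRing (R ⧸ Ideal.span {p})
  let φ : R →+* F := (algebraMap (R ⧸ Ideal.span {p}) F).comp (Ideal.Quotient.mk _)
  have hφ : ∀ r : R, φ r = 0 ↔ p ∣ r := by
    intro r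
    show algebraMap (R ⧸ Ideal.span {p}) F (Ideal.Quotient.mk _ r) = 0 ↔ _
    rw [map_eq_zero_iff _ (IsFractionRing.injective (R ⧸ Ideal.span {p}) F),
      Ideal.Quotient.eq_zero_iff_mem, Ideal.mem_span_singleton]
  set M := Algebra.leftMulMatrix b x with hM
  have htr : ∀ k : ℕ, 0 < k → ((φ.mapMatrix M) ^ k).trace = 0 := by
    intro k hk
    rw [← map_pow, RingHom.mapMatrix_apply]
    have e0 : ((M ^ k).map ⇑φ).trace = φ (M ^ k).trace := (AddMonoidHom.map_trace φ (M ^ k)).symm
    rw [e0, hφ, hM, ← map_pow, ← Algebra.trace_eq_matrix_trace b]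
    have : x ^ k = x * x ^ (k - 1) := by rw [← pow_succ', Nat.sub_add_cancel hk]
    rw [this]
    exact hx _
  obtain ⟨m, hm⟩ := matrix_isNilpotent_of_trace_pow_eq_zero _ htr
  refine ⟨m, ?_⟩
  have hdiv : ∀ i j, p ∣ (M ^ m) i j := by
    intro i j
    rw [← hφ]
    have := congrFun (congrFun hm i) j
    rw [← map_pow, RingHom.mapMatrix_apply, Matrix.map_apply] at this
    simpa using this
  have hrepr : ∀ i, p ∣ b.repr (x ^ m) i := by
    intro i
    have e1 : x ^ m = ∑ j, b.repr 1 j • (x ^ m * b j) := by
      conv_lhs => rw [← mul_one (x ^ m), ← b.sum_repr 1, Finset.mul_sum]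
      refine Finset.sum_congr rfl fun j _ => ?_
      rw [mul_smul_comm]
    rw [e1, map_sum, Finsupp.coe_finsetSum, Finset.sum_apply]
    refine Finset.dvd_sum fun j _ => ?_
    rw [map_smul, Finsupp.smul_apply, smul_eq_mul, ← Algebra.leftMulMatrix_eq_repr_mul, map_pow,
      ← hM]
    exact Dvd.dvd.mul_left (hdiv i j) _
  choose c hc using hrepr
  refine ⟨∑ i, c i • b i, ?_⟩
  rw [Finset.smul_sum]
  conv_lhs => rw [← b.sum_repr (x ^ m)]
  refine Finset.sum_congr rfl fun i _ => ?_
  rw [smul_smul, ← hc i]

end Algebra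


attribute [local instance] FractionRing.liftAlgebra FractionRing.isScalarTower_liftAlgebra

/-- **Tame trace dual.** -/
theorem tame_dual {A K L B : Type*} [CommRing A] [IsDomain A] [IsDiscreteValuationRing A]
    [Field K] [Algebra A K] [IsFractionRing A K]
    [Field L] [Algebra K L] [Algebra A L] [IsScalarTower A K L] [FiniteDimensional K L]
    [Algebra.IsSeparable K L]
    [CommRing B] [Algebra A B] [Algebra B L] [IsScalarTower A B L] [IsIntegralClosure B A L]
    (t : A) (ht : Irreducible t) (hchar : ∀ n : ℕ, n ≠ 0 → ¬ t ∣ (n : A))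
    (z : L) (hz : ∀ y : B, Algebra.trace K L (z * algebraMap B L y) ∈ (algebraMap A K).range) :
    ∃ w : B, algebraMap A L t * z = algebraMap B L w ∧
      ∃ n : ℕ, w ^ n ∈ Ideal.span {algebraMap A B t} := by
  classical
  have hBL : Function.Injective (algebraMap B L) := IsIntegralClosure.algebraMap_injective B A L
  have : IsDomain B := hBL.isDomain
  have : IsDedekindDomain B := IsIntegralClosure.isDedekindDomain A K L B
  have : IsFractionRing B L := IsIntegralClosure.isFractionRing_of_finite_extension A K L B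
  have : Algebra.IsIntegral A B := IsIntegralClosure.isIntegral_algebra A L
  have : Module.Finite A B := IsIntegralClosure.finite A K L B
  have hAL : Function.Injective (algebraMap A L) := by
    rw [IsScalarTower.algebraMap_eq A K L]
    exact (algebraMap K L).injective.comp (IsFractionRing.injective A K)
  have hAB : Function.Injective (algebraMap A B) := by
    rw [IsScalarTower.algebraMap_eq A B L] at hAL
    exact Function.Injective.of_comp hAL
  have : Module.IsTorsionFree A B := Module.isTorsionFree_iff_algebraMap_injective.mpr hAB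
  have : Module.Free A B := Module.free_of_finite_type_torsion_free'
  -- basic objects
  have ht0 : t ≠ 0 := ht.ne_zero
  set t' : B := algebraMap A B t with ht'
  have ht'0 : t' ≠ 0 := fun h => ht0 (hAB (by rw [← ht', h, map_zero]))
  have hpmax : IsLocalRing.maximalIdeal A = Ideal.span {t} := ht.maximalIdeal_eq
  have hpprime : (Ideal.span {t} : Ideal A).IsPrime :=
    (Ideal.span_singleton_prime ht0).mpr ht.prime
  have hcz : CharZero (A ⧸ Ideal.span {t}) := by
    refine charZero_of_inj_zero fun n hn => ?_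
    by_contra hn0
    apply hchar n hn0
    have h1 : (Ideal.Quotient.mk (Ideal.span {t})) (n : A) = 0 := by
      rw [map_natCast]; exact hn
    exact Ideal.mem_span_singleton.mp (Ideal.Quotient.eq_zero_iff_mem.mp h1)
  -- separability for the fraction rings (needed by Mathlib's different-ideal lemmas)
  have H : RingHom.comp (algebraMap (FractionRing A) (FractionRing B))
      ↑(FractionRing.algEquiv A K).symm.toRingEquiv =
        RingHom.comp ↑(FractionRing.algEquiv B L).symm.toRingEquiv (algebraMap K L) := by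
    apply IsLocalization.ringHom_ext (nonZeroDivisors A)
    ext
    simp only [RingHom.coe_comp, RingHom.coe_coe,
      AlgEquiv.coe_ringEquiv, Function.comp_apply, AlgEquiv.commutes,
      ← IsScalarTower.algebraMap_apply]
    rw [IsScalarTower.algebraMap_apply A B L, AlgEquiv.commutes, ← IsScalarTower.algebraMap_apply]
  have hsep : Algebra.IsSeparable (FractionRing A) (FractionRing B) :=
    Algebra.IsSeparable.of_equiv_equiv _ _ H
  -- the ideals
  set 𝔇 : Ideal B := differentIdeal A B with h𝔇
  set I' : Ideal B := Ideal.span {t'} with hI'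
  set J : Ideal B := I'.radical with hJ
  have hI'0 : I' ≠ ⊥ := by
    rw [hI', Ne, Ideal.span_singleton_eq_bot]; exact ht'0
  have h𝔇0 : 𝔇 ≠ ⊥ := differentIdeal_ne_bot
  have hJ0 : J ≠ ⊥ := fun h => hI'0 (le_bot_iff.mp (h ▸ Ideal.le_radical))
  have hmap : Ideal.map (algebraMap A B) (Ideal.span {t}) = I' := by
    rw [Ideal.map_span, Set.image_singleton]
  have h10 : (1 : FractionalIdeal (nonZeroDivisors B) L) ≠ 0 := one_ne_zero
  -- (a) `z • 𝔇 ⊆ B`
  have hzdual : z ∈ FractionalIdeal.dual A K (1 : FractionalIdeal (nonZeroDivisors B) L) := by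
    rw [FractionalIdeal.mem_dual h10]
    intro a ha
    obtain ⟨y, rfl⟩ := (FractionalIdeal.mem_one_iff (nonZeroDivisors B)).mp ha
    exact hz y
  have hza : ∀ y ∈ 𝔇, ∃ u : B, z * algebraMap B L y = algebraMap B L u := by
    intro y hy
    have h1 : algebraMap B L y ∈ ((𝔇 : Ideal B) : FractionalIdeal (nonZeroDivisors B) L) :=
      FractionalIdeal.mem_coeIdeal_of_mem (nonZeroDivisors B) hy
    rw [h𝔇, coeIdeal_differentIdeal A K L B] at h1
    have h2 := FractionalIdeal.mul_mem_mul hzdual h1
    rw [mul_inv_cancel₀ (FractionalIdeal.dual_ne_zero A K h10)] at h2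
    obtain ⟨u, hu⟩ := (FractionalIdeal.mem_one_iff (nonZeroDivisors B)).mp h2
    exact ⟨u, hu.symm⟩
  -- (b) `t' ∈ 𝔇 * J`
  have hmem : t' ∈ 𝔇 * J := by
    have hdvd : 𝔇 * J ∣ I' := by
      rw [UniqueFactorizationMonoid.dvd_iff_emultiplicity_le (mul_ne_zero h𝔇0 hJ0)]
      intro Q hQ
      have hQp : Q.IsPrime := Ideal.isPrime_of_prime hQ
      have hQ0 : Q ≠ ⊥ := hQ.ne_zero
      have hQmax : Q.IsMaximal := hQp.isMaximal hQ0
      -- `t' ∈ Q`
      have htQ : t' ∈ Q := by
        have h1 : (Q.comap (algebraMap A B)).IsMaximal :=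
          Ideal.isMaximal_comap_of_isIntegral_of_isMaximal Q
        have h2 : Q.comap (algebraMap A B) = Ideal.span {t} := by
          rw [IsLocalRing.eq_maximalIdeal h1, hpmax]
        have h3 : t ∈ Q.comap (algebraMap A B) := h2 ▸ Ideal.mem_span_singleton_self t
        exact h3
      have hfin : FiniteMultiplicity Q I' := FiniteMultiplicity.of_prime_left hQ hI'0
      obtain ⟨I₂, hI₂, hQI₂⟩ := hfin.exists_eq_pow_mul_and_not_dvd
      set k := multiplicity Q I' with hk
      have hk1 : 0 < k := multiplicity_pos_of_dvd (Ideal.dvd_span_singleton.mpr htQ)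
      -- (i) `¬ Q ^ 2 ∣ J`
      have h2 : emultiplicity Q J < 2 := by
        rw [show (2 : ℕ∞) = ((2 : ℕ) : ℕ∞) from rfl, emultiplicity_lt_iff_not_dvd]
        intro hdvd2
        have hle : Q * I₂ ≤ J := by
          intro x hx
          refine ⟨k, ?_⟩
          have h4 : x ^ k ∈ (Q * I₂) ^ k := Ideal.pow_mem_pow hx k
          rw [mul_pow] at h4
          rw [hI₂]
          exact Ideal.mul_mono le_rfl (Ideal.pow_le_self hk1.ne') h4
        have h3 : Q ^ 2 ∣ Q * I₂ := hdvd2.trans (Ideal.dvd_iff_le.mpr hle)
        rw [pow_two] at h3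
        exact hQI₂ ((mul_dvd_mul_iff_left hQ.ne_zero).mp h3)
      -- (ii) `¬ Q ^ k ∣ 𝔇`
      have h1 : emultiplicity Q 𝔇 < k := by
        rw [emultiplicity_lt_iff_not_dvd]
        have hP : Q ^ k * I₂ = Ideal.map (algebraMap A B) (Ideal.span {t}) := by
          rw [hmap]; exact hI₂.symm
        intro hcon
        have hall : ∀ x ∈ I₂, Algebra.intTrace A B x ∈ Ideal.span {t} := by
          intro x hx
          by_contra hx'
          exact not_dvd_differentIdeal_of_intTrace_not_mem A (Q ^ k) I₂ hP x hx hx' hcon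
        have hle : I₂ ≤ Q := by
          intro x hx
          have hx2 : ∀ y : B, t ∣ Algebra.trace A B (x * y) := by
            intro y
            have h5 := hall (x * y) (Ideal.mul_mem_right y I₂ hx)
            rw [Algebra.intTrace_eq_trace] at h5
            exact Ideal.mem_span_singleton.mp h5
          obtain ⟨m, w, hw⟩ :=
            exists_pow_eq_smul_of_trace_dvd (Module.Free.chooseBasis A B) hx2
          have h6 : x ^ m ∈ Q := by
            rw [hw, Algebra.smul_def]
            exact Ideal.mul_mem_right _ _ htQ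
          exact hQp.mem_of_pow_mem m h6
        exact hQI₂ (Ideal.dvd_iff_le.mpr hle)
      rw [emultiplicity_mul hQ, hfin.emultiplicity_eq_multiplicity]
      have ha : emultiplicity Q 𝔇 ≠ ⊤ := ne_top_of_lt h1
      have hb : emultiplicity Q J ≠ ⊤ := ne_top_of_lt h2
      obtain ⟨a, ha'⟩ := ENat.ne_top_iff_exists.mp ha
      obtain ⟨b, hb'⟩ := ENat.ne_top_iff_exists.mp hb
      rw [← ha'] at h1 ⊢
      rw [← hb'] at h2 ⊢
      norm_cast at h1 h2 ⊢
      omega
    exact Ideal.le_of_dvd hdvd (Ideal.mem_span_singleton_self t')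
  -- (c) conclusion
  have key : ∀ u ∈ 𝔇 * J, ∃ w ∈ J, z * algebraMap B L u = algebraMap B L w := by
    intro u hu
    refine Submodule.mul_induction_on hu ?_ ?_
    · intro y hy r hr
      obtain ⟨v, hv⟩ := hza y hy
      exact ⟨v * r, Ideal.mul_mem_left _ _ hr, by rw [map_mul, ← mul_assoc, hv, map_mul]⟩
    · rintro u₁ u₂ ⟨w₁, hw₁, e₁⟩ ⟨w₂, hw₂, e₂⟩
      exact ⟨w₁ + w₂, J.add_mem hw₁ hw₂, by rw [map_add, mul_add, e₁, e₂, map_add]⟩
  obtain ⟨w, hwJ, hw⟩ := key t' hmem
  refine ⟨w, ?_, hwJ⟩
  rw [← hw, ht', ← IsScalarTower.algebraMap_apply, mul_comm]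

end Fermat.Agent.Lib.TameDual
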