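/-
DVR-level Abhyankar lemma (tame Kummer base change kills ramification), Mathlib only.
Author: helper147.
-/
import Mathlib

set_option autoImplicit false

namespace Fermat.Agent.Lib.TameKummer

open Polynomial

/-! ### Step 1: an ideal of `A[X]` containing `t₁` and `X ^ e₁ - ε` is radical -/

theorem isRadical_of_mem {A : Type*} [CommRing A] {t₁ ε : A}
    (hmax : (Ideal.span {t₁}).IsMaximal) (hε : IsUnit ε) {e₁ : ℕ} (hchar : IsUnit (e₁ : A))
    (K : Ideal A[X]) (h1 : C t₁ ∈ K) (h2 : X ^ e₁ - C ε ∈ K) : K.IsRadical := by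
  classical
  let _ : Field (A ⧸ Ideal.span {t₁}) := Ideal.Quotient.field _
  set q : A →+* A ⧸ Ideal.span {t₁} := Ideal.Quotient.mk _ with hq
  set φ : A[X] →+* (A ⧸ Ideal.span {t₁})[X] := Polynomial.mapRingHom q with hφ
  have hsurj : Function.Surjective φ :=
    Polynomial.map_surjective q Ideal.Quotient.mk_surjective
  have hker : RingHom.ker φ ≤ K := by
    rw [hφ, Polynomial.ker_mapRingHom, hq, Ideal.mk_ker, Ideal.map_span, Ideal.span_le]
    rintro _ ⟨x, hx, rfl⟩
    rw [Set.mem_singleton_iff.mp hx]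
    exact h1
  have hK : (K.map φ).comap φ = K := by
    rw [Ideal.comap_map_of_surjective φ hsurj, ← RingHom.ker_eq_comap_bot]
    exact sup_eq_left.mpr hker
  rw [← hK]
  apply Ideal.IsRadical.comap
  -- the image ideal is principal, generated by a divisor of a separable polynomial
  obtain ⟨h, hh⟩ := (IsPrincipalIdealRing.principal (K.map φ)).principal
  have hg : φ (X ^ e₁ - C ε) ∈ K.map φ := Ideal.mem_map_of_mem φ h2
  have hgsep : (X ^ e₁ - C (q ε) : (A ⧸ Ideal.span {t₁})[X]).Separable := by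
    apply separable_X_pow_sub_C
    · have := hchar.map q
      rw [map_natCast] at this
      exact this.ne_zero
    · exact (hε.map q).ne_zero
  have hdvd : h ∣ X ^ e₁ - C (q ε) := by
    have : φ (X ^ e₁ - C ε) = X ^ e₁ - C (q ε) := by
      simp [hφ]
    rw [this, hh, Ideal.submodule_span_eq, Ideal.mem_span_singleton] at hg
    exact hg
  have hsq : Squarefree h := (hgsep.of_dvd hdvd).squarefree
  rw [hh, Ideal.submodule_span_eq]
  exact isRadical_iff_span_singleton.mp hsq.isRadical

/-! ### Step 2: `s` generates a radical ideal of `D = A[s, y]` -/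

theorem span_isRadical_adjoin {A L' : Type*} [CommRing A] [Field L'] [Algebra A L']
    {t₁ ε : A} (hmax : (Ideal.span {t₁}).IsMaximal) (hε : IsUnit ε) {e₁ f : ℕ}
    (he₁ : 0 < e₁) (hf : 0 < f) (hchar : IsUnit (e₁ : A))
    {s y : L'} (hy : y ^ e₁ = algebraMap A L' ε) (hsy : s ^ f = y * algebraMap A L' t₁)
    (D : Subalgebra A L') (hD : D = Algebra.adjoin A ({s, y} : Set L'))
    (s' y' : D) (hs' : (s' : L') = s) (hy' : (y' : L') = y) :
    (Ideal.span {s'}).IsRadical := by
  classical
  set I : Ideal D := Ideal.span {s'} with hI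
  set ψ : A[X] →+* D ⧸ I :=
    (Ideal.Quotient.mk I).comp ((aeval y' : A[X] →ₐ[A] D) : A[X] →+* D) with hψ
  have hψX : ψ X = Ideal.Quotient.mk I y' := by simp [hψ]
  have hψC : ∀ a : A, ψ (C a) = Ideal.Quotient.mk I (algebraMap A D a) := by
    intro a; simp [hψ]
  have hy'e : y' ^ e₁ = algebraMap A D ε := by
    apply Subtype.ext
    push_cast
    rw [hy', hy]
  have hs'f : s' ^ f = y' * algebraMap A D t₁ := by
    apply Subtype.ext
    push_cast
    rw [hs', hy', hsy]
  -- `t₁ ∈ (s)`
  have ht₁ : algebraMap A D t₁ ∈ I := by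
    obtain ⟨u, hu⟩ := hε.exists_left_inv
    have h1 : algebraMap A D t₁ = algebraMap A D u * y' ^ (e₁ - 1) * s' ^ (f - 1) * s' := by
      have e1 : y' ^ (e₁ - 1) * y' = y' ^ e₁ := by
        rw [← pow_succ, Nat.sub_add_cancel he₁]
      have e2 : s' ^ (f - 1) * s' = s' ^ f := by
        rw [← pow_succ, Nat.sub_add_cancel hf]
      calc algebraMap A D t₁ = algebraMap A D (u * ε) * algebraMap A D t₁ := by
              rw [hu, map_one, one_mul]
        _ = algebraMap A D u * y' ^ (e₁ - 1) * (y' * algebraMap A D t₁) := by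
              rw [map_mul, ← hy'e, ← e1]; ring
        _ = algebraMap A D u * y' ^ (e₁ - 1) * s' ^ (f - 1) * s' := by
              rw [← hs'f, ← e2]; ring
    rw [h1]
    exact Ideal.mul_mem_left _ _ (Ideal.subset_span rfl)
  have hsurj : Function.Surjective ψ := by
    intro x
    obtain ⟨x, rfl⟩ := Ideal.Quotient.mk_surjective x
    obtain ⟨x, hx⟩ := x
    have key : ∀ x (hx : x ∈ Algebra.adjoin A ({s, y} : Set L')),
        ∃ p : A[X], ψ p = Ideal.Quotient.mk I ⟨x, hD ▸ hx⟩ := by
      intro x hx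
      induction hx using Algebra.adjoin_induction with
      | mem z hz =>
        rcases hz with rfl | hz
        · refine ⟨0, ?_⟩
          rw [map_zero, eq_comm, Ideal.Quotient.eq_zero_iff_mem]
          have : (⟨z, hD ▸ Algebra.subset_adjoin (Or.inl rfl)⟩ : D) = s' := Subtype.ext hs'.symm
          rw [this]
          exact Ideal.subset_span rfl
        · refine ⟨X, ?_⟩
          rw [hψX]
          congr 1
          exact Subtype.ext (by rw [hy']; exact (Set.mem_singleton_iff.mp hz).symm)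
      | algebraMap r =>
        exact ⟨C r, by rw [hψC]; rfl⟩
      | add a b ha hb iha ihb =>
        obtain ⟨pa, hpa⟩ := iha
        obtain ⟨pb, hpb⟩ := ihb
        exact ⟨pa + pb, by rw [map_add, hpa, hpb]; rfl⟩
      | mul a b ha hb iha ihb =>
        obtain ⟨pa, hpa⟩ := iha
        obtain ⟨pb, hpb⟩ := ihb
        exact ⟨pa * pb, by rw [map_mul, hpa, hpb]; rfl⟩
    exact key x (hD ▸ hx)
  have hK : (RingHom.ker ψ).IsRadical := by
    apply isRadical_of_mem hmax hε hchar
    · rw [RingHom.mem_ker, hψC, Ideal.Quotient.eq_zero_iff_mem]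
      exact ht₁
    · rw [RingHom.mem_ker, map_sub, map_pow, hψX, hψC, ← map_pow, ← map_sub, hy'e, sub_self,
        map_zero]
  have hred : IsReduced (A[X] ⧸ RingHom.ker ψ) :=
    (Ideal.isRadical_iff_quotient_reduced _).mp hK
  have hred' : IsReduced (D ⧸ I) :=
    isReduced_of_injective (RingHom.quotientKerEquivOfSurjective hsurj).symm
      (RingHom.quotientKerEquivOfSurjective hsurj).symm.injective
  exact (Ideal.isRadical_iff_quotient_reduced _).mpr hred'

/-! ### Step 3: `h` regular with `(h)` radical ⟹ integrally closed in `D[1/h]` -/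

theorem mem_of_isIntegral_of_mul_mem {A L' : Type*} [CommRing A] [Field L'] [Algebra A L']
    (D : Subalgebra A L') (s' : D) (hs0 : (s' : L') ≠ 0) (hrad : (Ideal.span {s'}).IsRadical)
    {w : L'} (hw : IsIntegral D w) (hsw : (s' : L') * w ∈ D) : w ∈ D := by
  obtain ⟨p, hp, hpw⟩ := hw
  set k := p.natDegree with hk
  set b : D := ⟨(s' : L') * w, hsw⟩ with hb
  -- `b ^ k ∈ (s)`
  have hbk : b ^ k ∈ Ideal.span {s'} := by
    rw [Ideal.mem_span_singleton']
    refine ⟨-∑ i ∈ Finset.range k, p.coeff i * s' ^ (k - i - 1) * b ^ i, ?_⟩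
    apply Subtype.ext
    have h1 : eval₂ (algebraMap D L') w p
        = w ^ k + ∑ i ∈ Finset.range k, (p.coeff i : L') * w ^ i := by
      conv_lhs => rw [hp.as_sum]
      simp [eval₂_add, eval₂_finsetSum, hk]
    rw [h1] at hpw
    have h2 : ((s' : L') * w) ^ k
        = -∑ i ∈ Finset.range k, (p.coeff i : L') * (s' : L') ^ (k - i - 1) * ((s' : L') * w) ^ i
          * (s' : L') := by
      have h3 : w ^ k = -∑ i ∈ Finset.range k, (p.coeff i : L') * w ^ i :=
        eq_neg_of_add_eq_zero_left hpw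
      rw [mul_pow, h3, mul_neg, neg_inj, Finset.mul_sum]
      apply Finset.sum_congr rfl
      intro i hi
      have hik : i < k := Finset.mem_range.mp hi
      have : (s' : L') ^ k = (s' : L') ^ (k - i - 1) * (s' : L') ^ i * (s' : L') := by
        rw [← pow_add, ← pow_succ]
        congr 1
        omega
      rw [this, mul_pow]
      ring
    push_cast
    rw [hb]
    push_cast
    rw [h2, neg_mul, neg_inj, Finset.sum_mul]
  have hb' : b ∈ Ideal.span {s'} := hrad ⟨k, hbk⟩
  obtain ⟨d, hd⟩ := Ideal.mem_span_singleton'.mp hb'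
  have hd' : (d : L') * (s' : L') = (s' : L') * w := by
    have := congrArg (Subtype.val) hd
    simpa [hb] using this
  have : w = d := by
    apply mul_left_cancel₀ hs0
    rw [← hd']; ring
  rw [this]
  exact d.2

theorem mem_of_isIntegral_of_pow_mul_mem {A L' : Type*} [CommRing A] [Field L'] [Algebra A L']
    (D : Subalgebra A L') (s' : D) (hs0 : (s' : L') ≠ 0) (hrad : (Ideal.span {s'}).IsRadical)
    (n : ℕ) {w : L'} (hw : IsIntegral D w) (hsw : (s' : L') ^ n * w ∈ D) : w ∈ D := by
  induction n generalizing w with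
  | zero => simpa using hsw
  | succ n ih =>
    apply ih hw
    apply mem_of_isIntegral_of_mul_mem D s' hs0 hrad
    · have h1 : IsIntegral D ((s' ^ n : D) : L') := isIntegral_algebraMap (R := D) (x := s' ^ n)
      have h2 := h1.mul hw
      simpa using h2
    · rw [← mul_assoc, ← pow_succ']
      exact hsw

/-! ### Step 4: denominators are powers of the uniformiser -/

theorem exists_pow_mul_mem_adjoin {A L L' : Type*} [CommRing A] [IsDomain A]
    [IsDiscreteValuationRing A] [Field L] [Algebra A L] [IsFractionRing A L] [Field L']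
    [Algebra L L'] [Algebra A L'] [IsScalarTower A L L'] {t₁ : A} (ht₁ : Irreducible t₁)
    {s : L'} (hgen : Algebra.adjoin L ({s} : Set L') = ⊤) (z : L') :
    ∃ m : ℕ, algebraMap A L' t₁ ^ m * z ∈ Algebra.adjoin A ({s} : Set L') := by
  have hz : z ∈ Algebra.adjoin L ({s} : Set L') := by rw [hgen]; trivial
  induction hz using Algebra.adjoin_induction with
  | mem z hz =>
    exact ⟨0, by simpa using Algebra.subset_adjoin hz⟩
  | algebraMap x =>
    obtain ⟨a, b, hb, rfl⟩ := IsFractionRing.div_surjective (A := A) x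
    have hb0 : b ≠ 0 := nonZeroDivisors.ne_zero hb
    obtain ⟨m, u, hu⟩ := IsDiscreteValuationRing.associated_pow_irreducible hb0 ht₁
    refine ⟨m, ?_⟩
    have hbL : algebraMap A L b ≠ 0 := by
      simpa using (IsFractionRing.injective A L).ne hb0
    have hL : algebraMap A L (t₁ ^ m) * (algebraMap A L a / algebraMap A L b)
        = algebraMap A L ((u : A) * a) := by
      rw [← hu, map_mul, map_mul]
      field_simp
    have : algebraMap A L' t₁ ^ m * algebraMap L L' (algebraMap A L a / algebraMap A L b)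
        = algebraMap A L' ((u : A) * a) := by
      rw [← map_pow, IsScalarTower.algebraMap_apply A L L',
        IsScalarTower.algebraMap_apply A L L' ((u : A) * a), ← map_mul, hL]
    rw [this]
    exact Subalgebra.algebraMap_mem _ _
  | add z₁ z₂ _ _ ih₁ ih₂ =>
    obtain ⟨m₁, h₁⟩ := ih₁
    obtain ⟨m₂, h₂⟩ := ih₂
    refine ⟨m₁ + m₂, ?_⟩
    have : algebraMap A L' t₁ ^ (m₁ + m₂) * (z₁ + z₂)
        = algebraMap A L' (t₁ ^ m₂) * (algebraMap A L' t₁ ^ m₁ * z₁)
          + algebraMap A L' (t₁ ^ m₁) * (algebraMap A L' t₁ ^ m₂ * z₂) := by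
      rw [map_pow, map_pow]; ring
    rw [this]
    exact add_mem (mul_mem (Subalgebra.algebraMap_mem _ _) h₁)
      (mul_mem (Subalgebra.algebraMap_mem _ _) h₂)
  | mul z₁ z₂ _ _ ih₁ ih₂ =>
    obtain ⟨m₁, h₁⟩ := ih₁
    obtain ⟨m₂, h₂⟩ := ih₂
    refine ⟨m₁ + m₂, ?_⟩
    have : algebraMap A L' t₁ ^ (m₁ + m₂) * (z₁ * z₂)
        = (algebraMap A L' t₁ ^ m₁ * z₁) * (algebraMap A L' t₁ ^ m₂ * z₂) := by ring
    rw [this]
    exact mul_mem h₁ h₂

/-! ### Step 5: the local Abhyankar lemma -/

/-- **Abhyankar's lemma, local form.**  `A` a DVR with uniformiser `t₁` and fraction field `L`,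
`ε` a unit, `L' = L(s)` with `s ^ (e₁ f) = ε t₁ ^ e₁` and `e₁` invertible in `A`.  Then the
integral closure of `A` in `L'` is `A[s, s ^ f / t₁]`, and `s` generates a radical ideal in it. -/
theorem integralClosure_structure {A L L' : Type*} [CommRing A] [IsDomain A]
    [IsDiscreteValuationRing A] [Field L] [Algebra A L] [IsFractionRing A L] [Field L']
    [Algebra L L'] [Algebra A L'] [IsScalarTower A L L'] {t₁ ε : A} (ht₁ : Irreducible t₁)
    (hε : IsUnit ε) {e₁ f : ℕ} (he₁ : 0 < e₁) (hf : 0 < f) (hchar : IsUnit (e₁ : A)) {s : L'}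
    (hs : s ^ (e₁ * f) = algebraMap A L' (ε * t₁ ^ e₁))
    (hgen : Algebra.adjoin L ({s} : Set L') = ⊤) :
    ∃ (D : Subalgebra A L') (s' : D), (s' : L') = s ∧ (Ideal.span {s'}).IsRadical ∧
      ∀ z : L', IsIntegral A z ↔ z ∈ D := by
  have hinj : Function.Injective (algebraMap A L') := by
    rw [IsScalarTower.algebraMap_eq A L L']
    exact (algebraMap L L').injective.comp (IsFractionRing.injective A L)
  have hT0 : algebraMap A L' t₁ ≠ 0 := by
    simpa using hinj.ne ht₁.ne_zero
  have hs0 : s ≠ 0 := by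
    intro h
    have : algebraMap A L' (ε * t₁ ^ e₁) = 0 := by
      rw [← hs, h, zero_pow (Nat.mul_pos he₁ hf).ne']
    have h2 : ε * t₁ ^ e₁ = 0 := by simpa using hinj (this.trans (map_zero _).symm)
    rcases mul_eq_zero.mp h2 with h3 | h3
    · exact hε.ne_zero h3
    · exact ht₁.ne_zero (pow_eq_zero_iff he₁.ne' |>.mp h3)
  set y : L' := s ^ f / algebraMap A L' t₁ with hy_def
  have hsy : s ^ f = y * algebraMap A L' t₁ := by
    rw [hy_def, div_mul_cancel₀ _ hT0]
  have hy : y ^ e₁ = algebraMap A L' ε := by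
    rw [hy_def, div_pow, ← pow_mul, mul_comm f e₁, hs, map_mul, map_pow,
      mul_div_assoc, div_self (pow_ne_zero _ hT0), mul_one]
  have hmax : (Ideal.span {t₁}).IsMaximal := by
    rw [← (IsDiscreteValuationRing.irreducible_iff_uniformizer t₁).mp ht₁]
    infer_instance
  let D : Subalgebra A L' := Algebra.adjoin A ({s, y} : Set L')
  let s' : D := ⟨s, Algebra.subset_adjoin (Or.inl rfl)⟩
  let y' : D := ⟨y, Algebra.subset_adjoin (Or.inr rfl)⟩
  have hrad : (Ideal.span {s'}).IsRadical :=
    span_isRadical_adjoin hmax hε he₁ hf hchar hy hsy D rfl s' y' rfl rfl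
  have hsint : IsIntegral A s :=
    IsIntegral.of_pow (Nat.mul_pos he₁ hf) (hs ▸ isIntegral_algebraMap)
  have hyint : IsIntegral A y := IsIntegral.of_pow he₁ (hy ▸ isIntegral_algebraMap)
  have hDint : D ≤ integralClosure A L' := by
    apply Algebra.adjoin_le
    rintro x (rfl | hx)
    · exact hsint
    · rw [Set.mem_singleton_iff.mp hx]; exact hyint
  refine ⟨D, s', rfl, hrad, fun z => ⟨fun hz => ?_, fun hz => hDint hz⟩⟩
  obtain ⟨m, hm⟩ := exists_pow_mul_mem_adjoin (L := L) ht₁ hgen z
  have hm' : algebraMap A L' t₁ ^ m * z ∈ D :=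
    Algebra.adjoin_mono (by intro x hx; exact Or.inl hx) hm
  apply mem_of_isIntegral_of_pow_mul_mem D s' hs0 hrad (f * m) hz.tower_top
  have : (s' : L') ^ (f * m) * z = y ^ m * (algebraMap A L' t₁ ^ m * z) := by
    show s ^ (f * m) * z = _
    rw [pow_mul, hsy, mul_pow]; ring
  rw [this]
  exact mul_mem (pow_mem y'.2 m) hm'

theorem isIntegral_div_of_pow {A L L' : Type*} [CommRing A] [IsDomain A]
    [IsDiscreteValuationRing A] [Field L] [Algebra A L] [IsFractionRing A L] [Field L']
    [Algebra L L'] [Algebra A L'] [IsScalarTower A L L'] {t₁ ε : A} (ht₁ : Irreducible t₁)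
    (hε : IsUnit ε) {e₁ f : ℕ} (he₁ : 0 < e₁) (hf : 0 < f) (hchar : IsUnit (e₁ : A)) {s : L'}
    (hs : s ^ (e₁ * f) = algebraMap A L' (ε * t₁ ^ e₁))
    (hgen : Algebra.adjoin L ({s} : Set L') = ⊤) {z : L'} (hz : IsIntegral A z) {n : ℕ}
    (hzn : IsIntegral A (z ^ n / s)) : IsIntegral A (z / s) := by
  obtain ⟨D, s', hs', hrad, hD⟩ := integralClosure_structure ht₁ hε he₁ hf hchar hs hgen
  have hs0 : s ≠ 0 := by
    intro h
    have hinj : Function.Injective (algebraMap A L') := by
      rw [IsScalarTower.algebraMap_eq A L L']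
      exact (algebraMap L L').injective.comp (IsFractionRing.injective A L)
    have : algebraMap A L' (ε * t₁ ^ e₁) = 0 := by
      rw [← hs, h, zero_pow (Nat.mul_pos he₁ hf).ne']
    have h2 : ε * t₁ ^ e₁ = 0 := by simpa using hinj (this.trans (map_zero _).symm)
    rcases mul_eq_zero.mp h2 with h3 | h3
    · exact hε.ne_zero h3
    · exact ht₁.ne_zero (pow_eq_zero_iff he₁.ne' |>.mp h3)
  have hzD : z ∈ D := (hD z).mp hz
  have hdD : z ^ n / s ∈ D := (hD _).mp hzn
  have h1 : (⟨z, hzD⟩ : D) ^ n ∈ Ideal.span {s'} := by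
    rw [Ideal.mem_span_singleton']
    refine ⟨⟨z ^ n / s, hdD⟩, ?_⟩
    apply Subtype.ext
    push_cast
    rw [hs', div_mul_cancel₀ _ hs0]
  obtain ⟨c, hc⟩ := Ideal.mem_span_singleton'.mp (hrad ⟨n, h1⟩)
  have hc' : (c : L') * s = z := by
    have := congrArg Subtype.val hc
    simpa [hs'] using this
  have : z / s = c := by
    rw [← hc', mul_div_assoc, div_self hs0, mul_one]
  rw [this]
  exact (hD _).mpr c.2

end Fermat.Agent.Lib.TameKummer
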