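/-
DVR-level Abhyankar lemma, global (Dedekind) forms.  Mathlib only.
Author: helper147.
-/
import Fermat.Agent.Lib.TameKummer

set_option autoImplicit false

namespace Fermat.Agent.Lib.TameKummer

open Polynomial

/-! ### Integrality is local on the base -/

theorem isIntegral_of_forall_maximal {B L' : Type*} [CommRing B] [CommRing L'] [Algebra B L']
    (w : L')
    (h : ∀ P : Ideal B, P.IsMaximal → ∃ u : B, u ∉ P ∧ IsIntegral B (algebraMap B L' u * w)) :
    IsIntegral B w := by
  let I : Ideal B :=
    { carrier := {b | IsIntegral B (algebraMap B L' b * w)}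
      add_mem' := by
        intro a b ha hb
        show IsIntegral B (algebraMap B L' (a + b) * w)
        rw [map_add, add_mul]
        exact IsIntegral.add ha hb
      zero_mem' := by
        show IsIntegral B (algebraMap B L' 0 * w)
        rw [map_zero, zero_mul]
        exact isIntegral_zero
      smul_mem' := by
        intro c x hx
        show IsIntegral B (algebraMap B L' (c • x) * w)
        rw [smul_eq_mul, map_mul, mul_assoc]
        exact IsIntegral.mul isIntegral_algebraMap hx }
  have hI : I = ⊤ := by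
    by_contra hI
    obtain ⟨P, hP, hIP⟩ := Ideal.exists_le_maximal I hI
    obtain ⟨u, hu, hint⟩ := h P hP
    exact hu (hIP hint)
  have h1 : (1 : B) ∈ I := hI ▸ Submodule.mem_top
  have h2 : IsIntegral B (algebraMap B L' 1 * w) := h1
  simpa using h2

/-! ### The global Abhyankar lemma over a Dedekind domain -/

/-- **Abhyankar's lemma, Dedekind form.**  `B` a Dedekind domain with fraction field `L`,
`t ∈ B`, `L' = L(s)` with `s ^ e = t`.  If at every prime `P ∋ t` the `P`-adic valuation of `t`
divides `e` and `e ∉ P`, then `s` generates a radical ideal of the integral closure of `B`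
in `L'` (elementwise form). -/
theorem isIntegral_div_of_pow_dedekind {B L L' : Type*} [CommRing B] [IsDedekindDomain B]
    [Field L] [Algebra B L] [IsFractionRing B L] [Field L'] [Algebra L L'] [Algebra B L']
    [IsScalarTower B L L'] {t : B} {e : ℕ} (he : 0 < e)
    (hram : ∀ P : Ideal B, P.IsPrime → P ≠ ⊥ → t ∈ P →
      ∃ k, k ∣ e ∧ t ∈ P ^ k ∧ t ∉ P ^ (k + 1))
    (hchar : ∀ P : Ideal B, P.IsPrime → P ≠ ⊥ → t ∈ P → (e : B) ∉ P)
    {s : L'} (hs : s ^ e = algebraMap B L' t) (hgen : Algebra.adjoin L ({s} : Set L') = ⊤)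
    {z : L'} (hz : IsIntegral B z) {n : ℕ} (hzn : IsIntegral B (z ^ n / s)) :
    IsIntegral B (z / s) := by
  classical
  by_cases hs0 : s = 0
  · rw [hs0, div_zero]; exact isIntegral_zero
  have hinjL' : Function.Injective (algebraMap B L') := by
    rw [IsScalarTower.algebraMap_eq B L L']
    exact (algebraMap L L').injective.comp (IsFractionRing.injective B L)
  have ht0 : t ≠ 0 := by
    rintro rfl
    rw [map_zero] at hs
    exact hs0 (pow_eq_zero_iff he.ne' |>.mp hs)
  have hsint : IsIntegral B s := IsIntegral.of_pow he (hs ▸ isIntegral_algebraMap)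
  apply isIntegral_of_forall_maximal
  intro P hPmax
  by_cases htP : t ∈ P
  swap
  · -- `t` is a unit at `P`
    refine ⟨t, htP, ?_⟩
    have : algebraMap B L' t * (z / s) = s ^ (e - 1) * z := by
      rw [← hs]
      have : s ^ e = s ^ (e - 1) * s := by rw [← pow_succ, Nat.sub_add_cancel he]
      rw [this]
      field_simp
    rw [this]
    exact (hsint.pow _).mul hz
  · have hP0 : P ≠ ⊥ := by
      rintro rfl
      exact ht0 (by simpa using htP)
    have hPprime : P.IsPrime := hPmax.isPrime
    obtain ⟨k, hke, htk, htk1⟩ := hram P hPprime hP0 htP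
    obtain ⟨f, rfl⟩ := hke
    have hk0 : 0 < k := by
      rcases Nat.eq_zero_or_pos k with h | h
      · subst h; simp at he
      · exact h
    have hf0 : 0 < f := by
      rcases Nat.eq_zero_or_pos f with h | h
      · subst h; simp at he
      · exact h
    -- the localisation at `P` as a subalgebra of `L`
    let A : Subalgebra B L :=
      Localization.subalgebra.ofField L P.primeCompl P.primeCompl_le_nonZeroDivisors
    have : IsLocalization.AtPrime A P :=
      Localization.subalgebra.isLocalization_ofField L P.primeCompl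
        P.primeCompl_le_nonZeroDivisors
    have : IsDiscreteValuationRing A :=
      IsLocalization.AtPrime.isDiscreteValuationRing_of_dedekind_domain B hP0 A
    have : IsScalarTower A L L' := IsScalarTower.of_algebraMap_eq (fun _ => rfl)
    have : IsScalarTower B A L' := IsScalarTower.of_algebraMap_eq (fun x => by
      rw [IsScalarTower.algebraMap_apply B L L']; rfl)
    obtain ⟨t₁, ht₁⟩ := IsDiscreteValuationRing.exists_irreducible A
    have hm : IsLocalRing.maximalIdeal A = Ideal.span {t₁} :=
      (IsDiscreteValuationRing.irreducible_iff_uniformizer t₁).mp ht₁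
    have hmap : Ideal.map (algebraMap B A) P = IsLocalRing.maximalIdeal A :=
      IsLocalization.AtPrime.map_eq_maximalIdeal P A
    have hmapk : ∀ j : ℕ, Ideal.map (algebraMap B A) (P ^ j) = Ideal.span {t₁ ^ j} := by
      intro j
      rw [Ideal.map_pow, hmap, hm, Ideal.span_singleton_pow]
    -- `t = ε t₁ ^ k` with `ε` a unit
    have h1 : algebraMap B A t ∈ Ideal.span {t₁ ^ k} := by
      rw [← hmapk]; exact Ideal.mem_map_of_mem _ htk
    obtain ⟨ε, hε⟩ := Ideal.mem_span_singleton.mp h1
    have hεu : IsUnit ε := by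
      by_contra hnu
      have hεm : ε ∈ IsLocalRing.maximalIdeal A := (IsLocalRing.mem_maximalIdeal ε).mpr hnu
      rw [hm] at hεm
      obtain ⟨c, hc⟩ := Ideal.mem_span_singleton.mp hεm
      have h2 : algebraMap B A t ∈ Ideal.map (algebraMap B A) (P ^ (k + 1)) := by
        rw [hmapk, Ideal.mem_span_singleton]
        exact ⟨c, by rw [hε, hc, pow_succ]; ring⟩
      obtain ⟨⟨a, u⟩, hau⟩ := (IsLocalization.mem_map_algebraMap_iff P.primeCompl A).mp h2
      have h3 : t * (u : B) = a := by
        apply IsLocalization.injective A P.primeCompl_le_nonZeroDivisors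
        rw [map_mul]; exact hau
      have h4 : t * (u : B) ∈ P ^ (k + 1) := h3 ▸ a.2
      have hprim : (P ^ (k + 1)).IsPrimary := by
        apply Ideal.isPrimary_of_isMaximal_radical
        rw [Ideal.radical_pow _ (Nat.succ_ne_zero k), hPprime.radical]
        exact hPmax
      rcases (Ideal.isPrimary_iff.mp hprim).2 h4 with h5 | h5
      · exact htk1 h5
      · rw [Ideal.radical_pow _ (Nat.succ_ne_zero k), hPprime.radical] at h5
        exact u.2 h5
    have hcharA : IsUnit ((k : ℕ) : A) := by
      have hkP : ((k : ℕ) : B) ∉ P := by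
        intro h
        apply hchar P hPprime hP0 htP
        rw [Nat.cast_mul]
        exact Ideal.mul_mem_right _ _ h
      have := IsLocalization.map_units A (⟨(k : B), hkP⟩ : P.primeCompl)
      simpa using this
    have hsA : s ^ (k * f) = algebraMap A L' (ε * t₁ ^ k) := by
      rw [hs, IsScalarTower.algebraMap_apply B A L', hε, mul_comm]
    have hloc : IsIntegral A (z / s) :=
      isIntegral_div_of_pow (L := L) ht₁ hεu hk0 hf0 hcharA hsA hgen hz.tower_top
        (n := n) hzn.tower_top
    obtain ⟨m, hm⟩ :=
      IsIntegral.exists_multiple_integral_of_isLocalization P.primeCompl (z / s) hloc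
    refine ⟨m, m.2, ?_⟩
    rw [Submonoid.smul_def, Algebra.smul_def] at hm
    exact hm

/-- Ideal form: in the integral closure `C'` of `B` in `L' = L(s)`, `(s)` is a radical ideal. -/
theorem span_isRadical_dedekind {B L L' C' : Type*} [CommRing B] [IsDedekindDomain B]
    [Field L] [Algebra B L] [IsFractionRing B L] [Field L'] [Algebra L L'] [Algebra B L']
    [IsScalarTower B L L'] [CommRing C'] [Algebra B C'] [Algebra C' L'] [IsScalarTower B C' L']
    [IsIntegralClosure C' B L'] {t : B} {e : ℕ} (he : 0 < e)
    (hram : ∀ P : Ideal B, P.IsPrime → P ≠ ⊥ → t ∈ P →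
      ∃ k, k ∣ e ∧ t ∈ P ^ k ∧ t ∉ P ^ (k + 1))
    (hchar : ∀ P : Ideal B, P.IsPrime → P ≠ ⊥ → t ∈ P → (e : B) ∉ P)
    {s' : C'} (hs : s' ^ e = algebraMap B C' t)
    (hgen : Algebra.adjoin L ({algebraMap C' L' s'} : Set L') = ⊤) :
    (Ideal.span {s'}).IsRadical := by
  have hinj : Function.Injective (algebraMap C' L') := IsIntegralClosure.algebraMap_injective C' B L'
  have hsL : algebraMap C' L' s' ^ e = algebraMap B L' t := by
    rw [← map_pow, hs, ← IsScalarTower.algebraMap_apply]
  rintro x ⟨n, hx⟩
  obtain ⟨d, hd⟩ := Ideal.mem_span_singleton'.mp hx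
  rw [Ideal.mem_span_singleton']
  by_cases hs0 : algebraMap C' L' s' = 0
  · have hs0' : s' = 0 := hinj (hs0.trans (map_zero _).symm)
    rw [hs0', mul_zero] at hd
    have hz0 : algebraMap C' L' x = 0 := by
      apply IsNilpotent.eq_zero
      exact ⟨n, by rw [← map_pow, ← hd, map_zero]⟩
    have hx0 : x = 0 := hinj (hz0.trans (map_zero _).symm)
    exact ⟨0, by rw [zero_mul, hx0]⟩
  · have hz : IsIntegral B (algebraMap C' L' x) :=
      (IsIntegralClosure.isIntegral_iff (A := C')).mpr ⟨x, rfl⟩
    have hzn : IsIntegral B (algebraMap C' L' x ^ n / algebraMap C' L' s') := by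
      have : algebraMap C' L' x ^ n / algebraMap C' L' s' = algebraMap C' L' d := by
        rw [← map_pow, ← hd, map_mul, mul_div_assoc, div_self hs0, mul_one]
      rw [this]
      exact (IsIntegralClosure.isIntegral_iff (A := C')).mpr ⟨d, rfl⟩
    have h1 := isIntegral_div_of_pow_dedekind (L := L) he hram hchar hsL hgen hz hzn
    obtain ⟨c, hc⟩ := (IsIntegralClosure.isIntegral_iff (A := C')).mp h1
    refine ⟨c, hinj ?_⟩
    rw [map_mul, hc, div_mul_cancel₀ _ hs0]

/-- Elementwise form over a base ring `V` of which `B` is the integral closure in `L`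
(e.g. `V` a DVR with uniformiser `ϖ`, `t = ϖ`): "integral over `V`" instead of "over `B`". -/
theorem isIntegral_div_of_pow_base {V B L L' : Type*} [CommRing V] [CommRing B]
    [IsDedekindDomain B] [Algebra V B] [Field L] [Algebra B L] [IsFractionRing B L]
    [Field L'] [Algebra L L'] [Algebra B L'] [IsScalarTower B L L'] [Algebra V L']
    [IsScalarTower V B L'] [Algebra.IsIntegral V B] {t : B} {e : ℕ} (he : 0 < e)
    (hram : ∀ P : Ideal B, P.IsPrime → P ≠ ⊥ → t ∈ P →
      ∃ k, k ∣ e ∧ t ∈ P ^ k ∧ t ∉ P ^ (k + 1))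
    (hchar : ∀ P : Ideal B, P.IsPrime → P ≠ ⊥ → t ∈ P → (e : B) ∉ P)
    {s : L'} (hs : s ^ e = algebraMap B L' t) (hgen : Algebra.adjoin L ({s} : Set L') = ⊤)
    {z : L'} (hz : IsIntegral V z) {n : ℕ} (hzn : IsIntegral V (z ^ n / s)) :
    IsIntegral V (z / s) :=
  isIntegral_trans (R := V) (A := B) _
    (isIntegral_div_of_pow_dedekind (L := L) he hram hchar hs hgen hz.tower_top hzn.tower_top)

end Fermat.Agent.Lib.TameKummer
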