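import Mathlib

/-!
# Unit discriminant ⇒ the minimal primes over `π` are pairwise comaximal

Mathlib-only commutative algebra (brick (U) / (G3) of the S30 MODEL THEOREM and of the S18 route).

Setting: `C` a finite free algebra over a commutative ring `R`, with a basis `b` whose trace
discriminant `Algebra.discr R b` is a unit of `R`.

* `mem_map_of_pow_mem` : for every radical ideal `I` of `R` the ideal `I C` is radical
  (`x ^ n ∈ I C → x ∈ I C`).
* `exists_not_mem_forall_mul_mem` : if `𝔪` is a maximal ideal of `R` and `M ⊇ 𝔪 C` is a prime of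
  `C`, there is `e ∉ M` with `e M ⊆ 𝔪 C` (the closed fibre `C / 𝔪 C` is a finite product of fields).
* `le_of_minimalPrimes_of_mul_mem`, `eq_of_minimalPrimes_of_mul_mem` : the Krull intersection
  argument.  In a Noetherian ring `B`, if `ϖ ∈ M` is a nonzerodivisor and `e M ⊆ ϖ B` for some
  `e ∉ M`, then `M` contains exactly one minimal prime of `B`.
* `eq_of_le_of_mem_minimalPrimes` : `R` Noetherian, `(π)` prime, `s ∉ (π)`, `(π, s)` maximal in `R`,
  `M` a prime of `C` containing `π` and `s`.  Then `M` contains at most one minimal prime over `π C`.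
* `sup_eq_top_of_ne` : the local form.  If moreover `R` is local with maximal ideal `(π, s)`, any two
  distinct minimal primes over `π C` are comaximal.
* `sup_eq_top_of_ne_of_isDomain` : the case `π = 0` (e.g. `R` a discrete valuation ring with
  uniformiser `s`): any two distinct minimal primes of `C` are comaximal.
-/

namespace Fermat.Agent.Lib.UnitDisc

open Matrix

section Fibre

variable {R C ι : Type*} [CommRing R] [CommRing C] [Algebra R C] [Fintype ι] [DecidableEq ι]

/-- The matrix of multiplication by `y` in the basis `b`, reduced modulo an ideal `I` of the base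
ring. -/
noncomputable def redMat (b : Module.Basis ι R C) (I : Ideal R) : C →+* Matrix ι ι (R ⧸ I) :=
  (Ideal.Quotient.mk I).mapMatrix.comp (Algebra.leftMulMatrix b).toRingHom

theorem redMat_eq_zero_of_mem (b : Module.Basis ι R C) (I : Ideal R) {y : C}
    (hy : y ∈ I.map (algebraMap R C)) : redMat b I y = 0 := by
  have hle : I.map (algebraMap R C) ≤ RingHom.ker (redMat b I) := by
    rw [Ideal.map_le_iff_le_comap]
    intro r hr
    rw [Ideal.mem_comap, RingHom.mem_ker]
    have h1 : Algebra.leftMulMatrix b (algebraMap R C r) = algebraMap R (Matrix ι ι R) r :=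
      (Algebra.leftMulMatrix b).commutes r
    have h2 : redMat b I (algebraMap R C r) =
        (Ideal.Quotient.mk I).mapMatrix (algebraMap R (Matrix ι ι R) r) := by
      rw [← h1]; rfl
    rw [h2]
    ext i j
    by_cases hij : i = j
    · subst hij
      simp [Matrix.algebraMap_matrix_apply, Ideal.Quotient.eq_zero_iff_mem.2 hr]
    · simp [Matrix.algebraMap_matrix_apply, hij]
  exact hle hy

theorem trace_redMat (b : Module.Basis ι R C) (I : Ideal R) (y : C) :
    Matrix.trace (redMat b I y) = Ideal.Quotient.mk I (Algebra.trace R C y) := by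
  rw [Algebra.trace_eq_matrix_trace b, AddMonoidHom.map_trace]
  rfl

/-- If `x ^ n ∈ I C` for a radical ideal `I` of `R`, then the trace of `x` lies in `I`. -/
theorem trace_mem_of_pow_mem (b : Module.Basis ι R C) {I : Ideal R} (hI : I.IsRadical) {x : C}
    {n : ℕ} (hx : x ^ n ∈ I.map (algebraMap R C)) : Algebra.trace R C x ∈ I := by
  have h0 : redMat b I x ^ n = 0 := by
    rw [← map_pow]; exact redMat_eq_zero_of_mem b I hx
  have hnil : IsNilpotent (Matrix.trace (redMat b I x)) :=
    Matrix.isNilpotent_trace_of_isNilpotent ⟨n, h0⟩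
  rw [trace_redMat] at hnil
  obtain ⟨k, hk⟩ := hnil
  rw [← map_pow, Ideal.Quotient.eq_zero_iff_mem] at hk
  exact hI ⟨k, hk⟩

/-- **Unit discriminant ⇒ fibres are reduced.**  If the discriminant of the basis `b` is a unit
and `I` is a radical ideal of `R`, then `I C` is a radical ideal of `C`. -/
theorem mem_map_of_pow_mem (b : Module.Basis ι R C) (hb : IsUnit (Algebra.discr R b))
    {I : Ideal R} (hI : I.IsRadical) {x : C} {n : ℕ} (hx : x ^ n ∈ I.map (algebraMap R C)) :
    x ∈ I.map (algebraMap R C) := by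
  have htr : ∀ y : C, Algebra.trace R C (x * y) ∈ I := by
    intro y
    apply trace_mem_of_pow_mem b hI (n := n)
    rw [mul_pow]
    exact Ideal.mul_mem_right _ _ hx
  have hdet : IsUnit (Algebra.traceMatrix R b).det := hb
  have hcT : ∀ j, (b.equivFun x ᵥ* Algebra.traceMatrix R b) j ∈ I := by
    intro j
    have : (b.equivFun x ᵥ* Algebra.traceMatrix R b) j = Algebra.trace R C (x * b j) := by
      conv_rhs => rw [← b.sum_equivFun x]
      rw [Finset.sum_mul, map_sum]
      simp only [Matrix.vecMul, dotProduct, Algebra.traceMatrix_apply, Algebra.traceForm_apply]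
      apply Finset.sum_congr rfl
      intro i _
      rw [smul_mul_assoc, map_smul, smul_eq_mul]
    rw [this]; exact htr _
  have hc' : b.equivFun x =
      (b.equivFun x ᵥ* Algebra.traceMatrix R b) ᵥ* (Algebra.traceMatrix R b)⁻¹ := by
    rw [Matrix.vecMul_vecMul, Matrix.mul_nonsing_inv _ hdet, Matrix.vecMul_one]
  have hci : ∀ i, b.equivFun x i ∈ I := by
    intro i
    rw [hc']
    simp only [Matrix.vecMul, dotProduct]
    exact Ideal.sum_mem _ fun j _ => Ideal.mul_mem_right _ _ (hcT j)
  rw [← b.sum_equivFun x]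
  refine Ideal.sum_mem _ fun i _ => ?_
  rw [Algebra.smul_def]
  exact Ideal.mul_mem_right _ _ (Ideal.mem_map_of_mem _ (hci i))

/-- **The closed fibre is a product of fields.**  If the discriminant of `b` is a unit, `𝔪` is a
maximal ideal of `R` and `M ⊇ 𝔪 C` is a prime ideal of `C`, then there is `e ∉ M` with
`e M ⊆ 𝔪 C`. -/
theorem exists_not_mem_forall_mul_mem (b : Module.Basis ι R C) (hb : IsUnit (Algebra.discr R b))
    (𝔪 : Ideal R) [h𝔪 : 𝔪.IsMaximal] (M : Ideal C) [hMp : M.IsPrime]
    (hM : 𝔪.map (algebraMap R C) ≤ M) :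
    ∃ e : C, e ∉ M ∧ ∀ m ∈ M, e * m ∈ 𝔪.map (algebraMap R C) := by
  let _ := Ideal.Quotient.field 𝔪
  have hfin : Module.Finite R C := Module.Finite.of_basis b
  have : Module.Finite (R ⧸ 𝔪) (C ⧸ 𝔪.map (algebraMap R C)) :=
    Module.Finite.of_restrictScalars_finite R _ _
  have hart : IsArtinianRing (C ⧸ 𝔪.map (algebraMap R C)) := IsArtinianRing.of_finite (R ⧸ 𝔪) _
  have hred : IsReduced (C ⧸ 𝔪.map (algebraMap R C)) := by
    constructor
    intro a ha
    obtain ⟨x, rfl⟩ := Ideal.Quotient.mk_surjective a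
    obtain ⟨n, hn⟩ := ha
    rw [← map_pow, Ideal.Quotient.eq_zero_iff_mem] at hn
    exact Ideal.Quotient.eq_zero_iff_mem.2 (mem_map_of_pow_mem b hb h𝔪.isPrime.isRadical hn)
  have hss : IsSemisimpleRing (C ⧸ 𝔪.map (algebraMap R C)) :=
    IsArtinianRing.isSemisimpleRing_of_isReduced _
  obtain ⟨M', hM'⟩ := exists_isCompl (M.map (Ideal.Quotient.mk (𝔪.map (algebraMap R C))))
  have h1 : (1 : C ⧸ 𝔪.map (algebraMap R C)) ∈
      M.map (Ideal.Quotient.mk (𝔪.map (algebraMap R C))) ⊔ M' := by
    rw [hM'.sup_eq_top]; exact Submodule.mem_top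
  obtain ⟨m₀, hm₀, e₀, he₀, h10⟩ := Submodule.mem_sup.1 h1
  obtain ⟨e, rfl⟩ := Ideal.Quotient.mk_surjective e₀
  refine ⟨e, ?_, ?_⟩
  · intro heM
    have he' : (Ideal.Quotient.mk (𝔪.map (algebraMap R C)) e) ∈
        M.map (Ideal.Quotient.mk (𝔪.map (algebraMap R C))) := Ideal.mem_map_of_mem _ heM
    have h1M : (Ideal.Quotient.mk (𝔪.map (algebraMap R C)) 1) ∈
        M.map (Ideal.Quotient.mk (𝔪.map (algebraMap R C))) := by
      rw [map_one, ← h10]; exact Ideal.add_mem _ hm₀ he'
    have : (1 : C) ∈ M := (Ideal.mem_quotient_iff_mem hM).1 h1M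
    exact hMp.ne_top ((Ideal.eq_top_iff_one _).2 this)
  · intro m hm
    rw [← Ideal.Quotient.eq_zero_iff_mem, map_mul]
    have hmem : Ideal.Quotient.mk (𝔪.map (algebraMap R C)) e *
        Ideal.Quotient.mk (𝔪.map (algebraMap R C)) m ∈
        M.map (Ideal.Quotient.mk (𝔪.map (algebraMap R C))) ⊓ M' :=
      ⟨Ideal.mul_mem_left _ _ (Ideal.mem_map_of_mem _ hm), Ideal.mul_mem_right _ _ he₀⟩
    rw [hM'.inf_eq_bot] at hmem
    exact hmem

end Fibre

section Krull

variable {B : Type*} [CommRing B] [IsNoetherianRing B]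

/-- **Krull intersection argument.**  `B` Noetherian, `ϖ` a nonzerodivisor in the prime `M`, and
`e ∉ M` with `e M ⊆ ϖ B` (so `M B_M = ϖ B_M`).  Then every minimal prime `P ⊆ M` of `B` is
contained in every prime `Q ⊆ M`. -/
theorem le_of_minimalPrimes_of_mul_mem {ϖ : B} (hϖ : ϖ ∈ nonZeroDivisors B) {M : Ideal B}
    [hMp : M.IsPrime] (hϖM : ϖ ∈ M) {e : B} (he : e ∉ M) (heM : ∀ m ∈ M, ∃ m', e * m = ϖ * m')
    {P Q : Ideal B} (hP : P ∈ minimalPrimes B) (hPM : P ≤ M) (hQ : Q.IsPrime) (hQM : Q ≤ M) :
    P ≤ Q := by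
  have hPprime : P.IsPrime := hP.1.1
  have hϖP : ϖ ∉ P := fun h =>
    Set.disjoint_left.1 (Ideal.disjoint_nonZeroDivisors_of_mem_minimalPrimes hP) h hϖ
  intro x hx
  have key : ∀ n : ℕ, ∃ y ∈ P, e ^ n * x = ϖ ^ n * y := by
    intro n
    induction n with
    | zero => exact ⟨x, hx, by simp⟩
    | succ n ih =>
      obtain ⟨y, hy, hxy⟩ := ih
      obtain ⟨y', hy'⟩ := heM y (hPM hy)
      have hy'P : y' ∈ P := by
        have : ϖ * y' ∈ P := hy' ▸ Ideal.mul_mem_left _ _ hy
        exact (hPprime.mem_or_mem this).resolve_left hϖP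
      refine ⟨y', hy'P, ?_⟩
      calc e ^ (n + 1) * x = e * (e ^ n * x) := by ring
        _ = e * (ϖ ^ n * y) := by rw [hxy]
        _ = ϖ ^ n * (e * y) := by ring
        _ = ϖ ^ n * (ϖ * y') := by rw [hy']
        _ = ϖ ^ (n + 1) * y' := by ring
  have hx0 : algebraMap B (Localization.AtPrime M) x = 0 := by
    have hmem : algebraMap B (Localization.AtPrime M) x ∈
        ⨅ i : ℕ, (IsLocalRing.maximalIdeal (Localization.AtPrime M)) ^ i := by
      rw [Submodule.mem_iInf]
      intro n
      obtain ⟨y, -, hxy⟩ := key n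
      have hu : IsUnit (algebraMap B (Localization.AtPrime M) e) :=
        IsLocalization.map_units (Localization.AtPrime M) (⟨e, he⟩ : M.primeCompl)
      have hϖm : algebraMap B (Localization.AtPrime M) ϖ ∈
          IsLocalRing.maximalIdeal (Localization.AtPrime M) :=
        (IsLocalization.AtPrime.to_map_mem_maximal_iff (Localization.AtPrime M) M ϖ).2 hϖM
      have h1 : (algebraMap B (Localization.AtPrime M) e) ^ n *
          algebraMap B (Localization.AtPrime M) x ∈
          (IsLocalRing.maximalIdeal (Localization.AtPrime M)) ^ n := by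
        rw [← map_pow, ← map_mul, hxy, map_mul, map_pow]
        exact Ideal.mul_mem_right _ _ (Ideal.pow_mem_pow hϖm n)
      obtain ⟨u, hu'⟩ := hu.pow n
      have : algebraMap B (Localization.AtPrime M) x =
          ↑u⁻¹ * ((algebraMap B (Localization.AtPrime M) e) ^ n *
            algebraMap B (Localization.AtPrime M) x) := by
        rw [← hu', ← mul_assoc, Units.inv_mul, one_mul]
      rw [this]
      exact Ideal.mul_mem_left _ _ h1
    rw [Ideal.iInf_pow_eq_bot_of_isLocalRing _
      (IsLocalRing.maximalIdeal.isMaximal (Localization.AtPrime M)).ne_top] at hmem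
    exact hmem
  obtain ⟨s, hs⟩ := (IsLocalization.map_eq_zero_iff M.primeCompl (Localization.AtPrime M) x).1 hx0
  have hsQ : (s : B) ∉ Q := fun h => s.2 (hQM h)
  have : (s : B) * x ∈ Q := by rw [hs]; exact Q.zero_mem
  exact (hQ.mem_or_mem this).resolve_left hsQ

/-- In the situation of `le_of_minimalPrimes_of_mul_mem`, the prime `M` contains at most one
minimal prime of `B`. -/
theorem eq_of_minimalPrimes_of_mul_mem {ϖ : B} (hϖ : ϖ ∈ nonZeroDivisors B) {M : Ideal B}
    [M.IsPrime] (hϖM : ϖ ∈ M) {e : B} (he : e ∉ M) (heM : ∀ m ∈ M, ∃ m', e * m = ϖ * m')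
    {P Q : Ideal B} (hP : P ∈ minimalPrimes B) (hQ : Q ∈ minimalPrimes B) (hPM : P ≤ M)
    (hQM : Q ≤ M) : P = Q :=
  le_antisymm (le_of_minimalPrimes_of_mul_mem hϖ hϖM he heM hP hPM hQ.1.1 hQM)
    (le_of_minimalPrimes_of_mul_mem hϖ hϖM he heM hQ hQM hP.1.1 hPM)

end Krull

section Main

variable {R C ι : Type*} [CommRing R] [CommRing C] [Algebra R C] [Fintype ι] [DecidableEq ι]

omit [DecidableEq ι] in
/-- If `C` is free over `R` with basis `b`, `(π)` is a prime ideal of `R` and `s ∉ (π)`, then `s`
is a nonzerodivisor modulo `π C`. -/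
theorem mem_span_of_algebraMap_mul_mem (b : Module.Basis ι R C) {π s : R}
    (hπ : (Ideal.span {π}).IsPrime) (hs : s ∉ Ideal.span {π}) {x : C}
    (hx : algebraMap R C s * x ∈ Ideal.span {algebraMap R C π}) :
    x ∈ Ideal.span {algebraMap R C π} := by
  obtain ⟨y, hy⟩ := Ideal.mem_span_singleton'.1 hx
  have hcoord : ∀ i, b.equivFun x i ∈ Ideal.span {π} := by
    intro i
    have h1 : s • x = π • y := by
      rw [Algebra.smul_def, Algebra.smul_def, ← hy, mul_comm y]
    have h2 := congrFun (congrArg b.equivFun h1) i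
    rw [map_smul, map_smul, Pi.smul_apply, Pi.smul_apply, smul_eq_mul, smul_eq_mul] at h2
    have h3 : s * b.equivFun x i ∈ Ideal.span {π} := by
      rw [h2]; exact Ideal.mul_mem_right _ _ (Ideal.mem_span_singleton_self π)
    exact (hπ.mem_or_mem h3).resolve_left hs
  rw [← b.sum_equivFun x]
  refine Ideal.sum_mem _ fun i _ => ?_
  rw [Algebra.smul_def]
  refine Ideal.mul_mem_right _ _ ?_
  have := Ideal.mem_map_of_mem (algebraMap R C) (hcoord i)
  rwa [Ideal.map_span, Set.image_singleton] at this

/-- **Unit discriminant ⇒ one component through each closed point.**  Let `C` be finite free over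
the Noetherian ring `R` with a basis of unit discriminant, `(π)` a prime ideal of `R`, `s ∉ (π)`
with `(π, s)` maximal, and `M` a prime of `C` containing `π` and `s`.  Then `M` contains at most
one minimal prime over `π C`. -/
theorem eq_of_le_of_mem_minimalPrimes [IsNoetherianRing R] (b : Module.Basis ι R C)
    (hb : IsUnit (Algebra.discr R b)) {π s : R} (hπ : (Ideal.span {π}).IsPrime)
    (hs : s ∉ Ideal.span {π}) (hmax : (Ideal.span {π, s}).IsMaximal) {M P Q : Ideal C}
    [hMp : M.IsPrime] (hπM : algebraMap R C π ∈ M) (hsM : algebraMap R C s ∈ M)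
    (hP : P ∈ (Ideal.span {algebraMap R C π}).minimalPrimes)
    (hQ : Q ∈ (Ideal.span {algebraMap R C π}).minimalPrimes) (hPM : P ≤ M) (hQM : Q ≤ M) :
    P = Q := by
  have hfin : Module.Finite R C := Module.Finite.of_basis b
  have hnoeth : IsNoetherianRing C := isNoetherian_of_tower R (inferInstance : IsNoetherian R C)
  have hmap : (Ideal.span {π, s}).map (algebraMap R C) =
      Ideal.span {algebraMap R C π, algebraMap R C s} := by
    rw [Ideal.map_span, Set.image_pair]
  have hmapM : (Ideal.span {π, s}).map (algebraMap R C) ≤ M := by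
    rw [hmap, Ideal.span_le]
    rintro x (rfl | rfl)
    · exact hπM
    · exact hsM
  obtain ⟨e, heM, he⟩ := exists_not_mem_forall_mul_mem b hb (Ideal.span {π, s}) M hmapM
  have hIM : Ideal.span {algebraMap R C π} ≤ M := (Ideal.span_singleton_le_iff_mem _).2 hπM
  have hmk : Function.Surjective (Ideal.Quotient.mk (Ideal.span {algebraMap R C π})) :=
    Ideal.Quotient.mk_surjective
  -- `s` is a nonzerodivisor on `C / π C`
  have hreg0 : ∀ z : C ⧸ Ideal.span {algebraMap R C π},
      Ideal.Quotient.mk (Ideal.span {algebraMap R C π}) (algebraMap R C s) * z = 0 → z = 0 := by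
    intro z hz
    obtain ⟨x, rfl⟩ := hmk z
    rw [← map_mul, Ideal.Quotient.eq_zero_iff_mem] at hz
    exact Ideal.Quotient.eq_zero_iff_mem.2 (mem_span_of_algebraMap_mul_mem b hπ hs hz)
  have hreg : Ideal.Quotient.mk (Ideal.span {algebraMap R C π}) (algebraMap R C s) ∈
      nonZeroDivisors (C ⧸ Ideal.span {algebraMap R C π}) := by
    rw [mem_nonZeroDivisors_iff]
    exact ⟨hreg0, fun z hz => hreg0 z (by rw [mul_comm]; exact hz)⟩
  have hMbar : (M.map (Ideal.Quotient.mk (Ideal.span {algebraMap R C π}))).IsPrime :=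
    Ideal.map_isPrime_of_surjective hmk (by rw [Ideal.mk_ker]; exact hIM)
  have hsMbar : Ideal.Quotient.mk (Ideal.span {algebraMap R C π}) (algebraMap R C s) ∈
      M.map (Ideal.Quotient.mk (Ideal.span {algebraMap R C π})) := Ideal.mem_map_of_mem _ hsM
  have hebar : Ideal.Quotient.mk (Ideal.span {algebraMap R C π}) e ∉
      M.map (Ideal.Quotient.mk (Ideal.span {algebraMap R C π})) :=
    fun h => heM ((Ideal.mem_quotient_iff_mem hIM).1 h)
  have hemul : ∀ m ∈ M.map (Ideal.Quotient.mk (Ideal.span {algebraMap R C π})),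
      ∃ m', Ideal.Quotient.mk (Ideal.span {algebraMap R C π}) e * m =
        Ideal.Quotient.mk (Ideal.span {algebraMap R C π}) (algebraMap R C s) * m' := by
    intro m hm
    obtain ⟨m₁, hm₁, rfl⟩ := (Ideal.mem_map_iff_of_surjective _ hmk).1 hm
    have h1 := he m₁ hm₁
    rw [hmap] at h1
    obtain ⟨a, a', haa⟩ := Ideal.mem_span_pair.1 h1
    refine ⟨Ideal.Quotient.mk _ a', ?_⟩
    have h0 : Ideal.Quotient.mk (Ideal.span {algebraMap R C π}) (algebraMap R C π) = 0 :=
      Ideal.Quotient.eq_zero_iff_mem.2 (Ideal.mem_span_singleton_self _)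
    rw [← map_mul, ← haa, map_add, map_mul, map_mul, h0, mul_zero, zero_add, mul_comm]
  rw [Ideal.minimalPrimes_eq_comap] at hP hQ
  obtain ⟨P', hP', rfl⟩ := hP
  obtain ⟨Q', hQ', rfl⟩ := hQ
  have hP'M : P' ≤ M.map (Ideal.Quotient.mk (Ideal.span {algebraMap R C π})) := by
    rw [← Ideal.map_comap_of_surjective _ hmk P']
    exact Ideal.map_mono hPM
  have hQ'M : Q' ≤ M.map (Ideal.Quotient.mk (Ideal.span {algebraMap R C π})) := by
    rw [← Ideal.map_comap_of_surjective _ hmk Q']
    exact Ideal.map_mono hQM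
  rw [eq_of_minimalPrimes_of_mul_mem hreg hsMbar hebar hemul hP' hQ' hP'M hQ'M]

/-- **Unit discriminant ⇒ the components of the special fibre are disjoint (local form).**  Let
`R` be a Noetherian local ring with maximal ideal `(π, s)`, where `(π)` is prime and `s ∉ (π)`
(e.g. a two-dimensional regular local ring), and let `C` be finite free over `R` with a basis of
unit discriminant.  Then any two distinct minimal primes over `π C` are comaximal. -/
theorem sup_eq_top_of_ne [IsNoetherianRing R] [IsLocalRing R] (b : Module.Basis ι R C)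
    (hb : IsUnit (Algebra.discr R b)) {π s : R} (hπ : (Ideal.span {π}).IsPrime)
    (hs : s ∉ Ideal.span {π}) (hmax : IsLocalRing.maximalIdeal R = Ideal.span {π, s})
    {P Q : Ideal C} (hP : P ∈ (Ideal.span {algebraMap R C π}).minimalPrimes)
    (hQ : Q ∈ (Ideal.span {algebraMap R C π}).minimalPrimes) (hPQ : P ≠ Q) : P ⊔ Q = ⊤ := by
  by_contra h
  obtain ⟨M, hMmax, hle⟩ := Ideal.exists_le_maximal _ h
  have hfin : Module.Finite R C := Module.Finite.of_basis b
  have hint : Algebra.IsIntegral R C := inferInstance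
  have hcomap : (M.comap (algebraMap R C)).IsMaximal :=
    Ideal.isMaximal_comap_of_isIntegral_of_isMaximal M
  have hcm : M.comap (algebraMap R C) = Ideal.span {π, s} := by
    rw [← hmax]; exact IsLocalRing.eq_maximalIdeal hcomap
  have hπM : algebraMap R C π ∈ M := by
    have : π ∈ M.comap (algebraMap R C) := by
      rw [hcm]; exact Ideal.subset_span (Set.mem_insert _ _)
    exact this
  have hsM : algebraMap R C s ∈ M := by
    have : s ∈ M.comap (algebraMap R C) := by
      rw [hcm]; exact Ideal.subset_span (Set.mem_insert_of_mem _ rfl)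
    exact this
  have hmax' : (Ideal.span {π, s}).IsMaximal := hmax ▸ IsLocalRing.maximalIdeal.isMaximal R
  have hMp : M.IsPrime := hMmax.isPrime
  exact hPQ (eq_of_le_of_mem_minimalPrimes b hb hπ hs hmax' hπM hsM hP hQ
    (le_sup_left.trans hle) (le_sup_right.trans hle))

/-- **Unit discriminant over a discrete valuation ring.**  Let `R` be a Noetherian local domain
whose maximal ideal is generated by `s ≠ 0`, and `C` finite free over `R` with a basis of unit
discriminant.  Then any two distinct minimal primes of `C` are comaximal (so `C` is a finite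
product of domains). -/
theorem sup_eq_top_of_ne_of_isDomain [IsDomain R] [IsNoetherianRing R] [IsLocalRing R]
    (b : Module.Basis ι R C) (hb : IsUnit (Algebra.discr R b)) {s : R} (hs : s ≠ 0)
    (hmax : IsLocalRing.maximalIdeal R = Ideal.span {s}) {P Q : Ideal C}
    (hP : P ∈ minimalPrimes C) (hQ : Q ∈ minimalPrimes C) (hPQ : P ≠ Q) : P ⊔ Q = ⊤ := by
  have h0 : Ideal.span {(0 : R)} = ⊥ := Ideal.span_singleton_eq_bot.2 rfl
  have hπ : (Ideal.span {(0 : R)}).IsPrime := by rw [h0]; exact Ideal.isPrime_bot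
  have hs' : s ∉ Ideal.span {(0 : R)} := by rw [h0]; exact hs
  have hmax' : IsLocalRing.maximalIdeal R = Ideal.span {0, s} := by
    rw [hmax, Ideal.span_insert_zero]
  have hbot : Ideal.span {algebraMap R C 0} = ⊥ := by
    rw [map_zero]; exact Ideal.span_singleton_eq_bot.2 rfl
  have hP' : P ∈ (Ideal.span {algebraMap R C 0}).minimalPrimes := by rw [hbot]; exact hP
  have hQ' : Q ∈ (Ideal.span {algebraMap R C 0}).minimalPrimes := by rw [hbot]; exact hQ
  exact sup_eq_top_of_ne b hb hπ hs' hmax' hP' hQ' hPQ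

end Main

end Fermat.Agent.Lib.UnitDisc
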