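import Mathlib
import Fermat.Agent.Lib.UnitDisc

/-!
# Tame orders are regular: a trace-dual criterion for a normal special fibre

Mathlib-only commutative algebra (plus `Lib.UnitDisc.trace_mem_of_pow_mem`).

* `exists_socle`, `exists_not_mem_isNilpotent_mul` : two facts on Artinian rings.
* `exists_local_parameter` : `R` a commutative ring, `π` a prime element, `(π, t)` a maximal
  ideal, `π ∤ t`; `C` a finite free `R`-algebra with basis `b`, and elements `w i ∈ rad((π, t) C)`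
  with `Tr(w i * b j) = t * δ_ij` (so `w i = t * b_i^∨`: "`t C^∨ ⊆ rad`", the tame different
  condition).  Then every maximal ideal `M ∋ π, t` of `C` is generated, locally at `M` and
  modulo `π`, by one element: `∃ θ ∈ M, ∃ c ∉ M, c M ⊆ (π, θ)`.
* `isDiscreteValuationRing_atPrime` : a Noetherian ring `B`, a prime `𝔫` containing a
  nonzerodivisor, with `c 𝔫 ⊆ (θ)` for some `θ ∈ 𝔫`, `c ∉ 𝔫`: the localisation `B_𝔫` is a
  discrete valuation ring.
-/

set_option autoImplicit false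

namespace Fermat.Agent.Lib.TameOrder

open Fermat.Agent.Lib

section Artinian

variable {Ā : Type*} [CommRing Ā] [IsArtinianRing Ā]

/-- In an Artinian ring every element of a prime ideal `𝔫` becomes nilpotent after multiplication
by an element outside `𝔫`. -/
theorem exists_not_mem_isNilpotent_mul (𝔫 : Ideal Ā) [h𝔫 : 𝔫.IsPrime] {x : Ā} (hx : x ∈ 𝔫) :
    ∃ s, s ∉ 𝔫 ∧ IsNilpotent (s * x) := by
  obtain ⟨n, y, hy⟩ := IsArtinian.exists_pow_succ_smul_dvd x (1 : Ā)
  simp only [smul_eq_mul, mul_one] at hy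
  refine ⟨1 - x * y, fun hs => ?_, n + 1, ?_⟩
  · apply h𝔫.ne_top
    rw [Ideal.eq_top_iff_one]
    have h1 : (1 - x * y) + x * y ∈ 𝔫 := 𝔫.add_mem hs (𝔫.mul_mem_right y hx)
    simpa using h1
  · have h0 : (1 - x * y) * x ^ n = 0 := by
      calc (1 - x * y) * x ^ n = x ^ n - x ^ (n + 1) * y := by ring
        _ = 0 := by rw [← Nat.succ_eq_add_one, hy, sub_self]
    generalize 1 - x * y = s at h0 ⊢
    calc (s * x) ^ (n + 1) = s ^ n * x * (s * x ^ n) := by ring
      _ = 0 := by rw [h0, mul_zero]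

/-- A socle element at a maximal ideal of an Artinian ring. -/
theorem exists_socle (𝔫 : Ideal Ā) [h𝔫 : 𝔫.IsMaximal] :
    ∃ y : Ā, (∀ n ∈ 𝔫, n * y = 0) ∧ ∀ s, s * y = 0 → s ∈ 𝔫 := by
  have hann : Module.annihilator Ā Ā = ⊥ := by
    rw [eq_bot_iff]
    intro a ha
    have := Module.mem_annihilator.mp ha (1 : Ā)
    simpa using this
  have hmin : 𝔫 ∈ (Module.annihilator Ā Ā).minimalPrimes := by
    rw [hann]
    refine ⟨⟨h𝔫.isPrime, bot_le⟩, fun 𝔭 h𝔭 hle => ?_⟩
    have h𝔭p : 𝔭.IsPrime := h𝔭.1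
    have h𝔭m : 𝔭.IsMaximal := IsArtinianRing.isMaximal_of_isPrime 𝔭
    exact (h𝔭m.eq_of_le h𝔫.ne_top hle).ge
  have hass := Module.associatedPrimes.minimalPrimes_annihilator_subset_associatedPrimes Ā Ā hmin
  obtain ⟨-, y, hy⟩ := isAssociatedPrime_iff.mp hass
  refine ⟨y, fun n hn => ?_, fun s hs => ?_⟩
  · have h1 : n ∈ Submodule.colon (⊥ : Submodule Ā Ā) {y} := hy ▸ hn
    rw [Submodule.mem_colon_singleton] at h1
    simpa using h1
  · rw [hy, Submodule.mem_colon_singleton]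
    simpa using hs

end Artinian

section Main

variable {R C ι : Type*} [CommRing R] [CommRing C] [Algebra R C] [Fintype ι] [DecidableEq ι]

/-- **Tame orders are regular.**  `(π, t)` a maximal ideal of `R`, `π` prime, `π ∤ t`; `C` finite
free over `R` with basis `b`; `w i ∈ rad((π, t) C)` with `Tr(w i * b j) = t δ_ij`.  Then every
maximal ideal `M ∋ π, t` of `C` satisfies `c M ⊆ (π, θ)` for some `θ ∈ M`, `c ∉ M`. -/
theorem exists_local_parameter (b : Module.Basis ι R C) {π t : R}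
    (hπ : Prime π) (hπt : ¬ π ∣ t) (𝔪 : Ideal R) [hmax : 𝔪.IsMaximal]
    (h𝔪 : 𝔪 = Ideal.span {π, t}) (w : ι → C)
    (hw1 : ∀ i, ∃ n : ℕ, w i ^ n ∈ 𝔪.map (algebraMap R C))
    (hw2 : ∀ i j, Algebra.trace R C (w i * b j) = if i = j then t else 0)
    (M : Ideal C) (hM : M.IsMaximal) (hπM : algebraMap R C π ∈ M) (htM : algebraMap R C t ∈ M) :
    ∃ θ ∈ M, ∃ c, c ∉ M ∧ ∀ y ∈ M, c * y ∈ Ideal.span {algebraMap R C π, θ} := by
  classical
  have hMp : M.IsPrime := hM.isPrime
  have hIspan : 𝔪.map (algebraMap R C) = Ideal.span {algebraMap R C π, algebraMap R C t} := by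
    rw [h𝔪, Ideal.map_span, Set.image_pair]
  have hIM : 𝔪.map (algebraMap R C) ≤ M := by
    rw [hIspan, Ideal.span_le]
    rintro x (rfl | rfl)
    · exact hπM
    · exact htM
  -- traces of nilpotents
  have hTr : ∀ x : C, (∃ n : ℕ, x ^ n ∈ 𝔪.map (algebraMap R C)) → Algebra.trace R C x ∈ 𝔪 := by
    rintro x ⟨n, hn⟩
    exact UnitDisc.trace_mem_of_pow_mem b hmax.isPrime.isRadical hn
  -- the coordinates are computed by the `w i`
  have hcoord : ∀ (y : C) (i : ι), Algebra.trace R C (y * w i) = t * b.repr y i := by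
    intro y i
    conv_lhs => rw [← b.sum_repr y]
    rw [Finset.sum_mul, map_sum]
    have h1 : ∀ j, Algebra.trace R C (b.repr y j • b j * w i) =
        if i = j then t * b.repr y j else 0 := by
      intro j
      rw [smul_mul_assoc, map_smul, mul_comm (b j) (w i), hw2 i j, smul_eq_mul]
      split_ifs <;> ring
    simp_rw [h1]
    rw [Finset.sum_ite_eq]
    simp
  -- membership in `𝔪 C` from the coordinates
  have hmemI : ∀ y : C, (∀ i, b.repr y i ∈ 𝔪) → y ∈ 𝔪.map (algebraMap R C) := by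
    intro y hy
    rw [← b.sum_repr y]
    refine Ideal.sum_mem _ fun i _ => ?_
    rw [Algebra.smul_def]
    exact Ideal.mul_mem_right _ _ (Ideal.mem_map_of_mem _ (hy i))
  -- `t` is a nonzerodivisor modulo `π`
  have hnzd : ∀ v c : C, algebraMap R C t * v = algebraMap R C π * c →
      ∃ c', v = algebraMap R C π * c' := by
    intro v c h
    have h1 : ∀ i, π ∣ b.repr v i := by
      intro i
      have h2 := congrArg (fun z => b.repr z i) h
      simp only [← Algebra.smul_def, map_smul, Finsupp.smul_apply, smul_eq_mul] at h2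
      exact (hπ.dvd_or_dvd ⟨_, h2⟩).resolve_left hπt
    choose q hq using h1
    refine ⟨∑ i, q i • b i, ?_⟩
    rw [← Algebra.smul_def, Finset.smul_sum]
    conv_lhs => rw [← b.sum_repr v]
    refine Finset.sum_congr rfl fun i _ => ?_
    rw [smul_smul, ← hq i]
  -- `(rad : rad) = C`, modulo `π`
  have hB1 : ∀ y : C, (∀ i, ∃ r c : C, (∃ n : ℕ, r ^ n ∈ 𝔪.map (algebraMap R C)) ∧
      y * w i = algebraMap R C t * r + algebraMap R C π * c) → y ∈ 𝔪.map (algebraMap R C) := by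
    intro y hy
    refine hmemI y fun i => ?_
    obtain ⟨r, c, hr, hyw⟩ := hy i
    have h1 := hcoord y i
    rw [hyw, map_add, ← Algebra.smul_def, ← Algebra.smul_def, map_smul, map_smul, smul_eq_mul,
      smul_eq_mul] at h1
    have h3 := hTr r hr
    rw [h𝔪, Ideal.mem_span_pair] at h3
    obtain ⟨a, a', ha⟩ := h3
    have h2 : π ∣ t * (b.repr y i - a' * t) := by
      refine ⟨t * a + Algebra.trace R C c, ?_⟩
      rw [← ha] at h1
      linear_combination -h1
    obtain ⟨q, hq⟩ := (hπ.dvd_or_dvd h2).resolve_left hπt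
    rw [h𝔪, Ideal.mem_span_pair]
    exact ⟨q, a', by linear_combination -hq⟩
  -- the Artinian closed fibre
  let _ := Ideal.Quotient.field 𝔪
  have hfin : Module.Finite R C := Module.Finite.of_basis b
  have hfinq : Module.Finite (R ⧸ 𝔪) (C ⧸ 𝔪.map (algebraMap R C)) :=
    Module.Finite.of_restrictScalars_finite R _ _
  have hart : IsArtinianRing (C ⧸ 𝔪.map (algebraMap R C)) := IsArtinianRing.of_finite (R ⧸ 𝔪) _
  set 𝔫 : Ideal (C ⧸ 𝔪.map (algebraMap R C)) :=
    M.map (Ideal.Quotient.mk (𝔪.map (algebraMap R C))) with h𝔫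
  have h𝔫max : 𝔫.IsMaximal :=
    Ideal.IsMaximal.map_of_surjective_of_ker_le Ideal.Quotient.mk_surjective
      (by rw [Ideal.mk_ker]; exact hIM)
  have hmk𝔫 : ∀ x : C, Ideal.Quotient.mk (𝔪.map (algebraMap R C)) x ∈ 𝔫 ↔ x ∈ M :=
    fun x => Ideal.mem_quotient_iff_mem hIM
  obtain ⟨y0, hy01, hy02⟩ := exists_socle 𝔫
  obtain ⟨y, rfl⟩ := Ideal.Quotient.mk_surjective y0
  have hS1 : ∀ n ∈ M, n * y ∈ 𝔪.map (algebraMap R C) := by
    intro n hn
    rw [← Ideal.Quotient.eq_zero_iff_mem, map_mul]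
    exact hy01 _ ((hmk𝔫 n).mpr hn)
  have hS2 : ∀ s : C, s * y ∈ 𝔪.map (algebraMap R C) → s ∈ M := by
    intro s hs
    rw [← hmk𝔫]
    apply hy02
    rw [← map_mul, Ideal.Quotient.eq_zero_iff_mem]
    exact hs
  -- every element of `M` is nilpotent modulo `𝔪 C`, locally at `M`
  have hL : ∀ n ∈ M, ∃ s, s ∉ M ∧ ∃ k : ℕ, (s * n) ^ k ∈ 𝔪.map (algebraMap R C) := by
    intro n hn
    have h𝔫p : 𝔫.IsPrime := h𝔫max.isPrime
    obtain ⟨s0, hs0, k, hk⟩ := exists_not_mem_isNilpotent_mul 𝔫 ((hmk𝔫 n).mpr hn)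
    obtain ⟨s, rfl⟩ := Ideal.Quotient.mk_surjective s0
    refine ⟨s, fun hs => hs0 ((hmk𝔫 s).mpr hs), k, ?_⟩
    rw [← Ideal.Quotient.eq_zero_iff_mem, map_pow, map_mul]
    exact hk
  have hwM : ∀ i, w i ∈ M := fun i => by
    obtain ⟨n, hn⟩ := hw1 i
    exact hMp.mem_of_pow_mem n (hIM hn)
  -- the local parameter
  have hθ : ∃ θ ∈ M, ∀ n' ∈ M, ∀ c₂ : C,
      y * θ ≠ algebraMap R C t * n' + algebraMap R C π * c₂ := by
    by_contra hcon
    push Not at hcon
    choose n' hn'M c₂ hyw using fun i => hcon (w i) (hwM i)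
    choose s hsM k hk using fun i => hL (n' i) (hn'M i)
    have hsprod : ∏ i, s i ∉ M := by
      intro h
      obtain ⟨i, -, hi⟩ := Ideal.IsPrime.prod_mem_iff.mp h
      exact hsM i hi
    have h1 : (∏ i, s i) * y ∈ 𝔪.map (algebraMap R C) := by
      apply hB1
      intro i
      refine ⟨(∏ j, s j) * n' i, (∏ j, s j) * c₂ i, ⟨k i, ?_⟩, ?_⟩
      · have h2 : (∏ j, s j) * n' i = (∏ j ∈ Finset.univ.erase i, s j) * (s i * n' i) := by
          rw [← Finset.mul_prod_erase Finset.univ s (Finset.mem_univ i)]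
          ring
        rw [h2, mul_pow]
        exact Ideal.mul_mem_left _ _ (hk i)
      · rw [mul_assoc, hyw i]
        ring
    exact hsprod (hS2 _ h1)
  obtain ⟨θ, hθM, hθ'⟩ := hθ
  have h1 : y * θ ∈ 𝔪.map (algebraMap R C) := by
    rw [mul_comm]; exact hS1 θ hθM
  rw [hIspan, Ideal.mem_span_pair] at h1
  obtain ⟨c₂, c, hc⟩ := h1
  have hcM : c ∉ M := fun hcM => hθ' c hcM c₂ (by rw [← hc]; ring)
  refine ⟨θ, hθM, c, hcM, fun y' hy' => ?_⟩
  have h2 : y * y' ∈ 𝔪.map (algebraMap R C) := by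
    rw [mul_comm]; exact hS1 y' hy'
  rw [hIspan, Ideal.mem_span_pair] at h2
  obtain ⟨u₂, u, hu⟩ := h2
  obtain ⟨c', hc'⟩ := hnzd (c * y' - θ * u) (θ * u₂ - c₂ * y')
    (by linear_combination y' * hc - θ * hu)
  rw [Ideal.mem_span_pair]
  exact ⟨c', u, by linear_combination -hc'⟩

end Main

section DVR

variable {B : Type*} [CommRing B] [IsNoetherianRing B]

/-- A Noetherian local ring whose maximal ideal is generated by a nonzerodivisor is a domain. -/
theorem isDomain_of_maximalIdeal_eq_span {B' : Type*} [CommRing B'] [IsNoetherianRing B']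
    [IsLocalRing B'] {θ : B'} (hθ : θ ∈ nonZeroDivisors B')
    (hmax : IsLocalRing.maximalIdeal B' = Ideal.span {θ}) : IsDomain B' := by
  have hkrull : ⨅ n : ℕ, IsLocalRing.maximalIdeal B' ^ n = ⊥ :=
    Ideal.iInf_pow_eq_bot_of_isLocalRing _ (IsLocalRing.maximalIdeal.isMaximal B').ne_top
  have hpow : ∀ n : ℕ, IsLocalRing.maximalIdeal B' ^ n = Ideal.span {θ ^ n} := by
    intro n
    rw [hmax, Ideal.span_singleton_pow]
  have key : ∀ x : B', x ≠ 0 → ∃ (n : ℕ) (u : B'), IsUnit u ∧ x = θ ^ n * u := by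
    intro x hx
    have hex : ∃ n : ℕ, x ∉ IsLocalRing.maximalIdeal B' ^ n := by
      by_contra hall
      push Not at hall
      apply hx
      have h1 : x ∈ ⨅ n : ℕ, IsLocalRing.maximalIdeal B' ^ n := Ideal.mem_iInf.mpr hall
      rw [hkrull] at h1
      exact h1
    classical
    have hn := Nat.find_spec hex
    have hmin := fun m (hm : m < Nat.find hex) => Nat.find_min hex hm
    set n := Nat.find hex with hn'
    have hn0 : n ≠ 0 := by
      intro h0
      rw [h0, pow_zero, Ideal.one_eq_top] at hn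
      exact hn Submodule.mem_top
    obtain ⟨m, hm⟩ := Nat.exists_eq_succ_of_ne_zero hn0
    have h2 : x ∈ IsLocalRing.maximalIdeal B' ^ m := by
      by_contra h3
      exact hmin m (by omega) h3
    rw [hpow, Ideal.mem_span_singleton] at h2
    obtain ⟨v, hv⟩ := h2
    refine ⟨m, v, ?_, hv⟩
    rw [← IsLocalRing.notMem_maximalIdeal]
    intro hvm
    apply hn
    rw [hmax, Ideal.mem_span_singleton] at hvm
    obtain ⟨v', hv'⟩ := hvm
    rw [hm, hpow, Ideal.mem_span_singleton]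
    exact ⟨v', by rw [hv, hv', Nat.succ_eq_add_one, pow_succ]; ring⟩
  have hnz : NoZeroDivisors B' := by
    refine ⟨fun {x y} hxy => ?_⟩
    by_contra hcon
    push Not at hcon
    obtain ⟨n, u, hu, rfl⟩ := key x hcon.1
    obtain ⟨m, v, hv, rfl⟩ := key y hcon.2
    have h1 : θ ^ (n + m) * (u * v) = 0 := by
      rw [← hxy, pow_add]; ring
    have h2 : θ ^ (n + m) = 0 := by
      rwa [(hu.mul hv).mul_left_eq_zero] at h1
    have h3 : (θ ^ (n + m)) ∈ nonZeroDivisors B' := pow_mem hθ _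
    rw [h2] at h3
    exact zero_notMem_nonZeroDivisors h3
  exact NoZeroDivisors.to_isDomain B'

/-- **Principal maximal ideal ⇒ DVR.**  `B` Noetherian, `𝔫` a prime containing a nonzerodivisor
`ϖ`, and `c 𝔫 ⊆ (θ)` for some `θ ∈ 𝔫`, `c ∉ 𝔫`.  Then `B_𝔫` is a discrete valuation ring. -/
theorem isDiscreteValuationRing_atPrime (𝔫 : Ideal B) [h𝔫 : 𝔫.IsPrime] {ϖ θ c : B}
    (hϖ : ϖ ∈ nonZeroDivisors B) (hϖ𝔫 : ϖ ∈ 𝔫) (hθ : θ ∈ 𝔫) (hc : c ∉ 𝔫)
    (h : ∀ y ∈ 𝔫, c * y ∈ Ideal.span {θ}) :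
    ∃ _ : IsDomain (Localization.AtPrime 𝔫), IsDiscreteValuationRing (Localization.AtPrime 𝔫) := by
  have hnoeth : IsNoetherianRing (Localization.AtPrime 𝔫) :=
    IsLocalization.isNoetherianRing 𝔫.primeCompl _ inferInstance
  have hcu : IsUnit (algebraMap B (Localization.AtPrime 𝔫) c) :=
    IsLocalization.map_units (Localization.AtPrime 𝔫) (⟨c, hc⟩ : 𝔫.primeCompl)
  have hmax : IsLocalRing.maximalIdeal (Localization.AtPrime 𝔫) =
      Ideal.span {algebraMap B (Localization.AtPrime 𝔫) θ} := by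
    rw [← IsLocalization.AtPrime.map_eq_maximalIdeal 𝔫 (Localization.AtPrime 𝔫)]
    refine le_antisymm ?_ ?_
    · rw [Ideal.map_le_iff_le_comap]
      intro y hy
      rw [Ideal.mem_comap]
      obtain ⟨u, hu⟩ := Ideal.mem_span_singleton.mp (h y hy)
      rw [Ideal.mem_span_singleton]
      have h1 : algebraMap B (Localization.AtPrime 𝔫) c * algebraMap B (Localization.AtPrime 𝔫) y
          = algebraMap B (Localization.AtPrime 𝔫) θ * algebraMap B (Localization.AtPrime 𝔫) u := by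
        rw [← map_mul, ← map_mul, hu]
      obtain ⟨cu, hcu'⟩ := hcu
      refine ⟨↑cu⁻¹ * algebraMap B (Localization.AtPrime 𝔫) u, ?_⟩
      rw [← hcu'] at h1
      calc algebraMap B (Localization.AtPrime 𝔫) y
          = ↑cu⁻¹ * (↑cu * algebraMap B (Localization.AtPrime 𝔫) y) := by
            rw [← mul_assoc, Units.inv_mul, one_mul]
        _ = _ := by rw [h1]; ring
    · rw [Ideal.span_le, Set.singleton_subset_iff]
      exact Ideal.mem_map_of_mem _ hθ
  have hϖ' : algebraMap B (Localization.AtPrime 𝔫) ϖ ∈ nonZeroDivisors (Localization.AtPrime 𝔫) :=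
    IsLocalization.map_nonZeroDivisors_le 𝔫.primeCompl (Localization.AtPrime 𝔫)
      (Submonoid.mem_map_of_mem _ hϖ)
  have hθ' : algebraMap B (Localization.AtPrime 𝔫) θ ∈ nonZeroDivisors (Localization.AtPrime 𝔫) := by
    obtain ⟨u, hu⟩ := Ideal.mem_span_singleton.mp (h ϖ hϖ𝔫)
    have h1 : algebraMap B (Localization.AtPrime 𝔫) θ * algebraMap B (Localization.AtPrime 𝔫) u ∈
        nonZeroDivisors (Localization.AtPrime 𝔫) := by
      rw [← map_mul, ← hu, map_mul]
      exact mul_mem hcu.mem_nonZeroDivisors hϖ'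
    exact (mul_mem_nonZeroDivisors.mp h1).1
  have hdom : IsDomain (Localization.AtPrime 𝔫) := isDomain_of_maximalIdeal_eq_span hθ' hmax
  refine ⟨hdom, ?_⟩
  have hnf : ¬ IsField (Localization.AtPrime 𝔫) := by
    rw [IsLocalRing.isField_iff_maximalIdeal_eq, hmax, Ideal.span_singleton_eq_bot]
    exact nonZeroDivisors.ne_zero hθ'
  have hprinc : (IsLocalRing.maximalIdeal (Localization.AtPrime 𝔫)).IsPrincipal :=
    ⟨⟨_, hmax⟩⟩
  exact ((IsDiscreteValuationRing.TFAE (Localization.AtPrime 𝔫) hnf).out 0 4).mpr hprinc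

end DVR

end Fermat.Agent.Lib.TameOrder
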