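import Fermat.Agent.Lib.TorsionCard.Count
import Fermat.Prelude.Def_FLTPrelim_GaloisRep
import Fermat.Prelude.Def_FLTPrelim_FreyPackage

set_option autoImplicit false

namespace Fermat.Agent.Lib.TorsionCard

open WeierstrassCurve WeierstrassCurve.Affine WeierstrassCurve.Affine.Point

section General

variable {F : Type*} [Field F] [DecidableEq F] (W : WeierstrassCurve.Affine F)
  [IsAlgClosed F] [CharZero F] [W.IsElliptic]

/-- The `n`-torsion submodule has `n ^ 2` elements. -/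
theorem card_torsionBy (n : ℕ) (hn : 0 < n) :
    Nat.card (Submodule.torsionBy ℤ W.Point (n : ℤ)) = n ^ 2 := by
  rw [← card_torsion W n hn]
  refine Nat.card_congr (Equiv.subtypeEquivRight fun P => ?_)
  rw [Submodule.mem_torsionBy_iff, natCast_zsmul]

theorem finite_torsionBy (n : ℕ) (hn : 0 < n) :
    Finite (Submodule.torsionBy ℤ W.Point (n : ℤ)) :=
  Nat.finite_of_card_ne_zero (by rw [card_torsionBy W n hn]; positivity)

theorem nontrivial_torsionBy (n : ℕ) (hn : 2 ≤ n) :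
    Nontrivial (Submodule.torsionBy ℤ W.Point (n : ℤ)) := by
  have := finite_torsionBy W n (by omega)
  rw [← Finite.one_lt_card_iff_nontrivial, card_torsionBy W n (by omega)]
  nlinarith

end General

section PreludeShape

variable {R K : Type*} [CommRing R] [Field K] [DecidableEq K] [Algebra R K]
  [IsAlgClosed K] [CharZero K] (W' : WeierstrassCurve.Affine R) [(W'⁄K).IsElliptic]

/-- `E[p]` is two-dimensional over `ZMod p` (for the module structure of the Prelude). -/
theorem finrank_torsionBy (p : ℕ) [Fact p.Prime] :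
    Module.finrank (ZMod p) (Submodule.torsionBy ℤ (W'⁄K).Point p) = 2 := by
  have hp : p.Prime := Fact.out
  have := finite_torsionBy (W'⁄K) p hp.pos
  have h := card_torsionBy (W'⁄K) p hp.pos
  have h2 : Nat.card (Submodule.torsionBy ℤ (W'⁄K).Point p) =
      p ^ Module.finrank (ZMod p) (Submodule.torsionBy ℤ (W'⁄K).Point p) := by
    rw [Module.natCard_eq_pow_finrank (K := ZMod p), Nat.card_zmod]
  rw [h] at h2
  exact (Nat.pow_right_injective hp.two_le h2).symm

theorem finite_module_torsionBy (p : ℕ) [Fact p.Prime] :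
    Module.Finite (ZMod p) (Submodule.torsionBy ℤ (W'⁄K).Point p) := by
  have := finite_torsionBy (W'⁄K) p (Fact.out : p.Prime).pos
  exact Module.Finite.of_finite

/-- A proper nonzero submodule of `E[p]` is a line. -/
theorem finrank_submodule_eq_one (p : ℕ) [Fact p.Prime]
    (N : Submodule (ZMod p) (Submodule.torsionBy ℤ (W'⁄K).Point p))
    (h0 : N ≠ ⊥) (h1 : N ≠ ⊤) : Module.finrank (ZMod p) N = 1 := by
  have := finite_module_torsionBy (K := K) W' p
  have hle : Module.finrank (ZMod p) N ≤ 2 := by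
    rw [← finrank_torsionBy (K := K) W' p]
    exact Submodule.finrank_le N
  have hne0 : Module.finrank (ZMod p) N ≠ 0 := by
    intro h
    exact h0 (Submodule.finrank_eq_zero.mp h)
  have hne2 : Module.finrank (ZMod p) N ≠ 2 := by
    intro h
    apply h1
    apply Submodule.eq_top_of_finrank_eq
    rw [h, finrank_torsionBy (K := K) W' p]
  omega

/-- A proper nonzero submodule of `E[p]` has `p` elements. -/
theorem card_submodule (p : ℕ) [Fact p.Prime]
    (N : Submodule (ZMod p) (Submodule.torsionBy ℤ (W'⁄K).Point p))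
    (h0 : N ≠ ⊥) (h1 : N ≠ ⊤) : Nat.card N = p := by
  have := finite_module_torsionBy (K := K) W' p
  rw [Module.natCard_eq_pow_finrank (K := ZMod p), Nat.card_zmod,
    finrank_submodule_eq_one W' p N h0 h1, pow_one]

/-- A proper nonzero submodule of `E[p]` is spanned by each of its nonzero elements. -/
theorem exists_smul_eq_of_mem (p : ℕ) [Fact p.Prime]
    (N : Submodule (ZMod p) (Submodule.torsionBy ℤ (W'⁄K).Point p))
    (h0 : N ≠ ⊥) (h1 : N ≠ ⊤) {x y : Submodule.torsionBy ℤ (W'⁄K).Point p}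
    (hx : x ∈ N) (hx0 : x ≠ 0) (hy : y ∈ N) : ∃ a : ZMod p, y = a • x := by
  have h := finrank_submodule_eq_one W' p N h0 h1
  have hx0' : (⟨x, hx⟩ : N) ≠ 0 := fun h => hx0 (congrArg Subtype.val h)
  obtain ⟨a, ha⟩ := (finrank_eq_one_iff_of_nonzero' (⟨x, hx⟩ : N) hx0').mp h ⟨y, hy⟩
  exact ⟨a, (congrArg Subtype.val ha).symm⟩

/-- A proper nonzero submodule of `E[p]` is cyclic, generated by any of its nonzero elements
(natural-number multiples). -/
theorem exists_nsmul_eq_of_mem (p : ℕ) [Fact p.Prime]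
    (N : Submodule (ZMod p) (Submodule.torsionBy ℤ (W'⁄K).Point p))
    (h0 : N ≠ ⊥) (h1 : N ≠ ⊤) {x y : Submodule.torsionBy ℤ (W'⁄K).Point p}
    (hx : x ∈ N) (hx0 : x ≠ 0) (hy : y ∈ N) : ∃ k : ℕ, y = k • x := by
  obtain ⟨a, ha⟩ := exists_smul_eq_of_mem W' p N h0 h1 hx hx0 hy
  refine ⟨a.val, ?_⟩
  rw [ha, ← Nat.cast_smul_eq_nsmul (ZMod p) a.val x, ZMod.natCast_zmod_val]

/-- A proper nonzero submodule of `E[p]` has a generator. -/
theorem exists_generator (p : ℕ) [Fact p.Prime]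
    (N : Submodule (ZMod p) (Submodule.torsionBy ℤ (W'⁄K).Point p))
    (h0 : N ≠ ⊥) (h1 : N ≠ ⊤) :
    ∃ R0 ∈ N, R0 ≠ 0 ∧ ∀ x ∈ N, ∃ k : ℕ, x = k • R0 := by
  obtain ⟨R0, hR0, hR0'⟩ := Submodule.exists_mem_ne_zero_of_ne_bot h0
  exact ⟨R0, hR0, hR0', fun x hx => exists_nsmul_eq_of_mem W' p N h0 h1 hR0 hR0' hx⟩

end PreludeShape

section Frey

/-- The discriminant of the Frey curve. -/
theorem freyCurve_Δ (P : FreyPackage) :
    P.freyCurve.Δ =
      ((P.a : ℚ) ^ P.p) ^ 2 * ((P.b : ℚ) ^ P.p) ^ 2 * ((P.c : ℚ) ^ P.p) ^ 2 / 256 := by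
  have h : (P.c : ℚ) ^ P.p = (P.a : ℚ) ^ P.p + (P.b : ℚ) ^ P.p := by
    exact_mod_cast P.hFLT.symm
  simp only [WeierstrassCurve.Δ, WeierstrassCurve.b₂, WeierstrassCurve.b₄, WeierstrassCurve.b₆,
    WeierstrassCurve.b₈, FreyPackage.freyCurve]
  rw [h]
  ring

theorem freyCurve_Δ_ne_zero (P : FreyPackage) : P.freyCurve.Δ ≠ 0 := by
  rw [freyCurve_Δ]
  have ha : (P.a : ℚ) ≠ 0 := by exact_mod_cast P.ha0
  have hb : (P.b : ℚ) ≠ 0 := by exact_mod_cast P.hb0
  have hc : (P.c : ℚ) ≠ 0 := by exact_mod_cast P.hc0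
  positivity

instance freyCurve_isElliptic (P : FreyPackage) : P.freyCurve.IsElliptic :=
  ⟨isUnit_iff_ne_zero.mpr (freyCurve_Δ_ne_zero P)⟩

instance freyCurve_baseChange_isElliptic (P : FreyPackage) :
    (P.freyCurve⁄(AlgebraicClosure ℚ)).IsElliptic :=
  inferInstanceAs ((P.freyCurve.map (algebraMap ℚ (AlgebraicClosure ℚ))).IsElliptic)

/-- The `p`-torsion of the Frey curve over `ℚ̄` is two-dimensional. -/
theorem frey_finrank (P : FreyPackage) :
    Module.finrank (ZMod P.p)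
      (Submodule.torsionBy ℤ (P.freyCurve⁄(AlgebraicClosure ℚ)).Point P.p) = 2 := by
  have : Fact P.p.Prime := ⟨P.pp⟩
  exact finrank_torsionBy (K := AlgebraicClosure ℚ) P.freyCurve P.p

theorem frey_card (P : FreyPackage) :
    Nat.card (Submodule.torsionBy ℤ (P.freyCurve⁄(AlgebraicClosure ℚ)).Point P.p) = P.p ^ 2 :=
  card_torsionBy (P.freyCurve⁄(AlgebraicClosure ℚ)) P.p P.hppos

theorem frey_nontrivial (P : FreyPackage) :
    Nontrivial (Submodule.torsionBy ℤ (P.freyCurve⁄(AlgebraicClosure ℚ)).Point P.p) :=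
  nontrivial_torsionBy (P.freyCurve⁄(AlgebraicClosure ℚ)) P.p (by have := P.hp5; omega)

theorem frey_finite (P : FreyPackage) :
    Finite (Submodule.torsionBy ℤ (P.freyCurve⁄(AlgebraicClosure ℚ)).Point P.p) :=
  finite_torsionBy (P.freyCurve⁄(AlgebraicClosure ℚ)) P.p P.hppos

/-- A proper nonzero submodule of the `p`-torsion of the Frey curve has `p` elements. -/
theorem frey_card_submodule (P : FreyPackage)
    (N : Submodule (ZMod P.p)
      (Submodule.torsionBy ℤ (P.freyCurve⁄(AlgebraicClosure ℚ)).Point P.p))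
    (h0 : N ≠ ⊥) (h1 : N ≠ ⊤) : Nat.card N = P.p := by
  have : Fact P.p.Prime := ⟨P.pp⟩
  exact card_submodule (K := AlgebraicClosure ℚ) P.freyCurve P.p N h0 h1

theorem frey_finrank_submodule (P : FreyPackage)
    (N : Submodule (ZMod P.p)
      (Submodule.torsionBy ℤ (P.freyCurve⁄(AlgebraicClosure ℚ)).Point P.p))
    (h0 : N ≠ ⊥) (h1 : N ≠ ⊤) : Module.finrank (ZMod P.p) N = 1 := by
  have : Fact P.p.Prime := ⟨P.pp⟩
  exact finrank_submodule_eq_one (K := AlgebraicClosure ℚ) P.freyCurve P.p N h0 h1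

/-- A proper nonzero submodule of the `p`-torsion of the Frey curve is cyclic. -/
theorem frey_exists_generator (P : FreyPackage)
    (N : Submodule (ZMod P.p)
      (Submodule.torsionBy ℤ (P.freyCurve⁄(AlgebraicClosure ℚ)).Point P.p))
    (h0 : N ≠ ⊥) (h1 : N ≠ ⊤) :
    ∃ R0 ∈ N, R0 ≠ 0 ∧ ∀ x ∈ N, ∃ k : ℕ, x = k • R0 := by
  have : Fact P.p.Prime := ⟨P.pp⟩
  exact exists_generator (K := AlgebraicClosure ℚ) P.freyCurve P.p N h0 h1

end Frey

end Fermat.Agent.Lib.TorsionCard
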