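import Mathlib
import Fermat.Prelude.Def_GaloisRep_Residual

set_option autoImplicit false

namespace Fermat.Agent.Lib.TorsionFinite

open Polynomial WeierstrassCurve WeierstrassCurve.Affine

section Field

variable {F : Type*} [Field F] (W : WeierstrassCurve.Affine F)

/-- `P` is an affine point with `x`-coordinate `x`. -/
def HasX (P : W.Point) (x : F) : Prop :=
  ∃ (y : F) (h : W.Nonsingular x y), P = Point.some x y h

variable {W}

lemma HasX.ne_zero {P : W.Point} {x : F} (h : HasX W P x) : P ≠ 0 := by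
  obtain ⟨y, hy, rfl⟩ := h
  exact Point.some_ne_zero hy

lemma HasX.unique {P : W.Point} {x x' : F} (h : HasX W P x) (h' : HasX W P x') : x = x' := by
  obtain ⟨y, hy, rfl⟩ := h
  obtain ⟨y', hy', e⟩ := h'
  exact (Point.some.inj e).1

lemma hasX_some_of_eq {x₁ x₂ y : F} (h : W.Nonsingular x₁ y) (e : x₁ = x₂) :
    HasX W (Point.some x₁ y h) x₂ := by
  subst e
  exact ⟨y, h, rfl⟩

/-- The duplication formula on `x`-coordinates. -/
lemma hasX_double [DecidableEq F] {P : W.Point} {x : F} (h : HasX W P x) (h2 : P + P ≠ 0) :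
    4 * x ^ 3 + W.b₂ * x ^ 2 + 2 * W.b₄ * x + W.b₆ ≠ 0 ∧
    HasX W (P + P) ((x ^ 4 - W.b₄ * x ^ 2 - 2 * W.b₆ * x - W.b₈) /
      (4 * x ^ 3 + W.b₂ * x ^ 2 + 2 * W.b₄ * x + W.b₆)) := by
  obtain ⟨y, hy, rfl⟩ := h
  have hne : y ≠ W.negY x y := by
    intro hEq
    exact h2 (Point.add_self_of_Y_eq hEq)
  have heq := (W.equation_iff x y).mp hy.1
  have hD : y - W.negY x y ≠ 0 := sub_ne_zero.mpr hne
  have hB : 4 * x ^ 3 + W.b₂ * x ^ 2 + 2 * W.b₄ * x + W.b₆ = (y - W.negY x y) ^ 2 := by
    simp only [WeierstrassCurve.b₂, WeierstrassCurve.b₄, WeierstrassCurve.b₆, negY]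
    linear_combination (-4 : F) * heq
  refine ⟨by rw [hB]; exact pow_ne_zero 2 hD, ?_⟩
  rw [Point.add_self_of_Y_ne hne]
  apply hasX_some_of_eq
  rw [hB, slope_of_Y_ne rfl hne, addX]
  rw [eq_div_iff (pow_ne_zero 2 hD)]
  field_simp
  simp only [WeierstrassCurve.b₄, WeierstrassCurve.b₆, WeierstrassCurve.b₈, negY]
  linear_combination (-(W.a₁ ^ 2 + 4 * W.a₂ + 8 * x)) * heq

variable (W)

/-- Iterates of the duplication map in the coordinate `t = 1/x`, as pairs `(P, Q)` with
`x(2^k • pt) = Q(t) / P(t)`. -/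
noncomputable def dblIter : ℕ → F[X] × F[X]
  | 0 => (X, 1)
  | k + 1 =>
    ((dblIter k).1 * (4 * (dblIter k).2 ^ 3 + C W.b₂ * (dblIter k).1 * (dblIter k).2 ^ 2
        + C (2 * W.b₄) * (dblIter k).1 ^ 2 * (dblIter k).2 + C W.b₆ * (dblIter k).1 ^ 3),
      (dblIter k).2 ^ 4 - C W.b₄ * (dblIter k).1 ^ 2 * (dblIter k).2 ^ 2
        - C (2 * W.b₆) * (dblIter k).1 ^ 3 * (dblIter k).2 - C W.b₈ * (dblIter k).1 ^ 4)

lemma dblIter_eval_zero (k : ℕ) :
    (dblIter W k).1.eval 0 = 0 ∧ (dblIter W k).2.eval 0 = 1 ∧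
      (derivative (dblIter W k).1).eval 0 = 4 ^ k := by
  induction k with
  | zero => simp [dblIter]
  | succ k ih =>
    obtain ⟨h1, h2, h3⟩ := ih
    refine ⟨?_, ?_, ?_⟩
    · simp [dblIter, h1]
    · simp [dblIter, h1, h2]
    · simp [dblIter, h1, h2, h3, derivative_mul, pow_succ]

/-- The fixed-point polynomial of the `k`-th iterate. -/
noncomputable def fixPoly (k : ℕ) : F[X] := (dblIter W k).1 - X * (dblIter W k).2

lemma fixPoly_ne_zero (k : ℕ) (hk : (4 : F) ^ k ≠ 1) : fixPoly W k ≠ 0 := by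
  intro h0
  obtain ⟨h1, h2, h3⟩ := dblIter_eval_zero W k
  have : (derivative (fixPoly W k)).eval 0 = 4 ^ k - 1 := by
    simp [fixPoly, derivative_mul, h2, h3]
  rw [h0] at this
  simp at this
  exact hk (sub_eq_zero.mp this.symm)

variable {W}

lemma two_pow_succ_smul [DecidableEq F] (k : ℕ) (P : W.Point) : 2 ^ (k + 1) • P = 2 ^ k • P + 2 ^ k • P := by
  rw [pow_succ, mul_smul, two_smul, smul_add]

lemma hasX_two_pow_smul [DecidableEq F] (k : ℕ) {P : W.Point} {x : F} (hx : x ≠ 0) (h : HasX W P x)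
    (hk : 2 ^ k • P ≠ 0) :
    (dblIter W k).1.eval x⁻¹ ≠ 0 ∧
      HasX W (2 ^ k • P) ((dblIter W k).2.eval x⁻¹ / (dblIter W k).1.eval x⁻¹) := by
  induction k with
  | zero =>
    refine ⟨by simpa [dblIter] using hx, ?_⟩
    simpa [dblIter] using h
  | succ k ih =>
    rw [two_pow_succ_smul] at hk ⊢
    have hk' : 2 ^ k • P ≠ 0 := by
      intro h0
      rw [h0, add_zero] at hk
      exact hk rfl
    obtain ⟨hp, hX⟩ := ih hk'
    obtain ⟨hB, hX2⟩ := hasX_double hX hk
    set p := (dblIter W k).1.eval x⁻¹ with hp_def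
    set q := (dblIter W k).2.eval x⁻¹ with hq_def
    have e1 : (dblIter W (k + 1)).1.eval x⁻¹ =
        p ^ 4 * (4 * (q / p) ^ 3 + W.b₂ * (q / p) ^ 2 + 2 * W.b₄ * (q / p) + W.b₆) := by
      simp only [dblIter, eval_mul, eval_add, eval_pow, eval_C, eval_ofNat, ← hp_def, ← hq_def]
      field_simp
    have e2 : (dblIter W (k + 1)).2.eval x⁻¹ =
        p ^ 4 * ((q / p) ^ 4 - W.b₄ * (q / p) ^ 2 - 2 * W.b₆ * (q / p) - W.b₈) := by
      simp only [dblIter, eval_mul, eval_sub, eval_pow, eval_C, ← hp_def, ← hq_def]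
      field_simp
    refine ⟨?_, ?_⟩
    · rw [e1]
      exact mul_ne_zero (pow_ne_zero 4 hp) hB
    · rw [e1, e2, mul_div_mul_left _ _ (pow_ne_zero 4 hp)]
      exact hX2

lemma fixPoly_eval_eq_zero [DecidableEq F] (k : ℕ) {P : W.Point} {x : F} (hx : x ≠ 0) (h : HasX W P x)
    (hk : 2 ^ k • P = P) : (fixPoly W k).eval x⁻¹ = 0 := by
  have hne : 2 ^ k • P ≠ 0 := by rw [hk]; exact h.ne_zero
  obtain ⟨hp, hX⟩ := hasX_two_pow_smul k hx h hne
  rw [hk] at hX
  have e := h.unique hX
  simp only [fixPoly, eval_sub, eval_mul, eval_X]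
  have e' : (dblIter W k).2.eval x⁻¹ = x * (dblIter W k).1.eval x⁻¹ := by
    rw [eq_div_iff hp] at e
    exact e.symm
  rw [e', ← mul_assoc, inv_mul_cancel₀ hx, one_mul, sub_self]

lemma finite_hasX (x : F) : {P : W.Point | HasX W P x}.Finite := by
  by_cases hex : ∃ P : W.Point, HasX W P x
  · obtain ⟨P₀, y₀, h₀, rfl⟩ := hex
    refine Set.Finite.subset (Set.toFinite {Point.some x y₀ h₀, -Point.some x y₀ h₀}) ?_
    rintro P ⟨y, h, rfl⟩
    have := (Point.X_eq_iff (h₁ := h) (h₂ := h₀)).mp rfl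
    simpa using this
  · have : {P : W.Point | HasX W P x} = ∅ := by
      ext P
      simp only [Set.mem_ofPred_eq, Set.mem_empty_iff_false, iff_false]
      exact fun hP => hex ⟨P, hP⟩
    rw [this]
    exact Set.finite_empty

lemma finite_fixed_two_pow [DecidableEq F] (k : ℕ) (hk : (4 : F) ^ k ≠ 1) :
    {P : W.Point | 2 ^ k • P = P}.Finite := by
  have hX₀ : ({0} ∪ {x : F | (fixPoly W k).eval x⁻¹ = 0} : Set F).Finite := by
    refine Set.Finite.union (Set.finite_singleton 0) ?_
    have hroots : {t : F | (fixPoly W k).IsRoot t}.Finite :=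
      Polynomial.finite_setOfPred_isRoot (fixPoly_ne_zero W k hk)
    exact Set.Finite.preimage (f := fun x : F => x⁻¹) (inv_injective.injOn) hroots
  have hfin : ({0} ∪ ⋃ x ∈ ({0} ∪ {x : F | (fixPoly W k).eval x⁻¹ = 0} : Set F),
      {P : W.Point | HasX W P x} : Set W.Point).Finite :=
    Set.Finite.union (Set.finite_singleton 0) (Set.Finite.biUnion hX₀ fun x _ => finite_hasX x)
  refine hfin.subset ?_
  intro P hP
  rcases P with _ | ⟨x, y, h⟩
  · left; rfl
  · right
    have hX : HasX W (Point.some x y h) x := ⟨y, h, rfl⟩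
    refine Set.mem_biUnion (x := x) ?_ hX
    by_cases hx : x = 0
    · left; exact hx
    · right; exact fixPoly_eval_eq_zero k hx hX hP

lemma two_pow_totient_smul [DecidableEq F] {n : ℕ} (hn : Odd n) {P : W.Point} (hP : n • P = 0) :
    2 ^ n.totient • P = P := by
  have hcop : Nat.Coprime 2 n := (Nat.coprime_two_left).mpr hn
  have hmod : 2 ^ n.totient ≡ 1 [MOD n] := Nat.ModEq.pow_totient hcop
  have hle : 1 ≤ 2 ^ n.totient := Nat.one_le_two_pow
  obtain ⟨m, hm⟩ := (Nat.modEq_iff_dvd' hle).mp hmod.symm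
  have h2 : 2 ^ n.totient = 1 + n * m := by omega
  rw [h2, add_smul, one_smul, mul_comm, mul_smul, hP, smul_zero, add_zero]

lemma finite_torsion_of_odd [DecidableEq F] [CharZero F] {n : ℕ} (hn : Odd n) :
    {P : W.Point | n • P = 0}.Finite := by
  have hpos : 0 < n.totient := Nat.totient_pos.mpr hn.pos
  have hk : (4 : F) ^ n.totient ≠ 1 := by
    have h1 : (4 : ℕ) ^ n.totient ≠ 1 := by
      have : 1 < (4 : ℕ) ^ n.totient := Nat.one_lt_pow hpos.ne' (by norm_num)
      omega
    intro h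
    apply h1
    have : ((4 ^ n.totient : ℕ) : F) = ((1 : ℕ) : F) := by push_cast; exact h
    exact Nat.cast_injective this
  exact (finite_fixed_two_pow n.totient hk).subset fun P hP => two_pow_totient_smul hn hP

/-- The `n`-torsion of a Weierstrass curve over a field of characteristic zero is finite,
for odd `n`. -/
theorem finite_torsionBy_of_odd [DecidableEq F] [CharZero F] (W : WeierstrassCurve.Affine F) {n : ℕ}
    (hn : Odd n) : Finite (Submodule.torsionBy ℤ W.Point (n : ℤ)) := by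
  have hfin : ((Submodule.torsionBy ℤ W.Point (n : ℤ) : Submodule ℤ W.Point) :
      Set W.Point).Finite := by
    refine (finite_torsion_of_odd (W := W) hn).subset ?_
    intro P hP
    have h : (n : ℤ) • P = 0 := (Submodule.mem_torsionBy_iff _ _).mp hP
    rw [natCast_zsmul] at h
    exact h
  exact hfin.to_subtype

end Field

section Galois

open scoped WeierstrassCurve.Affine

/-- `AlgebraicClosure ℚ` is algebraic over `ℚ` for the ambient (division-ring) algebra instance. -/
lemma isAlgebraic_rat_algClosure : Algebra.IsAlgebraic ℚ (AlgebraicClosure ℚ) := by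
  have h := AlgebraicClosure.isAlgebraic ℚ
  have e : (AlgebraicClosure.instAlgebra ℚ : Algebra ℚ (AlgebraicClosure ℚ)) =
      DivisionRing.toRatAlgebra := Subsingleton.elim _ _
  rw [e] at h
  exact h

variable [DecidableEq (AlgebraicClosure ℚ)]

lemma smul_some_eq (W : WeierstrassCurve ℚ) (σ : AlgebraicClosure ℚ ≃ₐ[ℚ] AlgebraicClosure ℚ)
    {x y : AlgebraicClosure ℚ} (h : (W⁄(AlgebraicClosure ℚ)).Nonsingular x y)
    (hx : σ x = x) (hy : σ y = y) :
    σ • (Point.some x y h : (W⁄(AlgebraicClosure ℚ)).Point) = Point.some x y h := by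
  rw [Point.algEquiv_smul_def, Point.map_some]
  simp only [Point.some.injEq]
  exact ⟨hx, hy⟩

/-- The Galois representation on the odd torsion of a Weierstrass curve over `ℚ` factors through
a finite extension. -/
theorem galoisFactorsThroughFiniteLevel_of_odd (W : WeierstrassCurve ℚ) {n : ℕ} (hn : Odd n) :
    GaloisFactorsThroughFiniteLevel
      (Point.galoisRepModuleEnd (K := AlgebraicClosure ℚ) ℚ W n) := by
  have hfin : {P : (W⁄(AlgebraicClosure ℚ)).Point | n • P = 0}.Finite :=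
    finite_torsion_of_odd hn
  let xc : (W⁄(AlgebraicClosure ℚ)).Point → AlgebraicClosure ℚ := fun P =>
    match P with
    | .zero => 0
    | .some x _ _ => x
  let yc : (W⁄(AlgebraicClosure ℚ)).Point → AlgebraicClosure ℚ := fun P =>
    match P with
    | .zero => 0
    | .some _ y _ => y
  let S : Set (AlgebraicClosure ℚ) :=
    xc '' {P | n • P = 0} ∪ yc '' {P | n • P = 0}
  have hS : S.Finite := (hfin.image xc).union (hfin.image yc)
  have : Finite S := hS.to_subtype
  have hAlg : Algebra.IsAlgebraic ℚ (AlgebraicClosure ℚ) := isAlgebraic_rat_algClosure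
  refine ⟨IntermediateField.adjoin ℚ S,
    IntermediateField.finiteDimensional_adjoin
      (fun x _ => (Algebra.IsAlgebraic.isAlgebraic x).isIntegral), ?_⟩
  intro σ hσ
  apply LinearMap.ext
  intro P
  apply Subtype.ext
  rw [Point.galoisRepModuleEnd_apply]
  have hP : n • (P : (W⁄(AlgebraicClosure ℚ)).Point) = 0 := by
    have h : (n : ℤ) • (P : (W⁄(AlgebraicClosure ℚ)).Point) = 0 :=
      (Submodule.mem_torsionBy_iff _ _).mp P.2
    rw [natCast_zsmul] at h
    exact h
  change σ • (P : (W⁄(AlgebraicClosure ℚ)).Point) = (P : (W⁄(AlgebraicClosure ℚ)).Point)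
  obtain ⟨Q, hQ⟩ := P
  change σ • Q = Q
  change n • Q = 0 at hP
  rcases Q with _ | ⟨x, y, h⟩
  · rfl
  · apply smul_some_eq
    · exact hσ x (IntermediateField.subset_adjoin ℚ S (Or.inl ⟨_, hP, rfl⟩))
    · exact hσ y (IntermediateField.subset_adjoin ℚ S (Or.inr ⟨_, hP, rfl⟩))

/-- The mod-`p` Galois representation of the Frey curve factors through a finite extension. -/
theorem frey_galoisFactorsThroughFiniteLevel (P : FreyPackage) :
    GaloisFactorsThroughFiniteLevel
      (Point.galoisRepModuleEnd (K := AlgebraicClosure ℚ) ℚ P.freyCurve P.p) :=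
  galoisFactorsThroughFiniteLevel_of_odd P.freyCurve P.hp_odd

/-- The `p`-torsion of the Frey curve over `AlgebraicClosure ℚ` is finite. -/
theorem frey_finite_torsionBy (P : FreyPackage) :
    Finite (Submodule.torsionBy ℤ (P.freyCurve⁄(AlgebraicClosure ℚ)).Point P.p) :=
  finite_torsionBy_of_odd _ P.hp_odd

end Galois

end Fermat.Agent.Lib.TorsionFinite
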