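/-
Power traces zero ⇒ nilpotent (char 0); reduced + char 0 ⇒ trace-self-dual at a prime.
Author: helper147.
-/
import Mathlib
import Fermat.Agent.Lib.UnitDisc
import Fermat.Agent.S30.Model.DiscUnit

set_option autoImplicit false

namespace Fermat.Agent.Lib.TraceNil

open Polynomial Matrix

/-- Over a field of characteristic zero, an endomorphism all of whose positive powers have trace
zero is nilpotent. -/
theorem isNilpotent_of_trace_pow_eq_zero {F V : Type*} [Field F] [CharZero F] [AddCommGroup V]
    [Module F V] [FiniteDimensional F V] (f : Module.End F V)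
    (h : ∀ k : ℕ, 0 < k → LinearMap.trace F V (f ^ k) = 0) : IsNilpotent f := by
  have hint : IsIntegral F f := Algebra.IsIntegral.isIntegral f
  have hμ0 : minpoly F f ≠ 0 := minpoly.ne_zero hint
  obtain ⟨g, hμg, hXg⟩ := (minpoly F f).exists_eq_pow_rootMultiplicity_mul_and_not_dvd hμ0 0
  simp only [map_zero, sub_zero] at hμg hXg
  set a := (minpoly F f).rootMultiplicity 0 with ha
  have hcop : IsCoprime (X ^ (a + 1) : F[X]) g :=
    IsCoprime.pow_left ((irreducible_X).coprime_iff_not_dvd.mpr hXg)
  obtain ⟨u, v, huv⟩ := hcop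
  set e : Module.End F V := aeval f (u * X ^ (a + 1)) with he
  have h1 : e + aeval f (v * g) = 1 := by
    rw [he, ← map_add, huv, map_one]
  have h2 : e * aeval f (v * g) = 0 := by
    rw [he, ← map_mul]
    have : u * X ^ (a + 1) * (v * g) = (u * v * X) * minpoly F f := by
      rw [hμg]; ring
    rw [this, map_mul, minpoly.aeval, mul_zero]
  have he_idem : IsIdempotentElem e := by
    have : e * e = e * (e + aeval f (v * g)) := by rw [mul_add, h2, add_zero]
    rw [IsIdempotentElem, this, h1, mul_one]
  have he_tr : LinearMap.trace F V e = 0 := by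
    have key : ∀ p : F[X], LinearMap.trace F V (aeval f (p * X ^ (a + 1))) = 0 := by
      intro p
      induction p using Polynomial.induction_on' with
      | add p q hp hq => rw [add_mul, map_add, map_add, hp, hq, add_zero]
      | monomial n c =>
        have : (monomial n c : F[X]) * X ^ (a + 1) = C c * X ^ (n + (a + 1)) := by
          rw [← C_mul_X_pow_eq_monomial, mul_assoc, ← pow_add]
        rw [this, map_mul, aeval_C, map_pow, aeval_X, Algebra.algebraMap_eq_smul_one,
          smul_mul_assoc, one_mul, map_smul, h _ (by omega), smul_zero]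
    exact key u
  have he0 : e = 0 := (LinearMap.IsIdempotentElem.trace_eq_zero_iff he_idem).mp he_tr
  have h3 : aeval f (v * g) = 1 := by rw [← h1, he0, zero_add]
  refine ⟨a, ?_⟩
  have : f ^ a = aeval f (X ^ a * (v * g)) := by
    rw [map_mul, h3, mul_one, map_pow, aeval_X]
  rw [this]
  have : X ^ a * (v * g) = v * minpoly F f := by rw [hμg]; ring
  rw [this, map_mul, minpoly.aeval, mul_zero]

/-- Matrix form. -/
theorem isNilpotent_matrix_of_trace_pow_eq_zero {F ι : Type*} [Field F] [CharZero F] [Fintype ι]
    [DecidableEq ι] (N : Matrix ι ι F) (h : ∀ k : ℕ, 0 < k → (N ^ k).trace = 0) :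
    IsNilpotent N := by
  obtain ⟨n, hn⟩ := isNilpotent_of_trace_pow_eq_zero (Matrix.toLin' N) (fun k hk => by
    rw [← Matrix.toLin'_pow, Matrix.trace_toLin'_eq, h k hk])
  refine ⟨n, ?_⟩
  apply Matrix.toLin'.injective
  rw [Matrix.toLin'_pow, hn, map_zero]

/-- Converse of `UnitDisc.redMat_eq_zero_of_mem`. -/
theorem mem_map_of_redMat_eq_zero {R C ι : Type*} [CommRing R] [CommRing C] [Algebra R C]
    [Fintype ι] [DecidableEq ι] (b : Module.Basis ι R C) (I : Ideal R) {y : C}
    (hy : UnitDisc.redMat b I y = 0) : y ∈ I.map (algebraMap R C) := by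
  have hent : ∀ i j, Algebra.leftMulMatrix b y i j ∈ I := by
    intro i j
    have := congrFun (congrFun hy i) j
    rw [UnitDisc.redMat] at this
    simpa [Ideal.Quotient.eq_zero_iff_mem] using this
  have hrepr : ∀ i, b.repr y i ∈ I := by
    intro i
    have h1 : Algebra.leftMulMatrix b y *ᵥ b.repr 1 = b.repr (y * 1) :=
      Algebra.leftMulMatrix_mulVec_repr b y 1
    rw [mul_one] at h1
    have h2 := congrFun h1 i
    rw [← h2, Matrix.mulVec, dotProduct]
    exact Ideal.sum_mem _ fun j _ => Ideal.mul_mem_right _ _ (hent i j)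
  rw [← b.sum_repr y]
  refine Ideal.sum_mem _ fun i _ => ?_
  rw [Algebra.smul_def]
  exact Ideal.mul_mem_right _ _ (Ideal.mem_map_of_mem _ (hrepr i))

open Fermat.Agent.S30.Model in
/-- **Reduced + characteristic zero ⇒ trace-self-dual.**  `C` finite free over the domain `R`,
`p` a prime element with `R ⧸ (p)` of characteristic zero, `(p) C` a radical ideal.  Then the
trace form of `C` is nondegenerate modulo `p`. -/
theorem traceSelfDualAt_of_isRadical {R C ι : Type*} [CommRing R] [IsDomain R] [CommRing C]
    [Algebra R C] [Fintype ι] [DecidableEq ι] (b : Module.Basis ι R C) {p : R} (hp : Prime p)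
    (hchar0 : ∀ n : ℕ, n ≠ 0 → ¬ p ∣ (n : R))
    (hrad : ∀ x : C, (∃ n : ℕ, algebraMap R C p ∣ x ^ n) → algebraMap R C p ∣ x) :
    DiscUnit.TraceSelfDualAt R C p := by
  classical
  intro x hx
  set I : Ideal R := Ideal.span {p} with hI
  have hIprime : I.IsPrime := (Ideal.span_singleton_prime hp.ne_zero).mpr hp
  let k := R ⧸ I
  let F := FractionRing k
  have hinjF : Function.Injective (algebraMap k F) := IsFractionRing.injective k F
  have hcharF : CharZero F := by
    apply charZero_of_inj_zero
    intro n hn
    by_contra hn0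
    have h2 : (n : k) = 0 := by
      apply hinjF
      rw [map_natCast, map_zero]
      exact hn
    have h3 : ((n : R) : k) = 0 := by simpa using h2
    have h4 : (n : R) ∈ I := Ideal.Quotient.eq_zero_iff_mem.mp h3
    exact hchar0 n hn0 (Ideal.mem_span_singleton.mp h4)
  set M : Matrix ι ι k := UnitDisc.redMat b I x with hM
  set N : Matrix ι ι F := (algebraMap k F).mapMatrix M with hN
  have htr : ∀ j : ℕ, 0 < j → (N ^ j).trace = 0 := by
    intro j hj
    rw [hN, ← map_pow, RingHom.mapMatrix_apply, ← AddMonoidHom.map_trace]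
    have : (M ^ j).trace = 0 := by
      rw [hM, ← map_pow, UnitDisc.trace_redMat, Ideal.Quotient.eq_zero_iff_mem, hI,
        Ideal.mem_span_singleton]
      have : x ^ j = x * x ^ (j - 1) := by
        rw [← pow_succ', Nat.sub_add_cancel hj]
      rw [this]
      exact hx _
    simp [this]
  obtain ⟨n, hn⟩ := isNilpotent_matrix_of_trace_pow_eq_zero N htr
  have hMn : M ^ n = 0 := by
    have h1 : (algebraMap k F).mapMatrix (M ^ n) = 0 := by rw [map_pow]; exact hn
    have hinjM : Function.Injective ((algebraMap k F).mapMatrix : Matrix ι ι k →+* Matrix ι ι F) :=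
      Matrix.map_injective hinjF
    exact hinjM (h1.trans (map_zero _).symm)
  have hxn : x ^ n ∈ I.map (algebraMap R C) := by
    apply mem_map_of_redMat_eq_zero b I
    rw [map_pow]; exact hMn
  rw [hI, Ideal.map_span, Set.image_singleton, Ideal.mem_span_singleton] at hxn
  obtain ⟨z, hz⟩ := hrad x ⟨n, hxn⟩
  exact ⟨z, by rw [hz, Algebra.smul_def]⟩

end Fermat.Agent.Lib.TraceNil
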