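/-
Abstract transfer theorem (helper246).  Mathlib only.

Setting.  `R` a commutative ring, `A` an `R`-algebra, finite as an `R`-module, with `R → A`
injective, spanned over `R` by the image of a group `G` under `ρ : G →* A`, and such that every
group element satisfies a "quadratic relation with unit constant term"

    ρ g + ε g • ρ g⁻¹ = τ g          (τ g ∈ R, ε : G →* Rˣ).

`T` a commutative local ring, `π : R →+* T` with `π⁻¹(𝔪_T)` maximal, and a two-dimensional
representation `ρV : G →* M₂(T)` with `tr ρV g = π (τ g)` whose residual representation is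
"trace-rigid" (`hres`: a matrix orthogonal to all `ρ̄ y` for the trace form is zero) and which is
itself trace-rigid (`htr`).

Conclusion.  Every `R`-linear relation `∑ r i • ρ (g i) = 0` in `A` holds in `M₂(T)`:
`∑ π (r i) • ρV (g i) = 0`.  No reducedness, no characteristic hypothesis.

Proof.  For a relation put `c := ∑ r i * τ (g i)`.  The relation for the translates `g i * h`
shows `c • ρ h ∈ R` for all `h`, hence `c • A ⊆ R` and `c` kills the two-sided ideal `K` generated
by the commutators.  If `1 ∉ K + 𝔫 A` (`𝔫 = π⁻¹ 𝔪_T`) then `τ (g h y) - τ (h g y) ∈ 𝔫` for all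
`g h y`, so the residual matrices commute, which contradicts `hres`.  So `A = K + 𝔫 A`, Nakayama
gives `s ∈ 1 + 𝔫` with `s • 1 ∈ K`, whence `c * s = 0`, `π c = 0`.  Applying this to the translated
relations gives `tr (Z * ρV h) = 0` for `Z := ∑ π (r i) • ρV (g i)` and all `h`, and `htr` concludes.
-/
import Mathlib

set_option autoImplicit false

namespace Fermat.Agent.Lib.TransferAlg

variable {R A T G : Type*} [CommRing R] [Ring A] [Algebra R A] [CommRing T] [Group G]

/-- The standing relation `ρ g + ε g • ρ g⁻¹ = τ g`. -/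
def Rel (ρ : G →* A) (ε : G →* Rˣ) (τ : G → R) : Prop :=
  ∀ g, ρ g + ((ε g : Rˣ) : R) • ρ g⁻¹ = algebraMap R A (τ g)

/-- The `R`-submodule spanned by the elements `x * (a * b - b * a) * y`
(the two-sided ideal generated by the commutators). -/
def commIdeal (R A : Type*) [CommRing R] [Ring A] [Algebra R A] : Submodule R A :=
  Submodule.span R {z | ∃ x a b y : A, z = x * (a * b - b * a) * y}

theorem mul_mem_commIdeal (a : A) {z : A} (hz : z ∈ commIdeal R A) : a * z ∈ commIdeal R A := by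
  induction hz using Submodule.span_induction with
  | mem z hz =>
    obtain ⟨x, u, v, y, rfl⟩ := hz
    refine Submodule.subset_span ⟨a * x, u, v, y, ?_⟩
    simp only [mul_assoc]
  | zero => rw [mul_zero]; exact Submodule.zero_mem _
  | add x y _ _ hx hy => rw [mul_add]; exact Submodule.add_mem _ hx hy
  | smul r x _ hx => rw [mul_smul_comm]; exact Submodule.smul_mem _ r hx

theorem comm_mem_commIdeal (a b : A) : a * b - b * a ∈ commIdeal R A :=
  Submodule.subset_span ⟨1, a, b, 1, by rw [one_mul, mul_one]⟩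

section Core

variable {ρ : G →* A} {ε : G →* Rˣ} {τ : G → R}

theorem rho_inv_mul (ρ : G →* A) (g : G) : ρ g⁻¹ * ρ g = 1 := by
  rw [← map_mul, inv_mul_cancel, map_one]

theorem rho_mul_inv (ρ : G →* A) (g : G) : ρ g * ρ g⁻¹ = 1 := by
  rw [← map_mul, mul_inv_cancel, map_one]

/-- Termwise form of the translated relation. -/
theorem term_identity (hrel : Rel ρ ε τ) (r : R) (g h : G) :
    r • algebraMap R A (τ (g * h)) =
      (r • ρ g) * ρ h +
        ((ε h : Rˣ) : R) • (ρ h⁻¹ * (r • algebraMap R A (τ g) - r • ρ g)) := by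
  have h1 := hrel (g * h)
  have h2 := hrel g
  have e1 : r • algebraMap R A (τ g) - r • ρ g = r • (((ε g : Rˣ) : R) • ρ g⁻¹) := by
    rw [← smul_sub, ← h2, add_sub_cancel_left]
  rw [e1, ← h1]
  simp only [map_mul, mul_inv_rev, Units.val_mul, smul_add, smul_mul_assoc, mul_smul_comm,
    smul_smul]
  congr 2
  ring

/-- (T3a) The translated relation: if `∑ r i • ρ (g i) = 0` then
`∑ r i * τ (g i * h) = (ε h * c) • ρ h⁻¹` with `c = ∑ r i * τ (g i)`. -/
theorem translate {ι : Type*} (hrel : Rel ρ ε τ) (s : Finset ι) (r : ι → R) (g : ι → G)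
    (h0 : ∑ i ∈ s, r i • ρ (g i) = 0) (h : G) :
    algebraMap R A (∑ i ∈ s, r i * τ (g i * h)) =
      (((ε h : Rˣ) : R) * ∑ i ∈ s, r i * τ (g i)) • ρ h⁻¹ := by
  have key : ∀ i ∈ s, algebraMap R A (r i * τ (g i * h)) =
      (r i • ρ (g i)) * ρ h +
        ((ε h : Rˣ) : R) • (ρ h⁻¹ * (r i • algebraMap R A (τ (g i)) - r i • ρ (g i))) := by
    intro i _
    rw [map_mul, ← Algebra.smul_def]
    exact term_identity hrel (r i) (g i) h
  rw [map_sum, Finset.sum_congr rfl key, Finset.sum_add_distrib, ← Finset.sum_mul, h0, zero_mul,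
    zero_add, ← Finset.smul_sum, ← Finset.mul_sum, Finset.sum_sub_distrib, h0, sub_zero]
  have e2 : ∑ i ∈ s, r i • algebraMap R A (τ (g i)) = algebraMap R A (∑ i ∈ s, r i * τ (g i)) := by
    rw [map_sum]
    refine Finset.sum_congr rfl fun i _ => ?_
    rw [map_mul, ← Algebra.smul_def]
  rw [e2, ← Algebra.commutes, ← Algebra.smul_def, smul_smul]

/-- (T3b) `c • ρ h` is a scalar for every `h`. -/
theorem smul_rho_mem {ι : Type*} (hrel : Rel ρ ε τ) (s : Finset ι) (r : ι → R) (g : ι → G)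
    (h0 : ∑ i ∈ s, r i • ρ (g i) = 0) (h : G) :
    ∃ x : R, (∑ i ∈ s, r i * τ (g i)) • ρ h = algebraMap R A x := by
  have h1 := translate hrel s r g h0 h⁻¹
  rw [inv_inv] at h1
  refine ⟨((ε h : Rˣ) : R) * ∑ i ∈ s, r i * τ (g i * h⁻¹), ?_⟩
  rw [map_mul, h1, ← Algebra.smul_def, smul_smul, ← mul_assoc, ← Units.val_mul, ← map_mul,
    mul_inv_cancel, map_one, Units.val_one, one_mul]

/-- (T3c) `c • a` is a scalar for every `a`. -/
theorem smul_mem_range {ι : Type*} (hrel : Rel ρ ε τ)
    (hspan : Submodule.span R (Set.range ρ) = ⊤) (s : Finset ι) (r : ι → R) (g : ι → G)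
    (h0 : ∑ i ∈ s, r i • ρ (g i) = 0) (a : A) :
    ∃ x : R, (∑ i ∈ s, r i * τ (g i)) • a = algebraMap R A x := by
  have ha : a ∈ Submodule.span R (Set.range ρ) := hspan ▸ Submodule.mem_top
  induction ha using Submodule.span_induction with
  | mem a ha =>
    obtain ⟨h, rfl⟩ := ha
    exact smul_rho_mem hrel s r g h0 h
  | zero => exact ⟨0, by rw [smul_zero, map_zero]⟩
  | add a b _ _ ha hb =>
    obtain ⟨x, hx⟩ := ha
    obtain ⟨y, hy⟩ := hb
    exact ⟨x + y, by rw [smul_add, hx, hy, map_add]⟩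
  | smul t a _ ha =>
    obtain ⟨x, hx⟩ := ha
    exact ⟨t * x, by rw [smul_comm, hx, map_mul, Algebra.smul_def]⟩

/-- (T3d) `c` kills the commutator ideal. -/
theorem smul_commIdeal_eq_zero {ι : Type*} (hrel : Rel ρ ε τ)
    (hspan : Submodule.span R (Set.range ρ) = ⊤) (s : Finset ι) (r : ι → R) (g : ι → G)
    (h0 : ∑ i ∈ s, r i • ρ (g i) = 0) {z : A} (hz : z ∈ commIdeal R A) :
    (∑ i ∈ s, r i * τ (g i)) • z = 0 := by
  induction hz using Submodule.span_induction with
  | mem z hz =>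
    obtain ⟨x, a, b, y, rfl⟩ := hz
    obtain ⟨t, ht⟩ := smul_mem_range hrel hspan s r g h0 a
    have e : (∑ i ∈ s, r i * τ (g i)) • (a * b - b * a) = 0 := by
      rw [smul_sub, ← smul_mul_assoc, ← mul_smul_comm, ht, Algebra.commutes, sub_self]
    rw [← smul_mul_assoc, ← mul_smul_comm, e, mul_zero, zero_mul]
  | zero => exact smul_zero _
  | add x y _ _ hx hy => rw [smul_add, hx, hy, add_zero]
  | smul t x _ hx => rw [smul_comm, hx, smul_zero]

/-- (T4a) `τ (g h y) - τ (h g y)` lies in the commutator ideal. -/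
theorem tau_comm_mem (hrel : Rel ρ ε τ) (g h y : G) :
    algebraMap R A (τ (g * h * y) - τ (h * g * y)) ∈ commIdeal R A := by
  have hε : ε (g * h * y) = ε (h * g * y) := by
    rw [map_mul, map_mul, map_mul, map_mul, mul_comm (ε g) (ε h)]
  have e : algebraMap R A (τ (g * h * y) - τ (h * g * y)) =
      (ρ g * ρ h - ρ h * ρ g) * ρ y +
        ((ε (g * h * y) : Rˣ) : R) • (ρ y⁻¹ * (ρ h⁻¹ * ρ g⁻¹ - ρ g⁻¹ * ρ h⁻¹)) := by
    rw [map_sub, ← hrel (g * h * y), ← hrel (h * g * y), ← hε]
    simp only [map_mul, mul_inv_rev, mul_sub, smul_sub, sub_mul]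
    abel
  rw [e]
  refine Submodule.add_mem _ ?_ (Submodule.smul_mem _ _ ?_)
  · exact Submodule.subset_span ⟨1, ρ g, ρ h, ρ y, by rw [one_mul]⟩
  · exact Submodule.subset_span ⟨ρ y⁻¹, ρ h⁻¹, ρ g⁻¹, 1, by rw [mul_one]⟩

/-- (T4b) If `1 ∉ K + 𝔫 A` for a maximal ideal `𝔫`, then `τ (g h y) - τ (h g y) ∈ 𝔫`. -/
theorem tau_comm_mem_ideal (hrel : Rel ρ ε τ) (𝔫 : Ideal R) (hmax : 𝔫.IsMaximal)
    (h1 : (1 : A) ∉ commIdeal R A ⊔ 𝔫 • (⊤ : Submodule R A)) (g h y : G) :
    τ (g * h * y) - τ (h * g * y) ∈ 𝔫 := by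
  by_contra hδ
  obtain ⟨u, n, hn, hu⟩ := hmax.exists_inv hδ
  apply h1
  have e : (1 : A) = u • algebraMap R A (τ (g * h * y) - τ (h * g * y)) + n • (1 : A) := by
    rw [Algebra.smul_def, Algebra.smul_def, mul_one, ← map_mul, ← map_add, hu, map_one]
  rw [e]
  exact Submodule.add_mem _
    (Submodule.mem_sup_left (Submodule.smul_mem _ _ (tau_comm_mem hrel g h y)))
    (Submodule.mem_sup_right (Submodule.smul_mem_smul hn Submodule.mem_top))

end Core

section Residual

variable {k : Type*} [Field k]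

omit [Group G] in
/-- A trace-rigid family of `2 × 2` matrices over a field cannot commute. -/
theorem false_of_commute (ρb : G → Matrix (Fin 2) (Fin 2) k)
    (hres : ∀ Z : Matrix (Fin 2) (Fin 2) k, (∀ y, (ρb y * Z).trace = 0) → Z = 0)
    (hcomm : ∀ g h, ρb g * ρb h = ρb h * ρb g) : False := by
  -- every `ρb g` commutes with every matrix
  have hcentral : ∀ (g : G) (X : Matrix (Fin 2) (Fin 2) k), ρb g * X = X * ρb g := by
    intro g X
    have hZ : ρb g * X - X * ρb g = 0 := by
      refine hres _ fun y => ?_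
      rw [mul_sub, Matrix.trace_sub, ← mul_assoc, ← mul_assoc,
        Matrix.trace_mul_cycle (ρb y) X (ρb g), hcomm y g, sub_self]
    exact sub_eq_zero.mp hZ
  -- hence its (1, 0) entry vanishes
  have h10 : ∀ g : G, ρb g 1 0 = 0 := by
    intro g
    have h := congrFun (congrFun (hcentral g (Matrix.single 0 1 1)) 1) 1
    simpa [Matrix.mul_apply, Fin.sum_univ_two, Matrix.single_apply] using h
  have hE : (Matrix.single (0 : Fin 2) (1 : Fin 2) (1 : k)) = 0 := by
    refine hres _ fun y => ?_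
    simp [Matrix.trace, Matrix.mul_apply, Fin.sum_univ_two, Matrix.single_apply, h10 y]
  have := congrFun (congrFun hE 0) 1
  simp at this

end Residual

section Main

variable [IsLocalRing T] [Module.Finite R A]

omit [Module.Finite R A] in
/-- (T4) `1 ∈ K + 𝔫 A`. -/
theorem one_mem_sup {ρ : G →* A} {ε : G →* Rˣ} {τ : G → R} (hrel : Rel ρ ε τ)
    (π : R →+* T) (hmax : (Ideal.comap π (IsLocalRing.maximalIdeal T)).IsMaximal)
    (ρV : G →* Matrix (Fin 2) (Fin 2) T) (htrace : ∀ g, π (τ g) = (ρV g).trace)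
    (hres : ∀ Z : Matrix (Fin 2) (Fin 2) (IsLocalRing.ResidueField T),
      (∀ y, ((ρV y).map (IsLocalRing.residue T) * Z).trace = 0) → Z = 0) :
    (1 : A) ∈ commIdeal R A ⊔ Ideal.comap π (IsLocalRing.maximalIdeal T) • (⊤ : Submodule R A) := by
  by_contra h1
  have hδ := tau_comm_mem_ideal hrel _ hmax h1
  refine false_of_commute (fun g => (ρV g).map (IsLocalRing.residue T)) hres fun g h => ?_
  have hZ : (ρV g).map (IsLocalRing.residue T) * (ρV h).map (IsLocalRing.residue T)
      - (ρV h).map (IsLocalRing.residue T) * (ρV g).map (IsLocalRing.residue T) = 0 := by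
    refine hres _ fun y => ?_
    have hm : π (τ (g * h * y) - τ (h * g * y)) ∈ IsLocalRing.maximalIdeal T := hδ g h y
    rw [map_sub, htrace, htrace] at hm
    have h0 : IsLocalRing.residue T ((ρV (g * h * y)).trace - (ρV (h * g * y)).trace) = 0 :=
      (IsLocalRing.residue_eq_zero_iff _).mpr hm
    have e : ((ρV y).map (IsLocalRing.residue T) *
        ((ρV g).map (IsLocalRing.residue T) * (ρV h).map (IsLocalRing.residue T)
          - (ρV h).map (IsLocalRing.residue T) * (ρV g).map (IsLocalRing.residue T))).trace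
        = IsLocalRing.residue T ((ρV (g * h * y)).trace - (ρV (h * g * y)).trace) := by
      have htrmap : ∀ X : Matrix (Fin 2) (Fin 2) T,
          (X.map (IsLocalRing.residue T)).trace = IsLocalRing.residue T X.trace := by
        intro X
        simp only [Matrix.trace, Matrix.diag_apply, Matrix.map_apply, map_sum]
      rw [Matrix.trace_mul_comm, ← Matrix.map_mul, ← Matrix.map_mul,
        ← Matrix.map_sub (IsLocalRing.residue T) (map_sub (IsLocalRing.residue T)),
        ← Matrix.map_mul, htrmap, map_mul, map_mul, map_mul, map_mul, sub_mul, Matrix.trace_sub]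
    rw [e, h0]
  exact sub_eq_zero.mp hZ

/-- (T5a) Nakayama: some `s ≡ 1 mod 𝔫` has `s • 1 ∈ K`. -/
theorem exists_smul_one_mem (𝔫 : Ideal R)
    (h1 : (1 : A) ∈ commIdeal R A ⊔ 𝔫 • (⊤ : Submodule R A)) :
    ∃ s : R, s - 1 ∈ 𝔫 ∧ s • (1 : A) ∈ commIdeal R A := by
  set K := commIdeal R A with hK
  -- `𝔫 • ⊤` is stable under left multiplication
  have hleft : ∀ (a : A) (x : A), x ∈ 𝔫 • (⊤ : Submodule R A) →
      a * x ∈ 𝔫 • (⊤ : Submodule R A) := by
    intro a x hx
    refine Submodule.smul_induction_on hx (fun n hn y _ => ?_) (fun x y hx hy => ?_)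
    · rw [mul_smul_comm]
      exact Submodule.smul_mem_smul hn Submodule.mem_top
    · rw [mul_add]
      exact Submodule.add_mem _ hx hy
  obtain ⟨κ, hκ, ν, hν, hκν⟩ := Submodule.mem_sup.mp h1
  have htop : (⊤ : Submodule R (A ⧸ K)) ≤ 𝔫 • (⊤ : Submodule R (A ⧸ K)) := by
    intro q _
    obtain ⟨a, rfl⟩ := Submodule.Quotient.mk_surjective K q
    have ha : a = a * κ + a * ν := by rw [← mul_add, hκν, mul_one]
    have hq : (Submodule.Quotient.mk a : A ⧸ K) = Submodule.Quotient.mk (a * ν) := by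
      rw [Submodule.Quotient.eq]
      have : a - a * ν = a * κ := by rw [sub_eq_iff_eq_add]; exact ha
      rw [this]
      exact mul_mem_commIdeal a hκ
    rw [hq]
    have hmap : (Submodule.mkQ K) (a * ν) ∈ (𝔫 • (⊤ : Submodule R A)).map (Submodule.mkQ K) :=
      Submodule.mem_map_of_mem (hleft a ν hν)
    rw [Submodule.map_smul''] at hmap
    exact Submodule.smul_mono le_rfl le_top hmap
  have hfg : (⊤ : Submodule R (A ⧸ K)).FG := Module.Finite.fg_top
  obtain ⟨s, hs, hs0⟩ :=
    Submodule.exists_sub_one_mem_and_smul_eq_zero_of_fg_of_le_smul 𝔫 ⊤ hfg htop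
  refine ⟨s, hs, ?_⟩
  have h := hs0 (Submodule.Quotient.mk (1 : A)) Submodule.mem_top
  rw [← Submodule.Quotient.mk_smul, Submodule.Quotient.mk_eq_zero] at h
  exact h

/-- (T5b) The trace of a relation vanishes: `π (∑ r i * τ (g i)) = 0`. -/
theorem pi_sum_eq_zero {ι : Type*} {ρ : G →* A} {ε : G →* Rˣ} {τ : G → R} (hrel : Rel ρ ε τ)
    (hinj : Function.Injective (algebraMap R A))
    (hspan : Submodule.span R (Set.range ρ) = ⊤)
    (π : R →+* T) (hmax : (Ideal.comap π (IsLocalRing.maximalIdeal T)).IsMaximal)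
    (ρV : G →* Matrix (Fin 2) (Fin 2) T) (htrace : ∀ g, π (τ g) = (ρV g).trace)
    (hres : ∀ Z : Matrix (Fin 2) (Fin 2) (IsLocalRing.ResidueField T),
      (∀ y, ((ρV y).map (IsLocalRing.residue T) * Z).trace = 0) → Z = 0)
    (s : Finset ι) (r : ι → R) (g : ι → G) (h0 : ∑ i ∈ s, r i • ρ (g i) = 0) :
    π (∑ i ∈ s, r i * τ (g i)) = 0 := by
  obtain ⟨u, hu, hu1⟩ := exists_smul_one_mem _ (one_mem_sup hrel π hmax ρV htrace hres)
  have hc := smul_commIdeal_eq_zero hrel hspan s r g h0 hu1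
  rw [smul_smul, ← Algebra.algebraMap_eq_smul_one] at hc
  have hcu : (∑ i ∈ s, r i * τ (g i)) * u = 0 := hinj (by rw [hc, map_zero])
  have hπ : π (∑ i ∈ s, r i * τ (g i)) * π u = 0 := by rw [← map_mul, hcu, map_zero]
  have hunit : IsUnit (π u) := by
    apply IsLocalRing.isUnit_of_mem_nonunits_one_sub_self
    have hmem : π (u - 1) ∈ IsLocalRing.maximalIdeal T := hu
    rw [map_sub, map_one] at hmem
    have : (1 : T) - π u = -(π u - 1) := by ring
    rw [this]
    exact (IsLocalRing.maximalIdeal T).neg_mem hmem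
  exact (hunit.mul_left_eq_zero).mp hπ

/-- **Abstract transfer theorem.**  Every `R`-linear relation among the `ρ g` in `A` holds among
the `ρV g` in `M₂(T)`. -/
theorem transfer {ι : Type*} {ρ : G →* A} {ε : G →* Rˣ} {τ : G → R} (hrel : Rel ρ ε τ)
    (hinj : Function.Injective (algebraMap R A))
    (hspan : Submodule.span R (Set.range ρ) = ⊤)
    (π : R →+* T) (hmax : (Ideal.comap π (IsLocalRing.maximalIdeal T)).IsMaximal)
    (ρV : G →* Matrix (Fin 2) (Fin 2) T) (htrace : ∀ g, π (τ g) = (ρV g).trace)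
    (hres : ∀ Z : Matrix (Fin 2) (Fin 2) (IsLocalRing.ResidueField T),
      (∀ y, ((ρV y).map (IsLocalRing.residue T) * Z).trace = 0) → Z = 0)
    (htr : ∀ Z : Matrix (Fin 2) (Fin 2) T, (∀ h, (Z * ρV h).trace = 0) → Z = 0)
    (s : Finset ι) (r : ι → R) (g : ι → G) (h0 : ∑ i ∈ s, r i • ρ (g i) = 0) :
    ∑ i ∈ s, π (r i) • ρV (g i) = 0 := by
  refine htr _ fun h => ?_
  have h0' : ∑ i ∈ s, r i • ρ (g i * h) = 0 := by
    have : ∑ i ∈ s, r i • ρ (g i * h) = (∑ i ∈ s, r i • ρ (g i)) * ρ h := by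
      rw [Finset.sum_mul]
      refine Finset.sum_congr rfl fun i _ => ?_
      rw [map_mul, smul_mul_assoc]
    rw [this, h0, zero_mul]
  have key := pi_sum_eq_zero hrel hinj hspan π hmax ρV htrace hres s r (fun i => g i * h) h0'
  rw [map_sum] at key
  rw [Finset.sum_mul, Matrix.trace_sum, ← key]
  refine Finset.sum_congr rfl fun i _ => ?_
  rw [map_mul, htrace, map_mul, smul_mul_assoc, Matrix.trace_smul, smul_eq_mul]

end Main

end Fermat.Agent.Lib.TransferAlg
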