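/-
Abstract transfer theorem, ambient form (helper246).  Mathlib + `Lib/TransferAlg`.

`transfer_of_isNoetherian` : the transfer theorem of `Lib/TransferAlg` without the spanning
hypothesis, for a group `G` mapping into any `R`-algebra `A` which is a Noetherian `R`-module
(the theorem is applied to the subalgebra `R[ρ G]`).
-/
import Mathlib
import Fermat.Agent.Lib.TransferAlg

set_option autoImplicit false

namespace Fermat.Agent.Lib.TransferAdj

open Fermat.Agent.Lib.TransferAlg

variable {R A T G : Type*} [CommRing R] [Ring A] [Algebra R A] [CommRing T] [Group G]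
  [IsLocalRing T]

/-- The subalgebra generated by the image of a monoid hom is spanned by the image. -/
theorem span_range_codRestrict (ρ : G →* A) (B : Subalgebra R A)
    (hB : B = Algebra.adjoin R (Set.range ρ)) (ρB : G →* B) (hρB : ∀ g, (ρB g : A) = ρ g) :
    Submodule.span R (Set.range ρB) = ⊤ := by
  rw [eq_top_iff]
  rintro ⟨x, hx⟩ -
  have hx' : x ∈ Submodule.span R (Set.range ρ) := by
    have h1 : x ∈ Subalgebra.toSubmodule (Algebra.adjoin R (Set.range ρ)) := hB ▸ hx
    rw [Algebra.adjoin_eq_span, ← MonoidHom.coe_mrange, Submonoid.closure_eq,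
      MonoidHom.coe_mrange] at h1
    exact h1
  have key : ∀ y ∈ Submodule.span R (Set.range ρ),
      ∃ z ∈ Submodule.span R (Set.range ρB), (z : A) = y := by
    intro y hy
    induction hy using Submodule.span_induction with
    | mem y hy =>
      obtain ⟨g, rfl⟩ := hy
      exact ⟨ρB g, Submodule.subset_span ⟨g, rfl⟩, hρB g⟩
    | zero => exact ⟨0, Submodule.zero_mem _, rfl⟩
    | add y y' _ _ hy hy' =>
      obtain ⟨z, hz, rfl⟩ := hy
      obtain ⟨z', hz', rfl⟩ := hy'
      exact ⟨z + z', Submodule.add_mem _ hz hz', rfl⟩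
    | smul t y _ hy =>
      obtain ⟨z, hz, rfl⟩ := hy
      exact ⟨t • z, Submodule.smul_mem _ t hz, rfl⟩
  obtain ⟨z, hz, hzx⟩ := key x hx'
  have : z = ⟨x, hx⟩ := Subtype.ext hzx
  rw [← this]
  exact hz

/-- **Abstract transfer theorem, ambient form.**  `A` is any `R`-algebra which is a Noetherian
`R`-module with `R → A` injective; no spanning hypothesis. -/
theorem transfer_of_isNoetherian [IsNoetherian R A] {ι : Type*} {ρ : G →* A} {ε : G →* Rˣ}
    {τ : G → R} (hrel : Rel ρ ε τ) (hinj : Function.Injective (algebraMap R A))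
    (π : R →+* T) (hmax : (Ideal.comap π (IsLocalRing.maximalIdeal T)).IsMaximal)
    (ρV : G →* Matrix (Fin 2) (Fin 2) T) (htrace : ∀ g, π (τ g) = (ρV g).trace)
    (hres : ∀ Z : Matrix (Fin 2) (Fin 2) (IsLocalRing.ResidueField T),
      (∀ y, ((ρV y).map (IsLocalRing.residue T) * Z).trace = 0) → Z = 0)
    (htr : ∀ Z : Matrix (Fin 2) (Fin 2) T, (∀ h, (Z * ρV h).trace = 0) → Z = 0)
    (s : Finset ι) (r : ι → R) (g : ι → G) (h0 : ∑ i ∈ s, r i • ρ (g i) = 0) :
    ∑ i ∈ s, π (r i) • ρV (g i) = 0 := by
  let B : Subalgebra R A := Algebra.adjoin R (Set.range ρ)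
  have hmem : ∀ g, ρ g ∈ B := fun g => Algebra.subset_adjoin ⟨g, rfl⟩
  let ρB : G →* B :=
    { toFun := fun g => ⟨ρ g, hmem g⟩
      map_one' := Subtype.ext (map_one ρ)
      map_mul' := fun g h => Subtype.ext (map_mul ρ g h) }
  have hρB : ∀ g, (ρB g : A) = ρ g := fun _ => rfl
  have hfin : Module.Finite R B :=
    (Module.Finite.iff_fg (N := Subalgebra.toSubmodule B)).mpr (IsNoetherian.noetherian _)
  have hrelB : Rel ρB ε τ := by
    intro g
    apply Subtype.ext
    have := hrel g
    simpa [hρB] using this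
  have hinjB : Function.Injective (algebraMap R B) := by
    intro x y h
    apply hinj
    have := congrArg (Subtype.val : B → A) h
    simpa using this
  have hspanB : Submodule.span R (Set.range ρB) = ⊤ := span_range_codRestrict ρ B rfl ρB hρB
  have h0B : ∑ i ∈ s, r i • ρB (g i) = 0 := by
    apply Subtype.ext
    simpa [hρB] using h0
  exact transfer hrelB hinjB hspanB π hmax ρV htrace hres htr s r g h0B

end Fermat.Agent.Lib.TransferAdj
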