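import Mathlib
import Fermat.Agent.Lib.TwoChartNormalForm

/-!
# (DEC) and (UNIQ) are stable under a free base change (level-free, Mathlib only)

Program FG (S19), Route C.  `R₀ → R` commutative rings, `b : Fin r → R` spanning `R` over `R₀`;
`𝒞₀` an `R₀`-algebra with charts `C0₀`, `Cinf₀`, `𝒞` an `R`-algebra with charts `C0`, `Cinf`, and a
ring homomorphism `ι : 𝒞₀ → 𝒞` over `R₀ → R` such that (the base-change statement (BC))

* every `c : 𝒞` is `∑ j, b j • ι (c' j)` for a unique family `c' : Fin r → 𝒞₀`;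
* `∑ j, b j • ι (c' j)` lies in a chart of `𝒞` iff every `c' j` lies in the chart of `𝒞₀`.

Then `Dec` / `Uniq` of `Lib/TwoChartNormalForm` for `(C0₀, Cinf₀, e)` over `R₀` imply
`Dec` / `Uniq` for `(C0, Cinf, ι ∘ e)` over `R` (`Dec.baseChange`, `Uniq.baseChange`): a basis of
`H¹` chosen over the small base (e.g. invariant under a group acting on `R` over `R₀`) serves
over the big base.

`Dec.map`, `Uniq.map` : transport along an algebra map / isomorphism between two carriers of the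
overlap ring.
-/

set_option autoImplicit false

namespace Fermat.Agent.Lib.TwoChartNormalForm

section DecBaseChange

variable {R₀ R 𝒞₀ 𝒞 : Type*} [CommRing R₀] [CommRing R] [Algebra R₀ R]
  [CommRing 𝒞₀] [Algebra R₀ 𝒞₀] [CommRing 𝒞] [Algebra R 𝒞]

/-- **(DEC) under base change.** -/
theorem Dec.baseChange {C0₀ Cinf₀ : Subalgebra R₀ 𝒞₀} {C0 Cinf : Subalgebra R 𝒞} {d r : ℕ}
    {e : Fin d → 𝒞₀} (hdec : Dec C0₀ Cinf₀ e) (ι : 𝒞₀ →+* 𝒞)
    (hι : ∀ (a : R₀) (c : 𝒞₀), ι (a • c) = algebraMap R₀ R a • ι c) (b : Fin r → R)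
    (hspan : ∀ c : 𝒞, ∃ c' : Fin r → 𝒞₀, c = ∑ j, b j • ι (c' j))
    (h0 : ∀ c' : Fin r → 𝒞₀, (∀ j, c' j ∈ C0₀) → ∑ j, b j • ι (c' j) ∈ C0)
    (h1 : ∀ c' : Fin r → 𝒞₀, (∀ j, c' j ∈ Cinf₀) → ∑ j, b j • ι (c' j) ∈ Cinf) :
    Dec C0 Cinf (fun i => ι (e i)) := by
  intro c
  obtain ⟨c', rfl⟩ := hspan c
  choose x hx y hy a hc' using fun j => hdec (c' j)
  refine ⟨∑ j, b j • ι (x j), h0 x hx, ∑ j, b j • ι (y j), h1 y hy,
    fun i => ∑ j, algebraMap R₀ R (a j i) * b j, ?_⟩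
  have h2 : ∀ j, b j • ι (c' j) =
      b j • ι (x j) + b j • ι (y j) + ∑ i, (algebraMap R₀ R (a j i) * b j) • ι (e i) := by
    intro j
    rw [hc' j, map_add, map_add, map_sum, smul_add, smul_add, Finset.smul_sum]
    congr 1
    refine Finset.sum_congr rfl fun i _ => ?_
    rw [hι, smul_smul, mul_comm]
  rw [Finset.sum_congr rfl fun j _ => h2 j, Finset.sum_add_distrib, Finset.sum_add_distrib,
    Finset.sum_comm]
  congr 1
  refine Finset.sum_congr rfl fun i _ => ?_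
  rw [Finset.sum_smul]

/-- **(UNIQ) under base change.** -/
theorem Uniq.baseChange {C0₀ Cinf₀ : Subalgebra R₀ 𝒞₀} {C0 Cinf : Subalgebra R 𝒞} {d r : ℕ}
    {e : Fin d → 𝒞₀} (huniq : Uniq C0₀ Cinf₀ e) (ι : 𝒞₀ →+* 𝒞)
    (hι : ∀ (a : R₀) (c : 𝒞₀), ι (a • c) = algebraMap R₀ R a • ι c) (b : Fin r → R)
    (hR : ∀ a : R, ∃ a' : Fin r → R₀, a = ∑ j, algebraMap R₀ R (a' j) * b j)
    (hind : ∀ c' : Fin r → 𝒞₀, ∑ j, b j • ι (c' j) = 0 → ∀ j, c' j = 0)
    (h0 : ∀ c ∈ C0, ∃ c' : Fin r → 𝒞₀, (∀ j, c' j ∈ C0₀) ∧ c = ∑ j, b j • ι (c' j))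
    (h1 : ∀ c ∈ Cinf, ∃ c' : Fin r → 𝒞₀, (∀ j, c' j ∈ Cinf₀) ∧ c = ∑ j, b j • ι (c' j)) :
    Uniq C0 Cinf (fun i => ι (e i)) := by
  intro c0 hc0 c1 hc1 a h
  obtain ⟨x, hx, rfl⟩ := h0 c0 hc0
  obtain ⟨y, hy, rfl⟩ := h1 c1 hc1
  choose a' ha' using hR
  have h2 : ∑ j, b j • ι (x j + y j + ∑ i, a' (a i) j • e i) = 0 := by
    rw [← h]
    have h3 : ∀ j, b j • ι (x j + y j + ∑ i, a' (a i) j • e i) =
        b j • ι (x j) + b j • ι (y j) + ∑ i, (algebraMap R₀ R (a' (a i) j) * b j) • ι (e i) := by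
      intro j
      rw [map_add, map_add, map_sum, smul_add, smul_add, Finset.smul_sum]
      congr 1
      refine Finset.sum_congr rfl fun i _ => ?_
      rw [hι, smul_smul, mul_comm]
    rw [Finset.sum_congr rfl fun j _ => h3 j, Finset.sum_add_distrib, Finset.sum_add_distrib,
      Finset.sum_comm]
    congr 1
    refine Finset.sum_congr rfl fun i _ => ?_
    rw [← Finset.sum_smul, ← ha' (a i)]
  have h4 := hind _ h2
  have h5 := fun j => huniq (x j) (hx j) (y j) (hy j) (fun i => a' (a i) j) (h4 j)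
  constructor
  · intro i
    rw [ha' (a i)]
    exact Finset.sum_eq_zero fun j _ => by rw [(h5 j).1 i, map_zero, zero_mul]
  · choose ρ hρ using fun j => (h5 j).2
    refine ⟨∑ j, algebraMap R₀ R (ρ j) * b j, ?_⟩
    rw [map_sum]
    refine Finset.sum_congr rfl fun j _ => ?_
    rw [hρ j, map_mul, Algebra.smul_def, Algebra.algebraMap_eq_smul_one (ρ j), hι, map_one,
      Algebra.smul_def, mul_one, mul_comm]

end DecBaseChange

section Transport

variable {R 𝒞 𝒞' : Type*} [CommRing R] [CommRing 𝒞] [Algebra R 𝒞] [CommRing 𝒞'] [Algebra R 𝒞']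

/-- **(DEC) along a surjective algebra map** carrying the charts into the charts (in particular
along an isomorphism between two carriers of the same overlap ring). -/
theorem Dec.map {C0 Cinf : Subalgebra R 𝒞} {C0' Cinf' : Subalgebra R 𝒞'} {d : ℕ} {e : Fin d → 𝒞}
    (hdec : Dec C0 Cinf e) (f : 𝒞 →ₐ[R] 𝒞') (hf : Function.Surjective f)
    (h0 : ∀ c ∈ C0, f c ∈ C0') (h1 : ∀ c ∈ Cinf, f c ∈ Cinf') :
    Dec C0' Cinf' (fun i => f (e i)) := by
  intro c'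
  obtain ⟨c, rfl⟩ := hf c'
  obtain ⟨c0, hc0, c1, hc1, a, rfl⟩ := hdec c
  refine ⟨f c0, h0 c0 hc0, f c1, h1 c1 hc1, a, ?_⟩
  rw [map_add, map_add, map_sum]
  congr 1
  exact Finset.sum_congr rfl fun i _ => map_smul f (a i) (e i)

/-- **(UNIQ) along an algebra isomorphism** identifying the charts. -/
theorem Uniq.map {C0 Cinf : Subalgebra R 𝒞} {C0' Cinf' : Subalgebra R 𝒞'} {d : ℕ}
    {e : Fin d → 𝒞} (huniq : Uniq C0 Cinf e) (f : 𝒞 ≃ₐ[R] 𝒞')
    (h0 : ∀ c' ∈ C0', f.symm c' ∈ C0) (h1 : ∀ c' ∈ Cinf', f.symm c' ∈ Cinf) :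
    Uniq C0' Cinf' (fun i => f (e i)) := by
  intro c0 hc0 c1 hc1 a h
  have h2 : f.symm c0 + f.symm c1 + ∑ i, a i • e i = 0 := by
    have := congrArg f.symm h
    rw [map_add, map_add, map_sum, map_zero] at this
    rw [← this]
    congr 1
    refine Finset.sum_congr rfl fun i _ => ?_
    rw [map_smul, AlgEquiv.symm_apply_apply]
  obtain ⟨ha, r, hr⟩ := huniq _ (h0 c0 hc0) _ (h1 c1 hc1) a h2
  refine ⟨ha, r, ?_⟩
  have := congrArg f hr
  rwa [AlgEquiv.apply_symm_apply, AlgEquiv.commutes] at this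

end Transport

end Fermat.Agent.Lib.TwoChartNormalForm
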