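import Mathlib

/-!
# Two-chart algebra: exact vanishing of `H¹(O(n D_∞))` and the Hilbert function of `V_n`

Level-free (Mathlib only).  `O` a commutative ring, `L` a field over `O`, `u : L` a unit, and two
`O`-subalgebras `B ∋ u`, `B_∞ ∋ u⁻¹` of `L` (in the applications: the integral closures of `O[u]`
and `O[u⁻¹]` in a function field `L`, the two chart rings of the normalisation of `P¹_O` in `L`).

* `Ov u B hu`  : the overlap `B[1/u] = {x | ∃ m, u ^ m * x ∈ B}`;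
* `Mn u B Binf n` : `B + u ^ n * B_∞`;   `Vn u B Binf n` : `B ∩ u ^ n * B_∞` (`= H⁰(O(n D_∞))`).

Results:

* `exists_forall_Ov_le_Mn` : if `B` is spanned over `O[u]` by a finite set and every element of
  `B` lands in `B_∞` after multiplication by a power of `u⁻¹`, then
  `B[1/u] = B + u ^ n * B_∞` for ALL `n ≥ n₁` (no uniformiser, no Nakayama);
* `exists_lift`, `exists_mem_Vn_lift` : `V_n → (B/π) ∩ u ^ n (B_∞/π)` is onto for such `n`;
* `mem_Vn_of_smul_mem` : `V_n ∩ π B[1/u] = π V_n` if both charts are `π`-saturated in `B[1/u]`;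
* `fibreMap`, `ker_fibreMap`, `fibreMap_surjective` : `V_(n+1) / V_n ≃ B_∞ / u⁻¹ B_∞` for such `n`;
* `finite_Qinf`, `finite_Vn`, `finite_Vn_zero` : finiteness over a noetherian `O`;
* `finrank_Vn_succ`, `finrank_Vn_eq` : over a domain,
  `rank V_(n₁+k) = rank V_(n₁) + k * rank (B_∞ / u⁻¹ B_∞)`.

(The companion statement "`B[1/u] / (B + B_∞)` is finite free" is `S44/D/CechFree.lean`.)
-/

set_option autoImplicit false

namespace Fermat.Agent.Lib.TwoChartVanish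

open Polynomial

variable {O L : Type*} [CommRing O] [Field L] [Algebra O L]

/-- The overlap module `B[1/u] = {x | ∃ m, u ^ m * x ∈ B}` of the chart `B ∋ u`. -/
def Ov (u : L) (B : Subalgebra O L) (hu : u ∈ B) : Submodule O L where
  carrier := {x | ∃ m : ℕ, u ^ m * x ∈ B}
  add_mem' := by
    rintro x y ⟨m, hm⟩ ⟨k, hk⟩
    refine ⟨m + k, ?_⟩
    have : u ^ (m + k) * (x + y) = u ^ k * (u ^ m * x) + u ^ m * (u ^ k * y) := by ring
    rw [this]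
    exact B.add_mem (B.mul_mem (B.pow_mem hu k) hm) (B.mul_mem (B.pow_mem hu m) hk)
  zero_mem' := ⟨0, by simp⟩
  smul_mem' := by
    rintro a x ⟨m, hm⟩
    refine ⟨m, ?_⟩
    show u ^ m * a • x ∈ B
    rw [mul_smul_comm]
    exact B.smul_mem hm a

theorem mem_Ov {u : L} {B : Subalgebra O L} {hu : u ∈ B} {x : L} :
    x ∈ Ov u B hu ↔ ∃ m : ℕ, u ^ m * x ∈ B := Iff.rfl

theorem le_Ov (u : L) (B : Subalgebra O L) (hu : u ∈ B) :
    Subalgebra.toSubmodule B ≤ Ov u B hu := fun x hx => ⟨0, by simpa using hx⟩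

theorem mul_mem_Ov {u : L} {B : Subalgebra O L} {hu : u ∈ B} {x : L} (hx : x ∈ Ov u B hu) :
    u * x ∈ Ov u B hu := by
  obtain ⟨m, hm⟩ := hx
  refine ⟨m, ?_⟩
  have : u ^ m * (u * x) = u * (u ^ m * x) := by ring
  rw [this]
  exact B.mul_mem hu hm

theorem pow_mul_mem_Ov {u : L} {B : Subalgebra O L} {hu : u ∈ B} {x : L} (hx : x ∈ Ov u B hu)
    (e : ℕ) : u ^ e * x ∈ Ov u B hu := by
  induction e with
  | zero => simpa using hx
  | succ e ih =>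
    have : u ^ (e + 1) * x = u * (u ^ e * x) := by ring
    rw [this]
    exact mul_mem_Ov ih

/-- `B + u ^ n * B_∞`, as an `O`-submodule of `L`. -/
def Mn (u : L) (B Binf : Subalgebra O L) (n : ℕ) : Submodule O L :=
  Subalgebra.toSubmodule B ⊔ (Subalgebra.toSubmodule Binf).map (LinearMap.mulLeft O (u ^ n))

theorem mem_Mn {u : L} {B Binf : Subalgebra O L} {n : ℕ} {x : L} :
    x ∈ Mn u B Binf n ↔ ∃ b ∈ B, ∃ c ∈ Binf, x = b + u ^ n * c := by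
  unfold Mn
  rw [Submodule.mem_sup]
  constructor
  · rintro ⟨b, hb, y, hy, rfl⟩
    obtain ⟨c, hc, rfl⟩ := hy
    exact ⟨b, hb, c, hc, rfl⟩
  · rintro ⟨b, hb, c, hc, rfl⟩
    exact ⟨b, hb, _, ⟨c, hc, rfl⟩, rfl⟩

/-- A monomial term lies in `B + u ^ n * B_∞`. -/
theorem term_mem_Mn {u : L} (hu0 : u ≠ 0) {B Binf : Subalgebra O L} (hu : u ∈ B)
    (hu' : u⁻¹ ∈ Binf) {g : L} (hg : g ∈ B) {m : ℕ} (hgm : u⁻¹ ^ m * g ∈ Binf) {n : ℕ}
    (hn : m ≤ n) (k i : ℕ) : u⁻¹ ^ k * (u ^ i * g) ∈ Mn u B Binf n := by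
  rw [mem_Mn]
  rcases le_or_gt k i with hki | hki
  · refine ⟨u ^ (i - k) * g, B.mul_mem (B.pow_mem hu _) hg, 0, Binf.zero_mem, ?_⟩
    obtain ⟨j, rfl⟩ := Nat.exists_eq_add_of_le hki
    rw [Nat.add_sub_cancel_left, mul_zero, add_zero, pow_add, inv_pow]
    field_simp
  · obtain ⟨j, rfl⟩ := Nat.exists_eq_add_of_le hki.le
    obtain ⟨r, rfl⟩ := Nat.exists_eq_add_of_le hn
    refine ⟨0, B.zero_mem, u⁻¹ ^ (r + j) * (u⁻¹ ^ m * g),
      Binf.mul_mem (Binf.pow_mem hu' _) hgm, ?_⟩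
    rw [zero_add]
    simp only [inv_pow, pow_add]
    field_simp

/-- A polynomial multiple of a generator, divided by `u ^ k`, lies in `B + u ^ n * B_∞`. -/
theorem aeval_mul_mem_Mn {u : L} (hu0 : u ≠ 0) {B Binf : Subalgebra O L} (hu : u ∈ B)
    (hu' : u⁻¹ ∈ Binf) {g : L} (hg : g ∈ B) {m : ℕ} (hgm : u⁻¹ ^ m * g ∈ Binf) {n : ℕ}
    (hn : m ≤ n) (k : ℕ) (P : O[X]) : u⁻¹ ^ k * (aeval u P * g) ∈ Mn u B Binf n := by
  rw [aeval_eq_sum_range, Finset.sum_mul, Finset.mul_sum]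
  refine Submodule.sum_mem _ fun i _ => ?_
  rw [smul_mul_assoc, mul_smul_comm]
  exact Submodule.smul_mem _ _ (term_mem_Mn hu0 hu hu' hg hgm hn k i)

/-- **Vanishing of `H¹(O(n D_∞))`**: `B[1/u] = B + u ^ n * B_∞` for all large `n`. -/
theorem exists_forall_Ov_le_Mn {u : L} (hu0 : u ≠ 0) {B Binf : Subalgebra O L} (hu : u ∈ B)
    (hu' : u⁻¹ ∈ Binf)
    (hfg : ∃ s : Finset L, (↑s : Set L) ⊆ B ∧
      ∀ b ∈ B, ∃ c : L → O[X], b = ∑ g ∈ s, aeval u (c g) * g)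
    (hov : ∀ b ∈ B, ∃ m : ℕ, u⁻¹ ^ m * b ∈ Binf) :
    ∃ n₁ : ℕ, ∀ n, n₁ ≤ n → Ov u B hu ≤ Mn u B Binf n := by
  classical
  obtain ⟨s, hsB, hs⟩ := hfg
  have hex : ∀ g : L, ∃ m : ℕ, g ∈ s → u⁻¹ ^ m * g ∈ Binf := by
    intro g
    by_cases hg : g ∈ s
    · obtain ⟨m, hm⟩ := hov g (hsB hg)
      exact ⟨m, fun _ => hm⟩
    · exact ⟨0, fun h => absurd h hg⟩
  choose mg hmg using hex
  refine ⟨s.sup mg, fun n hn x hx => ?_⟩
  obtain ⟨k, hk⟩ := hx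
  obtain ⟨c, hc⟩ := hs _ hk
  have hx' : x = ∑ g ∈ s, u⁻¹ ^ k * (aeval u (c g) * g) := by
    rw [← Finset.mul_sum, ← hc, inv_pow, ← mul_assoc, inv_mul_cancel₀ (pow_ne_zero k hu0), one_mul]
  rw [hx']
  refine Submodule.sum_mem _ fun g hg => ?_
  have hm : u⁻¹ ^ (s.sup mg) * g ∈ Binf := by
    obtain ⟨r, hr⟩ := Nat.exists_eq_add_of_le (Finset.le_sup (f := mg) hg)
    rw [hr, pow_add, mul_comm (u⁻¹ ^ mg g), mul_assoc]
    exact Binf.mul_mem (Binf.pow_mem hu' _) (hmg g hg)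
  exact aeval_mul_mem_Mn hu0 hu hu' (hsB hg) hm hn k (c g)

/-- **`H⁰` commutes with reduction**: for `n ≥ n₁`, a pair `b ∈ B`, `c ∈ B_∞` with
`b ≡ u ^ n * c` modulo `π B[1/u]` can be corrected modulo `π` to an honest element of
`B ∩ u ^ n * B_∞`. -/
theorem exists_lift {π : O} {u : L} {B Binf : Subalgebra O L} (hu : u ∈ B) {n : ℕ}
    (hn : Ov u B hu ≤ Mn u B Binf n) {b c x : L} (hx : x ∈ Ov u B hu)
    (h : b - u ^ n * c = π • x) :
    ∃ b' ∈ B, ∃ c' ∈ Binf, b - π • b' = u ^ n * (c + π • c') := by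
  obtain ⟨b', hb', c', hc', rfl⟩ := mem_Mn.mp (hn hx)
  refine ⟨b', hb', c', hc', ?_⟩
  have h2 : b = u ^ n * c + π • (b' + u ^ n * c') := by rw [← h]; ring
  rw [h2, smul_add, mul_add, mul_smul_comm]
  ring

/-- `V_n = B ∩ u ^ n * B_∞` (the lattice `H⁰(O(n D_∞))`), as an `O`-submodule of `L`. -/
def Vn (u : L) (B Binf : Subalgebra O L) (n : ℕ) : Submodule O L :=
  Subalgebra.toSubmodule B ⊓ (Subalgebra.toSubmodule Binf).map (LinearMap.mulLeft O (u ^ n))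

theorem mem_Vn {u : L} {B Binf : Subalgebra O L} {n : ℕ} {x : L} :
    x ∈ Vn u B Binf n ↔ x ∈ B ∧ ∃ c ∈ Binf, x = u ^ n * c := by
  unfold Vn
  rw [Submodule.mem_inf]
  constructor
  · rintro ⟨hx, c, hc, rfl⟩
    exact ⟨hx, c, hc, rfl⟩
  · rintro ⟨hx, c, hc, rfl⟩
    exact ⟨hx, c, hc, rfl⟩

theorem Vn_le_succ {u : L} (hu0 : u ≠ 0) {B Binf : Subalgebra O L} (hu' : u⁻¹ ∈ Binf) (n : ℕ) :
    Vn u B Binf n ≤ Vn u B Binf (n + 1) := by
  intro x hx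
  obtain ⟨hxB, c, hc, rfl⟩ := mem_Vn.mp hx
  refine mem_Vn.mpr ⟨hxB, u⁻¹ * c, Binf.mul_mem hu' hc, ?_⟩
  rw [pow_succ]
  field_simp

/-- The kernel of `V_(n+1) → B_∞ / u⁻¹ B_∞`, `u ^ (n+1) * c ↦ c`, is `V_n`. -/
theorem mem_Vn_iff_of_mem_succ {u : L} (hu0 : u ≠ 0) {B Binf : Subalgebra O L} {n : ℕ} {c : L}
    (hx : u ^ (n + 1) * c ∈ B) :
    u ^ (n + 1) * c ∈ Vn u B Binf n ↔ u * c ∈ Binf := by
  rw [mem_Vn]
  constructor
  · rintro ⟨-, c', hc', h⟩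
    have : u * c = c' := by
      have hun : u ^ n ≠ 0 := pow_ne_zero n hu0
      apply mul_left_cancel₀ hun
      rw [← h, pow_succ, mul_assoc]
    rw [this]
    exact hc'
  · intro h
    exact ⟨hx, u * c, h, by rw [pow_succ, mul_assoc]⟩

/-- **`V_(n+1) → B_∞ / u⁻¹ B_∞` is onto** as soon as `B[1/u] = B + u ^ n * B_∞`. -/
theorem exists_mem_Vn_succ {u : L} (hu0 : u ≠ 0) {B Binf : Subalgebra O L} (hu : u ∈ B)
    (hu' : u⁻¹ ∈ Binf) (hov' : ∀ c ∈ Binf, ∃ m : ℕ, u ^ m * c ∈ B) {n : ℕ}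
    (hn : Ov u B hu ≤ Mn u B Binf n) {c : L} (hc : c ∈ Binf) :
    ∃ c' ∈ Binf, u ^ (n + 1) * (c - u⁻¹ * c') ∈ Vn u B Binf (n + 1) := by
  have h1 : u ^ (n + 1) * c ∈ Ov u B hu := pow_mul_mem_Ov (hov' c hc) (n + 1)
  obtain ⟨b, hb, c', hc', h⟩ := mem_Mn.mp (hn h1)
  refine ⟨c', hc', mem_Vn.mpr ⟨?_, c - u⁻¹ * c', Binf.sub_mem hc (Binf.mul_mem hu' hc'), rfl⟩⟩
  have : u ^ (n + 1) * (c - u⁻¹ * c') = b := by
    rw [mul_sub, h, pow_succ]
    field_simp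
    ring
  rw [this]
  exact hb

theorem inv_mul_mem_Ov {u : L} (hu0 : u ≠ 0) {B : Subalgebra O L} {hu : u ∈ B} {x : L}
    (hx : x ∈ Ov u B hu) : u⁻¹ * x ∈ Ov u B hu := by
  obtain ⟨m, hm⟩ := hx
  refine ⟨m + 1, ?_⟩
  have : u ^ (m + 1) * (u⁻¹ * x) = u ^ m * x := by
    rw [pow_succ]
    field_simp
  rw [this]
  exact hm

theorem inv_pow_mul_mem_Ov {u : L} (hu0 : u ≠ 0) {B : Subalgebra O L} {hu : u ∈ B} {x : L}
    (hx : x ∈ Ov u B hu) (e : ℕ) : u⁻¹ ^ e * x ∈ Ov u B hu := by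
  induction e with
  | zero => simpa using hx
  | succ e ih =>
    have : u⁻¹ ^ (e + 1) * x = u⁻¹ * (u⁻¹ ^ e * x) := by ring
    rw [this]
    exact inv_mul_mem_Ov hu0 ih

/-- **`V_n ∩ π B[1/u] = π V_n`** (so `V_n / π → (B/π) ∩ u ^ n (B_∞/π)` is injective). -/
theorem mem_Vn_of_smul_mem {π : O} {u : L} (hu0 : u ≠ 0) {B Binf : Subalgebra O L} (hu : u ∈ B)
    (hsatB : ∀ x ∈ Ov u B hu, π • x ∈ B → x ∈ B)
    (hsat : ∀ x ∈ Ov u B hu, π • x ∈ Binf → x ∈ Binf)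
    {n : ℕ} {x : L} (hx : x ∈ Ov u B hu) (h : π • x ∈ Vn u B Binf n) : x ∈ Vn u B Binf n := by
  obtain ⟨hB, c, hc, hxc⟩ := mem_Vn.mp h
  refine mem_Vn.mpr ⟨hsatB x hx hB, u⁻¹ ^ n * x, hsat _ (inv_pow_mul_mem_Ov hu0 hx n) ?_, ?_⟩
  · have : π • (u⁻¹ ^ n * x) = c := by
      rw [← mul_smul_comm, hxc, inv_pow]
      field_simp
    rw [this]
    exact hc
  · rw [inv_pow]
    field_simp

/-- **`V_n → (B/π) ∩ u ^ n (B_∞/π)` is onto** as soon as `B[1/u] = B + u ^ n * B_∞`. -/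
theorem exists_mem_Vn_lift {π : O} {u : L} {B Binf : Subalgebra O L} (hu : u ∈ B) {n : ℕ}
    (hn : Ov u B hu ≤ Mn u B Binf n) {b c x : L} (hb : b ∈ B) (hc : c ∈ Binf)
    (hx : x ∈ Ov u B hu) (h : b - u ^ n * c = π • x) :
    ∃ v ∈ Vn u B Binf n, ∃ b' ∈ B, v = b - π • b' := by
  obtain ⟨b', hb', c', hc', h'⟩ := exists_lift hu hn hx h
  refine ⟨b - π • b', mem_Vn.mpr ⟨B.sub_mem hb (B.smul_mem hb' π), c + π • c',
    Binf.add_mem hc (Binf.smul_mem hc' π), h'⟩, b', hb', rfl⟩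

/-- `u⁻¹ B_∞` inside `B_∞`. -/
def Iu (u : L) (Binf : Subalgebra O L) : Submodule O ↥(Subalgebra.toSubmodule Binf) :=
  ((Subalgebra.toSubmodule Binf).map (LinearMap.mulLeft O u⁻¹)).submoduleOf
    (Subalgebra.toSubmodule Binf)

theorem mem_Iu {u : L} {Binf : Subalgebra O L} {x : ↥(Subalgebra.toSubmodule Binf)} :
    x ∈ Iu u Binf ↔ ∃ c ∈ Binf, (x : L) = u⁻¹ * c := by
  unfold Iu
  constructor
  · rintro ⟨c, hc, h⟩
    exact ⟨c, hc, h.symm⟩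
  · rintro ⟨c, hc, h⟩
    exact ⟨c, hc, h.symm⟩

/-- The fibre module `B_∞ / u⁻¹ B_∞` (functions on the fibre `u = ∞`). -/
abbrev Qinf (u : L) (Binf : Subalgebra O L) : Type _ :=
  ↥(Subalgebra.toSubmodule Binf) ⧸ Iu u Binf

/-- `x ↦ u⁻¹ ^ (n+1) * x`, `V_(n+1) → B_∞`. -/
def toBinf (u : L) (hu0 : u ≠ 0) (B Binf : Subalgebra O L) (n : ℕ) :
    ↥(Vn u B Binf (n + 1)) →ₗ[O] ↥(Subalgebra.toSubmodule Binf) :=
  LinearMap.codRestrict (Subalgebra.toSubmodule Binf)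
    ((LinearMap.mulLeft O (u⁻¹ ^ (n + 1))).comp (Vn u B Binf (n + 1)).subtype) (by
      rintro ⟨x, hx⟩
      obtain ⟨-, c, hc, rfl⟩ := mem_Vn.mp hx
      have : u⁻¹ ^ (n + 1) * (u ^ (n + 1) * c) = c := by
        rw [inv_pow]
        field_simp
      show u⁻¹ ^ (n + 1) * (u ^ (n + 1) * c) ∈ Binf
      rw [this]
      exact hc)

@[simp]
theorem coe_toBinf (u : L) (hu0 : u ≠ 0) (B Binf : Subalgebra O L) (n : ℕ)
    (x : ↥(Vn u B Binf (n + 1))) :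
    ((toBinf u hu0 B Binf n x : ↥(Subalgebra.toSubmodule Binf)) : L) = u⁻¹ ^ (n + 1) * (x : L) :=
  rfl

/-- The fibre map `V_(n+1) → B_∞ / u⁻¹ B_∞`. -/
def fibreMap (u : L) (hu0 : u ≠ 0) (B Binf : Subalgebra O L) (n : ℕ) :
    ↥(Vn u B Binf (n + 1)) →ₗ[O] Qinf u Binf :=
  (Submodule.mkQ (Iu u Binf)).comp (toBinf u hu0 B Binf n)

theorem ker_fibreMap (u : L) (hu0 : u ≠ 0) (B Binf : Subalgebra O L) (n : ℕ) :
    LinearMap.ker (fibreMap u hu0 B Binf n) = (Vn u B Binf n).submoduleOf (Vn u B Binf (n + 1)) := by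
  ext ⟨x, hx⟩
  rw [LinearMap.mem_ker, fibreMap, LinearMap.comp_apply, Submodule.mkQ_apply,
    Submodule.Quotient.mk_eq_zero, mem_Iu, coe_toBinf]
  show _ ↔ x ∈ Vn u B Binf n
  obtain ⟨hxB, c, hc, rfl⟩ := mem_Vn.mp hx
  rw [mem_Vn_iff_of_mem_succ hu0 hxB]
  have h1 : u⁻¹ ^ (n + 1) * (u ^ (n + 1) * c) = c := by
    rw [inv_pow]
    field_simp
  rw [h1]
  constructor
  · rintro ⟨c', hc', rfl⟩
    rw [mul_inv_cancel_left₀ hu0]
    exact hc'
  · intro h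
    exact ⟨u * c, h, by rw [inv_mul_cancel_left₀ hu0]⟩

theorem fibreMap_surjective {u : L} (hu0 : u ≠ 0) {B Binf : Subalgebra O L} (hu : u ∈ B)
    (hu' : u⁻¹ ∈ Binf) (hov' : ∀ c ∈ Binf, ∃ m : ℕ, u ^ m * c ∈ B) {n : ℕ}
    (hn : Ov u B hu ≤ Mn u B Binf n) : Function.Surjective (fibreMap u hu0 B Binf n) := by
  intro q
  obtain ⟨⟨c, hc⟩, rfl⟩ := Submodule.mkQ_surjective _ q
  obtain ⟨c', hc', hv⟩ := exists_mem_Vn_succ hu0 hu hu' hov' hn hc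
  refine ⟨⟨_, hv⟩, ?_⟩
  rw [fibreMap, LinearMap.comp_apply, Submodule.mkQ_apply, Submodule.mkQ_apply,
    Submodule.Quotient.eq, mem_Iu]
  refine ⟨-c', Binf.neg_mem hc', ?_⟩
  simp only [Submodule.coe_sub, coe_toBinf]
  rw [inv_pow]
  field_simp
  ring

/-- **Rank step**: `rank V_(n+1) = rank V_n + rank (B_∞ / u⁻¹ B_∞)` once
`B[1/u] = B + u ^ n * B_∞`. -/
theorem finrank_Vn_succ [IsDomain O] {u : L} (hu0 : u ≠ 0) {B Binf : Subalgebra O L} (hu : u ∈ B)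
    (hu' : u⁻¹ ∈ Binf) (hov' : ∀ c ∈ Binf, ∃ m : ℕ, u ^ m * c ∈ B) {n : ℕ}
    (hn : Ov u B hu ≤ Mn u B Binf n) [Module.Finite O ↥(Vn u B Binf (n + 1))] :
    Module.finrank O ↥(Vn u B Binf (n + 1)) =
      Module.finrank O ↥(Vn u B Binf n) + Module.finrank O (Qinf u Binf) := by
  have h1 := (LinearMap.ker (fibreMap u hu0 B Binf n)).finrank_quotient_add_finrank
  have h2 : Module.finrank O (↥(Vn u B Binf (n + 1)) ⧸ LinearMap.ker (fibreMap u hu0 B Binf n)) =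
      Module.finrank O (Qinf u Binf) :=
    LinearEquiv.finrank_eq
      ((fibreMap u hu0 B Binf n).quotKerEquivOfSurjective (fibreMap_surjective hu0 hu hu' hov' hn))
  have h3 : Module.finrank O ↥(LinearMap.ker (fibreMap u hu0 B Binf n)) =
      Module.finrank O ↥(Vn u B Binf n) := by
    rw [ker_fibreMap]
    exact LinearEquiv.finrank_eq (Submodule.submoduleOfEquivOfLe (Vn_le_succ hu0 hu' n))
  rw [h2, h3] at h1
  omega

theorem aeval_mem_of_mem {S : Subalgebra O L} {x : L} (hx : x ∈ S) (P : O[X]) :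
    aeval x P ∈ S := by
  have h := Polynomial.aeval_algHom_apply S.val (⟨x, hx⟩ : S) P
  rw [Subalgebra.coe_val] at h
  rw [h]
  exact Subtype.property _

/-- `B_∞ / u⁻¹ B_∞` is a finite `O`-module when `B_∞` is finite over `O[u⁻¹]`. -/
theorem finite_Qinf {u : L} {Binf : Subalgebra O L} (hu' : u⁻¹ ∈ Binf)
    (hfg' : ∃ s' : Finset L, (↑s' : Set L) ⊆ Binf ∧
      ∀ c ∈ Binf, ∃ d : L → O[X], c = ∑ g ∈ s', aeval u⁻¹ (d g) * g) :
    Module.Finite O (Qinf u Binf) := by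
  classical
  obtain ⟨s', hs'B, hs'⟩ := hfg'
  let gen : ↥s' → Qinf u Binf := fun g => Submodule.Quotient.mk ⟨g.1, hs'B g.2⟩
  refine ⟨⟨s'.attach.image gen, eq_top_iff.mpr fun q _ => ?_⟩⟩
  obtain ⟨⟨c, hc⟩, rfl⟩ := Submodule.mkQ_surjective _ q
  obtain ⟨d, hd⟩ := hs' c hc
  have key : (Submodule.mkQ (Iu u Binf)) ⟨c, hc⟩ =
      ∑ g ∈ s'.attach, (d g.1).coeff 0 • gen g := by
    have hsum : (∑ g ∈ s'.attach, (d g.1).coeff 0 • gen g) =
        Submodule.Quotient.mk (∑ g ∈ s'.attach,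
          (d g.1).coeff 0 • (⟨g.1, hs'B g.2⟩ : ↥(Subalgebra.toSubmodule Binf))) := by
      rw [← Submodule.mkQ_apply, map_sum]
      rfl
    rw [hsum, Submodule.mkQ_apply, Submodule.Quotient.eq, mem_Iu]
    refine ⟨∑ g ∈ s', aeval u⁻¹ (d g).divX * g, ?_, ?_⟩
    · exact Binf.sum_mem fun g hg => Binf.mul_mem (aeval_mem_of_mem hu' _) (hs'B hg)
    · simp only [Submodule.coe_sub, Submodule.coe_sum, Submodule.coe_smul]
      rw [Finset.sum_attach s' (fun g => (d g).coeff 0 • g), hd, ← Finset.sum_sub_distrib,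
        Finset.mul_sum]
      refine Finset.sum_congr rfl fun g _ => ?_
      have hP : aeval u⁻¹ (d g) = aeval u⁻¹ (d g).divX * u⁻¹ + algebraMap O L ((d g).coeff 0) := by
        conv_lhs => rw [← Polynomial.divX_mul_X_add (d g)]
        simp
      rw [hP, Algebra.smul_def]
      ring
  rw [key]
  exact Submodule.sum_mem _ fun g hg => Submodule.smul_mem _ _
    (Submodule.subset_span (Finset.mem_coe.mpr (Finset.mem_image_of_mem gen hg)))

/-- The lattices `V_n` are finite `O`-modules (over a noetherian `O`), by induction from `V_0`. -/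
theorem finite_Vn [IsNoetherianRing O] {u : L} (hu0 : u ≠ 0) {B Binf : Subalgebra O L}
    (hu' : u⁻¹ ∈ Binf)
    (hfg' : ∃ s' : Finset L, (↑s' : Set L) ⊆ Binf ∧
      ∀ c ∈ Binf, ∃ d : L → O[X], c = ∑ g ∈ s', aeval u⁻¹ (d g) * g)
    (hV0 : Module.Finite O ↥(Vn u B Binf 0)) (n : ℕ) : Module.Finite O ↥(Vn u B Binf n) := by
  have hQ : Module.Finite O (Qinf u Binf) := finite_Qinf hu' hfg'
  have hQN : IsNoetherian O (Qinf u Binf) := isNoetherian_of_isNoetherianRing_of_finite O _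
  induction n with
  | zero => exact hV0
  | succ n ih =>
    have h1 : Module.Finite O ↥(LinearMap.ker (fibreMap u hu0 B Binf n)) := by
      rw [ker_fibreMap]
      exact Module.Finite.equiv (Submodule.submoduleOfEquivOfLe (Vn_le_succ hu0 hu' n)).symm
    have h2 : Module.Finite O
        (↥(Vn u B Binf (n + 1)) ⧸ LinearMap.ker (fibreMap u hu0 B Binf n)) :=
      Module.Finite.equiv (fibreMap u hu0 B Binf n).quotKerEquivRange.symm
    exact Module.Finite.of_submodule_quotient (LinearMap.ker (fibreMap u hu0 B Binf n))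

/-- **Hilbert polynomial**: `rank V_n = rank V_(n₁) + (n - n₁) * rank (B_∞ / u⁻¹ B_∞)` for
`n ≥ n₁`, as soon as `B[1/u] = B + u ^ n * B_∞` for all `n ≥ n₁`. -/
theorem finrank_Vn_eq [IsDomain O] [IsNoetherianRing O] {u : L} (hu0 : u ≠ 0)
    {B Binf : Subalgebra O L} (hu : u ∈ B) (hu' : u⁻¹ ∈ Binf)
    (hfg' : ∃ s' : Finset L, (↑s' : Set L) ⊆ Binf ∧
      ∀ c ∈ Binf, ∃ d : L → O[X], c = ∑ g ∈ s', aeval u⁻¹ (d g) * g)
    (hov' : ∀ c ∈ Binf, ∃ m : ℕ, u ^ m * c ∈ B)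
    (hV0 : Module.Finite O ↥(Vn u B Binf 0)) {n₁ : ℕ}
    (hn₁ : ∀ n, n₁ ≤ n → Ov u B hu ≤ Mn u B Binf n) (k : ℕ) :
    Module.finrank O ↥(Vn u B Binf (n₁ + k)) =
      Module.finrank O ↥(Vn u B Binf n₁) + k * Module.finrank O (Qinf u Binf) := by
  induction k with
  | zero => simp
  | succ k ih =>
    have := finite_Vn hu0 hu' hfg' hV0 (n₁ + k + 1)
    have h := finrank_Vn_succ hu0 hu hu' hov' (hn₁ (n₁ + k) (Nat.le_add_right _ _))
    rw [← add_assoc, h, ih]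
    ring

/-- `V_0 = B ∩ B_∞` is spanned by `1` if the only common elements of the two charts are the
constants. -/
theorem Vn_zero_eq_span {u : L} {B Binf : Subalgebra O L}
    (hconst : ∀ x ∈ B, x ∈ Binf → ∃ a : O, algebraMap O L a = x) :
    Vn u B Binf 0 = Submodule.span O {(1 : L)} := by
  apply le_antisymm
  · intro x hx
    obtain ⟨hxB, c, hc, rfl⟩ := mem_Vn.mp hx
    rw [pow_zero, one_mul] at hxB ⊢
    obtain ⟨a, rfl⟩ := hconst c hxB hc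
    rw [Algebra.algebraMap_eq_smul_one]
    exact Submodule.smul_mem _ _ (Submodule.subset_span rfl)
  · rw [Submodule.span_le, Set.singleton_subset_iff]
    exact mem_Vn.mpr ⟨B.one_mem, 1, Binf.one_mem, by simp⟩

theorem finite_Vn_zero {u : L} {B Binf : Subalgebra O L}
    (hconst : ∀ x ∈ B, x ∈ Binf → ∃ a : O, algebraMap O L a = x) :
    Module.Finite O ↥(Vn u B Binf 0) := by
  rw [Vn_zero_eq_span hconst]
  exact Module.Finite.span_of_finite O (Set.finite_singleton 1)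

end Fermat.Agent.Lib.TwoChartVanish
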