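import Mathlib
import Fermat.Agent.Lib.TwoChartVanish

/-!
# Two-chart algebra: the fibre module `B_∞ / u⁻¹ B_∞` is torsion-free, hence free over a DVR

Complement to `Lib/TwoChartVanish` (same setting and vocabulary).  If the chart `B_∞` is
`π`-saturated in the overlap `B[1/u]` (that is: `π` is prime in `B_∞` and does not divide `u⁻¹`),
then the fibre module `Qinf u Binf = B_∞ / u⁻¹ B_∞` has no `π`-torsion.  Over a discrete valuation
ring `O` with uniformiser `π` it is therefore torsion-free, and free as soon as it is finite.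
Consequently `rank_O (B_∞ / u⁻¹ B_∞)` is also the dimension of its reduction modulo `π`.

* `Qinf_eq_zero_of_smul_eq_zero` : no `π`-torsion;
* `isTorsionFree_Qinf` : torsion-free over a discrete valuation ring;
* `free_Qinf` : free over a discrete valuation ring, when `B_∞` is finite over `O[u⁻¹]`.
-/

set_option autoImplicit false

namespace Fermat.Agent.Lib.TwoChartFree

open Polynomial Fermat.Agent.Lib.TwoChartVanish

variable {O L : Type*} [CommRing O] [Field L] [Algebra O L]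

/-- **`B_∞ / u⁻¹ B_∞` has no `π`-torsion** if `B_∞` is `π`-saturated in the overlap `B[1/u]`. -/
theorem Qinf_eq_zero_of_smul_eq_zero {π : O} {u : L} (hu0 : u ≠ 0) {B Binf : Subalgebra O L}
    (hu : u ∈ B) (hov' : ∀ c ∈ Binf, ∃ m : ℕ, u ^ m * c ∈ B)
    (hsat : ∀ x ∈ Ov u B hu, π • x ∈ Binf → x ∈ Binf)
    (z : Qinf u Binf) (hz : π • z = 0) : z = 0 := by
  obtain ⟨⟨c, hc⟩, rfl⟩ := Submodule.mkQ_surjective _ z
  rw [Submodule.mkQ_apply] at hz ⊢
  rw [← Submodule.Quotient.mk_smul, Submodule.Quotient.mk_eq_zero, mem_Iu] at hz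
  rw [Submodule.Quotient.mk_eq_zero, mem_Iu]
  obtain ⟨b, hb, hπc⟩ := hz
  have hπc' : π • c = u⁻¹ * b := hπc
  obtain ⟨m, hm⟩ := hov' c hc
  have hx : u * c ∈ Ov u B hu := by
    refine ⟨m, ?_⟩
    have h : u ^ m * (u * c) = u * (u ^ m * c) := by ring
    rw [h]
    exact B.mul_mem hu hm
  have hπx : π • (u * c) ∈ Binf := by
    have h : π • (u * c) = b := by
      rw [← mul_smul_comm, hπc', ← mul_assoc, mul_inv_cancel₀ hu0, one_mul]
    rw [h]
    exact hb
  refine ⟨u * c, hsat _ hx hπx, ?_⟩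
  show c = u⁻¹ * (u * c)
  rw [← mul_assoc, inv_mul_cancel₀ hu0, one_mul]

/-- Over a discrete valuation ring with uniformiser `π`, `B_∞ / u⁻¹ B_∞` is torsion-free. -/
theorem isTorsionFree_Qinf [IsDomain O] [IsDiscreteValuationRing O] {π : O} (hπ : Irreducible π)
    {u : L} (hu0 : u ≠ 0) {B Binf : Subalgebra O L} (hu : u ∈ B)
    (hov' : ∀ c ∈ Binf, ∃ m : ℕ, u ^ m * c ∈ B)
    (hsat : ∀ x ∈ Ov u B hu, π • x ∈ Binf → x ∈ Binf) :
    Module.IsTorsionFree O (Qinf u Binf) := by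
  have hpow : ∀ (n : ℕ) (z : Qinf u Binf), π ^ n • z = 0 → z = 0 := by
    intro n
    induction n with
    | zero => intro z hz; simpa using hz
    | succ n ih =>
      intro z hz
      rw [pow_succ, mul_smul] at hz
      exact Qinf_eq_zero_of_smul_eq_zero hu0 hu hov' hsat z (ih _ hz)
  rw [Module.isTorsionFree_iff_smul_eq_zero]
  intro r z hrz
  by_cases hr : r = 0
  · exact Or.inl hr
  refine Or.inr ?_
  obtain ⟨n, hn⟩ := IsDiscreteValuationRing.associated_pow_irreducible hr hπ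
  obtain ⟨w, hw⟩ := hn.symm
  apply hpow n z
  have h1 : π ^ n • z = (↑w⁻¹ : O) • r • z := by
    rw [← mul_smul, ← hw, mul_comm (↑w⁻¹ : O), mul_assoc, Units.mul_inv, mul_one]
  rw [h1, hrz, smul_zero]

/-- Over a discrete valuation ring, `B_∞ / u⁻¹ B_∞` is a free module when `B_∞` is finite over
`O[u⁻¹]`. -/
theorem free_Qinf [IsDomain O] [IsDiscreteValuationRing O] {π : O} (hπ : Irreducible π)
    {u : L} (hu0 : u ≠ 0) {B Binf : Subalgebra O L} (hu : u ∈ B) (hu' : u⁻¹ ∈ Binf)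
    (hfg' : ∃ s' : Finset L, (↑s' : Set L) ⊆ Binf ∧
      ∀ c ∈ Binf, ∃ d : L → O[X], c = ∑ g ∈ s', aeval u⁻¹ (d g) * g)
    (hov' : ∀ c ∈ Binf, ∃ m : ℕ, u ^ m * c ∈ B)
    (hsat : ∀ x ∈ Ov u B hu, π • x ∈ Binf → x ∈ Binf) :
    Module.Free O (Qinf u Binf) := by
  have hfin : Module.Finite O (Qinf u Binf) := finite_Qinf hu' hfg'
  have htf : Module.IsTorsionFree O (Qinf u Binf) := isTorsionFree_Qinf hπ hu0 hu hov' hsat
  infer_instance

end Fermat.Agent.Lib.TwoChartFree
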