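import Fermat.Agent.Lib.TwoChartNormalForm

/-!
# The group law of the two-chart coordinates is a polynomial (level-free, Mathlib only)

Program FG (S19), brick `NF`, second half.  In the setting of `Lib/TwoChartNormalForm` (an
`R`-algebra `𝒞`, subalgebras `C0`, `Cinf`, elements `e i` with `Dec`): for every ideal `𝔫` of `R`
and every level `N` there are polynomials `F i ∈ R[Z, Z']` without constant term such that for
all `z, z' ∈ 𝔫 ^ d`

`∏ (1 - z i • e i) * ∏ (1 - z' i • e i)  has normal form  F (z, z')  modulo 𝔫 ^ N`.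

Proof: the existence theorem `exists_normalForm` applied over the polynomial ring `R[Z, Z']` with
the ideal of the variables, to the base change `R[Z, Z'] ⊗ 𝒞`, then evaluation (`NormalForm.map`).
No power series, no completion.
-/

set_option autoImplicit false

namespace Fermat.Agent.Lib.TwoChartNormalForm

open scoped TensorProduct

section Generic

variable {R 𝒞 : Type*} [CommRing R] [CommRing 𝒞] [Algebra R 𝒞]
  {C0 Cinf : Subalgebra R 𝒞} {d : ℕ} {e : Fin d → 𝒞}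

theorem prod_sub_one_mem {A : Type*} [CommRing A] {ι : Type*} (s : Finset ι) (J : Ideal A)
    (x : ι → A) (hx : ∀ i ∈ s, x i - 1 ∈ J) : ∏ i ∈ s, x i - 1 ∈ J :=
  (prod_add_sub_mem s J ⊥ ⊥ (by rw [Ideal.mul_bot]) (by rw [Ideal.mul_bot]) x 0 hx
    (fun _ _ => Ideal.zero_mem _)).2

/-- The normal form of the product of two standard representatives with coordinates in `𝔫`. -/
theorem exists_normalForm_prod_mul (hdec : Dec C0 Cinf e) (𝔫 : Ideal R) (N : ℕ)
    (X₁ X₂ : Fin d → R) (h₁ : ∀ i, X₁ i ∈ 𝔫) (h₂ : ∀ i, X₂ i ∈ 𝔫) :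
    ∃ M : Fin d → R, (∀ i, M i ∈ 𝔫) ∧
      NormalForm C0 Cinf e 𝔫 N ((∏ i, (1 - X₁ i • e i)) * ∏ i, (1 - X₂ i • e i)) M := by
  refine exists_normalForm hdec 𝔫 N _ ?_
  rw [mem_smul_top_iff]
  set J : Ideal 𝒞 := 𝔫.map (algebraMap R 𝒞)
  have hterm : ∀ (X : Fin d → R), (∀ i, X i ∈ 𝔫) → ∏ i, (1 - X i • e i) - 1 ∈ J := by
    intro X hX
    refine prod_sub_one_mem Finset.univ J _ fun i _ => ?_
    have : (1 - X i • e i) - 1 = -(X i • e i) := by ring
    rw [this]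
    exact J.neg_mem ((mem_smul_top_iff _ _).1 (Submodule.smul_mem_smul (hX i) Submodule.mem_top))
  have : (∏ i, (1 - X₁ i • e i)) * (∏ i, (1 - X₂ i • e i)) - 1 =
      (∏ i, (1 - X₁ i • e i) - 1) * (∏ i, (1 - X₂ i • e i)) + (∏ i, (1 - X₂ i • e i) - 1) := by
    ring
  rw [this]
  exact J.add_mem (J.mul_mem_right _ (hterm X₁ h₁)) (hterm X₂ h₂)

end Generic

section BaseChange

variable {R 𝒞 : Type*} [CommRing R] [CommRing 𝒞] [Algebra R 𝒞]
  (C0 Cinf : Subalgebra R 𝒞) {d : ℕ} (e : Fin d → 𝒞) (σ : Type*)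

/-- Evaluation of the polynomial coefficients: `R[σ] ⊗ 𝒞 → 𝒞`. -/
noncomputable def evalHom (z : σ → R) : MvPolynomial σ R ⊗[R] 𝒞 →ₐ[R] 𝒞 :=
  Algebra.TensorProduct.lift ((Algebra.ofId R 𝒞).comp (MvPolynomial.aeval z)) (AlgHom.id R 𝒞)
    (fun _ _ => Commute.all _ _)

theorem evalHom_tmul (z : σ → R) (p : MvPolynomial σ R) (c : 𝒞) :
    evalHom (𝒞 := 𝒞) σ z (p ⊗ₜ[R] c) = algebraMap R 𝒞 (MvPolynomial.eval z p) * c := by
  rw [evalHom, Algebra.TensorProduct.lift_tmul]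
  simp [Algebra.ofId_apply]

theorem smul_eq_tmul_mul (p : MvPolynomial σ R) (x : MvPolynomial σ R ⊗[R] 𝒞) :
    p • x = (p ⊗ₜ[R] (1 : 𝒞)) * x := by
  induction x using TensorProduct.induction_on with
  | zero => simp
  | tmul q c =>
    rw [TensorProduct.smul_tmul', Algebra.TensorProduct.tmul_mul_tmul, one_mul, smul_eq_mul]
  | add a b ha hb => rw [smul_add, ha, hb, mul_add]

theorem evalHom_smul (z : σ → R) (p : MvPolynomial σ R) (x : MvPolynomial σ R ⊗[R] 𝒞) :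
    evalHom (𝒞 := 𝒞) σ z (p • x) = MvPolynomial.eval z p • evalHom (𝒞 := 𝒞) σ z x := by
  rw [smul_eq_tmul_mul, map_mul, evalHom_tmul, mul_one, Algebra.smul_def]

/-- The base change of a chart. -/
noncomputable def baseChart (S : Subalgebra R 𝒞) :
    Subalgebra (MvPolynomial σ R) (MvPolynomial σ R ⊗[R] 𝒞) :=
  (Algebra.TensorProduct.map (AlgHom.id (MvPolynomial σ R) (MvPolynomial σ R)) S.val).range

theorem tmul_mem_baseChart (S : Subalgebra R 𝒞) (p : MvPolynomial σ R) {c : 𝒞} (hc : c ∈ S) :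
    p ⊗ₜ[R] c ∈ baseChart σ S :=
  ⟨p ⊗ₜ[R] (⟨c, hc⟩ : S), by
    simp [Algebra.TensorProduct.map_tmul]⟩

theorem evalHom_mem_of_mem_baseChart (S : Subalgebra R 𝒞) (z : σ → R)
    {x : MvPolynomial σ R ⊗[R] 𝒞} (hx : x ∈ baseChart σ S) : evalHom (𝒞 := 𝒞) σ z x ∈ S := by
  obtain ⟨y, rfl⟩ := hx
  induction y using TensorProduct.induction_on with
  | zero => simp
  | tmul p c =>
    have : (Algebra.TensorProduct.map (AlgHom.id (MvPolynomial σ R) (MvPolynomial σ R)) S.val)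
        (p ⊗ₜ[R] c) = p ⊗ₜ[R] (c : 𝒞) := by simp [Algebra.TensorProduct.map_tmul]
    show evalHom (𝒞 := 𝒞) σ z ((Algebra.TensorProduct.map
      (AlgHom.id (MvPolynomial σ R) (MvPolynomial σ R)) S.val) (p ⊗ₜ[R] c)) ∈ S
    rw [this, evalHom_tmul, ← Algebra.smul_def]
    exact S.smul_mem c.2 _
  | add a b ha hb =>
    have : evalHom (𝒞 := 𝒞) σ z ((Algebra.TensorProduct.map
        (AlgHom.id (MvPolynomial σ R) (MvPolynomial σ R)) S.val).toRingHom (a + b)) =
        evalHom (𝒞 := 𝒞) σ z ((Algebra.TensorProduct.map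
        (AlgHom.id (MvPolynomial σ R) (MvPolynomial σ R)) S.val).toRingHom a) +
        evalHom (𝒞 := 𝒞) σ z ((Algebra.TensorProduct.map
        (AlgHom.id (MvPolynomial σ R) (MvPolynomial σ R)) S.val).toRingHom b) := by
      rw [map_add, map_add]
    exact this ▸ S.add_mem ha hb

variable {C0 Cinf e}

/-- (DEC) is stable under base change to a polynomial ring. -/
theorem dec_baseChange (hdec : Dec C0 Cinf e) :
    Dec (baseChart σ C0) (baseChart σ Cinf)
      (fun i => (1 : MvPolynomial σ R) ⊗ₜ[R] e i) := by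
  intro c
  induction c using TensorProduct.induction_on with
  | zero =>
    exact ⟨0, Subalgebra.zero_mem _, 0, Subalgebra.zero_mem _, 0, by simp⟩
  | tmul p c =>
    obtain ⟨c0, h0, c1, h1, a, rfl⟩ := hdec c
    refine ⟨p ⊗ₜ[R] c0, tmul_mem_baseChart σ C0 p h0, p ⊗ₜ[R] c1, tmul_mem_baseChart σ Cinf p h1,
      fun i => a i • p, ?_⟩
    rw [TensorProduct.tmul_add, TensorProduct.tmul_add, TensorProduct.tmul_sum]
    congr 1
    refine Finset.sum_congr rfl fun i _ => ?_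
    have h2 : (a i • p) • ((1 : MvPolynomial σ R) ⊗ₜ[R] e i) =
        ((a i • p) ⊗ₜ[R] (1 : 𝒞)) * ((1 : MvPolynomial σ R) ⊗ₜ[R] e i) :=
      smul_eq_tmul_mul σ (a i • p) _
    rw [h2, Algebra.TensorProduct.tmul_mul_tmul, mul_one, one_mul, TensorProduct.tmul_smul,
      TensorProduct.smul_tmul']
  | add x y hx hy =>
    obtain ⟨c0, h0, c1, h1, a, rfl⟩ := hx
    obtain ⟨c0', h0', c1', h1', a', rfl⟩ := hy
    refine ⟨c0 + c0', Subalgebra.add_mem _ h0 h0', c1 + c1', Subalgebra.add_mem _ h1 h1',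
      fun i => a i + a' i, ?_⟩
    simp only [add_smul, Finset.sum_add_distrib]
    abel

/-- **The group law of the coordinates is a polynomial over `R`.** -/
theorem exists_groupLaw (hdec : Dec C0 Cinf e) (𝔫 : Ideal R) (N : ℕ) :
    ∃ F : Fin d → MvPolynomial (Fin d ⊕ Fin d) R,
      (∀ i, F i ∈ Ideal.span (Set.range
        (MvPolynomial.X : Fin d ⊕ Fin d → MvPolynomial (Fin d ⊕ Fin d) R))) ∧
      ∀ z z' : Fin d → R, (∀ i, z i ∈ 𝔫) → (∀ i, z' i ∈ 𝔫) →
        NormalForm C0 Cinf e 𝔫 N ((∏ i, (1 - z i • e i)) * ∏ i, (1 - z' i • e i))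
          (fun i => MvPolynomial.eval (Sum.elim z z') (F i)) := by
  classical
  set 𝔪 : Ideal (MvPolynomial (Fin d ⊕ Fin d) R) := Ideal.span (Set.range MvPolynomial.X) with h𝔪
  obtain ⟨M, hM, hNF⟩ := exists_normalForm_prod_mul (dec_baseChange (Fin d ⊕ Fin d) hdec) 𝔪 N
    (fun i => MvPolynomial.X (Sum.inl i)) (fun i => MvPolynomial.X (Sum.inr i))
    (fun i => Ideal.subset_span ⟨_, rfl⟩) (fun i => Ideal.subset_span ⟨_, rfl⟩)
  refine ⟨M, hM, fun z z' hz hz' => ?_⟩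
  have hψ : ∀ r ∈ 𝔪, MvPolynomial.eval (Sum.elim z z') r ∈ 𝔫 := by
    intro r hr
    have hle : 𝔪 ≤ Ideal.comap (MvPolynomial.eval (Sum.elim z z')) 𝔫 := by
      rw [h𝔪, Ideal.span_le]
      rintro _ ⟨s, rfl⟩
      rcases s with i | i
      · simpa using hz i
      · simpa using hz' i
    exact hle hr
  have key := NormalForm.map (C0₂ := C0) (Cinf₂ := Cinf) (e₂ := e)
    (evalHom (𝒞 := 𝒞) (Fin d ⊕ Fin d) (Sum.elim z z')).toRingHom
    (MvPolynomial.eval (Sum.elim z z'))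
    (fun r c => evalHom_smul (Fin d ⊕ Fin d) (Sum.elim z z') r c)
    (fun c hc => evalHom_mem_of_mem_baseChart (Fin d ⊕ Fin d) C0 (Sum.elim z z') hc)
    (fun c hc => evalHom_mem_of_mem_baseChart (Fin d ⊕ Fin d) Cinf (Sum.elim z z') hc)
    (fun i => by
      show evalHom (𝒞 := 𝒞) (Fin d ⊕ Fin d) (Sum.elim z z') ((1 : MvPolynomial _ R) ⊗ₜ[R] e i) = e i
      rw [evalHom_tmul]; simp)
    hψ hNF
  have hfac : ∀ (s : Fin d → Fin d ⊕ Fin d) (i : Fin d),
      (evalHom (𝒞 := 𝒞) (Fin d ⊕ Fin d) (Sum.elim z z')).toRingHom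
        (1 - (MvPolynomial.X (s i) : MvPolynomial (Fin d ⊕ Fin d) R) •
          ((1 : MvPolynomial (Fin d ⊕ Fin d) R) ⊗ₜ[R] e i)) = 1 - Sum.elim z z' (s i) • e i := by
    intro s i
    show evalHom (𝒞 := 𝒞) (Fin d ⊕ Fin d) (Sum.elim z z') _ = _
    rw [map_sub, map_one, evalHom_smul, evalHom_tmul]
    simp
  rw [map_mul, map_prod, map_prod] at key
  simp only [hfac (fun i => Sum.inl i), hfac (fun i => Sum.inr i), Sum.elim_inl, Sum.elim_inr]
    at key
  exact key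

end BaseChange

end Fermat.Agent.Lib.TwoChartNormalForm
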