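import Mathlib

set_option autoImplicit false

/-!
# Base change of discriminants (Lib, Mathlib only)

`L/K` and `L''/K'` finite separable field extensions, `K → K'`, `L → L''` compatible, `L'' = K'·L`.
If `b` is a `K`-basis of `L` consisting of integral elements and `c` is an integral basis of
`L''` over an integrally closed domain `R'` with fraction field `K'`, then
`discr c ∣ (discr b) ^ (2 * #c)` in `R'`.

Consequences (ring level, `C`, `C''` the integral closures of `R`, `R'` in `L`, `L''`):
* `discr_dvd_pow_of_baseChange` : `discr R' c ∣ (algebraMap R R' (discr R b)) ^ (2 * card κ)`;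
* `discr_notMem_of_baseChange`  : a prime of `R'` not containing the image of `discr R b` does not
  contain `discr R' c`  (unramifiedness is stable under ARBITRARY base change, no tameness);
* `isUnit_discr_of_baseChange`  : unit discriminant stays a unit discriminant.
-/

namespace Fermat.Agent.Lib.UnitDiscBC

open Polynomial Matrix

section core

variable {R' K' L'' K L : Type*}
  [CommRing R'] [IsDomain R'] [IsIntegrallyClosed R']
  [Field K'] [Algebra R' K'] [IsFractionRing R' K']
  [Field L''] [Algebra K' L''] [Algebra R' L''] [IsScalarTower R' K' L'']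
  [Field K] [Field L] [Algebra K L]
  [Algebra K K'] [Algebra L L''] [Algebra K L''] [IsScalarTower K L L''] [IsScalarTower K K' L'']

/-- restriction of a `K'`-embedding of `L''` to a `K`-embedding of `L` -/
noncomputable def resHom (τ : L'' →ₐ[K'] AlgebraicClosure L'') : L →ₐ[K] AlgebraicClosure L'' :=
  (τ.restrictScalars K).comp (IsScalarTower.toAlgHom K L L'')

omit [Algebra R' K'] [IsFractionRing R' K'] [Algebra R' L''] [IsScalarTower R' K' L''] [CommRing R']
  [IsDomain R'] [IsIntegrallyClosed R'] in
theorem resHom_apply (τ : L'' →ₐ[K'] AlgebraicClosure L'') (x : L) :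
    resHom (K := K) τ x = τ (algebraMap L L'' x) := rfl

omit [Algebra R' K'] [IsFractionRing R' K'] [Algebra R' L''] [IsScalarTower R' K' L''] [CommRing R']
  [IsDomain R'] [IsIntegrallyClosed R'] in
theorem resHom_injective (hgen : Algebra.adjoin K' (Set.range (algebraMap L L'')) = ⊤) :
    Function.Injective (resHom (K := K) (L := L) (K' := K') (L'' := L'')) := by
  intro τ₁ τ₂ h
  apply AlgHom.ext_of_adjoin_eq_top hgen
  rintro _ ⟨x, rfl⟩
  have := congrArg (fun f => f x) h
  simpa [resHom_apply] using this

theorem isIntegral_adjugate {R A : Type*} [CommRing R] [CommRing A] [Algebra R A]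
    {n : Type*} [Fintype n] [DecidableEq n] (M : Matrix n n A)
    (hM : ∀ i j, IsIntegral R (M i j)) (i j : n) : IsIntegral R (M.adjugate i j) := by
  rw [Matrix.adjugate_apply]
  apply IsIntegral.det
  intro a b
  by_cases h : a = j
  · subst h
    rw [Matrix.updateRow_self]
    by_cases hb : b = i
    · subst hb; simp [isIntegral_one]
    · simp [hb, isIntegral_zero]
  · rw [Matrix.updateRow_ne h]
    exact hM a b

variable [FiniteDimensional K' L''] [Algebra.IsSeparable K' L'']
  [FiniteDimensional K L] [Algebra.IsSeparable K L]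

omit [IsDomain R'] in
/-- **Base change of discriminants, field level.**  `b` is a `K`-basis of `L` whose members are
roots of monic polynomials with coefficients in (the preimage of) `R'`, with discriminant `d`;
`L''` is generated over `K'` by `L`; `c` is a `K'`-basis of `L''` of `R'`-integral elements whose
`R'`-span contains the image of `b`.  Then `discr c` divides `d ^ (2 * #κ)` in `R'`. -/
theorem exists_mul_discr_eq_pow
    (hgen : Algebra.adjoin K' (Set.range (algebraMap L L'')) = ⊤)
    {ι : Type*} [Fintype ι] [DecidableEq ι] (b : Module.Basis ι K L)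
    (hbint : ∀ j, ∃ p : R'[X], p.Monic ∧ ∃ q : K[X],
      q.map (algebraMap K K') = p.map (algebraMap R' K') ∧ aeval (b j) q = 0)
    {κ : Type*} [Fintype κ] [DecidableEq κ] (c : Module.Basis κ K' L'')
    (hcint : ∀ l, IsIntegral R' (c l))
    (hbspan : ∀ j, algebraMap L L'' (b j) ∈ Submodule.span R' (Set.range c))
    (d : R') (hd : algebraMap K K' (Algebra.discr K b) = algebraMap R' K' d) :
    ∃ w δ : R', Algebra.discr K' c = algebraMap R' K' δ ∧ w * δ = d ^ (2 * Fintype.card κ) := by
  classical
  set Ω := AlgebraicClosure L'' with hΩ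
  have hcardι : Fintype.card ι = Fintype.card (L →ₐ[K] Ω) := by
    rw [AlgHom.card, Module.finrank_eq_card_basis b]
  let e : ι ≃ (L →ₐ[K] Ω) := Fintype.equivOfCardEq hcardι
  have hcardκ : Fintype.card κ = Fintype.card (L'' →ₐ[K'] Ω) := by
    rw [AlgHom.card, Module.finrank_eq_card_basis c]
  let e'' : κ ≃ (L'' →ₐ[K'] Ω) := Fintype.equivOfCardEq hcardκ
  let M : Matrix ι ι Ω := Algebra.embeddingsMatrixReindex K Ω b e
  let C : Matrix κ κ Ω := Algebra.embeddingsMatrixReindex K' Ω c e''
  have hM : algebraMap K Ω (Algebra.discr K b) = M.det ^ 2 :=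
    Algebra.discr_eq_det_embeddingsMatrixReindex_pow_two K Ω b e
  have hC : algebraMap K' Ω (Algebra.discr K' c) = C.det ^ 2 :=
    Algebra.discr_eq_det_embeddingsMatrixReindex_pow_two K' Ω c e''
  have hMapp : ∀ j i, M j i = e i (b j) := fun j i => by
    simp [M, Algebra.embeddingsMatrixReindex, Algebra.embeddingsMatrix]
  have hCapp : ∀ l k, C l k = e'' k (c l) := fun l k => by
    simp [C, Algebra.embeddingsMatrixReindex, Algebra.embeddingsMatrix]
  -- integrality of the entries
  have hMint : ∀ j i, IsIntegral R' (M j i) := by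
    intro j i
    obtain ⟨p, hp, q, hq, hq0⟩ := hbint j
    refine ⟨p, hp, ?_⟩
    rw [hMapp, ← Polynomial.eval_map]
    have h1 : p.map (algebraMap R' Ω) = q.map (algebraMap K Ω) := by
      rw [IsScalarTower.algebraMap_eq R' K' Ω, ← Polynomial.map_map, ← hq, Polynomial.map_map,
        ← IsScalarTower.algebraMap_eq K K' Ω]
    rw [h1, Polynomial.eval_map, ← Polynomial.aeval_def, Polynomial.aeval_algHom_apply, hq0,
      map_zero]
  have hCint : ∀ l k, IsIntegral R' (C l k) := by
    intro l k
    rw [hCapp]
    exact (hcint l).map ((e'' k).restrictScalars R')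
  -- the image of `d`
  have hdΩ : algebraMap R' Ω d = M.det ^ 2 := by
    rw [← hM, IsScalarTower.algebraMap_apply K K' Ω, hd, ← IsScalarTower.algebraMap_apply R' K' Ω]
  have hdetM : M.det ≠ 0 := by
    intro h0
    have h1 : algebraMap K Ω (Algebra.discr K b) = 0 := by rw [hM, h0]; simp
    exact Algebra.discr_not_zero_of_basis K b
      ((map_eq_zero_iff _ (algebraMap K Ω).injective).mp h1)
  have hdetMint : IsIntegral R' M.det := IsIntegral.det hMint
  -- `d • M⁻¹` has integral entries
  have hMinv : ∀ i j, IsIntegral R' (algebraMap R' Ω d * M⁻¹ i j) := by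
    intro i j
    have : algebraMap R' Ω d * M⁻¹ i j = M.det * M.adjugate i j := by
      rw [Matrix.inv_def, Ring.inverse_eq_inv', Matrix.smul_apply, smul_eq_mul, hdΩ, pow_two,
        mul_assoc, mul_inv_cancel_left₀ hdetM]
    rw [this]
    exact hdetMint.mul (isIntegral_adjugate M hMint i j)
  -- the restriction map on embeddings
  let r : κ → ι := fun k => e.symm (resHom (K := K) (L := L) (e'' k))
  have hr : Function.Injective r :=
    e.symm.injective.comp ((resHom_injective hgen).comp e''.injective)
  choose A hA using fun j => (Submodule.mem_span_range_iff_exists_fun R').mp (hbspan j)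
  let A' : Matrix ι κ Ω := Matrix.of fun j l => algebraMap R' Ω (A j l)
  have hsub : M.submatrix id r = A' * C := by
    ext j k
    rw [Matrix.submatrix_apply, id, hMapp, Matrix.mul_apply]
    have h0 : e (r k) (b j) = e'' k (algebraMap L L'' (b j)) := by
      simp only [r, Equiv.apply_symm_apply]
      rfl
    rw [h0, ← hA j, map_sum]
    refine Finset.sum_congr rfl fun l _ => ?_
    have h1 : A j l • c l = algebraMap R' K' (A j l) • c l :=
      (IsScalarTower.algebraMap_smul K' (A j l) (c l)).symm
    rw [h1, map_smul, Algebra.smul_def, ← IsScalarTower.algebraMap_apply R' K' Ω, hCapp]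
    rfl
  let P : Matrix κ κ Ω := (M⁻¹).submatrix r id * A'
  have hPC : P * C = 1 := by
    have hunit : IsUnit M.det := IsUnit.mk0 _ hdetM
    rw [Matrix.mul_assoc, ← hsub, ← Matrix.submatrix_mul _ _ r id r Function.bijective_id,
      Matrix.nonsing_inv_mul _ hunit, Matrix.submatrix_one _ hr]
  -- `d • P` has integral entries
  have hPint : IsIntegral R' ((algebraMap R' Ω d • P).det) := by
    apply IsIntegral.det
    intro k l
    show IsIntegral R' (algebraMap R' Ω d * ((M⁻¹).submatrix r id * A') k l)
    rw [Matrix.mul_apply, Finset.mul_sum]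
    refine IsIntegral.sum _ fun j _ => ?_
    rw [← mul_assoc]
    exact (hMinv _ _).mul isIntegral_algebraMap
  have hdet : P.det * C.det = 1 := by
    rw [← Matrix.det_mul, hPC, Matrix.det_one]
  have hCdetint : IsIntegral R' C.det := IsIntegral.det hCint
  have hne : Algebra.discr K' c ≠ 0 := Algebra.discr_not_zero_of_basis K' c
  -- the discriminant is integral
  have h1 : IsIntegral R' (Algebra.discr K' c) := by
    rw [← isIntegral_algebraMap_iff (algebraMap K' Ω).injective, hC]
    exact hCdetint.pow 2
  -- and so is `d ^ (2m) / discr`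
  have h2 : IsIntegral R' (algebraMap R' K' d ^ (2 * Fintype.card κ) *
      (Algebra.discr K' c)⁻¹) := by
    rw [← isIntegral_algebraMap_iff (algebraMap K' Ω).injective, map_mul, map_pow, map_inv₀, hC,
      ← IsScalarTower.algebraMap_apply R' K' Ω]
    have : algebraMap R' Ω d ^ (2 * Fintype.card κ) * (C.det ^ 2)⁻¹ =
        ((algebraMap R' Ω d • P).det) ^ 2 := by
      rw [Matrix.det_smul, mul_pow, ← pow_mul, mul_comm (Fintype.card κ) 2]
      congr 1
      apply inv_eq_of_mul_eq_one_left
      rw [← mul_pow, hdet, one_pow]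
    rw [this]
    exact hPint.pow 2
  obtain ⟨δ, hδ⟩ := IsIntegrallyClosed.isIntegral_iff.mp h1
  obtain ⟨w, hw⟩ := IsIntegrallyClosed.isIntegral_iff.mp h2
  refine ⟨w, δ, hδ.symm, ?_⟩
  apply IsFractionRing.injective R' K'
  rw [map_mul, hδ, hw, map_pow, mul_assoc, inv_mul_cancel₀ hne, mul_one]

end core

section ring

open scoped nonZeroDivisors

/-- the two ring homs `R → L''` agree -/
theorem algebraMap_comp_eq (R K L R' K' L'' : Type*)
    [CommRing R] [Field K] [Algebra R K] [Field L] [Algebra K L] [Algebra R L]
    [IsScalarTower R K L]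
    [CommRing R'] [Field K'] [Algebra R' K'] [Field L''] [Algebra K' L''] [Algebra R' L'']
    [IsScalarTower R' K' L'']
    [Algebra R R'] [Algebra K K'] [Algebra R K'] [IsScalarTower R K K'] [IsScalarTower R R' K']
    [Algebra L L''] [Algebra K L''] [IsScalarTower K L L''] [IsScalarTower K K' L''] :
    (algebraMap R' L'').comp (algebraMap R R') = (algebraMap L L'').comp (algebraMap R L) := by
  have e1 : (algebraMap R' L'') = (algebraMap K' L'').comp (algebraMap R' K') :=
    IsScalarTower.algebraMap_eq R' K' L''
  have e2 : (algebraMap R' K').comp (algebraMap R R') = algebraMap R K' :=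
    (IsScalarTower.algebraMap_eq R R' K').symm
  have e3 : algebraMap R K' = (algebraMap K K').comp (algebraMap R K) :=
    IsScalarTower.algebraMap_eq R K K'
  have e4 : (algebraMap K' L'').comp (algebraMap K K') = algebraMap K L'' :=
    (IsScalarTower.algebraMap_eq K K' L'').symm
  have e5 : algebraMap K L'' = (algebraMap L L'').comp (algebraMap K L) :=
    IsScalarTower.algebraMap_eq K L L''
  have e6 : (algebraMap K L).comp (algebraMap R K) = algebraMap R L :=
    (IsScalarTower.algebraMap_eq R K L).symm
  rw [e1, RingHom.comp_assoc, e2, e3, ← RingHom.comp_assoc, e4, e5, RingHom.comp_assoc, e6]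

/-- **Base change of discriminants, ring level.**  `C`, `C''` the integral closures of `R`, `R'`
in `L`, `L'' = K'·L`, with bases `b`, `c`.  Then `discr R' c` divides a power of the image of
`discr R b`. -/
theorem discr_dvd_pow_of_baseChange (K L K' L'' : Type*) {R C R' C'' : Type*}
    [CommRing R] [IsDomain R] [Field K] [Algebra R K] [IsFractionRing R K]
    [Field L] [Algebra K L] [Algebra R L] [IsScalarTower R K L]
    [FiniteDimensional K L] [Algebra.IsSeparable K L]
    [CommRing C] [Algebra R C] [Algebra C L] [IsScalarTower R C L] [IsIntegralClosure C R L]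
    [CommRing R'] [IsDomain R'] [IsIntegrallyClosed R'] [Field K'] [Algebra R' K']
    [IsFractionRing R' K']
    [Field L''] [Algebra K' L''] [Algebra R' L''] [IsScalarTower R' K' L'']
    [FiniteDimensional K' L''] [Algebra.IsSeparable K' L'']
    [CommRing C''] [Algebra R' C''] [Algebra C'' L''] [IsScalarTower R' C'' L'']
    [IsIntegralClosure C'' R' L'']
    [Algebra R R'] [Algebra K K'] [Algebra R K'] [IsScalarTower R K K'] [IsScalarTower R R' K']
    [Algebra L L''] [Algebra K L''] [IsScalarTower K L L''] [IsScalarTower K K' L'']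
    (hgen : Algebra.adjoin K' (Set.range (algebraMap L L'')) = ⊤)
    {ι : Type*} [Fintype ι] [DecidableEq ι] (b : Module.Basis ι R C)
    {κ : Type*} [Fintype κ] [DecidableEq κ] (c : Module.Basis κ R' C'') :
    Algebra.discr R' c ∣ (algebraMap R R' (Algebra.discr R b)) ^ (2 * Fintype.card κ) := by
  classical
  have : Algebra.IsAlgebraic K L := Algebra.IsAlgebraic.of_finite K L
  have : Algebra.IsAlgebraic K' L'' := Algebra.IsAlgebraic.of_finite K' L''
  have hloc : IsLocalization (Algebra.algebraMapSubmonoid C R⁰) L :=
    IsIntegralClosure.isLocalization R K L C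
  have hloc' : IsLocalization (Algebra.algebraMapSubmonoid C'' R'⁰) L'' :=
    IsIntegralClosure.isLocalization R' K' L'' C''
  let bK : Module.Basis ι K L := b.localizationLocalization K R⁰ L
  let cK : Module.Basis κ K' L'' := c.localizationLocalization K' R'⁰ L''
  have hbK : ∀ j, bK j = algebraMap C L (b j) :=
    fun j => Module.Basis.localizationLocalization_apply K R⁰ L b j
  have hcK : ∀ l, cK l = algebraMap C'' L'' (c l) :=
    fun l => Module.Basis.localizationLocalization_apply K' R'⁰ L'' c l
  have hdb : Algebra.discr K bK = algebraMap R K (Algebra.discr R b) :=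
    Algebra.discr_localizationLocalization R R⁰ L b
  have hdc : Algebra.discr K' cK = algebraMap R' K' (Algebra.discr R' c) :=
    Algebra.discr_localizationLocalization R' R'⁰ L'' c
  have hcomp := algebraMap_comp_eq R K L R' K' L''
  -- integrality of the `b j`
  have hbint0 : ∀ j, IsIntegral R (bK j) := fun j => by
    rw [hbK]; exact (IsIntegralClosure.isIntegral_iff (A := C) (R := R) (B := L)).mpr ⟨b j, rfl⟩
  have hbint : ∀ j, ∃ p : R'[X], p.Monic ∧ ∃ q : K[X],
      q.map (algebraMap K K') = p.map (algebraMap R' K') ∧ aeval (bK j) q = 0 := by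
    intro j
    obtain ⟨p0, hp0, hp0'⟩ := hbint0 j
    refine ⟨p0.map (algebraMap R R'), hp0.map _, p0.map (algebraMap R K), ?_, ?_⟩
    · rw [Polynomial.map_map, Polynomial.map_map, ← IsScalarTower.algebraMap_eq R K K',
        ← IsScalarTower.algebraMap_eq R R' K']
    · rw [Polynomial.aeval_def, Polynomial.eval₂_map, ← IsScalarTower.algebraMap_eq R K L]
      exact hp0'
  have hcint : ∀ l, IsIntegral R' (cK l) := fun l => by
    rw [hcK]; exact (IsIntegralClosure.isIntegral_iff (A := C'') (R := R') (B := L'')).mpr ⟨c l, rfl⟩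
  have hbspan : ∀ j, algebraMap L L'' (bK j) ∈ Submodule.span R' (Set.range cK) := by
    intro j
    have hint : IsIntegral R' (algebraMap L L'' (bK j)) := by
      obtain ⟨p0, hp0, hp0'⟩ := hbint0 j
      refine ⟨p0.map (algebraMap R R'), hp0.map _, ?_⟩
      rw [Polynomial.eval₂_map, hcomp, ← Polynomial.hom_eval₂, hp0', map_zero]
    obtain ⟨y, hy⟩ := (IsIntegralClosure.isIntegral_iff (A := C'') (R := R') (B := L'')).mp hint
    rw [← hy, ← c.sum_repr y, map_sum]
    refine Submodule.sum_mem _ fun l _ => ?_
    rw [Algebra.smul_def, map_mul, ← IsScalarTower.algebraMap_apply R' C'' L'', ← hcK,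
      ← Algebra.smul_def]
    exact Submodule.smul_mem _ _ (Submodule.subset_span ⟨l, rfl⟩)
  have hd : algebraMap K K' (Algebra.discr K bK) =
      algebraMap R' K' (algebraMap R R' (Algebra.discr R b)) := by
    rw [hdb, ← IsScalarTower.algebraMap_apply R K K', ← IsScalarTower.algebraMap_apply R R' K']
  obtain ⟨w, δ, hδ, hwδ⟩ := exists_mul_discr_eq_pow hgen bK hbint cK hcint hbspan _ hd
  have hδ' : δ = Algebra.discr R' c := by
    apply IsFractionRing.injective R' K'
    rw [← hδ, hdc]
  rw [← hδ', ← hwδ]
  exact Dvd.intro_left w rfl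

/-- A prime of `R'` not containing the image of `discr R b` does not contain `discr R' c`:
unramifiedness is stable under arbitrary base change. -/
theorem discr_notMem_of_baseChange (K L K' L'' : Type*) {R C R' C'' : Type*}
    [CommRing R] [IsDomain R] [Field K] [Algebra R K] [IsFractionRing R K]
    [Field L] [Algebra K L] [Algebra R L] [IsScalarTower R K L]
    [FiniteDimensional K L] [Algebra.IsSeparable K L]
    [CommRing C] [Algebra R C] [Algebra C L] [IsScalarTower R C L] [IsIntegralClosure C R L]
    [CommRing R'] [IsDomain R'] [IsIntegrallyClosed R'] [Field K'] [Algebra R' K']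
    [IsFractionRing R' K']
    [Field L''] [Algebra K' L''] [Algebra R' L''] [IsScalarTower R' K' L'']
    [FiniteDimensional K' L''] [Algebra.IsSeparable K' L'']
    [CommRing C''] [Algebra R' C''] [Algebra C'' L''] [IsScalarTower R' C'' L'']
    [IsIntegralClosure C'' R' L'']
    [Algebra R R'] [Algebra K K'] [Algebra R K'] [IsScalarTower R K K'] [IsScalarTower R R' K']
    [Algebra L L''] [Algebra K L''] [IsScalarTower K L L''] [IsScalarTower K K' L'']
    (hgen : Algebra.adjoin K' (Set.range (algebraMap L L'')) = ⊤)
    {ι : Type*} [Fintype ι] [DecidableEq ι] (b : Module.Basis ι R C)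
    {κ : Type*} [Fintype κ] [DecidableEq κ] (c : Module.Basis κ R' C'')
    (𝔭 : Ideal R') [𝔭.IsPrime] (h : algebraMap R R' (Algebra.discr R b) ∉ 𝔭) :
    Algebra.discr R' c ∉ 𝔭 := by
  intro hc
  obtain ⟨w, hw⟩ := discr_dvd_pow_of_baseChange K L K' L'' hgen b c
  have : (algebraMap R R' (Algebra.discr R b)) ^ (2 * Fintype.card κ) ∈ 𝔭 := by
    rw [hw]; exact 𝔭.mul_mem_right _ hc
  exact h (Ideal.IsPrime.mem_of_pow_mem inferInstance _ this)

/-- Unit discriminant is stable under base change. -/
theorem isUnit_discr_of_baseChange (K L K' L'' : Type*) {R C R' C'' : Type*}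
    [CommRing R] [IsDomain R] [Field K] [Algebra R K] [IsFractionRing R K]
    [Field L] [Algebra K L] [Algebra R L] [IsScalarTower R K L]
    [FiniteDimensional K L] [Algebra.IsSeparable K L]
    [CommRing C] [Algebra R C] [Algebra C L] [IsScalarTower R C L] [IsIntegralClosure C R L]
    [CommRing R'] [IsDomain R'] [IsIntegrallyClosed R'] [Field K'] [Algebra R' K']
    [IsFractionRing R' K']
    [Field L''] [Algebra K' L''] [Algebra R' L''] [IsScalarTower R' K' L'']
    [FiniteDimensional K' L''] [Algebra.IsSeparable K' L'']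
    [CommRing C''] [Algebra R' C''] [Algebra C'' L''] [IsScalarTower R' C'' L'']
    [IsIntegralClosure C'' R' L'']
    [Algebra R R'] [Algebra K K'] [Algebra R K'] [IsScalarTower R K K'] [IsScalarTower R R' K']
    [Algebra L L''] [Algebra K L''] [IsScalarTower K L L''] [IsScalarTower K K' L'']
    (hgen : Algebra.adjoin K' (Set.range (algebraMap L L'')) = ⊤)
    {ι : Type*} [Fintype ι] [DecidableEq ι] (b : Module.Basis ι R C)
    {κ : Type*} [Fintype κ] [DecidableEq κ] (c : Module.Basis κ R' C'')
    (h : IsUnit (Algebra.discr R b)) : IsUnit (Algebra.discr R' c) :=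
  isUnit_of_dvd_unit (discr_dvd_pow_of_baseChange K L K' L'' hgen b c)
    ((h.map (algebraMap R R')).pow _)

end ring

end Fermat.Agent.Lib.UnitDiscBC
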