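import Mathlib
import Fermat.Prelude.Def_FLTPrelim_Ramification
import Fermat.Agent.S54.Frobenius

/-!
# A subgroup of `Gal(ℚ̄/ℚ)` containing all inertia groups is everything (Minkowski bridge)

`Qb := AlgebraicClosure ℚ`, `Γ := Qb ≃ₐ[ℚ] Qb`.  Inertia groups are the Prelude's
`ValuationSubring.inertiaSubgroupIn ℚ A` for valuation subrings `A` of `Qb` lying over a prime.

* `mem_inertiaSubgroupIn_of_forall_integral` : criterion for membership in the inertia group.
* `exists_inertia_not_fixing` : a finite Galois `K ≠ ℚ` inside `Qb` is moved by some inertia element.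
* `eq_top_of_inertia_le` : an open normal subgroup of `Γ` containing all inertia groups is `⊤`.
-/

set_option autoImplicit false

open scoped NumberField Pointwise

namespace Fermat.Agent.Lib.UnramifiedTrivial

open Fermat.Agent.S54.Frobenius

local notation "Qb" => AlgebraicClosure ℚ
local notation "Γ" => (AlgebraicClosure ℚ ≃ₐ[ℚ] AlgebraicClosure ℚ)
local notation "Bint" => integralClosure ℤ (AlgebraicClosure ℚ)

attribute [local instance] Fermat.Agent.S54.Frobenius.isAlgClosure_rat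

section finite

variable {K : Type*} [Field K] [NumberField K] [IsGalois ℚ K]

/-- Minkowski + Hilbert theory: a Galois number field `K ≠ ℚ` has a prime `q` such that every
prime of `𝓞 K` above `q` has a nontrivial inertia element. -/
theorem exists_prime_forall_exists_inertia (h : 1 < Module.finrank ℚ K) :
    ∃ q : ℕ, q.Prime ∧ ∀ (P : Ideal (𝓞 K)), P.IsPrime → (q : 𝓞 K) ∈ P →
      ∃ τ : Gal(K/ℚ), τ ≠ 1 ∧ ∀ x : 𝓞 K, τ • x - x ∈ P := by
  obtain ⟨q, hq, hP⟩ := NumberField.exists_not_isUnramifiedAt_int_of_isGalois (K := K) (𝒪 := 𝓞 K) h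
  refine ⟨q, hq, fun P hPprime hqP => ?_⟩
  have hram := hP P hPprime hqP
  have hunder : (P.under ℤ).IsPrime := inferInstance
  have hunder_ne : P.under ℤ ≠ ⊥ := by
    intro hbot
    have : ((q : ℤ)) ∈ P.under ℤ := by
      rw [Ideal.mem_comap]
      simpa using hqP
    rw [hbot] at this
    have : (q : ℤ) = 0 := by simpa using this
    exact hq.ne_zero (by exact_mod_cast this)
  have hmax : (P.under ℤ).IsMaximal := Ring.DimensionLEOne.maximalOfPrime hunder_ne hunder
  have : Finite (ℤ ⧸ P.under ℤ) := Ideal.finiteQuotientOfFreeOfNeBot _ hunder_ne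
  have hcard := Ideal.card_inertia_eq_ramificationIdxIn (G := Gal(K/ℚ)) (P.under ℤ) P
  rw [Ideal.ramificationIdxIn_eq_ramificationIdx (P.under ℤ) P Gal(K/ℚ)] at hcard
  have hne : P.ramificationIdx ℤ ≠ 1 := fun h1 => hram (Ideal.ramificationIdx_eq_one_iff.mp h1)
  rw [← hcard] at hne
  have hnontriv : Ideal.inertia Gal(K/ℚ) P ≠ ⊥ := by
    intro hbot
    apply hne
    rw [hbot]
    simp
  obtain ⟨τ, hτ1⟩ := (Subgroup.ne_bot_iff_exists_ne_one).mp hnontriv
  exact ⟨τ.1, fun h => hτ1 (Subtype.ext h), fun x => τ.2 x⟩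

end finite

section criterion

/-- **Inertia criterion.** If `σ b ≡ b` modulo the maximal ideal of `A` for every algebraic
integer `b`, then `σ` lies in the inertia group of `A`. -/
theorem mem_inertiaSubgroupIn_of_forall_integral (A : ValuationSubring Qb) {q : ℕ} (hq : q.Prime)
    (hA : A.LiesOverPrime q) (σ : Γ)
    (hσ : ∀ b : Qb, IsIntegral ℤ b → A.valuation (σ b - b) < 1) :
    σ ∈ A.inertiaSubgroupIn ℚ := by
  have hv : A.valuation ((q : ℕ) : Qb) < 1 := A.mem_nonunits_iff.mp hA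
  have hle : ∀ b : Qb, IsIntegral ℤ b → A.valuation b ≤ 1 := fun b hb =>
    (A.valuation_le_one_iff _).mpr (mem_of_isIntegral_int A hb)
  -- the same hypothesis for `σ⁻¹`
  have hσinv : ∀ b : Qb, IsIntegral ℤ b → A.valuation (σ⁻¹ b - b) < 1 := by
    intro b hb
    have hc : IsIntegral ℤ (σ⁻¹ b) := map_isIntegral_int σ⁻¹ hb
    have h1 := hσ (σ⁻¹ b) hc
    have h2 : σ (σ⁻¹ b) = b := by
      show (σ * σ⁻¹) b = b
      rw [mul_inv_cancel]; rfl
    rw [h2, ← Valuation.map_neg, neg_sub] at h1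
    exact h1
  -- units among integers are preserved
  have hunit : ∀ g : Γ, (∀ b : Qb, IsIntegral ℤ b → A.valuation (g b - b) < 1) →
      ∀ b : Qb, IsIntegral ℤ b → A.valuation b = 1 → A.valuation (g b) = 1 := by
    intro g hg b hb hb1
    have h1 : g b = b + (g b - b) := by ring
    rw [h1, Valuation.map_add_eq_of_lt_left _ (by rw [hb1]; exact hg b hb), hb1]
  have hmem : ∀ g : Γ, (∀ b : Qb, IsIntegral ℤ b → A.valuation (g b - b) < 1) →
      ∀ x ∈ A, g x ∈ A := by
    intro g hg x hx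
    obtain ⟨s, t, hs, ht, hs1, hxs⟩ := exists_integral_fraction A hq hv hx (isAlgebraic_int x)
    have h1 : g x * g s = g t := by rw [← map_mul, hxs]
    have h2 : A.valuation (g s) = 1 := hunit g hg s hs hs1
    have h3 : A.valuation (g t) ≤ 1 := hle _ (map_isIntegral_int g ht)
    rw [← A.valuation_le_one_iff]
    have h4 := congrArg A.valuation h1
    rw [map_mul, h2, mul_one] at h4
    rw [h4]; exact h3
  have hσmem : σ ∈ A.decompositionSubgroup ℚ := by
    rw [MulAction.mem_stabilizer_iff]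
    refine le_antisymm ?_ ?_
    · intro y hy
      obtain ⟨x, hx, rfl⟩ := (ValuationSubring.mem_smul_pointwise_iff_exists _ _ _).mp hy
      exact hmem σ hσ x hx
    · intro x hx
      rw [ValuationSubring.mem_pointwise_smul_iff_inv_smul_mem]
      exact hmem σ⁻¹ hσinv x hx
  have hin : (⟨σ, hσmem⟩ : A.decompositionSubgroup ℚ) ∈ A.inertiaSubgroup ℚ := by
    rw [ValuationSubring.inertiaSubgroup, MonoidHom.mem_ker]
    ext y
    obtain ⟨a, rfl⟩ := IsLocalRing.residue_surjective y
    show (⟨σ, hσmem⟩ : A.decompositionSubgroup ℚ) • (IsLocalRing.residue A a) =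
      IsLocalRing.residue A a
    rw [← IsLocalRing.ResidueField.residue_smul, ← sub_eq_zero, ← map_sub,
      IsLocalRing.residue_eq_zero_iff, ValuationSubring.valuation_lt_one_iff]
    have hx : (a : Qb) ∈ A := a.2
    obtain ⟨s, t, hs, ht, hs1, hxs⟩ := exists_integral_fraction A hq hv hx (isAlgebraic_int _)
    have hds := hσ s hs
    have hdt := hσ t ht
    have hσx : A.valuation (σ (a : Qb)) ≤ 1 :=
      (A.valuation_le_one_iff _).mpr (hmem σ hσ _ hx)
    have key : (σ (a : Qb) - (a : Qb)) * s = (σ t - t) - σ (a : Qb) * (σ s - s) := by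
      have h1 : σ (a : Qb) * σ s = σ t := by rw [← map_mul, hxs]
      linear_combination h1 - hxs
    have h5 := congrArg A.valuation key
    rw [map_mul, hs1, mul_one] at h5
    show A.valuation (σ (a : Qb) - (a : Qb)) < 1
    rw [h5]
    refine lt_of_le_of_lt (Valuation.map_sub A.valuation _ _) (max_lt hdt ?_)
    rw [map_mul]
    exact lt_of_le_of_lt (mul_le_of_le_one_left' hσx) hds
  exact ⟨⟨σ, hσmem⟩, hin, rfl⟩

end criterion

section lift

variable (K : IntermediateField ℚ Qb)

/-- The inclusion of the integers of `K` into all algebraic integers. -/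
noncomputable def iota : 𝓞 K →+* Bint :=
  ((algebraMap K Qb).comp (algebraMap (𝓞 K) K)).codRestrict (integralClosure ℤ Qb)
    (fun x => by
      have h1 : IsIntegral ℤ (algebraMap (𝓞 K) K x) := NumberField.RingOfIntegers.isIntegral_coe x
      exact map_isIntegral_int (algebraMap K Qb) h1)

theorem iota_coe (x : 𝓞 K) : ((iota K x : Bint) : Qb) = ((x : K) : Qb) := rfl

/-- The algebra structure of all algebraic integers over the integers of `K`. -/
@[reducible] noncomputable def algInt : Algebra (𝓞 K) Bint := (iota K).toAlgebra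

attribute [local instance] algInt

theorem algebraMap_int_coe (x : 𝓞 K) : ((algebraMap (𝓞 K) Bint x : Bint) : Qb) = ((x : K) : Qb) :=
  rfl

theorem smulComm_int : SMulCommClass (Qb ≃ₐ[K] Qb) (𝓞 K) Bint where
  smul_comm g a b := by
    apply Subtype.ext
    show g (((algebraMap (𝓞 K) Bint a : Bint) : Qb) * (b : Qb)) =
      ((algebraMap (𝓞 K) Bint a : Bint) : Qb) * g (b : Qb)
    rw [map_mul, algebraMap_int_coe]
    congr 1
    exact g.commutes (a : K)

theorem continuousSMul_intK [TopologicalSpace Bint] [DiscreteTopology Bint] :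
    ContinuousSMul (Qb ≃ₐ[K] Qb) Bint := by
  rw [continuousSMul_iff_stabilizer_isOpen]
  intro b
  have h := stabilizer_isOpen_of_isIntegral (K := K) (L := Qb) (b : Qb)
  convert h using 1
  ext g
  simp [MulAction.mem_stabilizer_iff, Subtype.ext_iff]

theorem isInvariant_intK : Algebra.IsInvariant (𝓞 K) Bint (Qb ≃ₐ[K] Qb) := by
  refine ⟨fun b hb => ?_⟩
  have h1 : (b : Qb) ∈ Set.range (algebraMap K Qb) := by
    rw [InfiniteGalois.mem_range_algebraMap_iff_fixed]
    intro f
    exact congrArg Subtype.val (hb f)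
  obtain ⟨r, hr⟩ := h1
  have h2 : IsIntegral ℤ r := by
    have h3 : IsIntegral ℤ (algebraMap K Qb r) := hr ▸ b.2
    exact (isIntegral_algebraMap_iff (algebraMap K Qb).injective).mp h3
  refine ⟨⟨r, h2⟩, Subtype.ext ?_⟩
  rw [← hr]
  rfl

theorem val_lt_one_iff_of_sub (A : ValuationSubring Qb) {a b : Qb}
    (h : A.valuation (a - b) < 1) : A.valuation a < 1 ↔ A.valuation b < 1 := by
  constructor
  · intro ha
    have h1 : b = a - (a - b) := by ring
    rw [h1]
    exact lt_of_le_of_lt (Valuation.map_sub A.valuation _ _) (max_lt ha h)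
  · intro hb
    have h1 : a = b + (a - b) := by ring
    rw [h1]
    exact lt_of_le_of_lt (Valuation.map_add A.valuation _ _) (max_lt hb h)

theorem exists_lift_inertia [FiniteDimensional ℚ K] [IsGalois ℚ K]
    (A : ValuationSubring Qb) {q : ℕ} (hq : q.Prime) (hA : A.LiesOverPrime q)
    (τ : K ≃ₐ[ℚ] K)
    (hτ : ∀ x : K, IsIntegral ℤ x → A.valuation (((τ x : K) : Qb) - (x : Qb)) < 1) :
    ∃ σ : Γ, σ ∈ A.inertiaSubgroupIn ℚ ∧ ∀ x : K, σ (x : Qb) = ((τ x : K) : Qb) := by
  classical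
  let _ : TopologicalSpace Bint := ⊥
  have : DiscreteTopology Bint := ⟨rfl⟩
  have := continuousSMul_intK K
  have := isInvariant_intK K
  have := smulComm_int K
  let Q : Ideal Bint := primeOf A
  have hQprime : Q.IsPrime := primeOf_isPrime A
  let σ0 : Γ := τ.liftNormal Qb
  have hσ0 : ∀ x : K, σ0 (x : Qb) = ((τ x : K) : Qb) := fun x => τ.liftNormal_commutes Qb x
  have hσ0inv : ∀ x : K, σ0⁻¹ (x : Qb) = ((τ.symm x : K) : Qb) := by
    intro x
    have h1 := hσ0 (τ.symm x)
    rw [AlgEquiv.apply_symm_apply] at h1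
    rw [← h1]
    show (σ0⁻¹ * σ0) _ = _
    rw [inv_mul_cancel]; rfl
  let Q' : Ideal Bint := Q.comap (MulSemiringAction.toRingHom Γ Bint σ0⁻¹)
  have hQ'prime : Q'.IsPrime := Ideal.comap_isPrime _ _
  have hunder : Q'.under (𝓞 K) = Q.under (𝓞 K) := by
    ext x
    show A.valuation (σ0⁻¹ ((x : K) : Qb)) < 1 ↔ A.valuation ((x : K) : Qb) < 1
    rw [hσ0inv]
    have hx : IsIntegral ℤ (τ.symm (x : K)) :=
      map_isIntegral_int τ.symm (NumberField.RingOfIntegers.isIntegral_coe x)
    have h1 := hτ (τ.symm (x : K)) hx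
    rw [AlgEquiv.apply_symm_apply] at h1
    exact (val_lt_one_iff_of_sub A h1).symm
  obtain ⟨ρ, hρ⟩ := Algebra.IsInvariant.exists_smul_of_under_eq_of_profinite (A := 𝓞 K)
    (G := Qb ≃ₐ[K] Qb) Q' Q hunder
  let σ1 : Γ := (ρ.restrictScalars ℚ) * σ0
  have hσ1K : ∀ x : K, σ1 (x : Qb) = ((τ x : K) : Qb) := by
    intro x
    show ρ (σ0 (x : Qb)) = _
    rw [hσ0]
    exact ρ.commutes (τ x)
  have hσ1Q : ∀ b : Bint, b ∈ Q ↔ σ1⁻¹ • b ∈ Q := by
    intro b
    conv_lhs => rw [hρ]
    rw [Ideal.mem_pointwise_smul_iff_inv_smul_mem]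
    rfl
  have hσ1stab : σ1 ∈ MulAction.stabilizer Γ Q := by
    rw [MulAction.mem_stabilizer_iff]
    ext b
    rw [Ideal.mem_pointwise_smul_iff_inv_smul_mem]
    exact (hσ1Q b).symm
  let e := Ideal.Quotient.stabilizerHom Q (Q.under ℤ) Γ ⟨σ1, hσ1stab⟩
  let E : (Bint ⧸ Q) ≃ₐ[𝓞 K ⧸ Q.under (𝓞 K)] (Bint ⧸ Q) :=
    AlgEquiv.ofRingEquiv (f := e.toRingEquiv) (by
      intro r
      obtain ⟨x, rfl⟩ := Ideal.Quotient.mk_surjective r
      show e (Ideal.Quotient.mk Q (algebraMap (𝓞 K) Bint x)) =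
        Ideal.Quotient.mk Q (algebraMap (𝓞 K) Bint x)
      rw [Ideal.Quotient.stabilizerHom_apply, Ideal.Quotient.eq]
      show A.valuation (σ1 ((x : K) : Qb) - ((x : K) : Qb)) < 1
      rw [hσ1K]
      exact hτ _ (NumberField.RingOfIntegers.isIntegral_coe x))
  obtain ⟨ρ', hρ'⟩ := Ideal.Quotient.stabilizerHom_surjective_of_profinite
    (G := Qb ≃ₐ[K] Qb) (Q.under (𝓞 K)) Q E
  have hcong : ∀ b : Bint, A.valuation (ρ'.1 (b : Qb) - σ1 (b : Qb)) < 1 := by
    intro b
    have h1 := congrArg (fun f => f (Ideal.Quotient.mk Q b)) hρ'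
    simp only [Ideal.Quotient.stabilizerHom_apply] at h1
    have h2 : E (Ideal.Quotient.mk Q b) = Ideal.Quotient.mk Q (σ1 • b) := rfl
    rw [h2, Ideal.Quotient.eq] at h1
    exact h1
  have hρ'stab : ∀ b : Bint, b ∈ Q → ρ'.1⁻¹ • b ∈ Q := by
    intro b hb
    have h1 : ρ'.1 • Q = Q := ρ'.2
    rw [← h1, Ideal.mem_pointwise_smul_iff_inv_smul_mem] at hb
    exact hb
  let σ : Γ := (ρ'.1.restrictScalars ℚ)⁻¹ * σ1
  refine ⟨σ, mem_inertiaSubgroupIn_of_forall_integral A hq hA σ ?_, ?_⟩
  · intro b hb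
    let c : Bint := ⟨σ1 b - ρ'.1 b, (map_isIntegral_int σ1 hb).sub (map_isIntegral_int ρ'.1 hb)⟩
    have hc : c ∈ Q := by
      show A.valuation (σ1 b - ρ'.1 b) < 1
      rw [← Valuation.map_neg, neg_sub]
      exact hcong ⟨b, hb⟩
    have h1 := hρ'stab c hc
    have h2 : ((ρ'.1⁻¹ • c : Bint) : Qb) = σ b - b := by
      show ρ'.1⁻¹ (σ1 b - ρ'.1 b) = ρ'.1⁻¹ (σ1 b) - b
      rw [map_sub]
      congr 1
      show (ρ'.1⁻¹ * ρ'.1) b = b
      rw [inv_mul_cancel]; rfl
    have h3 : A.valuation ((ρ'.1⁻¹ • c : Bint) : Qb) < 1 := h1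
    rw [h2] at h3
    exact h3
  · intro x
    show ρ'.1⁻¹ (σ1 (x : Qb)) = _
    rw [hσ1K]
    exact (ρ'.1⁻¹).commutes (τ x)

/-- A finite Galois extension `K ≠ ℚ` inside `Qb` has a prime `q` such that at EVERY place `A`
of `Qb` above `q` some inertia element moves `K`. -/
theorem exists_prime_forall_inertia_not_fixing [FiniteDimensional ℚ K] [IsGalois ℚ K]
    (hK : K ≠ ⊥) :
    ∃ q : ℕ, q.Prime ∧ ∀ A : ValuationSubring Qb, A.LiesOverPrime q →
      ∃ σ ∈ A.inertiaSubgroupIn ℚ, ∃ x ∈ K, σ x ≠ x := by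
  have hNF : NumberField K := { }
  have hfin : 1 < Module.finrank ℚ K := by
    have h0 : 0 < Module.finrank ℚ K := Module.finrank_pos
    have h1 : Module.finrank ℚ K ≠ 1 := fun h => hK (IntermediateField.finrank_eq_one_iff.mp h)
    omega
  obtain ⟨q, hq, hP⟩ := exists_prime_forall_exists_inertia (K := K) hfin
  refine ⟨q, hq, fun A hA => ?_⟩
  have hv : A.valuation ((q : ℕ) : Qb) < 1 := A.mem_nonunits_iff.mp hA
  let P : Ideal (𝓞 K) := (primeOf A).comap (iota K)
  have hPprime : P.IsPrime := by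
    have := primeOf_isPrime A
    exact Ideal.comap_isPrime _ _
  have hqP : (q : 𝓞 K) ∈ P := by
    show A.valuation (((iota K (q : 𝓞 K)) : Bint) : Qb) < 1
    rw [map_natCast]
    simpa using hv
  obtain ⟨τ, hτ1, hτ⟩ := hP P hPprime hqP
  obtain ⟨σ, hσ, hσK⟩ := exists_lift_inertia K A hq hA τ (by
    intro x hx
    exact hτ ⟨x, hx⟩)
  refine ⟨σ, hσ, ?_⟩
  have hex : ∃ x : K, τ x ≠ x := by
    by_contra hcon
    push Not at hcon
    exact hτ1 (AlgEquiv.ext hcon)
  obtain ⟨x, hx⟩ := hex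
  refine ⟨(x : Qb), x.2, ?_⟩
  rw [hσK]
  intro h
  exact hx (Subtype.ext h)

/-- A finite Galois extension `K ≠ ℚ` inside `Qb` is moved by some inertia element. -/
theorem exists_inertia_not_fixing [FiniteDimensional ℚ K] [IsGalois ℚ K] (hK : K ≠ ⊥) :
    ∃ q : ℕ, q.Prime ∧ ∃ A : ValuationSubring Qb, A.LiesOverPrime q ∧
      ∃ σ ∈ A.inertiaSubgroupIn ℚ, ∃ x ∈ K, σ x ≠ x := by
  obtain ⟨q, hq, h⟩ := exists_prime_forall_inertia_not_fixing K hK
  obtain ⟨A, hA⟩ := exists_liesOverPrime hq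
  exact ⟨q, hq, A, hA, h A hA⟩

end lift

/-- **Minkowski bridge, canonical form.** A normal subgroup `H` of `Gal(ℚ̄/ℚ)` which contains
the fixing subgroup of a finite extension `L` and, for every prime `q`, the inertia group of
SOME place of `ℚ̄` above `q`, is the whole group. -/
theorem eq_top_of_inertia_le' (H : Subgroup Γ) [H.Normal] (L : IntermediateField ℚ Qb)
    [FiniteDimensional ℚ L] (hL : L.fixingSubgroup ≤ H)
    (hI : ∀ q : ℕ, q.Prime → ∃ A : ValuationSubring Qb, A.LiesOverPrime q ∧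
      A.inertiaSubgroupIn ℚ ≤ H) :
    H = ⊤ := by
  classical
  have hopen : IsOpen (H : Set Γ) := Subgroup.isOpen_mono hL L.fixingSubgroup_isOpen
  have hclosed : IsClosed (H : Set Γ) := Subgroup.isClosed_of_isOpen H hopen
  let K : IntermediateField ℚ Qb := IntermediateField.fixedField H
  have hKL : K ≤ L := by
    have h1 := InfiniteGalois.fixedField_fixingSubgroup L
    rw [← h1]
    exact IntermediateField.fixedField_le hL
  have hKfd : FiniteDimensional ℚ K := by
    have : Module.Finite ℚ L := inferInstance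
    exact Module.Finite.of_injective (IntermediateField.inclusion hKL).toLinearMap
      (IntermediateField.inclusion hKL).injective
  have hKnormal' : @Normal ℚ ↥K _ _ (IntermediateField.algebra' K) := by
    rw [IntermediateField.normal_iff_forall_map_le']
    intro σ y hy
    obtain ⟨x, hx, rfl⟩ := hy
    rw [IntermediateField.mem_fixedField_iff]
    intro h hh
    have h1 : σ⁻¹ * h * σ ∈ H := by
      have := Subgroup.Normal.conj_mem (inferInstance : H.Normal) h hh σ⁻¹
      simpa using this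
    have h2 := (IntermediateField.mem_fixedField_iff H x).mp hx _ h1
    have h3 : h (σ x) = σ ((σ⁻¹ * h * σ) x) := by
      have h4 : σ * (σ⁻¹ * h * σ) = h * σ := by group
      show (h * σ) x = (σ * (σ⁻¹ * h * σ)) x
      rw [h4]
    show h (σ x) = σ x
    rw [h3, h2]
  have hKnormal : Normal ℚ K := by
    have h : (DivisionRing.toRatAlgebra : Algebra ℚ K) = IntermediateField.algebra' K :=
      Subsingleton.elim _ _
    rw [h]
    exact hKnormal'
  have hKgal : IsGalois ℚ K := ⟨⟩
  have hfix : K.fixingSubgroup = H := InfiniteGalois.fixingSubgroup_fixedField ⟨H, hclosed⟩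
  by_contra hne
  have hKbot : K ≠ ⊥ := by
    intro hbot
    apply hne
    rw [← hfix, hbot, IntermediateField.fixingSubgroup_bot]
  obtain ⟨q, hq, hall⟩ := exists_prime_forall_inertia_not_fixing K hKbot
  obtain ⟨A, hA, hAH⟩ := hI q hq
  obtain ⟨σ, hσ, x, hxK, hx⟩ := hall A hA
  exact hx ((IntermediateField.mem_fixedField_iff H x).mp hxK σ (hAH hσ))

/-- **Minkowski bridge.** A normal subgroup of `Gal(ℚ̄/ℚ)` which contains the pointwise
stabiliser of a finite set of algebraic numbers and all inertia groups at all primes is the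
whole group. -/
theorem eq_top_of_inertia_le (H : Subgroup Γ) [H.Normal] (S : Finset Qb)
    (hS : ∀ σ : Γ, (∀ x ∈ S, σ x = x) → σ ∈ H)
    (hI : ∀ q : ℕ, q.Prime → ∀ A : ValuationSubring Qb, A.LiesOverPrime q →
      A.inertiaSubgroupIn ℚ ≤ H) :
    H = ⊤ := by
  classical
  let L : IntermediateField ℚ Qb := IntermediateField.adjoin ℚ (S : Set Qb)
  have hLfd : FiniteDimensional ℚ L :=
    IntermediateField.finiteDimensional_adjoin (fun x _ => Algebra.IsIntegral.isIntegral x)
  have hLH : L.fixingSubgroup ≤ H := by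
    intro σ hσ
    apply hS
    intro x hx
    exact (IntermediateField.mem_fixingSubgroup_iff L σ).mp hσ x
      (IntermediateField.subset_adjoin ℚ _ hx)
  refine eq_top_of_inertia_le' H L hLH (fun q hq => ?_)
  obtain ⟨A, hA⟩ := exists_liesOverPrime hq
  exact ⟨A, hA, hI q hq A hA⟩

end Fermat.Agent.Lib.UnramifiedTrivial
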