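import Mathlib

set_option autoImplicit false

namespace Fermat.Agent.Lib.X015

/-- If `u v (u - v) (u - 81 v)` is a nonzero square then `v` is `± gcd(u,v)` times a square. -/
theorem key_den (u v Y : ℤ) (hne : u * v * (u - v) * (u - 81 * v) ≠ 0)
    (hsq : u * v * (u - v) * (u - 81 * v) = Y ^ 2) :
    ∃ k : ℤ, v = (Int.gcd u v : ℤ) * k ^ 2 ∨ v = -((Int.gcd u v : ℤ) * k ^ 2) := by
  have hv : v ≠ 0 := by
    rintro rfl; simp at hne
  have hg : 0 < Int.gcd u v := Int.gcd_pos_of_ne_zero_right u hv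
  obtain ⟨u', v', hcop, hu', hv'⟩ := Int.exists_gcd_one hg
  set g : ℤ := (Int.gcd u v : ℤ) with hgdef
  have hg0 : g ≠ 0 := by positivity
  have h1 : (g ^ 2) ^ 2 * (u' * v' * (u' - v') * (u' - 81 * v')) = Y ^ 2 := by
    rw [← hsq, hu', hv']; ring
  have hdvd : g ^ 2 ∣ Y := by
    have : (g ^ 2) ^ 2 ∣ Y ^ 2 := Dvd.intro _ h1
    exact (Int.pow_dvd_pow_iff two_ne_zero).mp this
  obtain ⟨Y', rfl⟩ := hdvd
  have h2 : u' * v' * (u' - v') * (u' - 81 * v') = Y' ^ 2 := by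
    have h3 : (g ^ 2) ^ 2 * (u' * v' * (u' - v') * (u' - 81 * v')) = (g ^ 2) ^ 2 * Y' ^ 2 := by
      rw [h1]; ring
    exact mul_left_cancel₀ (pow_ne_zero 2 (pow_ne_zero 2 hg0)) h3
  have hc : IsCoprime v' u' := (Int.isCoprime_iff_gcd_eq_one.mpr hcop).symm
  have hc1 : IsCoprime v' (u' - v') := by
    have h := hc.add_mul_left_right (-1)
    have e : u' - v' = u' + v' * (-1) := by ring
    rw [e]; exact h
  have hc2 : IsCoprime v' (u' - 81 * v') := by
    have h := hc.add_mul_left_right (-81)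
    have e : u' - 81 * v' = u' + v' * (-81) := by ring
    rw [e]; exact h
  have hc3 : IsCoprime v' (u' * (u' - v') * (u' - 81 * v')) := (hc.mul_right hc1).mul_right hc2
  have h4 : v' * (u' * (u' - v') * (u' - 81 * v')) = Y' ^ 2 := by rw [← h2]; ring
  obtain ⟨k, hk | hk⟩ := Int.sq_of_isCoprime hc3 h4
  · exact ⟨k, Or.inl (by rw [hv', hk]; ring)⟩
  · exact ⟨k, Or.inr (by rw [hv', hk]; ring)⟩


theorem zmod3_a : ∀ z k n : ZMod 3, k ≠ 0 → n ≠ 0 →
    z ^ 2 = k ^ 2 * n * (3 * k ^ 2 - n) * (k ^ 2 - 27 * n) → False := by decide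

theorem zmod3_b : ∀ z k n : ZMod 3, k ≠ 0 → n ≠ 0 →
    z ^ 2 = k ^ 2 * n * (27 * k ^ 2 - n) * (k ^ 2 - 3 * n) → False := by decide

theorem zmod4_a : ∀ a e : ZMod 4, a ^ 2 - e ^ 2 = 2 → False := by decide

theorem zmod8_a : ∀ z a e b : ZMod 8,
    z ^ 2 = (2 * a + 1) ^ 2 * (2 * e + 1) ^ 2 * (2 * b + 1) * ((2 * b + 1) - 10 * (2 * e + 1) ^ 2) →
      False := by decide

theorem divisors_81 {g : ℕ} (h : g ∣ 81) : g = 1 ∨ g = 3 ∨ g = 9 ∨ g = 27 ∨ g = 81 := by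
  have h2 : g ∈ Nat.divisors 81 := Nat.mem_divisors.mpr ⟨h, by norm_num⟩
  have h3 : Nat.divisors 81 = {1, 3, 9, 27, 81} := by decide
  rw [h3] at h2
  simpa using h2

theorem divisors_80 {g : ℕ} (h : g ∣ 80) :
    g = 1 ∨ g = 2 ∨ g = 4 ∨ g = 5 ∨ g = 8 ∨ g = 10 ∨ g = 16 ∨ g = 20 ∨ g = 40 ∨ g = 80 := by
  have h2 : g ∈ Nat.divisors 80 := Nat.mem_divisors.mpr ⟨h, by norm_num⟩
  have h3 : Nat.divisors 80 = {1, 2, 4, 5, 8, 10, 16, 20, 40, 80} := by decide
  rw [h3] at h2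
  simpa using h2


/-- step 1: the denominator is a square, the numerator is positive -/
theorem descent_den (m n Z : ℤ) (hn : 0 < n) (hcop : IsCoprime m n)
    (hZ : m * n * (m - n) * (m - 81 * n) = Z ^ 2) (hZ0 : Z ≠ 0) :
    0 < m ∧ ∃ e : ℤ, n = e ^ 2 := by
  have hne : m * n * (m - n) * (m - 81 * n) ≠ 0 := by rw [hZ]; exact pow_ne_zero 2 hZ0
  refine ⟨?_, ?_⟩
  · by_contra hm
    have hm0 : m ≠ 0 := by rintro rfl; simp at hne
    have hm' : m < 0 := lt_of_le_of_ne (not_lt.mp hm) hm0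
    have h1 : m * n < 0 := mul_neg_of_neg_of_pos hm' hn
    have h2 : 0 < (m - n) * (m - 81 * n) := mul_pos_of_neg_of_neg (by linarith) (by linarith)
    have h3 : m * n * (m - n) * (m - 81 * n) < 0 := by
      have := mul_neg_of_neg_of_pos h1 h2
      calc m * n * (m - n) * (m - 81 * n) = m * n * ((m - n) * (m - 81 * n)) := by ring
        _ < 0 := this
    have h4 : 0 ≤ Z ^ 2 := sq_nonneg Z
    linarith
  · obtain ⟨e, he | he⟩ := key_den m n Z hne hZ
    · rw [Int.isCoprime_iff_gcd_eq_one.mp hcop] at he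
      exact ⟨e, by simpa using he⟩
    · rw [Int.isCoprime_iff_gcd_eq_one.mp hcop] at he
      have : 0 ≤ e ^ 2 := sq_nonneg e
      simp at he
      linarith


theorem three_not_dvd_of_coprime {m n : ℤ} (hcop : IsCoprime m n) (h3 : (3 : ℤ) ∣ m) :
    ((n : ℤ) : ZMod 3) ≠ 0 := by
  intro h
  have h3n : (3 : ℤ) ∣ n := by
    have := (ZMod.intCast_zmod_eq_zero_iff_dvd n 3).mp h
    exact_mod_cast this
  have hu : IsUnit (3 : ℤ) := hcop.isUnit_of_dvd' h3 h3n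
  rw [Int.isUnit_iff] at hu
  omega

/-- step 2: the numerator is a square -/
theorem descent_num (m n Z : ℤ) (hm : 0 < m) (hcop : IsCoprime m n)
    (hZ : m * n * (m - n) * (m - 81 * n) = Z ^ 2) (hZ0 : Z ≠ 0) :
    IsSquare m := by
  have hne : m * n * (m - n) * (m - 81 * n) ≠ 0 := by rw [hZ]; exact pow_ne_zero 2 hZ0
  have e3 : (81 * n) * m * (81 * n - m) * (81 * n - 81 * m) = (81 * Z) ^ 2 := by
    rw [mul_pow, ← hZ]; ring
  have hne3 : (81 * n) * m * (81 * n - m) * (81 * n - 81 * m) ≠ 0 := by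
    rw [e3]; exact pow_ne_zero 2 (mul_ne_zero (by norm_num) hZ0)
  obtain ⟨k, hk | hk⟩ := key_den (81 * n) m (81 * Z) hne3 e3
  swap
  · exfalso
    have h1 : (0 : ℤ) ≤ (Int.gcd (81 * n) m : ℤ) * k ^ 2 := by positivity
    linarith
  set g := Int.gcd (81 * n) m with hg
  have hgm : (g : ℤ) ∣ m := Int.gcd_dvd_right _ _
  have hgn : (g : ℤ) ∣ 81 * n := Int.gcd_dvd_left _ _
  have hcg : IsCoprime (g : ℤ) n := IsCoprime.of_isCoprime_of_dvd_left hcop hgm
  have hg81 : (g : ℤ) ∣ 81 := hcg.dvd_of_dvd_mul_right hgn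
  have hg81' : g ∣ 81 := by exact_mod_cast hg81
  rcases divisors_81 hg81' with h | h | h | h | h
  · exact ⟨k, by rw [hk, h]; push_cast; ring⟩
  · -- g = 3 : impossible
    exfalso
    rw [h] at hk hgm
    push_cast at hk
    have hn3 : ((n : ℤ) : ZMod 3) ≠ 0 := three_not_dvd_of_coprime hcop (by exact_mod_cast hgm)
    have hk3 : ((k : ℤ) : ZMod 3) ≠ 0 := by
      intro hk0
      have h3k : (3 : ℤ) ∣ k := by
        have := (ZMod.intCast_zmod_eq_zero_iff_dvd k 3).mp hk0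
        exact_mod_cast this
      obtain ⟨k', rfl⟩ := h3k
      have h9m : (9 : ℤ) ∣ m := ⟨3 * k' ^ 2, by rw [hk]; ring⟩
      have h9n : (9 : ℤ) ∣ 81 * n := ⟨9 * n, by ring⟩
      have h9 : (9 : ℤ) ∣ (Int.gcd (81 * n) m : ℤ) := Int.dvd_coe_gcd h9n h9m
      rw [← hg, h] at h9
      norm_num at h9
    have h9Z : (3 : ℤ) ^ 2 ∣ Z ^ 2 := by
      refine ⟨k ^ 2 * n * (3 * k ^ 2 - n) * (k ^ 2 - 27 * n), ?_⟩
      rw [← hZ, hk]; ring
    have h3Z : (3 : ℤ) ∣ Z := (Int.pow_dvd_pow_iff two_ne_zero).mp h9Z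
    obtain ⟨Z1, rfl⟩ := h3Z
    have hZ1 : Z1 ^ 2 = k ^ 2 * n * (3 * k ^ 2 - n) * (k ^ 2 - 27 * n) := by
      have : (9 : ℤ) * Z1 ^ 2 = 9 * (k ^ 2 * n * (3 * k ^ 2 - n) * (k ^ 2 - 27 * n)) := by
        have := hZ
        rw [hk] at this
        linear_combination -this
      linarith
    have hc := congrArg (Int.cast : ℤ → ZMod 3) hZ1
    push_cast at hc
    exact zmod3_a _ _ _ hk3 hn3 hc
  · exact ⟨3 * k, by rw [hk, h]; push_cast; ring⟩
  · -- g = 27 : impossible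
    exfalso
    rw [h] at hk hgm
    push_cast at hk
    have h3m : (3 : ℤ) ∣ m := Dvd.dvd.trans (by norm_num) hgm
    have hn3 : ((n : ℤ) : ZMod 3) ≠ 0 := three_not_dvd_of_coprime hcop h3m
    have hk3 : ((k : ℤ) : ZMod 3) ≠ 0 := by
      intro hk0
      have h3k : (3 : ℤ) ∣ k := by
        have := (ZMod.intCast_zmod_eq_zero_iff_dvd k 3).mp hk0
        exact_mod_cast this
      obtain ⟨k', rfl⟩ := h3k
      have h9m : (81 : ℤ) ∣ m := ⟨3 * k' ^ 2, by rw [hk]; ring⟩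
      have h9n : (81 : ℤ) ∣ 81 * n := ⟨n, by ring⟩
      have h9 : (81 : ℤ) ∣ (Int.gcd (81 * n) m : ℤ) := Int.dvd_coe_gcd h9n h9m
      rw [← hg, h] at h9
      norm_num at h9
    have h9Z : (27 : ℤ) ^ 2 ∣ Z ^ 2 := by
      refine ⟨k ^ 2 * n * (27 * k ^ 2 - n) * (k ^ 2 - 3 * n), ?_⟩
      rw [← hZ, hk]; ring
    have h3Z : (27 : ℤ) ∣ Z := (Int.pow_dvd_pow_iff two_ne_zero).mp h9Z
    obtain ⟨Z1, rfl⟩ := h3Z
    have hZ1 : Z1 ^ 2 = k ^ 2 * n * (27 * k ^ 2 - n) * (k ^ 2 - 3 * n) := by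
      have : (729 : ℤ) * Z1 ^ 2 = 729 * (k ^ 2 * n * (27 * k ^ 2 - n) * (k ^ 2 - 3 * n)) := by
        have := hZ
        rw [hk] at this
        linear_combination -this
      linarith
    have hc := congrArg (Int.cast : ℤ → ZMod 3) hZ1
    push_cast at hc
    exact zmod3_b _ _ _ hk3 hn3 hc
  · exact ⟨9 * k, by rw [hk, h]; push_cast; ring⟩


theorem mod4_contra (a e : ℤ) (h : (a ^ 2 - e ^ 2) % 4 = 2) : False := by
  have h4 : (4 : ℤ) ∣ (a ^ 2 - e ^ 2) - 2 := by omega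
  have hc := (ZMod.intCast_zmod_eq_zero_iff_dvd ((a ^ 2 - e ^ 2) - 2) 4).mpr (by exact_mod_cast h4)
  push_cast at hc
  exact zmod4_a (a : ZMod 4) (e : ZMod 4) (by linear_combination hc)

theorem mod16_contra (a e Z : ℤ) (hcop : IsCoprime (a ^ 2) (e ^ 2))
    (hZ : a ^ 2 * e ^ 2 * (a ^ 2 - e ^ 2) * (a ^ 2 - 81 * e ^ 2) = Z ^ 2)
    (h : (a ^ 2 - e ^ 2) % 16 = 8) : False := by
  have hcop' : IsCoprime a e := IsCoprime.pow_iff (by norm_num) (by norm_num) |>.mp hcop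
  have ha : a % 2 = 1 := by
    rcases Int.emod_two_eq_zero_or_one a with h0 | h1
    · exfalso
      have h2a : (2 : ℤ) ∣ a := Int.dvd_of_emod_eq_zero h0
      have h2e : (2 : ℤ) ∣ e := by
        have h2e2 : (2 : ℤ) ∣ e ^ 2 := by
          have h2a2 : (2 : ℤ) ∣ a ^ 2 := Dvd.dvd.pow h2a two_ne_zero
          have h2d : (2 : ℤ) ∣ a ^ 2 - e ^ 2 := by omega
          have := Int.dvd_sub h2a2 h2d
          simpa using this
        exact Int.prime_two.dvd_of_dvd_pow h2e2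
      have hu : IsUnit (2 : ℤ) := hcop'.isUnit_of_dvd' h2a h2e
      rw [Int.isUnit_iff] at hu
      omega
    · exact h1
  have he : e % 2 = 1 := by
    rcases Int.emod_two_eq_zero_or_one e with h0 | h1
    · exfalso
      have h2e : (2 : ℤ) ∣ e := Int.dvd_of_emod_eq_zero h0
      have h2a : (2 : ℤ) ∣ a := by
        have h2a2 : (2 : ℤ) ∣ a ^ 2 := by
          have h2e2 : (2 : ℤ) ∣ e ^ 2 := Dvd.dvd.pow h2e two_ne_zero
          have h2d : (2 : ℤ) ∣ a ^ 2 - e ^ 2 := by omega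
          have := Int.dvd_add h2d h2e2
          simpa using this
        exact Int.prime_two.dvd_of_dvd_pow h2a2
      have hu : IsUnit (2 : ℤ) := hcop'.isUnit_of_dvd' h2a h2e
      rw [Int.isUnit_iff] at hu
      omega
    · exact h1
  obtain ⟨a', rfl⟩ : ∃ a', a = 2 * a' + 1 := ⟨a / 2, by omega⟩
  obtain ⟨e', rfl⟩ : ∃ e', e = 2 * e' + 1 := ⟨e / 2, by omega⟩
  obtain ⟨q, hq⟩ : ∃ q, (2 * a' + 1) ^ 2 - (2 * e' + 1) ^ 2 = 16 * q + 8 :=
    ⟨((2 * a' + 1) ^ 2 - (2 * e' + 1) ^ 2) / 16, by omega⟩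
  have h64 : (8 : ℤ) ^ 2 ∣ Z ^ 2 := by
    refine ⟨(2 * a' + 1) ^ 2 * (2 * e' + 1) ^ 2 * (2 * q + 1) *
      ((2 * q + 1) - 10 * (2 * e' + 1) ^ 2), ?_⟩
    rw [← hZ]
    have e1 : (2 * a' + 1) ^ 2 - 81 * (2 * e' + 1) ^ 2 = 16 * q + 8 - 80 * (2 * e' + 1) ^ 2 := by
      linear_combination hq
    rw [e1, hq]; ring
  have h8 : (8 : ℤ) ∣ Z := (Int.pow_dvd_pow_iff two_ne_zero).mp h64
  obtain ⟨Z1, rfl⟩ := h8
  have hZ1 : Z1 ^ 2 = (2 * a' + 1) ^ 2 * (2 * e' + 1) ^ 2 * (2 * q + 1) *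
      ((2 * q + 1) - 10 * (2 * e' + 1) ^ 2) := by
    have e1 : (2 * a' + 1) ^ 2 - 81 * (2 * e' + 1) ^ 2 = 16 * q + 8 - 80 * (2 * e' + 1) ^ 2 := by
      linear_combination hq
    rw [e1, hq] at hZ
    have : (64 : ℤ) * Z1 ^ 2 = 64 * ((2 * a' + 1) ^ 2 * (2 * e' + 1) ^ 2 * (2 * q + 1) *
      ((2 * q + 1) - 10 * (2 * e' + 1) ^ 2)) := by linear_combination -hZ
    linarith
  have hc := congrArg (Int.cast : ℤ → ZMod 8) hZ1
  push_cast at hc
  exact zmod8_a _ _ _ _ hc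


/-- step 3: `m - n` is `±1` or `±5` times a square -/
theorem descent_mid (a e Z : ℤ) (hcop : IsCoprime (a ^ 2) (e ^ 2))
    (hZ : a ^ 2 * e ^ 2 * (a ^ 2 - e ^ 2) * (a ^ 2 - 81 * e ^ 2) = Z ^ 2) (hZ0 : Z ≠ 0) :
    ∃ d : ℤ, (d = 1 ∨ d = -1 ∨ d = 5 ∨ d = -5) ∧ IsSquare (d * (a ^ 2 - e ^ 2)) := by
  set m := a ^ 2 with hm
  set n := e ^ 2 with hn
  have e4 : (m - 81 * n) * (m - n) * ((m - 81 * n) - (m - n)) * ((m - 81 * n) - 81 * (m - n))
      = (80 * Z) ^ 2 := by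
    rw [mul_pow, ← hZ]; ring
  have hne4 : (m - 81 * n) * (m - n) * ((m - 81 * n) - (m - n)) * ((m - 81 * n) - 81 * (m - n))
      ≠ 0 := by
    rw [e4]; exact pow_ne_zero 2 (mul_ne_zero (by norm_num) hZ0)
  obtain ⟨k, hk⟩ := key_den (m - 81 * n) (m - n) (80 * Z) hne4 e4
  set g := Int.gcd (m - 81 * n) (m - n) with hg
  have hg1 : (g : ℤ) ∣ m - n := Int.gcd_dvd_right _ _
  have hg2 : (g : ℤ) ∣ m - 81 * n := Int.gcd_dvd_left _ _
  have hg3 : (g : ℤ) ∣ 80 * n := by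
    have := Int.dvd_sub hg1 hg2
    have e : m - n - (m - 81 * n) = 80 * n := by ring
    rwa [e] at this
  have hc1 : IsCoprime (m - n) n := by
    have h := hcop.add_mul_right_left (-1)
    have e : m - n = m + -1 * n := by ring
    rw [e]; exact h
  have hcg : IsCoprime (g : ℤ) n := IsCoprime.of_isCoprime_of_dvd_left hc1 hg1
  have hg80 : (g : ℤ) ∣ 80 := hcg.dvd_of_dvd_mul_right hg3
  have hg80' : g ∣ 80 := by exact_mod_cast hg80
  -- the two obstructions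
  have obs4 : ∀ c : ℤ, (2 : ℤ) ∣ c → (g : ℤ) = c → ¬ (4 : ℤ) ∣ c → False := by
    intro c h2c hgc h4c
    have h2 : (2 : ℤ) ∣ m - n := Dvd.dvd.trans h2c (hgc ▸ hg1)
    have h4 : ¬ (4 : ℤ) ∣ m - n := by
      intro h4
      have h4' : (4 : ℤ) ∣ m - 81 * n := by
        have e : m - 81 * n = (m - n) - 4 * (20 * n) := by ring
        rw [e]; exact Int.dvd_sub h4 ⟨20 * n, rfl⟩
      have := Int.dvd_coe_gcd h4' h4
      rw [← hg, hgc] at this
      exact h4c this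
    exact mod4_contra a e (by omega)
  have obs16 : ∀ c : ℤ, (8 : ℤ) ∣ c → (g : ℤ) = c → ¬ (16 : ℤ) ∣ c → False := by
    intro c h8c hgc h16c
    have h8 : (8 : ℤ) ∣ m - n := Dvd.dvd.trans h8c (hgc ▸ hg1)
    have h16 : ¬ (16 : ℤ) ∣ m - n := by
      intro h16
      have h16' : (16 : ℤ) ∣ m - 81 * n := by
        have e : m - 81 * n = (m - n) - 16 * (5 * n) := by ring
        rw [e]; exact Int.dvd_sub h16 ⟨5 * n, rfl⟩
      have := Int.dvd_coe_gcd h16' h16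
      rw [← hg, hgc] at this
      exact h16c this
    exact mod16_contra a e Z hcop hZ (by omega)
  rcases divisors_80 hg80' with h | h | h | h | h | h | h | h | h | h
  · rcases hk with hk | hk
    · exact ⟨1, by simp, k, by rw [hk, h]; push_cast; ring⟩
    · exact ⟨-1, by simp, k, by rw [hk, h]; push_cast; ring⟩
  · exact (obs4 2 (by norm_num) (by rw [h]; norm_num) (by norm_num)).elim
  · rcases hk with hk | hk
    · exact ⟨1, by simp, 2 * k, by rw [hk, h]; push_cast; ring⟩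
    · exact ⟨-1, by simp, 2 * k, by rw [hk, h]; push_cast; ring⟩
  · rcases hk with hk | hk
    · exact ⟨5, by simp, 5 * k, by rw [hk, h]; push_cast; ring⟩
    · exact ⟨-5, by simp, 5 * k, by rw [hk, h]; push_cast; ring⟩
  · exact (obs16 8 (by norm_num) (by rw [h]; norm_num) (by norm_num)).elim
  · exact (obs4 10 (by norm_num) (by rw [h]; norm_num) (by norm_num)).elim
  · rcases hk with hk | hk
    · exact ⟨1, by simp, 4 * k, by rw [hk, h]; push_cast; ring⟩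
    · exact ⟨-1, by simp, 4 * k, by rw [hk, h]; push_cast; ring⟩
  · rcases hk with hk | hk
    · exact ⟨5, by simp, 10 * k, by rw [hk, h]; push_cast; ring⟩
    · exact ⟨-5, by simp, 10 * k, by rw [hk, h]; push_cast; ring⟩
  · exact (obs16 40 (by norm_num) (by rw [h]; norm_num) (by norm_num)).elim
  · rcases hk with hk | hk
    · exact ⟨5, by simp, 20 * k, by rw [hk, h]; push_cast; ring⟩
    · exact ⟨-5, by simp, 20 * k, by rw [hk, h]; push_cast; ring⟩


/-- The 2-descent on `y² = x (x - 1) (x - 81)`: for a rational point with `y ≠ 0`,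
`x` is a square and `x - 1`, `x - 81` are `d` times a square with `d ∈ {1, -1, 5, -5}`. -/
theorem descentA (x : ℚ) (h0 : x ≠ 0) (h1 : x ≠ 1) (h81 : x ≠ 81)
    (hsq : IsSquare (x * (x - 1) * (x - 81))) :
    IsSquare x ∧ ∃ d : ℚ, (d = 1 ∨ d = -1 ∨ d = 5 ∨ d = -5) ∧
      IsSquare (d * (x - 1)) ∧ IsSquare (d * (x - 81)) := by
  obtain ⟨y, hy⟩ := hsq
  have hnpos : (0 : ℤ) < (x.den : ℤ) := by exact_mod_cast x.den_pos
  have hn0 : ((x.den : ℤ) : ℚ) ≠ 0 := by exact_mod_cast x.den_pos.ne'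
  have hx : x = (x.num : ℚ) / ((x.den : ℤ) : ℚ) := by
    have := Rat.num_div_den x
    push_cast
    exact this.symm
  have hcop : IsCoprime x.num (x.den : ℤ) := by
    rw [Int.isCoprime_iff_gcd_eq_one]
    have := x.reduced
    simpa [Int.gcd, Nat.Coprime] using this
  generalize x.num = m at hx hcop
  generalize (x.den : ℤ) = n at hx hcop hnpos hn0
  have hsqQ : IsSquare ((m * n * (m - n) * (m - 81 * n) : ℤ) : ℚ) := by
    refine ⟨y * n ^ 2, ?_⟩
    push_cast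
    have e1 : (y * (n : ℚ) ^ 2) * (y * (n : ℚ) ^ 2) = (y * y) * (n : ℚ) ^ 4 := by ring
    rw [e1, ← hy, hx]
    field_simp
  obtain ⟨Z, hZ'⟩ := Rat.isSquare_intCast_iff.mp hsqQ
  have hZ : m * n * (m - n) * (m - 81 * n) = Z ^ 2 := by rw [hZ']; ring
  have hm0 : m ≠ 0 := by
    rintro rfl
    apply h0; rw [hx]; simp
  have hmn : m - n ≠ 0 := by
    intro h
    have : m = n := by linarith
    apply h1; rw [hx, this]; field_simp
  have hm81 : m - 81 * n ≠ 0 := by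
    intro h
    have : m = 81 * n := by linarith
    apply h81; rw [hx, this]; push_cast; field_simp
  have hZ0 : Z ≠ 0 := by
    rintro rfl
    have : m * n * (m - n) * (m - 81 * n) = 0 := by rw [hZ]; ring
    have hn0' : n ≠ 0 := hnpos.ne'
    simp [hm0, hn0', hmn, hm81] at this
  obtain ⟨hmpos, e, rfl⟩ := descent_den m n Z hnpos hcop hZ hZ0
  obtain ⟨a, ha⟩ := descent_num m (e ^ 2) Z hmpos hcop hZ hZ0
  have ha' : m = a ^ 2 := by rw [ha]; ring
  subst ha'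
  obtain ⟨d, hd, w, hw⟩ := descent_mid a e Z hcop hZ hZ0
  have he0 : (e : ℚ) ≠ 0 := by
    intro h
    apply hn0; push_cast; rw [h]; ring
  have ha0 : (a : ℚ) ≠ 0 := by
    intro h
    have : a = 0 := by exact_mod_cast h
    apply hm0; rw [this]; ring
  have hd0 : (d : ℚ) ≠ 0 := by
    rcases hd with rfl | rfl | rfl | rfl <;> norm_num
  have hxsq : IsSquare x := ⟨a / e, by rw [hx]; push_cast; field_simp⟩
  have hx1 : IsSquare ((d : ℚ) * (x - 1)) := by
    refine ⟨w / e, ?_⟩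
    have hwQ : ((d : ℚ) * ((a : ℚ) ^ 2 - (e : ℚ) ^ 2)) = w * w := by exact_mod_cast hw
    rw [hx]; push_cast; field_simp
    linear_combination hwQ
  have hx1ne : (d : ℚ) * (x - 1) ≠ 0 := mul_ne_zero hd0 (sub_ne_zero.mpr h1)
  have hprod : IsSquare (x * ((d : ℚ) * (x - 1)) * ((d : ℚ) * (x - 81))) :=
    ⟨d * y, by linear_combination (d : ℚ) ^ 2 * hy⟩
  have hx81 : IsSquare ((d : ℚ) * (x - 81)) := by
    have h := hprod.div (hxsq.mul hx1)
    have e2 : x * ((d : ℚ) * (x - 1)) * ((d : ℚ) * (x - 81)) / (x * ((d : ℚ) * (x - 1)))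
        = (d : ℚ) * (x - 81) := by
      field_simp
    rwa [e2] at h
  refine ⟨hxsq, d, ?_, hx1, hx81⟩
  rcases hd with rfl | rfl | rfl | rfl <;> simp


/-- all three of `x`, `x - 1`, `x - 81` are nonzero rational squares -/
def Good1 (x : ℚ) : Prop :=
  x ≠ 0 ∧ x ≠ 1 ∧ x ≠ 81 ∧ IsSquare x ∧ IsSquare (x - 1) ∧ IsSquare (x - 81)

theorem isSquare_81 : IsSquare (81 : ℚ) := ⟨9, by norm_num⟩

theorem isSquare_16 : IsSquare (16 : ℚ) := ⟨4, by norm_num⟩

theorem good1_of_neg1 (x : ℚ) (h0 : x ≠ 0) (h1 : x ≠ 1) (h81 : x ≠ 81) (hx : IsSquare x)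
    (hx1 : IsSquare (-1 * (x - 1))) (hx81 : IsSquare (-1 * (x - 81))) : Good1 (81 / x) := by
  have h1' : x - 1 ≠ 0 := sub_ne_zero.mpr h1
  have h81' : x - 81 ≠ 0 := sub_ne_zero.mpr h81
  refine ⟨by positivity, ?_, ?_, isSquare_81.div hx, ?_, ?_⟩
  · intro h
    apply h81
    field_simp at h
    linarith
  · intro h
    apply h1
    field_simp at h
    linarith
  · have h := hx81.div hx
    have e : -1 * (x - 81) / x = 81 / x - 1 := by field_simp; ring
    rwa [e] at h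
  · have h := (isSquare_81.mul hx1).div hx
    have e : 81 * (-1 * (x - 1)) / x = 81 / x - 81 := by field_simp; ring
    rwa [e] at h

theorem good1_of_5 (x : ℚ) (h0 : x ≠ 0) (h1 : x ≠ 1) (h81 : x ≠ 81) (hx : IsSquare x)
    (hx1 : IsSquare (5 * (x - 1))) (hx81 : IsSquare (5 * (x - 81))) :
    Good1 (81 * (x - 1) / (x - 81)) := by
  have h1' : x - 1 ≠ 0 := sub_ne_zero.mpr h1
  have h81' : x - 81 ≠ 0 := sub_ne_zero.mpr h81
  refine ⟨by positivity, ?_, ?_, ?_, ?_, ?_⟩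
  · intro h
    apply h0
    field_simp at h
    linarith
  · intro h
    field_simp at h
    have : x - 1 = x - 81 := by linarith
    linarith
  · have h := ((isSquare_81.mul hx1).mul hx81).div (IsSquare.mul_self (5 * (x - 81)))
    have e : 81 * (5 * (x - 1)) * (5 * (x - 81)) / ((5 * (x - 81)) * (5 * (x - 81)))
        = 81 * (x - 1) / (x - 81) := by field_simp
    rwa [e] at h
  · have h := ((isSquare_16.mul hx).mul hx81).div (IsSquare.mul_self (x - 81))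
    have e : 16 * x * (5 * (x - 81)) / ((x - 81) * (x - 81)) = 81 * (x - 1) / (x - 81) - 1 := by
      field_simp; ring
    rwa [e] at h
  · have h := ((isSquare_81.mul isSquare_16).mul hx81).div (IsSquare.mul_self (x - 81))
    have e : 81 * 16 * (5 * (x - 81)) / ((x - 81) * (x - 81)) = 81 * (x - 1) / (x - 81) - 81 := by
      field_simp; ring
    rwa [e] at h

theorem good1_of_neg5 (x : ℚ) (h0 : x ≠ 0) (h1 : x ≠ 1) (h81 : x ≠ 81) (hx : IsSquare x)
    (hx1 : IsSquare (-5 * (x - 1))) (hx81 : IsSquare (-5 * (x - 81))) :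
    Good1 ((x - 81) / (x - 1)) := by
  have h1' : x - 1 ≠ 0 := sub_ne_zero.mpr h1
  have h81' : x - 81 ≠ 0 := sub_ne_zero.mpr h81
  refine ⟨by positivity, ?_, ?_, ?_, ?_, ?_⟩
  · intro h
    field_simp at h
    linarith
  · intro h
    apply h0
    field_simp at h
    linarith
  · have h := (hx81.mul hx1).div (IsSquare.mul_self (5 * (x - 1)))
    have e : -5 * (x - 81) * (-5 * (x - 1)) / ((5 * (x - 1)) * (5 * (x - 1)))
        = (x - 81) / (x - 1) := by field_simp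
    rwa [e] at h
  · have h := (isSquare_16.mul hx1).div (IsSquare.mul_self (x - 1))
    have e : 16 * (-5 * (x - 1)) / ((x - 1) * (x - 1)) = (x - 81) / (x - 1) - 1 := by
      field_simp; ring
    rwa [e] at h
  · have h := ((isSquare_16.mul hx).mul hx1).div (IsSquare.mul_self (x - 1))
    have e : 16 * x * (-5 * (x - 1)) / ((x - 1) * (x - 1)) = (x - 81) / (x - 1) - 81 := by
      field_simp; ring
    rwa [e] at h

theorem exists_good1 (x : ℚ) (h0 : x ≠ 0) (h1 : x ≠ 1) (h81 : x ≠ 81)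
    (hsq : IsSquare (x * (x - 1) * (x - 81))) : ∃ x₁ : ℚ, Good1 x₁ := by
  obtain ⟨hx, d, hd, hd1, hd81⟩ := descentA x h0 h1 h81 hsq
  rcases hd with rfl | rfl | rfl | rfl
  · exact ⟨x, h0, h1, h81, hx, by simpa using hd1, by simpa using hd81⟩
  · exact ⟨_, good1_of_neg1 x h0 h1 h81 hx hd1 hd81⟩
  · exact ⟨_, good1_of_5 x h0 h1 h81 hx hd1 hd81⟩
  · exact ⟨_, good1_of_neg5 x h0 h1 h81 hx hd1 hd81⟩


theorem natAbs_num_lt_of_eq_div (q : ℚ) (u v N : ℤ) (hv : v ≠ 0) (hu : 0 < u) (huN : u < N)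
    (hq : q = (u : ℚ) / (v : ℚ)) : q.num.natAbs < N.natAbs := by
  have h1 : q = Rat.divInt u v := by rw [Rat.divInt_eq_div]; exact hq
  have h2 : q.num ∣ u := by rw [h1]; exact Rat.num_dvd u hv
  have h3 : q.num.natAbs ∣ u.natAbs := Int.natAbs_dvd_natAbs.mpr h2
  have h4 : q.num.natAbs ≤ u.natAbs := Nat.le_of_dvd (Int.natAbs_pos.mpr hu.ne') h3
  have h5 : u.natAbs < N.natAbs := Int.natAbs_lt_natAbs_of_nonneg_of_lt hu.le huN
  omega

theorem halving_int (a e b c : ℤ) (ha : 0 < a) (he : 0 < e) (hb : 0 < b) (hc : 0 < c)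
    (h1 : a ^ 2 - e ^ 2 = b ^ 2) (h2 : a ^ 2 - 81 * e ^ 2 = c ^ 2) :
    ∃ x' : ℚ, Good1 x' ∧ x'.num.natAbs < (a * a).natAbs := by
  have hba : b < a := by
    by_contra hcon
    have : a ≤ b := not_lt.mp hcon
    nlinarith [sq_nonneg e, he]
  have hca : c < a := by
    by_contra hcon
    have : a ≤ c := not_lt.mp hcon
    nlinarith [sq_nonneg e, he]
  have hA : (0 : ℚ) < a := by exact_mod_cast ha
  have hE : (0 : ℚ) < e := by exact_mod_cast he
  have hB : (0 : ℚ) < b := by exact_mod_cast hb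
  have hC : (0 : ℚ) < c := by exact_mod_cast hc
  have hBA : (b : ℚ) < a := by exact_mod_cast hba
  have hCA : (c : ℚ) < a := by exact_mod_cast hca
  have h1q : (a : ℚ) ^ 2 - (e : ℚ) ^ 2 = (b : ℚ) ^ 2 := by exact_mod_cast h1
  have h2q : (a : ℚ) ^ 2 - 81 * (e : ℚ) ^ 2 = (c : ℚ) ^ 2 := by exact_mod_cast h2
  have hAB : (a : ℚ) - b ≠ 0 := by linarith
  have hE2 : (e : ℚ) ^ 2 ≠ 0 := by positivity
  set h : ℚ := ((a : ℚ) + b) * ((a : ℚ) + c) / (e : ℚ) ^ 2 with hh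
  have hh1 : h - 1 = ((a : ℚ) + b) * ((b : ℚ) + c) / (e : ℚ) ^ 2 := by
    rw [hh]; field_simp; linear_combination h1q
  have hh81 : h - 81 = ((a : ℚ) + c) * ((b : ℚ) + c) / (e : ℚ) ^ 2 := by
    rw [hh]; field_simp; linear_combination h2q
  have hpos : 0 < h := by rw [hh]; positivity
  have hpos1 : 0 < h - 1 := by rw [hh1]; positivity
  have hpos81 : 0 < h - 81 := by rw [hh81]; positivity
  have hsq : IsSquare (h * (h - 1) * (h - 81)) := by
    refine ⟨((a : ℚ) + b) * ((a : ℚ) + c) * ((b : ℚ) + c) / (e : ℚ) ^ 3, ?_⟩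
    rw [hh1, hh81, hh]; field_simp
  have hne0 : h ≠ 0 := hpos.ne'
  have hne1 : h ≠ 1 := by intro hcon; rw [hcon] at hpos1; simp at hpos1
  have hne81 : h ≠ 81 := by intro hcon; rw [hcon] at hpos81; simp at hpos81
  obtain ⟨hsqh, d, hd, hd1, hd81⟩ := descentA h hne0 hne1 hne81 hsq
  have hdiv1 : h = ((a + c : ℤ) : ℚ) / ((a - b : ℤ) : ℚ) := by
    rw [hh]; push_cast; field_simp; linear_combination h1q
  have hab0 : a - b ≠ 0 := by omega
  have haa : a + c < a * a := by nlinarith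
  rcases hd with rfl | rfl | rfl | rfl
  · refine ⟨h, ⟨hne0, hne1, hne81, hsqh, by simpa using hd1, by simpa using hd81⟩, ?_⟩
    exact natAbs_num_lt_of_eq_div h (a + c) (a - b) (a * a) hab0 (by omega) haa hdiv1
  · exfalso
    have := hd1.nonneg
    linarith
  · refine ⟨_, good1_of_5 h hne0 hne1 hne81 hsqh hd1 hd81, ?_⟩
    have hdiv2 : 81 * (h - 1) / (h - 81) = ((a - c : ℤ) : ℚ) / ((a - b : ℤ) : ℚ) := by
      rw [hh1, hh81]; push_cast; field_simp
      linear_combination (81 : ℚ) * h1q - h2q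
    exact natAbs_num_lt_of_eq_div _ (a - c) (a - b) (a * a) hab0 (by omega) (by nlinarith) hdiv2
  · exfalso
    have := hd1.nonneg
    linarith


theorem exists_int_sq (q : ℚ) (z : ℤ) (hz : z ≠ 0) (h : q * q = (z : ℚ)) :
    ∃ b : ℤ, 0 < b ∧ z = b ^ 2 := by
  have hsq : IsSquare ((z : ℤ) : ℚ) := ⟨q, h.symm⟩
  obtain ⟨b0, hb0⟩ := Rat.isSquare_intCast_iff.mp hsq
  refine ⟨|b0|, ?_, ?_⟩
  · apply abs_pos.mpr
    rintro rfl
    apply hz; rw [hb0]; ring
  · rw [hb0, sq_abs]; ring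

theorem halving (x : ℚ) (hx : Good1 x) : ∃ x' : ℚ, Good1 x' ∧ x'.num.natAbs < x.num.natAbs := by
  obtain ⟨h0, h1, h81, ⟨r1, hr1⟩, ⟨r2, hr2⟩, ⟨r3, hr3⟩⟩ := hx
  have hr10 : r1 ≠ 0 := by
    rintro rfl
    apply h0; rw [hr1]; ring
  set r : ℚ := |r1| with hr
  have hrpos : 0 < r := abs_pos.mpr hr10
  have hxr : x = r * r := by rw [hr1, hr]; exact (abs_mul_abs_self r1).symm
  have ha : 0 < r.num := Rat.num_pos.mpr hrpos
  have he : (0 : ℤ) < (r.den : ℤ) := by exact_mod_cast r.den_pos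
  have hrq : r = (r.num : ℚ) / ((r.den : ℤ) : ℚ) := by
    have := Rat.num_div_den r
    push_cast
    exact this.symm
  have hxnum : x.num = r.num * r.num := by rw [hxr]; exact Rat.mul_self_num r
  rw [hxnum]
  generalize r.num = a at ha hrq
  generalize (r.den : ℤ) = e at he hrq
  have hE : (0 : ℚ) < e := by exact_mod_cast he
  have hxa : x = (a : ℚ) ^ 2 / (e : ℚ) ^ 2 := by rw [hxr, hrq]; field_simp
  -- b
  have hz1 : a ^ 2 - e ^ 2 ≠ 0 := by
    intro hcon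
    apply h1
    have : (a : ℚ) ^ 2 - (e : ℚ) ^ 2 = 0 := by exact_mod_cast hcon
    rw [hxa]; field_simp; linarith
  have hz2 : a ^ 2 - 81 * e ^ 2 ≠ 0 := by
    intro hcon
    apply h81
    have : (a : ℚ) ^ 2 - 81 * (e : ℚ) ^ 2 = 0 := by exact_mod_cast hcon
    rw [hxa]; field_simp; linarith
  obtain ⟨b, hb, hb2⟩ := exists_int_sq (r2 * e) (a ^ 2 - e ^ 2) hz1 (by
    have e1 : r2 * (e : ℚ) * (r2 * e) = (r2 * r2) * (e : ℚ) ^ 2 := by ring
    rw [e1, ← hr2, hxa]; push_cast; field_simp)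
  obtain ⟨c, hc, hc2⟩ := exists_int_sq (r3 * e) (a ^ 2 - 81 * e ^ 2) hz2 (by
    have e1 : r3 * (e : ℚ) * (r3 * e) = (r3 * r3) * (e : ℚ) ^ 2 := by ring
    rw [e1, ← hr3, hxa]; push_cast; field_simp)
  exact halving_int a e b c ha he hb hc hb2 hc2

theorem no_good1 : ∀ (N : ℕ) (x : ℚ), x.num.natAbs = N → ¬ Good1 x := by
  intro N
  induction N using Nat.strong_induction_on with
  | _ N ih =>
    intro x hN hx
    obtain ⟨x', hx', hlt⟩ := halving x hx
    exact ih _ (hN ▸ hlt) x' rfl hx'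

/-- **Rank zero for `15a2`**: the only rational points on `y² = x (x - 1) (x - 81)` have `y = 0`. -/
theorem isSquare_cubic_iff (x : ℚ) (hsq : IsSquare (x * (x - 1) * (x - 81))) :
    x = 0 ∨ x = 1 ∨ x = 81 := by
  by_contra hcon
  obtain ⟨h0, hcon'⟩ := not_or.mp hcon
  obtain ⟨h1, h81⟩ := not_or.mp hcon'
  obtain ⟨x₁, hx₁⟩ := exists_good1 x h0 h1 h81 hsq
  exact no_good1 _ x₁ rfl hx₁

/-- **Rational points of `X₀(15)`** in the model `y² = x (x + 9) (x - 16)` (Cremona `15a1`). -/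
theorem x015_points (x y : ℚ) (h : y ^ 2 = x * (x + 9) * (x - 16)) :
    x = 0 ∨ x = -9 ∨ x = 16 ∨ x = 36 ∨ x = -4 := by
  by_cases h16 : x = 16
  · exact Or.inr (Or.inr (Or.inl h16))
  have h16' : x - 16 ≠ 0 := sub_ne_zero.mpr h16
  have key := isSquare_cubic_iff (x * (x + 9) / (x - 16)) (by
    refine ⟨y * (x + 4) * (x - 36) / (x - 16) ^ 2, ?_⟩
    have e1 : x * (x + 9) / (x - 16) - 1 = (x + 4) ^ 2 / (x - 16) := by field_simp; ring
    have e2 : x * (x + 9) / (x - 16) - 81 = (x - 36) ^ 2 / (x - 16) := by field_simp; ring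
    rw [e1, e2]; field_simp
    linear_combination (-(x + 4) ^ 2 * (x - 36) ^ 2) * h)
  rcases key with h | h | h
  · have : x * (x + 9) = 0 := (div_eq_zero_iff.mp h).resolve_right h16'
    rcases mul_eq_zero.mp this with h | h
    · exact Or.inl h
    · exact Or.inr (Or.inl (by linarith))
  · have : (x + 4) ^ 2 = 0 := by
      field_simp at h
      linear_combination h
    have : x + 4 = 0 := by simpa using this
    exact Or.inr (Or.inr (Or.inr (Or.inr (by linarith))))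
  · have : (x - 36) ^ 2 = 0 := by
      field_simp at h
      linear_combination h
    have : x - 36 = 0 := by simpa using this
    exact Or.inr (Or.inr (Or.inr (Or.inl (by linarith))))

end Fermat.Agent.Lib.X015
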